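/-
S59 Route A, ETA′ (module form of the congruence ideal; sub-captain helper72) — the ABSTRACT algebra.
Plan and piece table: NOTES/S59-ETA.md.

Setting: `𝒪` a commutative ring (a DVR in the applications), `L` an `𝒪`-lattice with a bilinear
form `B`, `T` a commutative `𝒪`-algebra acting on `L` by `B`-self-adjoint operators,
`ψ : T →ₐ[𝒪] 𝒪` an augmentation, `x ∈ L[ψ]`.

* `s59eta_eig L ψ`      : the eigen-submodule `L[ψ] = {y | ∀ t, t • y = ψ t • y}`;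
* `s59eta_J B E x`      : the ideal `B(x, E) ⊆ 𝒪` (the MODULE congruence ideal for `E = L[ψ]`);
* `s59eta_gen_abs`      : (GEN)  `η_T(ψ) ≤ B(x, L[ψ])` as soon as `B(x, z) = 1` for some `z`;
* `s59eta_min_abs`      : (MIN′) `B(x, L[ψ]) ≤ η_T(ψ)` when `L` is free over `T`;
* `s59eta_step_abs`     : (ETA′) `B'(x', E') ≤ (c_q) · B(x, E)` for the depleted vector
                          `x' = q ξ₀ x − a ξ₁ x + ξ₂ x`, from the Gram identity of `ξ₀, ξ₁, ξ₂`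
                          (E-ADJ/E-CQ) and `E' ⊆ ξ(E³)` (E-SAT + E-MULT1);
* `s59eta_prim_abs`     : `x'` is primitive if `x` is and `ξ` is saturated;
* `s59eta_perf_abs`     : a primitive vector of a free module with a right-perfect form has a
                          partner `z` with `B(x, z) = 1`.
-/
import Mathlib
import Fermat.Agent.S59.Plan

set_option autoImplicit false

namespace Fermat.Agent.S59

section Abs

variable {𝒪 : Type} [CommRing 𝒪]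

/-- The eigen-submodule `L[ψ]` of a `T`-module `L` for an augmentation `ψ : T → 𝒪`. -/
def s59eta_eig {T : Type} [CommRing T] [Algebra 𝒪 T] (L : Type) [AddCommGroup L]
    [Module 𝒪 L] [Module T L] [IsScalarTower 𝒪 T L] (ψ : T →ₐ[𝒪] 𝒪) : Submodule 𝒪 L where
  carrier := {y | ∀ t : T, t • y = ψ t • y}
  zero_mem' := fun t => by simp
  add_mem' := fun {y z} hy hz t => by
    show t • (y + z) = ψ t • (y + z)
    rw [smul_add, smul_add, hy t, hz t]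
  smul_mem' := fun c y hy t => by
    show t • c • y = ψ t • c • y
    have h1 : t • c • y = c • t • y := by
      rw [← algebraMap_smul T c y, smul_smul, mul_comm, ← smul_smul, algebraMap_smul]
    rw [h1, hy t, smul_comm]

theorem s59eta_mem_eig {T : Type} [CommRing T] [Algebra 𝒪 T] {L : Type} [AddCommGroup L]
    [Module 𝒪 L] [Module T L] [IsScalarTower 𝒪 T L] {ψ : T →ₐ[𝒪] 𝒪} {y : L} :
    y ∈ s59eta_eig L ψ ↔ ∀ t : T, t • y = ψ t • y := Iff.rfl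

/-- The ideal `B(x, E)` of `𝒪`. -/
def s59eta_J {L : Type} [AddCommGroup L] [Module 𝒪 L] (B : L →ₗ[𝒪] L →ₗ[𝒪] 𝒪)
    (E : Submodule 𝒪 L) (x : L) : Ideal 𝒪 :=
  Submodule.map (B x) E

theorem s59eta_mem_J {L : Type} [AddCommGroup L] [Module 𝒪 L] {B : L →ₗ[𝒪] L →ₗ[𝒪] 𝒪}
    {E : Submodule 𝒪 L} {x : L} {c : 𝒪} : c ∈ s59eta_J B E x ↔ ∃ y ∈ E, B x y = c :=
  Submodule.mem_map

/-- **(GEN)** the ring congruence ideal is contained in the module congruence ideal. -/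
theorem s59eta_gen_abs {T : Type} [CommRing T] [Algebra 𝒪 T] {L : Type} [AddCommGroup L]
    [Module 𝒪 L] [Module T L] [IsScalarTower 𝒪 T L] (B : L →ₗ[𝒪] L →ₗ[𝒪] 𝒪)
    (hB : ∀ (t : T) (x y : L), B (t • x) y = B x (t • y))
    (ψ : T →ₐ[𝒪] 𝒪) (x z : L) (hx : x ∈ s59eta_eig L ψ) (hxz : B x z = 1) :
    s59p_eta 𝒪 ψ ≤ s59eta_J B (s59eta_eig L ψ) x := by
  unfold s59p_eta
  rw [Ideal.map_le_iff_le_comap]
  intro t ht
  rw [Submodule.mem_annihilator] at ht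
  rw [Ideal.mem_comap, s59eta_mem_J]
  refine ⟨t • z, ?_, ?_⟩
  · intro s
    have hs : s - algebraMap 𝒪 T (ψ s) ∈ RingHom.ker (ψ : T →+* 𝒪) := by
      rw [RingHom.mem_ker]
      show ψ (s - algebraMap 𝒪 T (ψ s)) = 0
      rw [map_sub, AlgHom.commutes]
      simp
    have h0 := ht _ hs
    rw [smul_eq_mul, mul_sub, sub_eq_zero] at h0
    rw [smul_smul, mul_comm, h0, mul_comm, ← smul_smul, algebraMap_smul]
  · show B x (t • z) = ψ t
    rw [← hB, hx t, map_smul, LinearMap.smul_apply, hxz, smul_eq_mul, mul_one]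

/-- **(MIN′)** if `L` is free over `T`, the module congruence ideal is contained in the ring
congruence ideal. -/
theorem s59eta_min_abs {T : Type} [CommRing T] [Algebra 𝒪 T] {L : Type} [AddCommGroup L]
    [Module 𝒪 L] [Module T L] [IsScalarTower 𝒪 T L] {ι : Type} (b : Module.Basis ι T L)
    (B : L →ₗ[𝒪] L →ₗ[𝒪] 𝒪)
    (hB : ∀ (t : T) (x y : L), B (t • x) y = B x (t • y))
    (ψ : T →ₐ[𝒪] 𝒪) (x : L) (hx : x ∈ s59eta_eig L ψ) :
    s59eta_J B (s59eta_eig L ψ) x ≤ s59p_eta 𝒪 ψ := by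
  intro c hc
  rw [s59eta_mem_J] at hc
  obtain ⟨y, hy, rfl⟩ := hc
  unfold s59p_eta
  have hann : ∀ i, b.repr y i ∈ Submodule.annihilator (RingHom.ker (ψ : T →+* 𝒪)) := by
    intro i
    rw [Submodule.mem_annihilator]
    intro s hs
    rw [RingHom.mem_ker] at hs
    have h1 : s • y = 0 := by
      rw [hy s]
      have : ψ s = 0 := hs
      rw [this, zero_smul]
    have h2 : b.repr (s • y) i = 0 := by rw [h1]; simp
    rw [map_smul, Finsupp.smul_apply, smul_eq_mul] at h2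
    rw [smul_eq_mul, mul_comm]
    exact h2
  have hy' : y = ∑ i ∈ (b.repr y).support, b.repr y i • b i := by
    conv_lhs => rw [← b.linearCombination_repr y]
    rw [Finsupp.linearCombination_apply, Finsupp.sum]
  rw [hy', map_sum]
  refine Ideal.sum_mem _ fun i _ => ?_
  have h3 : B x (b.repr y i • b i) = ψ (b.repr y i) * B x (b i) := by
    rw [← hB, hx (b.repr y i), map_smul, LinearMap.smul_apply, smul_eq_mul]
  rw [h3]
  exact Ideal.mul_mem_right _ _ (Ideal.mem_map_of_mem _ (hann i))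

/-- **(ETA′, abstract step)**.  `ξ₀, ξ₁, ξ₂ : L → L'` the three degeneracy maps, `tq = T_q` on `L`,
`hdep` the Gram identity for the depleted vector (E-ADJ + E-CQ), `E ⊆ L` on which `T_q = a`,
`E' ⊆ ξ(E³)` (E-SAT + E-MULT1).  Then `B'(x', E') ≤ ((q − 1)(a² − (q + 1)²)) · B(x, E)`. -/
theorem s59eta_step_abs {L L' : Type} [AddCommGroup L] [Module 𝒪 L] [AddCommGroup L']
    [Module 𝒪 L'] (B : L →ₗ[𝒪] L →ₗ[𝒪] 𝒪) (B' : L' →ₗ[𝒪] L' →ₗ[𝒪] 𝒪)
    (ξ₀ ξ₁ ξ₂ : L →ₗ[𝒪] L') (tq : L →ₗ[𝒪] L) (q a : 𝒪)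
    (hdep : ∀ x w₀ w₁ w₂ : L, B' (q • ξ₀ x - ξ₁ (tq x) + ξ₂ x) (ξ₀ w₀ + ξ₁ w₁ + ξ₂ w₂) =
      B ((q - 1) • ((q + 1) ^ 2 • x - tq (tq x))) w₀)
    (E : Submodule 𝒪 L) (E' : Submodule 𝒪 L') (hE : ∀ y ∈ E, tq y = a • y)
    (hmult : ∀ y' ∈ E', ∃ w₀ ∈ E, ∃ w₁ ∈ E, ∃ w₂ ∈ E, y' = ξ₀ w₀ + ξ₁ w₁ + ξ₂ w₂)
    (x : L) (hx : x ∈ E) :
    s59eta_J B' E' (q • ξ₀ x - a • ξ₁ x + ξ₂ x) ≤
      Ideal.span {(q - 1) * (a ^ 2 - (q + 1) ^ 2)} * s59eta_J B E x := by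
  intro c hc
  rw [s59eta_mem_J] at hc
  obtain ⟨y', hy', rfl⟩ := hc
  obtain ⟨w₀, hw₀, w₁, -, w₂, -, rfl⟩ := hmult y' hy'
  have h1 : q • ξ₀ x - a • ξ₁ x + ξ₂ x = q • ξ₀ x - ξ₁ (tq x) + ξ₂ x := by
    rw [hE x hx, map_smul]
  rw [h1, hdep]
  have h2 : (q - 1) • ((q + 1) ^ 2 • x - tq (tq x)) = (-((q - 1) * (a ^ 2 - (q + 1) ^ 2))) • x := by
    rw [hE x hx, map_smul, hE x hx, smul_smul, ← sub_smul, smul_smul]
    congr 1
    ring
  rw [h2, map_smul, LinearMap.smul_apply, smul_eq_mul, neg_mul]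
  refine neg_mem (Ideal.mul_mem_mul (Ideal.mem_span_singleton_self _) ?_)
  rw [s59eta_mem_J]
  exact ⟨w₀, hw₀, rfl⟩

/-- The depleted vector is primitive when `x` is and `ξ` is saturated (E-SAT). -/
theorem s59eta_prim_abs {L L' : Type} [AddCommGroup L] [Module 𝒪 L] [AddCommGroup L']
    [Module 𝒪 L'] (I : Ideal 𝒪) (ξ₀ ξ₁ ξ₂ : L →ₗ[𝒪] L') (E : Submodule 𝒪 L)
    (hsat : ∀ w₀ ∈ E, ∀ w₁ ∈ E, ∀ w₂ ∈ E,
      ξ₀ w₀ + ξ₁ w₁ + ξ₂ w₂ ∈ I • (⊤ : Submodule 𝒪 L') → w₂ ∈ I • (⊤ : Submodule 𝒪 L))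
    (q a : 𝒪) (x : L) (hx : x ∈ E) (hprim : x ∉ I • (⊤ : Submodule 𝒪 L)) :
    q • ξ₀ x - a • ξ₁ x + ξ₂ x ∉ I • (⊤ : Submodule 𝒪 L') := by
  intro h
  apply hprim
  have h1 : q • ξ₀ x - a • ξ₁ x + ξ₂ x = ξ₀ (q • x) + ξ₁ ((-a) • x) + ξ₂ x := by
    rw [map_smul, map_smul, neg_smul, sub_eq_add_neg]
  rw [h1] at h
  exact hsat _ (E.smul_mem q hx) _ (E.smul_mem (-a) hx) _ hx h

/-- A primitive vector of a free module over a local ring with a right-perfect form has a partner. -/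
theorem s59eta_perf_abs [IsLocalRing 𝒪] {L : Type} [AddCommGroup L] [Module 𝒪 L]
    [Module.Free 𝒪 L] (B : L →ₗ[𝒪] L →ₗ[𝒪] 𝒪)
    (hperf : ∀ φ : L →ₗ[𝒪] 𝒪, ∃ z : L, ∀ x : L, B x z = φ x)
    (x : L) (hprim : x ∉ IsLocalRing.maximalIdeal 𝒪 • (⊤ : Submodule 𝒪 L)) :
    ∃ z : L, B x z = 1 := by
  classical
  let b := Module.Free.chooseBasis 𝒪 L
  have hex : ∃ i, b.repr x i ∉ IsLocalRing.maximalIdeal 𝒪 := by
    by_contra hcon
    push Not at hcon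
    apply hprim
    have hx' : x = ∑ i ∈ (b.repr x).support, b.repr x i • b i := by
      conv_lhs => rw [← b.linearCombination_repr x]
      rw [Finsupp.linearCombination_apply, Finsupp.sum]
    rw [hx']
    exact Submodule.sum_mem _ fun i _ =>
      Submodule.smul_mem_smul (hcon i) Submodule.mem_top
  obtain ⟨i, hi⟩ := hex
  have hu : IsUnit (b.repr x i) := by
    by_contra hnu
    exact hi ((IsLocalRing.mem_maximalIdeal _).2 hnu)
  obtain ⟨u, hu'⟩ := hu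
  obtain ⟨z, hz⟩ := hperf ((↑u⁻¹ : 𝒪) • b.coord i)
  refine ⟨z, ?_⟩
  rw [hz x, LinearMap.smul_apply, Module.Basis.coord_apply, ← hu', smul_eq_mul, Units.inv_mul]

/-- Lengths of cyclic quotients are antitone in the ideal. -/
theorem s59eta_length_anti (I J : Ideal 𝒪) (h : I ≤ J) :
    Module.length 𝒪 (𝒪 ⧸ J) ≤ Module.length 𝒪 (𝒪 ⧸ I) := by
  refine Module.length_le_of_surjective (Submodule.mapQ I J LinearMap.id ?_) ?_
  · intro y hy
    exact h hy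
  · intro y
    obtain ⟨y, rfl⟩ := Submodule.Quotient.mk_surjective J y
    exact ⟨Submodule.Quotient.mk y, rfl⟩

/-- **(END)** the numerical inequality for the module ideal `J` gives the one for `η_T` when
`η_T ≤ J` (GEN). -/
theorem s59eta_end_abs {T : Type} [CommRing T] [Algebra 𝒪 T] (ψ : T →ₐ[𝒪] 𝒪) (J : Ideal 𝒪)
    (hgen : s59p_eta 𝒪 ψ ≤ J) (l : ℕ∞) (hl : l ≤ Module.length 𝒪 (𝒪 ⧸ J)) :
    l ≤ Module.length 𝒪 (𝒪 ⧸ s59p_eta 𝒪 ψ) :=
  hl.trans (s59eta_length_anti _ _ hgen)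

/-- **(BASE)** the numerical inequality for `η_T` gives the one for the module ideal `J` when
`J ≤ η_T` (MIN′: `L` free over `T`). -/
theorem s59eta_base_abs {T : Type} [CommRing T] [Algebra 𝒪 T] (ψ : T →ₐ[𝒪] 𝒪) (J : Ideal 𝒪)
    (hmin : J ≤ s59p_eta 𝒪 ψ) (l : ℕ∞) (hl : l ≤ Module.length 𝒪 (𝒪 ⧸ s59p_eta 𝒪 ψ)) :
    l ≤ Module.length 𝒪 (𝒪 ⧸ J) :=
  hl.trans (s59eta_length_anti _ _ hmin)

end Abs

end Fermat.Agent.S59
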