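import Mathlib
import Fermat.Agent.S41.NewU
import Fermat.Agent.S41.AlphaTAlpha

/-!
# S59 ETA′, piece E-ADJ (group level): the degeneracy maps `N → N q → N q²`

`q` prime, `q ∤ N`; `res, resD : Hom(Γ₀(M), A) → Hom(Γ₀(M q), A)`, `cores, coresD` the transfers
(S41). With `B₁ = res₂ res₁`, `B_q = resD₂ res₁ = res₂ resD₁`, `B_{q²} = resD₂ resD₁`:

* `s59eadj_resD_res`      : `resD₂ ∘ res₁ = res₂ ∘ resD₁`  (`B_q` is well defined);
* `s59eadj_nuW_res`       : `w (res₁ x) = resD₁ x`;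
* `s59eadj_res_Tc`        : `res₁ (T_q x) = resD₁ x + U_q (res₁ x)`;
* `s59eadj_coresD_res`    : `coresD₂ ∘ res₂ = U_q` on `Hom(Γ₀(M), A)`, `q ∣ M`;
* `s59eadj_coresD_resD`   : `coresD₂ ∘ resD₂ = q`, `q ∣ M`;
* `s59eadj_cores_res`     : `cores₂ ∘ res₂ = q`, `q ∣ M`;
* `s59eadj_coresD_res_res`: `coresD₂ (res₂ (res₁ x)) = res₁ (T_q x) − resD₁ x`.
-/

set_option autoImplicit false
set_option linter.style.haveILetI false
set_option linter.unusedSectionVars false
set_option linter.unusedSimpArgs false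
set_option linter.unnecessarySeqFocus false

noncomputable section

namespace Fermat.Agent.S59

open CongruenceSubgroup Matrix Matrix.SpecialLinearGroup Fermat.Agent.ES Fermat.Agent.S41
open scoped MatrixGroups Pointwise

/-! ## `B_q` is well defined -/

section welldef

variable {N q : ℕ} [NeZero N] [NeZero q] {A : Type*} [AddCommGroup A]

theorem s59eadj_incl_conjD (γ : Gamma0 (N * q * q)) :
    incl N q (conjD (N * q) q γ) = conjD N q (incl (N * q) q γ) := by
  apply Subtype.ext; apply Subtype.ext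
  rfl

/-- `resD₂ ∘ res₁ = res₂ ∘ resD₁`. -/
theorem s59eadj_resD_res (x : HomG N A) :
    resD (N * q) q A (res N q A x) = res (N * q) q A (resD N q A x) := by
  refine AddMonoidHom.ext fun g => ?_
  obtain ⟨γ, rfl⟩ : ∃ γ : Gamma0 (N * q * q), Additive.ofMul γ = g := ⟨Additive.toMul g, rfl⟩
  show x (Additive.ofMul (incl N q (conjD (N * q) q γ)))
    = x (Additive.ofMul (conjD N q (incl (N * q) q γ)))
  rw [s59eadj_incl_conjD]

end welldef

/-! ## `res₁ ∘ T_q = resD₁ + U_q ∘ res₁` -/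

section resTc

variable {N q : ℕ} [NeZero N] [NeZero q] [hq : Fact q.Prime] (u v : ℤ)
  (huv : (q : ℤ) * u - N * v = 1) {A : Type} [AddCommGroup A]

/-- `w (res x) = resD x`: the Atkin–Lehner conjugate of an old class. -/
theorem s59eadj_nuW_res (x : HomG N A) : nuW u v huv (res N q A x) = resD N q A x := by
  refine AddMonoidHom.ext fun g => ?_
  obtain ⟨γ, rfl⟩ : ∃ γ : Gamma0 (N * q), Additive.ofMul γ = g := ⟨Additive.toMul g, rfl⟩
  show x (Additive.ofMul (incl N q (nuConjW u v huv γ))) = x (Additive.ofMul (conjD N q γ))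
  have h := incl_nuConjW_mul_G0 u v huv γ
  have h' := congrArg (fun z => x (Additive.ofMul z)) h
  simp only [ofMul_mul, map_add] at h'
  have h'' : x (Additive.ofMul (incl N q (nuConjW u v huv γ))) + x (Additive.ofMul (nuG0 u v huv))
      = x (Additive.ofMul (conjD N q γ)) + x (Additive.ofMul (nuG0 u v huv)) := by
    rw [h', add_comm]
  exact add_right_cancel h''

/-- `res (T_q x) = resD x + U_q (res x)`. -/
theorem s59eadj_res_Tc (hqN : ¬ q ∣ N) (x : HomG N A) :
    res N q A (Tc q hqN x) = resD N q A x + heckeU (dvd_mul_left q N) (res N q A x) := by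
  have hc : Nat.Coprime q N := (Nat.Prime.coprime_iff_not_dvd hq.out).mpr hqN
  obtain ⟨u, v, huv⟩ := ata_bezout hc
  obtain ⟨-, -, -, h4⟩ := stmtC2 N q A hqN x
  refine AddMonoidHom.ext fun g => ?_
  obtain ⟨γ, rfl⟩ : ∃ γ : Gamma0 (N * q), Additive.ofMul γ = g := ⟨Additive.toMul g, rfl⟩
  have h := res_coresD_eq u v huv (res N q A x) γ
  rw [h4, s59eadj_nuW_res] at h
  rw [AddMonoidHom.add_apply]
  exact h

end resTc

/-! ## The second step `M → M q`, `q ∣ M` -/

section step2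

variable {M q : ℕ} [NeZero M] [NeZero q]

theorem s59eadj_mem_incl_range_iff (x : Gamma0 M) :
    x ∈ (incl M q).range ↔ ((M : ℤ) * q) ∣ ataMat x 1 0 := by
  constructor
  · rintro ⟨c, rfl⟩
    have h := dvd_of_mem_Gamma0 c.2
    have e : ((M * q : ℕ) : ℤ) = (M : ℤ) * q := by push_cast; ring
    rw [e] at h
    exact h
  · intro h
    have hmem : (x : SL(2, ℤ)) ∈ Gamma0 (M * q) := by
      apply mem_Gamma0_of_dvd
      push_cast
      exact h
    exact ⟨⟨(x : SL(2, ℤ)), hmem⟩, Subtype.ext rfl⟩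

theorem s59eadj_mk_eq_incl_iff (g h : Gamma0 M) :
    (QuotientGroup.mk g : Gamma0 M ⧸ (incl M q).range) = QuotientGroup.mk h ↔
      ((M : ℤ) * q) ∣ ataMat g 0 0 * ataMat h 1 0 - ataMat g 1 0 * ataMat h 0 0 := by
  rw [QuotientGroup.eq, s59eadj_mem_incl_range_iff, ataMat_mul, ataMat_inv]
  have e : (!![ataMat g 1 1, -ataMat g 0 1; -ataMat g 1 0, ataMat g 0 0] * ataMat h) 1 0
      = ataMat g 0 0 * ataMat h 1 0 - ataMat g 1 0 * ataMat h 0 0 := by
    simp [Matrix.mul_apply, Fin.sum_univ_two]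
    ring
  rw [e]

/-- the lower unipotent element `[[1, 0], [M m, 1]]` of `Γ₀(M)` -/
def s59eadjL (M : ℕ) [NeZero M] (m : ℤ) : Gamma0 M := ataMk M 1 0 m 1 (by ring)

theorem s59eadj_ataMat_L (m : ℤ) : ataMat (s59eadjL M m) = !![1, 0; (M : ℤ) * m, 1] := rfl

variable [hq : Fact q.Prime]

/-- for `q ∣ M`, the diagonal entries of an element of `Γ₀(M)` are inverse to each other mod `q` -/
theorem s59eadj_diag_unit (hqM : q ∣ M) (h : Gamma0 M) :
    ((ataMat h 0 0 : ℤ) : ZMod q) * ((ataMat h 1 1 : ℤ) : ZMod q) = 1 := by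
  have hdet := ataMat_det h
  have h10 : ((ataMat h 1 0 : ℤ) : ZMod q) = 0 := cast_lowerLeft_eq_zero hqM h
  have h1 := congrArg (fun z : ℤ => (z : ZMod q)) hdet
  simp only [Int.cast_sub, Int.cast_mul, Int.cast_one, h10, mul_zero, sub_zero] at h1
  exact h1

theorem s59eadj_cast_00_ne_zero (hqM : q ∣ M) (h : Gamma0 M) :
    ((ataMat h 0 0 : ℤ) : ZMod q) ≠ 0 := by
  intro h0
  have := s59eadj_diag_unit hqM h
  rw [h0, zero_mul] at this
  exact zero_ne_one this

theorem s59eadj_cast_11_ne_zero (hqM : q ∣ M) (h : Gamma0 M) :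
    ((ataMat h 1 1 : ℤ) : ZMod q) ≠ 0 := by
  intro h0
  have := s59eadj_diag_unit hqM h
  rw [h0, mul_zero] at this
  exact zero_ne_one this

/-- `{T⁻ˣ : x ∈ 𝔽_q}` is a system of representatives of `Γ₀(M) / δ Γ₀(M q) δ⁻¹`, `q ∣ M`. -/
theorem s59eadj_reps_conjD_bijective (hqM : q ∣ M) :
    Function.Bijective fun x : ZMod q =>
      (QuotientGroup.mk (nuT M (x.val : ℤ))⁻¹ : Gamma0 M ⧸ (conjD M q).range) := by
  have hT : ∀ x : ZMod q, ataMat (nuT M (x.val : ℤ))⁻¹ = !![1, -(x.val : ℤ); 0, 1] := by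
    intro x
    rw [ataMat_inv, ataMat_nuT]
    ext i j
    fin_cases i <;> fin_cases j <;> simp
  constructor
  · intro x y hxy
    simp only [] at hxy
    rw [nu_mk_eq_conjD_iff, nu_dvd_iff_cast, hT, hT] at hxy
    simp at hxy
    have h2 : x - y = 0 := by linear_combination hxy
    exact sub_eq_zero.mp h2
  · intro c
    obtain ⟨h, rfl⟩ := QuotientGroup.mk_surjective c
    have hd0 := s59eadj_cast_11_ne_zero hqM h
    refine ⟨-((ataMat h 0 1 : ℤ) : ZMod q) * ((ataMat h 1 1 : ℤ) : ZMod q)⁻¹, ?_⟩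
    simp only []
    rw [nu_mk_eq_conjD_iff, nu_dvd_iff_cast, hT]
    simp
    field_simp
    ring

/-- `{[[1, 0], [M x, 1]] : x ∈ 𝔽_q}` is a system of representatives of `Γ₀(M) / Γ₀(M q)`,
`q ∣ M`. -/
theorem s59eadj_reps_incl_bijective (hqM : q ∣ M) :
    Function.Bijective fun x : ZMod q =>
      (QuotientGroup.mk (s59eadjL M (x.val : ℤ)) : Gamma0 M ⧸ (incl M q).range) := by
  have hM0 : (M : ℤ) ≠ 0 := by exact_mod_cast NeZero.ne M
  constructor
  · intro x y hxy
    simp only [] at hxy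
    rw [s59eadj_mk_eq_incl_iff, s59eadj_ataMat_L, s59eadj_ataMat_L] at hxy
    simp only [Matrix.of_apply, Matrix.cons_val_zero, Matrix.cons_val_one, Matrix.cons_val',
      Matrix.cons_val_fin_one] at hxy
    have h1 : (q : ℤ) ∣ (y.val : ℤ) - (x.val : ℤ) := by
      have h2 : (M : ℤ) * q ∣ (M : ℤ) * ((y.val : ℤ) - (x.val : ℤ)) := by
        convert hxy using 1
        ring
      exact (mul_dvd_mul_iff_left hM0).mp h2
    rw [nu_dvd_iff_cast] at h1
    simp at h1
    exact (sub_eq_zero.mp h1).symm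
  · intro c
    obtain ⟨h, rfl⟩ := QuotientGroup.mk_surjective c
    have ha0 := s59eadj_cast_00_ne_zero hqM h
    obtain ⟨k, hk⟩ := dvd_of_mem_Gamma0 h.2
    have hk' : ataMat h 1 0 = (M : ℤ) * k := hk
    refine ⟨((k : ℤ) : ZMod q) * ((ataMat h 0 0 : ℤ) : ZMod q)⁻¹, ?_⟩
    simp only []
    rw [s59eadj_mk_eq_incl_iff, s59eadj_ataMat_L]
    simp only [Matrix.of_apply, Matrix.cons_val_zero, Matrix.cons_val_one, Matrix.cons_val',
      Matrix.cons_val_fin_one]
    rw [hk']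
    set x : ZMod q := ((k : ℤ) : ZMod q) * ((ataMat h 0 0 : ℤ) : ZMod q)⁻¹ with hx
    have hxv : (((x.val : ℕ) : ℤ) : ZMod q) = x := by
      rw [Int.cast_natCast, ZMod.natCast_zmod_val]
    have h1 : (q : ℤ) ∣ k - (x.val : ℤ) * ataMat h 0 0 := by
      rw [nu_dvd_iff_cast, Int.cast_sub, Int.cast_mul, hxv, hx]
      field_simp
      ring
    obtain ⟨t, ht⟩ := h1
    exact ⟨t, by linear_combination (M : ℤ) * ht⟩

variable {A : Type*} [AddCommGroup A]

theorem s59eadj_index_conjD (hqM : q ∣ M) : (conjD M q).range.index = q := by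
  rw [Subgroup.index_eq_card,
    ← Nat.card_congr (Equiv.ofBijective _ (s59eadj_reps_conjD_bijective (M := M) hqM)),
    Nat.card_eq_fintype_card, ZMod.card]

theorem s59eadj_index_incl (hqM : q ∣ M) : (incl M q).range.index = q := by
  rw [Subgroup.index_eq_card,
    ← Nat.card_congr (Equiv.ofBijective _ (s59eadj_reps_incl_bijective (M := M) hqM)),
    Nat.card_eq_fintype_card, ZMod.card]

/-- `cores₂ ∘ res₂ = q` for `q ∣ M`. -/
theorem s59eadj_cores_res (hqM : q ∣ M) (φ : HomG M A) :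
    cores M q A (res M q A φ) = q • φ := by
  haveI : (incl M q).range.FiniteIndex :=
    ⟨by rw [s59eadj_index_incl hqM]; exact NeZero.ne q⟩
  have h := transferAlong_comp (incl M q) (incl_injective M q) A φ
  rw [s59eadj_index_incl hqM] at h
  exact h

/-- `coresD₂ ∘ resD₂ = q` for `q ∣ M`. -/
theorem s59eadj_coresD_resD (hqM : q ∣ M) (φ : HomG M A) :
    coresD M q A (resD M q A φ) = q • φ := by
  haveI : (conjD M q).range.FiniteIndex :=
    ⟨by rw [s59eadj_index_conjD hqM]; exact NeZero.ne q⟩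
  have h := transferAlong_comp (conjD M q) (conjD_injective M q) A φ
  rw [s59eadj_index_conjD hqM] at h
  exact h

/-- the lower left entry of `κ_U(g, x)` is `q` times that of `g` -/
theorem s59eadj_kapU_10 (hqM : q ∣ M) (g : Gamma0 M) (x : ZMod q) :
    ataMat (kapU hqM g x) 1 0 = q * ataMat g 1 0 := by
  have h := kapU_spec_int hqM g x
  have h10 := congrFun (congrFun h 1) 0
  simp only [nuB, Matrix.mul_apply, Fin.sum_univ_two, Matrix.of_apply, Matrix.cons_val_zero,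
    Matrix.cons_val_one, Matrix.cons_val', Matrix.cons_val_fin_one] at h10
  linarith

theorem s59eadj_kapU_mem (hqM : q ∣ M) (g : Gamma0 M) (x : ZMod q) :
    ((kapU hqM g x : Gamma0 M) : SL(2, ℤ)) ∈ Gamma0 (M * q) := by
  apply mem_Gamma0_of_dvd
  obtain ⟨k, hk⟩ := dvd_of_mem_Gamma0 g.2
  have hk' : ataMat g 1 0 = (M : ℤ) * k := hk
  refine ⟨k, ?_⟩
  show ataMat (kapU hqM g x) 1 0 = _
  rw [s59eadj_kapU_10 hqM g x, hk']
  push_cast
  ring

/-- `κ_U(g, x)` as an element of `Γ₀(M q)` -/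
def s59eadjKap (hqM : q ∣ M) (g : Gamma0 M) (x : ZMod q) : Gamma0 (M * q) :=
  ⟨(kapU hqM g x : SL(2, ℤ)), s59eadj_kapU_mem hqM g x⟩

theorem s59eadj_incl_kap (hqM : q ∣ M) (g : Gamma0 M) (x : ZMod q) :
    incl M q (s59eadjKap hqM g x) = kapU hqM g x := Subtype.ext rfl

/-- `Tˣ g = (δ κ_U(g, x) δ⁻¹) T^{x·g}` in `Γ₀(M)`, `q ∣ M` -/
theorem s59eadj_T_mul (hqM : q ∣ M) (g : Gamma0 M) (x : ZMod q) :
    nuT M (x.val : ℤ) * g
      = conjD M q (s59eadjKap hqM g x) * nuT M ((idxU (g : SL(2, ℤ)) x).val : ℤ) := by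
  have hq' : (q : ℤ) ≠ 0 := by exact_mod_cast NeZero.ne q
  apply ataMat_injective
  apply nu_smul_mat_cancel hq'
  rw [ataMat_mul, ataMat_mul, ← Matrix.smul_mul, ← nu_delta_mul_B M q, ← Matrix.mul_smul,
    ← nu_delta_mul_B M q]
  rw [Matrix.mul_assoc, kapU_spec_int hqM g x, ← Matrix.mul_assoc, ← Matrix.mul_assoc]
  congr 1
  exact ata_hint_incl M q (s59eadjKap hqM g x)

/-- `coresD₂ ∘ res₂ = U_q` on `Hom(Γ₀(M), A)`, `q ∣ M`. -/
theorem s59eadj_coresD_res (hqM : q ∣ M) (φ : HomG M A) :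
    coresD M q A (res M q A φ) = heckeU hqM φ := by
  classical
  refine AddMonoidHom.ext fun g => ?_
  obtain ⟨γ, rfl⟩ : ∃ γ : Gamma0 M, Additive.ofMul γ = g := ⟨Additive.toMul g, rfl⟩
  have h := transferAlong_eq_sum_of_reps (conjD M q) (conjD_injective M q) A
    (fun x : ZMod q => (nuT M (x.val : ℤ))⁻¹)
    (s59eadj_reps_conjD_bijective hqM) γ
    (fun x => idxU (γ : SL(2, ℤ)) x)
    (fun x => s59eadjKap hqM γ x)
    (fun x => nu_rel_of_mul_eq (s59eadj_T_mul hqM γ x)) (res M q A φ)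
  show transferAlong A (conjD M q) (conjD_injective M q) _ _ = _
  rw [h, heckeU_apply]
  rfl

end step2

/-! ## The corner entry -/

section corner

variable {N q : ℕ} [NeZero N] [NeZero q] [hq : Fact q.Prime] {A : Type} [AddCommGroup A]

/-- `coresD₂ (res₂ (res₁ x)) = res₁ (T_q x) − resD₁ x`. -/
theorem s59eadj_coresD_res_res (hqN : ¬ q ∣ N) (x : HomG N A) :
    coresD (N * q) q A (res (N * q) q A (res N q A x))
      = res N q A (Tc q hqN x) - resD N q A x := by
  rw [s59eadj_coresD_res (dvd_mul_left q N), s59eadj_res_Tc hqN, add_sub_cancel_left]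

end corner

end Fermat.Agent.S59
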