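import Mathlib
import Fermat.Agent.S59.Eta.AdjU
import Fermat.Agent.S41.PD.Final

/-!
# S59 ETA′, pieces E-ADJ + E-CQ (ℤ-level): the Gram matrix of `ξ : L_N³ → L_{N q²}`

`q` prime, `q ∤ N`, `[ , ]_M = pairFun (Gamma0 M)` the pairing of S41/PD on `Hom_par(Γ₀(M), ℤ)`.
`B₁ = res₂ res₁`, `B_q = res₂ resD₁ (= resD₂ res₁)`, `B_{q²} = resD₂ resD₁`,
`ξ(w₀, w₁, w₂) = B₁ w₀ + B_q w₁ + B_{q²} w₂`.

* `s59eadj_gram_*` : the nine entries `[B_i w, B_j x]_{N q²} = [w, M_ij x]_N` of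
  `ξ†ξ = [[q(q+1), q T, T² − (q+1)], [q T, q(q+1), q T], [T² − (q+1), q T, q(q+1)]]`, `T = T_q`;
* `s59eadj_cq` (E-CQ) : for the `U_q`-depleted vector `x' = ξ(q x, − T x, x)`:
  `[ξ(w₀, w₁, w₂), x']_{N q²} = (q − 1) ((q + 1)² [w₀, x]_N − [w₀, T² x]_N)`;
* `s59eadj_cq_depleted` : `[y', x'] = q (q − 1) ((q + 1)² [y, x] − [y, T² x])`.
-/

set_option autoImplicit false
set_option linter.style.haveILetI false
set_option linter.unusedSectionVars false
set_option linter.unusedSimpArgs false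
set_option linter.unnecessarySeqFocus false

noncomputable section

namespace Fermat.Agent.S59

open CongruenceSubgroup Matrix Fermat.Agent.S41 Fermat.Agent.S41.PD
open scoped MatrixGroups
open ModularCurve.Period (IsParabolicHom parabolicHoms mem_parabolicHoms_iff)

/-! ## ℤ-bilinearity of `pairFun` on parabolic classes -/

section bilin

variable {Γ : Subgroup SL(2, ℤ)} [Fintype (SL(2, ℤ) ⧸ Γ)]

omit [Fintype (SL(2, ℤ) ⧸ Γ)] in
theorem s59eadj_par_zero : IsParabolicHom Γ (0 : Additive Γ →+ ℤ) :=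
  mem_parabolicHoms_iff.mp (parabolicHoms ℤ Γ ℤ).zero_mem

omit [Fintype (SL(2, ℤ) ⧸ Γ)] in
theorem s59eadj_par_neg {x : Additive Γ →+ ℤ} (hx : IsParabolicHom Γ x) :
    IsParabolicHom Γ (-x) :=
  mem_parabolicHoms_iff.mp ((parabolicHoms ℤ Γ ℤ).neg_mem (mem_parabolicHoms_iff.mpr hx))

omit [Fintype (SL(2, ℤ) ⧸ Γ)] in
theorem s59eadj_par_sub {x y : Additive Γ →+ ℤ} (hx : IsParabolicHom Γ x)
    (hy : IsParabolicHom Γ y) : IsParabolicHom Γ (x - y) :=
  mem_parabolicHoms_iff.mp ((parabolicHoms ℤ Γ ℤ).sub_mem (mem_parabolicHoms_iff.mpr hx)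
    (mem_parabolicHoms_iff.mpr hy))

omit [Fintype (SL(2, ℤ) ⧸ Γ)] in
theorem s59eadj_par_nsmul (n : ℕ) {x : Additive Γ →+ ℤ} (hx : IsParabolicHom Γ x) :
    IsParabolicHom Γ (n • x) :=
  mem_parabolicHoms_iff.mp ((parabolicHoms ℤ Γ ℤ).toAddSubmonoid.nsmul_mem
    (mem_parabolicHoms_iff.mpr hx) n)

theorem s59eadj_pair_zero_right (hneg : (-1 : SL(2, ℤ)) ∈ Γ) {x : Additive Γ →+ ℤ}
    (hx : IsParabolicHom Γ x) : pairFun Γ x 0 = 0 := by
  have h := pairFun_add_right hneg x 0 0 hx s59eadj_par_zero s59eadj_par_zero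
  rw [add_zero] at h
  linarith

theorem s59eadj_pair_zero_left (hneg : (-1 : SL(2, ℤ)) ∈ Γ) {x : Additive Γ →+ ℤ}
    (hx : IsParabolicHom Γ x) : pairFun Γ 0 x = 0 := by
  have h := pairFun_add_left hneg 0 0 x s59eadj_par_zero s59eadj_par_zero hx
  rw [add_zero] at h
  linarith

theorem s59eadj_pair_sub_right (hneg : (-1 : SL(2, ℤ)) ∈ Γ) {x y z : Additive Γ →+ ℤ}
    (hx : IsParabolicHom Γ x) (hy : IsParabolicHom Γ y) (hz : IsParabolicHom Γ z) :
    pairFun Γ x (y - z) = pairFun Γ x y - pairFun Γ x z := by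
  have h := pairFun_add_right hneg x (y - z) z hx (s59eadj_par_sub hy hz) hz
  rw [sub_add_cancel] at h
  linarith

theorem s59eadj_pair_sub_left (hneg : (-1 : SL(2, ℤ)) ∈ Γ) {x y z : Additive Γ →+ ℤ}
    (hx : IsParabolicHom Γ x) (hy : IsParabolicHom Γ y) (hz : IsParabolicHom Γ z) :
    pairFun Γ (x - y) z = pairFun Γ x z - pairFun Γ y z := by
  have h := pairFun_add_left hneg (x - y) y z (s59eadj_par_sub hx hy) hy hz
  rw [sub_add_cancel] at h
  linarith

theorem s59eadj_pair_nsmul_right (hneg : (-1 : SL(2, ℤ)) ∈ Γ) (n : ℕ) {x y : Additive Γ →+ ℤ}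
    (hx : IsParabolicHom Γ x) (hy : IsParabolicHom Γ y) :
    pairFun Γ x (n • y) = n * pairFun Γ x y := by
  induction n with
  | zero => rw [zero_smul, s59eadj_pair_zero_right hneg hx]; simp
  | succ n ih =>
    rw [succ_nsmul, pairFun_add_right hneg x (n • y) y hx (s59eadj_par_nsmul n hy) hy, ih]
    push_cast
    ring

theorem s59eadj_pair_nsmul_left (hneg : (-1 : SL(2, ℤ)) ∈ Γ) (n : ℕ) {x y : Additive Γ →+ ℤ}
    (hx : IsParabolicHom Γ x) (hy : IsParabolicHom Γ y) :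
    pairFun Γ (n • x) y = n * pairFun Γ x y := by
  induction n with
  | zero => rw [zero_smul, s59eadj_pair_zero_left hneg hy]; simp
  | succ n ih =>
    rw [succ_nsmul, pairFun_add_left hneg (n • x) x y (s59eadj_par_nsmul n hx) hx hy, ih]
    push_cast
    ring

end bilin

/-! ## The adjunctions, with the PD statements discharged -/

section adj

variable (N q : ℕ) [NeZero N] [NeZero q]
  [Fintype (SL(2, ℤ) ⧸ Gamma0 N)] [Fintype (SL(2, ℤ) ⧸ Gamma0 (N * q))]

theorem s59eadj_adjD_left (hq : q.Prime) (x : HomG N ℤ) (hx : IsParabolicHom (Gamma0 N) x)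
    (w : HomG (N * q) ℤ) (hw : IsParabolicHom (Gamma0 (N * q)) w) :
    pairFun (Gamma0 (N * q)) (resD N q ℤ x) w = pairFun (Gamma0 N) x (coresD N q ℤ w) := by
  classical
  letI : Fintype (SL(2, ℤ) ⧸ GammaD N q) := Fintype.ofFinite _
  exact pairFun_resD_coresD N q stmtBetaEx stmtIntrinsic stmtCuspConj hq x hx w hw

theorem s59eadj_adjD_right (hq : q.Prime) (x : HomG N ℤ) (hx : IsParabolicHom (Gamma0 N) x)
    (w : HomG (N * q) ℤ) (hw : IsParabolicHom (Gamma0 (N * q)) w) :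
    pairFun (Gamma0 (N * q)) w (resD N q ℤ x) = pairFun (Gamma0 N) (coresD N q ℤ w) x := by
  classical
  letI : Fintype (SL(2, ℤ) ⧸ GammaD N q) := Fintype.ofFinite _
  exact pairFun_coresD_resD N q stmtBetaEx stmtIntrinsic stmtCuspConj hq x hx w hw

end adj

/-! ## The degeneracy maps `N → N q²` -/

section maps

variable (N q : ℕ) [NeZero N] [NeZero q] (A : Type*) [AddCommGroup A]

/-- `B₁ = res₂ ∘ res₁` -/
def s59eadjB1 : HomG N A →+ HomG (N * q * q) A := (res (N * q) q A).comp (res N q A)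

/-- `B_q = res₂ ∘ resD₁ (= resD₂ ∘ res₁)` -/
def s59eadjBq : HomG N A →+ HomG (N * q * q) A := (res (N * q) q A).comp (resD N q A)

/-- `B_{q²} = resD₂ ∘ resD₁` -/
def s59eadjBqq : HomG N A →+ HomG (N * q * q) A := (resD (N * q) q A).comp (resD N q A)

variable {N q A}

theorem s59eadjB1_apply (x : HomG N A) :
    s59eadjB1 N q A x = res (N * q) q A (res N q A x) := rfl

theorem s59eadjBq_apply (x : HomG N A) :
    s59eadjBq N q A x = res (N * q) q A (resD N q A x) := rfl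

theorem s59eadjBq_apply' (x : HomG N A) :
    s59eadjBq N q A x = resD (N * q) q A (res N q A x) :=
  (s59eadj_resD_res x).symm

theorem s59eadjBqq_apply (x : HomG N A) :
    s59eadjBqq N q A x = resD (N * q) q A (resD N q A x) := rfl

end maps

end Fermat.Agent.S59
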