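/-
S59, Route A, ETA′ (sub-captain helper72), piece **E-BC** (helper12), abstract part (Mathlib only):
base change `ℤ → 𝒪` of a perfect pairing on a finite free `ℤ`-module and of adjoint operators.

* `s59bc_bijective_of_dual` : a bilinear form with a basis and left/right dual families is
  perfect;
* `s59bc_exists_dual_right`, `s59bc_exists_dual_left` : dual families of a perfect form;
* `s59bc_baseChange_perfect` : `B` perfect on `L` (finite free over `ℤ`) ⇒ `B.baseChange 𝒪` perfect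
  on `𝒪 ⊗ L`;
* `s59bc_baseChange_adj` : `B'(f x, w) = B(x, g w)` ⇒ the same for the base changes;
* `s59bc_baseChange_comp`, `s59bc_baseChange_smul` etc. : functoriality (re-exports).
-/
import Mathlib

set_option autoImplicit false
set_option linter.unusedSectionVars false

open TensorProduct

namespace Fermat.Agent.S59

section Dual

variable {R F ι : Type*} [CommRing R] [AddCommGroup F] [Module R F] [Fintype ι] [DecidableEq ι]

/-- a bilinear form with a basis `e` and families `e'`, `e''` with `p (e i) (e' j) = δ_ij`,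
`p (e'' i) (e j) = δ_ij` is perfect -/
theorem s59bc_bijective_of_dual (p : F →ₗ[R] F →ₗ[R] R) (e : Module.Basis ι R F) (e' e'' : ι → F)
    (h' : ∀ i j, p (e i) (e' j) = if i = j then 1 else 0)
    (h'' : ∀ i j, p (e'' i) (e j) = if i = j then 1 else 0) :
    Function.Bijective p ∧ Function.Bijective p.flip := by
  have hx : ∀ x : F, ∀ j, p x (e' j) = e.repr x j := by
    intro x j
    conv_lhs => rw [← e.sum_repr x]
    rw [map_sum, LinearMap.sum_apply]
    simp only [map_smul, LinearMap.smul_apply, h', smul_eq_mul, mul_ite, mul_one, mul_zero]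
    rw [Finset.sum_ite_eq' Finset.univ j]
    simp
  have hy : ∀ y : F, ∀ i, p (e'' i) y = e.repr y i := by
    intro y i
    conv_lhs => rw [← e.sum_repr y]
    rw [map_sum]
    simp only [map_smul, h'', smul_eq_mul, mul_ite, mul_one, mul_zero]
    rw [Finset.sum_ite_eq Finset.univ i]
    simp
  refine ⟨⟨?_, ?_⟩, ⟨?_, ?_⟩⟩
  · -- `p` injective
    rw [injective_iff_map_eq_zero]
    intro x hx0
    apply e.repr.injective
    ext j
    rw [← hx x j, hx0]
    simp
  · -- `p` surjective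
    intro φ
    refine ⟨∑ i, φ (e i) • e'' i, ?_⟩
    apply e.ext
    intro j
    rw [map_sum, LinearMap.sum_apply]
    simp only [map_smul, LinearMap.smul_apply, h'', smul_eq_mul, mul_ite, mul_one, mul_zero]
    rw [Finset.sum_ite_eq' Finset.univ j]
    simp
  · -- `p.flip` injective
    rw [injective_iff_map_eq_zero]
    intro y hy0
    apply e.repr.injective
    ext i
    rw [← hy y i]
    have := congrArg (fun f : F →ₗ[R] R => f (e'' i)) hy0
    simpa using this
  · -- `p.flip` surjective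
    intro φ
    refine ⟨∑ j, φ (e j) • e' j, ?_⟩
    apply e.ext
    intro i
    rw [LinearMap.flip_apply, map_sum]
    simp only [map_smul, h', smul_eq_mul, mul_ite, mul_one, mul_zero]
    rw [Finset.sum_ite_eq Finset.univ i]
    simp

/-- right dual family of a form with `p.flip` surjective -/
theorem s59bc_exists_dual_right (p : F →ₗ[R] F →ₗ[R] R) (e : Module.Basis ι R F)
    (hp : Function.Surjective p.flip) :
    ∃ e' : ι → F, ∀ i j, p (e i) (e' j) = if i = j then 1 else 0 := by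
  choose e' he' using fun j => hp (e.coord j)
  refine ⟨e', fun i j => ?_⟩
  have := congrArg (fun f : F →ₗ[R] R => f (e i)) (he' j)
  simp only [LinearMap.flip_apply, Module.Basis.coord_apply, Module.Basis.repr_self] at this
  rw [this, Finsupp.single_apply]

/-- left dual family of a form with `p` surjective -/
theorem s59bc_exists_dual_left (p : F →ₗ[R] F →ₗ[R] R) (e : Module.Basis ι R F)
    (hp : Function.Surjective p) :
    ∃ e'' : ι → F, ∀ i j, p (e'' i) (e j) = if i = j then 1 else 0 := by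
  choose e'' he'' using fun i => hp (e.coord i)
  refine ⟨e'', fun i j => ?_⟩
  have := congrArg (fun f : F →ₗ[R] R => f (e j)) (he'' i)
  simp only [Module.Basis.coord_apply, Module.Basis.repr_self] at this
  rw [this, Finsupp.single_apply]
  simp only [eq_comm]

end Dual

section BaseChange

variable {L L' : Type*} [AddCommGroup L] [AddCommGroup L']
  (𝒪 : Type*) [CommRing 𝒪]

/-- the base change of a `ℤ`-bilinear form to `𝒪` -/
noncomputable def s59bcForm (B : L →ₗ[ℤ] L →ₗ[ℤ] ℤ) :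
    (𝒪 ⊗[ℤ] L) →ₗ[𝒪] (𝒪 ⊗[ℤ] L) →ₗ[𝒪] 𝒪 :=
  LinearMap.BilinForm.baseChange 𝒪 B

@[simp]
theorem s59bcForm_tmul (B : L →ₗ[ℤ] L →ₗ[ℤ] ℤ) (a b : 𝒪) (x y : L) :
    s59bcForm 𝒪 B (a ⊗ₜ x) (b ⊗ₜ y) = (B x y) • (a * b) :=
  LinearMap.BilinForm.baseChange_tmul B a x b y

theorem s59bcForm_one_tmul (B : L →ₗ[ℤ] L →ₗ[ℤ] ℤ) (x y : L) :
    s59bcForm 𝒪 B (1 ⊗ₜ x) (1 ⊗ₜ y) = ((B x y : ℤ) : 𝒪) := by
  rw [s59bcForm_tmul, mul_one, zsmul_eq_mul, mul_one]

/-- **Base change of a perfect pairing.** -/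
theorem s59bc_baseChange_perfect [Module.Free ℤ L] [Module.Finite ℤ L]
    (B : L →ₗ[ℤ] L →ₗ[ℤ] ℤ) (hB : Function.Surjective B) (hB' : Function.Surjective B.flip) :
    Function.Bijective (s59bcForm 𝒪 B) ∧ Function.Bijective (s59bcForm 𝒪 B).flip := by
  classical
  let b := Module.Free.chooseBasis ℤ L
  obtain ⟨e', he'⟩ := s59bc_exists_dual_right B b hB'
  obtain ⟨e'', he''⟩ := s59bc_exists_dual_left B b hB
  refine s59bc_bijective_of_dual (s59bcForm 𝒪 B) (b.baseChange 𝒪)
    (fun j => (1 : 𝒪) ⊗ₜ[ℤ] e' j) (fun i => (1 : 𝒪) ⊗ₜ[ℤ] e'' i) ?_ ?_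
  · intro i j
    rw [Module.Basis.baseChange_apply, s59bcForm_one_tmul, he']
    split_ifs <;> simp
  · intro i j
    rw [Module.Basis.baseChange_apply, s59bcForm_one_tmul, he'']
    split_ifs <;> simp

/-- **Base change of an adjunction.** -/
theorem s59bc_baseChange_adj (B : L →ₗ[ℤ] L →ₗ[ℤ] ℤ) (B' : L' →ₗ[ℤ] L' →ₗ[ℤ] ℤ)
    (f : L →ₗ[ℤ] L') (g : L' →ₗ[ℤ] L) (h : ∀ x w, B' (f x) w = B x (g w))
    (X : 𝒪 ⊗[ℤ] L) (W : 𝒪 ⊗[ℤ] L') :
    s59bcForm 𝒪 B' (f.baseChange 𝒪 X) W = s59bcForm 𝒪 B X (g.baseChange 𝒪 W) := by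
  induction X using TensorProduct.induction_on with
  | zero => simp
  | add X₁ X₂ h₁ h₂ => rw [map_add, map_add, LinearMap.add_apply, map_add, LinearMap.add_apply,
      h₁, h₂]
  | tmul a x =>
    induction W using TensorProduct.induction_on with
    | zero => simp
    | add W₁ W₂ h₁ h₂ => rw [map_add, map_add, map_add, h₁, h₂]
    | tmul c w =>
      rw [LinearMap.baseChange_tmul, LinearMap.baseChange_tmul, s59bcForm_tmul, s59bcForm_tmul, h]

/-- adjunction on the other side -/
theorem s59bc_baseChange_adj' (B : L →ₗ[ℤ] L →ₗ[ℤ] ℤ) (B' : L' →ₗ[ℤ] L' →ₗ[ℤ] ℤ)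
    (f : L →ₗ[ℤ] L') (g : L' →ₗ[ℤ] L) (h : ∀ x w, B' w (f x) = B (g w) x)
    (X : 𝒪 ⊗[ℤ] L) (W : 𝒪 ⊗[ℤ] L') :
    s59bcForm 𝒪 B' W (f.baseChange 𝒪 X) = s59bcForm 𝒪 B (g.baseChange 𝒪 W) X := by
  induction X using TensorProduct.induction_on with
  | zero => simp
  | add X₁ X₂ h₁ h₂ => rw [map_add, map_add, map_add, h₁, h₂]
  | tmul a x =>
    induction W using TensorProduct.induction_on with
    | zero => simp
    | add W₁ W₂ h₁ h₂ => rw [map_add, map_add, LinearMap.add_apply, map_add,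
        LinearMap.add_apply, h₁, h₂]
    | tmul c w =>
      rw [LinearMap.baseChange_tmul, LinearMap.baseChange_tmul, s59bcForm_tmul, s59bcForm_tmul, h]

/-- base change of a skew-symmetric / symmetric relation `B x y = ε B y x` -/
theorem s59bc_baseChange_symm (B : L →ₗ[ℤ] L →ₗ[ℤ] ℤ) (ε : ℤ) (h : ∀ x y, B x y = ε * B y x)
    (X Y : 𝒪 ⊗[ℤ] L) :
    s59bcForm 𝒪 B X Y = (ε : 𝒪) * s59bcForm 𝒪 B Y X := by
  induction X using TensorProduct.induction_on with
  | zero => simp
  | add X₁ X₂ h₁ h₂ => rw [map_add, LinearMap.add_apply, map_add, h₁, h₂, mul_add]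
  | tmul a x =>
    induction Y using TensorProduct.induction_on with
    | zero => simp
    | add Y₁ Y₂ h₁ h₂ => rw [map_add, map_add, LinearMap.add_apply, h₁, h₂, mul_add]
    | tmul c y =>
      rw [s59bcForm_tmul, s59bcForm_tmul, h x y]
      simp only [zsmul_eq_mul, Int.cast_mul]
      ring

end BaseChange

end Fermat.Agent.S59
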