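import Mathlib
import Fermat.Agent.S59.Eta.Abs

/-!
# S59, wall R2 (ETA′) — the HUB of the step `Σ ↦ Σ ∪ {q}` (deputy helper72)

Ledger: NOTES/S59-R2.md; mathematics: NOTES/S59-ETA.md §3.

ABSTRACT FRAME of the step (`q ∤ N p`, levels `N → N q²`):
`𝒪` a discrete valuation ring with uniformiser `ϖ`, `L`, `L'` torsion-free `𝒪`-modules
(`L` finite), `ξ₀ ξ₁ ξ₂ : L → L'` the three degeneracy maps, `t i`, `t' i` (`i : ι`) the Hecke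
operators `T_ℓ` (`ℓ` good, `ℓ ≠ q`) on `L`, `L'`, `tq = T_q` on `L`, `ψ i`, `a` the eigenvalues.

The FOUR arithmetic inputs, in the exact shapes the pieces have to deliver:
* `hcomm` (S41 `StmtC1`)              : `ξ_j ∘ t i = t' i ∘ ξ_j`;
* `hsat`  (E-SAT + E-LOC, non-Eisenstein): `ξ w = ϖ • y' ⇒ w ∈ ϖ L³`;
* `hrat`  (E-MULT1a + E-MULT1b + E-TRANS): every `y'` of the eigenspace `E'` of `L'` is
                                         RATIONALLY in the image of `ξ`: `c • y' = ξ w`, `c ≠ 0`;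
* `hTQ`   (E-TQ)                      : on the eigenspace of the `t i`, `T_q` is the scalar `a`;
* `hdep`  (E-GRAM + E-BC)             : the Gram identity of `s59eta_step_abs`.

Results (all proved here):
* `s59r2_sat_abs`   : `hsat` ⇒ `ξ(L³)` is saturated in `L'`: `c • y' = ξ w`, `c ≠ 0` ⇒ `y' = ξ v`,
                      `w = c • v`;
* `s59r2_inj_abs`   : `hsat` ⇒ `ξ` is injective;
* `s59r2E`, `s59r2E'` : the eigen-submodules;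
* `s59r2_hmult_abs` : `hrat + hsat + hcomm + hTQ ⇒ E' ⊆ ξ(E³)` (= `hmult` of `s59eta_step_abs`);
* **`s59r2_step_abs`** : `J' ≤ (q − 1)(a² − (q + 1)²) · J` from the five inputs;
* `s59r2_prim_abs`  : the depleted vector is primitive.
-/

set_option autoImplicit false
set_option linter.unusedSectionVars false
set_option linter.unusedVariables false
set_option linter.style.haveILetI false

namespace Fermat.Agent.S59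

open IsLocalRing

section Sat

variable {𝒪 : Type} [CommRing 𝒪] [IsDomain 𝒪] [IsDiscreteValuationRing 𝒪]
  {M L' : Type} [AddCommGroup M] [Module 𝒪 M] [AddCommGroup L'] [Module 𝒪 L']
  [NoZeroSMulDivisors 𝒪 M] [NoZeroSMulDivisors 𝒪 L']

/-- **Saturation.**  If `Ξ m = ϖ • y'` forces `m ∈ ϖ M` (injectivity mod `ϖ`), then the image of
`Ξ` is saturated: `c • y' = Ξ m` with `c ≠ 0` forces `m = c • v`, `y' = Ξ v`. -/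
theorem s59r2_sat_abs (Ξ : M →ₗ[𝒪] L') {ϖ : 𝒪} (hϖ : Irreducible ϖ)
    (hsat : ∀ (m : M) (y' : L'), Ξ m = ϖ • y' → ∃ m₁ : M, m = ϖ • m₁)
    (c : 𝒪) (hc : c ≠ 0) (y' : L') (m : M) (h : c • y' = Ξ m) :
    ∃ v : M, m = c • v ∧ y' = Ξ v := by
  obtain ⟨n, u, rfl⟩ := IsDiscreteValuationRing.eq_unit_mul_pow_irreducible hc hϖ
  clear hc
  induction n generalizing y' m with
  | zero =>
    refine ⟨(↑u⁻¹ : 𝒪) • m, ?_, ?_⟩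
    · rw [pow_zero, mul_one, smul_smul, Units.mul_inv, one_smul]
    · rw [map_smul, ← h, pow_zero, mul_one, smul_smul, Units.inv_mul, one_smul]
  | succ n ih =>
    have h1 : Ξ m = ϖ • ((↑u * ϖ ^ n) • y') := by
      rw [← h, smul_smul]
      congr 1
      ring
    obtain ⟨m₁, rfl⟩ := hsat m _ h1
    rw [map_smul] at h1
    have h2 : (↑u * ϖ ^ n) • y' = Ξ m₁ := (smul_right_injective L' hϖ.ne_zero h1).symm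
    obtain ⟨v, rfl, hv⟩ := ih y' m₁ h2
    refine ⟨v, ?_, hv⟩
    rw [smul_smul]
    congr 1
    ring

/-- `hsat` ⇒ `Ξ` is injective (`M` finite over the discrete valuation ring `𝒪`). -/
theorem s59r2_inj_abs [Module.Finite 𝒪 M] (Ξ : M →ₗ[𝒪] L') {ϖ : 𝒪} (hϖ : Irreducible ϖ)
    (hsat : ∀ (m : M) (y' : L'), Ξ m = ϖ • y' → ∃ m₁ : M, m = ϖ • m₁) :
    Function.Injective Ξ := by
  rw [injective_iff_map_eq_zero]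
  intro m hm
  have hmem : ∀ i : ℕ, m ∈ maximalIdeal 𝒪 ^ i • (⊤ : Submodule 𝒪 M) := by
    intro i
    have hci : ϖ ^ i ≠ 0 := pow_ne_zero _ hϖ.ne_zero
    obtain ⟨v, rfl, -⟩ := s59r2_sat_abs Ξ hϖ hsat (ϖ ^ i) hci 0 m (by rw [smul_zero, hm])
    refine Submodule.smul_mem_smul (Ideal.pow_mem_pow ?_ i) Submodule.mem_top
    rw [IsLocalRing.mem_maximalIdeal, mem_nonunits_iff]
    exact hϖ.not_isUnit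
  have hbot := Ideal.iInf_pow_smul_eq_bot_of_isLocalRing (R := 𝒪) (M := M) (maximalIdeal 𝒪)
    (Ideal.IsMaximal.ne_top inferInstance)
  have : m ∈ (⨅ i : ℕ, maximalIdeal 𝒪 ^ i • (⊤ : Submodule 𝒪 M)) :=
    (Submodule.mem_iInf _).2 hmem
  rw [hbot] at this
  exact (Submodule.mem_bot 𝒪).1 this

end Sat

section Step

variable {𝒪 : Type} [CommRing 𝒪] [IsDomain 𝒪] [IsDiscreteValuationRing 𝒪]
  {L L' : Type} [AddCommGroup L] [Module 𝒪 L] [AddCommGroup L'] [Module 𝒪 L']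
  {ι : Type}

/-- the eigen-submodule `E = {y | T_ℓ y = ψ ℓ • y (ℓ good), T_q y = a • y}` of `L` -/
def s59r2E (t : ι → L →ₗ[𝒪] L) (ψ : ι → 𝒪) (tq : L →ₗ[𝒪] L) (a : 𝒪) : Submodule 𝒪 L where
  carrier := {y | (∀ i, t i y = ψ i • y) ∧ tq y = a • y}
  zero_mem' := ⟨fun i => by simp, by simp⟩
  add_mem' := fun {y z} hy hz => ⟨fun i => by rw [map_add, hy.1 i, hz.1 i, smul_add],
    by rw [map_add, hy.2, hz.2, smul_add]⟩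
  smul_mem' := fun c y hy => ⟨fun i => by rw [map_smul, hy.1 i, smul_comm],
    by rw [map_smul, hy.2, smul_comm]⟩

/-- the eigen-submodule `E' = {y' | T_ℓ y' = ψ ℓ • y' (ℓ good)}` of `L'` -/
def s59r2E' (t' : ι → L' →ₗ[𝒪] L') (ψ : ι → 𝒪) : Submodule 𝒪 L' where
  carrier := {y | ∀ i, t' i y = ψ i • y}
  zero_mem' := fun i => by simp
  add_mem' := fun {y z} hy hz i => by rw [map_add, hy i, hz i, smul_add]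
  smul_mem' := fun c y hy i => by rw [map_smul, hy i, smul_comm]

theorem s59r2_mem_E {t : ι → L →ₗ[𝒪] L} {ψ : ι → 𝒪} {tq : L →ₗ[𝒪] L} {a : 𝒪} {y : L} :
    y ∈ s59r2E t ψ tq a ↔ (∀ i, t i y = ψ i • y) ∧ tq y = a • y := Iff.rfl

theorem s59r2_mem_E' {t' : ι → L' →ₗ[𝒪] L'} {ψ : ι → 𝒪} {y : L'} :
    y ∈ s59r2E' t' ψ ↔ ∀ i, t' i y = ψ i • y := Iff.rfl

variable [NoZeroSMulDivisors 𝒪 L] [NoZeroSMulDivisors 𝒪 L'] [Module.Finite 𝒪 L]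

/-- the map `ξ (w₀, w₁, w₂) = ξ₀ w₀ + ξ₁ w₁ + ξ₂ w₂` -/
def s59r2Xi (ξ₀ ξ₁ ξ₂ : L →ₗ[𝒪] L') : (L × L × L) →ₗ[𝒪] L' :=
  ξ₀.coprod (ξ₁.coprod ξ₂)

omit [IsDomain 𝒪] [IsDiscreteValuationRing 𝒪] [NoZeroSMulDivisors 𝒪 L]
  [NoZeroSMulDivisors 𝒪 L'] [Module.Finite 𝒪 L] in
theorem s59r2Xi_apply (ξ₀ ξ₁ ξ₂ : L →ₗ[𝒪] L') (w : L × L × L) :
    s59r2Xi ξ₀ ξ₁ ξ₂ w = ξ₀ w.1 + (ξ₁ w.2.1 + ξ₂ w.2.2) := rfl

/-- **(hmult)** `E' ⊆ ξ(E³)` from rational multiplicity one (`hrat`), saturation (`hsat`),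
Hecke-equivariance of the degeneracy maps (`hcomm`) and "`T_q` is determined" (`hTQ`). -/
theorem s59r2_hmult_abs (ξ₀ ξ₁ ξ₂ : L →ₗ[𝒪] L') (t : ι → L →ₗ[𝒪] L) (t' : ι → L' →ₗ[𝒪] L')
    (ψ : ι → 𝒪) (tq : L →ₗ[𝒪] L) (a : 𝒪) {ϖ : 𝒪} (hϖ : Irreducible ϖ)
    (hcomm : ∀ (i : ι) (w : L), ξ₀ (t i w) = t' i (ξ₀ w) ∧ ξ₁ (t i w) = t' i (ξ₁ w) ∧
      ξ₂ (t i w) = t' i (ξ₂ w))
    (hsat : ∀ (w₀ w₁ w₂ : L) (y' : L'), ξ₀ w₀ + ξ₁ w₁ + ξ₂ w₂ = ϖ • y' →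
      ∃ v₀ v₁ v₂ : L, w₀ = ϖ • v₀ ∧ w₁ = ϖ • v₁ ∧ w₂ = ϖ • v₂)
    (hrat : ∀ y' ∈ s59r2E' t' ψ, ∃ c : 𝒪, c ≠ 0 ∧ ∃ w₀ w₁ w₂ : L,
      c • y' = ξ₀ w₀ + ξ₁ w₁ + ξ₂ w₂)
    (hTQ : ∀ v : L, (∀ i, t i v = ψ i • v) → tq v = a • v) :
    ∀ y' ∈ s59r2E' t' ψ, ∃ w₀ ∈ s59r2E t ψ tq a, ∃ w₁ ∈ s59r2E t ψ tq a,
      ∃ w₂ ∈ s59r2E t ψ tq a, y' = ξ₀ w₀ + ξ₁ w₁ + ξ₂ w₂ := by
  intro y' hy'
  have hsat' : ∀ (m : L × L × L) (z : L'), s59r2Xi ξ₀ ξ₁ ξ₂ m = ϖ • z →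
      ∃ m₁ : L × L × L, m = ϖ • m₁ := by
    rintro ⟨w₀, w₁, w₂⟩ z hz
    rw [s59r2Xi_apply, ← add_assoc] at hz
    obtain ⟨v₀, v₁, v₂, rfl, rfl, rfl⟩ := hsat w₀ w₁ w₂ z hz
    exact ⟨(v₀, v₁, v₂), rfl⟩
  haveI : NoZeroSMulDivisors 𝒪 (L × L × L) := ⟨by
    rintro c ⟨x₀, x₁, x₂⟩ h
    rcases eq_or_ne c 0 with hc | hc
    · exact Or.inl hc
    · right
      have h' : (c • x₀, c • x₁, c • x₂) = ((0 : L), (0 : L), (0 : L)) := h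
      simp only [Prod.mk.injEq] at h'
      have e₀ := (smul_eq_zero.1 h'.1).resolve_left hc
      have e₁ := (smul_eq_zero.1 h'.2.1).resolve_left hc
      have e₂ := (smul_eq_zero.1 h'.2.2).resolve_left hc
      rw [e₀, e₁, e₂]
      rfl⟩
  obtain ⟨c, hc, w₀, w₁, w₂, hw⟩ := hrat y' hy'
  have hw' : c • y' = s59r2Xi ξ₀ ξ₁ ξ₂ (w₀, w₁, w₂) := by
    rw [s59r2Xi_apply, ← add_assoc]
    exact hw
  obtain ⟨⟨v₀, v₁, v₂⟩, -, hv⟩ := s59r2_sat_abs (s59r2Xi ξ₀ ξ₁ ξ₂) hϖ hsat' c hc y' _ hw'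
  have hinj := s59r2_inj_abs (s59r2Xi ξ₀ ξ₁ ξ₂) hϖ hsat'
  have heig : ∀ i, t i v₀ = ψ i • v₀ ∧ t i v₁ = ψ i • v₁ ∧ t i v₂ = ψ i • v₂ := by
    intro i
    have h1 : s59r2Xi ξ₀ ξ₁ ξ₂ (t i v₀, t i v₁, t i v₂) =
        s59r2Xi ξ₀ ξ₁ ξ₂ (ψ i • (v₀, v₁, v₂)) := by
      rw [map_smul, ← hv, ← hy' i, hv, s59r2Xi_apply, s59r2Xi_apply, map_add, map_add]
      show ξ₀ (t i v₀) + (ξ₁ (t i v₁) + ξ₂ (t i v₂)) = _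
      rw [(hcomm i v₀).1, (hcomm i v₁).2.1, (hcomm i v₂).2.2]
    have h2 := hinj h1
    have h3 : (t i v₀, t i v₁, t i v₂) = (ψ i • v₀, ψ i • v₁, ψ i • v₂) := h2
    simp only [Prod.mk.injEq] at h3
    exact h3
  refine ⟨v₀, ⟨fun i => (heig i).1, hTQ v₀ fun i => (heig i).1⟩,
    v₁, ⟨fun i => (heig i).2.1, hTQ v₁ fun i => (heig i).2.1⟩,
    v₂, ⟨fun i => (heig i).2.2, hTQ v₂ fun i => (heig i).2.2⟩, ?_⟩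
  rw [hv, s59r2Xi_apply, ← add_assoc]

/-- **(R2, abstract step)**: `J_{Σ ∪ q} ≤ (q − 1)(a² − (q + 1)²) · J_Σ` for the depleted vector
`x' = q ξ₀ x − a ξ₁ x + ξ₂ x`, from `hdep`, `hcomm`, `hsat`, `hrat`, `hTQ`. -/
theorem s59r2_step_abs (B : L →ₗ[𝒪] L →ₗ[𝒪] 𝒪) (B' : L' →ₗ[𝒪] L' →ₗ[𝒪] 𝒪)
    (ξ₀ ξ₁ ξ₂ : L →ₗ[𝒪] L') (t : ι → L →ₗ[𝒪] L) (t' : ι → L' →ₗ[𝒪] L')
    (ψ : ι → 𝒪) (tq : L →ₗ[𝒪] L) (q a : 𝒪) {ϖ : 𝒪} (hϖ : Irreducible ϖ)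
    (hdep : ∀ x w₀ w₁ w₂ : L, B' (q • ξ₀ x - ξ₁ (tq x) + ξ₂ x) (ξ₀ w₀ + ξ₁ w₁ + ξ₂ w₂) =
      B ((q - 1) • ((q + 1) ^ 2 • x - tq (tq x))) w₀)
    (hcomm : ∀ (i : ι) (w : L), ξ₀ (t i w) = t' i (ξ₀ w) ∧ ξ₁ (t i w) = t' i (ξ₁ w) ∧
      ξ₂ (t i w) = t' i (ξ₂ w))
    (hsat : ∀ (w₀ w₁ w₂ : L) (y' : L'), ξ₀ w₀ + ξ₁ w₁ + ξ₂ w₂ = ϖ • y' →
      ∃ v₀ v₁ v₂ : L, w₀ = ϖ • v₀ ∧ w₁ = ϖ • v₁ ∧ w₂ = ϖ • v₂)
    (hrat : ∀ y' ∈ s59r2E' t' ψ, ∃ c : 𝒪, c ≠ 0 ∧ ∃ w₀ w₁ w₂ : L,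
      c • y' = ξ₀ w₀ + ξ₁ w₁ + ξ₂ w₂)
    (hTQ : ∀ v : L, (∀ i, t i v = ψ i • v) → tq v = a • v)
    (x : L) (hx : x ∈ s59r2E t ψ tq a) :
    s59eta_J B' (s59r2E' t' ψ) (q • ξ₀ x - a • ξ₁ x + ξ₂ x) ≤
      Ideal.span {(q - 1) * (a ^ 2 - (q + 1) ^ 2)} * s59eta_J B (s59r2E t ψ tq a) x :=
  s59eta_step_abs B B' ξ₀ ξ₁ ξ₂ tq q a hdep (s59r2E t ψ tq a) (s59r2E' t' ψ)
    (fun y hy => hy.2)
    (s59r2_hmult_abs ξ₀ ξ₁ ξ₂ t t' ψ tq a hϖ hcomm hsat hrat hTQ) x hx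

/-- the depleted vector lies in `E'` -/
theorem s59r2_depleted_mem (ξ₀ ξ₁ ξ₂ : L →ₗ[𝒪] L') (t : ι → L →ₗ[𝒪] L)
    (t' : ι → L' →ₗ[𝒪] L') (ψ : ι → 𝒪) (tq : L →ₗ[𝒪] L) (q a : 𝒪)
    (hcomm : ∀ (i : ι) (w : L), ξ₀ (t i w) = t' i (ξ₀ w) ∧ ξ₁ (t i w) = t' i (ξ₁ w) ∧
      ξ₂ (t i w) = t' i (ξ₂ w))
    (x : L) (hx : x ∈ s59r2E t ψ tq a) :
    q • ξ₀ x - a • ξ₁ x + ξ₂ x ∈ s59r2E' t' ψ := by
  intro i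
  rw [map_add, map_sub, map_smul, map_smul, ← (hcomm i x).1, ← (hcomm i x).2.1,
    ← (hcomm i x).2.2, hx.1 i, map_smul, map_smul, map_smul, smul_add, smul_sub,
    smul_comm (ψ i) q, smul_comm (ψ i) a]

/-- **(PRIM)** the depleted vector is primitive if `x` is. -/
theorem s59r2_prim_abs (ξ₀ ξ₁ ξ₂ : L →ₗ[𝒪] L') (q a : 𝒪) {ϖ : 𝒪}
    (hsat : ∀ (w₀ w₁ w₂ : L) (y' : L'), ξ₀ w₀ + ξ₁ w₁ + ξ₂ w₂ = ϖ • y' →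
      ∃ v₀ v₁ v₂ : L, w₀ = ϖ • v₀ ∧ w₁ = ϖ • v₁ ∧ w₂ = ϖ • v₂)
    (x : L) (hprim : ∀ v : L, x ≠ ϖ • v) :
    ∀ y' : L', q • ξ₀ x - a • ξ₁ x + ξ₂ x ≠ ϖ • y' := by
  intro y' h
  have h1 : ξ₀ (q • x) + ξ₁ ((-a) • x) + ξ₂ x = ϖ • y' := by
    rw [map_smul, map_smul, neg_smul, ← sub_eq_add_neg]
    exact h
  obtain ⟨-, -, v₂, -, -, h2⟩ := hsat _ _ _ _ h1
  exact hprim v₂ h2

end Step

end Fermat.Agent.S59
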