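/-
S59, Route A, ETA′ (deputy helper72), piece **E-BC, part BC-2** (helper9): BASE CHANGE `ℤ → 𝒪` of the
`ℤ`-level package, in the literal shapes of the hub `S59/Eta/PlanR2.lean`.

ABSTRACT in the `ℤ`-level data, so that it fits whatever BC-1 (the package on `Lpar M`) lands:
`Λ`, `Λ'` finite free `ℤ`-modules (`Λ = Lpar N`, `Λ' = Lpar (N q²)`), `b`, `b'` their pairings,
`t`, `t'`, `tq` the Hecke operators, `ξ₀ ξ₁ ξ₂ : Λ → Λ'` the degeneracy maps.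

* `s59bccL 𝒪 Λ = 𝒪 ⊗[ℤ] Λ`, `s59bccMap 𝒪 f = f.baseChange 𝒪`, `s59bcForm 𝒪 b` (helper12);
  `s59bcc_free`, `s59bcc_finite`, `s59bcc_noZeroSMulDivisors`;
* `s59bcc_map_*` : functoriality on elements (`comp`, `add`, `sub`, `zsmul`, `id`);
* `s59bcc_form3` : `b' (f x) (g w) = b (h x) w` over `ℤ` ⇒ the same for the base changes;
* `s59bcc_selfadj`, `s59bcc_comm` : self-adjoint / commuting operators stay so;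
* `s59bcc_hcomm` : **`hcomm`** of `s59r2_step_abs` over `𝒪` from the `ℤ`-level `StmtC1` shape;
* `s59bcc_hdep`  : **`hdep`** of `s59eta_step_abs` / `s59r2_step_abs` over `𝒪` from the `ℤ`-level
  Gram identity (E-GRAM, literal shape of `hdep` with `𝒪 := ℤ`);
* `s59bcc_flip_bijective`, `s59bcc_surjective_of_flip` : a right-perfect form on a finite free
  `ℤ`-module is perfect on both sides;
* `s59bcc_hperf` : **`hperf`** of `s59eta_perf_abs` over `𝒪` (right-perfect), `s59bcc_hperf_left`;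
  `s59bcc_bijective` : both maps `L → Dual L` are bijective;
* `s59bcc_step` : FIT TEST = `s59r2_step_abs` instantiated with the base-changed package.
-/
import Mathlib
import Fermat.Agent.S59.Eta.BCAbs
import Fermat.Agent.S59.Eta.PlanR2

set_option autoImplicit false
set_option linter.unusedSectionVars false
set_option linter.unusedVariables false
set_option linter.style.haveILetI false

open TensorProduct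

namespace Fermat.Agent.S59

section Defs

variable (𝒪 : Type) [CommRing 𝒪] (Λ : Type) [AddCommGroup Λ]

/-- the base-changed lattice `𝒪 ⊗[ℤ] Λ` -/
abbrev s59bccL : Type := 𝒪 ⊗[ℤ] Λ

theorem s59bcc_free [Module.Free ℤ Λ] : Module.Free 𝒪 (s59bccL 𝒪 Λ) := inferInstance

theorem s59bcc_finite [Module.Finite ℤ Λ] : Module.Finite 𝒪 (s59bccL 𝒪 Λ) := inferInstance

theorem s59bcc_noZeroSMulDivisors [IsDomain 𝒪] [Module.Free ℤ Λ] :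
    NoZeroSMulDivisors 𝒪 (s59bccL 𝒪 Λ) :=
  ⟨fun h => smul_eq_zero.mp h⟩

variable {Λ} {Λ' Λ'' : Type} [AddCommGroup Λ'] [AddCommGroup Λ'']

/-- base change of a `ℤ`-linear map -/
noncomputable def s59bccMap (f : Λ →ₗ[ℤ] Λ') : s59bccL 𝒪 Λ →ₗ[𝒪] s59bccL 𝒪 Λ' :=
  f.baseChange 𝒪

@[simp]
theorem s59bccMap_tmul (f : Λ →ₗ[ℤ] Λ') (a : 𝒪) (x : Λ) :
    s59bccMap 𝒪 f (a ⊗ₜ[ℤ] x) = a ⊗ₜ[ℤ] f x :=
  LinearMap.baseChange_tmul f a x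

theorem s59bcc_map_comp (g : Λ' →ₗ[ℤ] Λ'') (f : Λ →ₗ[ℤ] Λ') (X : s59bccL 𝒪 Λ) :
    s59bccMap 𝒪 (g ∘ₗ f) X = s59bccMap 𝒪 g (s59bccMap 𝒪 f X) := by
  induction X using TensorProduct.induction_on with
  | zero => simp
  | add X₁ X₂ h₁ h₂ => rw [map_add, map_add, map_add, h₁, h₂]
  | tmul a x => simp

theorem s59bcc_map_add (f g : Λ →ₗ[ℤ] Λ') (X : s59bccL 𝒪 Λ) :
    s59bccMap 𝒪 (f + g) X = s59bccMap 𝒪 f X + s59bccMap 𝒪 g X := by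
  induction X using TensorProduct.induction_on with
  | zero => simp
  | add X₁ X₂ h₁ h₂ =>
    rw [map_add, map_add, map_add, h₁, h₂]
    abel
  | tmul a x => simp [TensorProduct.tmul_add]

theorem s59bcc_map_sub (f g : Λ →ₗ[ℤ] Λ') (X : s59bccL 𝒪 Λ) :
    s59bccMap 𝒪 (f - g) X = s59bccMap 𝒪 f X - s59bccMap 𝒪 g X := by
  induction X using TensorProduct.induction_on with
  | zero => simp
  | add X₁ X₂ h₁ h₂ =>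
    rw [map_add, map_add, map_add, h₁, h₂]
    abel
  | tmul a x => simp [TensorProduct.tmul_sub]

theorem s59bcc_map_zsmul (n : ℤ) (f : Λ →ₗ[ℤ] Λ') (X : s59bccL 𝒪 Λ) :
    s59bccMap 𝒪 (n • f) X = (n : 𝒪) • s59bccMap 𝒪 f X := by
  induction X using TensorProduct.induction_on with
  | zero => simp
  | add X₁ X₂ h₁ h₂ => rw [map_add, map_add, h₁, h₂, smul_add]
  | tmul a x =>
    rw [s59bccMap_tmul, s59bccMap_tmul, LinearMap.smul_apply, TensorProduct.tmul_smul,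
      Int.cast_smul_eq_zsmul]

theorem s59bcc_map_id (X : s59bccL 𝒪 Λ) : s59bccMap 𝒪 (LinearMap.id : Λ →ₗ[ℤ] Λ) X = X := by
  induction X using TensorProduct.induction_on with
  | zero => simp
  | add X₁ X₂ h₁ h₂ => rw [map_add, h₁, h₂]
  | tmul a x => simp

theorem s59bcc_map_zero (X : s59bccL 𝒪 Λ) : s59bccMap 𝒪 (0 : Λ →ₗ[ℤ] Λ') X = 0 := by
  induction X using TensorProduct.induction_on with
  | zero => simp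
  | add X₁ X₂ h₁ h₂ => rw [map_add, h₁, h₂, add_zero]
  | tmul a x => simp

end Defs

section Forms

variable (𝒪 : Type) [CommRing 𝒪] {Λ Λ' : Type} [AddCommGroup Λ] [AddCommGroup Λ']

/-- **Base change of a three-term relation** `b' (f x) (g w) = b (h x) w`. -/
theorem s59bcc_form3 (b : Λ →ₗ[ℤ] Λ →ₗ[ℤ] ℤ) (b' : Λ' →ₗ[ℤ] Λ' →ₗ[ℤ] ℤ)
    (f g : Λ →ₗ[ℤ] Λ') (h : Λ →ₗ[ℤ] Λ) (H : ∀ x w, b' (f x) (g w) = b (h x) w)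
    (X W : s59bccL 𝒪 Λ) :
    s59bcForm 𝒪 b' (s59bccMap 𝒪 f X) (s59bccMap 𝒪 g W) =
      s59bcForm 𝒪 b (s59bccMap 𝒪 h X) W := by
  induction X using TensorProduct.induction_on with
  | zero => simp
  | add X₁ X₂ h₁ h₂ =>
    rw [map_add, map_add, LinearMap.add_apply, map_add, map_add, LinearMap.add_apply, h₁, h₂]
  | tmul a x =>
    induction W using TensorProduct.induction_on with
    | zero => simp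
    | add W₁ W₂ h₁ h₂ => rw [map_add, map_add, map_add, h₁, h₂]
    | tmul c w =>
      rw [s59bccMap_tmul, s59bccMap_tmul, s59bccMap_tmul, s59bcForm_tmul, s59bcForm_tmul, H]

/-- base change of a vanishing relation `b' (f x) (g w) = 0` -/
theorem s59bcc_form_zero (b' : Λ' →ₗ[ℤ] Λ' →ₗ[ℤ] ℤ)
    (f g : Λ →ₗ[ℤ] Λ') (H : ∀ x w, b' (f x) (g w) = 0) (X W : s59bccL 𝒪 Λ) :
    s59bcForm 𝒪 b' (s59bccMap 𝒪 f X) (s59bccMap 𝒪 g W) = 0 := by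
  have h := s59bcc_form3 𝒪 (0 : Λ →ₗ[ℤ] Λ →ₗ[ℤ] ℤ) b' f g 0 (fun x w => by rw [H]; simp) X W
  rw [h, s59bcc_map_zero]
  simp

/-- **self-adjoint operators stay self-adjoint** -/
theorem s59bcc_selfadj (b : Λ →ₗ[ℤ] Λ →ₗ[ℤ] ℤ) (t : Λ →ₗ[ℤ] Λ)
    (h : ∀ x y, b (t x) y = b x (t y)) (X Y : s59bccL 𝒪 Λ) :
    s59bcForm 𝒪 b (s59bccMap 𝒪 t X) Y = s59bcForm 𝒪 b X (s59bccMap 𝒪 t Y) :=
  s59bc_baseChange_adj 𝒪 b b t t h X Y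

/-- **commuting operators stay commuting** -/
theorem s59bcc_comm (s t : Λ →ₗ[ℤ] Λ) (h : ∀ x, s (t x) = t (s x)) (X : s59bccL 𝒪 Λ) :
    s59bccMap 𝒪 s (s59bccMap 𝒪 t X) = s59bccMap 𝒪 t (s59bccMap 𝒪 s X) := by
  rw [← s59bcc_map_comp, ← s59bcc_map_comp]
  congr 2
  exact LinearMap.ext h

/-- intertwining relations `ξ ∘ t = t' ∘ ξ` are preserved -/
theorem s59bcc_intertwine (ξ : Λ →ₗ[ℤ] Λ') (t : Λ →ₗ[ℤ] Λ) (t' : Λ' →ₗ[ℤ] Λ')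
    (h : ∀ w, ξ (t w) = t' (ξ w)) (W : s59bccL 𝒪 Λ) :
    s59bccMap 𝒪 ξ (s59bccMap 𝒪 t W) = s59bccMap 𝒪 t' (s59bccMap 𝒪 ξ W) := by
  rw [← s59bcc_map_comp, ← s59bcc_map_comp]
  congr 2
  exact LinearMap.ext h

/-- **`hcomm` of `s59r2_step_abs` over `𝒪`** from the `ℤ`-level relations. -/
theorem s59bcc_hcomm {ι : Type} (ξ₀ ξ₁ ξ₂ : Λ →ₗ[ℤ] Λ') (t : ι → Λ →ₗ[ℤ] Λ)
    (t' : ι → Λ' →ₗ[ℤ] Λ')
    (h : ∀ (i : ι) (w : Λ), ξ₀ (t i w) = t' i (ξ₀ w) ∧ ξ₁ (t i w) = t' i (ξ₁ w) ∧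
      ξ₂ (t i w) = t' i (ξ₂ w)) :
    ∀ (i : ι) (W : s59bccL 𝒪 Λ),
      s59bccMap 𝒪 ξ₀ (s59bccMap 𝒪 (t i) W) = s59bccMap 𝒪 (t' i) (s59bccMap 𝒪 ξ₀ W) ∧
      s59bccMap 𝒪 ξ₁ (s59bccMap 𝒪 (t i) W) = s59bccMap 𝒪 (t' i) (s59bccMap 𝒪 ξ₁ W) ∧
      s59bccMap 𝒪 ξ₂ (s59bccMap 𝒪 (t i) W) = s59bccMap 𝒪 (t' i) (s59bccMap 𝒪 ξ₂ W) :=
  fun i W => ⟨s59bcc_intertwine 𝒪 ξ₀ (t i) (t' i) (fun w => (h i w).1) W,
    s59bcc_intertwine 𝒪 ξ₁ (t i) (t' i) (fun w => (h i w).2.1) W,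
    s59bcc_intertwine 𝒪 ξ₂ (t i) (t' i) (fun w => (h i w).2.2) W⟩

/-- **`hdep` of `s59eta_step_abs` over `𝒪`** from the `ℤ`-level Gram identity (E-GRAM). -/
theorem s59bcc_hdep (b : Λ →ₗ[ℤ] Λ →ₗ[ℤ] ℤ) (b' : Λ' →ₗ[ℤ] Λ' →ₗ[ℤ] ℤ)
    (ξ₀ ξ₁ ξ₂ : Λ →ₗ[ℤ] Λ') (tq : Λ →ₗ[ℤ] Λ) (q : ℤ)
    (hdepZ : ∀ x w₀ w₁ w₂ : Λ, b' (q • ξ₀ x - ξ₁ (tq x) + ξ₂ x) (ξ₀ w₀ + ξ₁ w₁ + ξ₂ w₂) =
      b ((q - 1) • ((q + 1) ^ 2 • x - tq (tq x))) w₀) :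
    ∀ X W₀ W₁ W₂ : s59bccL 𝒪 Λ,
      s59bcForm 𝒪 b' ((q : 𝒪) • s59bccMap 𝒪 ξ₀ X - s59bccMap 𝒪 ξ₁ (s59bccMap 𝒪 tq X) +
          s59bccMap 𝒪 ξ₂ X)
        (s59bccMap 𝒪 ξ₀ W₀ + s59bccMap 𝒪 ξ₁ W₁ + s59bccMap 𝒪 ξ₂ W₂) =
      s59bcForm 𝒪 b (((q : 𝒪) - 1) • (((q : 𝒪) + 1) ^ 2 • X -
          s59bccMap 𝒪 tq (s59bccMap 𝒪 tq X))) W₀ := by
  intro X W₀ W₁ W₂
  -- the two `ℤ`-linear maps
  set d : Λ →ₗ[ℤ] Λ' := q • ξ₀ - ξ₁ ∘ₗ tq + ξ₂ with hd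
  set c : Λ →ₗ[ℤ] Λ := (q - 1) • ((q + 1) ^ 2 • (LinearMap.id : Λ →ₗ[ℤ] Λ) - tq ∘ₗ tq) with hc
  have hdx : ∀ x, d x = q • ξ₀ x - ξ₁ (tq x) + ξ₂ x := fun x => rfl
  have hcx : ∀ x, c x = (q - 1) • ((q + 1) ^ 2 • x - tq (tq x)) := fun x => rfl
  have H₀ : ∀ x w, b' (d x) (ξ₀ w) = b (c x) w := by
    intro x w
    have := hdepZ x w 0 0
    rw [map_zero, map_zero, add_zero, add_zero] at this
    rw [hdx, hcx]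
    exact this
  have H₁ : ∀ x w, b' (d x) (ξ₁ w) = 0 := by
    intro x w
    have := hdepZ x 0 w 0
    rw [map_zero, map_zero, add_zero, zero_add, map_zero] at this
    rw [hdx]
    exact this
  have H₂ : ∀ x w, b' (d x) (ξ₂ w) = 0 := by
    intro x w
    have := hdepZ x 0 0 w
    rw [map_zero, map_zero, add_zero, zero_add, map_zero] at this
    rw [hdx]
    exact this
  have hD : s59bccMap 𝒪 d X = (q : 𝒪) • s59bccMap 𝒪 ξ₀ X -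
      s59bccMap 𝒪 ξ₁ (s59bccMap 𝒪 tq X) + s59bccMap 𝒪 ξ₂ X := by
    rw [hd, s59bcc_map_add, s59bcc_map_sub, s59bcc_map_zsmul, s59bcc_map_comp]
  have hC : s59bccMap 𝒪 c X = ((q : 𝒪) - 1) • (((q : 𝒪) + 1) ^ 2 • X -
      s59bccMap 𝒪 tq (s59bccMap 𝒪 tq X)) := by
    rw [hc, s59bcc_map_zsmul, s59bcc_map_sub, s59bcc_map_zsmul, s59bcc_map_id, s59bcc_map_comp]
    push_cast
    rfl
  rw [← hD, ← hC, map_add, map_add, s59bcc_form3 𝒪 b b' d ξ₀ c H₀,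
    s59bcc_form_zero 𝒪 b' d ξ₁ H₁, s59bcc_form_zero 𝒪 b' d ξ₂ H₂, add_zero, add_zero]

end Forms

section Perfect

variable {Λ : Type} [AddCommGroup Λ] [Module.Free ℤ Λ] [Module.Finite ℤ Λ]

/-- a right-perfect form on a finite free `ℤ`-module: `b.flip : Λ → Dual Λ` is bijective -/
theorem s59bcc_flip_bijective (b : Λ →ₗ[ℤ] Λ →ₗ[ℤ] ℤ)
    (hb : ∀ φ : Λ →ₗ[ℤ] ℤ, ∃ z : Λ, ∀ x : Λ, b x z = φ x) : Function.Bijective b.flip := by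
  classical
  have hsurj : Function.Surjective b.flip := by
    intro φ
    obtain ⟨z, hz⟩ := hb φ
    exact ⟨z, LinearMap.ext fun x => by rw [LinearMap.flip_apply, hz]⟩
  refine ⟨?_, hsurj⟩
  let β := Module.Free.chooseBasis ℤ Λ
  let e : Λ ≃ₗ[ℤ] Module.Dual ℤ Λ := β.toDualEquiv
  have h1 : Function.Surjective ((e.symm : Module.Dual ℤ Λ →ₗ[ℤ] Λ) ∘ₗ b.flip) := by
    rw [LinearMap.coe_comp]
    exact e.symm.surjective.comp hsurj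
  have h2 : Function.Injective ((e.symm : Module.Dual ℤ Λ →ₗ[ℤ] Λ) ∘ₗ b.flip) :=
    OrzechProperty.injective_of_surjective_endomorphism _ h1
  rw [LinearMap.coe_comp] at h2
  exact Function.Injective.of_comp h2

/-- a right-perfect form on a finite free `ℤ`-module is left-perfect -/
theorem s59bcc_surjective_of_flip (b : Λ →ₗ[ℤ] Λ →ₗ[ℤ] ℤ)
    (hb : ∀ φ : Λ →ₗ[ℤ] ℤ, ∃ z : Λ, ∀ x : Λ, b x z = φ x) : Function.Surjective b := by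
  classical
  have hbij := s59bcc_flip_bijective b hb
  let E : Λ ≃ₗ[ℤ] Module.Dual ℤ Λ := LinearEquiv.ofBijective b.flip hbij
  intro φ
  -- `φ ∘ E⁻¹ : Dual Λ → ℤ` is the evaluation at some `z`
  obtain ⟨z, hz⟩ := (Module.evalEquiv ℤ Λ).surjective (φ ∘ₗ (E.symm : Module.Dual ℤ Λ →ₗ[ℤ] Λ))
  refine ⟨z, LinearMap.ext fun y => ?_⟩
  have h1 := congrArg (fun F : Module.Dual ℤ (Module.Dual ℤ Λ) => F (E y)) hz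
  simp only [Module.evalEquiv_apply, Module.Dual.eval_apply, LinearMap.coe_comp,
    Function.comp_apply, LinearEquiv.coe_coe, LinearEquiv.symm_apply_apply] at h1
  rw [← h1]
  show b z y = (b.flip y) z
  rw [LinearMap.flip_apply]

variable (𝒪 : Type) [CommRing 𝒪]

/-- both maps `L → Dual L` of the base change of a right-perfect form are bijective -/
theorem s59bcc_bijective (b : Λ →ₗ[ℤ] Λ →ₗ[ℤ] ℤ)
    (hb : ∀ φ : Λ →ₗ[ℤ] ℤ, ∃ z : Λ, ∀ x : Λ, b x z = φ x) :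
    Function.Bijective (s59bcForm 𝒪 b) ∧ Function.Bijective (s59bcForm 𝒪 b).flip :=
  s59bc_baseChange_perfect 𝒪 b (s59bcc_surjective_of_flip b hb) (s59bcc_flip_bijective b hb).2

/-- **`hperf` of `s59eta_perf_abs` over `𝒪`**: the base change of a right-perfect form is
right-perfect. -/
theorem s59bcc_hperf (b : Λ →ₗ[ℤ] Λ →ₗ[ℤ] ℤ)
    (hb : ∀ φ : Λ →ₗ[ℤ] ℤ, ∃ z : Λ, ∀ x : Λ, b x z = φ x) :
    ∀ φ : s59bccL 𝒪 Λ →ₗ[𝒪] 𝒪, ∃ z : s59bccL 𝒪 Λ, ∀ x : s59bccL 𝒪 Λ,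
      s59bcForm 𝒪 b x z = φ x := by
  intro φ
  obtain ⟨z, hz⟩ := (s59bcc_bijective 𝒪 b hb).2.2 φ
  refine ⟨z, fun x => ?_⟩
  rw [← hz, LinearMap.flip_apply]

/-- the base change of a right-perfect form is left-perfect -/
theorem s59bcc_hperf_left (b : Λ →ₗ[ℤ] Λ →ₗ[ℤ] ℤ)
    (hb : ∀ φ : Λ →ₗ[ℤ] ℤ, ∃ z : Λ, ∀ x : Λ, b x z = φ x) :
    ∀ φ : s59bccL 𝒪 Λ →ₗ[𝒪] 𝒪, ∃ z : s59bccL 𝒪 Λ, ∀ y : s59bccL 𝒪 Λ,
      s59bcForm 𝒪 b z y = φ y := by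
  intro φ
  obtain ⟨z, hz⟩ := (s59bcc_bijective 𝒪 b hb).1.2 φ
  exact ⟨z, fun y => by rw [hz]⟩

/-- the base change of a right-perfect form is non-degenerate on the left -/
theorem s59bcc_nondeg_left (b : Λ →ₗ[ℤ] Λ →ₗ[ℤ] ℤ)
    (hb : ∀ φ : Λ →ₗ[ℤ] ℤ, ∃ z : Λ, ∀ x : Λ, b x z = φ x)
    (X : s59bccL 𝒪 Λ) (h : ∀ Y : s59bccL 𝒪 Λ, s59bcForm 𝒪 b X Y = 0) : X = 0 := by
  apply (s59bcc_bijective 𝒪 b hb).1.1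
  rw [map_zero]
  exact LinearMap.ext fun Y => by rw [h Y, LinearMap.zero_apply]

/-- the base change of a right-perfect form is non-degenerate on the right -/
theorem s59bcc_nondeg_right (b : Λ →ₗ[ℤ] Λ →ₗ[ℤ] ℤ)
    (hb : ∀ φ : Λ →ₗ[ℤ] ℤ, ∃ z : Λ, ∀ x : Λ, b x z = φ x)
    (Y : s59bccL 𝒪 Λ) (h : ∀ X : s59bccL 𝒪 Λ, s59bcForm 𝒪 b X Y = 0) : Y = 0 := by
  apply (s59bcc_bijective 𝒪 b hb).2.1
  rw [map_zero]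
  exact LinearMap.ext fun X => by rw [LinearMap.flip_apply, h X, LinearMap.zero_apply]

end Perfect

section Fit

variable (𝒪 : Type) [CommRing 𝒪] [IsDomain 𝒪] [IsDiscreteValuationRing 𝒪]
  {Λ Λ' : Type} [AddCommGroup Λ] [AddCommGroup Λ']
  [Module.Free ℤ Λ] [Module.Finite ℤ Λ] [Module.Free ℤ Λ'] {ι : Type}

/-- **FIT TEST / the step over `𝒪` from the `ℤ`-level package**: `s59r2_step_abs` for the base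
change of `(Λ, Λ', b, b', ξ₀, ξ₁, ξ₂, t, t', tq)`; `hsat`, `hrat`, `hTQ` stay hypotheses over `𝒪`
(E-SAT + BC-3, E-MULT1, E-TQ). -/
theorem s59bcc_step (b : Λ →ₗ[ℤ] Λ →ₗ[ℤ] ℤ) (b' : Λ' →ₗ[ℤ] Λ' →ₗ[ℤ] ℤ)
    (ξ₀ ξ₁ ξ₂ : Λ →ₗ[ℤ] Λ') (t : ι → Λ →ₗ[ℤ] Λ) (t' : ι → Λ' →ₗ[ℤ] Λ') (tq : Λ →ₗ[ℤ] Λ) (q : ℤ)
    (hdepZ : ∀ x w₀ w₁ w₂ : Λ, b' (q • ξ₀ x - ξ₁ (tq x) + ξ₂ x) (ξ₀ w₀ + ξ₁ w₁ + ξ₂ w₂) =
      b ((q - 1) • ((q + 1) ^ 2 • x - tq (tq x))) w₀)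
    (hcommZ : ∀ (i : ι) (w : Λ), ξ₀ (t i w) = t' i (ξ₀ w) ∧ ξ₁ (t i w) = t' i (ξ₁ w) ∧
      ξ₂ (t i w) = t' i (ξ₂ w))
    (ψ : ι → 𝒪) (a : 𝒪) {ϖ : 𝒪} (hϖ : Irreducible ϖ)
    (hsat : ∀ (w₀ w₁ w₂ : s59bccL 𝒪 Λ) (y' : s59bccL 𝒪 Λ'),
      s59bccMap 𝒪 ξ₀ w₀ + s59bccMap 𝒪 ξ₁ w₁ + s59bccMap 𝒪 ξ₂ w₂ = ϖ • y' →
      ∃ v₀ v₁ v₂ : s59bccL 𝒪 Λ, w₀ = ϖ • v₀ ∧ w₁ = ϖ • v₁ ∧ w₂ = ϖ • v₂)
    (hrat : ∀ y' ∈ s59r2E' (fun i => s59bccMap 𝒪 (t' i)) ψ, ∃ c : 𝒪, c ≠ 0 ∧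
      ∃ w₀ w₁ w₂ : s59bccL 𝒪 Λ,
        c • y' = s59bccMap 𝒪 ξ₀ w₀ + s59bccMap 𝒪 ξ₁ w₁ + s59bccMap 𝒪 ξ₂ w₂)
    (hTQ : ∀ v : s59bccL 𝒪 Λ, (∀ i, s59bccMap 𝒪 (t i) v = ψ i • v) →
      s59bccMap 𝒪 tq v = a • v)
    (x : s59bccL 𝒪 Λ)
    (hx : x ∈ s59r2E (fun i => s59bccMap 𝒪 (t i)) ψ (s59bccMap 𝒪 tq) a) :
    s59eta_J (s59bcForm 𝒪 b') (s59r2E' (fun i => s59bccMap 𝒪 (t' i)) ψ)
        ((q : 𝒪) • s59bccMap 𝒪 ξ₀ x - a • s59bccMap 𝒪 ξ₁ x + s59bccMap 𝒪 ξ₂ x) ≤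
      Ideal.span {((q : 𝒪) - 1) * (a ^ 2 - ((q : 𝒪) + 1) ^ 2)} *
        s59eta_J (s59bcForm 𝒪 b) (s59r2E (fun i => s59bccMap 𝒪 (t i)) ψ (s59bccMap 𝒪 tq) a) x := by
  haveI : NoZeroSMulDivisors 𝒪 (s59bccL 𝒪 Λ) := s59bcc_noZeroSMulDivisors 𝒪 Λ
  haveI : NoZeroSMulDivisors 𝒪 (s59bccL 𝒪 Λ') := s59bcc_noZeroSMulDivisors 𝒪 Λ'
  exact s59r2_step_abs (s59bcForm 𝒪 b) (s59bcForm 𝒪 b') (s59bccMap 𝒪 ξ₀) (s59bccMap 𝒪 ξ₁)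
    (s59bccMap 𝒪 ξ₂) (fun i => s59bccMap 𝒪 (t i)) (fun i => s59bccMap 𝒪 (t' i)) ψ
    (s59bccMap 𝒪 tq) (q : 𝒪) a hϖ (s59bcc_hdep 𝒪 b b' ξ₀ ξ₁ ξ₂ tq q hdepZ)
    (s59bcc_hcomm 𝒪 ξ₀ ξ₁ ξ₂ t t' hcommZ) hsat hrat hTQ x hx

end Fit

end Fermat.Agent.S59
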