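/-
S59, Route A, ETA′ (deputy helper72), piece **E-BC** (helper36), part 1: the `ℤ`-LINEAR packaging of the
parabolic lattice `Lpar M = Hom_par(Γ₀(M), ℤ)` of S41:

* `s59bcPairZ M : Lpar M →ₗ[ℤ] Lpar M →ₗ[ℤ] ℤ` — the pairing `pairFun (Gamma0 M)` as a bilinear form
  (`s59bcPairZ_apply`), perfect on both sides (`s59bcPairZ_flip_bijective`, `s59bcPairZ_bijective`);
* `s59bcTcZ M ℓ hℓ : Lpar M →ₗ[ℤ] Lpar M` — the Hecke operator `Tc ℓ`, self-adjoint (`s59bcPairZ_Tc`),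
  commuting (`s59bcTcZ_comm`);
* `s59bcXiZ0/1/2 N q : Lpar N →ₗ[ℤ] Lpar (N * q * q)` — the degeneracy maps `B₁, B_q, B_{q²}` of
  `S59/Eta/Adj.lean` on the parabolic lattices, commuting with `Tc ℓ` (`s59bcXiZ0_Tc` …).
-/
import Mathlib
import Fermat.Agent.S59.Eta.BCAbs
import Fermat.Agent.S59.Eta.Adj
import Fermat.Agent.S41.PD.Final
import Fermat.Agent.S41.TcComm
import Fermat.Agent.S41.DegHecke

set_option autoImplicit false
set_option linter.style.haveILetI false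
set_option linter.unusedSectionVars false
set_option linter.unusedVariables false

noncomputable section

namespace Fermat.Agent.S59

open CongruenceSubgroup Matrix Fermat.Agent.S41 Fermat.Agent.S41.PD
open scoped MatrixGroups
open ModularCurve.Period (IsParabolicHom parabolicHoms mem_parabolicHoms_iff)

/-! ## Generic: a form on a finite free module with `B.flip` surjective is perfect -/

section generic

variable {R F : Type*} [CommRing R] [AddCommGroup F] [Module R F]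

/-- on a finite free module, a bilinear form whose flip is surjective is surjective -/
theorem s59bc_surjective_of_flip_surjective [Module.Free R F] [Module.Finite R F]
    (B : F →ₗ[R] F →ₗ[R] R) (h : Function.Surjective B.flip) : Function.Surjective B := by
  classical
  let b := Module.Free.chooseBasis R F
  obtain ⟨e', he'⟩ := s59bc_exists_dual_right B b h
  -- Gram matrix `G i j = B (b i) (b j)` and the coordinates `C k j` of `e' j`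
  let G : Matrix (Module.Free.ChooseBasisIndex R F) (Module.Free.ChooseBasisIndex R F) R :=
    fun i j => B (b i) (b j)
  let C : Matrix (Module.Free.ChooseBasisIndex R F) (Module.Free.ChooseBasisIndex R F) R :=
    fun k j => b.repr (e' j) k
  have hGC : G * C = 1 := by
    ext i j
    rw [Matrix.mul_apply, Matrix.one_apply]
    rw [← he' i j]
    conv_rhs => rw [← b.sum_repr (e' j)]
    rw [map_sum]
    refine Finset.sum_congr rfl fun k _ => ?_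
    rw [map_smul, smul_eq_mul, mul_comm]
  have hCG : C * G = 1 := mul_eq_one_comm.mp hGC
  -- the left dual family
  let e'' : Module.Free.ChooseBasisIndex R F → F := fun i => ∑ k, C i k • b k
  have he'' : ∀ i j, B (e'' i) (b j) = if i = j then 1 else 0 := by
    intro i j
    have := congrFun (congrFun hCG i) j
    rw [Matrix.mul_apply, Matrix.one_apply] at this
    rw [← this]
    show B (∑ k, C i k • b k) (b j) = _
    rw [map_sum, LinearMap.sum_apply]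
    refine Finset.sum_congr rfl fun k _ => ?_
    rw [map_smul, LinearMap.smul_apply, smul_eq_mul]
  exact (s59bc_bijective_of_dual B b e' e'' he' he'').1.2

/-- on a finite free module, a bilinear form whose flip is bijective is bijective -/
theorem s59bc_bijective_of_flip_bijective [Module.Free R F] [Module.Finite R F]
    (B : F →ₗ[R] F →ₗ[R] R) (h : Function.Bijective B.flip) : Function.Bijective B := by
  classical
  let b := Module.Free.chooseBasis R F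
  have hs := s59bc_surjective_of_flip_surjective B h.2
  obtain ⟨e', he'⟩ := s59bc_exists_dual_right B b h.2
  obtain ⟨e'', he''⟩ := s59bc_exists_dual_left B b hs
  exact (s59bc_bijective_of_dual B b e' e'' he' he'').1

end generic

/-! ## The pairing -/

section pair

variable (M : ℕ) [NeZero M]

theorem s59bc_mem_Lpar_iff {x : HomG M ℤ} : x ∈ Lpar M ↔ IsParabolicHom (Gamma0 M) x := Iff.rfl

instance s59bc_lpar_free : Module.Free ℤ ↥(Lpar M) := lpar_free M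

instance s59bc_lpar_finite : Module.Finite ℤ ↥(Lpar M) := lpar_finite M

/-- `pairFun (Gamma0 M)` for the canonical (classical) `Fintype` structure on the cosets -/
def s59bcPairFun (x y : HomG M ℤ) : ℤ :=
  letI : Fintype (SL(2, ℤ) ⧸ Gamma0 M) := Fintype.ofFinite _
  pairFun (Gamma0 M) x y

theorem s59bcPairFun_eq [inst : Fintype (SL(2, ℤ) ⧸ Gamma0 M)] (x y : HomG M ℤ) :
    s59bcPairFun M x y = pairFun (Gamma0 M) x y := by
  unfold s59bcPairFun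
  have : inst = Fintype.ofFinite _ := Subsingleton.elim _ _
  subst this
  rfl

/-- the pairing of S41/PD as a `ℤ`-bilinear form on `Hom_par(Γ₀(M), ℤ)` -/
def s59bcPairZ : ↥(Lpar M) →ₗ[ℤ] ↥(Lpar M) →ₗ[ℤ] ℤ :=
  letI : Fintype (SL(2, ℤ) ⧸ Gamma0 M) := Fintype.ofFinite _
  (AddMonoidHom.mk' (fun x : ↥(Lpar M) =>
    (AddMonoidHom.mk' (fun y : ↥(Lpar M) => pairFun (Gamma0 M) (x : HomG M ℤ) (y : HomG M ℤ))
      (fun y y' => pairFun_add_right (neg_one_mem_Gamma0 M) x.1 y.1 y'.1 x.2 y.2 y'.2)).toIntLinearMap)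
    (fun x x' => by
      apply LinearMap.ext
      intro y
      exact pairFun_add_left (neg_one_mem_Gamma0 M) x.1 x'.1 y.1 x.2 x'.2 y.2)).toIntLinearMap

theorem s59bcPairZ_apply' (x y : ↥(Lpar M)) :
    s59bcPairZ M x y = s59bcPairFun M x.1 y.1 := rfl

theorem s59bcPairZ_apply [Fintype (SL(2, ℤ) ⧸ Gamma0 M)] (x y : ↥(Lpar M)) :
    s59bcPairZ M x y = pairFun (Gamma0 M) (x : HomG M ℤ) (y : HomG M ℤ) := by
  rw [s59bcPairZ_apply', s59bcPairFun_eq]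

/-- **perfect on the right**: `y ↦ [·, y]` is bijective onto the dual -/
theorem s59bcPairZ_flip_bijective : Function.Bijective (s59bcPairZ M).flip := by
  classical
  letI : Fintype (SL(2, ℤ) ⧸ Gamma0 M) := Fintype.ofFinite _
  have key : ∀ φ : ↥(Lpar M) →ₗ[ℤ] ℤ, ∃ y : ↥(Lpar M), (∀ x, s59bcPairZ M x y = φ x) ∧
      ∀ y' : ↥(Lpar M), (∀ x, s59bcPairZ M x y' = φ x) → y' = y := by
    intro φ
    let Φ : (Additive (Gamma0 M) →+ ℤ) → ℤ := fun x =>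
      if hx : IsParabolicHom (Gamma0 M) x then φ ⟨x, hx⟩ else 0
    have hΦ : ∀ x (hx : IsParabolicHom (Gamma0 M) x), Φ x = φ ⟨x, hx⟩ := fun x hx => dif_pos hx
    have hadd : ∀ x x', IsParabolicHom (Gamma0 M) x → IsParabolicHom (Gamma0 M) x' →
        Φ (x + x') = Φ x + Φ x' := by
      intro x x' hx hx'
      have hxx : IsParabolicHom (Gamma0 M) (x + x') :=
        (Lpar M).add_mem (show x ∈ Lpar M from hx) (show x' ∈ Lpar M from hx')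
      rw [hΦ _ hxx, hΦ _ hx, hΦ _ hx', ← map_add]
      rfl
    obtain ⟨y, hy, h1, h2⟩ := pairFun_perfect_right stmtLatticeEx stmtLatticeUniq
      (neg_one_mem_Gamma0 M) Φ hadd
    refine ⟨⟨y, hy⟩, fun x => ?_, fun y' hy' => ?_⟩
    · rw [s59bcPairZ_apply, h1 x.1 x.2, hΦ _ x.2]
    · apply Subtype.ext
      refine h2 y'.1 y'.2 fun x hx => ?_
      have := hy' ⟨x, hx⟩
      rw [s59bcPairZ_apply] at this
      rw [this, hΦ _ hx]
  refine ⟨fun y y' h => ?_, fun φ => ?_⟩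
  · obtain ⟨z, -, hz⟩ := key ((s59bcPairZ M).flip y')
    have e1 : y = z := hz y fun x => by
      rw [← LinearMap.flip_apply, h]
    have e2 : y' = z := hz y' fun x => rfl
    rw [e1, e2]
  · obtain ⟨y, hy, -⟩ := key φ
    exact ⟨y, LinearMap.ext fun x => by rw [LinearMap.flip_apply, hy]⟩

/-- **perfect on the left** -/
theorem s59bcPairZ_bijective : Function.Bijective (s59bcPairZ M) :=
  s59bc_bijective_of_flip_bijective _ (s59bcPairZ_flip_bijective M)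

end pair

/-! ## The Hecke operators -/

section hecke

variable (M : ℕ) [NeZero M] (ℓ : ℕ) [Fact ℓ.Prime] (hℓ : ¬ ℓ ∣ M)

theorem s59bc_Tc_mem {x : HomG M ℤ} (hx : x ∈ Lpar M) : Tc ℓ hℓ x ∈ Lpar M :=
  Fermat.Agent.ES.HeckeP.heckeHom_isParabolicHom hℓ hx

/-- `T_ℓ` (`ℓ ∤ M`) on `Hom_par(Γ₀(M), ℤ)` -/
def s59bcTcZ : ↥(Lpar M) →ₗ[ℤ] ↥(Lpar M) :=
  (AddMonoidHom.mk' (fun x : ↥(Lpar M) => (⟨Tc ℓ hℓ x.1, s59bc_Tc_mem M ℓ hℓ x.2⟩ : ↥(Lpar M)))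
    (fun x y => Subtype.ext (Fermat.Agent.ES.HeckeP.heckeHom_add hℓ x.1 y.1))).toIntLinearMap

@[simp]
theorem s59bcTcZ_coe (x : ↥(Lpar M)) : ((s59bcTcZ M ℓ hℓ x : ↥(Lpar M)) : HomG M ℤ) = Tc ℓ hℓ x.1 :=
  rfl

/-- `T_ℓ` is self-adjoint -/
theorem s59bcPairZ_Tc (x y : ↥(Lpar M)) :
    s59bcPairZ M (s59bcTcZ M ℓ hℓ x) y = s59bcPairZ M x (s59bcTcZ M ℓ hℓ y) := by
  classical
  letI : Fintype (SL(2, ℤ) ⧸ Gamma0 M) := Fintype.ofFinite _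
  rw [s59bcPairZ_apply, s59bcPairZ_apply]
  exact pairFun_Tc_selfadj M ℓ hℓ x.1 y.1 x.2 y.2

/-- the `T_ℓ` commute -/
theorem s59bcTcZ_comm (ℓ' : ℕ) [Fact ℓ'.Prime] (hℓ' : ¬ ℓ' ∣ M) (x : ↥(Lpar M)) :
    s59bcTcZ M ℓ hℓ (s59bcTcZ M ℓ' hℓ' x) = s59bcTcZ M ℓ' hℓ' (s59bcTcZ M ℓ hℓ x) :=
  Subtype.ext (tc_comm hℓ hℓ' x.1)

end hecke

/-! ## The degeneracy maps `N → N q²` -/

section xi

variable (N q : ℕ) [NeZero N] [NeZero q]

theorem s59bc_res_mem {x : HomG N ℤ} (hx : x ∈ Lpar N) : res N q ℤ x ∈ Lpar (N * q) :=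
  ((stmtC8 (N := N) (q := q) ℤ).1 x hx).1

theorem s59bc_resD_mem {x : HomG N ℤ} (hx : x ∈ Lpar N) : resD N q ℤ x ∈ Lpar (N * q) :=
  ((stmtC8 (N := N) (q := q) ℤ).1 x hx).2

theorem s59bc_B1_mem {x : HomG N ℤ} (hx : x ∈ Lpar N) : s59eadjB1 N q ℤ x ∈ Lpar (N * q * q) :=
  s59bc_res_mem (N * q) q (s59bc_res_mem N q hx)

theorem s59bc_Bq_mem {x : HomG N ℤ} (hx : x ∈ Lpar N) : s59eadjBq N q ℤ x ∈ Lpar (N * q * q) :=
  s59bc_res_mem (N * q) q (s59bc_resD_mem N q hx)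

theorem s59bc_Bqq_mem {x : HomG N ℤ} (hx : x ∈ Lpar N) : s59eadjBqq N q ℤ x ∈ Lpar (N * q * q) :=
  s59bc_resD_mem (N * q) q (s59bc_resD_mem N q hx)

/-- `ξ₀ = B₁ = res₂ res₁` on the parabolic lattices -/
def s59bcXiZ0 : ↥(Lpar N) →ₗ[ℤ] ↥(Lpar (N * q * q)) :=
  (AddMonoidHom.mk' (fun x : ↥(Lpar N) =>
      (⟨s59eadjB1 N q ℤ x.1, s59bc_B1_mem N q x.2⟩ : ↥(Lpar (N * q * q))))
    (fun x y => Subtype.ext (map_add (s59eadjB1 N q ℤ) x.1 y.1))).toIntLinearMap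

/-- `ξ₁ = B_q = res₂ resD₁` on the parabolic lattices -/
def s59bcXiZ1 : ↥(Lpar N) →ₗ[ℤ] ↥(Lpar (N * q * q)) :=
  (AddMonoidHom.mk' (fun x : ↥(Lpar N) =>
      (⟨s59eadjBq N q ℤ x.1, s59bc_Bq_mem N q x.2⟩ : ↥(Lpar (N * q * q))))
    (fun x y => Subtype.ext (map_add (s59eadjBq N q ℤ) x.1 y.1))).toIntLinearMap

/-- `ξ₂ = B_{q²} = resD₂ resD₁` on the parabolic lattices -/
def s59bcXiZ2 : ↥(Lpar N) →ₗ[ℤ] ↥(Lpar (N * q * q)) :=
  (AddMonoidHom.mk' (fun x : ↥(Lpar N) =>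
      (⟨s59eadjBqq N q ℤ x.1, s59bc_Bqq_mem N q x.2⟩ : ↥(Lpar (N * q * q))))
    (fun x y => Subtype.ext (map_add (s59eadjBqq N q ℤ) x.1 y.1))).toIntLinearMap

@[simp] theorem s59bcXiZ0_coe (x : ↥(Lpar N)) :
    ((s59bcXiZ0 N q x : ↥(Lpar (N * q * q))) : HomG (N * q * q) ℤ) = s59eadjB1 N q ℤ x.1 := rfl

@[simp] theorem s59bcXiZ1_coe (x : ↥(Lpar N)) :
    ((s59bcXiZ1 N q x : ↥(Lpar (N * q * q))) : HomG (N * q * q) ℤ) = s59eadjBq N q ℤ x.1 := rfl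

@[simp] theorem s59bcXiZ2_coe (x : ↥(Lpar N)) :
    ((s59bcXiZ2 N q x : ↥(Lpar (N * q * q))) : HomG (N * q * q) ℤ) = s59eadjBqq N q ℤ x.1 := rfl

theorem s59bc_not_dvd_mid (ℓ : ℕ) (hNqq : ¬ ℓ ∣ N * q * q) : ¬ ℓ ∣ N * q :=
  fun h => hNqq (Dvd.dvd.mul_right h q)

variable (ℓ : ℕ) [Fact ℓ.Prime] (hN : ¬ ℓ ∣ N) (hNqq : ¬ ℓ ∣ N * q * q)

/-- `ξ₀` commutes with `T_ℓ`, `ℓ ∤ N q` -/
theorem s59bcXiZ0_Tc (x : ↥(Lpar N)) :
    s59bcXiZ0 N q (s59bcTcZ N ℓ hN x) = s59bcTcZ (N * q * q) ℓ hNqq (s59bcXiZ0 N q x) := by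
  apply Subtype.ext
  have hmid := s59bc_not_dvd_mid N q ℓ hNqq
  show res (N * q) q ℤ (res N q ℤ (Tc ℓ hN x.1)) = Tc ℓ hNqq (res (N * q) q ℤ (res N q ℤ x.1))
  rw [((stmtC1 N q ℤ ℓ hN hmid).1 x.1).1, ((stmtC1 (N * q) q ℤ ℓ hmid hNqq).1 _).1]

/-- `ξ₁` commutes with `T_ℓ`, `ℓ ∤ N q` -/
theorem s59bcXiZ1_Tc (x : ↥(Lpar N)) :
    s59bcXiZ1 N q (s59bcTcZ N ℓ hN x) = s59bcTcZ (N * q * q) ℓ hNqq (s59bcXiZ1 N q x) := by
  apply Subtype.ext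
  have hmid := s59bc_not_dvd_mid N q ℓ hNqq
  show res (N * q) q ℤ (resD N q ℤ (Tc ℓ hN x.1)) = Tc ℓ hNqq (res (N * q) q ℤ (resD N q ℤ x.1))
  rw [((stmtC1 N q ℤ ℓ hN hmid).1 x.1).2, ((stmtC1 (N * q) q ℤ ℓ hmid hNqq).1 _).1]

/-- `ξ₂` commutes with `T_ℓ`, `ℓ ∤ N q` -/
theorem s59bcXiZ2_Tc (x : ↥(Lpar N)) :
    s59bcXiZ2 N q (s59bcTcZ N ℓ hN x) = s59bcTcZ (N * q * q) ℓ hNqq (s59bcXiZ2 N q x) := by
  apply Subtype.ext
  have hmid := s59bc_not_dvd_mid N q ℓ hNqq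
  show resD (N * q) q ℤ (resD N q ℤ (Tc ℓ hN x.1)) = Tc ℓ hNqq (resD (N * q) q ℤ (resD N q ℤ x.1))
  rw [((stmtC1 N q ℤ ℓ hN hmid).1 x.1).2, ((stmtC1 (N * q) q ℤ ℓ hmid hNqq).1 _).2]

end xi

/-! ## The degeneracy maps `N → N q` and back, adjunctions -/

section level

variable (N q : ℕ) [NeZero N] [NeZero q]

theorem s59bc_cores_mem {w : HomG (N * q) ℤ} (hw : w ∈ Lpar (N * q)) : cores N q ℤ w ∈ Lpar N :=
  ((stmtC8 (N := N) (q := q) ℤ).2 w hw).1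

theorem s59bc_coresD_mem {w : HomG (N * q) ℤ} (hw : w ∈ Lpar (N * q)) :
    coresD N q ℤ w ∈ Lpar N :=
  ((stmtC8 (N := N) (q := q) ℤ).2 w hw).2

/-- `res` on the parabolic lattices -/
def s59bcResZ : ↥(Lpar N) →ₗ[ℤ] ↥(Lpar (N * q)) :=
  (AddMonoidHom.mk' (fun x : ↥(Lpar N) =>
      (⟨res N q ℤ x.1, s59bc_res_mem N q x.2⟩ : ↥(Lpar (N * q))))
    (fun x y => Subtype.ext (map_add (res N q ℤ) x.1 y.1))).toIntLinearMap

/-- `res^δ` on the parabolic lattices -/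
def s59bcResDZ : ↥(Lpar N) →ₗ[ℤ] ↥(Lpar (N * q)) :=
  (AddMonoidHom.mk' (fun x : ↥(Lpar N) =>
      (⟨resD N q ℤ x.1, s59bc_resD_mem N q x.2⟩ : ↥(Lpar (N * q))))
    (fun x y => Subtype.ext (map_add (resD N q ℤ) x.1 y.1))).toIntLinearMap

/-- `cores` on the parabolic lattices -/
def s59bcCoresZ : ↥(Lpar (N * q)) →ₗ[ℤ] ↥(Lpar N) :=
  (AddMonoidHom.mk' (fun w : ↥(Lpar (N * q)) =>
      (⟨cores N q ℤ w.1, s59bc_cores_mem N q w.2⟩ : ↥(Lpar N)))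
    (fun x y => Subtype.ext (map_add (cores N q ℤ) x.1 y.1))).toIntLinearMap

/-- `cores^δ` on the parabolic lattices -/
def s59bcCoresDZ : ↥(Lpar (N * q)) →ₗ[ℤ] ↥(Lpar N) :=
  (AddMonoidHom.mk' (fun w : ↥(Lpar (N * q)) =>
      (⟨coresD N q ℤ w.1, s59bc_coresD_mem N q w.2⟩ : ↥(Lpar N)))
    (fun x y => Subtype.ext (map_add (coresD N q ℤ) x.1 y.1))).toIntLinearMap

@[simp] theorem s59bcResZ_coe (x : ↥(Lpar N)) :
    ((s59bcResZ N q x : ↥(Lpar (N * q))) : HomG (N * q) ℤ) = res N q ℤ x.1 := rfl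

@[simp] theorem s59bcResDZ_coe (x : ↥(Lpar N)) :
    ((s59bcResDZ N q x : ↥(Lpar (N * q))) : HomG (N * q) ℤ) = resD N q ℤ x.1 := rfl

@[simp] theorem s59bcCoresZ_coe (w : ↥(Lpar (N * q))) :
    ((s59bcCoresZ N q w : ↥(Lpar N)) : HomG N ℤ) = cores N q ℤ w.1 := rfl

@[simp] theorem s59bcCoresDZ_coe (w : ↥(Lpar (N * q))) :
    ((s59bcCoresDZ N q w : ↥(Lpar N)) : HomG N ℤ) = coresD N q ℤ w.1 := rfl

/-- `ξ₀ = res₂ ∘ res₁` -/
theorem s59bcXiZ0_eq : s59bcXiZ0 N q = (s59bcResZ (N * q) q).comp (s59bcResZ N q) := rfl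

/-- `ξ₁ = res₂ ∘ res^δ₁` -/
theorem s59bcXiZ1_eq : s59bcXiZ1 N q = (s59bcResZ (N * q) q).comp (s59bcResDZ N q) := rfl

/-- `ξ₁ = res^δ₂ ∘ res₁` -/
theorem s59bcXiZ1_eq' : s59bcXiZ1 N q = (s59bcResDZ (N * q) q).comp (s59bcResZ N q) :=
  LinearMap.ext fun x => Subtype.ext (s59eadjBq_apply' x.1)

/-- `ξ₂ = res^δ₂ ∘ res^δ₁` -/
theorem s59bcXiZ2_eq : s59bcXiZ2 N q = (s59bcResDZ (N * q) q).comp (s59bcResDZ N q) := rfl

/-- `[res x, w]_{N q} = [x, cores w]_N` -/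
theorem s59bcPairZ_res_left (x : ↥(Lpar N)) (w : ↥(Lpar (N * q))) :
    s59bcPairZ (N * q) (s59bcResZ N q x) w = s59bcPairZ N x (s59bcCoresZ N q w) := by
  classical
  letI : Fintype (SL(2, ℤ) ⧸ Gamma0 N) := Fintype.ofFinite _
  letI : Fintype (SL(2, ℤ) ⧸ Gamma0 (N * q)) := Fintype.ofFinite _
  rw [s59bcPairZ_apply, s59bcPairZ_apply]
  exact pairFun_res_cores N q x.1 x.2 w.1 w.2

/-- `[w, res x]_{N q} = [cores w, x]_N` -/
theorem s59bcPairZ_res_right (x : ↥(Lpar N)) (w : ↥(Lpar (N * q))) :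
    s59bcPairZ (N * q) w (s59bcResZ N q x) = s59bcPairZ N (s59bcCoresZ N q w) x := by
  classical
  letI : Fintype (SL(2, ℤ) ⧸ Gamma0 N) := Fintype.ofFinite _
  letI : Fintype (SL(2, ℤ) ⧸ Gamma0 (N * q)) := Fintype.ofFinite _
  rw [s59bcPairZ_apply, s59bcPairZ_apply]
  exact pairFun_cores_res N q x.1 x.2 w.1 w.2

/-- `[res^δ x, w]_{N q} = [x, cores^δ w]_N` (`q` prime) -/
theorem s59bcPairZ_resD_left (hq : q.Prime) (x : ↥(Lpar N)) (w : ↥(Lpar (N * q))) :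
    s59bcPairZ (N * q) (s59bcResDZ N q x) w = s59bcPairZ N x (s59bcCoresDZ N q w) := by
  classical
  letI : Fintype (SL(2, ℤ) ⧸ Gamma0 N) := Fintype.ofFinite _
  letI : Fintype (SL(2, ℤ) ⧸ Gamma0 (N * q)) := Fintype.ofFinite _
  rw [s59bcPairZ_apply, s59bcPairZ_apply]
  exact s59eadj_adjD_left N q hq x.1 x.2 w.1 w.2

/-- `[w, res^δ x]_{N q} = [cores^δ w, x]_N` (`q` prime) -/
theorem s59bcPairZ_resD_right (hq : q.Prime) (x : ↥(Lpar N)) (w : ↥(Lpar (N * q))) :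
    s59bcPairZ (N * q) w (s59bcResDZ N q x) = s59bcPairZ N (s59bcCoresDZ N q w) x := by
  classical
  letI : Fintype (SL(2, ℤ) ⧸ Gamma0 N) := Fintype.ofFinite _
  letI : Fintype (SL(2, ℤ) ⧸ Gamma0 (N * q)) := Fintype.ofFinite _
  rw [s59bcPairZ_apply, s59bcPairZ_apply]
  exact s59eadj_adjD_right N q hq x.1 x.2 w.1 w.2

/-- **(C2)** in linear form: `cores res = q + 1 = cores^δ res^δ`, `cores res^δ = T_q = cores^δ res` -/
theorem s59bc_C2 [Fact q.Prime] (hqN : ¬ q ∣ N) (x : ↥(Lpar N)) :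
    s59bcCoresZ N q (s59bcResZ N q x) = (q + 1) • x ∧
    s59bcCoresDZ N q (s59bcResDZ N q x) = (q + 1) • x ∧
    s59bcCoresZ N q (s59bcResDZ N q x) = s59bcTcZ N q hqN x ∧
    s59bcCoresDZ N q (s59bcResZ N q x) = s59bcTcZ N q hqN x := by
  obtain ⟨h1, h2, h3, h4⟩ := stmtC2 N q ℤ hqN x.1
  refine ⟨Subtype.ext ?_, Subtype.ext ?_, Subtype.ext h3, Subtype.ext h4⟩
  · rw [s59bcCoresZ_coe, s59bcResZ_coe, h1]; rfl
  · rw [s59bcCoresDZ_coe, s59bcResDZ_coe, h2]; rfl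

variable (ℓ : ℕ) [Fact ℓ.Prime] (hN : ¬ ℓ ∣ N) (hNq : ¬ ℓ ∣ N * q)

/-- `res` commutes with `T_ℓ`, `ℓ ∤ N q` -/
theorem s59bcResZ_Tc (x : ↥(Lpar N)) :
    s59bcResZ N q (s59bcTcZ N ℓ hN x) = s59bcTcZ (N * q) ℓ hNq (s59bcResZ N q x) :=
  Subtype.ext ((stmtC1 N q ℤ ℓ hN hNq).1 x.1).1

/-- `res^δ` commutes with `T_ℓ`, `ℓ ∤ N q` -/
theorem s59bcResDZ_Tc (x : ↥(Lpar N)) :
    s59bcResDZ N q (s59bcTcZ N ℓ hN x) = s59bcTcZ (N * q) ℓ hNq (s59bcResDZ N q x) :=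
  Subtype.ext ((stmtC1 N q ℤ ℓ hN hNq).1 x.1).2

/-- `cores` commutes with `T_ℓ`, `ℓ ∤ N q` -/
theorem s59bcCoresZ_Tc (w : ↥(Lpar (N * q))) :
    s59bcCoresZ N q (s59bcTcZ (N * q) ℓ hNq w) = s59bcTcZ N ℓ hN (s59bcCoresZ N q w) :=
  Subtype.ext ((stmtC1 N q ℤ ℓ hN hNq).2 w.1).1

/-- `cores^δ` commutes with `T_ℓ`, `ℓ ∤ N q` -/
theorem s59bcCoresDZ_Tc (w : ↥(Lpar (N * q))) :
    s59bcCoresDZ N q (s59bcTcZ (N * q) ℓ hNq w) = s59bcTcZ N ℓ hN (s59bcCoresDZ N q w) :=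
  Subtype.ext ((stmtC1 N q ℤ ℓ hN hNq).2 w.1).2

end level

end Fermat.Agent.S59

end
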