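/-
S59 Route A, ETA′ (deputy helper72), piece **E-GRAM** (helper80), abstract part (Mathlib only).

Three modules `L₀, L₁, L₂` over a commutative ring `R` with bilinear forms `B₀, B₁, B₂`
(levels `N`, `N q`, `N q²`), degeneracy maps `r₁, d₁ : L₀ → L₁`, `r₂, d₂ : L₁ → L₂` with adjoints
`c₁, e₁ : L₁ → L₀`, `c₂, e₂ : L₂ → L₁` (`res, res^δ, cores, cores^δ`), `T = T_q` on `L₀`.

* `s59gram_abs_entry0` : `B₂ (D x) (r₂ r₁ w) = B₀ ((q − 1) ((q + 1)² x − T² x)) w`;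
* `s59gram_abs_kill`   : `e₂ (D x) = 0`;
* `s59gram_abs_entry1`, `s59gram_abs_entry2` : `B₂ (D x) (r₂ d₁ w) = 0 = B₂ (D x) (d₂ d₁ w)`;
* `s59gram_abs_hdep`   : the identity `hdep` of `s59eta_step_abs`, literal shape;
* `s59gram_abs_00 … _22` : the nine entries of the Gram matrix
  `[[q(q+1), qT, T²−(q+1)], [qT, q(q+1), qT], [T²−(q+1), qT, q(q+1)]]`.

Here `D x = q ξ₀ x − ξ₁ (T x) + ξ₂ x`, `ξ₀ = r₂ r₁`, `ξ₁ = r₂ d₁ = d₂ r₁`, `ξ₂ = d₂ d₁`.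
-/
import Mathlib

set_option autoImplicit false
set_option linter.unusedSectionVars false
set_option linter.unusedVariables false

namespace Fermat.Agent.S59

section GramAbs

variable {R : Type*} [CommRing R] {L₀ L₁ L₂ : Type*}
  [AddCommGroup L₀] [Module R L₀] [AddCommGroup L₁] [Module R L₁] [AddCommGroup L₂] [Module R L₂]
  (B₀ : L₀ →ₗ[R] L₀ →ₗ[R] R) (B₁ : L₁ →ₗ[R] L₁ →ₗ[R] R) (B₂ : L₂ →ₗ[R] L₂ →ₗ[R] R)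
  (r₁ d₁ : L₀ →ₗ[R] L₁) (r₂ d₂ : L₁ →ₗ[R] L₂)
  (c₁ e₁ : L₁ →ₗ[R] L₀) (c₂ e₂ : L₂ →ₗ[R] L₁) (T : L₀ →ₗ[R] L₀) (q : R)

/-- the depleted vector `D x = q ξ₀ x − ξ₁ (T x) + ξ₂ x` is killed by `e₂ = cores^δ`. -/
theorem s59gram_abs_kill
    (hdr : ∀ x, d₂ (r₁ x) = r₂ (d₁ x))
    (hed₂ : ∀ u, e₂ (d₂ u) = q • u)
    (hcorner : ∀ x, e₂ (r₂ (r₁ x)) = r₁ (T x) - d₁ x) (x : L₀) :
    e₂ (q • r₂ (r₁ x) - r₂ (d₁ (T x)) + d₂ (d₁ x)) = 0 := by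
  rw [map_add, map_sub, map_smul, hcorner, ← hdr (T x), hed₂, hed₂, smul_sub]
  abel

/-- entry against `ξ₁ = r₂ d₁` -/
theorem s59gram_abs_entry1
    (hadjD₂ : ∀ w u, B₂ w (d₂ u) = B₁ (e₂ w) u)
    (hdr : ∀ x, d₂ (r₁ x) = r₂ (d₁ x))
    (hed₂ : ∀ u, e₂ (d₂ u) = q • u)
    (hcorner : ∀ x, e₂ (r₂ (r₁ x)) = r₁ (T x) - d₁ x) (x w : L₀) :
    B₂ (q • r₂ (r₁ x) - r₂ (d₁ (T x)) + d₂ (d₁ x)) (r₂ (d₁ w)) = 0 := by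
  rw [← hdr w, hadjD₂, s59gram_abs_kill r₁ d₁ r₂ d₂ e₂ T q hdr hed₂ hcorner x]
  simp

/-- entry against `ξ₂ = d₂ d₁` -/
theorem s59gram_abs_entry2
    (hadjD₂ : ∀ w u, B₂ w (d₂ u) = B₁ (e₂ w) u)
    (hdr : ∀ x, d₂ (r₁ x) = r₂ (d₁ x))
    (hed₂ : ∀ u, e₂ (d₂ u) = q • u)
    (hcorner : ∀ x, e₂ (r₂ (r₁ x)) = r₁ (T x) - d₁ x) (x w : L₀) :
    B₂ (q • r₂ (r₁ x) - r₂ (d₁ (T x)) + d₂ (d₁ x)) (d₂ (d₁ w)) = 0 := by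
  rw [hadjD₂, s59gram_abs_kill r₁ d₁ r₂ d₂ e₂ T q hdr hed₂ hcorner x]
  simp

/-- the corner entry `[ξ₂ x, ξ₀ w] = [T² x, w] − (q + 1) [x, w]` -/
theorem s59gram_abs_20
    (hadjDl₁ : ∀ x u, B₁ (d₁ x) u = B₀ x (e₁ u))
    (hadjDl₂ : ∀ u w, B₂ (d₂ u) w = B₁ u (e₂ w))
    (her₁ : ∀ x, e₁ (r₁ x) = T x)
    (hed₁ : ∀ x, e₁ (d₁ x) = (q + 1) • x)
    (hcorner : ∀ x, e₂ (r₂ (r₁ x)) = r₁ (T x) - d₁ x)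
    (hT : ∀ x y, B₀ (T x) y = B₀ x (T y)) (x w : L₀) :
    B₂ (d₂ (d₁ x)) (r₂ (r₁ w)) = B₀ (T (T x)) w - (q + 1) * B₀ x w := by
  rw [hadjDl₂, hcorner, map_sub, hadjDl₁, hadjDl₁, her₁, hed₁, map_smul, smul_eq_mul, hT, hT]

/-- entry `[ξ₀ x, ξ₀ w] = q (q + 1) [x, w]` -/
theorem s59gram_abs_00
    (hadj₁ : ∀ u x, B₁ u (r₁ x) = B₀ (c₁ u) x)
    (hadj₂ : ∀ w u, B₂ w (r₂ u) = B₁ (c₂ w) u)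
    (hcr₁ : ∀ x, c₁ (r₁ x) = (q + 1) • x)
    (hcr₂ : ∀ u, c₂ (r₂ u) = q • u) (x w : L₀) :
    B₂ (r₂ (r₁ x)) (r₂ (r₁ w)) = q * (q + 1) * B₀ x w := by
  rw [hadj₂, hcr₂, map_smul, LinearMap.smul_apply, hadj₁, hcr₁, map_smul, LinearMap.smul_apply,
    smul_eq_mul, smul_eq_mul]
  ring

/-- entry `[ξ₁ x, ξ₀ w] = q [T x, w]` -/
theorem s59gram_abs_10
    (hadj₁ : ∀ u x, B₁ u (r₁ x) = B₀ (c₁ u) x)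
    (hadj₂ : ∀ w u, B₂ w (r₂ u) = B₁ (c₂ w) u)
    (hcd₁ : ∀ x, c₁ (d₁ x) = T x)
    (hcr₂ : ∀ u, c₂ (r₂ u) = q • u) (x w : L₀) :
    B₂ (r₂ (d₁ x)) (r₂ (r₁ w)) = q * B₀ (T x) w := by
  rw [hadj₂, hcr₂, map_smul, LinearMap.smul_apply, hadj₁, hcd₁, smul_eq_mul]

/-- entry against `ξ₀ = r₂ r₁`: the factor `c_q = (q − 1) ((q + 1)² − T²)`. -/
theorem s59gram_abs_entry0
    (hadj₁ : ∀ u x, B₁ u (r₁ x) = B₀ (c₁ u) x)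
    (hadj₂ : ∀ w u, B₂ w (r₂ u) = B₁ (c₂ w) u)
    (hadjDl₁ : ∀ x u, B₁ (d₁ x) u = B₀ x (e₁ u))
    (hadjDl₂ : ∀ u w, B₂ (d₂ u) w = B₁ u (e₂ w))
    (hcr₁ : ∀ x, c₁ (r₁ x) = (q + 1) • x)
    (hcd₁ : ∀ x, c₁ (d₁ x) = T x)
    (her₁ : ∀ x, e₁ (r₁ x) = T x)
    (hed₁ : ∀ x, e₁ (d₁ x) = (q + 1) • x)
    (hcr₂ : ∀ u, c₂ (r₂ u) = q • u)
    (hcorner : ∀ x, e₂ (r₂ (r₁ x)) = r₁ (T x) - d₁ x)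
    (hT : ∀ x y, B₀ (T x) y = B₀ x (T y)) (x w : L₀) :
    B₂ (q • r₂ (r₁ x) - r₂ (d₁ (T x)) + d₂ (d₁ x)) (r₂ (r₁ w)) =
      B₀ ((q - 1) • ((q + 1) ^ 2 • x - T (T x))) w := by
  rw [map_add, map_sub, map_smul, LinearMap.add_apply, LinearMap.sub_apply, LinearMap.smul_apply,
    s59gram_abs_00 B₀ B₁ B₂ r₁ r₂ c₁ c₂ q hadj₁ hadj₂ hcr₁ hcr₂,
    s59gram_abs_10 B₀ B₁ B₂ r₁ d₁ r₂ c₁ c₂ T q hadj₁ hadj₂ hcd₁ hcr₂,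
    s59gram_abs_20 B₀ B₁ B₂ r₁ d₁ r₂ d₂ e₁ e₂ T q hadjDl₁ hadjDl₂ her₁ hed₁ hcorner hT]
  rw [map_smul, LinearMap.smul_apply, map_sub, LinearMap.sub_apply, map_smul,
    LinearMap.smul_apply, smul_eq_mul, smul_eq_mul, smul_eq_mul]
  ring

/-- **(E-GRAM, abstract)** the identity `hdep` of `s59eta_step_abs`, in its literal shape, with
`ξ₀ = r₂ ∘ r₁`, `ξ₁ = r₂ ∘ d₁`, `ξ₂ = d₂ ∘ d₁`. -/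
theorem s59gram_abs_hdep
    (hadj₁ : ∀ u x, B₁ u (r₁ x) = B₀ (c₁ u) x)
    (hadj₂ : ∀ w u, B₂ w (r₂ u) = B₁ (c₂ w) u)
    (hadjD₂ : ∀ w u, B₂ w (d₂ u) = B₁ (e₂ w) u)
    (hadjDl₁ : ∀ x u, B₁ (d₁ x) u = B₀ x (e₁ u))
    (hadjDl₂ : ∀ u w, B₂ (d₂ u) w = B₁ u (e₂ w))
    (hdr : ∀ x, d₂ (r₁ x) = r₂ (d₁ x))
    (hcr₁ : ∀ x, c₁ (r₁ x) = (q + 1) • x)
    (hcd₁ : ∀ x, c₁ (d₁ x) = T x)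
    (her₁ : ∀ x, e₁ (r₁ x) = T x)
    (hed₁ : ∀ x, e₁ (d₁ x) = (q + 1) • x)
    (hcr₂ : ∀ u, c₂ (r₂ u) = q • u)
    (hed₂ : ∀ u, e₂ (d₂ u) = q • u)
    (hcorner : ∀ x, e₂ (r₂ (r₁ x)) = r₁ (T x) - d₁ x)
    (hT : ∀ x y, B₀ (T x) y = B₀ x (T y)) :
    ∀ x w₀ w₁ w₂ : L₀,
      B₂ (q • (r₂ ∘ₗ r₁) x - (r₂ ∘ₗ d₁) (T x) + (d₂ ∘ₗ d₁) x)
          ((r₂ ∘ₗ r₁) w₀ + (r₂ ∘ₗ d₁) w₁ + (d₂ ∘ₗ d₁) w₂) =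
        B₀ ((q - 1) • ((q + 1) ^ 2 • x - T (T x))) w₀ := by
  intro x w₀ w₁ w₂
  simp only [LinearMap.comp_apply]
  rw [map_add, map_add,
    s59gram_abs_entry0 B₀ B₁ B₂ r₁ d₁ r₂ d₂ c₁ e₁ c₂ e₂ T q hadj₁ hadj₂ hadjDl₁ hadjDl₂ hcr₁ hcd₁
      her₁ hed₁ hcr₂ hcorner hT,
    s59gram_abs_entry1 B₁ B₂ r₁ d₁ r₂ d₂ e₂ T q hadjD₂ hdr hed₂ hcorner,
    s59gram_abs_entry2 B₁ B₂ r₁ d₁ r₂ d₂ e₂ T q hadjD₂ hdr hed₂ hcorner, add_zero, add_zero]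

end GramAbs

end Fermat.Agent.S59
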