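import Mathlib
import Fermat.Agent.S59.Eta.Adj
import Fermat.Agent.S59.Eta.GramAbs

/-!
# S59 ETA′, piece **E-GRAM** (helper80): the Gram matrix of `(ξ₀, ξ₁, ξ₂)` on parabolic classes

`q` prime, `q ∤ N`.  Everything is packaged as `ℤ`-linear algebra on the lattices
`Lpar M = Hom_par(Γ₀(M), ℤ)` (`S41.Lpar`), so that it can be fed to `s59eta_step_abs` and
base-changed (`S59/Eta/GramBC.lean`).

* `s59gramB M : Lpar M →ₗ[ℤ] Lpar M →ₗ[ℤ] ℤ`         the pairing `S41.PD.pairFun (Gamma0 M)`;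
* `s59gramRes, s59gramResD : Lpar N →ₗ[ℤ] Lpar (N * q)`, `s59gramCores, s59gramCoresD` back;
* `s59gramT N q : Lpar N →ₗ[ℤ] Lpar N`                `T_q` (`s59gramT_coe`: it is `S41.Tc q hqN`);
* `s59gramXi0/1/2 N q : Lpar N →ₗ[ℤ] Lpar (N * q * q)` `= s59eadjB1/Bq/Bqq` of helper39;
* `s59gram_hdep`  : the hypothesis `hdep` of `s59eta_step_abs` over `ℤ`, literal shape;
* `s59gram_entry_ij` : the nine entries of the Gram matrix.
-/

set_option autoImplicit false
set_option linter.style.haveILetI false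
set_option linter.unusedSectionVars false
set_option linter.unusedSimpArgs false
set_option linter.unnecessarySeqFocus false
set_option linter.unusedVariables false

noncomputable section

namespace Fermat.Agent.S59

open CongruenceSubgroup Matrix Fermat.Agent.S41 Fermat.Agent.S41.PD
open scoped MatrixGroups
open ModularCurve.Period (IsParabolicHom parabolicHoms mem_parabolicHoms_iff)

/-! ## The pairing as a `ℤ`-bilinear form on `Lpar M` -/

section form

variable (M : ℕ) [NeZero M]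

/-- the `Fintype` structure on `SL(2, ℤ) ⧸ Γ₀(M)` used for the pairing -/
abbrev s59gramFin : Fintype (SL(2, ℤ) ⧸ Gamma0 M) := Fintype.ofFinite _

/-- `pairFun (Gamma0 M)` with the instance `s59gramFin M` -/
def s59gramPair (x y : HomG M ℤ) : ℤ :=
  letI := s59gramFin M
  pairFun (Gamma0 M) x y

theorem s59gramPair_eq [inst : Fintype (SL(2, ℤ) ⧸ Gamma0 M)] (x y : HomG M ℤ) :
    s59gramPair M x y = pairFun (Gamma0 M) x y := by
  have : inst = s59gramFin M := Subsingleton.elim _ _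
  subst this
  rfl

theorem s59gram_mem_Lpar {x : HomG M ℤ} : x ∈ Lpar M ↔ IsParabolicHom (Gamma0 M) x := Iff.rfl

theorem s59gramPair_add_left (x x' y : Lpar M) :
    s59gramPair M ((x + x' : Lpar M) : HomG M ℤ) y = s59gramPair M x y + s59gramPair M x' y := by
  letI := s59gramFin M
  exact pairFun_add_left (neg_one_mem_Gamma0 M) x.1 x'.1 y.1 x.2 x'.2 y.2

theorem s59gramPair_add_right (x y y' : Lpar M) :
    s59gramPair M x ((y + y' : Lpar M) : HomG M ℤ) = s59gramPair M x y + s59gramPair M x y' := by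
  letI := s59gramFin M
  exact pairFun_add_right (neg_one_mem_Gamma0 M) x.1 y.1 y'.1 x.2 y.2 y'.2

/-- `y ↦ [x, y]` -/
def s59gramPairR (x : Lpar M) : Lpar M →+ ℤ :=
  AddMonoidHom.mk' (fun y => s59gramPair M x y) (fun y y' => s59gramPair_add_right M x y y')

/-- `x ↦ [x, y]` -/
def s59gramPairL (y : Lpar M) : Lpar M →+ ℤ :=
  AddMonoidHom.mk' (fun x => s59gramPair M x y) (fun x x' => s59gramPair_add_left M x x' y)

/-- **the pairing** `[ , ]_M` on `Hom_par(Γ₀(M), ℤ)` as a `ℤ`-bilinear form -/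
def s59gramB : Lpar M →ₗ[ℤ] Lpar M →ₗ[ℤ] ℤ :=
  LinearMap.mk₂ ℤ (fun x y => s59gramPair M x y)
    (fun x x' y => s59gramPair_add_left M x x' y)
    (fun c x y => map_zsmul (s59gramPairL M y) c x)
    (fun x y y' => s59gramPair_add_right M x y y')
    (fun c x y => map_zsmul (s59gramPairR M x) c y)

theorem s59gramB_apply (x y : Lpar M) : s59gramB M x y = s59gramPair M x y := rfl

theorem s59gramB_eq [Fintype (SL(2, ℤ) ⧸ Gamma0 M)] (x y : Lpar M) :
    s59gramB M x y = pairFun (Gamma0 M) (x : HomG M ℤ) (y : HomG M ℤ) :=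
  s59gramPair_eq M _ _

end form

/-! ## The degeneracy maps on the lattices -/

section maps

variable (N q : ℕ) [NeZero N] [NeZero q]

/-- `res : Lpar N → Lpar (N q)` -/
def s59gramRes : Lpar N →ₗ[ℤ] Lpar (N * q) :=
  (((res N q ℤ).comp (Lpar N).subtype).codRestrict (Lpar (N * q))
    (fun x => ((stmtC8 N q ℤ).1 x.1 x.2).1)).toIntLinearMap

/-- `res^δ : Lpar N → Lpar (N q)` -/
def s59gramResD : Lpar N →ₗ[ℤ] Lpar (N * q) :=
  (((resD N q ℤ).comp (Lpar N).subtype).codRestrict (Lpar (N * q))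
    (fun x => ((stmtC8 N q ℤ).1 x.1 x.2).2)).toIntLinearMap

/-- `cores : Lpar (N q) → Lpar N` -/
def s59gramCores : Lpar (N * q) →ₗ[ℤ] Lpar N :=
  (((cores N q ℤ).comp (Lpar (N * q)).subtype).codRestrict (Lpar N)
    (fun x => ((stmtC8 N q ℤ).2 x.1 x.2).1)).toIntLinearMap

/-- `cores^δ : Lpar (N q) → Lpar N` -/
def s59gramCoresD : Lpar (N * q) →ₗ[ℤ] Lpar N :=
  (((coresD N q ℤ).comp (Lpar (N * q)).subtype).codRestrict (Lpar N)
    (fun x => ((stmtC8 N q ℤ).2 x.1 x.2).2)).toIntLinearMap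

/-- `T_q` on `Lpar N` (as `cores^δ ∘ res`; see `s59gramT_coe`) -/
def s59gramT : Lpar N →ₗ[ℤ] Lpar N := (s59gramCoresD N q).comp (s59gramRes N q)

/-- `ξ₀ = res ∘ res` -/
def s59gramXi0 : Lpar N →ₗ[ℤ] Lpar (N * q * q) := (s59gramRes (N * q) q).comp (s59gramRes N q)

/-- `ξ₁ = res ∘ res^δ (= res^δ ∘ res)` -/
def s59gramXi1 : Lpar N →ₗ[ℤ] Lpar (N * q * q) := (s59gramRes (N * q) q).comp (s59gramResD N q)

/-- `ξ₂ = res^δ ∘ res^δ` -/
def s59gramXi2 : Lpar N →ₗ[ℤ] Lpar (N * q * q) := (s59gramResD (N * q) q).comp (s59gramResD N q)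

variable {N q}

@[simp] theorem s59gramRes_coe (x : Lpar N) :
    ((s59gramRes N q x : Lpar (N * q)) : HomG (N * q) ℤ) = res N q ℤ x := rfl

@[simp] theorem s59gramResD_coe (x : Lpar N) :
    ((s59gramResD N q x : Lpar (N * q)) : HomG (N * q) ℤ) = resD N q ℤ x := rfl

@[simp] theorem s59gramCores_coe (w : Lpar (N * q)) :
    ((s59gramCores N q w : Lpar N) : HomG N ℤ) = cores N q ℤ w := rfl

@[simp] theorem s59gramCoresD_coe (w : Lpar (N * q)) :
    ((s59gramCoresD N q w : Lpar N) : HomG N ℤ) = coresD N q ℤ w := rfl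

theorem s59gramT_coe [Fact q.Prime] (hqN : ¬ q ∣ N) (x : Lpar N) :
    ((s59gramT N q x : Lpar N) : HomG N ℤ) = Tc q hqN (x : HomG N ℤ) :=
  (stmtC2 N q ℤ hqN x.1).2.2.2

theorem s59gramXi0_coe (x : Lpar N) :
    ((s59gramXi0 N q x : Lpar (N * q * q)) : HomG (N * q * q) ℤ) = s59eadjB1 N q ℤ x := rfl

theorem s59gramXi1_coe (x : Lpar N) :
    ((s59gramXi1 N q x : Lpar (N * q * q)) : HomG (N * q * q) ℤ) = s59eadjBq N q ℤ x := rfl

theorem s59gramXi2_coe (x : Lpar N) :
    ((s59gramXi2 N q x : Lpar (N * q * q)) : HomG (N * q * q) ℤ) = s59eadjBqq N q ℤ x := rfl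

end maps

/-! ## Adjunctions and operator identities on the lattices -/

section adjunctions

variable (N q : ℕ) [NeZero N] [NeZero q]

/-- `[u, res x]_{N q} = [cores u, x]_N` -/
theorem s59gram_adj_res_right (u : Lpar (N * q)) (x : Lpar N) :
    s59gramB (N * q) u (s59gramRes N q x) = s59gramB N (s59gramCores N q u) x := by
  letI := s59gramFin N
  letI := s59gramFin (N * q)
  rw [s59gramB_eq, s59gramB_eq]
  exact pairFun_cores_res N q x.1 x.2 u.1 u.2

/-- `[res x, u]_{N q} = [x, cores u]_N` -/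
theorem s59gram_adj_res_left (x : Lpar N) (u : Lpar (N * q)) :
    s59gramB (N * q) (s59gramRes N q x) u = s59gramB N x (s59gramCores N q u) := by
  letI := s59gramFin N
  letI := s59gramFin (N * q)
  rw [s59gramB_eq, s59gramB_eq]
  exact pairFun_res_cores N q x.1 x.2 u.1 u.2

/-- `[u, res^δ x]_{N q} = [cores^δ u, x]_N` -/
theorem s59gram_adj_resD_right (hq : q.Prime) (u : Lpar (N * q)) (x : Lpar N) :
    s59gramB (N * q) u (s59gramResD N q x) = s59gramB N (s59gramCoresD N q u) x := by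
  letI := s59gramFin N
  letI := s59gramFin (N * q)
  rw [s59gramB_eq, s59gramB_eq]
  exact s59eadj_adjD_right N q hq x.1 x.2 u.1 u.2

/-- `[res^δ x, u]_{N q} = [x, cores^δ u]_N` -/
theorem s59gram_adj_resD_left (hq : q.Prime) (x : Lpar N) (u : Lpar (N * q)) :
    s59gramB (N * q) (s59gramResD N q x) u = s59gramB N x (s59gramCoresD N q u) := by
  letI := s59gramFin N
  letI := s59gramFin (N * q)
  rw [s59gramB_eq, s59gramB_eq]
  exact s59eadj_adjD_left N q hq x.1 x.2 u.1 u.2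

end adjunctions

section identities

variable {N q : ℕ} [NeZero N] [NeZero q] [hq : Fact q.Prime]

theorem s59gram_coe_zsmul {M : ℕ} (c : ℤ) (x : Lpar M) :
    ((c • x : Lpar M) : HomG M ℤ) = c • (x : HomG M ℤ) := rfl

theorem s59gram_natCast_succ_zsmul {M : ℕ} (x : HomG M ℤ) :
    ((q : ℤ) + 1) • x = (q + 1) • x := by
  have h : ((q : ℤ) + 1) = ((q + 1 : ℕ) : ℤ) := by push_cast; rfl
  rw [h, natCast_zsmul]

/-- `cores₁ ∘ res₁ = q + 1` -/
theorem s59gram_cores_res (hqN : ¬ q ∣ N) (x : Lpar N) :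
    s59gramCores N q (s59gramRes N q x) = ((q : ℤ) + 1) • x := by
  apply Subtype.ext
  rw [s59gram_coe_zsmul, s59gram_natCast_succ_zsmul]
  exact (stmtC2 N q ℤ hqN x.1).1

/-- `cores^δ₁ ∘ res^δ₁ = q + 1` -/
theorem s59gram_coresD_resD (hqN : ¬ q ∣ N) (x : Lpar N) :
    s59gramCoresD N q (s59gramResD N q x) = ((q : ℤ) + 1) • x := by
  apply Subtype.ext
  rw [s59gram_coe_zsmul, s59gram_natCast_succ_zsmul]
  exact (stmtC2 N q ℤ hqN x.1).2.1

/-- `cores₁ ∘ res^δ₁ = T_q` -/
theorem s59gram_cores_resD (hqN : ¬ q ∣ N) (x : Lpar N) :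
    s59gramCores N q (s59gramResD N q x) = s59gramT N q x := by
  apply Subtype.ext
  rw [s59gramT_coe hqN]
  exact (stmtC2 N q ℤ hqN x.1).2.2.1

/-- `cores^δ₁ ∘ res₁ = T_q` -/
theorem s59gram_coresD_res (x : Lpar N) :
    s59gramCoresD N q (s59gramRes N q x) = s59gramT N q x := rfl

/-- `cores₂ ∘ res₂ = q` (level `N q → N q²`) -/
theorem s59gram_cores_res₂ (u : Lpar (N * q)) :
    s59gramCores (N * q) q (s59gramRes (N * q) q u) = (q : ℤ) • u := by
  apply Subtype.ext
  rw [s59gram_coe_zsmul, natCast_zsmul]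
  exact s59eadj_cores_res (dvd_mul_left q N) u.1

/-- `cores^δ₂ ∘ res^δ₂ = q` (level `N q → N q²`) -/
theorem s59gram_coresD_resD₂ (u : Lpar (N * q)) :
    s59gramCoresD (N * q) q (s59gramResD (N * q) q u) = (q : ℤ) • u := by
  apply Subtype.ext
  rw [s59gram_coe_zsmul, natCast_zsmul]
  exact s59eadj_coresD_resD (dvd_mul_left q N) u.1

/-- `res^δ₂ ∘ res₁ = res₂ ∘ res^δ₁` -/
theorem s59gram_resD_res (x : Lpar N) :
    s59gramResD (N * q) q (s59gramRes N q x) = s59gramRes (N * q) q (s59gramResD N q x) := by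
  apply Subtype.ext
  exact s59eadj_resD_res x.1

/-- the corner identity `cores^δ₂ (res₂ (res₁ x)) = res₁ (T_q x) − res^δ₁ x` -/
theorem s59gram_corner (hqN : ¬ q ∣ N) (x : Lpar N) :
    s59gramCoresD (N * q) q (s59gramRes (N * q) q (s59gramRes N q x)) =
      s59gramRes N q (s59gramT N q x) - s59gramResD N q x := by
  apply Subtype.ext
  have h := s59eadj_coresD_res_res hqN x.1
  rw [← s59gramT_coe hqN x] at h
  exact h

/-- `T_q` is self-adjoint -/
theorem s59gram_T_selfadj (hqN : ¬ q ∣ N) (x y : Lpar N) :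
    s59gramB N (s59gramT N q x) y = s59gramB N x (s59gramT N q y) := by
  letI := s59gramFin N
  rw [s59gramB_eq, s59gramB_eq, s59gramT_coe hqN, s59gramT_coe hqN]
  exact pairFun_Tc_selfadj N q hqN x.1 y.1 x.2 y.2

end identities

/-! ## The Gram identity -/

section main

variable (N q : ℕ) [NeZero N] [NeZero q] [hq : Fact q.Prime]

/-- **(E-GRAM)** the hypothesis `hdep` of `s59eta_step_abs`, over `ℤ`, on the parabolic lattices
`L = Lpar N`, `L' = Lpar (N q²)`, for the pairings `s59gramB` (`= S41.PD.pairFun`), in its literal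
shape. -/
theorem s59gram_hdep (hqN : ¬ q ∣ N) : ∀ x w₀ w₁ w₂ : Lpar N,
    s59gramB (N * q * q)
        ((q : ℤ) • s59gramXi0 N q x - s59gramXi1 N q (s59gramT N q x) + s59gramXi2 N q x)
        (s59gramXi0 N q w₀ + s59gramXi1 N q w₁ + s59gramXi2 N q w₂) =
      s59gramB N (((q : ℤ) - 1) • (((q : ℤ) + 1) ^ 2 • x - s59gramT N q (s59gramT N q x))) w₀ :=
  s59gram_abs_hdep (s59gramB N) (s59gramB (N * q)) (s59gramB (N * q * q))
    (s59gramRes N q) (s59gramResD N q) (s59gramRes (N * q) q) (s59gramResD (N * q) q)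
    (s59gramCores N q) (s59gramCoresD N q) (s59gramCores (N * q) q) (s59gramCoresD (N * q) q)
    (s59gramT N q) (q : ℤ)
    (s59gram_adj_res_right N q)
    (s59gram_adj_res_right (N * q) q)
    (s59gram_adj_resD_right (N * q) q hq.out)
    (s59gram_adj_resD_left N q hq.out)
    (s59gram_adj_resD_left (N * q) q hq.out)
    s59gram_resD_res
    (s59gram_cores_res hqN)
    (s59gram_cores_resD hqN)
    s59gram_coresD_res
    (s59gram_coresD_resD hqN)
    s59gram_cores_res₂
    s59gram_coresD_resD₂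
    (s59gram_corner hqN)
    (s59gram_T_selfadj hqN)

end main

end Fermat.Agent.S59
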