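/-
S59, Route A, ETA′ (deputy helper72), piece **E-BC**, part 1b (helper36): BRIDGE between the two
`ℤ`-linear packages on `Lpar M` — helper80's `S59/Eta/Gram.lean` (`s59gramB`, `s59gramXi0/1/2`,
`s59gramT`, `s59gram_hdep`) and `S59/Eta/BCLin.lean` (`s59bcPairZ`, `s59bcXiZ0/1/2`, `s59bcTcZ`,
perfectness, self-adjointness, `hcomm`).  The objects are EQUAL; hence `hdep` over `ℤ` holds for
the `BCLin` objects (`s59bcg_hdepZ`) and perfectness / self-adjointness / `hcomm` hold for the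
`Gram` objects (`s59bcg_gramB_bijective`, …).
-/
import Mathlib
import Fermat.Agent.S59.Eta.Gram
import Fermat.Agent.S59.Eta.BCLin

set_option autoImplicit false
set_option linter.style.haveILetI false
set_option linter.unusedSectionVars false
set_option linter.unusedVariables false

noncomputable section

namespace Fermat.Agent.S59

open CongruenceSubgroup Matrix Fermat.Agent.S41 Fermat.Agent.S41.PD
open scoped MatrixGroups

section bridge

variable (M : ℕ) [NeZero M]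

/-- the two packagings of the pairing agree -/
theorem s59bcg_B_eq : s59gramB M = s59bcPairZ M := by
  classical
  letI : Fintype (SL(2, ℤ) ⧸ Gamma0 M) := Fintype.ofFinite _
  refine LinearMap.ext fun x => LinearMap.ext fun y => ?_
  rw [s59gramB_eq, s59bcPairZ_apply]

/-- helper80's pairing is perfect (left) -/
theorem s59bcg_gramB_bijective : Function.Bijective (s59gramB M) := by
  rw [s59bcg_B_eq]; exact s59bcPairZ_bijective M

/-- helper80's pairing is perfect (right) -/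
theorem s59bcg_gramB_flip_bijective : Function.Bijective (s59gramB M).flip := by
  rw [s59bcg_B_eq]; exact s59bcPairZ_flip_bijective M

variable (N q : ℕ) [NeZero N] [NeZero q]

theorem s59bcg_Res_eq : s59gramRes N q = s59bcResZ N q := LinearMap.ext fun _ => Subtype.ext rfl

theorem s59bcg_ResD_eq : s59gramResD N q = s59bcResDZ N q :=
  LinearMap.ext fun _ => Subtype.ext rfl

theorem s59bcg_Cores_eq : s59gramCores N q = s59bcCoresZ N q :=
  LinearMap.ext fun _ => Subtype.ext rfl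

theorem s59bcg_CoresD_eq : s59gramCoresD N q = s59bcCoresDZ N q :=
  LinearMap.ext fun _ => Subtype.ext rfl

theorem s59bcg_Xi0_eq : s59gramXi0 N q = s59bcXiZ0 N q := LinearMap.ext fun _ => Subtype.ext rfl

theorem s59bcg_Xi1_eq : s59gramXi1 N q = s59bcXiZ1 N q := LinearMap.ext fun _ => Subtype.ext rfl

theorem s59bcg_Xi2_eq : s59gramXi2 N q = s59bcXiZ2 N q := LinearMap.ext fun _ => Subtype.ext rfl

variable [hq : Fact q.Prime]

theorem s59bcg_T_eq (hqN : ¬ q ∣ N) : s59gramT N q = s59bcTcZ N q hqN :=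
  LinearMap.ext fun x => Subtype.ext (s59gramT_coe hqN x)

/-- **`hdep` over `ℤ`** for the `BCLin` objects (`tq = s59bcTcZ N q hqN`) -/
theorem s59bcg_hdepZ (hqN : ¬ q ∣ N) : ∀ x w₀ w₁ w₂ : ↥(Lpar N),
    s59bcPairZ (N * q * q)
        ((q : ℤ) • s59bcXiZ0 N q x - s59bcXiZ1 N q (s59bcTcZ N q hqN x) + s59bcXiZ2 N q x)
        (s59bcXiZ0 N q w₀ + s59bcXiZ1 N q w₁ + s59bcXiZ2 N q w₂) =
      s59bcPairZ N (((q : ℤ) - 1) • (((q : ℤ) + 1) ^ 2 • x -
        s59bcTcZ N q hqN (s59bcTcZ N q hqN x))) w₀ := by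
  intro x w₀ w₁ w₂
  have h := s59gram_hdep N q hqN x w₀ w₁ w₂
  rw [s59bcg_B_eq, s59bcg_B_eq, s59bcg_Xi0_eq, s59bcg_Xi1_eq, s59bcg_Xi2_eq, s59bcg_T_eq N q hqN]
    at h
  exact h

/-- `hcomm` for helper80's `ξ_i` and the Hecke operators `s59bcTcZ` -/
theorem s59bcg_gramXi_Tc (ℓ : ℕ) [Fact ℓ.Prime] (hN : ¬ ℓ ∣ N) (hNqq : ¬ ℓ ∣ N * q * q)
    (x : ↥(Lpar N)) :
    s59gramXi0 N q (s59bcTcZ N ℓ hN x) = s59bcTcZ (N * q * q) ℓ hNqq (s59gramXi0 N q x) ∧
    s59gramXi1 N q (s59bcTcZ N ℓ hN x) = s59bcTcZ (N * q * q) ℓ hNqq (s59gramXi1 N q x) ∧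
    s59gramXi2 N q (s59bcTcZ N ℓ hN x) = s59bcTcZ (N * q * q) ℓ hNqq (s59gramXi2 N q x) := by
  rw [s59bcg_Xi0_eq, s59bcg_Xi1_eq, s59bcg_Xi2_eq]
  exact ⟨s59bcXiZ0_Tc N q ℓ hN hNqq x, s59bcXiZ1_Tc N q ℓ hN hNqq x,
    s59bcXiZ2_Tc N q ℓ hN hNqq x⟩

/-- `T_ℓ` is self-adjoint for helper80's pairing -/
theorem s59bcg_gramB_Tc (ℓ : ℕ) [Fact ℓ.Prime] (hℓ : ¬ ℓ ∣ M) (x y : ↥(Lpar M)) :
    s59gramB M (s59bcTcZ M ℓ hℓ x) y = s59gramB M x (s59bcTcZ M ℓ hℓ y) := by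
  rw [s59bcg_B_eq]; exact s59bcPairZ_Tc M ℓ hℓ x y

/-- `T_q` commutes with `T_ℓ` on `Lpar N` (helper80's `T_q`) -/
theorem s59bcg_gramT_comm (hqN : ¬ q ∣ N) (ℓ : ℕ) [Fact ℓ.Prime] (hN : ¬ ℓ ∣ N) (x : ↥(Lpar N)) :
    s59gramT N q (s59bcTcZ N ℓ hN x) = s59bcTcZ N ℓ hN (s59gramT N q x) := by
  rw [s59bcg_T_eq N q hqN]; exact s59bcTcZ_comm N q hqN ℓ hN x

end bridge

end Fermat.Agent.S59

end
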