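/-
S59, Route A, ETA′ (sub-captain helper72), piece **E-BC**, part **BC-3** (helper19), ABSTRACT part
(Mathlib only): a finite free `ℤ`-module `L` of "functions on `Γ`" (`ev γ : L →ₗ[ℤ] ℤ`) which is
SATURATED at the prime `p` (a function of `L` all of whose values are divisible by `p` is `p`
times a function of `L`) is detected modulo `p` by its values:

* `s59bcr_span_top`      : the vectors `(ev γ (b i) mod p)_i`, `γ ∈ Γ`, span `ι → ZMod p`;
* `s59bcr_exists_dual`   : integral dual elements modulo `p`: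
                           `Σ_γ n γ · ev γ (b i) ≡ δ_ij mod p`;
* `s59bcr_coeff_eq_zero` : `R` a commutative ring with `p = 0`, `c : ι → R` with
                           `Σ_i c i · ev γ (b i) = 0` for all `γ`  ⇒  `c = 0`.
-/
import Mathlib

set_option autoImplicit false
set_option linter.unusedSectionVars false
set_option linter.unusedVariables false

namespace Fermat.Agent.S59

section Abs

variable {Γ L ι : Type*} [AddCommGroup L] [Fintype ι] [DecidableEq ι]
  (b : Module.Basis ι ℤ L) (ev : Γ → L →ₗ[ℤ] ℤ) (p : ℕ) [Fact p.Prime]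

/-- the evaluation vector of `γ`, modulo `p` -/
noncomputable def s59bcrVec (γ : Γ) : ι → ZMod p := fun i => ((ev γ (b i) : ℤ) : ZMod p)

/-- a linear form on `ι → ZMod p` in coordinates -/
theorem s59bcr_form_apply (f : (ι → ZMod p) →ₗ[ZMod p] ZMod p) (w : ι → ZMod p) :
    f w = ∑ i, w i * f (Pi.single i 1) := by
  rw [LinearMap.pi_apply_eq_sum_univ f w]
  refine Finset.sum_congr rfl fun i _ => ?_
  rw [smul_eq_mul]
  congr 2
  ext j
  simp [Pi.single_apply, eq_comm]

/-- **saturation ⇒ the evaluation vectors span modulo `p`.** -/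
theorem s59bcr_span_top
    (hsat : ∀ x : L, (∀ γ, (p : ℤ) ∣ ev γ x) → ∃ y : L, x = (p : ℤ) • y) :
    Submodule.span (ZMod p) (Set.range (s59bcrVec b ev p)) = ⊤ := by
  by_contra hne
  obtain ⟨f, hf0, hf⟩ := Submodule.exists_le_ker_of_lt_top _ (lt_top_iff_ne_top.2 hne)
  apply hf0
  have hm : ∀ i, ((((f (Pi.single i 1)).val : ℤ)) : ZMod p) = f (Pi.single i 1) := by
    intro i
    rw [Int.cast_natCast, ZMod.natCast_zmod_val]
  have hx : ∀ γ, (p : ℤ) ∣ ev γ (∑ i, ((f (Pi.single i 1)).val : ℤ) • b i) := by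
    intro γ
    rw [← ZMod.intCast_zmod_eq_zero_iff_dvd]
    have h1 : f (s59bcrVec b ev p γ) = 0 := hf (Submodule.subset_span ⟨γ, rfl⟩)
    rw [s59bcr_form_apply] at h1
    rw [map_sum, Int.cast_sum, ← h1]
    refine Finset.sum_congr rfl fun i _ => ?_
    rw [map_smul, smul_eq_mul, Int.cast_mul, hm, mul_comm]
    rfl
  obtain ⟨y, hy⟩ := hsat _ hx
  have hrepr : ∀ i, ((f (Pi.single i 1)).val : ℤ) = (p : ℤ) * b.repr y i := by
    intro i
    have h1 : b.repr (∑ j, ((f (Pi.single j 1)).val : ℤ) • b j) i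
        = ((f (Pi.single i 1)).val : ℤ) := by
      rw [map_sum, Finsupp.finsetSum_apply]
      simp only [map_smul, Module.Basis.repr_self, Finsupp.smul_apply, smul_eq_mul,
        Finsupp.single_apply, mul_ite, mul_one, mul_zero]
      rw [Finset.sum_ite_eq' Finset.univ i]
      simp
    rw [← h1, hy, map_smul, Finsupp.smul_apply, smul_eq_mul]
  apply LinearMap.ext
  intro w
  rw [s59bcr_form_apply, LinearMap.zero_apply]
  refine Finset.sum_eq_zero fun i _ => ?_
  have h0 : f (Pi.single i 1) = 0 := by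
    rw [← hm, hrepr, Int.cast_mul, Int.cast_natCast, ZMod.natCast_self, zero_mul]
  rw [h0, mul_zero]

/-- **integral dual elements modulo `p`.** -/
theorem s59bcr_exists_dual
    (hsat : ∀ x : L, (∀ γ, (p : ℤ) ∣ ev γ x) → ∃ y : L, x = (p : ℤ) • y) (j : ι) :
    ∃ (s : Finset Γ) (n : Γ → ℤ), ∀ i,
      (p : ℤ) ∣ (∑ γ ∈ s, n γ * ev γ (b i)) - (if i = j then 1 else 0) := by
  have hj : (Pi.single j 1 : ι → ZMod p) ∈
      Submodule.span (ZMod p) (Set.range (s59bcrVec b ev p)) := by
    rw [s59bcr_span_top b ev p hsat]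
    trivial
  rw [Finsupp.mem_span_range_iff_exists_finsupp] at hj
  obtain ⟨c, hc⟩ := hj
  refine ⟨c.support, fun γ => ((c γ).val : ℤ), fun i => ?_⟩
  rw [← ZMod.intCast_eq_intCast_iff_dvd_sub]
  have h := congrFun hc i
  rw [Finsupp.sum, Finset.sum_apply] at h
  rw [Int.cast_sum]
  have e1 : (((if i = j then (1 : ℤ) else 0 : ℤ)) : ZMod p) = (Pi.single j 1 : ι → ZMod p) i := by
    rw [Pi.single_apply]
    split_ifs <;> simp
  rw [e1, ← h]
  refine Finset.sum_congr rfl fun γ _ => ?_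
  rw [Int.cast_mul, Int.cast_natCast, ZMod.natCast_zmod_val]
  rfl

/-- **detection modulo `p`**: in a commutative ring `R` with `p = 0`, a family `c : ι → R` with
`Σ_i c i · ev γ (b i) = 0` for all `γ` vanishes. -/
theorem s59bcr_coeff_eq_zero
    (hsat : ∀ x : L, (∀ γ, (p : ℤ) ∣ ev γ x) → ∃ y : L, x = (p : ℤ) • y)
    {R : Type*} [CommRing R] (hp : (p : R) = 0) (c : ι → R)
    (h : ∀ γ, ∑ i, c i * ((ev γ (b i) : ℤ) : R) = 0) : c = 0 := by
  funext j
  obtain ⟨s, n, hn⟩ := s59bcr_exists_dual b ev p hsat j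
  have key : ∀ i, (((if i = j then (1 : ℤ) else 0 : ℤ)) : R) =
      ∑ γ ∈ s, (n γ : R) * ((ev γ (b i) : ℤ) : R) := by
    intro i
    obtain ⟨k, hk⟩ := hn i
    have e : (∑ γ ∈ s, n γ * ev γ (b i)) = (if i = j then 1 else 0) + (p : ℤ) * k := by
      linarith
    have e' := congrArg (fun z : ℤ => (z : R)) e
    simp only [Int.cast_sum, Int.cast_mul, Int.cast_add, Int.cast_natCast] at e'
    rw [e', hp, zero_mul, add_zero]
  have h1 : c j = ∑ i, c i * (((if i = j then (1 : ℤ) else 0 : ℤ)) : R) := by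
    simp only [Int.cast_ite, Int.cast_one, Int.cast_zero, mul_ite, mul_one, mul_zero]
    rw [Finset.sum_ite_eq' Finset.univ j]
    simp
  rw [h1]
  simp only [key, Finset.mul_sum]
  rw [Finset.sum_comm]
  rw [Pi.zero_apply]
  refine Finset.sum_eq_zero fun γ _ => ?_
  have h2 := h γ
  have h3 : ∑ i, c i * ((n γ : R) * ((ev γ (b i) : ℤ) : R))
      = (n γ : R) * ∑ i, c i * ((ev γ (b i) : ℤ) : R) := by
    rw [Finset.mul_sum]
    refine Finset.sum_congr rfl fun i _ => ?_
    ring
  rw [h3, h2, mul_zero]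

end Abs

end Fermat.Agent.S59
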