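/-
S59, Route A, ETA′ (sub-captain helper72), piece **E-BC**, part **BC-3** (helper19): the REDUCTION

    `red : 𝒪 ⊗[ℤ] Lpar M →ₗ[𝒪] Hom(Γ₀(M), 𝒪 ⧸ I)`,   `a ⊗ x ↦ (γ ↦ x(γ) • ā)`,

its image is parabolic, its kernel is `I • ⊤` (if a prime number `p` lies in `I`), and it is
compatible with every operator which is natural in the coefficient group (`T_ℓ`, `res`, `res^δ`,
hence the `ξ_i`).  This is the bridge from `hsat` (S59/Eta/PlanR2.lean) to E-SAT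
(`s59sat_StmtSat`, coefficients killed by `p`).

* `s59bcrF 𝒪 I a : ℤ →+ 𝒪 ⧸ I`, `n ↦ n • ā`;   `s59bcrRed M 𝒪 I`;
* `s59bcrRed_tmul`     : `red (a ⊗ x) = (s59bcrF a).comp x`;
* `s59bcrRed_apply_tmul` : `red (a ⊗ x) γ = x γ • ā`;
* `s59bcrRed_mem_Hpar` : `red X ∈ Hpar M (𝒪 ⧸ I)`;
* `s59bcrRed_natural`  : `red' (t ⊗ 1) X = T (red X)` for `t` on `Lpar` induced by `T_ℤ`, `T`
                         natural in the coefficients;
* `s59bcrRed_tcPar`    : the instance `T_ℓ`;  `s59bcrRed_res`, `s59bcrRed_resD` : `res`, `res^δ`;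
* `s59bcr_sat_Lpar`    : `Lpar M` is saturated in the functions on `Γ₀(M)`;
* **`s59bcrRed_ker`**  : `p ∈ I`, `red X = 0` ⇒ `X ∈ I • ⊤`;
* **`s59bcrRed_ker_span`** : `p ∈ (ϖ)`, `red X = 0` ⇒ `X = ϖ • X₁`.
-/
import Fermat.Agent.S41.Coh
import Fermat.Agent.S59.Eta.BCRedAbs

set_option autoImplicit false
set_option linter.unusedSectionVars false
set_option linter.unusedVariables false
set_option linter.style.haveILetI false

noncomputable section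

namespace Fermat.Agent.S59

open TensorProduct CongruenceSubgroup Fermat.Agent.S41
open ModularCurve.Period (IsParabolicHom parabolicHoms mem_parabolicHoms_iff)

section Red

variable (M : ℕ) (𝒪 : Type) [CommRing 𝒪] (I : Ideal 𝒪)

/-- `n ↦ n • ā : ℤ →+ 𝒪 ⧸ I` -/
def s59bcrF (a : 𝒪) : ℤ →+ 𝒪 ⧸ I := zmultiplesHom (𝒪 ⧸ I) (Ideal.Quotient.mk I a)

theorem s59bcrF_apply (a : 𝒪) (n : ℤ) : s59bcrF 𝒪 I a n = n • Ideal.Quotient.mk I a := rfl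

theorem s59bcrF_smul (a c : 𝒪) (n : ℤ) : s59bcrF 𝒪 I (a * c) n = a • s59bcrF 𝒪 I c n := by
  have e : a • (Ideal.Quotient.mk I c) = Ideal.Quotient.mk I a * Ideal.Quotient.mk I c := by
    rw [Algebra.smul_def]
    rfl
  rw [s59bcrF_apply, s59bcrF_apply, map_mul, ← e, smul_comm n a]

/-- post-composition with `ℤ → 𝒪 ⧸ I` on the parabolic lattice -/
def s59bcrCast : ↥(Lpar M) →ₗ[ℤ] HomG M (𝒪 ⧸ I) :=
  AddMonoidHom.toIntLinearMap
    { toFun := fun x => (s59bcrF 𝒪 I 1).comp (x : HomG M ℤ)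
      map_zero' := by
        ext g
        simp
      map_add' := fun x y => by
        ext g
        simp }

/-- **the reduction** `𝒪 ⊗[ℤ] Lpar M → Hom(Γ₀(M), 𝒪 ⧸ I)` -/
def s59bcrRed : 𝒪 ⊗[ℤ] ↥(Lpar M) →ₗ[𝒪] HomG M (𝒪 ⧸ I) :=
  LinearMap.liftBaseChange 𝒪 (s59bcrCast M 𝒪 I)

variable {M}

theorem s59bcrRed_tmul (a : 𝒪) (x : ↥(Lpar M)) :
    s59bcrRed M 𝒪 I (a ⊗ₜ[ℤ] x) = (s59bcrF 𝒪 I a).comp (x : HomG M ℤ) := by
  unfold s59bcrRed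
  rw [LinearMap.liftBaseChange_tmul]
  ext g
  show a • (s59bcrF 𝒪 I 1 ((x : HomG M ℤ) g)) = s59bcrF 𝒪 I a ((x : HomG M ℤ) g)
  rw [← s59bcrF_smul, mul_one]

theorem s59bcrRed_apply_tmul (a : 𝒪) (x : ↥(Lpar M)) (γ : Gamma0 M) :
    s59bcrRed M 𝒪 I (a ⊗ₜ[ℤ] x) (Additive.ofMul γ) =
      ((x : HomG M ℤ) (Additive.ofMul γ)) • Ideal.Quotient.mk I a := by
  rw [s59bcrRed_tmul]
  rfl

/-- the reduction of a parabolic class is parabolic -/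
theorem s59bcrRed_mem_Hpar (X : 𝒪 ⊗[ℤ] ↥(Lpar M)) :
    s59bcrRed M 𝒪 I X ∈ Hpar M (𝒪 ⧸ I) := by
  induction X using TensorProduct.induction_on with
  | zero =>
    rw [map_zero]
    exact (Hpar M (𝒪 ⧸ I)).zero_mem
  | add X Y hX hY =>
    rw [map_add]
    exact (Hpar M (𝒪 ⧸ I)).add_mem hX hY
  | tmul a x =>
    rw [s59bcrRed_tmul]
    show IsParabolicHom (Gamma0 M) ((s59bcrF 𝒪 I a).comp (x : HomG M ℤ))
    intro γ hγ
    have hx : IsParabolicHom (Gamma0 M) (x : HomG M ℤ) := x.2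
    rw [AddMonoidHom.comp_apply, hx γ hγ, map_zero]

/-- **naturality**: the reduction commutes with every operator which is natural in the
coefficient group. -/
theorem s59bcrRed_natural {M' : ℕ} (t : ↥(Lpar M) →ₗ[ℤ] ↥(Lpar M'))
    (Tz : HomG M ℤ → HomG M' ℤ) (Ta : HomG M (𝒪 ⧸ I) →+ HomG M' (𝒪 ⧸ I))
    (ht : ∀ x : ↥(Lpar M), ((t x : ↥(Lpar M')) : HomG M' ℤ) = Tz (x : HomG M ℤ))
    (hnat : ∀ (f : ℤ →+ 𝒪 ⧸ I) (φ : HomG M ℤ), Ta (f.comp φ) = f.comp (Tz φ))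
    (X : 𝒪 ⊗[ℤ] ↥(Lpar M)) :
    s59bcrRed M' 𝒪 I (t.baseChange 𝒪 X) = Ta (s59bcrRed M 𝒪 I X) := by
  induction X using TensorProduct.induction_on with
  | zero => simp
  | add X Y hX hY => simp only [map_add, hX, hY]
  | tmul a x =>
    rw [LinearMap.baseChange_tmul, s59bcrRed_tmul, s59bcrRed_tmul, hnat, ht]

/-- the instance `T_ℓ` -/
theorem s59bcrRed_tcPar (ℓ : ℕ) [Fact ℓ.Prime] (hℓ : ¬ ℓ ∣ M) (X : 𝒪 ⊗[ℤ] ↥(Lpar M)) :
    s59bcrRed M 𝒪 I ((tcPar M ℓ hℓ).baseChange 𝒪 X) = Tc ℓ hℓ (s59bcrRed M 𝒪 I X) :=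
  s59bcrRed_natural 𝒪 I (tcPar M ℓ hℓ) (Tc ℓ hℓ)
    (AddMonoidHom.mk' (Tc ℓ hℓ) (fun φ ψ => Fermat.Agent.ES.HeckeP.heckeHom_add hℓ φ ψ))
    (fun x => rfl) (fun f φ => Fermat.Agent.ES.HeckeP.heckeHom_comp hℓ f φ) X

/-- the instance `res` -/
theorem s59bcrRed_res (q : ℕ) (t : ↥(Lpar M) →ₗ[ℤ] ↥(Lpar (M * q)))
    (ht : ∀ x : ↥(Lpar M), ((t x : ↥(Lpar (M * q))) : HomG (M * q) ℤ) = res M q ℤ x)
    (X : 𝒪 ⊗[ℤ] ↥(Lpar M)) :
    s59bcrRed (M * q) 𝒪 I (t.baseChange 𝒪 X) = res M q (𝒪 ⧸ I) (s59bcrRed M 𝒪 I X) :=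
  s59bcrRed_natural 𝒪 I t (res M q ℤ) (res M q (𝒪 ⧸ I)) ht (fun f φ => rfl) X

/-- the instance `res^δ` -/
theorem s59bcrRed_resD (q : ℕ) [NeZero q] (t : ↥(Lpar M) →ₗ[ℤ] ↥(Lpar (M * q)))
    (ht : ∀ x : ↥(Lpar M), ((t x : ↥(Lpar (M * q))) : HomG (M * q) ℤ) = resD M q ℤ x)
    (X : 𝒪 ⊗[ℤ] ↥(Lpar M)) :
    s59bcrRed (M * q) 𝒪 I (t.baseChange 𝒪 X) = resD M q (𝒪 ⧸ I) (s59bcrRed M 𝒪 I X) :=
  s59bcrRed_natural 𝒪 I t (resD M q ℤ) (resD M q (𝒪 ⧸ I)) ht (fun f φ => rfl) X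

end Red

section Ker

variable (M : ℕ)

/-- evaluation at `γ` on the parabolic lattice -/
def s59bcrEv (γ : Gamma0 M) : ↥(Lpar M) →ₗ[ℤ] ℤ :=
  AddMonoidHom.toIntLinearMap
    { toFun := fun x => (x : HomG M ℤ) (Additive.ofMul γ)
      map_zero' := rfl
      map_add' := fun _ _ => rfl }

theorem s59bcrEv_apply (γ : Gamma0 M) (x : ↥(Lpar M)) :
    s59bcrEv M γ x = (x : HomG M ℤ) (Additive.ofMul γ) := rfl

/-- **`Lpar M` is saturated**: a parabolic class all of whose values are divisible by `p` is `p`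
times a parabolic class. -/
theorem s59bcr_sat_Lpar (p : ℕ) (hp : p ≠ 0) (x : ↥(Lpar M))
    (hx : ∀ γ : Gamma0 M, (p : ℤ) ∣ s59bcrEv M γ x) : ∃ y : ↥(Lpar M), x = (p : ℤ) • y := by
  have hp' : (p : ℤ) ≠ 0 := by exact_mod_cast hp
  have hdiv : ∀ g : Additive (Gamma0 M), (p : ℤ) ∣ (x : HomG M ℤ) g := fun g =>
    hx (Additive.toMul g)
  let y : HomG M ℤ :=
    { toFun := fun g => (x : HomG M ℤ) g / (p : ℤ)
      map_zero' := by simp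
      map_add' := fun g h => by
        show (x : HomG M ℤ) (g + h) / (p : ℤ) = _
        rw [map_add, Int.add_ediv_of_dvd_left (hdiv g)] }
  have hy : ∀ g, (p : ℤ) * y g = (x : HomG M ℤ) g := fun g => Int.mul_ediv_cancel' (hdiv g)
  have hypar : y ∈ Lpar M := by
    show IsParabolicHom (Gamma0 M) y
    intro γ hγ
    have hx0 : (x : HomG M ℤ) (Additive.ofMul γ) = 0 := x.2 γ hγ
    show (x : HomG M ℤ) (Additive.ofMul γ) / (p : ℤ) = 0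
    rw [hx0, Int.zero_ediv]
  refine ⟨⟨y, hypar⟩, Subtype.ext ?_⟩
  refine AddMonoidHom.ext fun g => ?_
  have e : (((p : ℤ) • (⟨y, hypar⟩ : ↥(Lpar M)) : ↥(Lpar M)) : HomG M ℤ) g = (p : ℤ) * y g := by
    simp
  rw [e, hy]

/-- the parabolic lattice is torsion-free -/
theorem s59bcr_Lpar_smul_eq_zero (n : ℤ) (hn : n ≠ 0) (x : ↥(Lpar M)) (h : n • x = 0) : x = 0 := by
  apply Subtype.ext
  refine AddMonoidHom.ext fun g => ?_
  have h2 : ((n • x : ↥(Lpar M)) : HomG M ℤ) g = 0 := by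
    rw [h]
    rfl
  have h3 : n * (x : HomG M ℤ) g = 0 := by
    rw [← h2]
    simp
  rcases mul_eq_zero.1 h3 with h4 | h4
  · exact absurd h4 hn
  · exact h4

variable (𝒪 : Type) [CommRing 𝒪] (I : Ideal 𝒪) [NeZero M]

/-- **the kernel of the reduction** is `I • ⊤`, if a prime number `p` lies in `I`. -/
theorem s59bcrRed_ker (p : ℕ) [Fact p.Prime] (hp : (p : 𝒪) ∈ I) (X : 𝒪 ⊗[ℤ] ↥(Lpar M))
    (hX : s59bcrRed M 𝒪 I X = 0) :
    X ∈ I • (⊤ : Submodule 𝒪 (𝒪 ⊗[ℤ] ↥(Lpar M))) := by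
  classical
  haveI : Module.Finite ℤ ↥(Lpar M) := finite_Lpar M
  haveI : NoZeroSMulDivisors ℤ ↥(Lpar M) :=
    ⟨fun {n x} h => by
      by_cases hn : n = 0
      · exact Or.inl hn
      · exact Or.inr (s59bcr_Lpar_smul_eq_zero M n hn x h)⟩
  haveI : Module.Free ℤ ↥(Lpar M) := Module.free_of_finite_type_torsion_free'
  let b := Module.Free.chooseBasis ℤ ↥(Lpar M)
  have hsat : ∀ x : ↥(Lpar M), (∀ γ, (p : ℤ) ∣ s59bcrEv M γ x) → ∃ y, x = (p : ℤ) • y :=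
    fun x hx => s59bcr_sat_Lpar M p (Fact.out : p.Prime).ne_zero x hx
  have hpR : ((p : ℕ) : 𝒪 ⧸ I) = 0 := by
    have h := Ideal.Quotient.eq_zero_iff_mem.2 hp
    rwa [map_natCast] at h
  have hc : (fun i => Ideal.Quotient.mk I ((b.baseChange 𝒪).repr X i)) = 0 := by
    apply s59bcr_coeff_eq_zero b (s59bcrEv M) p hsat hpR
    intro γ
    have h1 : s59bcrRed M 𝒪 I X (Additive.ofMul γ) = 0 := by
      rw [hX]
      rfl
    rw [← h1]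
    conv_rhs => rw [← (b.baseChange 𝒪).sum_repr X]
    rw [map_sum, AddMonoidHom.finsetSum_apply]
    refine Finset.sum_congr rfl fun i _ => ?_
    rw [map_smul, Module.Basis.baseChange_apply, AddMonoidHom.smul_apply,
      s59bcrRed_apply_tmul, s59bcrEv_apply, Algebra.smul_def, Ideal.Quotient.algebraMap_eq,
      zsmul_eq_mul, map_one, mul_one]
  have hmem : ∀ i, (b.baseChange 𝒪).repr X i ∈ I := fun i =>
    Ideal.Quotient.eq_zero_iff_mem.1 (congrFun hc i)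
  rw [← (b.baseChange 𝒪).sum_repr X]
  exact Submodule.sum_mem _ fun i _ => Submodule.smul_mem_smul (hmem i) Submodule.mem_top

/-- **the kernel of the reduction modulo `ϖ`**: `red X = 0 ⇒ X = ϖ • X₁`. -/
theorem s59bcrRed_ker_span (p : ℕ) [Fact p.Prime] (ϖ : 𝒪) (hp : (p : 𝒪) ∈ Ideal.span {ϖ})
    (X : 𝒪 ⊗[ℤ] ↥(Lpar M)) (hX : s59bcrRed M 𝒪 (Ideal.span {ϖ}) X = 0) :
    ∃ X₁ : 𝒪 ⊗[ℤ] ↥(Lpar M), X = ϖ • X₁ := by
  have h := s59bcrRed_ker M 𝒪 _ p hp X hX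
  rw [Submodule.ideal_span_singleton_smul] at h
  obtain ⟨X₁, -, rfl⟩ := h
  exact ⟨X₁, rfl⟩

end Ker

end Fermat.Agent.S59

end
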