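import Mathlib
import Fermat.Agent.S59.Eta.PlanR2

/-!
# S59, wall R2 (ETA′) — the step `Σ ↦ Σ ∪ {q}` on the FULL lattices (deputy helper72)

`S59/Eta/PlanR2.lean` states the step on the `θ`-parts (where `ξ` is saturated).  Here is the
form which needs NO idempotent: `L = 𝒪 ⊗ Lpar N`, `L' = 𝒪 ⊗ Lpar (N q²)` are the full lattices and
the saturation input is literally E-SAT (`s59sat_StmtSat`):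

* `hsatE` : `ξ w ∈ ϖ L'  ⇒  s w ∈ ϖ L³`, where `s = D_ℓ D_ℓ'` (`D_ℓ = T_ℓ − (ℓ + 1)`) commutes with
            `ξ` (`hsξ`);
* non-Eisenstein: `s` acts on the `ψ`-eigenvectors by a UNIT `u = (ψ_ℓ − ℓ − 1)(ψ_ℓ' − ℓ' − 1)`
            (`hsE`, `hs'`);
* `hinj`  : `ξ` is injective (operator Gram matrix + E-PET);
* `hrat`, `hTQ`, `hcomm`, `hdep` as in `PlanR2.lean`.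

Results:
* `s59r2f_lift`     : `c • y' = ξ w`, `c ≠ 0`, `y' ∈ E'` ⇒ `y' = ξ v`;
* `s59r2f_hmult`    : `E' ⊆ ξ(E³)`;
* **`s59r2f_step`** : `J' ≤ (q − 1)(a² − (q + 1)²) · J` on the full lattices;
* `s59r2f_prim`     : the depleted vector is primitive;
* `s59r2f_DD_*`, **`s59r2f_step_DD`** : the same with `s = (t i₁ − c₁)(t i₂ − c₂)`,
  `s' = (t' i₁ − c₁)(t' i₂ − c₂)`, `u = (ψ i₁ − c₁)(ψ i₂ − c₂)` plugged in.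
-/

set_option autoImplicit false
set_option linter.unusedSectionVars false
set_option linter.unusedVariables false
set_option linter.style.haveILetI false

namespace Fermat.Agent.S59

open IsLocalRing

section Full

variable {𝒪 : Type} [CommRing 𝒪] [IsDomain 𝒪] [IsDiscreteValuationRing 𝒪]
  {L L' : Type} [AddCommGroup L] [Module 𝒪 L] [AddCommGroup L'] [Module 𝒪 L']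
  [NoZeroSMulDivisors 𝒪 L] [NoZeroSMulDivisors 𝒪 L']
  {ι : Type}

/-- **Lifting through `ξ`.**  If `s` kills the kernel of `ξ` modulo `ϖ` and acts on `y'` by a
unit, then `c • y' = ξ w` (`c ≠ 0`) implies `y' = ξ v`. -/
theorem s59r2f_lift (ξ₀ ξ₁ ξ₂ : L →ₗ[𝒪] L') {ϖ : 𝒪} (hϖ : Irreducible ϖ)
    (s : L →ₗ[𝒪] L) (s' : L' →ₗ[𝒪] L') (u : 𝒪) (hu : IsUnit u)
    (hsξ : ∀ w : L, ξ₀ (s w) = s' (ξ₀ w) ∧ ξ₁ (s w) = s' (ξ₁ w) ∧ ξ₂ (s w) = s' (ξ₂ w))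
    (hsatE : ∀ (w₀ w₁ w₂ : L) (y' : L'), ξ₀ w₀ + ξ₁ w₁ + ξ₂ w₂ = ϖ • y' →
      ∃ v₀ v₁ v₂ : L, s w₀ = ϖ • v₀ ∧ s w₁ = ϖ • v₁ ∧ s w₂ = ϖ • v₂)
    (y' : L') (hy' : s' y' = u • y') (c : 𝒪) (hc : c ≠ 0) (w₀ w₁ w₂ : L)
    (h : c • y' = ξ₀ w₀ + ξ₁ w₁ + ξ₂ w₂) :
    ∃ v₀ v₁ v₂ : L, y' = ξ₀ v₀ + ξ₁ v₁ + ξ₂ v₂ := by
  obtain ⟨n, u₀, rfl⟩ := IsDiscreteValuationRing.eq_unit_mul_pow_irreducible hc hϖ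
  clear hc
  induction n generalizing u₀ w₀ w₁ w₂ with
  | zero =>
    refine ⟨(↑u₀⁻¹ : 𝒪) • w₀, (↑u₀⁻¹ : 𝒪) • w₁, (↑u₀⁻¹ : 𝒪) • w₂, ?_⟩
    rw [map_smul, map_smul, map_smul, ← smul_add, ← smul_add, ← h, pow_zero, mul_one, smul_smul,
      Units.inv_mul, one_smul]
  | succ n ih =>
    have h1 : ξ₀ w₀ + ξ₁ w₁ + ξ₂ w₂ = ϖ • ((↑u₀ * ϖ ^ n) • y') := by
      rw [← h, smul_smul]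
      congr 1
      ring
    obtain ⟨v₀, v₁, v₂, e₀, e₁, e₂⟩ := hsatE w₀ w₁ w₂ _ h1
    obtain ⟨u', rfl⟩ := hu
    have h2 : ϖ • (ξ₀ v₀ + ξ₁ v₁ + ξ₂ v₂) = ϖ • ((↑(u₀ * u') * ϖ ^ n) • y') := by
      calc ϖ • (ξ₀ v₀ + ξ₁ v₁ + ξ₂ v₂)
          = ξ₀ (s w₀) + ξ₁ (s w₁) + ξ₂ (s w₂) := by
            rw [e₀, e₁, e₂, map_smul, map_smul, map_smul, smul_add, smul_add]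
        _ = s' (ξ₀ w₀ + ξ₁ w₁ + ξ₂ w₂) := by
            rw [(hsξ w₀).1, (hsξ w₁).2.1, (hsξ w₂).2.2, map_add, map_add]
        _ = (↑u₀ * ϖ ^ (n + 1)) • ((↑u' : 𝒪) • y') := by
            rw [← h, map_smul, hy']
        _ = ϖ • ((↑(u₀ * u') * ϖ ^ n) • y') := by
            rw [smul_smul, smul_smul, Units.val_mul]
            congr 1
            ring
    have h3 : (↑(u₀ * u') * ϖ ^ n) • y' = ξ₀ v₀ + ξ₁ v₁ + ξ₂ v₂ :=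
      (smul_right_injective L' hϖ.ne_zero h2).symm
    exact ih _ _ _ _ h3

/-- **(hmult), full lattices**: `E' ⊆ ξ(E³)`. -/
theorem s59r2f_hmult (ξ₀ ξ₁ ξ₂ : L →ₗ[𝒪] L') (t : ι → L →ₗ[𝒪] L) (t' : ι → L' →ₗ[𝒪] L')
    (ψ : ι → 𝒪) (tq : L →ₗ[𝒪] L) (a : 𝒪) {ϖ : 𝒪} (hϖ : Irreducible ϖ)
    (hcomm : ∀ (i : ι) (w : L), ξ₀ (t i w) = t' i (ξ₀ w) ∧ ξ₁ (t i w) = t' i (ξ₁ w) ∧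
      ξ₂ (t i w) = t' i (ξ₂ w))
    (s : L →ₗ[𝒪] L) (s' : L' →ₗ[𝒪] L') (u : 𝒪) (hu : IsUnit u)
    (hsξ : ∀ w : L, ξ₀ (s w) = s' (ξ₀ w) ∧ ξ₁ (s w) = s' (ξ₁ w) ∧ ξ₂ (s w) = s' (ξ₂ w))
    (hs' : ∀ y' ∈ s59r2E' t' ψ, s' y' = u • y')
    (hsatE : ∀ (w₀ w₁ w₂ : L) (y' : L'), ξ₀ w₀ + ξ₁ w₁ + ξ₂ w₂ = ϖ • y' →
      ∃ v₀ v₁ v₂ : L, s w₀ = ϖ • v₀ ∧ s w₁ = ϖ • v₁ ∧ s w₂ = ϖ • v₂)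
    (hinj : ∀ w₀ w₁ w₂ : L, ξ₀ w₀ + ξ₁ w₁ + ξ₂ w₂ = 0 → w₀ = 0 ∧ w₁ = 0 ∧ w₂ = 0)
    (hrat : ∀ y' ∈ s59r2E' t' ψ, ∃ c : 𝒪, c ≠ 0 ∧ ∃ w₀ w₁ w₂ : L,
      c • y' = ξ₀ w₀ + ξ₁ w₁ + ξ₂ w₂)
    (hTQ : ∀ v : L, (∀ i, t i v = ψ i • v) → tq v = a • v) :
    ∀ y' ∈ s59r2E' t' ψ, ∃ w₀ ∈ s59r2E t ψ tq a, ∃ w₁ ∈ s59r2E t ψ tq a,
      ∃ w₂ ∈ s59r2E t ψ tq a, y' = ξ₀ w₀ + ξ₁ w₁ + ξ₂ w₂ := by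
  intro y' hy'
  obtain ⟨c, hc, w₀, w₁, w₂, hw⟩ := hrat y' hy'
  obtain ⟨v₀, v₁, v₂, hv⟩ :=
    s59r2f_lift ξ₀ ξ₁ ξ₂ hϖ s s' u hu hsξ hsatE y' (hs' y' hy') c hc w₀ w₁ w₂ hw
  have heig : ∀ i, t i v₀ = ψ i • v₀ ∧ t i v₁ = ψ i • v₁ ∧ t i v₂ = ψ i • v₂ := by
    intro i
    have h1 : ξ₀ (t i v₀ - ψ i • v₀) + ξ₁ (t i v₁ - ψ i • v₁) + ξ₂ (t i v₂ - ψ i • v₂) = 0 := by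
      have h2 : t' i y' = ψ i • y' := hy' i
      rw [hv, map_add, map_add, ← (hcomm i v₀).1, ← (hcomm i v₁).2.1, ← (hcomm i v₂).2.2,
        smul_add, smul_add] at h2
      rw [map_sub, map_sub, map_sub, map_smul, map_smul, map_smul]
      have h3 : ξ₀ (t i v₀) + ξ₁ (t i v₁) + ξ₂ (t i v₂) -
          (ψ i • ξ₀ v₀ + ψ i • ξ₁ v₁ + ψ i • ξ₂ v₂) = 0 := sub_eq_zero.2 h2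
      rw [← h3]
      abel
    obtain ⟨e₀, e₁, e₂⟩ := hinj _ _ _ h1
    exact ⟨sub_eq_zero.1 e₀, sub_eq_zero.1 e₁, sub_eq_zero.1 e₂⟩
  exact ⟨v₀, ⟨fun i => (heig i).1, hTQ v₀ fun i => (heig i).1⟩,
    v₁, ⟨fun i => (heig i).2.1, hTQ v₁ fun i => (heig i).2.1⟩,
    v₂, ⟨fun i => (heig i).2.2, hTQ v₂ fun i => (heig i).2.2⟩, hv⟩

/-- **(R2, the step on the full lattices)**: `J_{Σ ∪ q} ≤ (q − 1)(a² − (q + 1)²) · J_Σ` for the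
depleted vector `x' = q ξ₀ x − a ξ₁ x + ξ₂ x`. -/
theorem s59r2f_step (B : L →ₗ[𝒪] L →ₗ[𝒪] 𝒪) (B' : L' →ₗ[𝒪] L' →ₗ[𝒪] 𝒪)
    (ξ₀ ξ₁ ξ₂ : L →ₗ[𝒪] L') (t : ι → L →ₗ[𝒪] L) (t' : ι → L' →ₗ[𝒪] L')
    (ψ : ι → 𝒪) (tq : L →ₗ[𝒪] L) (q a : 𝒪) {ϖ : 𝒪} (hϖ : Irreducible ϖ)
    (hdep : ∀ x w₀ w₁ w₂ : L, B' (q • ξ₀ x - ξ₁ (tq x) + ξ₂ x) (ξ₀ w₀ + ξ₁ w₁ + ξ₂ w₂) =
      B ((q - 1) • ((q + 1) ^ 2 • x - tq (tq x))) w₀)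
    (hcomm : ∀ (i : ι) (w : L), ξ₀ (t i w) = t' i (ξ₀ w) ∧ ξ₁ (t i w) = t' i (ξ₁ w) ∧
      ξ₂ (t i w) = t' i (ξ₂ w))
    (s : L →ₗ[𝒪] L) (s' : L' →ₗ[𝒪] L') (u : 𝒪) (hu : IsUnit u)
    (hsξ : ∀ w : L, ξ₀ (s w) = s' (ξ₀ w) ∧ ξ₁ (s w) = s' (ξ₁ w) ∧ ξ₂ (s w) = s' (ξ₂ w))
    (hs' : ∀ y' ∈ s59r2E' t' ψ, s' y' = u • y')
    (hsatE : ∀ (w₀ w₁ w₂ : L) (y' : L'), ξ₀ w₀ + ξ₁ w₁ + ξ₂ w₂ = ϖ • y' →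
      ∃ v₀ v₁ v₂ : L, s w₀ = ϖ • v₀ ∧ s w₁ = ϖ • v₁ ∧ s w₂ = ϖ • v₂)
    (hinj : ∀ w₀ w₁ w₂ : L, ξ₀ w₀ + ξ₁ w₁ + ξ₂ w₂ = 0 → w₀ = 0 ∧ w₁ = 0 ∧ w₂ = 0)
    (hrat : ∀ y' ∈ s59r2E' t' ψ, ∃ c : 𝒪, c ≠ 0 ∧ ∃ w₀ w₁ w₂ : L,
      c • y' = ξ₀ w₀ + ξ₁ w₁ + ξ₂ w₂)
    (hTQ : ∀ v : L, (∀ i, t i v = ψ i • v) → tq v = a • v)
    (x : L) (hx : x ∈ s59r2E t ψ tq a) :
    s59eta_J B' (s59r2E' t' ψ) (q • ξ₀ x - a • ξ₁ x + ξ₂ x) ≤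
      Ideal.span {(q - 1) * (a ^ 2 - (q + 1) ^ 2)} * s59eta_J B (s59r2E t ψ tq a) x :=
  s59eta_step_abs B B' ξ₀ ξ₁ ξ₂ tq q a hdep (s59r2E t ψ tq a) (s59r2E' t' ψ)
    (fun y hy => hy.2)
    (s59r2f_hmult ξ₀ ξ₁ ξ₂ t t' ψ tq a hϖ hcomm s s' u hu hsξ hs' hsatE hinj hrat hTQ) x hx

/-- **(PRIM), full lattices**: the depleted vector is primitive if `x` is. -/
theorem s59r2f_prim (ξ₀ ξ₁ ξ₂ : L →ₗ[𝒪] L') (q a : 𝒪) {ϖ : 𝒪}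
    (s : L →ₗ[𝒪] L) (u : 𝒪) (hu : IsUnit u)
    (hsatE : ∀ (w₀ w₁ w₂ : L) (y' : L'), ξ₀ w₀ + ξ₁ w₁ + ξ₂ w₂ = ϖ • y' →
      ∃ v₀ v₁ v₂ : L, s w₀ = ϖ • v₀ ∧ s w₁ = ϖ • v₁ ∧ s w₂ = ϖ • v₂)
    (x : L) (hsx : s x = u • x) (hprim : ∀ v : L, x ≠ ϖ • v) :
    ∀ y' : L', q • ξ₀ x - a • ξ₁ x + ξ₂ x ≠ ϖ • y' := by
  intro y' h
  have h1 : ξ₀ (q • x) + ξ₁ ((-a) • x) + ξ₂ x = ϖ • y' := by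
    rw [map_smul, map_smul, neg_smul, ← sub_eq_add_neg]
    exact h
  obtain ⟨-, -, v₂, -, -, h2⟩ := hsatE _ _ _ _ h1
  obtain ⟨u', rfl⟩ := hu
  apply hprim ((↑u'⁻¹ : 𝒪) • v₂)
  rw [smul_comm, ← h2, hsx, smul_smul, Units.inv_mul, one_smul]

end Full

/-! ### The operator `s = D₁ D₂` -/

section DD

variable {𝒪 : Type} [CommRing 𝒪]
  {L L' : Type} [AddCommGroup L] [Module 𝒪 L] [AddCommGroup L'] [Module 𝒪 L']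
  {ι : Type}

/-- `D₁ D₂ = (t i₁ − c₁)(t i₂ − c₂)` -/
def s59r2fDD (t : ι → L →ₗ[𝒪] L) (i₁ i₂ : ι) (c₁ c₂ : 𝒪) : L →ₗ[𝒪] L :=
  (t i₁ - c₁ • LinearMap.id) ∘ₗ (t i₂ - c₂ • LinearMap.id)

theorem s59r2fDD_apply (t : ι → L →ₗ[𝒪] L) (i₁ i₂ : ι) (c₁ c₂ : 𝒪) (w : L) :
    s59r2fDD t i₁ i₂ c₁ c₂ w = t i₁ (t i₂ w - c₂ • w) - c₁ • (t i₂ w - c₂ • w) := rfl

/-- `D₁ D₂` commutes with a map which intertwines the `t i` with the `t' i` -/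
theorem s59r2fDD_comm (ξ : L →ₗ[𝒪] L') (t : ι → L →ₗ[𝒪] L) (t' : ι → L' →ₗ[𝒪] L')
    (h : ∀ (i : ι) (w : L), ξ (t i w) = t' i (ξ w)) (i₁ i₂ : ι) (c₁ c₂ : 𝒪) (w : L) :
    ξ (s59r2fDD t i₁ i₂ c₁ c₂ w) = s59r2fDD t' i₁ i₂ c₁ c₂ (ξ w) := by
  rw [s59r2fDD_apply, s59r2fDD_apply, map_sub, map_smul, h, map_sub, map_smul, h]

/-- `D₁ D₂` acts on an eigenvector by `(ψ i₁ − c₁)(ψ i₂ − c₂)` -/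
theorem s59r2fDD_eig (t : ι → L →ₗ[𝒪] L) (ψ : ι → 𝒪) (i₁ i₂ : ι) (c₁ c₂ : 𝒪) (y : L)
    (hy : ∀ i, t i y = ψ i • y) :
    s59r2fDD t i₁ i₂ c₁ c₂ y = ((ψ i₁ - c₁) * (ψ i₂ - c₂)) • y := by
  rw [s59r2fDD_apply, hy i₂, ← sub_smul, map_smul, hy i₁, smul_smul, smul_smul, ← sub_smul]
  congr 1
  ring

variable [IsDomain 𝒪] [IsDiscreteValuationRing 𝒪]
  [NoZeroSMulDivisors 𝒪 L] [NoZeroSMulDivisors 𝒪 L']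

/-- **(R2, the step on the full lattices, `s = D₁ D₂`)**: the hypotheses are exactly
`hdep` (E-GRAM + E-BC), `hcomm` (S41 C1), `hsatE` (E-SAT + E-BC), `hinj` (operator Gram + E-PET),
`hrat` (E-MULT1a/b + E-TRANS), `hTQ` (E-TQ) and the non-Eisenstein units `hu₁`, `hu₂` (E-NE). -/
theorem s59r2f_step_DD (B : L →ₗ[𝒪] L →ₗ[𝒪] 𝒪) (B' : L' →ₗ[𝒪] L' →ₗ[𝒪] 𝒪)
    (ξ₀ ξ₁ ξ₂ : L →ₗ[𝒪] L') (t : ι → L →ₗ[𝒪] L) (t' : ι → L' →ₗ[𝒪] L')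
    (ψ : ι → 𝒪) (tq : L →ₗ[𝒪] L) (q a : 𝒪) {ϖ : 𝒪} (hϖ : Irreducible ϖ)
    (hdep : ∀ x w₀ w₁ w₂ : L, B' (q • ξ₀ x - ξ₁ (tq x) + ξ₂ x) (ξ₀ w₀ + ξ₁ w₁ + ξ₂ w₂) =
      B ((q - 1) • ((q + 1) ^ 2 • x - tq (tq x))) w₀)
    (hcomm : ∀ (i : ι) (w : L), ξ₀ (t i w) = t' i (ξ₀ w) ∧ ξ₁ (t i w) = t' i (ξ₁ w) ∧
      ξ₂ (t i w) = t' i (ξ₂ w))
    (i₁ i₂ : ι) (c₁ c₂ : 𝒪) (hu₁ : IsUnit (ψ i₁ - c₁)) (hu₂ : IsUnit (ψ i₂ - c₂))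
    (hsatE : ∀ (w₀ w₁ w₂ : L) (y' : L'), ξ₀ w₀ + ξ₁ w₁ + ξ₂ w₂ = ϖ • y' →
      ∃ v₀ v₁ v₂ : L, s59r2fDD t i₁ i₂ c₁ c₂ w₀ = ϖ • v₀ ∧
        s59r2fDD t i₁ i₂ c₁ c₂ w₁ = ϖ • v₁ ∧ s59r2fDD t i₁ i₂ c₁ c₂ w₂ = ϖ • v₂)
    (hinj : ∀ w₀ w₁ w₂ : L, ξ₀ w₀ + ξ₁ w₁ + ξ₂ w₂ = 0 → w₀ = 0 ∧ w₁ = 0 ∧ w₂ = 0)
    (hrat : ∀ y' ∈ s59r2E' t' ψ, ∃ c : 𝒪, c ≠ 0 ∧ ∃ w₀ w₁ w₂ : L,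
      c • y' = ξ₀ w₀ + ξ₁ w₁ + ξ₂ w₂)
    (hTQ : ∀ v : L, (∀ i, t i v = ψ i • v) → tq v = a • v)
    (x : L) (hx : x ∈ s59r2E t ψ tq a) :
    s59eta_J B' (s59r2E' t' ψ) (q • ξ₀ x - a • ξ₁ x + ξ₂ x) ≤
      Ideal.span {(q - 1) * (a ^ 2 - (q + 1) ^ 2)} * s59eta_J B (s59r2E t ψ tq a) x :=
  s59r2f_step B B' ξ₀ ξ₁ ξ₂ t t' ψ tq q a hϖ hdep hcomm
    (s59r2fDD t i₁ i₂ c₁ c₂) (s59r2fDD t' i₁ i₂ c₁ c₂) ((ψ i₁ - c₁) * (ψ i₂ - c₂))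
    (hu₁.mul hu₂)
    (fun w => ⟨s59r2fDD_comm ξ₀ t t' (fun i w => (hcomm i w).1) i₁ i₂ c₁ c₂ w,
      s59r2fDD_comm ξ₁ t t' (fun i w => (hcomm i w).2.1) i₁ i₂ c₁ c₂ w,
      s59r2fDD_comm ξ₂ t t' (fun i w => (hcomm i w).2.2) i₁ i₂ c₁ c₂ w⟩)
    (fun y' hy' => s59r2fDD_eig t' ψ i₁ i₂ c₁ c₂ y' hy')
    hsatE hinj hrat hTQ x hx

/-- **(PRIM, `s = D₁ D₂`)** -/
theorem s59r2f_prim_DD (ξ₀ ξ₁ ξ₂ : L →ₗ[𝒪] L') (t : ι → L →ₗ[𝒪] L) (ψ : ι → 𝒪) (q a : 𝒪)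
    {ϖ : 𝒪} (i₁ i₂ : ι) (c₁ c₂ : 𝒪) (hu₁ : IsUnit (ψ i₁ - c₁)) (hu₂ : IsUnit (ψ i₂ - c₂))
    (hsatE : ∀ (w₀ w₁ w₂ : L) (y' : L'), ξ₀ w₀ + ξ₁ w₁ + ξ₂ w₂ = ϖ • y' →
      ∃ v₀ v₁ v₂ : L, s59r2fDD t i₁ i₂ c₁ c₂ w₀ = ϖ • v₀ ∧
        s59r2fDD t i₁ i₂ c₁ c₂ w₁ = ϖ • v₁ ∧ s59r2fDD t i₁ i₂ c₁ c₂ w₂ = ϖ • v₂)
    (x : L) (hx : ∀ i, t i x = ψ i • x) (hprim : ∀ v : L, x ≠ ϖ • v) :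
    ∀ y' : L', q • ξ₀ x - a • ξ₁ x + ξ₂ x ≠ ϖ • y' :=
  s59r2f_prim ξ₀ ξ₁ ξ₂ q a (s59r2fDD t i₁ i₂ c₁ c₂) ((ψ i₁ - c₁) * (ψ i₂ - c₂))
    (hu₁.mul hu₂) hsatE x (s59r2fDD_eig t ψ i₁ i₂ c₁ c₂ x hx) hprim

end DD

end Fermat.Agent.S59
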