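/-
S59 Route A, ETA′, piece E-SAT (helper68): saturation of the degeneracy map
`ξ : Hom_par(Γ₀(N))³ → Hom(Γ₀(N q²))` modulo `p` — INTERFACE.

Notation of S41 (`Fermat/Agent/S41/Defs.lean`, `Cores.lean`, `Plan.lean`): `HomG M A = Hom(Γ₀(M), A)`,
`res M q`, `resD M q : HomG M A → HomG (M q) A` (restriction along the inclusion, resp. along
`γ ↦ δ γ δ⁻¹`, `δ = diag(q, 1)`), `Tc ℓ` the Hecke operator, `Hpar M A` the parabolic classes.

Pieces (each a `Prop`; proofs in `S59/Eta/Sat*.lean`):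
* `s59sat_StmtTorus`   (T)  `SL₂(𝔽_q)` contains an element `c` of order `q + 1` inverted by some `w`;
* `s59sat_StmtCard`    (T') `#SL₂(𝔽_q) = q (q − 1) (q + 1)`;
* `s59sat_StmtRedSurj` (L)  `Γ₀(N) → SL₂(𝔽_q)` is surjective for `q ∤ N`;
* `s59sat_StmtIhara2`  the kernel of `res + res^δ : HomG (N q)² → HomG (N q²)` (coefficients killed by
                       an odd prime `p ≠ q`) is `{(res^δ t, − res t)}` up to classes factoring through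
                       `d mod q`;
* `s59sat_StmtSat`     (E-SAT) the kernel of `ξ` on parabolic classes is killed by
                       `(T_ℓ − ℓ − 1)(T_ℓ' − ℓ' − 1)` for all primes `ℓ, ℓ' ∤ N q`.
-/
import Mathlib
import Fermat.Agent.S41.Plan

set_option autoImplicit false

namespace Fermat.Agent.S59

open CongruenceSubgroup Matrix Fermat.Agent.S41
open scoped MatrixGroups

/-- reduction modulo `q` : `Γ₀(N) → SL₂(ℤ/q)`. -/
def s59satRed (N q : ℕ) : Gamma0 N →* SL(2, ZMod q) :=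
  (SpecialLinearGroup.map (Int.castRingHom (ZMod q))).comp (Gamma0 N).subtype

/-- **(T)** the non-split torus: `SL₂(𝔽_q)` has an element `c` of order `q + 1` and an element `w`
with `w c w⁻¹ = c⁻¹`. -/
def s59sat_StmtTorus : Prop :=
  ∀ (q : ℕ) [Fact q.Prime], ∃ c w : SL(2, ZMod q), w * c * w⁻¹ = c⁻¹ ∧ orderOf c = q + 1

/-- **(T')** `#SL₂(𝔽_q) = q (q − 1) (q + 1)`. -/
def s59sat_StmtCard : Prop :=
  ∀ (q : ℕ) [Fact q.Prime], Nat.card SL(2, ZMod q) = q * (q - 1) * (q + 1)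

/-- **(L)** reduction modulo `q` is surjective on `Γ₀(N)` when `q ∤ N`. -/
def s59sat_StmtRedSurj : Prop :=
  ∀ (N q : ℕ) [Fact q.Prime], ¬ q ∣ N → Function.Surjective (s59satRed N q)

/-- **(IHARA2)** the step `N q → N q²` (`q ∤ N`): a pair `(ψ₁, ψ₂)` of level `N q` with
`res ψ₁ + res^δ ψ₂ = 0` at level `N q²` is `(res^δ t, − res t)` for some `t` of level `N`, up to
classes vanishing on `{d ≡ 1 mod q}`. -/
def s59sat_StmtIhara2 : Prop :=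
  ∀ (N q p : ℕ) [NeZero N] [NeZero q] [Fact q.Prime] [Fact p.Prime], ¬ q ∣ N → p ≠ 2 → p ≠ q →
  ∀ (A : Type) [AddCommGroup A], (∀ a : A, p • a = 0) →
  ∀ ψ₁ ψ₂ : HomG (N * q) A, res (N * q) q A ψ₁ + resD (N * q) q A ψ₂ = 0 →
    ∃ t : HomG N A,
      (∀ γ : Gamma0 (N * q), ((((γ : SL(2, ℤ)) 1 1 : ℤ) : ZMod q) = 1) →
        ψ₁ (Additive.ofMul γ) = resD N q A t (Additive.ofMul γ)) ∧
      (∀ γ : Gamma0 (N * q), ((((γ : SL(2, ℤ)) 1 1 : ℤ) : ZMod q) = 1) →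
        ψ₂ (Additive.ofMul γ) = - res N q A t (Additive.ofMul γ))

/-- `D_ℓ = T_ℓ − (ℓ + 1)` on `Hom(Γ₀(M), A)`. -/
noncomputable def s59satD {M : ℕ} (ℓ : ℕ) [Fact ℓ.Prime] (hℓ : ¬ ℓ ∣ M) {A : Type*}
    [AddCommGroup A] (φ : HomG M A) : HomG M A :=
  Tc ℓ hℓ φ - (ℓ + 1) • φ

/-- **(E-SAT)** the kernel of `ξ(x, y, z) = res res x + res res^δ y + res^δ res^δ z` on parabolic
classes with coefficients killed by an odd prime `p ≠ q` is killed by `D_ℓ D_ℓ'` for all primes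
`ℓ, ℓ' ∤ N q`. -/
def s59sat_StmtSat : Prop :=
  ∀ (N q p : ℕ) [NeZero N] [NeZero q] [Fact q.Prime] [Fact p.Prime], ¬ q ∣ N → p ≠ 2 → p ≠ q →
  ∀ (A : Type) [AddCommGroup A], (∀ a : A, p • a = 0) →
  ∀ x y z : HomG N A, x ∈ Hpar N A → y ∈ Hpar N A → z ∈ Hpar N A →
    res (N * q) q A (res N q A x) + res (N * q) q A (resD N q A y)
      + resD (N * q) q A (resD N q A z) = 0 →
  ∀ (ℓ ℓ' : ℕ) [Fact ℓ.Prime] [Fact ℓ'.Prime] (hℓ : ¬ ℓ ∣ N) (hℓ' : ¬ ℓ' ∣ N),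
    ¬ ℓ ∣ q → ¬ ℓ' ∣ q →
    s59satD ℓ hℓ (s59satD ℓ' hℓ' x) = 0 ∧ s59satD ℓ hℓ (s59satD ℓ' hℓ' y) = 0 ∧
      s59satD ℓ hℓ (s59satD ℓ' hℓ' z) = 0

end Fermat.Agent.S59
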