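/-
S59 Route A, ETA′ / E-SAT, piece (T′) (helper14): `#SL₂(𝔽_q) = q (q − 1) (q + 1)`.

`s59satc_stmtCard : s59sat_StmtCard` (interface `S59/Eta/SatPlan.lean`, helper68).
From `Matrix.card_GL_field` and the exact sequence `1 → SL → GL → 𝔽_q^× → 1`.
-/
import Fermat.Agent.S59.Eta.SatPlan

set_option autoImplicit false

namespace Fermat.Agent.S59

open Matrix
open scoped MatrixGroups

/-- `SL_n(R)` is the kernel of the determinant on `GL_n(R)`. -/
theorem s59satc_card_ker {n : Type*} [DecidableEq n] [Fintype n] {R : Type*} [CommRing R] :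
    Nat.card (GeneralLinearGroup.det (n := n) (R := R)).ker =
      Nat.card (SpecialLinearGroup n R) := by
  refine (Nat.card_congr (Equiv.ofBijective
    (fun g : SpecialLinearGroup n R =>
      (⟨SpecialLinearGroup.toGL g, by
        rw [MonoidHom.mem_ker]
        exact SpecialLinearGroup.coeToGL_det g⟩ :
        (GeneralLinearGroup.det (n := n) (R := R)).ker)) ⟨?_, ?_⟩)).symm
  · intro g g' h
    exact SpecialLinearGroup.toGL_injective (congrArg Subtype.val h)
  · rintro ⟨g, hg⟩
    rw [MonoidHom.mem_ker] at hg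
    have hdet : (g : Matrix n n R).det = 1 := by
      have := congrArg (fun u : Rˣ => (u : R)) hg
      simpa using this
    refine ⟨⟨(g : Matrix n n R), hdet⟩, Subtype.ext ?_⟩
    ext i j
    rfl

/-- `#GL_n(R) = #SL_n(R) · #R^×`. -/
theorem s59satc_card_GL {n : Type*} [DecidableEq n] [Fintype n] [Nonempty n]
    {R : Type*} [CommRing R] :
    Nat.card (GL n R) = Nat.card (SpecialLinearGroup n R) * Nat.card Rˣ := by
  have h1 := Subgroup.card_mul_index (GeneralLinearGroup.det (n := n) (R := R)).ker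
  rw [Subgroup.index_ker, s59satc_card_ker,
    MonoidHom.range_eq_top.mpr (GeneralLinearGroup.det_surjective (n := n) (R := R)),
    Subgroup.card_top] at h1
  exact h1.symm

/-- **(T′)** `#SL₂(𝔽_q) = q (q − 1) (q + 1)`. -/
theorem s59satc_stmtCard : s59sat_StmtCard := by
  intro q hq
  have hq1 : 1 ≤ q := hq.out.one_lt.le
  have hGL : Nat.card (GL (Fin 2) (ZMod q)) = (q ^ 2 - 1) * (q ^ 2 - q) := by
    rw [Matrix.card_GL_field, Fin.prod_univ_two, ZMod.card]
    simp
  have hU : Nat.card (ZMod q)ˣ = q - 1 := by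
    rw [Nat.card_units, Nat.card_eq_fintype_card, ZMod.card]
  have h := s59satc_card_GL (n := Fin 2) (R := ZMod q)
  rw [hGL, hU] at h
  -- `(q² − 1)(q² − q) = (q (q − 1)(q + 1)) (q − 1)`
  have hq0 : 0 < q - 1 := Nat.sub_pos_of_lt hq.out.one_lt
  have e1 : q ^ 2 - 1 = (q - 1) * (q + 1) := by
    obtain ⟨r, rfl⟩ : ∃ r, q = r + 1 := ⟨q - 1, by omega⟩
    simp only [Nat.add_sub_cancel]
    have : (r + 1) ^ 2 = r * (r + 1 + 1) + 1 := by ring
    rw [this, Nat.add_sub_cancel]
  have e2 : q ^ 2 - q = q * (q - 1) := by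
    rw [Nat.mul_sub, mul_one, sq]
  have h3 : (q * (q - 1) * (q + 1)) * (q - 1) =
      Nat.card (SpecialLinearGroup (Fin 2) (ZMod q)) * (q - 1) := by
    rw [← h, e1, e2]
    ring
  exact (Nat.eq_of_mul_eq_mul_right hq0 h3).symm

/-- **(T′)** under the name asked for by the interface. -/
theorem s59sat_stmtCard : s59sat_StmtCard := s59satc_stmtCard

end Fermat.Agent.S59
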