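/-
S59 Route A, ETA′, piece E-SAT (helper68) — the ABSTRACT group theory.

`G` a group, `K` a normal subgroup, `A` an abelian group killed by an odd prime `p`.
* `S59satHomOn U φ`  : `φ : G → A` is additive on the subgroup `U`;
* `S59satInv K φ`    : `φ` is additive on `K` and invariant under conjugation by `G`;
* `s59sat_inv_of_gen`   : homs on `U₁`, `U₂` (both containing `K`, generating `G`) which agree on `K`
                          are `G`-invariant on `K`;
* `s59sat_transfer`     : a hom on `H ⊇ K` of index prime to `p`, `G`-invariant on `K`, agrees on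
                          `K` with a hom on `G` (a multiple of the transfer);
* `s59sat_cyclic_ext`   : a `G`-invariant hom on `K` vanishing on `K ∩ ⟨c⟩` extends to `H = ⟨c⟩ K`;
* `s59sat_inversion`    : if `w c w⁻¹ ≡ c⁻¹ mod K` and `p` divides the order of `c` modulo `K`, a
                          `G`-invariant hom on `K` vanishes on `K ∩ ⟨c⟩`;
* `s59sat_abs_extend`   : the glue.
-/
import Mathlib
import Fermat.Agent.S41.TransferFormula

set_option autoImplicit false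
set_option linter.style.haveILetI false

noncomputable section

namespace Fermat.Agent.S59

open Fermat.Agent.S41 (transferAlong transferAlong_eq_sum tRep tCoc f_tCoc tRep_mk)

section abs

variable {G : Type*} [Group G] {A : Type*} [AddCommGroup A]

/-- `φ : G → A` is additive on the subgroup `U`. -/
def S59satHomOn (U : Subgroup G) (φ : G → A) : Prop :=
  ∀ u u' : G, u ∈ U → u' ∈ U → φ (u * u') = φ u + φ u'

/-- `φ : G → A` is additive on `K` and invariant under conjugation by `G`. -/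
structure S59satInv (K : Subgroup G) (φ : G → A) : Prop where
  add : S59satHomOn K φ
  conj : ∀ g k : G, k ∈ K → φ (g * k * g⁻¹) = φ k

theorem S59satHomOn.one {U : Subgroup G} {φ : G → A} (h : S59satHomOn U φ) : φ 1 = 0 := by
  have := h 1 1 U.one_mem U.one_mem
  rw [mul_one] at this
  exact left_eq_add.mp this

theorem S59satHomOn.inv {U : Subgroup G} {φ : G → A} (h : S59satHomOn U φ) {u : G}
    (hu : u ∈ U) : φ u⁻¹ = - φ u := by
  have := h u u⁻¹ hu (U.inv_mem hu)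
  rw [mul_inv_cancel, h.one] at this
  exact eq_neg_of_add_eq_zero_right this.symm

theorem S59satHomOn.mono {U V : Subgroup G} {φ : G → A} (h : S59satHomOn U φ) (hVU : V ≤ U) :
    S59satHomOn V φ := fun u u' hu hu' => h u u' (hVU hu) (hVU hu')

theorem S59satHomOn.npow {U : Subgroup G} {φ : G → A} (h : S59satHomOn U φ) {u : G}
    (hu : u ∈ U) (n : ℕ) : φ (u ^ n) = n • φ u := by
  induction n with
  | zero => rw [pow_zero, zero_smul]; exact h.one
  | succ n ih => rw [pow_succ, h _ _ (U.pow_mem hu n) hu, ih, succ_nsmul]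

/-- the additive homomorphism on `U` defined by a function additive on `U`. -/
def S59satHomOn.toHom {U : Subgroup G} {φ : G → A} (h : S59satHomOn U φ) : Additive U →+ A :=
  AddMonoidHom.mk' (fun x => φ ((Additive.toMul x : U) : G)) (fun a b => by
    show φ (((Additive.toMul a : U) * (Additive.toMul b : U) : U) : G) = _
    rw [Subgroup.coe_mul]
    exact h _ _ (Additive.toMul a : U).2 (Additive.toMul b : U).2)

@[simp] theorem S59satHomOn.toHom_apply {U : Subgroup G} {φ : G → A} (h : S59satHomOn U φ)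
    (u : U) : h.toHom (Additive.ofMul u) = φ (u : G) := rfl

/-- the extension by zero of a homomorphism on `U`. -/
def s59satExt (U : Subgroup G) (ψ : Additive U →+ A) : G → A := by
  classical
  exact fun g => if h : g ∈ U then ψ (Additive.ofMul ⟨g, h⟩) else 0

theorem s59satExt_apply (U : Subgroup G) (ψ : Additive U →+ A) {g : G} (h : g ∈ U) :
    s59satExt U ψ g = ψ (Additive.ofMul ⟨g, h⟩) := by
  classical
  unfold s59satExt
  rw [dif_pos h]

theorem s59satExt_homOn (U : Subgroup G) (ψ : Additive U →+ A) :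
    S59satHomOn U (s59satExt U ψ) := by
  intro u u' hu hu'
  rw [s59satExt_apply U ψ hu, s59satExt_apply U ψ hu', s59satExt_apply U ψ (U.mul_mem hu hu'),
    ← map_add]
  rfl

theorem S59satInv.conj' {K : Subgroup G} {φ : G → A} (h : S59satInv K φ) (g k : G)
    (hk : k ∈ K) : φ (g⁻¹ * k * g) = φ k := by
  have := h.conj g⁻¹ k hk
  rwa [inv_inv] at this

/-- **Lemma A.** Homs on `U₁`, `U₂` agreeing on the normal subgroup `K ≤ U₁ ⊓ U₂` are invariant
on `K` under the subgroup generated by `U₁` and `U₂`. -/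
theorem s59sat_inv_of_gen (K U₁ U₂ : Subgroup G) [hK : K.Normal] (h₁ : K ≤ U₁) (h₂ : K ≤ U₂)
    (hgen : U₁ ⊔ U₂ = ⊤) (φ₁ φ₂ : G → A) (hφ₁ : S59satHomOn U₁ φ₁) (hφ₂ : S59satHomOn U₂ φ₂)
    (hagree : ∀ k ∈ K, φ₁ k = φ₂ k) : S59satInv K φ₁ := by
  refine ⟨hφ₁.mono h₁, ?_⟩
  -- the stabiliser of `φ₁|K`
  let S : Subgroup G :=
    { carrier := {g | ∀ k ∈ K, φ₁ (g * k * g⁻¹) = φ₁ k}
      one_mem' := fun k _ => by rw [one_mul, inv_one, mul_one]
      mul_mem' := fun {a b} ha hb k hk => by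
        have e : a * b * k * (a * b)⁻¹ = a * (b * k * b⁻¹) * a⁻¹ := by group
        rw [e, ha _ (hK.conj_mem k hk b), hb k hk]
      inv_mem' := fun {a} ha k hk => by
        have hk' : a⁻¹ * k * a⁻¹⁻¹ ∈ K := hK.conj_mem k hk a⁻¹
        have := ha _ hk'
        have e : a * (a⁻¹ * k * a⁻¹⁻¹) * a⁻¹ = k := by group
        rw [e] at this
        exact this.symm }
  have hU₁ : U₁ ≤ S := by
    intro u hu k hk
    show φ₁ (u * k * u⁻¹) = φ₁ k
    rw [hφ₁ _ _ (U₁.mul_mem hu (h₁ hk)) (U₁.inv_mem hu), hφ₁ _ _ hu (h₁ hk), hφ₁.inv hu]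
    abel
  have hU₂ : U₂ ≤ S := by
    intro u hu k hk
    show φ₁ (u * k * u⁻¹) = φ₁ k
    rw [hagree _ (hK.conj_mem k hk u), hagree k hk,
      hφ₂ _ _ (U₂.mul_mem hu (h₂ hk)) (U₂.inv_mem hu), hφ₂ _ _ hu (h₂ hk), hφ₂.inv hu]
    abel
  have hS : (⊤ : Subgroup G) ≤ S := hgen ▸ sup_le hU₁ hU₂
  intro g k hk
  exact hS (Subgroup.mem_top g) k hk


/-- **Lemma B.** The transfer of a hom on `H ⊇ K`, `G`-invariant on the normal subgroup `K`, is
`[G : H]` times the hom on `K`. -/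
theorem s59sat_transfer_apply (H K : Subgroup G) [hK : K.Normal] (hKH : K ≤ H)
    [H.subtype.range.FiniteIndex] (F : G → A) (hF : S59satHomOn H F) (hinv : S59satInv K F)
    (k : G) (hk : k ∈ K) :
    transferAlong A H.subtype H.subtype_injective hF.toHom (Additive.ofMul k)
      = H.subtype.range.index • F k := by
  classical
  letI := H.subtype.range.fintypeQuotientOfFiniteIndex
  rw [transferAlong_eq_sum]
  have hterm : ∀ q : G ⧸ H.subtype.range,
      hF.toHom (Additive.ofMul (tCoc H.subtype H.subtype_injective q k)) = F k := by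
    intro q
    rw [S59satHomOn.toHom_apply]
    have h1 : ((tCoc H.subtype H.subtype_injective q k : H) : G)
        = (tRep H.subtype q)⁻¹ * k * tRep H.subtype (k⁻¹ • q) :=
      f_tCoc H.subtype H.subtype_injective q k
    have h2 : k⁻¹ • q = q := by
      obtain ⟨r, rfl⟩ := QuotientGroup.mk_surjective q
      show (QuotientGroup.mk (k⁻¹ * r) : G ⧸ H.subtype.range) = QuotientGroup.mk r
      rw [QuotientGroup.eq]
      have : (k⁻¹ * r)⁻¹ * r = r⁻¹ * k * r⁻¹⁻¹ := by group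
      rw [this, Subgroup.range_subtype]
      exact hKH (hK.conj_mem k hk r⁻¹)
    rw [h1, h2]
    exact hinv.conj' _ k hk
  rw [Finset.sum_congr rfl (fun q _ => hterm q), Finset.sum_const, Finset.card_univ,
    Subgroup.index_eq_card, Nat.card_eq_fintype_card]

/-- multiplication by an integer prime to `p` is invertible on a group killed by `p`. -/
theorem s59sat_exists_inv_smul (p : ℕ) [Fact p.Prime] (hA : ∀ a : A, p • a = 0) (n : ℕ)
    (hn : ¬ p ∣ n) : ∃ m : ℕ, ∀ a : A, m • n • a = a := by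
  have hp : p.Prime := Fact.out
  have hcop : Nat.Coprime n p := (Nat.Coprime.symm ((Nat.Prime.coprime_iff_not_dvd hp).mpr hn))
  obtain ⟨m, -, hm⟩ := Nat.exists_mul_mod_eq_one_of_coprime hcop hp.one_lt
  refine ⟨m, fun a => ?_⟩
  rw [← mul_smul, mul_comm]
  have h1 := Nat.div_add_mod (n * m) p
  rw [hm] at h1
  rw [← h1, add_smul, mul_smul, one_smul, hA, zero_add]

/-- **Lemma B′.** A hom on `H ⊇ K` of index prime to `p`, `G`-invariant on `K`, agrees on `K`
with a hom on `G`. -/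
theorem s59sat_transfer (H K : Subgroup G) [hK : K.Normal] (hKH : K ≤ H) [hfi : H.FiniteIndex]
    (p : ℕ) [Fact p.Prime] (hA : ∀ a : A, p • a = 0) (hidx : ¬ p ∣ H.index)
    (F : G → A) (hF : S59satHomOn H F) (hinv : S59satInv K F) :
    ∃ t : Additive G →+ A, ∀ k ∈ K, t (Additive.ofMul k) = F k := by
  haveI : H.subtype.range.FiniteIndex := by rw [Subgroup.range_subtype]; exact hfi
  have hidx' : ¬ p ∣ H.subtype.range.index := by rw [Subgroup.range_subtype]; exact hidx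
  obtain ⟨m, hm⟩ := s59sat_exists_inv_smul (A := A) p hA _ hidx'
  refine ⟨m • transferAlong A H.subtype H.subtype_injective hF.toHom, fun k hk => ?_⟩
  rw [AddMonoidHom.smul_apply, s59sat_transfer_apply H K hKH F hF hinv k hk, hm]

/-- **Lemma C.** A `G`-invariant hom on `K` which vanishes on `K ∩ ⟨c⟩` extends to a hom on any
subgroup `H ⊇ K` with `H = ⟨c⟩ K`. -/
theorem s59sat_cyclic_ext (H K : Subgroup G) [hK : K.Normal] (hKH : K ≤ H) (c : G)
    (hcyc : ∀ h ∈ H, ∃ m : ℤ, c ^ m * h ∈ K) (φ : G → A) (hinv : S59satInv K φ)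
    (hzero : ∀ m : ℤ, c ^ m ∈ K → φ (c ^ m) = 0) :
    ∃ F : G → A, S59satHomOn H F ∧ ∀ k ∈ K, F k = φ k := by
  classical
  -- independence of the exponent
  have key : ∀ (h : G) (m m' : ℤ), c ^ m * h ∈ K → c ^ m' * h ∈ K →
      φ (c ^ m * h) = φ (c ^ m' * h) := by
    intro h m m' hm hm'
    have h1 : c ^ (m - m') ∈ K := by
      have : c ^ (m - m') = (c ^ m * h) * (c ^ m' * h)⁻¹ := by
        rw [zpow_sub]; group
      rw [this]
      exact K.mul_mem hm (K.inv_mem hm')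
    have h2 : c ^ m * h = c ^ (m - m') * (c ^ m' * h) := by
      rw [zpow_sub]; group
    rw [h2, hinv.add _ _ h1 hm', hzero _ h1, zero_add]
  let F : G → A := fun g => if hg : g ∈ H then φ (c ^ (hcyc g hg).choose * g) else 0
  have hFH : ∀ (g : G) (hg : g ∈ H) (m : ℤ), c ^ m * g ∈ K → F g = φ (c ^ m * g) := by
    intro g hg m hm
    show (if hg : g ∈ H then φ (c ^ (hcyc g hg).choose * g) else 0) = _
    rw [dif_pos hg]
    exact key g _ m (hcyc g hg).choose_spec hm
  refine ⟨F, ?_, ?_⟩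
  · intro u u' hu hu'
    obtain ⟨m, hm⟩ := hcyc u hu
    obtain ⟨m', hm'⟩ := hcyc u' hu'
    have e : c ^ (m' + m) * (u * u') = (c ^ m' * (c ^ m * u) * (c ^ m')⁻¹) * (c ^ m' * u') := by
      rw [zpow_add]; group
    have hconj : c ^ m' * (c ^ m * u) * (c ^ m')⁻¹ ∈ K := hK.conj_mem _ hm _
    have hmem : c ^ (m' + m) * (u * u') ∈ K := by
      rw [e]; exact K.mul_mem hconj hm'
    rw [hFH _ (H.mul_mem hu hu') _ hmem, hFH u hu m hm, hFH u' hu' m' hm', e,
      hinv.add _ _ hconj hm', hinv.conj _ _ hm]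
  · intro k hk
    have := hFH k (hKH hk) 0 (by rw [zpow_zero, one_mul]; exact hk)
    rw [this, zpow_zero, one_mul]

/-- **Lemma D (inversion trick).** If `w c w⁻¹ ≡ c⁻¹ mod K` and `p` (odd) divides every exponent
`m` with `c ^ m ∈ K`, then a `G`-invariant hom on `K` with values in a group killed by `p`
vanishes on `K ∩ ⟨c⟩`. -/
theorem s59sat_inversion (K : Subgroup G) [hK : K.Normal] (p : ℕ) [Fact p.Prime] (hp2 : p ≠ 2)
    (hA : ∀ a : A, p • a = 0) (c w : G) (hw : w * c * w⁻¹ * c ∈ K)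
    (hdiv : ∀ m : ℤ, c ^ m ∈ K → (p : ℤ) ∣ m) (φ : G → A) (hinv : S59satInv K φ) :
    ∀ m : ℤ, c ^ m ∈ K → φ (c ^ m) = 0 := by
  have hp : p.Prime := Fact.out
  -- `2` is invertible on `A`
  have h2 : ∀ a : A, 2 • a = 0 → a = 0 := by
    intro a ha
    have hnd : ¬ p ∣ 2 := by
      intro h
      exact hp2 ((Nat.prime_dvd_prime_iff_eq hp Nat.prime_two).mp h)
    obtain ⟨m, hm⟩ := s59sat_exists_inv_smul (A := A) p hA 2 hnd
    rw [← hm a, ha, smul_zero]
  set k₁ : G := w * c * w⁻¹ * c with hk₁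
  -- `(k₁ c⁻¹)^n = κ c^{-n}` with `φ κ = n φ k₁`
  have hpow : ∀ n : ℕ, ∃ κ ∈ K, (k₁ * c⁻¹) ^ n = κ * (c ^ n)⁻¹ ∧ φ κ = n • φ k₁ := by
    intro n
    induction n with
    | zero => exact ⟨1, K.one_mem, by simp, by rw [zero_smul]; exact hinv.add.one⟩
    | succ n ih =>
      obtain ⟨κ, hκ, e, hφ⟩ := ih
      have hc : (c ^ n)⁻¹ * k₁ * (c ^ n)⁻¹⁻¹ ∈ K := hK.conj_mem _ hw _
      refine ⟨κ * ((c ^ n)⁻¹ * k₁ * (c ^ n)⁻¹⁻¹), K.mul_mem hκ hc, ?_, ?_⟩
      · rw [pow_succ, e, pow_succ]; group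
      · rw [hinv.add _ _ hκ hc, hinv.conj _ _ hw, hφ, succ_nsmul]
  have hconj : ∀ n : ℕ, w * c ^ n * w⁻¹ = (k₁ * c⁻¹) ^ n := by
    intro n
    have : k₁ * c⁻¹ = w * c * w⁻¹ := by rw [hk₁]; group
    rw [this, ← conj_pow]
  -- natural exponents
  have hnat : ∀ n : ℕ, c ^ n ∈ K → φ (c ^ n) = 0 := by
    intro n hn
    obtain ⟨κ, hκ, e, hφ⟩ := hpow n
    have h1 : φ (w * c ^ n * w⁻¹) = φ (c ^ n) := hinv.conj _ _ hn
    rw [hconj n, e, hinv.add _ _ hκ (K.inv_mem hn), hinv.add.inv hn, hφ] at h1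
    have hpn : (p : ℤ) ∣ (n : ℤ) := hdiv n (by rw [zpow_natCast]; exact hn)
    obtain ⟨j, hj⟩ := Int.natCast_dvd_natCast.mp hpn
    have h3 : n • φ k₁ = 0 := by rw [hj, mul_comm, mul_smul, hA, smul_zero]
    rw [h3, zero_add] at h1
    apply h2
    rw [two_smul]
    nth_rewrite 1 [← h1]
    exact neg_add_cancel _
  intro m hm
  rcases Int.eq_nat_or_neg m with ⟨n, rfl | rfl⟩
  · rw [zpow_natCast] at hm ⊢
    exact hnat n hm
  · rw [zpow_neg, zpow_natCast] at hm ⊢
    have hn : c ^ n ∈ K := by simpa using K.inv_mem hm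
    rw [hinv.add.inv hn, hnat n hn, neg_zero]

/-- **Abstract IHARA2.** `K ⊴ G`, `U₁, U₂ ⊇ K` generating `G`, `φ₁`, `φ₂` homs on `U₁`, `U₂` agreeing
on `K`, with values in a group killed by an odd prime `p`.  If either `[G : U₁]` is prime to `p`,
or there is a subgroup `H = ⟨c⟩ K` of index prime to `p` with `c` inverted modulo `K` by some `w`
and of order modulo `K` divisible by `p`, then `φ₁|K` is the restriction of a hom on `G`. -/
theorem s59sat_abs_extend (K U₁ U₂ : Subgroup G) [hK : K.Normal] (h₁ : K ≤ U₁) (h₂ : K ≤ U₂)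
    (hgen : U₁ ⊔ U₂ = ⊤) (p : ℕ) [Fact p.Prime] (hp2 : p ≠ 2) (hA : ∀ a : A, p • a = 0)
    (φ₁ φ₂ : G → A) (hφ₁ : S59satHomOn U₁ φ₁) (hφ₂ : S59satHomOn U₂ φ₂)
    (hagree : ∀ k ∈ K, φ₁ k = φ₂ k)
    (hcase : (U₁.FiniteIndex ∧ ¬ p ∣ U₁.index) ∨
      ∃ (H : Subgroup G) (c w : G), H.FiniteIndex ∧ ¬ p ∣ H.index ∧ K ≤ H ∧
        (∀ h ∈ H, ∃ m : ℤ, c ^ m * h ∈ K) ∧ w * c * w⁻¹ * c ∈ K ∧
        ∀ m : ℤ, c ^ m ∈ K → (p : ℤ) ∣ m) :
    ∃ t : Additive G →+ A, ∀ k ∈ K, t (Additive.ofMul k) = φ₁ k := by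
  have hinv : S59satInv K φ₁ := s59sat_inv_of_gen K U₁ U₂ h₁ h₂ hgen φ₁ φ₂ hφ₁ hφ₂ hagree
  rcases hcase with ⟨hfi, hidx⟩ | ⟨H, c, w, hfi, hidx, hKH, hcyc, hw, hdiv⟩
  · exact s59sat_transfer U₁ K h₁ p hA hidx φ₁ hφ₁ hinv
  · have hzero := s59sat_inversion K p hp2 hA c w hw hdiv φ₁ hinv
    obtain ⟨F, hF, hFK⟩ := s59sat_cyclic_ext H K hKH c hcyc φ₁ hinv hzero
    have hinvF : S59satInv K F := by
      refine ⟨hF.mono hKH, fun g k hk => ?_⟩
      rw [hFK _ (hK.conj_mem k hk g), hFK k hk]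
      exact hinv.conj g k hk
    obtain ⟨t, ht⟩ := s59sat_transfer H K hKH p hA hidx F hF hinvF
    exact ⟨t, fun k hk => by rw [ht k hk, hFK k hk]⟩

end abs

end Fermat.Agent.S59
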