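/-
S59 Route A, ETA′, piece E-SAT (helper68) — the CONCRETE groups.

`G = Γ₀(N)`, `q` a prime not dividing `N`, `π = s59satRed N q : G → SL₂(𝔽_q)`, `K = ker π`,
`U₁ = Γ₀(N q) = range (incl N q)`, `U₂ = δ Γ₀(N q) δ⁻¹ = range (conjD N q)`.
-/
import Mathlib
import Fermat.Agent.S59.Eta.SatPlan
import Fermat.Agent.S59.Eta.SatAbs
import Fermat.Agent.S41.Amalgam
import Fermat.Agent.S20.Index

set_option autoImplicit false
set_option linter.style.haveILetI false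

noncomputable section

namespace Fermat.Agent.S59

open CongruenceSubgroup Matrix Fermat.Agent.S41
open scoped MatrixGroups

variable (N q : ℕ)

theorem s59satRed_apply (g : Gamma0 N) (i j : Fin 2) :
    (s59satRed N q g).1 i j = ((g.1.1 i j : ℤ) : ZMod q) := by
  simp [s59satRed]

/-- `K = ker (Γ₀(N) → SL₂(ℤ/q))`. -/
def s59satK : Subgroup (Gamma0 N) := (s59satRed N q).ker

instance s59satK_normal : (s59satK N q).Normal := by
  unfold s59satK; infer_instance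

theorem s59sat_mem_K_iff (g : Gamma0 N) :
    g ∈ s59satK N q ↔ ((g.1.1 0 0 : ℤ) : ZMod q) = 1 ∧ ((g.1.1 0 1 : ℤ) : ZMod q) = 0 ∧
      ((g.1.1 1 0 : ℤ) : ZMod q) = 0 ∧ ((g.1.1 1 1 : ℤ) : ZMod q) = 1 := by
  rw [s59satK, MonoidHom.mem_ker]
  constructor
  · intro h
    have h' : ∀ i j, (s59satRed N q g).1 i j = (1 : SL(2, ZMod q)).1 i j := fun i j => by rw [h]
    simp only [s59satRed_apply] at h'
    refine ⟨?_, ?_, ?_, ?_⟩
    · simpa using h' 0 0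
    · simpa using h' 0 1
    · simpa using h' 1 0
    · simpa using h' 1 1
  · rintro ⟨h00, h01, h10, h11⟩
    apply Subtype.ext
    ext i j
    rw [s59satRed_apply]
    fin_cases i <;> fin_cases j <;> simp [h00, h01, h10, h11]

theorem s59sat_intCast_eq_zero {q : ℕ} {x : ℤ} : ((x : ℤ) : ZMod q) = 0 ↔ (q : ℤ) ∣ x :=
  ZMod.intCast_zmod_eq_zero_iff_dvd x q

/-- `range (incl N q) = {g : q ∣ c}` (for `q` prime to `N`). -/
theorem s59sat_mem_incl_range (hqN : Nat.Coprime q N) (g : Gamma0 N) :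
    g ∈ (incl N q).range ↔ (q : ℤ) ∣ g.1.1 1 0 := by
  constructor
  · rintro ⟨γ, rfl⟩
    exact dvd_q_of_mem N q γ.2
  · intro h
    have hN : (N : ℤ) ∣ g.1.1 1 0 := gamma0_dvd N g
    have hcop : IsCoprime (N : ℤ) (q : ℤ) := by
      rw [Int.isCoprime_iff_gcd_eq_one]
      simpa [Int.gcd] using hqN.symm
    have hNq : ((N * q : ℕ) : ℤ) ∣ g.1.1 1 0 := by
      push_cast
      exact hcop.mul_dvd hN h
    exact ⟨⟨g.1, mem_Gamma0_of_dvd hNq⟩, Subtype.ext rfl⟩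

/-- `range (conjD N q) = {g : q ∣ b}`. -/
theorem s59sat_mem_conjD_range [NeZero q] (g : Gamma0 N) :
    g ∈ (conjD N q).range ↔ (q : ℤ) ∣ g.1.1 0 1 := by
  have hq' : (q : ℤ) ≠ 0 := by exact_mod_cast NeZero.ne q
  constructor
  · rintro ⟨γ, rfl⟩
    show (q : ℤ) ∣ (conjDMat q ((γ : SL(2, ℤ)) : Matrix (Fin 2) (Fin 2) ℤ)) 0 1
    simp [conjDMat]
  · rintro ⟨b, hb⟩
    obtain ⟨c, hc⟩ := gamma0_dvd N g
    have hdet := gamma0_det N g
    rw [hb, hc] at hdet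
    refine ⟨gamma0Mk (N * q) (g.1.1 0 0) b (q * g.1.1 1 0) (g.1.1 1 1) ?_ ?_, ?_⟩
    · rw [hc]; linear_combination hdet
    · rw [hc]; push_cast; exact ⟨c, by ring⟩
    · apply Subtype.ext; apply Subtype.ext
      rw [conjD_coe]
      ext i j
      fin_cases i <;> fin_cases j
      · rfl
      · show (q : ℤ) * b = g.1.1 0 1
        rw [hb]
      · show (q * g.1.1 1 0) / (q : ℤ) = g.1.1 1 0
        rw [Int.mul_ediv_cancel_left _ hq']
      · rfl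


theorem s59sat_coprime [Fact q.Prime] (hqN : ¬ q ∣ N) : Nat.Coprime q N :=
  (Nat.Prime.coprime_iff_not_dvd (Fact.out : q.Prime)).mpr hqN

theorem s59sat_K_le_incl [Fact q.Prime] (hqN : ¬ q ∣ N) : s59satK N q ≤ (incl N q).range := by
  intro g hg
  rw [s59sat_mem_incl_range N q (s59sat_coprime N q hqN)]
  exact s59sat_intCast_eq_zero.mp ((s59sat_mem_K_iff N q g).mp hg).2.2.1

theorem s59sat_K_le_conjD [NeZero q] : s59satK N q ≤ (conjD N q).range := by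
  intro g hg
  rw [s59sat_mem_conjD_range N q]
  exact s59sat_intCast_eq_zero.mp ((s59sat_mem_K_iff N q g).mp hg).2.1

theorem s59sat_mul_00 (g h : Gamma0 N) :
    (g * h).1.1 0 0 = g.1.1 0 0 * h.1.1 0 0 + g.1.1 0 1 * h.1.1 1 0 := by
  show ((g.1.1 * h.1.1 : Matrix (Fin 2) (Fin 2) ℤ)) 0 0 = _
  rw [Matrix.mul_apply, Fin.sum_univ_two]

theorem s59sat_mul_01 (g h : Gamma0 N) :
    (g * h).1.1 0 1 = g.1.1 0 0 * h.1.1 0 1 + g.1.1 0 1 * h.1.1 1 1 := by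
  show ((g.1.1 * h.1.1 : Matrix (Fin 2) (Fin 2) ℤ)) 0 1 = _
  rw [Matrix.mul_apply, Fin.sum_univ_two]

theorem s59sat_mul_10 (g h : Gamma0 N) :
    (g * h).1.1 1 0 = g.1.1 1 0 * h.1.1 0 0 + g.1.1 1 1 * h.1.1 1 0 := by
  show ((g.1.1 * h.1.1 : Matrix (Fin 2) (Fin 2) ℤ)) 1 0 = _
  rw [Matrix.mul_apply, Fin.sum_univ_two]

theorem s59sat_mul_11 (g h : Gamma0 N) :
    (g * h).1.1 1 1 = g.1.1 1 0 * h.1.1 0 1 + g.1.1 1 1 * h.1.1 1 1 := by
  show ((g.1.1 * h.1.1 : Matrix (Fin 2) (Fin 2) ℤ)) 1 1 = _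
  rw [Matrix.mul_apply, Fin.sum_univ_two]

/-- the lower unipotent element `[[1, 0], [N x, 1]]` of `Γ₀(N)`. -/
def s59satLow (x : ℤ) : Gamma0 N := gamma0Mk N 1 0 (N * x) 1 (by ring) (dvd_mul_right _ _)

/-- the upper unipotent element `[[1, 1], [0, 1]]` of `Γ₀(N)`. -/
def s59satUp : Gamma0 N := gamma0Mk N 1 1 0 1 (by ring) (dvd_zero _)

theorem s59satLow_mem_conjD [NeZero q] (x : ℤ) : s59satLow N x ∈ (conjD N q).range := by
  rw [s59sat_mem_conjD_range]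
  show (q : ℤ) ∣ (gamma0Mk N 1 0 (N * x) 1 _ _).1.1 0 1
  rw [gamma0Mk_01]
  exact dvd_zero _

theorem s59satUp_mem_incl [Fact q.Prime] (hqN : ¬ q ∣ N) : s59satUp N ∈ (incl N q).range := by
  rw [s59sat_mem_incl_range N q (s59sat_coprime N q hqN)]
  show (q : ℤ) ∣ (gamma0Mk N 1 1 0 1 _ _).1.1 1 0
  rw [gamma0Mk_10]
  exact dvd_zero _

/-- elements with `q ∤ a` are in `U₂ U₁`. -/
theorem s59sat_mem_sup_of_not_dvd [NeZero q] [Fact q.Prime] (hqN : ¬ q ∣ N) (g : Gamma0 N)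
    (ha : ¬ (q : ℤ) ∣ g.1.1 0 0) : g ∈ (incl N q).range ⊔ (conjD N q).range := by
  have hN0 : ((N : ℕ) : ZMod q) ≠ 0 := by
    rw [Ne, ZMod.natCast_eq_zero_iff]; exact hqN
  have ha0 : ((g.1.1 0 0 : ℤ) : ZMod q) ≠ 0 := by
    rw [Ne, s59sat_intCast_eq_zero]; exact ha
  let u : ZMod q := -((g.1.1 1 0 : ℤ) : ZMod q) * (((N : ℕ) : ZMod q) * ((g.1.1 0 0 : ℤ) : ZMod q))⁻¹
  obtain ⟨x, hx⟩ := ZMod.intCast_surjective u
  have hmem : s59satLow N x * g ∈ (incl N q).range := by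
    rw [s59sat_mem_incl_range N q (s59sat_coprime N q hqN), s59sat_mul_10]
    show (q : ℤ) ∣ (gamma0Mk N 1 0 (N * x) 1 _ _).1.1 1 0 * g.1.1 0 0
      + (gamma0Mk N 1 0 (N * x) 1 _ _).1.1 1 1 * g.1.1 1 0
    rw [gamma0Mk_10, gamma0Mk_11, ← s59sat_intCast_eq_zero]
    push_cast
    rw [hx]
    simp only [u]
    field_simp
    ring
  have h2 : (s59satLow N x)⁻¹ ∈ (incl N q).range ⊔ (conjD N q).range :=
    Subgroup.mem_sup_right (Subgroup.inv_mem _ (s59satLow_mem_conjD N q x))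
  have h3 := Subgroup.mul_mem _ h2 (Subgroup.mem_sup_left hmem)
  rwa [inv_mul_cancel_left] at h3

/-- **`U₁` and `U₂` generate `Γ₀(N)`.** -/
theorem s59sat_sup_eq_top [NeZero q] [Fact q.Prime] (hqN : ¬ q ∣ N) :
    (incl N q).range ⊔ (conjD N q).range = ⊤ := by
  have hq : Prime (q : ℤ) := Nat.prime_iff_prime_int.mp (Fact.out : q.Prime)
  rw [eq_top_iff]
  intro g _
  by_cases ha : (q : ℤ) ∣ g.1.1 0 0
  · -- then `q ∤ c`, and `τ g` has `a + c` prime to `q`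
    have hc : ¬ (q : ℤ) ∣ g.1.1 1 0 := by
      intro hc
      have hdet := gamma0_det N g
      have : (q : ℤ) ∣ 1 := by
        rw [← hdet]
        exact dvd_sub (Dvd.dvd.mul_right ha _) (Dvd.dvd.mul_left hc _)
      exact hq.not_dvd_one this
    have h1 : ¬ (q : ℤ) ∣ (s59satUp N * g).1.1 0 0 := by
      rw [s59sat_mul_00]
      show ¬ (q : ℤ) ∣ (gamma0Mk N 1 1 0 1 _ _).1.1 0 0 * g.1.1 0 0
        + (gamma0Mk N 1 1 0 1 _ _).1.1 0 1 * g.1.1 1 0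
      rw [gamma0Mk_00, gamma0Mk_01, one_mul, one_mul]
      intro h
      exact hc ((dvd_add_right ha).mp h)
    have h2 := s59sat_mem_sup_of_not_dvd N q hqN _ h1
    have h3 : (s59satUp N)⁻¹ ∈ (incl N q).range ⊔ (conjD N q).range :=
      Subgroup.mem_sup_left (Subgroup.inv_mem _ (s59satUp_mem_incl N q hqN))
    have h4 := Subgroup.mul_mem _ h3 h2
    rwa [inv_mul_cancel_left] at h4
  · exact s59sat_mem_sup_of_not_dvd N q hqN g ha

/-- `[Γ₀(N) : Γ₀(N q)] = q + 1`. -/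
theorem s59sat_index_incl [NeZero N] [Fact q.Prime] (hqN : ¬ q ∣ N) :
    (incl N q).range.index = q + 1 := by
  have h := Fermat.Agent.S20.relIndex_Gamma0_of_not_dvd (Fact.out : q.Prime) hqN (NeZero.ne N)
  rw [incl, Subgroup.inclusion_range]
  rw [Subgroup.relIndex, mul_comm q N] at h
  exact h

end Fermat.Agent.S59
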