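/-
S59 Route A, ETA′, piece E-SAT (helper68) — IHARA2: the kernel of
`res + res^δ : Hom(Γ₀(N q), A)² → Hom(Γ₀(N q²), A)` (`q ∤ N`, `A` killed by an odd prime `p ≠ q`)
is `{(res^δ t, − res t) : t ∈ Hom(Γ₀(N), A)}` up to classes vanishing on `{d ≡ 1 mod q}`.

`s59sat_ihara2_of : s59sat_StmtTorus → s59sat_StmtCard → s59sat_StmtRedSurj → s59sat_StmtIhara2`.
-/
import Mathlib
import Fermat.Agent.S59.Eta.SatConc

set_option autoImplicit false
set_option linter.style.haveILetI false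
set_option linter.unusedSectionVars false

noncomputable section

namespace Fermat.Agent.S59

open CongruenceSubgroup Matrix Fermat.Agent.S41
open scoped MatrixGroups

section unip

variable {R : Type*} [CommRing R]

theorem s59sat_sl_mul_apply (u v : SL(2, R)) (i j : Fin 2) :
    (u * v).1 i j = u.1 i 0 * v.1 0 j + u.1 i 1 * v.1 1 j := by
  show (u.1 * v.1) i j = _
  rw [Matrix.mul_apply, Fin.sum_univ_two]

theorem s59sat_upper_pow (u : SL(2, R)) (h00 : u.1 0 0 = 1) (h10 : u.1 1 0 = 0)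
    (h11 : u.1 1 1 = 1) (n : ℕ) :
    (u ^ n).1 0 0 = 1 ∧ (u ^ n).1 0 1 = n * u.1 0 1 ∧ (u ^ n).1 1 0 = 0 ∧ (u ^ n).1 1 1 = 1 := by
  induction n with
  | zero => simp
  | succ n ih =>
    obtain ⟨i00, i01, i10, i11⟩ := ih
    rw [pow_succ]
    refine ⟨?_, ?_, ?_, ?_⟩
    · rw [s59sat_sl_mul_apply, i00, i01, h00, h10]; ring
    · rw [s59sat_sl_mul_apply, i00, i01, h11]; push_cast; ring
    · rw [s59sat_sl_mul_apply, i10, i11, h00, h10]; ring
    · rw [s59sat_sl_mul_apply, i10, i11, h11]; ring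

theorem s59sat_lower_pow (u : SL(2, R)) (h00 : u.1 0 0 = 1) (h01 : u.1 0 1 = 0)
    (h11 : u.1 1 1 = 1) (n : ℕ) :
    (u ^ n).1 0 0 = 1 ∧ (u ^ n).1 0 1 = 0 ∧ (u ^ n).1 1 0 = n * u.1 1 0 ∧ (u ^ n).1 1 1 = 1 := by
  induction n with
  | zero => simp
  | succ n ih =>
    obtain ⟨i00, i01, i10, i11⟩ := ih
    rw [pow_succ]
    refine ⟨?_, ?_, ?_, ?_⟩
    · rw [s59sat_sl_mul_apply, i00, i01, h00]; ring
    · rw [s59sat_sl_mul_apply, i00, i01, h01, h11]; ring
    · rw [s59sat_sl_mul_apply, i10, i11, h00]; push_cast; ring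
    · rw [s59sat_sl_mul_apply, i10, i11, h01, h11]; ring

end unip

variable (N q : ℕ)

/-- an element of `Γ₀(N)` which is upper unipotent modulo `q` has its `q`-th power in `K`. -/
theorem s59sat_pow_mem_K_upper [Fact q.Prime] (g : Gamma0 N)
    (h00 : ((g.1.1 0 0 : ℤ) : ZMod q) = 1) (h10 : ((g.1.1 1 0 : ℤ) : ZMod q) = 0)
    (h11 : ((g.1.1 1 1 : ℤ) : ZMod q) = 1) : g ^ q ∈ s59satK N q := by
  rw [s59satK, MonoidHom.mem_ker, map_pow]
  obtain ⟨e00, e01, e10, e11⟩ := s59sat_upper_pow (s59satRed N q g)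
    (by rw [s59satRed_apply]; exact h00) (by rw [s59satRed_apply]; exact h10)
    (by rw [s59satRed_apply]; exact h11) q
  apply Subtype.ext
  ext i j
  fin_cases i <;> fin_cases j
  · simpa using e00
  · simpa using e01
  · simpa using e10
  · simpa using e11

/-- an element of `Γ₀(N)` which is lower unipotent modulo `q` has its `q`-th power in `K`. -/
theorem s59sat_pow_mem_K_lower [Fact q.Prime] (g : Gamma0 N)
    (h00 : ((g.1.1 0 0 : ℤ) : ZMod q) = 1) (h01 : ((g.1.1 0 1 : ℤ) : ZMod q) = 0)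
    (h11 : ((g.1.1 1 1 : ℤ) : ZMod q) = 1) : g ^ q ∈ s59satK N q := by
  rw [s59satK, MonoidHom.mem_ker, map_pow]
  obtain ⟨e00, e01, e10, e11⟩ := s59sat_lower_pow (s59satRed N q g)
    (by rw [s59satRed_apply]; exact h00) (by rw [s59satRed_apply]; exact h01)
    (by rw [s59satRed_apply]; exact h11) q
  apply Subtype.ext
  ext i j
  fin_cases i <;> fin_cases j
  · simpa using e00
  · simpa using e01
  · simpa using e10
  · simpa using e11

/-- for `γ ∈ Γ₀(N q)`: `d ≡ 1 mod q ⇒ a ≡ 1 mod q`. -/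
theorem s59sat_a_of_d (γ : Gamma0 (N * q)) (hd : ((γ.1.1 1 1 : ℤ) : ZMod q) = 1) :
    ((γ.1.1 0 0 : ℤ) : ZMod q) = 1 := by
  have hdet := gamma0_det (N * q) γ
  have hc : ((γ.1.1 1 0 : ℤ) : ZMod q) = 0 :=
    s59sat_intCast_eq_zero.mpr (dvd_q_of_mem N q γ.2)
  have h := congrArg (Int.cast : ℤ → ZMod q) hdet
  push_cast at h
  rw [hd, hc, mul_one, mul_zero, sub_zero] at h
  exact h


section assembly

variable [NeZero N] [NeZero q] [Fact q.Prime] {A : Type} [AddCommGroup A]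

/-- the hom `ψ ∘ incl⁻¹` on `U₁ = range incl`, extended by zero. -/
def s59satPhi1 (ψ : HomG (N * q) A) : Gamma0 N → A :=
  s59satExt (incl N q).range
    (ψ.comp (MonoidHom.toAdditive (MonoidHom.ofInjective (incl_injective N q)).symm.toMonoidHom))

/-- the hom `ψ ∘ conjD⁻¹` on `U₂ = range conjD`, extended by zero. -/
def s59satPhi2 (ψ : HomG (N * q) A) : Gamma0 N → A :=
  s59satExt (conjD N q).range
    (ψ.comp (MonoidHom.toAdditive (MonoidHom.ofInjective (conjD_injective N q)).symm.toMonoidHom))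

theorem s59satPhi1_incl (ψ : HomG (N * q) A) (γ : Gamma0 (N * q)) :
    s59satPhi1 N q ψ (incl N q γ) = ψ (Additive.ofMul γ) := by
  rw [s59satPhi1, s59satExt_apply _ _ (⟨γ, rfl⟩ : incl N q γ ∈ (incl N q).range)]
  show ψ (Additive.ofMul ((MonoidHom.ofInjective (incl_injective N q)).symm _)) = _
  congr 2
  apply (MonoidHom.ofInjective (incl_injective N q)).injective
  rw [MulEquiv.apply_symm_apply]
  exact Subtype.ext rfl

theorem s59satPhi2_conjD (ψ : HomG (N * q) A) (γ : Gamma0 (N * q)) :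
    s59satPhi2 N q ψ (conjD N q γ) = ψ (Additive.ofMul γ) := by
  rw [s59satPhi2, s59satExt_apply _ _ (⟨γ, rfl⟩ : conjD N q γ ∈ (conjD N q).range)]
  show ψ (Additive.ofMul ((MonoidHom.ofInjective (conjD_injective N q)).symm _)) = _
  congr 2
  apply (MonoidHom.ofInjective (conjD_injective N q)).injective
  rw [MulEquiv.apply_symm_apply]
  exact Subtype.ext rfl

theorem s59satPhi1_homOn (ψ : HomG (N * q) A) :
    S59satHomOn (incl N q).range (s59satPhi1 N q ψ) := s59satExt_homOn _ _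

theorem s59satPhi2_homOn (ψ : HomG (N * q) A) :
    S59satHomOn (conjD N q).range (s59satPhi2 N q ψ) := s59satExt_homOn _ _

/-- the two homs attached to a pair in the kernel agree on `K`. -/
theorem s59sat_agree (hqN : ¬ q ∣ N) (ψ₁ ψ₂ : HomG (N * q) A)
    (hker : res (N * q) q A ψ₁ + resD (N * q) q A ψ₂ = 0) (k : Gamma0 N)
    (hk : k ∈ s59satK N q) : s59satPhi1 N q ψ₂ k = s59satPhi2 N q (-ψ₁) k := by
  have hq' : (q : ℤ) ≠ 0 := by exact_mod_cast NeZero.ne q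
  obtain ⟨γ₁, rfl⟩ := s59sat_K_le_incl N q hqN hk
  obtain ⟨γ₂, h₂⟩ := s59sat_K_le_conjD N q hk
  rw [s59satPhi1_incl, ← h₂, s59satPhi2_conjD]
  -- `γ₂ ∈ Γ₀(N q q)`
  have h10 : γ₂.1.1 1 0 / (q : ℤ) = γ₁.1.1 1 0 := by
    have := congrArg (fun x : Gamma0 N => x.1.1 1 0) h₂
    simpa [conjDSL, conjDMat] using this
  obtain ⟨c₂, hc₂⟩ := dvd_q_of_mem N q γ₂.2
  have hc₂' : γ₂.1.1 1 0 = q * c₂ := hc₂
  rw [hc₂', Int.mul_ediv_cancel_left _ hq'] at h10
  have hmem : γ₂.1 ∈ Gamma0 (N * q * q) := by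
    apply mem_Gamma0_of_dvd
    obtain ⟨e, he⟩ := gamma0_dvd (N * q) γ₁
    show ((N * q * q : ℕ) : ℤ) ∣ γ₂.1.1 1 0
    rw [hc₂', h10, he]
    exact ⟨e, by push_cast; ring⟩
  let γ : Gamma0 (N * q * q) := ⟨γ₂.1, hmem⟩
  have e1 : incl (N * q) q γ = γ₂ := Subtype.ext rfl
  have e2 : conjD (N * q) q γ = γ₁ := by
    apply Subtype.ext; apply Subtype.ext
    have := congrArg (fun x : Gamma0 N => x.1.1) h₂
    exact this
  have h := congrArg (fun f : HomG (N * q * q) A => f (Additive.ofMul γ)) hker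
  simp only [AddMonoidHom.add_apply, res_apply, resD_apply, AddMonoidHom.zero_apply, e1, e2] at h
  rw [AddMonoidHom.neg_apply]
  exact (neg_eq_of_add_eq_zero_right h).symm ▸ rfl


/-- the case hypothesis of `s59sat_abs_extend` when `p ∣ q + 1`. -/
theorem s59sat_case_torus (hT : s59sat_StmtTorus) (hC : s59sat_StmtCard)
    (hL : s59sat_StmtRedSurj) (hqN : ¬ q ∣ N) (p : ℕ) [Fact p.Prime] (hp2 : p ≠ 2)
    (hpq : p ≠ q) (hdvd : p ∣ q + 1) :
    ∃ (H : Subgroup (Gamma0 N)) (c w : Gamma0 N), H.FiniteIndex ∧ ¬ p ∣ H.index ∧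
      s59satK N q ≤ H ∧ (∀ h ∈ H, ∃ m : ℤ, c ^ m * h ∈ s59satK N q) ∧
      w * c * w⁻¹ * c ∈ s59satK N q ∧ ∀ m : ℤ, c ^ m ∈ s59satK N q → (p : ℤ) ∣ m := by
  have hp : p.Prime := Fact.out
  have hq : q.Prime := Fact.out
  obtain ⟨cb, wb, hinvb, hord⟩ := hT q
  have hsurj := hL N q hqN
  obtain ⟨c, hc⟩ := hsurj cb
  obtain ⟨w, hw⟩ := hsurj wb
  haveI : Finite SL(2, ZMod q) := inferInstance
  let H : Subgroup (Gamma0 N) := (Subgroup.zpowers cb).comap (s59satRed N q)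
  have hidx : H.index = q * (q - 1) := by
    have h1 : H.index = (Subgroup.zpowers cb).index :=
      Subgroup.index_comap_of_surjective _ hsurj
    have h2 := Subgroup.index_mul_card (Subgroup.zpowers cb)
    rw [Nat.card_zpowers, hord, hC q] at h2
    rw [h1]
    exact Nat.eq_of_mul_eq_mul_right (Nat.succ_pos q) h2
  have hq1 : 0 < q - 1 := Nat.sub_pos_of_lt hq.one_lt
  refine ⟨H, c, w, ⟨?_⟩, ?_, ?_, ?_, ?_, ?_⟩
  · rw [hidx]
    exact (Nat.mul_pos hq.pos hq1).ne'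
  · rw [hidx]
    intro h
    rcases (Nat.Prime.dvd_mul hp).mp h with h | h
    · exact hpq ((Nat.prime_dvd_prime_iff_eq hp hq).mp h)
    · have h2 : p ∣ (q + 1) - (q - 1) := Nat.dvd_sub hdvd h
      have e : (q + 1) - (q - 1) = 2 := by omega
      rw [e] at h2
      exact hp2 ((Nat.prime_dvd_prime_iff_eq hp Nat.prime_two).mp h2)
  · intro k hk
    show s59satRed N q k ∈ Subgroup.zpowers cb
    rw [s59satK, MonoidHom.mem_ker] at hk
    rw [hk]
    exact Subgroup.one_mem _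
  · intro h hh
    obtain ⟨j, hj⟩ := Subgroup.mem_zpowers_iff.mp (show s59satRed N q h ∈ Subgroup.zpowers cb from hh)
    refine ⟨-j, ?_⟩
    rw [s59satK, MonoidHom.mem_ker, map_mul, map_zpow, hc, ← hj, _root_.zpow_neg, inv_mul_cancel]
  · rw [s59satK, MonoidHom.mem_ker, map_mul, map_mul, map_mul, map_inv, hc, hw, hinvb,
      inv_mul_cancel]
  · intro m hm
    rw [s59satK, MonoidHom.mem_ker, map_zpow, hc] at hm
    have h1 : ((orderOf cb : ℕ) : ℤ) ∣ m := orderOf_dvd_iff_zpow_eq_one.mpr hm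
    rw [hord] at h1
    exact dvd_trans (Int.natCast_dvd_natCast.mpr hdvd) h1

/-- `q` is invertible on a group killed by `p ≠ q`. -/
theorem s59sat_q_cancel (p : ℕ) [Fact p.Prime] (hpq : p ≠ q) (hA : ∀ a : A, p • a = 0)
    {a b : A} (h : q • a = q • b) : a = b := by
  have hnd : ¬ p ∣ q := fun h =>
    hpq ((Nat.prime_dvd_prime_iff_eq (Fact.out : p.Prime) (Fact.out : q.Prime)).mp h)
  obtain ⟨m, hm⟩ := s59sat_exists_inv_smul (A := A) p hA q hnd
  rw [← hm a, ← hm b, h]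

/-- **IHARA2** from the three Mathlib-only pieces. -/
theorem s59sat_ihara2_of (hT : s59sat_StmtTorus) (hC : s59sat_StmtCard)
    (hL : s59sat_StmtRedSurj) : s59sat_StmtIhara2 := by
  intro N q p _ _ _ _ hqN hp2 hpq A _ hA ψ₁ ψ₂ hker
  have hp : p.Prime := Fact.out
  have hq : q.Prime := Fact.out
  -- the abstract extension
  have hcase : ((incl N q).range.FiniteIndex ∧ ¬ p ∣ (incl N q).range.index) ∨
      ∃ (H : Subgroup (Gamma0 N)) (c w : Gamma0 N), H.FiniteIndex ∧ ¬ p ∣ H.index ∧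
        s59satK N q ≤ H ∧ (∀ h ∈ H, ∃ m : ℤ, c ^ m * h ∈ s59satK N q) ∧
        w * c * w⁻¹ * c ∈ s59satK N q ∧ ∀ m : ℤ, c ^ m ∈ s59satK N q → (p : ℤ) ∣ m := by
    by_cases hdvd : p ∣ q + 1
    · exact Or.inr (s59sat_case_torus N q hT hC hL hqN p hp2 hpq hdvd)
    · refine Or.inl ⟨inferInstance, ?_⟩
      rw [s59sat_index_incl N q hqN]
      exact hdvd
  have hagree := s59sat_agree N q hqN ψ₁ ψ₂ hker
  obtain ⟨t, ht⟩ := s59sat_abs_extend (s59satK N q) (incl N q).range (conjD N q).range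
    (s59sat_K_le_incl N q hqN) (s59sat_K_le_conjD N q) (s59sat_sup_eq_top N q hqN) p hp2 hA
    (s59satPhi1 N q ψ₂) (s59satPhi2 N q (-ψ₁)) (s59satPhi1_homOn N q ψ₂)
    (s59satPhi2_homOn N q (-ψ₁)) hagree hcase
  refine ⟨-t, ?_, ?_⟩
  · -- `ψ₁ γ = - t (conjD γ)`
    intro γ hd
    have hd' : ((γ.1.1 1 1 : ℤ) : ZMod q) = 1 := hd
    have ha' := s59sat_a_of_d N q γ hd'
    have hmem : (conjD N q γ) ^ q ∈ s59satK N q := by
      apply s59sat_pow_mem_K_lower
      · exact ha'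
      · show (((conjDMat q γ.1.1) 0 1 : ℤ) : ZMod q) = 0
        simp [conjDMat]
      · exact hd'
    have hR : s59satPhi1 N q ψ₂ ((conjD N q γ) ^ q) = q • (- ψ₁ (Additive.ofMul γ)) := by
      rw [hagree _ hmem, ← map_pow, s59satPhi2_conjD, ofMul_pow, map_nsmul,
        AddMonoidHom.neg_apply]
    have hLHS : t (Additive.ofMul ((conjD N q γ) ^ q)) = q • t (Additive.ofMul (conjD N q γ)) := by
      rw [ofMul_pow, map_nsmul]
    have h1 := ht _ hmem
    rw [hR, hLHS] at h1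
    have h2 := s59sat_q_cancel q p hpq hA h1
    rw [resD_apply, AddMonoidHom.neg_apply, h2, neg_neg]
  · -- `ψ₂ γ = t (incl γ)`
    intro γ hd
    have hd' : ((γ.1.1 1 1 : ℤ) : ZMod q) = 1 := hd
    have ha' := s59sat_a_of_d N q γ hd'
    have hmem : (incl N q γ) ^ q ∈ s59satK N q := by
      apply s59sat_pow_mem_K_upper
      · exact ha'
      · exact s59sat_intCast_eq_zero.mpr (dvd_q_of_mem N q γ.2)
      · exact hd'
    have hR : s59satPhi1 N q ψ₂ ((incl N q γ) ^ q) = q • ψ₂ (Additive.ofMul γ) := by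
      rw [← map_pow, s59satPhi1_incl, ofMul_pow, map_nsmul]
    have hLHS : t (Additive.ofMul ((incl N q γ) ^ q)) = q • t (Additive.ofMul (incl N q γ)) := by
      rw [ofMul_pow, map_nsmul]
    have h1 := ht _ hmem
    rw [hR, hLHS] at h1
    have h2 := s59sat_q_cancel q p hpq hA h1
    rw [res_apply, AddMonoidHom.neg_apply, neg_neg, h2]

end assembly

end Fermat.Agent.S59
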