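/-
S59 Route A, ETA′, piece E-SAT (helper68) — parabolic elements: for `γ ∈ Γ₀(N)` with `tr² = 4`,
`γ^(2q) = 1 + q (γ² − 1)` lies in `Γ₀(N q)`, has `d ≡ 1 mod q` and is parabolic.
-/
import Mathlib
import Fermat.Agent.S59.Eta.SatConc
import Fermat.Agent.ES.HeckePPar
import Fermat.Agent.S41.Parab

set_option autoImplicit false
set_option linter.style.haveILetI false
set_option linter.unusedSectionVars false

noncomputable section

namespace Fermat.Agent.S59

open CongruenceSubgroup Matrix Fermat.Agent.S41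
open scoped MatrixGroups

theorem s59sat_one_add_pow {R : Type*} [Ring R] (m : R) (hm : m * m = 0) (n : ℕ) :
    (1 + m) ^ n = 1 + n • m := by
  induction n with
  | zero => simp
  | succ n ih =>
    rw [pow_succ, ih, mul_add, mul_one, add_mul, one_mul, smul_mul_assoc, hm, smul_zero, add_zero,
      succ_nsmul]
    abel

/-- Cayley–Hamilton for a parabolic matrix: `(M² − 1)² = 0`. -/
theorem s59sat_sq_sub_one_sq (M : Matrix (Fin 2) (Fin 2) ℤ)
    (hdet : M 0 0 * M 1 1 - M 0 1 * M 1 0 = 1) (htr : (M 0 0 + M 1 1) ^ 2 = 4) :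
    (M * M - 1) * (M * M - 1) = 0 := by
  have hCH : M * M - 1 = !![(M 0 0 + M 1 1) * M 0 0 - 2, (M 0 0 + M 1 1) * M 0 1;
      (M 0 0 + M 1 1) * M 1 0, (M 0 0 + M 1 1) * M 1 1 - 2] := by
    ext i j
    fin_cases i <;> fin_cases j
    · simp only [Fin.zero_eta, Fin.isValue, Matrix.sub_apply, Matrix.mul_apply, Fin.sum_univ_two, one_apply_eq,
        of_apply, cons_val', cons_val_zero, cons_val_fin_one]
      linear_combination -hdet
    · simp only [Fin.zero_eta, Fin.isValue, Fin.mk_one, Matrix.sub_apply, Matrix.mul_apply, Fin.sum_univ_two,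
        ne_eq, zero_ne_one, not_false_eq_true, one_apply_ne, sub_zero, of_apply, cons_val',
        cons_val_one, cons_val_fin_one, cons_val_zero]
      ring
    · simp only [Fin.mk_one, Fin.isValue, Fin.zero_eta, Matrix.sub_apply, Matrix.mul_apply, Fin.sum_univ_two,
        ne_eq, one_ne_zero, not_false_eq_true, one_apply_ne, sub_zero, of_apply, cons_val',
        cons_val_zero, cons_val_fin_one, cons_val_one]
      ring
    · simp only [Fin.mk_one, Fin.isValue, Matrix.sub_apply, Matrix.mul_apply, Fin.sum_univ_two, one_apply_eq,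
        of_apply, cons_val', cons_val_one, cons_val_fin_one]
      linear_combination -hdet
  rw [hCH]
  ext i j
  fin_cases i <;> fin_cases j
  · simp only [Fin.zero_eta, Fin.isValue, mul_apply, of_apply, cons_val', cons_val_zero,
      cons_val_fin_one, cons_val_one, Fin.sum_univ_two, Matrix.zero_apply]
    linear_combination ((M 0 0) * (M 0 0 + M 1 1) - 1) * htr - (M 0 0 + M 1 1) ^ 2 * hdet
  · simp only [Fin.zero_eta, Fin.isValue, Fin.mk_one, mul_apply, of_apply, cons_val',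
      cons_val_zero, cons_val_fin_one, cons_val_one, Fin.sum_univ_two, Matrix.zero_apply]
    linear_combination ((M 0 0 + M 1 1) * M 0 1) * htr
  · simp only [Fin.mk_one, Fin.isValue, Fin.zero_eta, mul_apply, of_apply, cons_val',
      cons_val_zero, cons_val_fin_one, cons_val_one, Fin.sum_univ_two, Matrix.zero_apply]
    linear_combination ((M 0 0 + M 1 1) * M 1 0) * htr
  · simp only [Fin.mk_one, Fin.isValue, mul_apply, of_apply, cons_val', cons_val_zero,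
      cons_val_fin_one, cons_val_one, Fin.sum_univ_two, Matrix.zero_apply]
    linear_combination ((M 1 1) * (M 0 0 + M 1 1) - 1) * htr - (M 0 0 + M 1 1) ^ 2 * hdet

/-- `(γ²)^n = 1 + n (γ² − 1)` for a parabolic `γ`. -/
theorem s59sat_par_pow (g : SL(2, ℤ)) (hg : (g : Matrix (Fin 2) (Fin 2) ℤ).trace ^ 2 = 4)
    (n : ℕ) : (((g ^ 2) ^ n : SL(2, ℤ)) : Matrix (Fin 2) (Fin 2) ℤ) = 1 + n • (g.1 * g.1 - 1) := by
  have hdet : g.1 0 0 * g.1 1 1 - g.1 0 1 * g.1 1 0 = 1 := by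
    have h := g.det_coe
    rwa [Matrix.det_fin_two] at h
  have htr : (g.1 0 0 + g.1 1 1) ^ 2 = 4 := by
    rw [Matrix.trace_fin_two] at hg
    exact hg
  have hm := s59sat_sq_sub_one_sq g.1 hdet htr
  have h1 := s59sat_one_add_pow (g.1 * g.1 - 1) hm n
  rw [add_sub_cancel] at h1
  rw [← h1]
  simp [pow_two]

/-- For a parabolic `g ∈ Γ₀(N)`: `g^(2q)` lies in `Γ₀(N q)`, is parabolic, and has `d ≡ 1 mod q`. -/
theorem s59sat_par_lift (N q : ℕ) (g : Gamma0 N) (hg : parabTr g ^ 2 = 4) :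
    ∃ γ : Gamma0 (N * q), incl N q γ = (g ^ 2) ^ q ∧ parabTr γ ^ 2 = 4 ∧
      ((γ.1.1 1 1 : ℤ) : ZMod q) = 1 := by
  have hpow := s59sat_par_pow g.1 hg q
  have hsq : ((g.1 ^ 2 : SL(2, ℤ)) : Matrix (Fin 2) (Fin 2) ℤ) = g.1.1 * g.1.1 := by
    rw [pow_two]; rfl
  have hN : (N : ℤ) ∣ (g.1.1 * g.1.1) 1 0 := by
    have h1 : (g ^ 2 : Gamma0 N).1 ∈ Gamma0 N := (g ^ 2).2
    have h2 := dvd_of_mem_Gamma0 h1
    have h3 : ((g ^ 2 : Gamma0 N).1 : SL(2, ℤ)) = g.1 ^ 2 := rfl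
    rw [h3] at h2
    have h4 : (g.1 ^ 2 : SL(2, ℤ)) 1 0 = (g.1.1 * g.1.1) 1 0 := by
      rw [← hsq]
    rw [h4] at h2
    exact h2
  have h10 : (((g.1 ^ 2) ^ q : SL(2, ℤ)) : Matrix (Fin 2) (Fin 2) ℤ) 1 0 =
      q * (g.1.1 * g.1.1) 1 0 := by
    rw [hpow, Matrix.add_apply, Matrix.smul_apply, Matrix.sub_apply,
      Matrix.one_apply_ne (show (1 : Fin 2) ≠ 0 by decide), nsmul_eq_mul]
    ring
  have h11 : (((g.1 ^ 2) ^ q : SL(2, ℤ)) : Matrix (Fin 2) (Fin 2) ℤ) 1 1 =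
      1 + q * ((g.1.1 * g.1.1) 1 1 - 1) := by
    rw [hpow, Matrix.add_apply, Matrix.smul_apply, Matrix.sub_apply,
      Matrix.one_apply_eq, nsmul_eq_mul]
  have hmem : ((g.1 ^ 2) ^ q : SL(2, ℤ)) ∈ Gamma0 (N * q) := by
    apply mem_Gamma0_of_dvd
    show ((N * q : ℕ) : ℤ) ∣ (((g.1 ^ 2) ^ q : SL(2, ℤ)) : Matrix (Fin 2) (Fin 2) ℤ) 1 0
    rw [h10]
    obtain ⟨c, hc⟩ := hN
    rw [hc]
    push_cast
    exact ⟨c, by ring⟩
  refine ⟨⟨(g.1 ^ 2) ^ q, hmem⟩, ?_, ?_, ?_⟩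
  · apply Subtype.ext
    rfl
  · show (((g.1 ^ 2) ^ q : SL(2, ℤ)) : Matrix (Fin 2) (Fin 2) ℤ).trace ^ 2 = 4
    rw [← pow_mul]
    exact Fermat.Agent.ES.HeckeP.trace_pow_sq_eq_four g.1 hg (2 * q)
  · show (((((g.1 ^ 2) ^ q : SL(2, ℤ)) : Matrix (Fin 2) (Fin 2) ℤ) 1 1 : ℤ) : ZMod q) = 1
    rw [h11]
    push_cast
    simp

end Fermat.Agent.S59
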