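/-
S59 Route A, ETA′, piece E-SAT (L) (helper47): reduction modulo `q` is onto on `Γ₀(N)`, `q ∤ N`.

`SL₂(𝔽_q)` is generated by `U(x) = [[1, x], [0, 1]]` and `L(y) = [[1, 0], [y, 1]]`:
`[[a, b], [c, d]] = U((a − 1)/c) · L(c) · U((d − 1)/c)` if `c ≠ 0`; `U(x)` lifts to
`[[1, x̃], [0, 1]] ∈ Γ₀(N)` and `L(y)` lifts to `[[1, 0], [N m, 1]]` with `N m ≡ y mod q`.

* `s59sat_upper`, `s59sat_lower`     : the elementary matrices over a commutative ring;
* `s59sat_decomp`                    : the decomposition over a field, `c ≠ 0`;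
* `s59sat_upper_mem`, `s59sat_lower_mem` : they are in the range of `s59satRed N q`;
* `s59sat_stmtRedSurj`               : `s59sat_StmtRedSurj`.
-/
import Fermat.Agent.S59.Eta.SatPlan

set_option autoImplicit false

namespace Fermat.Agent.S59

open CongruenceSubgroup Matrix
open scoped MatrixGroups

/-- `U(x) = [[1, x], [0, 1]]` -/
def s59sat_upper {R : Type*} [CommRing R] (x : R) : SL(2, R) :=
  ⟨!![1, x; 0, 1], by rw [Matrix.det_fin_two_of]; ring⟩

/-- `L(y) = [[1, 0], [y, 1]]` -/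
def s59sat_lower {R : Type*} [CommRing R] (y : R) : SL(2, R) :=
  ⟨!![1, 0; y, 1], by rw [Matrix.det_fin_two_of]; ring⟩

theorem s59sat_map_upper {R S : Type*} [CommRing R] [CommRing S] (f : R →+* S) (x : R) :
    SpecialLinearGroup.map f (s59sat_upper x) = s59sat_upper (f x) := by
  apply Subtype.ext
  rw [SpecialLinearGroup.map_apply_coe]
  ext i j
  fin_cases i <;> fin_cases j <;> simp [s59sat_upper]

theorem s59sat_map_lower {R S : Type*} [CommRing R] [CommRing S] (f : R →+* S) (y : R) :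
    SpecialLinearGroup.map f (s59sat_lower y) = s59sat_lower (f y) := by
  apply Subtype.ext
  rw [SpecialLinearGroup.map_apply_coe]
  ext i j
  fin_cases i <;> fin_cases j <;> simp [s59sat_lower]

/-- the decomposition `g = U(s) L(c) U(t)` when `c = g₁₀ ≠ 0` -/
theorem s59sat_decomp {F : Type*} [Field F] (g : SL(2, F)) (hc : g 1 0 ≠ 0) :
    g = s59sat_upper ((g 0 0 - 1) / g 1 0) * s59sat_lower (g 1 0)
      * s59sat_upper ((g 1 1 - 1) / g 1 0) := by
  have hdet : g 0 0 * g 1 1 - g 0 1 * g 1 0 = 1 := by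
    have := g.2
    rwa [Matrix.det_fin_two] at this
  apply Subtype.ext
  show (g : Matrix (Fin 2) (Fin 2) F) = !![1, (g 0 0 - 1) / g 1 0; 0, 1] * !![1, 0; g 1 0, 1]
    * !![1, (g 1 1 - 1) / g 1 0; 0, 1]
  rw [Matrix.mul_fin_two, Matrix.mul_fin_two]
  ext i j
  fin_cases i <;> fin_cases j
  · show g 0 0 = (1 * 1 + (g 0 0 - 1) / g 1 0 * g 1 0) * 1
      + (1 * 0 + (g 0 0 - 1) / g 1 0 * 1) * 0
    field_simp
    ring
  · show g 0 1 = (1 * 1 + (g 0 0 - 1) / g 1 0 * g 1 0) * ((g 1 1 - 1) / g 1 0)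
      + (1 * 0 + (g 0 0 - 1) / g 1 0 * 1) * 1
    field_simp
    linear_combination (-1 : F) * hdet
  · show g 1 0 = (0 * 1 + 1 * g 1 0) * 1 + (0 * 0 + 1 * 1) * 0
    ring
  · show g 1 1 = (0 * 1 + 1 * g 1 0) * ((g 1 1 - 1) / g 1 0) + (0 * 0 + 1 * 1) * 1
    field_simp
    ring

theorem s59sat_upper_mem (N q : ℕ) (x : ZMod q) :
    s59sat_upper x ∈ (s59satRed N q).range := by
  obtain ⟨n, rfl⟩ := ZMod.intCast_surjective x
  have hmem : s59sat_upper (n : ℤ) ∈ Gamma0 N := by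
    rw [Gamma0_mem]
    simp [s59sat_upper]
  refine ⟨⟨s59sat_upper n, hmem⟩, ?_⟩
  show SpecialLinearGroup.map (Int.castRingHom (ZMod q)) (s59sat_upper n) = _
  rw [s59sat_map_upper]
  rfl

theorem s59sat_lower_mem (N q : ℕ) [Fact q.Prime] (hqN : ¬ q ∣ N) (y : ZMod q) :
    s59sat_lower y ∈ (s59satRed N q).range := by
  have hN0 : ((N : ℕ) : ZMod q) ≠ 0 := by
    rw [Ne, ZMod.natCast_eq_zero_iff]
    exact hqN
  obtain ⟨m, hm⟩ := ZMod.intCast_surjective (y * ((N : ℕ) : ZMod q)⁻¹)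
  have hmem : s59sat_lower ((N : ℤ) * m) ∈ Gamma0 N := by
    rw [Gamma0_mem]
    simp [s59sat_lower]
  refine ⟨⟨s59sat_lower ((N : ℤ) * m), hmem⟩, ?_⟩
  show SpecialLinearGroup.map (Int.castRingHom (ZMod q)) (s59sat_lower ((N : ℤ) * m)) = _
  rw [s59sat_map_lower]
  congr 1
  rw [map_mul, eq_intCast, eq_intCast, hm, Int.cast_natCast]
  field_simp

/-- **(L)** reduction modulo `q` is surjective on `Γ₀(N)` when `q ∤ N`. -/
theorem s59sat_stmtRedSurj : s59sat_StmtRedSurj := by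
  intro N q hq hqN g
  rw [← MonoidHom.mem_range]
  have key : ∀ h : SL(2, ZMod q), h 1 0 ≠ 0 → h ∈ (s59satRed N q).range := by
    intro h hc
    rw [s59sat_decomp h hc]
    exact mul_mem (mul_mem (s59sat_upper_mem N q _) (s59sat_lower_mem N q hqN _))
      (s59sat_upper_mem N q _)
  by_cases hc : g 1 0 = 0
  · -- multiply by `L(1)`
    have hdet : g 0 0 * g 1 1 - g 0 1 * g 1 0 = 1 := by
      have := g.2
      rwa [Matrix.det_fin_two] at this
    have ha : g 0 0 ≠ 0 := by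
      intro h0
      rw [h0, hc] at hdet
      simp at hdet
    have h1 : (s59sat_lower (1 : ZMod q) * g) 1 0 ≠ 0 := by
      have : (s59sat_lower (1 : ZMod q) * g) 1 0 = g 0 0 + g 1 0 := by
        show ((!![1, 0; 1, 1] : Matrix (Fin 2) (Fin 2) (ZMod q))
          * (g : Matrix (Fin 2) (Fin 2) (ZMod q))) 1 0 = _
        simp [Matrix.mul_apply, Fin.sum_univ_two]
      rw [this, hc, add_zero]
      exact ha
    have h2 := key _ h1
    have h3 : g = (s59sat_lower (1 : ZMod q))⁻¹ * (s59sat_lower (1 : ZMod q) * g) := by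
      rw [inv_mul_cancel_left]
    rw [h3]
    exact mul_mem (inv_mem (s59sat_lower_mem N q hqN 1)) h2
  · exact key g hc

end Fermat.Agent.S59
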