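import Mathlib
import Fermat.Agent.S59.Eta.SatPlan

/-!
# S59 / ETA′ / E-SAT, piece (T): the non-split torus of `SL₂(𝔽_q)`

`s59sat_torus_exists` : for every prime `q` there are `c, w ∈ SL₂(𝔽_q)` with `w c w⁻¹ = c⁻¹` and
`orderOf c = q + 1`.

Construction: `K' = 𝔽_{q²}`, `ρ = Algebra.leftMulMatrix b : K' → M₂(𝔽_q)` (regular representation),
`y = g ^ (q − 1)` for a generator `g` of `K'ˣ` (order `q + 1`, norm `1`), `c = ρ y`;
`S` = matrix of the Frobenius `x ↦ x ^ q`, `w = ρ z · S` with `N z = (det S)⁻¹`.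
-/

set_option autoImplicit false
set_option linter.style.haveILetI false

open Matrix Module
open scoped MatrixGroups

namespace Fermat.Agent.S59

section Abstract

variable {F K : Type*} [Field F] [Field K] [Algebra F K]

/-- the matrix of a ring endomorphism intertwines the regular representation -/
theorem s59sat_toMatrix_mul_leftMul {ι : Type*} [Fintype ι] [DecidableEq ι]
    (b : Basis ι F K) (σ : K →ₐ[F] K) (y : K) :
    LinearMap.toMatrix b b σ.toLinearMap * Algebra.leftMulMatrix b y
      = Algebra.leftMulMatrix b (σ y) * LinearMap.toMatrix b b σ.toLinearMap := by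
  rw [Algebra.leftMulMatrix_apply, Algebra.leftMulMatrix_apply, ← LinearMap.toMatrix_mul,
    ← LinearMap.toMatrix_mul]
  congr 1
  ext x
  simp [Module.End.mul_apply]

/-- the matrix of an injective endomorphism of a finite-dimensional algebra is invertible -/
theorem s59sat_det_toMatrix_ne_zero {ι : Type*} [Fintype ι] [DecidableEq ι]
    (b : Basis ι F K) (σ : K →ₐ[F] K) :
    (LinearMap.toMatrix b b σ.toLinearMap).det ≠ 0 := by
  haveI : FiniteDimensional F K := Module.Finite.of_basis b
  have hinj : Function.Injective σ.toLinearMap := σ.toRingHom.injective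
  rw [LinearMap.det_toMatrix b]
  intro h0
  have hker : LinearMap.ker σ.toLinearMap ≠ ⊥ := by
    intro hk
    have := LinearMap.det_eq_zero_iff_ker_ne_bot.mp h0
    exact this hk
  exact hker (LinearMap.ker_eq_bot.mpr hinj)

end Abstract

/-- **(T)** the non-split torus. -/
theorem s59sat_torus_exists (q : ℕ) [Fact q.Prime] :
    ∃ c w : SL(2, ZMod q), w * c * w⁻¹ = c⁻¹ ∧ orderOf c = q + 1 := by
  have hq : q.Prime := Fact.out
  have hq1 : 1 < q := hq.one_lt
  -- the field with `q²` elements
  let K' := GaloisField q 2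
  haveI : Finite K' := by
    apply Nat.finite_of_card_ne_zero
    rw [GaloisField.card q 2 two_ne_zero]
    exact pow_ne_zero _ hq.ne_zero
  haveI : Fintype K' := Fintype.ofFinite K'
  have hcardK : Nat.card K' = q ^ 2 := GaloisField.card q 2 two_ne_zero
  have hfr : finrank (ZMod q) K' = 2 := GaloisField.finrank q two_ne_zero
  haveI : Module.Finite (ZMod q) K' := Module.finite_of_finrank_pos (by rw [hfr]; norm_num)
  let b : Basis (Fin 2) (ZMod q) K' := Module.finBasisOfFinrankEq (ZMod q) K' hfr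
  -- a generator of `K'ˣ`
  obtain ⟨g, hg⟩ := IsCyclic.exists_generator (α := K'ˣ)
  have hordg : orderOf g = q ^ 2 - 1 := by
    rw [orderOf_eq_card_of_forall_mem_zpowers hg, Nat.card_units, hcardK]
  have hfac : q ^ 2 - 1 = (q - 1) * (q + 1) := by
    have : q ^ 2 = (q - 1) * (q + 1) + 1 := by
      obtain ⟨k, rfl⟩ : ∃ k, q = k + 1 := ⟨q - 1, by omega⟩
      simp only [Nat.add_sub_cancel]
      ring
    omega
  have hq1' : 0 < q - 1 := by omega
  let yu : K'ˣ := g ^ (q - 1)
  have hordyu : orderOf yu = q + 1 := by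
    show orderOf (g ^ (q - 1)) = q + 1
    rw [orderOf_pow, hordg, hfac, Nat.gcd_mul_right_left, Nat.mul_div_cancel_left _ hq1']
  let y : K' := (yu : K')
  have hordy : orderOf y = q + 1 := by
    show orderOf ((yu : K'ˣ) : K') = q + 1
    rw [orderOf_units, hordyu]
  have hy1 : y ^ (q + 1) = 1 := by
    rw [← hordy]; exact pow_orderOf_eq_one y
  have hyq : y ^ q * y = 1 := by rw [← pow_succ]; exact hy1
  -- norms
  have hexp : (Nat.card K' - 1) / (Nat.card (ZMod q) - 1) = q + 1 := by
    rw [hcardK, Nat.card_zmod, hfac, Nat.mul_div_cancel_left _ hq1']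
  have hnorm : ∀ x : K', algebraMap (ZMod q) K' (Algebra.norm (ZMod q) x) = x ^ (q + 1) := by
    intro x
    rw [FiniteField.algebraMap_norm_eq_pow, hexp]
  have hnormy : Algebra.norm (ZMod q) y = 1 := by
    apply (algebraMap (ZMod q) K').injective
    rw [hnorm, hy1, map_one]
  -- the regular representation
  let ρ := Algebra.leftMulMatrix b
  have hρinj : Function.Injective ρ := Algebra.leftMulMatrix_injective b
  have hdetρ : ∀ x : K', (ρ x).det = Algebra.norm (ZMod q) x := fun x =>
    (Algebra.norm_eq_matrix_det b x).symm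
  -- the Frobenius
  let σ : K' →ₐ[ZMod q] K' := FiniteField.frobeniusAlgHom (ZMod q) K'
  have hσ : ∀ x : K', σ x = x ^ q := by
    intro x
    show x ^ Fintype.card (ZMod q) = x ^ q
    rw [ZMod.card]
  let S : Matrix (Fin 2) (Fin 2) (ZMod q) := LinearMap.toMatrix b b σ.toLinearMap
  have hS : (S.det) ≠ 0 := s59sat_det_toMatrix_ne_zero b σ
  have hSρ : ∀ x : K', S * ρ x = ρ (σ x) * S := fun x => s59sat_toMatrix_mul_leftMul b σ x
  obtain ⟨z, hz⟩ := FiniteField.norm_surjective (ZMod q) K' (S.det)⁻¹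
  -- the elements
  have hnormyinv : Algebra.norm (ZMod q) (y ^ q) = 1 := by
    rw [map_pow, hnormy, one_pow]
  let c : SL(2, ZMod q) := ⟨ρ y, by rw [hdetρ, hnormy]⟩
  let c' : SL(2, ZMod q) := ⟨ρ (y ^ q), by rw [hdetρ, hnormyinv]⟩
  let w : SL(2, ZMod q) := ⟨ρ z * S, by
    rw [Matrix.det_mul, hdetρ, hz, inv_mul_cancel₀ hS]⟩
  have hcc' : c * c' = 1 := by
    apply Subtype.ext
    show ρ y * ρ (y ^ q) = 1
    rw [← map_mul, mul_comm, hyq, map_one]
  have hc' : c⁻¹ = c' := inv_eq_of_mul_eq_one_right hcc'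
  have hwc : w * c = c' * w := by
    apply Subtype.ext
    show ρ z * S * ρ y = ρ (y ^ q) * (ρ z * S)
    rw [mul_assoc, hSρ, hσ, ← mul_assoc, ← mul_assoc, ← map_mul, ← map_mul, mul_comm]
  refine ⟨c, w, ?_, ?_⟩
  · rw [hc', hwc, mul_inv_cancel_right]
  · rw [← hordy]
    rw [orderOf_eq_orderOf_iff]
    intro n
    constructor
    · intro h
      have h1 : ((c ^ n : SL(2, ZMod q)) : Matrix (Fin 2) (Fin 2) (ZMod q)) = 1 := by
        rw [h]; rfl
      have h1' : ρ y ^ n = 1 := h1
      have h2 : ρ (y ^ n) = ρ 1 := by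
        rw [map_pow, map_one]; exact h1'
      exact hρinj h2
    · intro h
      apply Subtype.ext
      show ρ y ^ n = 1
      rw [← map_pow, h, map_one]

/-- **(T)**, in the form of `S59/Eta/SatPlan.lean`. -/
theorem s59sat_stmtTorus : s59sat_StmtTorus := fun q _ => s59sat_torus_exists q

end Fermat.Agent.S59
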