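/-
S59 Route A, ETA′, piece E-SAT (helper68) — FINAL: `s59sat_stmtIhara2 : s59sat_StmtIhara2` and
`s59sat_stmtSat : s59sat_StmtSat`.

Proof of (E-SAT).  Let `x, y, z ∈ Hom_par(Γ₀(N), A)` (`p A = 0`, `p` odd, `p ≠ q`) with
`res res x + res res^δ y + res^δ res^δ z = 0` at level `N q²`.  Put `ψ₁ = res x + res^δ y`,
`ψ₂ = res^δ z` (level `N q`).
1. (IHARA2) gives `t : Γ₀(N) → A` with `ψ₁ = res^δ t`, `ψ₂ = − res t` on `{d ≡ 1 mod q}`.
2. `t` is parabolic: for parabolic `g ∈ Γ₀(N)`, `g^(2q) ∈ Γ₀(N q)` is parabolic with `d ≡ 1 mod q`,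
   so `2 q t(g) = − ψ₂(g^(2q)) = 0`.
3. `χ₁ = res x + res^δ (y − t)` and `χ₂ = res t + res^δ z` vanish on `{d ≡ 1 mod q}`, hence are
   Eisenstein at level `N q` (`S41.heckeHom_eq_of_factors`): `D_ℓ' χ_i = 0`.
4. By (C1) `(D_ℓ' x, D_ℓ' (y − t))` and `(D_ℓ' t, D_ℓ' z)` are parabolic pairs in the kernel of
   `res + res^δ`; Ihara's lemma at level `N → N q` (Theorem M for every coefficient group,
   `S41.M.mc_stmtM`) shows that `D_ℓ` kills them.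
-/
import Mathlib
import Fermat.Agent.S59.Eta.SatPar
import Fermat.Agent.S59.Eta.SatIhara2
import Fermat.Agent.S59.Eta.SatTorus
import Fermat.Agent.S59.Eta.SatCard
import Fermat.Agent.S59.Eta.SatRed
import Fermat.Agent.S41.IharaFinal
import Fermat.Agent.S41.M.CFinal
import Fermat.Agent.S41.DegHecke
import Fermat.Agent.S41.Parab
import Fermat.Agent.ES.HeckePPar

set_option autoImplicit false
set_option linter.style.haveILetI false
set_option linter.unusedSectionVars false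

noncomputable section

namespace Fermat.Agent.S59

open CongruenceSubgroup Matrix Fermat.Agent.S41 ModularCurve.Period
open scoped MatrixGroups

/-- **(IHARA2)** is proved. -/
theorem s59sat_stmtIhara2 : s59sat_StmtIhara2 :=
  s59sat_ihara2_of s59sat_stmtTorus s59sat_stmtCard s59sat_stmtRedSurj

section general

variable {A : Type*} [AddCommGroup A]

theorem s59satD_add {M : ℕ} (ℓ : ℕ) [Fact ℓ.Prime] (hℓ : ¬ ℓ ∣ M) (φ ψ : HomG M A) :
    s59satD ℓ hℓ (φ + ψ) = s59satD ℓ hℓ φ + s59satD ℓ hℓ ψ := by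
  unfold s59satD Tc
  rw [Fermat.Agent.ES.HeckeP.heckeHom_add, smul_add]
  abel

theorem s59satD_zero {M : ℕ} (ℓ : ℕ) [Fact ℓ.Prime] (hℓ : ¬ ℓ ∣ M) :
    s59satD ℓ hℓ (0 : HomG M A) = 0 := by
  unfold s59satD Tc
  rw [Fermat.Agent.ES.HeckeP.heckeHom_zero, smul_zero, sub_zero]

theorem s59satD_neg {M : ℕ} (ℓ : ℕ) [Fact ℓ.Prime] (hℓ : ¬ ℓ ∣ M) (φ : HomG M A) :
    s59satD ℓ hℓ (-φ) = - s59satD ℓ hℓ φ := by
  have h := s59satD_add ℓ hℓ φ (-φ)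
  rw [add_neg_cancel, s59satD_zero] at h
  exact (neg_eq_of_add_eq_zero_right h.symm).symm

theorem s59satD_sub {M : ℕ} (ℓ : ℕ) [Fact ℓ.Prime] (hℓ : ¬ ℓ ∣ M) (φ ψ : HomG M A) :
    s59satD ℓ hℓ (φ - ψ) = s59satD ℓ hℓ φ - s59satD ℓ hℓ ψ := by
  rw [sub_eq_add_neg, s59satD_add, s59satD_neg, ← sub_eq_add_neg]

theorem s59satD_mem_Hpar {M : ℕ} (ℓ : ℕ) [Fact ℓ.Prime] (hℓ : ¬ ℓ ∣ M) {φ : HomG M A}
    (hφ : φ ∈ Hpar M A) : s59satD ℓ hℓ φ ∈ Hpar M A := by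
  unfold s59satD Tc
  refine (Hpar M A).sub_mem ?_ ((Hpar M A).nsmul_mem hφ _)
  exact Fermat.Agent.ES.HeckeP.heckeHom_isParabolicHom hℓ hφ

/-- `D_ℓ` commutes with `res` and `res^δ` (C1). -/
theorem s59satD_res {B : Type} [AddCommGroup B] (N q : ℕ) [NeZero N] [NeZero q] (ℓ : ℕ)
    [Fact ℓ.Prime] (hN : ¬ ℓ ∣ N) (hNq : ¬ ℓ ∣ N * q) (φ : HomG N B) :
    res N q B (s59satD ℓ hN φ) = s59satD ℓ hNq (res N q B φ) ∧
      resD N q B (s59satD ℓ hN φ) = s59satD ℓ hNq (resD N q B φ) := by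
  obtain ⟨h1, h2⟩ := ((stmtC1 N q) B ℓ hN hNq).1 φ
  constructor
  · unfold s59satD
    rw [map_sub, map_nsmul, h1]
  · unfold s59satD
    rw [map_sub, map_nsmul, h2]

/-- **Ihara's lemma** at level `N → N q` for every coefficient group: the parabolic kernel of
`res + res^δ` is killed by `D_ℓ` for every prime `ℓ ∤ N`. -/
theorem s59sat_ihara1 (N q : ℕ) [NeZero N] [NeZero q] [Fact q.Prime] (hqN : ¬ q ∣ N)
    (φ₁ φ₂ : HomG N A) (h1 : φ₁ ∈ Hpar N A) (h2 : φ₂ ∈ Hpar N A)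
    (hker : res N q A φ₁ + resD N q A φ₂ = 0)
    (ℓ : ℕ) [Fact ℓ.Prime] (hℓ : ¬ ℓ ∣ N) :
    s59satD ℓ hℓ φ₁ = 0 ∧ s59satD ℓ hℓ φ₂ = 0 := by
  obtain ⟨hφ₁, hφ₂⟩ := factors_of_M N q hqN
    (Fermat.Agent.S41.M.mc_stmtM N q Fact.out hqN A) φ₁ φ₂ h1 h2 hker
  constructor
  · unfold s59satD Tc
    rw [heckeHom_eq_of_factors hℓ φ₁ hφ₁, sub_self]
  · unfold s59satD Tc
    rw [heckeHom_eq_of_factors hℓ φ₂ hφ₂, sub_self]

/-- A class of level `N q` vanishing on `{d ≡ 1 mod q}` is Eisenstein. -/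
theorem s59sat_eis (N q : ℕ) (χ : HomG (N * q) A)
    (hχ : ∀ γ : Gamma0 (N * q), ((((γ : SL(2, ℤ)) 1 1 : ℤ) : ZMod q) = 1) →
      χ (Additive.ofMul γ) = 0)
    (ℓ : ℕ) [Fact ℓ.Prime] (hℓ : ¬ ℓ ∣ N * q) : s59satD ℓ hℓ χ = 0 := by
  unfold s59satD Tc
  rw [heckeHom_eq_of_factors hℓ χ, sub_self]
  intro γ hγ
  apply hχ
  have h : ((((γ : SL(2, ℤ)) 1 1 : ℤ) : ZMod (N * q))) = 1 := hγ
  have h2 := congrArg (ZMod.castHom (dvd_mul_left q N) (ZMod q)) h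
  simpa using h2

end general

/-- **(E-SAT)** is proved. -/
theorem s59sat_stmtSat : s59sat_StmtSat := by
  intro N q p _ _ _ _ hqN hp2 hpq A _ hA x y z hx hy hz hker ℓ ℓ' _ _ hℓ hℓ' hℓq hℓ'q
  have hq : q.Prime := Fact.out
  have hp : p.Prime := Fact.out
  have hℓ'Nq : ¬ ℓ' ∣ N * q := fun h =>
    ((Fact.out : ℓ'.Prime).dvd_mul.mp h).elim hℓ' hℓ'q
  have hker' : res (N * q) q A (res N q A x + resD N q A y) + resD (N * q) q A (resD N q A z)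
      = 0 := by
    rw [map_add]
    exact hker
  obtain ⟨t, ht1, ht2⟩ := s59sat_stmtIhara2 N q p hqN hp2 hpq A hA _ _ hker'
  have hC8 := stmtC8 (N := N) (q := q) A
  -- `t` is parabolic
  have htpar : t ∈ Hpar N A := by
    intro g hg
    obtain ⟨γ, hγ, hγpar, hγd⟩ := s59sat_par_lift N q g hg
    have h2 := ht2 γ hγd
    have hz' : resD N q A z (Additive.ofMul γ) = 0 := (hC8.1 z hz).2 γ hγpar
    rw [hz', res_apply, hγ] at h2
    have h3 : t (Additive.ofMul ((g ^ 2) ^ q)) = (q * 2) • t (Additive.ofMul g) := by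
      rw [ofMul_pow, ofMul_pow, map_nsmul, map_nsmul, mul_smul]
    have hnd : ¬ p ∣ q * 2 := by
      intro h
      rcases hp.dvd_mul.mp h with h | h
      · exact hpq ((Nat.prime_dvd_prime_iff_eq hp hq).mp h)
      · exact hp2 ((Nat.prime_dvd_prime_iff_eq hp Nat.prime_two).mp h)
    obtain ⟨m, hm⟩ := s59sat_exists_inv_smul (A := A) p hA (q * 2) hnd
    have h4 : (q * 2) • t (Additive.ofMul g) = 0 := by
      rw [← h3]
      exact neg_eq_zero.mp h2.symm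
    rw [← hm (t (Additive.ofMul g)), h4, smul_zero]
  -- the two Eisenstein classes
  have hχ₁ : s59satD ℓ' hℓ'Nq (res N q A x + resD N q A (y - t)) = 0 := by
    apply s59sat_eis
    intro γ hd
    have h1 := ht1 γ hd
    rw [map_sub, AddMonoidHom.add_apply, AddMonoidHom.sub_apply, ← h1, AddMonoidHom.add_apply]
    abel
  have hχ₂ : s59satD ℓ' hℓ'Nq (res N q A t + resD N q A z) = 0 := by
    apply s59sat_eis
    intro γ hd
    have h2 := ht2 γ hd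
    rw [AddMonoidHom.add_apply, h2]
    abel
  -- kernels of `res + res^δ`
  have hk₁ : res N q A (s59satD ℓ' hℓ' x) + resD N q A (s59satD ℓ' hℓ' (y - t)) = 0 := by
    rw [(s59satD_res N q ℓ' hℓ' hℓ'Nq x).1, (s59satD_res N q ℓ' hℓ' hℓ'Nq (y - t)).2,
      ← s59satD_add]
    exact hχ₁
  have hk₂ : res N q A (s59satD ℓ' hℓ' t) + resD N q A (s59satD ℓ' hℓ' z) = 0 := by
    rw [(s59satD_res N q ℓ' hℓ' hℓ'Nq t).1, (s59satD_res N q ℓ' hℓ' hℓ'Nq z).2,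
      ← s59satD_add]
    exact hχ₂
  have hI₁ := s59sat_ihara1 N q hqN _ _ (s59satD_mem_Hpar ℓ' hℓ' hx)
    (s59satD_mem_Hpar ℓ' hℓ' ((Hpar N A).sub_mem hy htpar)) hk₁ ℓ hℓ
  have hI₂ := s59sat_ihara1 N q hqN _ _ (s59satD_mem_Hpar ℓ' hℓ' htpar)
    (s59satD_mem_Hpar ℓ' hℓ' hz) hk₂ ℓ hℓ
  refine ⟨hI₁.1, ?_, hI₂.2⟩
  have h5 : y = (y - t) + t := by abel
  rw [h5, s59satD_add, s59satD_add, hI₁.2, hI₂.1, add_zero]

end Fermat.Agent.S59
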