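/-
S59, Route A, ETA′ (sub-captain helper72), piece **E-BC**, part **BC-3** (helper19), final part:
**`hsatE`** of `s59r2f_step_DD` (S59/Eta/PlanR2Full.lean) on the concrete lattices, UNCONDITIONAL.

`L = 𝒪 ⊗[ℤ] Lpar N`, `L' = 𝒪 ⊗[ℤ] Lpar (N q q)`, `ξ_i = (s59bcXiZi N q).baseChange 𝒪`
(S59/Eta/BCLin.lean, helper36), `T_ℓ = (s59bcTcZ N ℓ hℓ).baseChange 𝒪`, `ϖ ∈ 𝒪` with `p ∈ (ϖ)`: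

    `ξ₀ w₀ + ξ₁ w₁ + ξ₂ w₂ = ϖ • y'   ⇒   D_ℓ D_ℓ' w_i ∈ ϖ L`   (`D_ℓ = T_ℓ − (ℓ + 1)`).

Proof: reduce modulo `ϖ` (`s59bcrRed`, S59/Eta/BCRed.lean), apply E-SAT (`s59sat_stmtSat`,
S59/Eta/SatMain.lean, helper32/helper68) to the reductions, and use the kernel of the reduction
(`s59bcrRed_ker_span`).

* `s59bcr_red_smul`  : `red (ϖ • Y) = 0`;
* `s59bcr_red_xi0/1/2`, `s59bcr_red_tc`, `s59bcrD`, `s59bcr_red_D` : compatibilities;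
* **`s59bcr_hsatE`** : `hsatE`, for any family `t` with `t i₁ = T_ℓ`, `t i₂ = T_ℓ'`;
* **`s59bcr_hsatE'`** : the same for the operators themselves.
-/
import Fermat.Agent.S59.Eta.BCRed
import Fermat.Agent.S59.Eta.BCLin
import Fermat.Agent.S59.Eta.SatMain
import Fermat.Agent.S59.Eta.PlanR2Full

set_option autoImplicit false
set_option linter.unusedSectionVars false
set_option linter.unusedVariables false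
set_option linter.style.haveILetI false

noncomputable section

namespace Fermat.Agent.S59

open TensorProduct CongruenceSubgroup Fermat.Agent.S41
open ModularCurve.Period (IsParabolicHom parabolicHoms mem_parabolicHoms_iff)

section Compat

variable (𝒪 : Type) [CommRing 𝒪] (I : Ideal 𝒪)

/-- `ϖ` kills the reduction modulo `ϖ` -/
theorem s59bcr_red_smul (M : ℕ) (ϖ : 𝒪) (Y : 𝒪 ⊗[ℤ] ↥(Lpar M)) :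
    s59bcrRed M 𝒪 (Ideal.span {ϖ}) (ϖ • Y) = 0 := by
  rw [map_smul]
  refine AddMonoidHom.ext fun g => ?_
  have h0 : Ideal.Quotient.mk (Ideal.span {ϖ}) ϖ = 0 :=
    Ideal.Quotient.eq_zero_iff_mem.2 (Ideal.mem_span_singleton_self ϖ)
  rw [AddMonoidHom.smul_apply, Algebra.smul_def, Ideal.Quotient.algebraMap_eq, h0, zero_mul]
  rfl

variable (N q : ℕ) [NeZero N] [NeZero q]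

theorem s59bcr_red_xi0 (X : 𝒪 ⊗[ℤ] ↥(Lpar N)) :
    s59bcrRed (N * q * q) 𝒪 I ((s59bcXiZ0 N q).baseChange 𝒪 X) =
      res (N * q) q (𝒪 ⧸ I) (res N q (𝒪 ⧸ I) (s59bcrRed N 𝒪 I X)) :=
  s59bcrRed_natural 𝒪 I (s59bcXiZ0 N q) (s59eadjB1 N q ℤ) (s59eadjB1 N q (𝒪 ⧸ I))
    (fun x => rfl) (fun f φ => rfl) X

theorem s59bcr_red_xi1 (X : 𝒪 ⊗[ℤ] ↥(Lpar N)) :
    s59bcrRed (N * q * q) 𝒪 I ((s59bcXiZ1 N q).baseChange 𝒪 X) =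
      res (N * q) q (𝒪 ⧸ I) (resD N q (𝒪 ⧸ I) (s59bcrRed N 𝒪 I X)) :=
  s59bcrRed_natural 𝒪 I (s59bcXiZ1 N q) (s59eadjBq N q ℤ) (s59eadjBq N q (𝒪 ⧸ I))
    (fun x => rfl) (fun f φ => rfl) X

theorem s59bcr_red_xi2 (X : 𝒪 ⊗[ℤ] ↥(Lpar N)) :
    s59bcrRed (N * q * q) 𝒪 I ((s59bcXiZ2 N q).baseChange 𝒪 X) =
      resD (N * q) q (𝒪 ⧸ I) (resD N q (𝒪 ⧸ I) (s59bcrRed N 𝒪 I X)) :=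
  s59bcrRed_natural 𝒪 I (s59bcXiZ2 N q) (s59eadjBqq N q ℤ) (s59eadjBqq N q (𝒪 ⧸ I))
    (fun x => rfl) (fun f φ => rfl) X

variable (ℓ : ℕ) [Fact ℓ.Prime] (hℓ : ¬ ℓ ∣ N)

theorem s59bcr_red_tc (X : 𝒪 ⊗[ℤ] ↥(Lpar N)) :
    s59bcrRed N 𝒪 I ((s59bcTcZ N ℓ hℓ).baseChange 𝒪 X) = Tc ℓ hℓ (s59bcrRed N 𝒪 I X) :=
  s59bcrRed_natural 𝒪 I (s59bcTcZ N ℓ hℓ) (Tc ℓ hℓ)
    (AddMonoidHom.mk' (Tc ℓ hℓ) (fun φ ψ => Fermat.Agent.ES.HeckeP.heckeHom_add hℓ φ ψ))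
    (fun x => rfl) (fun f φ => Fermat.Agent.ES.HeckeP.heckeHom_comp hℓ f φ) X

/-- `D_ℓ = T_ℓ − (ℓ + 1)` on `𝒪 ⊗ Lpar N` -/
def s59bcrD : (𝒪 ⊗[ℤ] ↥(Lpar N)) →ₗ[𝒪] (𝒪 ⊗[ℤ] ↥(Lpar N)) :=
  (s59bcTcZ N ℓ hℓ).baseChange 𝒪 - ((ℓ : 𝒪) + 1) • LinearMap.id

/-- the reduction of `D_ℓ = T_ℓ − (ℓ + 1)` -/
theorem s59bcr_red_D (X : 𝒪 ⊗[ℤ] ↥(Lpar N)) :
    s59bcrRed N 𝒪 I (s59bcrD 𝒪 N ℓ hℓ X) = s59satD ℓ hℓ (s59bcrRed N 𝒪 I X) := by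
  unfold s59bcrD
  rw [LinearMap.sub_apply, LinearMap.smul_apply, LinearMap.id_apply, map_sub, map_smul,
    s59bcr_red_tc]
  unfold s59satD
  congr 1
  have e : ((ℓ : 𝒪) + 1) = ((ℓ + 1 : ℕ) : 𝒪) := by push_cast; rfl
  rw [e, Nat.cast_smul_eq_nsmul]

end Compat

section Main

variable (N q p : ℕ) [NeZero N] [NeZero q] [Fact q.Prime] [Fact p.Prime]
  (𝒪 : Type) [CommRing 𝒪] (ϖ : 𝒪)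

/-- **`hsatE`, operator form.** -/
theorem s59bcr_hsatE' (hqN : ¬ q ∣ N) (hp2 : p ≠ 2) (hpq : p ≠ q)
    (hp : (p : 𝒪) ∈ Ideal.span {ϖ})
    (ℓ ℓ' : ℕ) [Fact ℓ.Prime] [Fact ℓ'.Prime] (hℓ : ¬ ℓ ∣ N) (hℓ' : ¬ ℓ' ∣ N)
    (hℓq : ¬ ℓ ∣ q) (hℓ'q : ¬ ℓ' ∣ q)
    (w₀ w₁ w₂ : 𝒪 ⊗[ℤ] ↥(Lpar N)) (y' : 𝒪 ⊗[ℤ] ↥(Lpar (N * q * q)))
    (h : (s59bcXiZ0 N q).baseChange 𝒪 w₀ + (s59bcXiZ1 N q).baseChange 𝒪 w₁ +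
      (s59bcXiZ2 N q).baseChange 𝒪 w₂ = ϖ • y') :
    ∃ v₀ v₁ v₂ : 𝒪 ⊗[ℤ] ↥(Lpar N),
      s59bcrD 𝒪 N ℓ hℓ (s59bcrD 𝒪 N ℓ' hℓ' w₀) = ϖ • v₀ ∧
      s59bcrD 𝒪 N ℓ hℓ (s59bcrD 𝒪 N ℓ' hℓ' w₁) = ϖ • v₁ ∧
      s59bcrD 𝒪 N ℓ hℓ (s59bcrD 𝒪 N ℓ' hℓ' w₂) = ϖ • v₂ := by
  -- the coefficient group
  have hA : ∀ a : 𝒪 ⧸ Ideal.span {ϖ}, p • a = 0 := by
    intro a
    have h0 : ((p : ℕ) : 𝒪 ⧸ Ideal.span {ϖ}) = 0 := by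
      have h1 := Ideal.Quotient.eq_zero_iff_mem.2 hp
      rwa [map_natCast] at h1
    rw [nsmul_eq_mul, h0, zero_mul]
  -- reduce the relation
  have hred := congrArg (s59bcrRed (N * q * q) 𝒪 (Ideal.span {ϖ})) h
  rw [s59bcr_red_smul, map_add, map_add, s59bcr_red_xi0, s59bcr_red_xi1, s59bcr_red_xi2] at hred
  -- E-SAT
  obtain ⟨e₀, e₁, e₂⟩ := s59sat_stmtSat N q p hqN hp2 hpq (𝒪 ⧸ Ideal.span {ϖ}) hA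
    (s59bcrRed N 𝒪 (Ideal.span {ϖ}) w₀) (s59bcrRed N 𝒪 (Ideal.span {ϖ}) w₁)
    (s59bcrRed N 𝒪 (Ideal.span {ϖ}) w₂)
    (s59bcrRed_mem_Hpar 𝒪 _ w₀) (s59bcrRed_mem_Hpar 𝒪 _ w₁) (s59bcrRed_mem_Hpar 𝒪 _ w₂)
    hred ℓ ℓ' hℓ hℓ' hℓq hℓ'q
  -- back to the lattice
  have key : ∀ w : 𝒪 ⊗[ℤ] ↥(Lpar N),
      s59satD ℓ hℓ (s59satD ℓ' hℓ' (s59bcrRed N 𝒪 (Ideal.span {ϖ}) w)) = 0 →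
      ∃ v : 𝒪 ⊗[ℤ] ↥(Lpar N), s59bcrD 𝒪 N ℓ hℓ (s59bcrD 𝒪 N ℓ' hℓ' w) = ϖ • v := by
    intro w hw
    apply s59bcrRed_ker_span N 𝒪 p ϖ hp
    rw [s59bcr_red_D, s59bcr_red_D, hw]
  obtain ⟨v₀, hv₀⟩ := key w₀ e₀
  obtain ⟨v₁, hv₁⟩ := key w₁ e₁
  obtain ⟨v₂, hv₂⟩ := key w₂ e₂
  exact ⟨v₀, v₁, v₂, hv₀, hv₁, hv₂⟩

/-- **`hsatE`** in the literal shape of `s59r2f_step_DD` (S59/Eta/PlanR2Full.lean), for any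
family `t` with `t i₁ = T_ℓ`, `t i₂ = T_ℓ'`, `c₁ = ℓ + 1`, `c₂ = ℓ' + 1`. -/
theorem s59bcr_hsatE (hqN : ¬ q ∣ N) (hp2 : p ≠ 2) (hpq : p ≠ q)
    (hp : (p : 𝒪) ∈ Ideal.span {ϖ})
    (ℓ ℓ' : ℕ) [Fact ℓ.Prime] [Fact ℓ'.Prime] (hℓ : ¬ ℓ ∣ N) (hℓ' : ¬ ℓ' ∣ N)
    (hℓq : ¬ ℓ ∣ q) (hℓ'q : ¬ ℓ' ∣ q)
    {ι : Type} (t : ι → (𝒪 ⊗[ℤ] ↥(Lpar N)) →ₗ[𝒪] (𝒪 ⊗[ℤ] ↥(Lpar N))) (i₁ i₂ : ι)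
    (ht₁ : t i₁ = (s59bcTcZ N ℓ hℓ).baseChange 𝒪)
    (ht₂ : t i₂ = (s59bcTcZ N ℓ' hℓ').baseChange 𝒪) :
    ∀ (w₀ w₁ w₂ : 𝒪 ⊗[ℤ] ↥(Lpar N)) (y' : 𝒪 ⊗[ℤ] ↥(Lpar (N * q * q))),
      (s59bcXiZ0 N q).baseChange 𝒪 w₀ + (s59bcXiZ1 N q).baseChange 𝒪 w₁ +
        (s59bcXiZ2 N q).baseChange 𝒪 w₂ = ϖ • y' →
      ∃ v₀ v₁ v₂ : 𝒪 ⊗[ℤ] ↥(Lpar N),
        s59r2fDD t i₁ i₂ ((ℓ : 𝒪) + 1) ((ℓ' : 𝒪) + 1) w₀ = ϖ • v₀ ∧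
        s59r2fDD t i₁ i₂ ((ℓ : 𝒪) + 1) ((ℓ' : 𝒪) + 1) w₁ = ϖ • v₁ ∧
        s59r2fDD t i₁ i₂ ((ℓ : 𝒪) + 1) ((ℓ' : 𝒪) + 1) w₂ = ϖ • v₂ := by
  intro w₀ w₁ w₂ y' h
  have hDD : ∀ w, s59r2fDD t i₁ i₂ ((ℓ : 𝒪) + 1) ((ℓ' : 𝒪) + 1) w =
      s59bcrD 𝒪 N ℓ hℓ (s59bcrD 𝒪 N ℓ' hℓ' w) := by
    intro w
    unfold s59r2fDD s59bcrD
    rw [ht₁, ht₂]
    rfl
  simp only [hDD]
  exact s59bcr_hsatE' N q p 𝒪 ϖ hqN hp2 hpq hp ℓ ℓ' hℓ hℓ' hℓq hℓ'q w₀ w₁ w₂ y' h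

end Main

end Fermat.Agent.S59

end
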