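import Mathlib
import Fermat.Agent.S59.Eta.Gram
import Fermat.Agent.S59.Eta.BCAbs
import Fermat.Agent.S59.Eta.Abs

/-!
# S59 ETA′, piece **E-GRAM** (helper80): base change `ℤ → 𝒪` of the Gram identity

`𝒪` any commutative ring, `L_𝒪(M) = 𝒪 ⊗[ℤ] Lpar M`, `B_𝒪 = s59bcForm 𝒪 (s59gramB M)` (helper12),
`ξ_i,𝒪 = (s59gramXi_i N q).baseChange 𝒪`, `T_𝒪 = (s59gramT N q).baseChange 𝒪`.

* `s59gram_bc_bilin` : base change of a bilinear identity `B' (f x) (g w) = B (c x) w`;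
* `s59gram_hdep_bc`  : the hypothesis `hdep` of `s59eta_step_abs` over `𝒪`, literal shape;
* `s59gram_step_bc`  : `s59eta_step_abs` with `hdep` discharged:
  `B'(x', E') ≤ ((q − 1)(a² − (q + 1)²)) · B(x, E)`.
-/

set_option autoImplicit false
set_option linter.style.haveILetI false
set_option linter.unusedSectionVars false
set_option linter.unusedSimpArgs false
set_option linter.unusedVariables false

noncomputable section

namespace Fermat.Agent.S59

open TensorProduct Fermat.Agent.S41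

section bilin

variable {L L' : Type*} [AddCommGroup L] [AddCommGroup L'] (𝒪 : Type*) [CommRing 𝒪]

/-- **Base change of a bilinear identity** `B' (f x) (g w) = B (c x) w`. -/
theorem s59gram_bc_bilin (B : L →ₗ[ℤ] L →ₗ[ℤ] ℤ) (B' : L' →ₗ[ℤ] L' →ₗ[ℤ] ℤ)
    (f g : L →ₗ[ℤ] L') (c : L →ₗ[ℤ] L) (h : ∀ x w, B' (f x) (g w) = B (c x) w)
    (X W : 𝒪 ⊗[ℤ] L) :
    s59bcForm 𝒪 B' (f.baseChange 𝒪 X) (g.baseChange 𝒪 W) =
      s59bcForm 𝒪 B (c.baseChange 𝒪 X) W := by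
  induction X using TensorProduct.induction_on with
  | zero => simp
  | add X₁ X₂ h₁ h₂ =>
    rw [map_add, map_add, LinearMap.add_apply, map_add, map_add, LinearMap.add_apply, h₁, h₂]
  | tmul a x =>
    induction W using TensorProduct.induction_on with
    | zero => simp
    | add W₁ W₂ h₁ h₂ => rw [map_add, map_add, map_add, h₁, h₂]
    | tmul b w =>
      rw [LinearMap.baseChange_tmul, LinearMap.baseChange_tmul, LinearMap.baseChange_tmul,
        s59bcForm_tmul, s59bcForm_tmul, h]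

end bilin

section main

variable (𝒪 : Type*) [CommRing 𝒪] (N q : ℕ) [NeZero N] [NeZero q] [hq : Fact q.Prime]

/-- the depleted operator `D = q ξ₀ − ξ₁ T_q + ξ₂` over `ℤ` -/
def s59gramD : Lpar N →ₗ[ℤ] Lpar (N * q * q) :=
  (q : ℤ) • s59gramXi0 N q - (s59gramXi1 N q) ∘ₗ (s59gramT N q) + s59gramXi2 N q

/-- the operator `C = (q − 1) ((q + 1)² − T_q²)` over `ℤ` -/
def s59gramC : Lpar N →ₗ[ℤ] Lpar N :=
  ((q : ℤ) - 1) • (((q : ℤ) + 1) ^ 2 • LinearMap.id - (s59gramT N q) ∘ₗ (s59gramT N q))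

theorem s59gramD_apply (x : Lpar N) :
    s59gramD N q x =
      (q : ℤ) • s59gramXi0 N q x - s59gramXi1 N q (s59gramT N q x) + s59gramXi2 N q x := rfl

theorem s59gramC_apply (x : Lpar N) :
    s59gramC N q x =
      ((q : ℤ) - 1) • (((q : ℤ) + 1) ^ 2 • x - s59gramT N q (s59gramT N q x)) := rfl

theorem s59gramD_baseChange (X : 𝒪 ⊗[ℤ] Lpar N) :
    (s59gramD N q).baseChange 𝒪 X =
      (q : 𝒪) • (s59gramXi0 N q).baseChange 𝒪 X
        - (s59gramXi1 N q).baseChange 𝒪 ((s59gramT N q).baseChange 𝒪 X)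
        + (s59gramXi2 N q).baseChange 𝒪 X := by
  unfold s59gramD
  rw [LinearMap.baseChange_add, LinearMap.baseChange_sub, LinearMap.baseChange_smul,
    LinearMap.baseChange_comp]
  simp only [LinearMap.add_apply, LinearMap.sub_apply, LinearMap.smul_apply,
    LinearMap.comp_apply]
  rw [← Int.cast_smul_eq_zsmul 𝒪, Int.cast_natCast]

theorem s59gramC_baseChange (X : 𝒪 ⊗[ℤ] Lpar N) :
    (s59gramC N q).baseChange 𝒪 X =
      ((q : 𝒪) - 1) • (((q : 𝒪) + 1) ^ 2 • X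
        - (s59gramT N q).baseChange 𝒪 ((s59gramT N q).baseChange 𝒪 X)) := by
  unfold s59gramC
  rw [LinearMap.baseChange_smul, LinearMap.baseChange_sub, LinearMap.baseChange_smul,
    LinearMap.baseChange_comp, LinearMap.baseChange_id]
  simp only [LinearMap.sub_apply, LinearMap.smul_apply, LinearMap.comp_apply,
    LinearMap.id_apply]
  rw [← Int.cast_smul_eq_zsmul 𝒪, ← Int.cast_smul_eq_zsmul 𝒪 (((q : ℤ) + 1) ^ 2)]
  push_cast
  rfl

/-- `[D x, ξ₀ w] = [C x, w]` over `ℤ` -/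
theorem s59gram_D_xi0 (hqN : ¬ q ∣ N) (x w : Lpar N) :
    s59gramB (N * q * q) (s59gramD N q x) (s59gramXi0 N q w) = s59gramB N (s59gramC N q x) w := by
  have h := s59gram_hdep N q hqN x w 0 0
  rw [map_zero, map_zero, add_zero, add_zero] at h
  exact h

/-- `[D x, ξ₁ w] = 0` over `ℤ` -/
theorem s59gram_D_xi1 (hqN : ¬ q ∣ N) (x w : Lpar N) :
    s59gramB (N * q * q) (s59gramD N q x) (s59gramXi1 N q w) = 0 := by
  have h := s59gram_hdep N q hqN x 0 w 0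
  rw [map_zero, map_zero, add_zero, zero_add, map_zero] at h
  exact h

/-- `[D x, ξ₂ w] = 0` over `ℤ` -/
theorem s59gram_D_xi2 (hqN : ¬ q ∣ N) (x w : Lpar N) :
    s59gramB (N * q * q) (s59gramD N q x) (s59gramXi2 N q w) = 0 := by
  have h := s59gram_hdep N q hqN x 0 0 w
  rw [map_zero, map_zero, zero_add, zero_add, map_zero] at h
  exact h

/-- **(E-GRAM over `𝒪`)** the hypothesis `hdep` of `s59eta_step_abs` for the base change to any
commutative ring `𝒪`, literal shape. -/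
theorem s59gram_hdep_bc (hqN : ¬ q ∣ N) : ∀ x w₀ w₁ w₂ : 𝒪 ⊗[ℤ] Lpar N,
    s59bcForm 𝒪 (s59gramB (N * q * q))
        ((q : 𝒪) • (s59gramXi0 N q).baseChange 𝒪 x
          - (s59gramXi1 N q).baseChange 𝒪 ((s59gramT N q).baseChange 𝒪 x)
          + (s59gramXi2 N q).baseChange 𝒪 x)
        ((s59gramXi0 N q).baseChange 𝒪 w₀ + (s59gramXi1 N q).baseChange 𝒪 w₁
          + (s59gramXi2 N q).baseChange 𝒪 w₂) =
      s59bcForm 𝒪 (s59gramB N)
        (((q : 𝒪) - 1) • (((q : 𝒪) + 1) ^ 2 • x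
          - (s59gramT N q).baseChange 𝒪 ((s59gramT N q).baseChange 𝒪 x))) w₀ := by
  intro x w₀ w₁ w₂
  rw [← s59gramD_baseChange, ← s59gramC_baseChange, map_add, map_add,
    s59gram_bc_bilin 𝒪 (s59gramB N) (s59gramB (N * q * q)) (s59gramD N q) (s59gramXi0 N q)
      (s59gramC N q) (s59gram_D_xi0 N q hqN),
    s59gram_bc_bilin 𝒪 (s59gramB N) (s59gramB (N * q * q)) (s59gramD N q) (s59gramXi1 N q)
      0 (fun x w => by rw [s59gram_D_xi1 N q hqN]; simp),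
    s59gram_bc_bilin 𝒪 (s59gramB N) (s59gramB (N * q * q)) (s59gramD N q) (s59gramXi2 N q)
      0 (fun x w => by rw [s59gram_D_xi2 N q hqN]; simp)]
  simp

end main

section step

variable (𝒪 : Type) [CommRing 𝒪] (N q : ℕ) [NeZero N] [NeZero q] [hq : Fact q.Prime]

/-- **(ETA′ step with the Gram identity discharged)** over the full base-changed lattices. -/
theorem s59gram_step_bc (hqN : ¬ q ∣ N) (a : 𝒪)
    (E : Submodule 𝒪 (𝒪 ⊗[ℤ] Lpar N)) (E' : Submodule 𝒪 (𝒪 ⊗[ℤ] Lpar (N * q * q)))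
    (hE : ∀ y ∈ E, (s59gramT N q).baseChange 𝒪 y = a • y)
    (hmult : ∀ y' ∈ E', ∃ w₀ ∈ E, ∃ w₁ ∈ E, ∃ w₂ ∈ E,
      y' = (s59gramXi0 N q).baseChange 𝒪 w₀ + (s59gramXi1 N q).baseChange 𝒪 w₁
        + (s59gramXi2 N q).baseChange 𝒪 w₂)
    (x : 𝒪 ⊗[ℤ] Lpar N) (hx : x ∈ E) :
    s59eta_J (s59bcForm 𝒪 (s59gramB (N * q * q))) E'
        ((q : 𝒪) • (s59gramXi0 N q).baseChange 𝒪 x - a • (s59gramXi1 N q).baseChange 𝒪 x
          + (s59gramXi2 N q).baseChange 𝒪 x) ≤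
      Ideal.span {((q : 𝒪) - 1) * (a ^ 2 - ((q : 𝒪) + 1) ^ 2)} *
        s59eta_J (s59bcForm 𝒪 (s59gramB N)) E x :=
  s59eta_step_abs (s59bcForm 𝒪 (s59gramB N)) (s59bcForm 𝒪 (s59gramB (N * q * q)))
    ((s59gramXi0 N q).baseChange 𝒪) ((s59gramXi1 N q).baseChange 𝒪)
    ((s59gramXi2 N q).baseChange 𝒪) ((s59gramT N q).baseChange 𝒪) (q : 𝒪) a
    (s59gram_hdep_bc 𝒪 N q hqN) E E' hE hmult x hx

end step

end Fermat.Agent.S59
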