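/-
S59 Route A, ETA′ (deputy helper72), piece **E-GRAM** (helper80), abstract part 2 (Mathlib only):
the OPERATOR Gram matrix and the injectivity of `ξ`.

Setting of `GramAbs.lean`: modules `L₀, L₁, L₂` over a commutative ring `R` with bilinear forms,
degeneracy maps `r₁, d₁ : L₀ → L₁`, `r₂, d₂ : L₁ → L₂`, adjoints `c₁, e₁, c₂, e₂`, `T = T_q`.
With `ξ₀ = r₂ r₁`, `ξ₁ = r₂ d₁ = d₂ r₁`, `ξ₂ = d₂ d₁` and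
`ξ₀† = c₁ c₂`, `ξ₁† = e₁ c₂`, `ξ₂† = e₁ e₂`:

* `s59gram_abs_op00 … op22` : `ξ_i† ξ_j = G_ij(T)`,
  `G = [[q(q+1), qT, T²−(q+1)], [qT, q(q+1), qT], [T²−(q+1), qT, q(q+1)]]`
  (`op02`, `op12` use the non-degeneracy of `B₀`);
* `s59gram_abs_elim` : the linear system `G(T) w = 0` has only the trivial solution when
  `T² − (q+1)²` is injective and `q`, `q − 1`, `q + 1` are non-zero-divisors on `L₀`;
* `s59gram_abs_inj`  : `ξ₀ w₀ + ξ₁ w₁ + ξ₂ w₂ = 0 ⇒ w₀ = w₁ = w₂ = 0`.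
-/
import Mathlib

set_option autoImplicit false
set_option linter.unusedSectionVars false
set_option linter.unusedVariables false

namespace Fermat.Agent.S59

section GramOpAbs

variable {R : Type*} [CommRing R] {L₀ L₁ L₂ : Type*}
  [AddCommGroup L₀] [Module R L₀] [AddCommGroup L₁] [Module R L₁] [AddCommGroup L₂] [Module R L₂]
  (B₀ : L₀ →ₗ[R] L₀ →ₗ[R] R) (B₁ : L₁ →ₗ[R] L₁ →ₗ[R] R) (B₂ : L₂ →ₗ[R] L₂ →ₗ[R] R)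
  (r₁ d₁ : L₀ →ₗ[R] L₁) (r₂ d₂ : L₁ →ₗ[R] L₂)
  (c₁ e₁ : L₁ →ₗ[R] L₀) (c₂ e₂ : L₂ →ₗ[R] L₁) (T : L₀ →ₗ[R] L₀) (q : R)

/-! ### the seven direct entries -/

theorem s59gram_abs_op00 (hcr₁ : ∀ x, c₁ (r₁ x) = (q + 1) • x) (hcr₂ : ∀ u, c₂ (r₂ u) = q • u)
    (x : L₀) : c₁ (c₂ (r₂ (r₁ x))) = (q * (q + 1)) • x := by
  rw [hcr₂, map_smul, hcr₁, smul_smul]

theorem s59gram_abs_op01 (hcd₁ : ∀ x, c₁ (d₁ x) = T x) (hcr₂ : ∀ u, c₂ (r₂ u) = q • u)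
    (x : L₀) : c₁ (c₂ (r₂ (d₁ x))) = q • T x := by
  rw [hcr₂, map_smul, hcd₁]

theorem s59gram_abs_op10 (her₁ : ∀ x, e₁ (r₁ x) = T x) (hcr₂ : ∀ u, c₂ (r₂ u) = q • u)
    (x : L₀) : e₁ (c₂ (r₂ (r₁ x))) = q • T x := by
  rw [hcr₂, map_smul, her₁]

theorem s59gram_abs_op11 (hed₁ : ∀ x, e₁ (d₁ x) = (q + 1) • x) (hcr₂ : ∀ u, c₂ (r₂ u) = q • u)
    (x : L₀) : e₁ (c₂ (r₂ (d₁ x))) = (q * (q + 1)) • x := by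
  rw [hcr₂, map_smul, hed₁, smul_smul]

theorem s59gram_abs_op20 (her₁ : ∀ x, e₁ (r₁ x) = T x) (hed₁ : ∀ x, e₁ (d₁ x) = (q + 1) • x)
    (hcorner : ∀ x, e₂ (r₂ (r₁ x)) = r₁ (T x) - d₁ x) (x : L₀) :
    e₁ (e₂ (r₂ (r₁ x))) = T (T x) - (q + 1) • x := by
  rw [hcorner, map_sub, her₁, hed₁]

theorem s59gram_abs_op21 (her₁ : ∀ x, e₁ (r₁ x) = T x) (hdr : ∀ x, d₂ (r₁ x) = r₂ (d₁ x))
    (hed₂ : ∀ u, e₂ (d₂ u) = q • u) (x : L₀) : e₁ (e₂ (r₂ (d₁ x))) = q • T x := by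
  rw [← hdr, hed₂, map_smul, her₁]

theorem s59gram_abs_op22 (hed₁ : ∀ x, e₁ (d₁ x) = (q + 1) • x) (hed₂ : ∀ u, e₂ (d₂ u) = q • u)
    (x : L₀) : e₁ (e₂ (d₂ (d₁ x))) = (q * (q + 1)) • x := by
  rw [hed₂, map_smul, hed₁, smul_smul]

/-! ### the two entries which need the non-degeneracy of `B₀` -/

theorem s59gram_abs_op02
    (hnd : ∀ y y' : L₀, (∀ w, B₀ w y = B₀ w y') → y = y')
    (hadjl₁ : ∀ x u, B₁ (r₁ x) u = B₀ x (c₁ u))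
    (hadjl₂ : ∀ u y, B₂ (r₂ u) y = B₁ u (c₂ y))
    (hadjD₁ : ∀ u x, B₁ u (d₁ x) = B₀ (e₁ u) x)
    (hadjD₂ : ∀ w u, B₂ w (d₂ u) = B₁ (e₂ w) u)
    (her₁ : ∀ x, e₁ (r₁ x) = T x)
    (hed₁ : ∀ x, e₁ (d₁ x) = (q + 1) • x)
    (hcorner : ∀ x, e₂ (r₂ (r₁ x)) = r₁ (T x) - d₁ x)
    (hT : ∀ x y, B₀ (T x) y = B₀ x (T y)) (x : L₀) :
    c₁ (c₂ (d₂ (d₁ x))) = T (T x) - (q + 1) • x := by
  apply hnd
  intro w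
  rw [← hadjl₁, ← hadjl₂, hadjD₂, hcorner, map_sub, LinearMap.sub_apply, hadjD₁, hadjD₁, her₁,
    hed₁, hT, hT, map_sub, map_smul, map_smul, LinearMap.smul_apply]

theorem s59gram_abs_op12
    (hnd : ∀ y y' : L₀, (∀ w, B₀ w y = B₀ w y') → y = y')
    (hadjl₂ : ∀ u y, B₂ (r₂ u) y = B₁ u (c₂ y))
    (hadjD₁ : ∀ u x, B₁ u (d₁ x) = B₀ (e₁ u) x)
    (hadjDl₁ : ∀ x u, B₁ (d₁ x) u = B₀ x (e₁ u))
    (hadjDl₂ : ∀ u w, B₂ (d₂ u) w = B₁ u (e₂ w))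
    (hdr : ∀ x, d₂ (r₁ x) = r₂ (d₁ x))
    (her₁ : ∀ x, e₁ (r₁ x) = T x)
    (hed₂ : ∀ u, e₂ (d₂ u) = q • u)
    (hT : ∀ x y, B₀ (T x) y = B₀ x (T y)) (x : L₀) :
    e₁ (c₂ (d₂ (d₁ x))) = q • T x := by
  apply hnd
  intro w
  rw [← hadjDl₁, ← hadjl₂, ← hdr, hadjDl₂, hed₂, map_smul, hadjD₁, her₁, hT, map_smul]

/-- `c₁ e₂ = e₁ c₂`: the two descriptions of `ξ₁†` agree -/
theorem s59gram_abs_xi1T
    (hnd : ∀ y y' : L₀, (∀ w, B₀ w y = B₀ w y') → y = y')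
    (hadjl₁ : ∀ x u, B₁ (r₁ x) u = B₀ x (c₁ u))
    (hadjl₂ : ∀ u y, B₂ (r₂ u) y = B₁ u (c₂ y))
    (hadjDl₁ : ∀ x u, B₁ (d₁ x) u = B₀ x (e₁ u))
    (hadjDl₂ : ∀ u w, B₂ (d₂ u) w = B₁ u (e₂ w))
    (hdr : ∀ x, d₂ (r₁ x) = r₂ (d₁ x)) (y : L₂) :
    c₁ (e₂ y) = e₁ (c₂ y) := by
  apply hnd
  intro w
  rw [← hadjl₁, ← hadjDl₂, hdr, hadjl₂, hadjDl₁]

/-! ### the linear system `G(T) w = 0` -/

/-- **Elimination.**  If `T² − (q+1)²` is injective on `L₀` and `q`, `q − 1`, `q + 1` are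
non-zero-divisors on `L₀`, the system `G(T) (w₀, w₁, w₂) = 0` has only the trivial solution. -/
theorem s59gram_abs_elim
    (hq : ∀ y : L₀, q • y = 0 → y = 0)
    (hq1 : ∀ y : L₀, (q - 1) • y = 0 → y = 0)
    (hq2 : ∀ y : L₀, (q + 1) • y = 0 → y = 0)
    (hpet : ∀ y : L₀, T (T y) = (q + 1) ^ 2 • y → y = 0)
    (w₀ w₁ w₂ : L₀)
    (h0 : (q * (q + 1)) • w₀ + q • T w₁ + (T (T w₂) - (q + 1) • w₂) = 0)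
    (h1 : q • T w₀ + (q * (q + 1)) • w₁ + q • T w₂ = 0)
    (h2 : (T (T w₀) - (q + 1) • w₀) + q • T w₁ + (q * (q + 1)) • w₂ = 0) :
    w₀ = 0 ∧ w₁ = 0 ∧ w₂ = 0 := by
  -- `w₀ = w₂`
  have e02 : w₀ - w₂ = 0 := by
    apply hpet
    rw [map_sub, map_sub]
    have h := congrArg₂ (· - ·) h0 h2
    simp only [sub_zero] at h
    have h' : T (T w₀) - T (T w₂) - (q + 1) ^ 2 • (w₀ - w₂) = 0 := by
      rw [← neg_eq_zero, ← h]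
      module
    exact sub_eq_zero.mp h'
  have e02' : w₂ = w₀ := (sub_eq_zero.mp e02).symm
  subst e02'
  -- `(q + 1) w₁ = − 2 T w₀`
  have e1 : (q + 1) • w₁ + (2 : R) • T w₂ = 0 := by
    apply hq
    rw [← h1]
    module
  -- `(q − 1) ((q + 1)² − T²) w₀ = 0`
  have e0 : T (T w₂) = (q + 1) ^ 2 • w₂ := by
    have hT1 : (q + 1) • T w₁ + (2 : R) • T (T w₂) = 0 := by
      have := congrArg T e1
      rw [map_add, map_smul, map_smul, map_zero] at this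
      exact this
    have h3 : (q - 1) • ((q + 1) ^ 2 • w₂ - T (T w₂)) = 0 := by
      have h4 : (q + 1) • ((q * (q + 1)) • w₂ + q • T w₁ + (T (T w₂) - (q + 1) • w₂))
          - q • ((q + 1) • T w₁ + (2 : R) • T (T w₂)) = 0 := by
        rw [h0, hT1, smul_zero, smul_zero, sub_zero]
      rw [← h4]
      module
    exact (sub_eq_zero.mp (hq1 _ h3)).symm
  have hw : w₂ = 0 := hpet w₂ e0
  subst hw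
  refine ⟨rfl, ?_, rfl⟩
  apply hq2
  rw [map_zero, smul_zero, add_zero] at e1
  exact e1

/-- **`ξ` is injective.** -/
theorem s59gram_abs_inj
    (hnd : ∀ y y' : L₀, (∀ w, B₀ w y = B₀ w y') → y = y')
    (hadjl₁ : ∀ x u, B₁ (r₁ x) u = B₀ x (c₁ u))
    (hadjl₂ : ∀ u y, B₂ (r₂ u) y = B₁ u (c₂ y))
    (hadjD₁ : ∀ u x, B₁ u (d₁ x) = B₀ (e₁ u) x)
    (hadjD₂ : ∀ w u, B₂ w (d₂ u) = B₁ (e₂ w) u)
    (hadjDl₁ : ∀ x u, B₁ (d₁ x) u = B₀ x (e₁ u))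
    (hadjDl₂ : ∀ u w, B₂ (d₂ u) w = B₁ u (e₂ w))
    (hdr : ∀ x, d₂ (r₁ x) = r₂ (d₁ x))
    (hcr₁ : ∀ x, c₁ (r₁ x) = (q + 1) • x)
    (hcd₁ : ∀ x, c₁ (d₁ x) = T x)
    (her₁ : ∀ x, e₁ (r₁ x) = T x)
    (hed₁ : ∀ x, e₁ (d₁ x) = (q + 1) • x)
    (hcr₂ : ∀ u, c₂ (r₂ u) = q • u)
    (hed₂ : ∀ u, e₂ (d₂ u) = q • u)
    (hcorner : ∀ x, e₂ (r₂ (r₁ x)) = r₁ (T x) - d₁ x)
    (hT : ∀ x y, B₀ (T x) y = B₀ x (T y))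
    (hq : ∀ y : L₀, q • y = 0 → y = 0)
    (hq1 : ∀ y : L₀, (q - 1) • y = 0 → y = 0)
    (hq2 : ∀ y : L₀, (q + 1) • y = 0 → y = 0)
    (hpet : ∀ y : L₀, T (T y) = (q + 1) ^ 2 • y → y = 0)
    (w₀ w₁ w₂ : L₀) (h : r₂ (r₁ w₀) + r₂ (d₁ w₁) + d₂ (d₁ w₂) = 0) :
    w₀ = 0 ∧ w₁ = 0 ∧ w₂ = 0 := by
  apply s59gram_abs_elim T q hq hq1 hq2 hpet w₀ w₁ w₂
  · have h' := congrArg (fun y => c₁ (c₂ y)) h
    simp only [map_add, map_zero] at h'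
    rw [s59gram_abs_op00 r₁ r₂ c₁ c₂ q hcr₁ hcr₂, s59gram_abs_op01 d₁ r₂ c₁ c₂ T q hcd₁ hcr₂,
      s59gram_abs_op02 B₀ B₁ B₂ r₁ d₁ r₂ d₂ c₁ e₁ c₂ e₂ T q hnd hadjl₁ hadjl₂ hadjD₁ hadjD₂ her₁
        hed₁ hcorner hT] at h'
    exact h'
  · have h' := congrArg (fun y => e₁ (c₂ y)) h
    simp only [map_add, map_zero] at h'
    rw [s59gram_abs_op10 r₁ r₂ e₁ c₂ T q her₁ hcr₂, s59gram_abs_op11 d₁ r₂ e₁ c₂ q hed₁ hcr₂,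
      s59gram_abs_op12 B₀ B₁ B₂ r₁ d₁ r₂ d₂ e₁ c₂ e₂ T q hnd hadjl₂ hadjD₁ hadjDl₁ hadjDl₂ hdr
        her₁ hed₂ hT] at h'
    exact h'
  · have h' := congrArg (fun y => e₁ (e₂ y)) h
    simp only [map_add, map_zero] at h'
    rw [s59gram_abs_op20 r₁ d₁ r₂ e₁ e₂ T q her₁ hed₁ hcorner,
      s59gram_abs_op21 r₁ d₁ r₂ d₂ e₁ e₂ T q her₁ hdr hed₂,
      s59gram_abs_op22 d₁ d₂ e₁ e₂ q hed₁ hed₂] at h'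
    exact h'

end GramOpAbs

end Fermat.Agent.S59
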