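import Mathlib
import Fermat.Agent.S59.Eta.Gram
import Fermat.Agent.S59.Eta.GramOpAbs
import Fermat.Agent.S59.Eta.BCGram

/-!
# S59 ETA′, piece **E-GRAM** (helper80): the OPERATOR Gram matrix `ξ†ξ = G(T_q)` on `Lpar N`

`q` prime, `q ∤ N`.  `ξ₀† = cores₁ cores₂`, `ξ₁† = cores^δ₁ cores₂ (= cores₁ cores^δ₂)`,
`ξ₂† = cores^δ₁ cores^δ₂ : Lpar (N q²) → Lpar N`.

* `s59gramXi0T/1T/2T N q` : the adjoints, `s59gram_adj_xi_i_left/right`;
* `s59gram_op_ij hqN x : ξ_i† (ξ_j x) = G_ij x`,
  `G = [[q(q+1), qT, T²−(q+1)], [qT, q(q+1), qT], [T²−(q+1), qT, q(q+1)]]`, `T = s59gramT N q`;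
* `s59gram_xi1T_eq` : `cores₁ ∘ cores^δ₂ = cores^δ₁ ∘ cores₂`;
* `s59gram_op_bc_ij` : the same identities over any commutative ring `𝒪` for the base changes.
-/

set_option autoImplicit false
set_option linter.style.haveILetI false
set_option linter.unusedSectionVars false
set_option linter.unusedSimpArgs false
set_option linter.unusedVariables false

noncomputable section

namespace Fermat.Agent.S59

open CongruenceSubgroup Matrix Fermat.Agent.S41 Fermat.Agent.S41.PD TensorProduct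
open scoped MatrixGroups

section adjoints

variable (N q : ℕ) [NeZero N] [NeZero q]

/-- `ξ₀† = cores₁ ∘ cores₂` -/
def s59gramXi0T : Lpar (N * q * q) →ₗ[ℤ] Lpar N :=
  (s59gramCores N q).comp (s59gramCores (N * q) q)

/-- `ξ₁† = cores^δ₁ ∘ cores₂` -/
def s59gramXi1T : Lpar (N * q * q) →ₗ[ℤ] Lpar N :=
  (s59gramCoresD N q).comp (s59gramCores (N * q) q)

/-- `ξ₂† = cores^δ₁ ∘ cores^δ₂` -/
def s59gramXi2T : Lpar (N * q * q) →ₗ[ℤ] Lpar N :=
  (s59gramCoresD N q).comp (s59gramCoresD (N * q) q)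

/-- right non-degeneracy of the pairing on `Lpar M` -/
theorem s59gram_nondeg_right (M : ℕ) [NeZero M] (y y' : Lpar M)
    (h : ∀ w, s59gramB M w y = s59gramB M w y') : y = y' := by
  apply (s59bcg_gramB_flip_bijective M).1
  exact LinearMap.ext fun w => by rw [LinearMap.flip_apply, LinearMap.flip_apply, h w]

/-- left non-degeneracy of the pairing on `Lpar M` -/
theorem s59gram_nondeg_left (M : ℕ) [NeZero M] (x x' : Lpar M)
    (h : ∀ w, s59gramB M x w = s59gramB M x' w) : x = x' := by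
  apply (s59bcg_gramB_bijective M).1
  exact LinearMap.ext fun w => h w

theorem s59gram_adj_xi0_left (x : Lpar N) (y : Lpar (N * q * q)) :
    s59gramB (N * q * q) (s59gramXi0 N q x) y = s59gramB N x (s59gramXi0T N q y) := by
  show s59gramB (N * q * q) (s59gramRes (N * q) q (s59gramRes N q x)) y = _
  rw [s59gram_adj_res_left, s59gram_adj_res_left]
  rfl

theorem s59gram_adj_xi0_right (y : Lpar (N * q * q)) (x : Lpar N) :
    s59gramB (N * q * q) y (s59gramXi0 N q x) = s59gramB N (s59gramXi0T N q y) x := by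
  show s59gramB (N * q * q) y (s59gramRes (N * q) q (s59gramRes N q x)) = _
  rw [s59gram_adj_res_right, s59gram_adj_res_right]
  rfl

theorem s59gram_adj_xi1_left (hq : q.Prime) (x : Lpar N) (y : Lpar (N * q * q)) :
    s59gramB (N * q * q) (s59gramXi1 N q x) y = s59gramB N x (s59gramXi1T N q y) := by
  show s59gramB (N * q * q) (s59gramRes (N * q) q (s59gramResD N q x)) y = _
  rw [s59gram_adj_res_left, s59gram_adj_resD_left N q hq]
  rfl

theorem s59gram_adj_xi1_right (hq : q.Prime) (y : Lpar (N * q * q)) (x : Lpar N) :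
    s59gramB (N * q * q) y (s59gramXi1 N q x) = s59gramB N (s59gramXi1T N q y) x := by
  show s59gramB (N * q * q) y (s59gramRes (N * q) q (s59gramResD N q x)) = _
  rw [s59gram_adj_res_right, s59gram_adj_resD_right N q hq]
  rfl

theorem s59gram_adj_xi2_left (hq : q.Prime) (x : Lpar N) (y : Lpar (N * q * q)) :
    s59gramB (N * q * q) (s59gramXi2 N q x) y = s59gramB N x (s59gramXi2T N q y) := by
  show s59gramB (N * q * q) (s59gramResD (N * q) q (s59gramResD N q x)) y = _
  rw [s59gram_adj_resD_left (N * q) q hq, s59gram_adj_resD_left N q hq]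
  rfl

theorem s59gram_adj_xi2_right (hq : q.Prime) (y : Lpar (N * q * q)) (x : Lpar N) :
    s59gramB (N * q * q) y (s59gramXi2 N q x) = s59gramB N (s59gramXi2T N q y) x := by
  show s59gramB (N * q * q) y (s59gramResD (N * q) q (s59gramResD N q x)) = _
  rw [s59gram_adj_resD_right (N * q) q hq, s59gram_adj_resD_right N q hq]
  rfl

end adjoints

section entries

variable {N q : ℕ} [NeZero N] [NeZero q] [hq : Fact q.Prime]

theorem s59gram_op_00 (hqN : ¬ q ∣ N) (x : Lpar N) :
    s59gramXi0T N q (s59gramXi0 N q x) = ((q : ℤ) * ((q : ℤ) + 1)) • x :=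
  s59gram_abs_op00 (s59gramRes N q) (s59gramRes (N * q) q) (s59gramCores N q)
    (s59gramCores (N * q) q) (q : ℤ) (s59gram_cores_res hqN) s59gram_cores_res₂ x

theorem s59gram_op_01 (hqN : ¬ q ∣ N) (x : Lpar N) :
    s59gramXi0T N q (s59gramXi1 N q x) = (q : ℤ) • s59gramT N q x :=
  s59gram_abs_op01 (s59gramResD N q) (s59gramRes (N * q) q) (s59gramCores N q)
    (s59gramCores (N * q) q) (s59gramT N q) (q : ℤ) (s59gram_cores_resD hqN) s59gram_cores_res₂ x

theorem s59gram_op_02 (hqN : ¬ q ∣ N) (x : Lpar N) :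
    s59gramXi0T N q (s59gramXi2 N q x) =
      s59gramT N q (s59gramT N q x) - ((q : ℤ) + 1) • x :=
  s59gram_abs_op02 (s59gramB N) (s59gramB (N * q)) (s59gramB (N * q * q))
    (s59gramRes N q) (s59gramResD N q) (s59gramRes (N * q) q) (s59gramResD (N * q) q)
    (s59gramCores N q) (s59gramCoresD N q) (s59gramCores (N * q) q) (s59gramCoresD (N * q) q)
    (s59gramT N q) (q : ℤ) (s59gram_nondeg_right N)
    (s59gram_adj_res_left N q) (s59gram_adj_res_left (N * q) q)
    (s59gram_adj_resD_right N q hq.out) (s59gram_adj_resD_right (N * q) q hq.out)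
    s59gram_coresD_res (s59gram_coresD_resD hqN) (s59gram_corner hqN) (s59gram_T_selfadj hqN) x

theorem s59gram_op_10 (hqN : ¬ q ∣ N) (x : Lpar N) :
    s59gramXi1T N q (s59gramXi0 N q x) = (q : ℤ) • s59gramT N q x :=
  s59gram_abs_op10 (s59gramRes N q) (s59gramRes (N * q) q) (s59gramCoresD N q)
    (s59gramCores (N * q) q) (s59gramT N q) (q : ℤ) s59gram_coresD_res s59gram_cores_res₂ x

theorem s59gram_op_11 (hqN : ¬ q ∣ N) (x : Lpar N) :
    s59gramXi1T N q (s59gramXi1 N q x) = ((q : ℤ) * ((q : ℤ) + 1)) • x :=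
  s59gram_abs_op11 (s59gramResD N q) (s59gramRes (N * q) q) (s59gramCoresD N q)
    (s59gramCores (N * q) q) (q : ℤ) (s59gram_coresD_resD hqN) s59gram_cores_res₂ x

theorem s59gram_op_12 (hqN : ¬ q ∣ N) (x : Lpar N) :
    s59gramXi1T N q (s59gramXi2 N q x) = (q : ℤ) • s59gramT N q x :=
  s59gram_abs_op12 (s59gramB N) (s59gramB (N * q)) (s59gramB (N * q * q))
    (s59gramRes N q) (s59gramResD N q) (s59gramRes (N * q) q) (s59gramResD (N * q) q)
    (s59gramCoresD N q) (s59gramCores (N * q) q) (s59gramCoresD (N * q) q)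
    (s59gramT N q) (q : ℤ) (s59gram_nondeg_right N)
    (s59gram_adj_res_left (N * q) q)
    (s59gram_adj_resD_right N q hq.out) (s59gram_adj_resD_left N q hq.out)
    (s59gram_adj_resD_left (N * q) q hq.out)
    s59gram_resD_res s59gram_coresD_res s59gram_coresD_resD₂ (s59gram_T_selfadj hqN) x

theorem s59gram_op_20 (hqN : ¬ q ∣ N) (x : Lpar N) :
    s59gramXi2T N q (s59gramXi0 N q x) =
      s59gramT N q (s59gramT N q x) - ((q : ℤ) + 1) • x :=
  s59gram_abs_op20 (s59gramRes N q) (s59gramResD N q) (s59gramRes (N * q) q)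
    (s59gramCoresD N q) (s59gramCoresD (N * q) q) (s59gramT N q) (q : ℤ)
    s59gram_coresD_res (s59gram_coresD_resD hqN) (s59gram_corner hqN) x

theorem s59gram_op_21 (hqN : ¬ q ∣ N) (x : Lpar N) :
    s59gramXi2T N q (s59gramXi1 N q x) = (q : ℤ) • s59gramT N q x :=
  s59gram_abs_op21 (s59gramRes N q) (s59gramResD N q) (s59gramRes (N * q) q)
    (s59gramResD (N * q) q) (s59gramCoresD N q) (s59gramCoresD (N * q) q) (s59gramT N q) (q : ℤ)
    s59gram_coresD_res s59gram_resD_res s59gram_coresD_resD₂ x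

theorem s59gram_op_22 (hqN : ¬ q ∣ N) (x : Lpar N) :
    s59gramXi2T N q (s59gramXi2 N q x) = ((q : ℤ) * ((q : ℤ) + 1)) • x :=
  s59gram_abs_op22 (s59gramResD N q) (s59gramResD (N * q) q) (s59gramCoresD N q)
    (s59gramCoresD (N * q) q) (q : ℤ) (s59gram_coresD_resD hqN) s59gram_coresD_resD₂ x

/-- `cores₁ ∘ cores^δ₂ = cores^δ₁ ∘ cores₂` on `Lpar (N q²)`: the two descriptions of `ξ₁†`. -/
theorem s59gram_xi1T_eq (y : Lpar (N * q * q)) :
    s59gramCores N q (s59gramCoresD (N * q) q y) = s59gramXi1T N q y :=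
  s59gram_abs_xi1T (s59gramB N) (s59gramB (N * q)) (s59gramB (N * q * q))
    (s59gramRes N q) (s59gramResD N q) (s59gramRes (N * q) q) (s59gramResD (N * q) q)
    (s59gramCores N q) (s59gramCoresD N q) (s59gramCores (N * q) q) (s59gramCoresD (N * q) q)
    (s59gram_nondeg_right N)
    (s59gram_adj_res_left N q) (s59gram_adj_res_left (N * q) q)
    (s59gram_adj_resD_left N q hq.out) (s59gram_adj_resD_left (N * q) q hq.out)
    s59gram_resD_res y

end entries

end Fermat.Agent.S59
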