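/-
S59, route A, piece R2 = ETA′, leaf E-PET (helper6): `T_q ∓ (q + 1)` is injective on cusp forms
of weight 2 on `Γ₀(N)`, `q ∤ N`.

* `s59pet_pet_heckeT`  : `⟨T_ℓ f, g⟩ = (ℓ + 1) ⟨f, g ∣ diag(ℓ, 1)⟩` (normalised Petersson product);
* `s59pet_slash_diag_eq` : if `T_ℓ f = ε (ℓ + 1) f`, `ε = ± 1`, weight 2, then `f ∣ diag(ℓ, 1) = ε f`;
* `s59pet_eq_zero`     : then `f = 0`;
* `s59pet_heckeTLin_injective` : `T_ℓ - ε (ℓ + 1)` is injective on `S₂(Γ₀(N))`.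
-/
import Fermat.Agent.PET.HeckeSelfAdj
import Fermat.Prelude.Thm_CongruenceSubgroup_one_mem_strictPeriods_Gamma0

set_option autoImplicit false

namespace Fermat.Agent.S59

open MeasureTheory Set UpperHalfPlane ModularGroup Matrix.SpecialLinearGroup CongruenceSubgroup
open Fermat.Agent.PET
open scoped Pointwise Modular MatrixGroups ENNReal NNReal ComplexConjugate ModularForm

section main

variable {k : ℤ} {N : ℕ} [NeZero N] {ℓ : ℕ}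

/-- `⟨T_ℓ f, g⟩ = (ℓ + 1) ⟨f, g ∣ diag(ℓ, 1)⟩`. -/
theorem s59pet_pet_heckeT (hℓ : ℓ.Prime) (hℓN : ¬ ℓ ∣ N) (f g : CuspForm (Gamma0 N) k) :
    pet k (ModularForm.heckeT k ℓ ⇑f) ⇑g =
      ((ℓ : ℂ) + 1) * pet k ⇑f ((⇑g : ℍ → ℂ) ∣[k] ModularForm.heckeDiagMatrix ℓ) := by
  have hℓ0 : ℓ ≠ 0 := hℓ.ne_zero
  have hℓpos : (0 : ℤ) < ℓ := by exact_mod_cast hℓ.pos
  have hF := niceForm_cuspForm f
  have hG := niceForm_cuspForm g
  -- determinants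
  have d0 : (1 : ℤ) * ℓ - 0 * 0 ≠ 0 := by simpa using hℓ0
  have dI : (ℓ : ℤ) * 1 - 0 * 0 ≠ 0 := by simpa using hℓ0
  have p0 : (0 : ℤ) < 1 * ℓ - 0 * 0 := by simpa using hℓpos
  have pI : (0 : ℤ) < (ℓ : ℤ) * 1 - 0 * 0 := by simpa using hℓpos
  have r0 : IsRatPos (intGL 1 0 0 ℓ d0) := isRatPos_intGL 1 0 0 ℓ p0
  have rI : IsRatPos (intGL ℓ 0 0 1 dI) := isRatPos_intGL ℓ 0 0 1 pI
  have dj : ∀ j : ℕ, (1 : ℤ) * ℓ - j * 0 ≠ 0 := fun j => by simpa using hℓ0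
  have pj : ∀ j : ℕ, (0 : ℤ) < 1 * ℓ - j * 0 := fun j => by simpa using hℓpos
  have rj : ∀ j : ℕ, IsRatPos (intGL 1 j 0 ℓ (dj j)) := fun j => isRatPos_intGL 1 j 0 ℓ (pj j)
  have dj' : ∀ j : ℕ, (ℓ : ℤ) * 1 - (-j) * 0 ≠ 0 := fun j => by simpa using hℓ0
  have pj' : ∀ j : ℕ, (0 : ℤ) < (ℓ : ℤ) * 1 - (-j) * 0 := fun j => by simpa using hℓpos
  have rj' : ∀ j : ℕ, IsRatPos (intGL ℓ (-j) 0 1 (dj' j)) :=
    fun j => isRatPos_intGL ℓ (-j) 0 1 (pj' j)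
  have hM : ∀ j : ℕ, ModularForm.heckeMatrix ℓ j = intGL 1 j 0 ℓ (dj j) :=
    fun j => heckeMatrix_eq_intGL hℓ0 j
  have hMI : ModularForm.heckeDiagMatrix ℓ = intGL ℓ 0 0 1 dI := heckeDiagMatrix_eq_intGL hℓ0
  -- (D): P0 = P∞
  have key : pet k ⇑f ((⇑g : ℍ → ℂ) ∣[k] intGL 1 0 0 ℓ d0) =
      pet k ⇑f ((⇑g : ℍ → ℂ) ∣[k] intGL ℓ 0 0 1 dI) := by
    have hcop : IsCoprime (ℓ : ℤ) (N : ℤ) :=
      Nat.isCoprime_iff_coprime.2 ((Nat.Prime.coprime_iff_not_dvd hℓ).2 hℓN)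
    obtain ⟨a, b, hab⟩ := hcop
    have h1 : a * (ℓ : ℤ) - (-b) * N = 1 := by linarith
    have h2 : (1 : ℤ) * (a * ℓ) - (-(-b)) * (-(N : ℤ)) = 1 := by linarith
    have m1 : slOf a (-b) N ℓ h1 ∈ Gamma0 N := slOf_mem_Gamma0 _ _ _ _ h1 dvd_rfl
    have m2 : slOf 1 (-(-b)) (-(N : ℤ)) (a * ℓ) h2 ∈ Gamma0 N :=
      slOf_mem_Gamma0 _ _ _ _ h2 (dvd_neg.2 dvd_rfl)
    have e : intGL 1 0 0 ℓ d0 =
        (mapGL ℝ (slOf a (-b) N ℓ h1) : GL (Fin 2) ℝ) * intGL ℓ 0 0 1 dI *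
          (mapGL ℝ (slOf 1 (-(-b)) (-(N : ℤ)) (a * ℓ) h2) : GL (Fin 2) ℝ) := by
      rw [mapGL_slOf, mapGL_slOf, intGL_mul_eq (A := a * ℓ) (B := -b) (C := N * ℓ) (D := ℓ)
        _ _ (by
          have : a * (ℓ : ℤ) * ℓ - -b * (N * ℓ) = ℓ := by linear_combination (ℓ : ℤ) * hab
          rw [this]; exact_mod_cast hℓ0) (by ring) (by ring) (by ring) (by ring),
        intGL_mul_eq (A := 1) (B := 0) (C := 0) (D := ℓ) _ _ d0 (by linear_combination -hab)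
          (by ring) (by ring) (by linear_combination -(ℓ : ℤ) * hab)]
    rw [e, pet_slash_mul_mapGL f g m2 (by
      rw [mapGL_slOf]
      exact (isRatPos_intGL _ _ _ _ (by rw [h1]; exact one_pos)).mul rI), slash_mapGL_mul g m1]
  -- (A)
  have hA : ∀ j : ℕ, pet k ((⇑f : ℍ → ℂ) ∣[k] ModularForm.heckeMatrix ℓ j) ⇑g =
      pet k ⇑f ((⇑g : ℍ → ℂ) ∣[k] intGL ℓ 0 0 1 dI) := by
    intro j
    have hmul : intGL ℓ (-j) 0 1 (dj' j) * intGL 1 j 0 ℓ (dj j) =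
        intGL ℓ 0 0 ℓ (by simpa using (mul_pos hℓpos hℓpos).ne') :=
      intGL_mul_eq _ _ _ (by ring) (by ring) (by ring) (by ring)
    have hdet : ((intGL 1 j 0 ℓ (dj j)).det : ℝ) = ((ℓ : ℤ) : ℝ) := by
      rw [det_intGL]; push_cast; ring
    rw [hM j, pet_slash_left hF hG (rj j) (rj' j) hℓpos hmul hdet]
    have h1 : (1 : ℤ) * 1 - (-j) * 0 = 1 := by ring
    have m1 : slOf 1 (-j) 0 1 h1 ∈ Gamma0 N := slOf_mem_Gamma0 _ _ _ _ h1 (dvd_zero _)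
    have e : intGL ℓ (-j) 0 1 (dj' j) =
        (mapGL ℝ (slOf 1 (-j) 0 1 h1) : GL (Fin 2) ℝ) * intGL ℓ 0 0 1 dI := by
      rw [mapGL_slOf, intGL_mul_eq (A := ℓ) (B := -j) (C := 0) (D := 1) _ _ (dj' j)
        (by ring) (by ring) (by ring) (by ring)]
    rw [e, slash_mapGL_mul g m1]
  -- (B)
  have hB : pet k ((⇑f : ℍ → ℂ) ∣[k] ModularForm.heckeDiagMatrix ℓ) ⇑g =
      pet k ⇑f ((⇑g : ℍ → ℂ) ∣[k] intGL 1 0 0 ℓ d0) := by
    have hmul : intGL 1 0 0 ℓ d0 * intGL ℓ 0 0 1 dI =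
        intGL ℓ 0 0 ℓ (by simpa using (mul_pos hℓpos hℓpos).ne') :=
      intGL_mul_eq _ _ _ (by ring) (by ring) (by ring) (by ring)
    have hdet : ((intGL ℓ 0 0 1 dI).det : ℝ) = ((ℓ : ℤ) : ℝ) := by
      rw [det_intGL]; push_cast; ring
    rw [hMI, pet_slash_left hF hG rI r0 hℓpos hmul hdet]
  have hsumF : ∀ j ∈ Finset.range ℓ, NiceForm k ((⇑f : ℍ → ℂ) ∣[k] ModularForm.heckeMatrix ℓ j) :=
    fun j _ => by rw [hM j]; exact hF.slash (rj j)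
  have hIF : NiceForm k ((⇑f : ℍ → ℂ) ∣[k] ModularForm.heckeDiagMatrix ℓ) := by
    rw [hMI]; exact hF.slash rI
  rw [ModularForm.heckeT_def, pet_add_left (NiceForm.sum _ hsumF) hIF hG,
    pet_sum_left _ hsumF hG, Finset.sum_congr rfl fun j _ => hA j, hB, key, hMI]
  rw [Finset.sum_const, Finset.card_range, nsmul_eq_mul]
  ring

end main

section wt2

variable {N : ℕ} [NeZero N] {ℓ : ℕ}

/-- if `T_ℓ f = ε (ℓ + 1) f` with `ε = ± 1` (weight 2, `ℓ ∤ N`), then `f ∣ diag(ℓ, 1) = ε f`: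
the Gram matrix of `f`, `f ∣ diag(ℓ, 1)` is degenerate. -/
theorem s59pet_slash_diag_eq (hℓ : ℓ.Prime) (hℓN : ¬ ℓ ∣ N) (f : CuspForm (Gamma0 N) 2) (ε : ℂ)
    (hε : ε = 1 ∨ ε = -1)
    (h : ModularForm.heckeT 2 ℓ ⇑f = (ε * ((ℓ : ℂ) + 1)) • (⇑f : ℍ → ℂ)) :
    (⇑f : ℍ → ℂ) ∣[(2 : ℤ)] ModularForm.heckeDiagMatrix ℓ = ε • (⇑f : ℍ → ℂ) := by
  have hℓ0 : ℓ ≠ 0 := hℓ.ne_zero
  have hℓpos : (0 : ℤ) < ℓ := by exact_mod_cast hℓ.pos
  have dI : (ℓ : ℤ) * 1 - 0 * 0 ≠ 0 := by simpa using hℓ0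
  have pI : (0 : ℤ) < (ℓ : ℤ) * 1 - 0 * 0 := by simpa using hℓpos
  have rI : IsRatPos (intGL ℓ 0 0 1 dI) := isRatPos_intGL ℓ 0 0 1 pI
  have hMI : ModularForm.heckeDiagMatrix ℓ = intGL ℓ 0 0 1 dI := heckeDiagMatrix_eq_intGL hℓ0
  set F : ℍ → ℂ := ⇑f with hFdef
  set FD : ℍ → ℂ := F ∣[(2 : ℤ)] ModularForm.heckeDiagMatrix ℓ with hFDdef
  have hF : NiceForm 2 F := niceForm_cuspForm f
  have hD : NiceForm 2 FD := by
    rw [hFDdef, hMI]; exact hF.slash rI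
  obtain ⟨P, -, hP⟩ := pet_self_nonneg hF
  have hεconj : conj ε = ε := by rcases hε with rfl | rfl <;> simp
  have hεsq : ε * ε = 1 := by rcases hε with rfl | rfl <;> simp
  have hℓ1 : ((ℓ : ℂ) + 1) ≠ 0 := by
    have : ((ℓ : ℂ) + 1) = ((ℓ + 1 : ℕ) : ℂ) := by push_cast; ring
    rw [this]; exact_mod_cast Nat.succ_ne_zero ℓ
  have hℓconj : conj ((ℓ : ℂ) + 1) = (ℓ : ℂ) + 1 := by simp
  -- `⟨f, f ∣ D⟩ = ε ⟨f, f⟩`
  have h2 : pet 2 F FD = ε * P := by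
    have h1 := s59pet_pet_heckeT hℓ hℓN f f
    rw [h, pet_smul_left hF hF, map_mul, hεconj, hℓconj, hP] at h1
    apply mul_left_cancel₀ hℓ1
    rw [← h1]; ring
  have h3 : pet 2 FD F = ε * P := by
    rw [pet_conj_symm hF hD, h2, map_mul, hεconj, Complex.conj_ofReal]
  have h4 : pet 2 FD FD = P := by
    rw [hFDdef, hMI, pet_slash_slash hF hF rI, hP]; simp
  have hsF : NiceForm 2 ((-ε) • F) := hF.smul _
  have hX : NiceForm 2 (FD + (-ε) • F) := hD.add hsF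
  have h5 : pet 2 (FD + (-ε) • F) (FD + (-ε) • F) = 0 := by
    have e1 : pet 2 (FD + (-ε) • F) (FD + (-ε) • F) =
        pet 2 FD (FD + (-ε) • F) + pet 2 ((-ε) • F) (FD + (-ε) • F) := pet_add_left hD hsF hX
    have e2 : pet 2 FD (FD + (-ε) • F) = pet 2 FD FD + pet 2 FD ((-ε) • F) :=
      pet_add_right hD hD hsF
    have e3 : pet 2 ((-ε) • F) (FD + (-ε) • F) =
        pet 2 ((-ε) • F) FD + pet 2 ((-ε) • F) ((-ε) • F) := pet_add_right hsF hD hsF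
    have e4 : pet 2 FD ((-ε) • F) = (-ε) * pet 2 FD F := pet_smul_right hD hF _
    have e5 : pet 2 ((-ε) • F) FD = conj (-ε) * pet 2 F FD := pet_smul_left hF hD _
    have e6 : pet 2 ((-ε) • F) ((-ε) • F) = conj (-ε) * pet 2 F ((-ε) • F) :=
      pet_smul_left hF hsF _
    have e7 : pet 2 F ((-ε) • F) = (-ε) * pet 2 F F := pet_smul_right hF hF _
    rw [e1, e2, e3, e4, e5, e6, e7, h2, h3, h4, hP, map_neg, hεconj]
    linear_combination (-(P : ℂ)) * hεsq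
  have h6 := eq_zero_of_pet_self_eq_zero hX h5
  have h7 : FD = FD + (-ε) • F + ε • F := by
    rw [add_assoc, ← add_smul, neg_add_cancel, zero_smul, add_zero]
  rw [h7, h6, zero_add]

end wt2

section vanish

variable {N : ℕ} [NeZero N] {ℓ : ℕ}

omit [NeZero N] in
/-- a cusp form of weight 2 on `Γ₀(N)` with `f ∣ diag(ℓ, 1) = ε f`, `‖ε‖ = 1`, `ℓ ≥ 2`, vanishes:
`f(z) = ε ℓ f(ℓ z)` and `f` decays exponentially at `i∞`. -/
theorem s59pet_eq_zero_of_slash_diag (hℓ2 : 2 ≤ ℓ) (f : CuspForm (Gamma0 N) 2) (ε : ℂ)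
    (hnorm : ‖ε‖ = 1)
    (h : (⇑f : ℍ → ℂ) ∣[(2 : ℤ)] ModularForm.heckeDiagMatrix ℓ = ε • (⇑f : ℍ → ℂ)) : f = 0 := by
  have hℓ0 : ℓ ≠ 0 := by omega
  have hℓR : (1 : ℝ) < ℓ := by exact_mod_cast (by omega : 1 < ℓ)
  have hℓpos : (0 : ℝ) < ℓ := by linarith
  -- one step
  have step : ∀ z : ℍ, ‖f z‖ = (ℓ : ℝ) * ‖f (ModularForm.heckeDiagMatrix ℓ • z)‖ := by
    intro z
    have h1 := congrFun h z
    rw [ModularForm.slash_heckeDiagMatrix_apply 2 hℓ0, Pi.smul_apply, smul_eq_mul] at h1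
    have h2 := congrArg norm h1
    rw [norm_mul, norm_mul, hnorm, one_mul] at h2
    rw [← h2]
    simp
  have im_step : ∀ z : ℍ, (ModularForm.heckeDiagMatrix ℓ • z).im = (ℓ : ℝ) * z.im := by
    intro z
    have h1 := ModularForm.coe_heckeDiagMatrix_smul hℓ0 z
    have h2 := congrArg Complex.im h1
    simpa using h2
  -- iterate
  have it : ∀ (m : ℕ) (z : ℍ), ∃ w : ℍ, w.im = (ℓ : ℝ) ^ m * z.im ∧
      ‖f z‖ = (ℓ : ℝ) ^ m * ‖f w‖ := by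
    intro m
    induction m with
    | zero => intro z; exact ⟨z, by simp, by simp⟩
    | succ m ih =>
      intro z
      obtain ⟨w, hw1, hw2⟩ := ih z
      refine ⟨ModularForm.heckeDiagMatrix ℓ • w, ?_, ?_⟩
      · rw [im_step, hw1]; ring
      · rw [hw2, step w]; ring
  -- decay
  have hdec := CuspFormClass.exp_decay_atImInfty (h := 1) f one_pos
    (CongruenceSubgroup.one_mem_strictPeriods_Gamma0 N)
  rw [Asymptotics.isBigO_iff] at hdec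
  obtain ⟨c, hc⟩ := hdec
  rw [Filter.eventually_iff, UpperHalfPlane.atImInfty_mem] at hc
  obtain ⟨A, hA⟩ := hc
  ext z
  rw [zero_apply, ← norm_eq_zero]
  have hy : 0 < z.im := z.im_pos
  apply le_antisymm _ (norm_nonneg _)
  -- the bounding sequence tends to `0`
  have hu : Filter.Tendsto (fun m : ℕ => 2 * Real.pi * ((ℓ : ℝ) ^ m * z.im)) Filter.atTop
      Filter.atTop := by
    apply Filter.Tendsto.const_mul_atTop (by positivity)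
    exact Filter.Tendsto.atTop_mul_const hy (tendsto_pow_atTop_atTop_of_one_lt hℓR)
  have hlim0 := (Real.tendsto_pow_mul_exp_neg_atTop_nhds_zero 1).comp hu
  have hlim : Filter.Tendsto (fun m : ℕ => (ℓ : ℝ) ^ m * (c * Real.exp (-(2 * Real.pi *
      ((ℓ : ℝ) ^ m * z.im))))) Filter.atTop (nhds 0) := by
    have h1 := hlim0.const_mul (c / (2 * Real.pi * z.im))
    rw [mul_zero] at h1
    refine h1.congr fun m => ?_
    simp only [Function.comp_apply, pow_one]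
    have : 2 * Real.pi * z.im ≠ 0 := by positivity
    field_simp
  refine ge_of_tendsto hlim ?_
  have hev : ∀ᶠ m : ℕ in Filter.atTop, A ≤ (ℓ : ℝ) ^ m * z.im :=
    (Filter.Tendsto.atTop_mul_const hy (tendsto_pow_atTop_atTop_of_one_lt hℓR)).eventually_ge_atTop A
  filter_upwards [hev] with m hm
  obtain ⟨w, hw1, hw2⟩ := it m z
  have hw := hA w (by rw [hw1]; exact hm)
  simp only [Set.mem_ofPred_eq] at hw
  rw [hw2]
  apply mul_le_mul_of_nonneg_left _ (by positivity)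
  refine hw.trans (le_of_eq ?_)
  rw [Real.norm_eq_abs, abs_of_pos (Real.exp_pos _), hw1]
  congr 2
  ring

/-- **E-PET, cusp form core**: for a prime `ℓ ∤ N` and `ε = ± 1`, a cusp form `f` of weight 2 on
`Γ₀(N)` with `T_ℓ f = ε (ℓ + 1) f` vanishes. -/
theorem s59pet_eq_zero (hℓ : ℓ.Prime) (hℓN : ¬ ℓ ∣ N) (f : CuspForm (Gamma0 N) 2) (ε : ℂ)
    (hε : ε = 1 ∨ ε = -1)
    (h : ModularForm.heckeT 2 ℓ ⇑f = (ε * ((ℓ : ℂ) + 1)) • (⇑f : ℍ → ℂ)) : f = 0 :=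
  s59pet_eq_zero_of_slash_diag hℓ.two_le f ε (by rcases hε with rfl | rfl <;> simp)
    (s59pet_slash_diag_eq hℓ hℓN f ε hε h)

/-- E-PET for the prelude's `CuspForm.heckeTLin`: `T_ℓ - ε (ℓ + 1)` has trivial kernel. -/
theorem s59pet_heckeTLin_eq_zero (hℓ : ℓ.Prime) (hℓN : ¬ ℓ ∣ N) (f : CuspForm (Gamma0 N) 2)
    (ε : ℂ) (hε : ε = 1 ∨ ε = -1)
    (h : CuspForm.heckeTLin 2 hℓ hℓN f = (ε * ((ℓ : ℂ) + 1)) • f) : f = 0 := by
  apply s59pet_eq_zero hℓ hℓN f ε hε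
  have h1 := congrArg (fun g : CuspForm (Gamma0 N) 2 => (⇑g : ℍ → ℂ)) h
  simp only [CuspForm.coe_heckeTLin_apply] at h1
  rw [h1]
  ext z
  simp

/-- E-PET: `T_ℓ - (ℓ + 1)` is injective on `S₂(Γ₀(N))`, `ℓ ∤ N`. -/
theorem s59pet_heckeTLin_sub_injective (hℓ : ℓ.Prime) (hℓN : ¬ ℓ ∣ N) :
    Function.Injective (CuspForm.heckeTLin 2 hℓ hℓN -
      ((ℓ : ℂ) + 1) • (LinearMap.id : CuspForm (Gamma0 N) 2 →ₗ[ℂ] CuspForm (Gamma0 N) 2)) := by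
  rw [← LinearMap.ker_eq_bot, LinearMap.ker_eq_bot']
  intro f hf
  apply s59pet_heckeTLin_eq_zero hℓ hℓN f 1 (Or.inl rfl)
  rw [LinearMap.sub_apply, LinearMap.smul_apply, LinearMap.id_apply, sub_eq_zero] at hf
  rw [hf, one_mul]

/-- E-PET: `T_ℓ + (ℓ + 1)` is injective on `S₂(Γ₀(N))`, `ℓ ∤ N`. -/
theorem s59pet_heckeTLin_add_injective (hℓ : ℓ.Prime) (hℓN : ¬ ℓ ∣ N) :
    Function.Injective (CuspForm.heckeTLin 2 hℓ hℓN +
      ((ℓ : ℂ) + 1) • (LinearMap.id : CuspForm (Gamma0 N) 2 →ₗ[ℂ] CuspForm (Gamma0 N) 2)) := by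
  rw [← LinearMap.ker_eq_bot, LinearMap.ker_eq_bot']
  intro f hf
  apply s59pet_heckeTLin_eq_zero hℓ hℓN f (-1) (Or.inr rfl)
  rw [LinearMap.add_apply, LinearMap.smul_apply, LinearMap.id_apply, add_eq_zero_iff_eq_neg] at hf
  rw [hf]
  module

/-- E-PET: `T_ℓ² - (ℓ + 1)²` has trivial kernel on `S₂(Γ₀(N))`, `ℓ ∤ N`. -/
theorem s59pet_heckeTLin_sq_eq_zero (hℓ : ℓ.Prime) (hℓN : ¬ ℓ ∣ N) (f : CuspForm (Gamma0 N) 2)
    (h : CuspForm.heckeTLin 2 hℓ hℓN (CuspForm.heckeTLin 2 hℓ hℓN f) =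
      (((ℓ : ℂ) + 1) ^ 2) • f) : f = 0 := by
  have h1 : CuspForm.heckeTLin 2 hℓ hℓN (CuspForm.heckeTLin 2 hℓ hℓN f + ((ℓ : ℂ) + 1) • f) =
      (1 * ((ℓ : ℂ) + 1)) • (CuspForm.heckeTLin 2 hℓ hℓN f + ((ℓ : ℂ) + 1) • f) := by
    rw [map_add, map_smul, h]
    module
  have h2 := s59pet_heckeTLin_eq_zero hℓ hℓN _ 1 (Or.inl rfl) h1
  apply s59pet_heckeTLin_eq_zero hℓ hℓN f (-1) (Or.inr rfl)
  rw [add_eq_zero_iff_eq_neg] at h2
  rw [h2]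
  module

end vanish

end Fermat.Agent.S59
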