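/-
S59, route A, piece R2 = ETA′, leaf E-PET (helper6), the LATTICE form: for a prime `q ∤ N` the
operators `T_q - (q + 1)` and `T_q + (q + 1)` are injective on `Lpar N = Hom_par(Γ₀(N), ℤ)`,
and on `Hom_par(Γ₀(N), ℂ)`.

Proof: Eichler–Shimura (S21: the period pair map is bijective onto the parabolic classes),
Hecke-equivariance of the period map, and the cusp form core `s59pet_heckeTLin_eq_zero`
(S59/Eta/Pet.lean).

* `s59pet_Tc_periodHomPair` : `T_q (periodHomPair (f, g)) = periodHomPair (T_q f, T_q g)`;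
* `s59pet_parC_eq_zero`     : `ψ ∈ Hom_par(Γ₀(N), ℂ)`, `T_q ψ = ε (q + 1) ψ`, `ε = ± 1` ⇒ `ψ = 0`;
* `s59pet_Lpar_eq_zero`     : `y ∈ Lpar N`, `T_q y = e (q + 1) y`, `e = ± 1` ⇒ `y = 0`;
* `s59pet_Lpar_sub_injective`, `s59pet_Lpar_add_injective`, `s59pet_Lpar_sq_eq_zero`.
-/
import Fermat.Agent.S59.Eta.Pet
import Fermat.Agent.S41.Transport

set_option autoImplicit false

namespace Fermat.Agent.S59

open CongruenceSubgroup Matrix ModularCurve ModularCurve.Period Fermat.Agent.S41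
open scoped MatrixGroups

variable {N : ℕ} [NeZero N] {q : ℕ} [hq : Fact q.Prime]

omit [NeZero N] in
/-- an integral parabolic class is parabolic over `ℂ` -/
theorem s59pet_tpCast_mem (y : HomG N ℤ) (hy : y ∈ Lpar N) :
    tpCast N y ∈ parabolicHoms ℂ (Gamma0 N) ℂ := by
  rw [mem_parabolicHoms_iff]
  intro γ hγ
  have h1 : IsParabolicHom (Gamma0 N) y := hy
  have h2 := h1 γ hγ
  rw [tpCast_apply_apply, h2]
  simp

/-- `T_q` on the image of the period pair map -/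
theorem s59pet_Tc_periodHomPair (hqN : ¬ q ∣ N) (f g : CuspForm (Gamma0 N) 2) :
    Tc q hqN (periodHomPair N (f, g)) =
      periodHomPair N (CuspForm.heckeTLin 2 hq.out hqN f, CuspForm.heckeTLin 2 hq.out hqN g) := by
  rw [Fermat.Agent.S21.periodHomPair_apply, Fermat.Agent.S21.periodHomPair_apply]
  rw [← tpTc_apply, map_add, map_add, map_sub]
  simp only [tpTc_apply]
  rw [charInv_Tc, charInv_Tc, Fermat.Agent.ES.periodMap_heckeTLin_eq_heckeP,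
    Fermat.Agent.ES.periodMap_heckeTLin_eq_heckeP]
  rfl

/-- **E-PET over `ℂ`**: a parabolic class `ψ ∈ Hom_par(Γ₀(N), ℂ)` with `T_q ψ = ε (q + 1) ψ`,
`ε = ± 1`, `q ∤ N` prime, vanishes. -/
theorem s59pet_parC_eq_zero (hqN : ¬ q ∣ N) (ψ : HomG N ℂ)
    (hψ : ψ ∈ parabolicHoms ℂ (Gamma0 N) ℂ) (ε : ℂ) (hε : ε = 1 ∨ ε = -1)
    (h : Tc q hqN ψ = (ε * ((q : ℂ) + 1)) • ψ) : ψ = 0 := by
  obtain ⟨hinj, hrange⟩ := Fermat.Agent.S21.result N
  rw [← hrange] at hψ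
  obtain ⟨⟨f, g⟩, rfl⟩ := hψ
  rw [s59pet_Tc_periodHomPair, ← map_smul] at h
  have h1 := hinj h
  have hf : CuspForm.heckeTLin 2 hq.out hqN f = (ε * ((q : ℂ) + 1)) • f :=
    congrArg Prod.fst h1
  have hg : CuspForm.heckeTLin 2 hq.out hqN g = (ε * ((q : ℂ) + 1)) • g :=
    congrArg Prod.snd h1
  rw [s59pet_heckeTLin_eq_zero hq.out hqN f ε hε hf,
    s59pet_heckeTLin_eq_zero hq.out hqN g ε hε hg]
  exact map_zero (periodHomPair N)

omit [NeZero N] in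
/-- the cast `Hom(Γ₀(N), ℤ) → Hom(Γ₀(N), ℂ)` and integer multiples -/
theorem s59pet_tpCast_zsmul (n : ℤ) (y : HomG N ℤ) : tpCast N (n • y) = (n : ℂ) • tpCast N y := by
  refine AddMonoidHom.ext fun γ => ?_
  rw [tpCast_apply_apply, AddMonoidHom.smul_apply, AddMonoidHom.smul_apply, tpCast_apply_apply]
  simp

/-- **E-PET**: a class `y ∈ Lpar N = Hom_par(Γ₀(N), ℤ)` with `T_q y = e (q + 1) y`, `e = ± 1`,
`q ∤ N` prime, vanishes. -/
theorem s59pet_Lpar_eq_zero (hqN : ¬ q ∣ N) (y : HomG N ℤ) (hy : y ∈ Lpar N) (e : ℤ)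
    (he : e = 1 ∨ e = -1) (h : Tc q hqN y = (e * ((q : ℤ) + 1)) • y) : y = 0 := by
  apply tpCast_injective N
  rw [map_zero]
  apply s59pet_parC_eq_zero hqN (tpCast N y) (s59pet_tpCast_mem y hy) (e : ℂ)
    (by rcases he with rfl | rfl <;> simp)
  have h1 : Tc q hqN (tpCast N y) = tpCast N (Tc q hqN y) :=
    Fermat.Agent.ES.HeckeP.heckeHom_comp hqN (Int.castAddHom ℂ) y
  rw [h1, h, s59pet_tpCast_zsmul]
  push_cast
  rfl

/-- E-PET: `T_q - (q + 1)` has trivial kernel on `Lpar N`. -/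
theorem s59pet_Lpar_sub (hqN : ¬ q ∣ N) (y : HomG N ℤ) (hy : y ∈ Lpar N)
    (h : Tc q hqN y = ((q : ℤ) + 1) • y) : y = 0 :=
  s59pet_Lpar_eq_zero hqN y hy 1 (Or.inl rfl) (by rw [one_mul]; exact h)

/-- E-PET: `T_q + (q + 1)` has trivial kernel on `Lpar N`. -/
theorem s59pet_Lpar_add (hqN : ¬ q ∣ N) (y : HomG N ℤ) (hy : y ∈ Lpar N)
    (h : Tc q hqN y = -(((q : ℤ) + 1) • y)) : y = 0 :=
  s59pet_Lpar_eq_zero hqN y hy (-1) (Or.inr rfl) (by rw [h, neg_one_mul, neg_smul])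

/-- E-PET: `T_q² - (q + 1)²` has trivial kernel on `Lpar N`. -/
theorem s59pet_Lpar_sq_eq_zero (hqN : ¬ q ∣ N) (y : HomG N ℤ) (hy : y ∈ Lpar N)
    (h : Tc q hqN (Tc q hqN y) = (((q : ℤ) + 1) ^ 2) • y) : y = 0 := by
  have hTy : Tc q hqN y ∈ Lpar N :=
    Fermat.Agent.ES.HeckeP.heckeHom_mem_parabolicHoms hqN ℤ hy
  have hz : Tc q hqN y + ((q : ℤ) + 1) • y ∈ Lpar N :=
    (Lpar N).add_mem hTy ((Lpar N).zsmul_mem hy _)
  have h1 : Tc q hqN (Tc q hqN y + ((q : ℤ) + 1) • y) =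
      ((q : ℤ) + 1) • (Tc q hqN y + ((q : ℤ) + 1) • y) := by
    rw [← tpTc_apply, map_add, map_zsmul]
    simp only [tpTc_apply]
    rw [h]
    module
  have h2 := s59pet_Lpar_sub hqN _ hz h1
  apply s59pet_Lpar_add hqN y hy
  rw [add_eq_zero_iff_eq_neg] at h2
  exact h2


end Fermat.Agent.S59
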