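import Mathlib
import Fermat.Agent.S59.Eta.GramOp
import Fermat.Agent.S59.Eta.GramBC
import Fermat.Agent.S59.Eta.BCBase
import Fermat.Agent.S59.Eta.PetLpar

/-!
# S59 ETA′, piece **E-GRAM** (helper80): `ξ` is injective (the input `hinj` of `s59r2f_step_DD`)

`q` prime, `q ∤ N`, `ξ(w₀, w₁, w₂) = ξ₀ w₀ + ξ₁ w₁ + ξ₂ w₂ : Lpar N³ → Lpar (N q²)`.
`ξ†ξ = G(T_q)` (operator Gram matrix, `GramOp.lean`), `det G(T) = q (q − 1) ((q + 1)² − T²)²`, and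
`(q + 1)² − T_q²` is injective on `Lpar N` (E-PET, `s59pet_Lpar_sq_eq_zero`, helper6).

* `s59gram_pet`, `s59gram_inj`          : over `ℤ`;
* `s59gram_op_bc_ij`                    : the operator Gram matrix over any commutative ring `𝒪`;
* `s59gram_pet_bc`, `s59gram_inj_bc`    : over a domain `𝒪` of characteristic `0`;
* `s59gram_hinj_bcc`                    : **`hinj`** in the names of E-BC
  (`s59bccMap 𝒪 (s59bcXiZ_i N q)` on `s59bccL 𝒪 (Lpar N)`), literal shape.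
-/

set_option autoImplicit false
set_option linter.style.haveILetI false
set_option linter.unusedSectionVars false
set_option linter.unusedSimpArgs false
set_option linter.unusedVariables false

noncomputable section

namespace Fermat.Agent.S59

open CongruenceSubgroup Matrix Fermat.Agent.S41 Fermat.Agent.S41.PD TensorProduct
open scoped MatrixGroups

/-! ## Over `ℤ` -/

section overZ

variable {N q : ℕ} [NeZero N] [NeZero q] [hq : Fact q.Prime]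

/-- **E-PET** on the lattice, in linear form: `T_q² − (q + 1)²` is injective on `Lpar N`. -/
theorem s59gram_pet (hqN : ¬ q ∣ N) (y : Lpar N)
    (h : s59gramT N q (s59gramT N q y) = ((q : ℤ) + 1) ^ 2 • y) : y = 0 := by
  apply Subtype.ext
  apply s59pet_Lpar_sq_eq_zero hqN y.1 y.2
  have h' := congrArg Subtype.val h
  rw [s59gramT_coe hqN, s59gramT_coe hqN] at h'
  exact h'

theorem s59gram_q_ne_zero : (q : ℤ) ≠ 0 := by
  exact_mod_cast hq.out.ne_zero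

theorem s59gram_q_sub_one_ne_zero : (q : ℤ) - 1 ≠ 0 := by
  have h := hq.out.two_le
  have : (2 : ℤ) ≤ (q : ℤ) := by exact_mod_cast h
  omega

theorem s59gram_q_add_one_ne_zero : (q : ℤ) + 1 ≠ 0 := by
  have : (0 : ℤ) ≤ (q : ℤ) := by positivity
  omega

/-- **`ξ` is injective on `Lpar N³`.** -/
theorem s59gram_inj (hqN : ¬ q ∣ N) : ∀ w₀ w₁ w₂ : Lpar N,
    s59gramXi0 N q w₀ + s59gramXi1 N q w₁ + s59gramXi2 N q w₂ = 0 →
      w₀ = 0 ∧ w₁ = 0 ∧ w₂ = 0 := by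
  intro w₀ w₁ w₂ h
  refine s59gram_abs_elim (s59gramT N q) (q : ℤ)
    (fun y hy => (smul_eq_zero.mp hy).resolve_left s59gram_q_ne_zero)
    (fun y hy => (smul_eq_zero.mp hy).resolve_left s59gram_q_sub_one_ne_zero)
    (fun y hy => (smul_eq_zero.mp hy).resolve_left s59gram_q_add_one_ne_zero)
    (s59gram_pet hqN) w₀ w₁ w₂ ?_ ?_ ?_
  · have h' := congrArg (s59gramXi0T N q) h
    rw [map_add, map_add, map_zero, s59gram_op_00 hqN, s59gram_op_01 hqN, s59gram_op_02 hqN] at h'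
    exact h'
  · have h' := congrArg (s59gramXi1T N q) h
    rw [map_add, map_add, map_zero, s59gram_op_10 hqN, s59gram_op_11 hqN, s59gram_op_12 hqN] at h'
    exact h'
  · have h' := congrArg (s59gramXi2T N q) h
    rw [map_add, map_add, map_zero, s59gram_op_20 hqN, s59gram_op_21 hqN, s59gram_op_22 hqN] at h'
    exact h'

end overZ

/-! ## Base change of operator identities -/

section bcop

variable (𝒪 : Type*) [CommRing 𝒪] {L L' : Type*} [AddCommGroup L] [AddCommGroup L']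

/-- base change of an operator identity `g ∘ f = h` -/
theorem s59gram_bc_op (f : L →ₗ[ℤ] L') (g : L' →ₗ[ℤ] L) (h : L →ₗ[ℤ] L)
    (H : ∀ x, g (f x) = h x) (X : 𝒪 ⊗[ℤ] L) :
    g.baseChange 𝒪 (f.baseChange 𝒪 X) = h.baseChange 𝒪 X := by
  rw [← LinearMap.comp_apply, ← LinearMap.baseChange_comp]
  congr 2
  exact LinearMap.ext H

theorem s59gram_bc_smul_id (c : ℤ) (X : 𝒪 ⊗[ℤ] L) :
    (c • (LinearMap.id : L →ₗ[ℤ] L)).baseChange 𝒪 X = (c : 𝒪) • X := by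
  rw [LinearMap.baseChange_smul, LinearMap.baseChange_id, LinearMap.smul_apply,
    LinearMap.id_apply, ← Int.cast_smul_eq_zsmul 𝒪]

theorem s59gram_bc_smul (c : ℤ) (t : L →ₗ[ℤ] L) (X : 𝒪 ⊗[ℤ] L) :
    (c • t).baseChange 𝒪 X = (c : 𝒪) • t.baseChange 𝒪 X := by
  rw [LinearMap.baseChange_smul, LinearMap.smul_apply, ← Int.cast_smul_eq_zsmul 𝒪]

theorem s59gram_bc_sq_sub (c : ℤ) (t : L →ₗ[ℤ] L) (X : 𝒪 ⊗[ℤ] L) :
    (t ∘ₗ t - c • (LinearMap.id : L →ₗ[ℤ] L)).baseChange 𝒪 X =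
      t.baseChange 𝒪 (t.baseChange 𝒪 X) - (c : 𝒪) • X := by
  rw [LinearMap.baseChange_sub, LinearMap.sub_apply, LinearMap.baseChange_comp,
    LinearMap.comp_apply, s59gram_bc_smul_id]

end bcop

/-! ## The operator Gram matrix over `𝒪` -/

section opbc

variable (𝒪 : Type*) [CommRing 𝒪] (N q : ℕ) [NeZero N] [NeZero q] [hq : Fact q.Prime]

theorem s59gram_op_bc_00 (hqN : ¬ q ∣ N) (X : 𝒪 ⊗[ℤ] Lpar N) :
    (s59gramXi0T N q).baseChange 𝒪 ((s59gramXi0 N q).baseChange 𝒪 X) =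
      ((q : 𝒪) * ((q : 𝒪) + 1)) • X := by
  rw [s59gram_bc_op 𝒪 (s59gramXi0 N q) (s59gramXi0T N q)
    (((q : ℤ) * ((q : ℤ) + 1)) • LinearMap.id) (s59gram_op_00 hqN), s59gram_bc_smul_id]
  push_cast
  rfl

theorem s59gram_op_bc_01 (hqN : ¬ q ∣ N) (X : 𝒪 ⊗[ℤ] Lpar N) :
    (s59gramXi0T N q).baseChange 𝒪 ((s59gramXi1 N q).baseChange 𝒪 X) =
      (q : 𝒪) • (s59gramT N q).baseChange 𝒪 X := by
  rw [s59gram_bc_op 𝒪 (s59gramXi1 N q) (s59gramXi0T N q)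
    ((q : ℤ) • s59gramT N q) (s59gram_op_01 hqN), s59gram_bc_smul]
  push_cast
  rfl

theorem s59gram_op_bc_02 (hqN : ¬ q ∣ N) (X : 𝒪 ⊗[ℤ] Lpar N) :
    (s59gramXi0T N q).baseChange 𝒪 ((s59gramXi2 N q).baseChange 𝒪 X) =
      (s59gramT N q).baseChange 𝒪 ((s59gramT N q).baseChange 𝒪 X) - ((q : 𝒪) + 1) • X := by
  rw [s59gram_bc_op 𝒪 (s59gramXi2 N q) (s59gramXi0T N q)
    (s59gramT N q ∘ₗ s59gramT N q - ((q : ℤ) + 1) • LinearMap.id) (s59gram_op_02 hqN),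
    s59gram_bc_sq_sub]
  push_cast
  rfl

theorem s59gram_op_bc_10 (hqN : ¬ q ∣ N) (X : 𝒪 ⊗[ℤ] Lpar N) :
    (s59gramXi1T N q).baseChange 𝒪 ((s59gramXi0 N q).baseChange 𝒪 X) =
      (q : 𝒪) • (s59gramT N q).baseChange 𝒪 X := by
  rw [s59gram_bc_op 𝒪 (s59gramXi0 N q) (s59gramXi1T N q)
    ((q : ℤ) • s59gramT N q) (s59gram_op_10 hqN), s59gram_bc_smul]
  push_cast
  rfl

theorem s59gram_op_bc_11 (hqN : ¬ q ∣ N) (X : 𝒪 ⊗[ℤ] Lpar N) :
    (s59gramXi1T N q).baseChange 𝒪 ((s59gramXi1 N q).baseChange 𝒪 X) =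
      ((q : 𝒪) * ((q : 𝒪) + 1)) • X := by
  rw [s59gram_bc_op 𝒪 (s59gramXi1 N q) (s59gramXi1T N q)
    (((q : ℤ) * ((q : ℤ) + 1)) • LinearMap.id) (s59gram_op_11 hqN), s59gram_bc_smul_id]
  push_cast
  rfl

theorem s59gram_op_bc_12 (hqN : ¬ q ∣ N) (X : 𝒪 ⊗[ℤ] Lpar N) :
    (s59gramXi1T N q).baseChange 𝒪 ((s59gramXi2 N q).baseChange 𝒪 X) =
      (q : 𝒪) • (s59gramT N q).baseChange 𝒪 X := by
  rw [s59gram_bc_op 𝒪 (s59gramXi2 N q) (s59gramXi1T N q)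
    ((q : ℤ) • s59gramT N q) (s59gram_op_12 hqN), s59gram_bc_smul]
  push_cast
  rfl

theorem s59gram_op_bc_20 (hqN : ¬ q ∣ N) (X : 𝒪 ⊗[ℤ] Lpar N) :
    (s59gramXi2T N q).baseChange 𝒪 ((s59gramXi0 N q).baseChange 𝒪 X) =
      (s59gramT N q).baseChange 𝒪 ((s59gramT N q).baseChange 𝒪 X) - ((q : 𝒪) + 1) • X := by
  rw [s59gram_bc_op 𝒪 (s59gramXi0 N q) (s59gramXi2T N q)
    (s59gramT N q ∘ₗ s59gramT N q - ((q : ℤ) + 1) • LinearMap.id) (s59gram_op_20 hqN),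
    s59gram_bc_sq_sub]
  push_cast
  rfl

theorem s59gram_op_bc_21 (hqN : ¬ q ∣ N) (X : 𝒪 ⊗[ℤ] Lpar N) :
    (s59gramXi2T N q).baseChange 𝒪 ((s59gramXi1 N q).baseChange 𝒪 X) =
      (q : 𝒪) • (s59gramT N q).baseChange 𝒪 X := by
  rw [s59gram_bc_op 𝒪 (s59gramXi1 N q) (s59gramXi2T N q)
    ((q : ℤ) • s59gramT N q) (s59gram_op_21 hqN), s59gram_bc_smul]
  push_cast
  rfl

theorem s59gram_op_bc_22 (hqN : ¬ q ∣ N) (X : 𝒪 ⊗[ℤ] Lpar N) :
    (s59gramXi2T N q).baseChange 𝒪 ((s59gramXi2 N q).baseChange 𝒪 X) =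
      ((q : 𝒪) * ((q : 𝒪) + 1)) • X := by
  rw [s59gram_bc_op 𝒪 (s59gramXi2 N q) (s59gramXi2T N q)
    (((q : ℤ) * ((q : ℤ) + 1)) • LinearMap.id) (s59gram_op_22 hqN), s59gram_bc_smul_id]
  push_cast
  rfl

end opbc

/-! ## Injectivity over a domain of characteristic `0` -/

section injbc

variable (𝒪 : Type) [CommRing 𝒪] [IsDomain 𝒪] [CharZero 𝒪]
  (N q : ℕ) [NeZero N] [NeZero q] [hq : Fact q.Prime]

/-- **E-PET over `𝒪`**: `T_q² − (q + 1)²` is injective on `𝒪 ⊗ Lpar N`. -/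
theorem s59gram_pet_bc (hqN : ¬ q ∣ N) (Y : 𝒪 ⊗[ℤ] Lpar N)
    (h : (s59gramT N q).baseChange 𝒪 ((s59gramT N q).baseChange 𝒪 Y) = ((q : 𝒪) + 1) ^ 2 • Y) :
    Y = 0 := by
  let P : Lpar N →ₗ[ℤ] Lpar N :=
    s59gramT N q ∘ₗ s59gramT N q - (((q : ℤ) + 1) ^ 2) • (LinearMap.id : Lpar N →ₗ[ℤ] Lpar N)
  have hinj : Function.Injective P := by
    rw [injective_iff_map_eq_zero]
    intro y hy
    apply s59gram_pet hqN y
    have hy' : s59gramT N q (s59gramT N q y) - ((q : ℤ) + 1) ^ 2 • y = 0 := hy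
    exact sub_eq_zero.mp hy'
  have hinj' := Module.Flat.lTensor_preserves_injective_linearMap (M := 𝒪) P hinj
  rw [← LinearMap.baseChange_eq_ltensor] at hinj'
  apply hinj'
  rw [map_zero, s59gram_bc_sq_sub, h]
  push_cast
  exact sub_self _

theorem s59gram_q_ne_zero' : (q : 𝒪) ≠ 0 := by
  exact_mod_cast hq.out.ne_zero

theorem s59gram_q_sub_one_ne_zero' : (q : 𝒪) - 1 ≠ 0 := by
  have h := hq.out.one_lt
  intro h0
  have h1 : (q : 𝒪) = ((1 : ℕ) : 𝒪) := by rw [Nat.cast_one]; exact sub_eq_zero.mp h0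
  have := Nat.cast_injective h1
  omega

theorem s59gram_q_add_one_ne_zero' : (q : 𝒪) + 1 ≠ 0 := by
  have h : ((q + 1 : ℕ) : 𝒪) ≠ 0 := by exact_mod_cast Nat.succ_ne_zero q
  rw [Nat.cast_add, Nat.cast_one] at h
  exact h

/-- **`ξ` is injective over `𝒪`** (`𝒪` a domain of characteristic `0`). -/
theorem s59gram_inj_bc (hqN : ¬ q ∣ N) : ∀ W₀ W₁ W₂ : 𝒪 ⊗[ℤ] Lpar N,
    (s59gramXi0 N q).baseChange 𝒪 W₀ + (s59gramXi1 N q).baseChange 𝒪 W₁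
        + (s59gramXi2 N q).baseChange 𝒪 W₂ = 0 →
      W₀ = 0 ∧ W₁ = 0 ∧ W₂ = 0 := by
  intro W₀ W₁ W₂ h
  haveI : NoZeroSMulDivisors 𝒪 (𝒪 ⊗[ℤ] Lpar N) := s59bcc_noZeroSMulDivisors 𝒪 (Lpar N)
  refine s59gram_abs_elim ((s59gramT N q).baseChange 𝒪) (q : 𝒪)
    (fun y hy => (smul_eq_zero.mp hy).resolve_left (s59gram_q_ne_zero' 𝒪 q))
    (fun y hy => (smul_eq_zero.mp hy).resolve_left (s59gram_q_sub_one_ne_zero' 𝒪 q))
    (fun y hy => (smul_eq_zero.mp hy).resolve_left (s59gram_q_add_one_ne_zero' 𝒪 q))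
    (s59gram_pet_bc 𝒪 N q hqN) W₀ W₁ W₂ ?_ ?_ ?_
  · have h' := congrArg ((s59gramXi0T N q).baseChange 𝒪) h
    rw [map_add, map_add, map_zero, s59gram_op_bc_00 𝒪 N q hqN, s59gram_op_bc_01 𝒪 N q hqN,
      s59gram_op_bc_02 𝒪 N q hqN] at h'
    exact h'
  · have h' := congrArg ((s59gramXi1T N q).baseChange 𝒪) h
    rw [map_add, map_add, map_zero, s59gram_op_bc_10 𝒪 N q hqN, s59gram_op_bc_11 𝒪 N q hqN,
      s59gram_op_bc_12 𝒪 N q hqN] at h'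
    exact h'
  · have h' := congrArg ((s59gramXi2T N q).baseChange 𝒪) h
    rw [map_add, map_add, map_zero, s59gram_op_bc_20 𝒪 N q hqN, s59gram_op_bc_21 𝒪 N q hqN,
      s59gram_op_bc_22 𝒪 N q hqN] at h'
    exact h'

/-- **`hinj`** of `s59r2f_step_DD`, in the names of E-BC (`BCLin.lean`, `BCBase.lean`). -/
theorem s59gram_hinj_bcc (hqN : ¬ q ∣ N) : ∀ W₀ W₁ W₂ : s59bccL 𝒪 (Lpar N),
    s59bccMap 𝒪 (s59bcXiZ0 N q) W₀ + s59bccMap 𝒪 (s59bcXiZ1 N q) W₁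
        + s59bccMap 𝒪 (s59bcXiZ2 N q) W₂ = 0 →
      W₀ = 0 ∧ W₁ = 0 ∧ W₂ = 0 := by
  have h := s59gram_inj_bc 𝒪 N q hqN
  rw [s59bcg_Xi0_eq, s59bcg_Xi1_eq, s59bcg_Xi2_eq] at h
  exact h

end injbc

end Fermat.Agent.S59
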