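/-
S59, Route A, ETA′ (deputy helper72), piece **E-TQ** (helper75), the lattice part.

`s59tq_lat` (UNCONDITIONAL): for a prime `p`, a level `N`, a finite set `S` of primes containing
the primes dividing `N p`, a good prime `q ∤ N p` and every `n` there is a word `w` in the Hecke
operators `T_ℓ`, `ℓ ∉ S` (so `ℓ = q` is excluded as soon as `q ∈ S`), with

  `(T_q − w)(φ) ∈ pⁿ · Hom_par(Γ₀(N), ℤ)`  for every `φ ∈ Hom_par(Γ₀(N), ℤ)`.

Proof: Chebotarev (`S30.exists_approx`: a Hecke polynomial `h` in the `T_ℓ`, `ℓ ∉ S`, representing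
`Frob_q + q Frob_q⁻¹` on `J[pⁿ]`), the Eichler–Shimura relation (`S30.approx_frob`: so does `T_q`),
and the multiplier contract `ES.FaithContract` of the package on `J = PDiv N p`
(`J[pⁿ] ⊇ Hom_par(Γ₀(N), ℤ) ⊗ μ_{pⁿ}`, Hecke-equivariantly).  No cusp forms, no E-TRANS.
-/
import Fermat.Agent.ES.FaithOfInputs
import Fermat.Agent.ES.TorsionUnifProved
import Fermat.Agent.INJ.InjAll
import Fermat.Agent.Cheb.Final
import Fermat.Agent.S30.PseudoChar
import Fermat.Agent.Common.FrobExists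

set_option autoImplicit false
set_option linter.style.haveILetI false
set_option linter.unusedSectionVars false

noncomputable section

namespace Fermat.Agent.S59

open ModularCurve CongruenceSubgroup ModularCurve.Period Fermat.Agent.ES Fermat.Agent.S31
  Fermat.Agent.S30
open scoped MatrixGroups

/-- The lattice-faithful `p`-adic Eichler–Shimura package: the data `ESDataInf` on a Hecke–Galois
module `J` together with the multiplier contract `FaithContract` for a system `e n : ℤ → A` with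
kernel `pⁿ ℤ`. -/
def s59tq_PkgLat (N p : ℕ) [NeZero N] : Prop :=
  ∃ (J : Type) (_ : AddCommGroup J) (_ : Module HeckeAlg J) (_ : DistribMulAction GQ J)
    (A : Type) (_ : AddCommGroup A) (e : ℕ → ℤ →+ A),
    ESDataInf N p J ∧ FaithContract N p J e ∧
      ∀ (n : ℕ) (k : ℤ), e n k = 0 → ((p ^ n : ℕ) : ℤ) ∣ k

/-- the lattice-faithful package exists at every level (unconditional) -/
theorem s59tq_pkgLat (N p : ℕ) [NeZero N] (hp : p.Prime) : s59tq_PkgLat N p := by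
  haveI : Fact p.Prime := ⟨hp⟩
  have hp0 : p ≠ 0 := hp.ne_zero
  obtain ⟨μ, h⟩ := Fermat.Agent.ES.torsionUnif_proved N p hp.pos
  have hm := multData_of_torsionUnifData hp0 h
  have hINJ := Fermat.Agent.INJ.injAll_stmtINJAll
  refine ⟨PDiv N p, inferInstance, pDivModule N p, pDivGalois N p, Additive ℂˣ, inferInstance,
    fun n => expHom (p ^ n),
    hm.esDataInf (stmtFiniteLevel N p hp0) (G2.stmtFrob_of_stmtINJAll hINJ N p)
      (G2.stmtUnram_of_stmtINJAll hINJ N p), ?_, hm.ker⟩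
  letI := pDivModule N p
  refine faithContract_of_multiplier _ hm.toHom ?_ ?_
  · intro n ℓ x _
    rw [hm.heckeGen_smul]
    exact hm.toHom_pDivOp ℓ x
  · intro n φ hφ
    obtain ⟨x, hx, hpx, hμx⟩ := hm.surj_pDiv φ hφ n
    exact ⟨⟨x, hx⟩, (pDiv_smul_eq_zero_iff _ _).mpr hpx, hμx⟩

/-- **E-TQ on the lattice, from the package.** -/
theorem s59tq_lat_of_pkg {N p : ℕ} [NeZero N] [Fact p.Prime] (hpkg : s59tq_PkgLat N p)
    (S : Finset ℕ) (hgood : ∀ r : ℕ, r.Prime → r ∉ S → ¬ r ∣ N * p) (q : GoodPrime N p)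
    (n : ℕ) :
    ∃ w ∈ wordsIn N p (outsideVars (↑S : Set ℕ)),
      ∀ φ : Additive (Gamma0 N) →+ ℤ, IsParabolicHom (Gamma0 N) φ →
        ∃ ψ : Additive (Gamma0 N) →+ ℤ, IsParabolicHom (Gamma0 N) ψ ∧
          heckeOp N p q ℤ φ - wordOp (heckeOp N p) ℤ w φ = p ^ n • ψ := by
  classical
  obtain ⟨J, _, _, _, A, _, e, hJ, hc, he⟩ := hpkg
  have hp : p.Prime := Fact.out
  have hp0 : p ≠ 0 := hp.ne_zero
  obtain ⟨Av, τ₀, hA, hτ₀⟩ :=
    Fermat.Agent.Common.exists_isFrobeniusAt ((q : Nat.Primes) : ℕ) q.1.2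
  have hfrob : Approx p J n τ₀ (heckeGen (q : Nat.Primes)) :=
    approx_frob hJ n q.1.2 q.2 hA hτ₀
  obtain ⟨h, hh, hApp⟩ := exists_approx Fermat.Agent.Cheb.weakChebotarev_holds hJ S hgood n τ₀
  have hSg : outsideVars (↑S : Set ℕ) ⊆ goodPrimes N p := fun r hr => hgood r r.2 hr
  have hmap := map_wordPoly_wordsIn (N := N) (p := p) hSg
  have hh' : h ∈ (wordsIn N p (outsideVars (↑S : Set ℕ))).map (wordPoly N p) := by
    rw [hmap]; exact hh
  obtain ⟨w, hw, rfl⟩ := hh'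
  refine ⟨w, hw, fun φ hφ => ?_⟩
  obtain ⟨x, hx, hxw⟩ := hc n φ hφ
  have hD : wordPoly N p (FreeAlgebra.ι ℤ q - w) • x = 0 := by
    rw [map_sub, wordPoly_ι, sub_smul, ← hfrob x hx]
    exact sub_eq_zero.mpr (hApp x hx)
  have h1 := hxw _ hD
  rw [wordOp_natural (fun ℓ A A' _ _ f ψ => heckeOp_natural ℓ A A' f ψ)] at h1
  have hψmem : wordOp (heckeOp N p) ℤ (FreeAlgebra.ι ℤ q - w) φ ∈
      intHoms (Gamma0 N) (parabolicSet N) := wordOp_mem_intHoms _ _ hφ
  have hred : (Int.castAddHom (ZMod (p ^ n))).comp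
      (wordOp (heckeOp N p) ℤ (FreeAlgebra.ι ℤ q - w) φ) = 0 := by
    refine DFunLike.ext _ _ (fun g => ?_)
    have h2 : e n (wordOp (heckeOp N p) ℤ (FreeAlgebra.ι ℤ q - w) φ g) = 0 :=
      DFunLike.congr_fun h1 g
    have h3 := he n _ h2
    show ((wordOp (heckeOp N p) ℤ (FreeAlgebra.ι ℤ q - w) φ g : ℤ) : ZMod (p ^ n)) = 0
    exact (ZMod.intCast_zmod_eq_zero_iff_dvd _ _).mpr h3
  obtain ⟨y, hy, hψy⟩ := exists_eq_nsmul_of_castHom_eq_zero (p ^ n) (pow_ne_zero n hp0) _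
    hψmem hred
  refine ⟨y, hy, ?_⟩
  rw [← hψy, map_sub, LinearMap.sub_apply, wordOp_ι]

/-- **E-TQ on the lattice** (unconditional). -/
theorem s59tq_lat (N p : ℕ) [NeZero N] [Fact p.Prime]
    (S : Finset ℕ) (hgood : ∀ r : ℕ, r.Prime → r ∉ S → ¬ r ∣ N * p) (q : GoodPrime N p)
    (n : ℕ) :
    ∃ w ∈ wordsIn N p (outsideVars (↑S : Set ℕ)),
      ∀ φ : Additive (Gamma0 N) →+ ℤ, IsParabolicHom (Gamma0 N) φ →
        ∃ ψ : Additive (Gamma0 N) →+ ℤ, IsParabolicHom (Gamma0 N) ψ ∧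
          heckeOp N p q ℤ φ - wordOp (heckeOp N p) ℤ w φ = p ^ n • ψ :=
  s59tq_lat_of_pkg (s59tq_pkgLat N p Fact.out) S hgood q n

end Fermat.Agent.S59
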