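/-
S59, Route A, ETA′ (deputy helper72), piece **E-TQ** (helper75): the main statement.

"`T_q` is determined by the `T_ℓ`, `ℓ ≠ q`" — UNCONDITIONAL, in a shape-agnostic form:

`L` a finite free module over a Noetherian local domain `𝒪` with `p ∈ 𝔪_𝒪`, with endomorphisms
`T ℓ` and an additive map `j : Hom_par(Γ₀(N), ℤ) → L` whose image spans `L` and which intertwines
`Tc ℓ` with `T ℓ` (`ℓ ∤ N p`).  (Examples: `L = 𝒪 ⊗ Lpar N`, `j = 1 ⊗ ·`; or a Hecke-stable direct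
summand `e L` with `j = e (1 ⊗ ·)`.)  `S` a finite set of primes containing the primes dividing
`N p`, `q ∤ N p` a prime (typically `q ∈ S`).

`s59tq_main` : if `x ≠ 0` satisfies `T ℓ x = a ℓ • x` for the primes `ℓ ∉ S` and `T q x = a q • x`,
then every `y` with `T ℓ y = a ℓ • y` for the primes `ℓ ∉ S` satisfies `T q y = a q • y`.

This is `hTQ` of `s59r2_hmult_abs` / `s59r2_step_abs` (`S59/Eta/PlanR2.lean`).
-/
import Fermat.Agent.S59.Eta.TqAbs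
import Fermat.Agent.S59.Eta.TqLat
import Fermat.Agent.S41.Plan

set_option autoImplicit false
set_option linter.style.haveILetI false
set_option linter.unusedSectionVars false

noncomputable section

namespace Fermat.Agent.S59

open ModularCurve CongruenceSubgroup ModularCurve.Period Fermat.Agent.ES Fermat.Agent.S31
  Fermat.Agent.S30 Fermat.Agent.S41 IsLocalRing
open scoped MatrixGroups

section Words

variable {𝒪 L X : Type} [CommRing 𝒪] [AddCommGroup L] [Module 𝒪 L]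

/-- a joint eigenvector of the letters in `V` is an eigenvector of every word in `V` -/
theorem s59tq_word_eigen (T : X → Module.End 𝒪 L) (a : X → 𝒪) (V : Set X) (z : L)
    (hz : ∀ ℓ ∈ V, T ℓ z = a ℓ • z) (w : FreeAlgebra ℤ X)
    (hw : w ∈ Algebra.adjoin ℤ ((FreeAlgebra.ι ℤ) '' V)) :
    FreeAlgebra.lift ℤ T w z = FreeAlgebra.lift ℤ a w • z := by
  induction hw using Algebra.adjoin_induction with
  | mem u hu =>
    obtain ⟨ℓ, hℓ, rfl⟩ := hu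
    rw [FreeAlgebra.lift_ι_apply, FreeAlgebra.lift_ι_apply]
    exact hz ℓ hℓ
  | algebraMap r =>
    rw [AlgHom.commutes, AlgHom.commutes, Module.algebraMap_end_apply]
    rw [eq_intCast, Int.cast_smul_eq_zsmul]
  | add u v _ _ hu hv =>
    rw [map_add, map_add, LinearMap.add_apply, hu, hv, add_smul]
  | mul u v _ _ hu hv =>
    rw [map_mul, map_mul, Module.End.mul_apply, hv, map_smul, hu, smul_smul, mul_comm]

end Words

section Intertwine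

variable {N p : ℕ} {𝒪 L : Type} [CommRing 𝒪] [AddCommGroup L] [Module 𝒪 L]

/-- words act on the parabolic lattice -/
theorem s59tq_wordOp_mem (w : FreeAlgebra ℤ (GoodPrime N p)) (φ : HomG N ℤ) (hφ : φ ∈ Lpar N) :
    wordOp (heckeOp N p) ℤ w φ ∈ Lpar N :=
  wordOp_mem_intHoms w φ hφ

/-- `j` intertwines the words on the lattice with the words on `L` -/
theorem s59tq_word_intertwine (T : GoodPrime N p → Module.End 𝒪 L) (j : ↥(Lpar N) →+ L)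
    (hT : ∀ (ℓ : GoodPrime N p) (φ ψ : ↥(Lpar N)),
      (ψ : HomG N ℤ) = heckeOp N p ℓ ℤ (φ : HomG N ℤ) → T ℓ (j φ) = j ψ)
    (w : FreeAlgebra ℤ (GoodPrime N p)) (φ ψ : ↥(Lpar N))
    (h : (ψ : HomG N ℤ) = wordOp (heckeOp N p) ℤ w (φ : HomG N ℤ)) :
    FreeAlgebra.lift ℤ T w (j φ) = j ψ := by
  induction w using FreeAlgebra.induction generalizing φ ψ with
  | grade0 r =>
    rw [AlgHom.commutes, Module.algebraMap_end_apply] at h
    rw [AlgHom.commutes, Module.algebraMap_end_apply]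
    have h1 : ψ = r • φ := Subtype.ext h
    rw [h1, map_zsmul]
  | grade1 ℓ =>
    rw [wordOp_ι] at h
    rw [FreeAlgebra.lift_ι_apply]
    exact hT ℓ φ ψ h
  | mul u v hu hv =>
    rw [map_mul, Module.End.mul_apply] at h
    rw [map_mul, Module.End.mul_apply]
    rw [hv φ ⟨wordOp (heckeOp N p) ℤ v (φ : HomG N ℤ), s59tq_wordOp_mem v _ φ.2⟩ rfl]
    exact hu _ ψ h
  | add u v hu hv =>
    rw [map_add, LinearMap.add_apply] at h
    rw [map_add, LinearMap.add_apply]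
    rw [hu φ ⟨wordOp (heckeOp N p) ℤ u (φ : HomG N ℤ), s59tq_wordOp_mem u _ φ.2⟩ rfl,
      hv φ ⟨wordOp (heckeOp N p) ℤ v (φ : HomG N ℤ), s59tq_wordOp_mem v _ φ.2⟩ rfl,
      ← map_add]
    congr 1
    exact Subtype.ext h.symm

end Intertwine

section Main

variable {N p : ℕ} [NeZero N] [Fact p.Prime]
  {𝒪 L : Type} [CommRing 𝒪] [IsDomain 𝒪] [IsLocalRing 𝒪] [IsNoetherianRing 𝒪]
  [AddCommGroup L] [Module 𝒪 L] [Module.Finite 𝒪 L] [Module.Free 𝒪 L]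

/-- **E-TQ, congruence form**: for every `n` there is an endomorphism `W` of `L`, a word in the
`T ℓ` (`ℓ ∉ S`), with `T q ≡ W` modulo `pⁿ`, acting on every joint eigenvector of the `T ℓ`
(`ℓ ∉ S`) with eigenvalues `a ℓ` by one and the same scalar `c`. -/
theorem s59tq_congr (T : ℕ → Module.End 𝒪 L) (j : ↥(Lpar N) →+ L)
    (hj : Submodule.span 𝒪 (Set.range j) = ⊤)
    (hT : ∀ (ℓ : ℕ) [Fact ℓ.Prime] (hℓ : ¬ ℓ ∣ N), ℓ ≠ p → ∀ φ ψ : ↥(Lpar N),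
      (ψ : HomG N ℤ) = Tc ℓ hℓ (φ : HomG N ℤ) → T ℓ (j φ) = j ψ)
    (S : Finset ℕ) (hS : ∀ r : ℕ, r.Prime → r ∣ N * p → r ∈ S)
    (q : ℕ) (hq : q.Prime) (hqNp : ¬ q ∣ N * p) (a : ℕ → 𝒪) (n : ℕ) :
    ∃ (W : Module.End 𝒪 L) (c : 𝒪),
      (∀ z : L, (∀ ℓ : ℕ, ℓ.Prime → ℓ ∉ S → T ℓ z = a ℓ • z) → W z = c • z) ∧
      ∀ z : L, ∃ z' : L, T q z - W z = (p : 𝒪) ^ n • z' := by
  classical
  have hgood : ∀ r : ℕ, r.Prime → r ∉ S → ¬ r ∣ N * p := fun r hr hrS h => hrS (hS r hr h)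
  obtain ⟨w, hw, hlat⟩ := s59tq_lat N p S hgood (⟨⟨q, hq⟩, hqNp⟩ : GoodPrime N p) n
  -- the operators and eigenvalues indexed by the good primes
  obtain ⟨T', hT'def⟩ : ∃ T' : GoodPrime N p → Module.End 𝒪 L,
      ∀ ℓ : GoodPrime N p, T' ℓ = T ((ℓ : Nat.Primes) : ℕ) := ⟨_, fun _ => rfl⟩
  obtain ⟨a', ha'def⟩ : ∃ a' : GoodPrime N p → 𝒪,
      ∀ ℓ : GoodPrime N p, a' ℓ = a ((ℓ : Nat.Primes) : ℕ) := ⟨_, fun _ => rfl⟩
  have hT' : ∀ (ℓ : GoodPrime N p) (φ ψ : ↥(Lpar N)),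
      (ψ : HomG N ℤ) = heckeOp N p ℓ ℤ (φ : HomG N ℤ) → T' ℓ (j φ) = j ψ := by
    intro ℓ φ ψ h
    haveI : Fact ((ℓ : Nat.Primes) : ℕ).Prime := ⟨ℓ.1.2⟩
    rw [hT'def]
    exact hT _ (GoodPrime.not_dvd ℓ) (ne_of_not_dvd_mul ℓ.2) φ ψ h
  refine ⟨FreeAlgebra.lift ℤ T' w, FreeAlgebra.lift ℤ a' w, ?_, ?_⟩
  · intro z hz
    refine s59tq_word_eigen T' a'
      {ℓ : GoodPrime N p | (ℓ : Nat.Primes) ∈ outsideVars (↑S : Set ℕ)} z ?_ w hw
    intro ℓ hℓ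
    rw [hT'def, ha'def]
    exact hz _ ℓ.1.2 hℓ
  · intro z
    have hz : z ∈ Submodule.span 𝒪 (Set.range j) := by rw [hj]; exact Submodule.mem_top
    induction hz using Submodule.span_induction with
    | mem u hu =>
      obtain ⟨φ, rfl⟩ := hu
      obtain ⟨ψ, hψ, hψeq⟩ := hlat (φ : HomG N ℤ) φ.2
      refine ⟨j ⟨ψ, hψ⟩, ?_⟩
      have h1 : T q (j φ) = j ⟨heckeOp N p (⟨⟨q, hq⟩, hqNp⟩ : GoodPrime N p) ℤ (φ : HomG N ℤ),
          s59tq_wordOp_mem (FreeAlgebra.ι ℤ (⟨⟨q, hq⟩, hqNp⟩ : GoodPrime N p)) _ φ.2 |>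
            fun h => by rwa [wordOp_ι] at h⟩ := by
        have := hT' (⟨⟨q, hq⟩, hqNp⟩ : GoodPrime N p) φ
          ⟨heckeOp N p (⟨⟨q, hq⟩, hqNp⟩ : GoodPrime N p) ℤ (φ : HomG N ℤ),
          s59tq_wordOp_mem (FreeAlgebra.ι ℤ (⟨⟨q, hq⟩, hqNp⟩ : GoodPrime N p)) _ φ.2 |>
            fun h => by rwa [wordOp_ι] at h⟩ rfl
        rw [hT'def] at this
        exact this
      have h2 := s59tq_word_intertwine T' j hT' w φ
        ⟨wordOp (heckeOp N p) ℤ w (φ : HomG N ℤ), s59tq_wordOp_mem w _ φ.2⟩ rfl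
      rw [h1, h2, ← map_sub, ← Nat.cast_pow, Nat.cast_smul_eq_nsmul, ← map_nsmul]
      congr 1
      exact Subtype.ext hψeq
    | zero => exact ⟨0, by simp⟩
    | add u v _ _ hu hv =>
      obtain ⟨u', hu'⟩ := hu
      obtain ⟨v', hv'⟩ := hv
      refine ⟨u' + v', ?_⟩
      rw [map_add, map_add, smul_add, ← hu', ← hv']
      abel
    | smul c u _ hu =>
      obtain ⟨u', hu'⟩ := hu
      refine ⟨c • u', ?_⟩
      rw [map_smul, map_smul, ← smul_sub, hu', smul_comm]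

/-- **E-TQ** (unconditional): `T_q` is determined by the `T_ℓ`, `ℓ ∉ S`. -/
theorem s59tq_main (hp𝒪 : (p : 𝒪) ∈ maximalIdeal 𝒪)
    (T : ℕ → Module.End 𝒪 L) (j : ↥(Lpar N) →+ L)
    (hj : Submodule.span 𝒪 (Set.range j) = ⊤)
    (hT : ∀ (ℓ : ℕ) [Fact ℓ.Prime] (hℓ : ¬ ℓ ∣ N), ℓ ≠ p → ∀ φ ψ : ↥(Lpar N),
      (ψ : HomG N ℤ) = Tc ℓ hℓ (φ : HomG N ℤ) → T ℓ (j φ) = j ψ)
    (S : Finset ℕ) (hS : ∀ r : ℕ, r.Prime → r ∣ N * p → r ∈ S)
    (q : ℕ) (hq : q.Prime) (hqNp : ¬ q ∣ N * p) (a : ℕ → 𝒪)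
    (x : L) (hx0 : x ≠ 0) (hxq : T q x = a q • x)
    (hx : ∀ ℓ : ℕ, ℓ.Prime → ℓ ∉ S → T ℓ x = a ℓ • x)
    (y : L) (hy : ∀ ℓ : ℕ, ℓ.Prime → ℓ ∉ S → T ℓ y = a ℓ • y) :
    T q y = a q • y := by
  refine s59tq_abs_free (p : 𝒪) hp𝒪 (T q) (a q) x hx0 hxq y ?_
  intro n
  obtain ⟨W, c, hW, hcong⟩ := s59tq_congr T j hj hT S hS q hq hqNp a n
  exact ⟨W, c, hW x hx, hW y hy, hcong⟩

end Main

end Fermat.Agent.S59
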