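/-
S59, Route A, ETA′ (deputy helper72), piece **E-TQ** (helper75): the LITERAL hypothesis `hTQ` of
the hub (`s59r2_step_abs`, `s59r2f_step_DD`) on the full base-changed lattice `𝒪 ⊗ Lpar N`.

`s59tq_hTQ` : `t i` (`i : ι`) and `tq` `ℤ`-linear endomorphisms of `Lpar N` which are the Hecke
operators (`Tc ℓ` for every prime `ℓ ∉ S` is one of the `t i`; `tq = Tc q`, `q ∈ S`, `q ∤ N p`),
`S ⊇` the primes dividing `N p`.  If ONE `x ≠ 0` lies in the eigenspace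
`s59r2E (t i ⊗ 𝒪) ψ (tq ⊗ 𝒪) a`, then

    `∀ v, (∀ i, (t i).baseChange 𝒪 v = ψ i • v) → tq.baseChange 𝒪 v = a • v`.

UNCONDITIONAL (from `s59tq_main`).
-/
import Fermat.Agent.S59.Eta.TqMain
import Fermat.Agent.S59.Eta.PlanR2

set_option autoImplicit false
set_option linter.style.haveILetI false
set_option linter.unusedSectionVars false

noncomputable section

namespace Fermat.Agent.S59

open ModularCurve CongruenceSubgroup ModularCurve.Period Fermat.Agent.ES Fermat.Agent.S41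
  IsLocalRing TensorProduct
open scoped MatrixGroups

section TcZ

variable (N : ℕ) (ℓ : ℕ) [Fact ℓ.Prime] (hℓ : ¬ ℓ ∣ N)

/-- `T_ℓ` (`ℓ ∤ N`) on `Hom_par(Γ₀(N), ℤ)` -/
def s59tqTcZ : ↥(Lpar N) →ₗ[ℤ] ↥(Lpar N) :=
  (AddMonoidHom.mk'
    (fun x : ↥(Lpar N) =>
      (⟨Tc ℓ hℓ x.1, Fermat.Agent.ES.HeckeP.heckeHom_isParabolicHom hℓ x.2⟩ : ↥(Lpar N)))
    (fun x y => Subtype.ext (Fermat.Agent.ES.HeckeP.heckeHom_add hℓ x.1 y.1))).toIntLinearMap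

theorem s59tqTcZ_coe (x : ↥(Lpar N)) :
    ((s59tqTcZ N ℓ hℓ x : ↥(Lpar N)) : HomG N ℤ) = Tc ℓ hℓ x.1 := rfl

/-- an endomorphism of `Lpar N` which is `Tc ℓ` on the underlying homomorphisms is `s59tqTcZ` -/
theorem s59tqTcZ_eq (t : ↥(Lpar N) →ₗ[ℤ] ↥(Lpar N))
    (ht : ∀ φ : ↥(Lpar N), ((t φ : ↥(Lpar N)) : HomG N ℤ) = Tc ℓ hℓ (φ : HomG N ℤ)) :
    t = s59tqTcZ N ℓ hℓ :=
  LinearMap.ext fun φ => Subtype.ext (ht φ)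

end TcZ

section Span

variable (𝒪 : Type) [CommRing 𝒪] (Λ : Type) [AddCommGroup Λ]

/-- `𝒪 ⊗ Λ` is spanned by the pure tensors `1 ⊗ φ` -/
theorem s59tq_span_one_tmul :
    Submodule.span 𝒪 (Set.range fun φ : Λ => (1 : 𝒪) ⊗ₜ[ℤ] φ) = ⊤ := by
  rw [eq_top_iff]
  intro X _
  induction X using TensorProduct.induction_on with
  | zero => exact Submodule.zero_mem _
  | add X₁ X₂ h₁ h₂ => exact Submodule.add_mem _ (h₁ Submodule.mem_top) (h₂ Submodule.mem_top)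
  | tmul c φ =>
    have h : c ⊗ₜ[ℤ] φ = c • ((1 : 𝒪) ⊗ₜ[ℤ] φ) := by
      rw [TensorProduct.smul_tmul', smul_eq_mul, mul_one]
    rw [h]
    exact Submodule.smul_mem _ c (Submodule.subset_span ⟨φ, rfl⟩)

end Span

section Main

variable {N p : ℕ} [NeZero N] [Fact p.Prime]
  {𝒪 : Type} [CommRing 𝒪] [IsDomain 𝒪] [IsLocalRing 𝒪] [IsNoetherianRing 𝒪]
  [Module.Free ℤ ↥(Lpar N)] [Module.Finite ℤ ↥(Lpar N)]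

/-- **E-TQ on `𝒪 ⊗ Lpar N`, for the family of all `Tc ℓ`.** -/
theorem s59tq_bc (hp𝒪 : (p : 𝒪) ∈ maximalIdeal 𝒪)
    (S : Finset ℕ) (hS : ∀ r : ℕ, r.Prime → r ∣ N * p → r ∈ S)
    (q : ℕ) [Fact q.Prime] (hqN : ¬ q ∣ N) (hqp : q ≠ p) (a : ℕ → 𝒪) (aq : 𝒪)
    (x : 𝒪 ⊗[ℤ] ↥(Lpar N)) (hx0 : x ≠ 0)
    (hxq : (s59tqTcZ N q hqN).baseChange 𝒪 x = aq • x)
    (hx : ∀ (ℓ : ℕ) [Fact ℓ.Prime] (hℓ : ¬ ℓ ∣ N), ℓ ∉ S →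
      (s59tqTcZ N ℓ hℓ).baseChange 𝒪 x = a ℓ • x)
    (y : 𝒪 ⊗[ℤ] ↥(Lpar N))
    (hy : ∀ (ℓ : ℕ) [Fact ℓ.Prime] (hℓ : ¬ ℓ ∣ N), ℓ ∉ S →
      (s59tqTcZ N ℓ hℓ).baseChange 𝒪 y = a ℓ • y) :
    (s59tqTcZ N q hqN).baseChange 𝒪 y = aq • y := by
  classical
  have hq : q.Prime := Fact.out
  have hp : p.Prime := Fact.out
  have hqNp : ¬ q ∣ N * p := by
    intro h
    rcases (Nat.Prime.dvd_mul hq).mp h with h | h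
    · exact hqN h
    · exact hqp ((Nat.prime_dvd_prime_iff_eq hq hp).mp h)
  -- the family indexed by `ℕ`
  obtain ⟨T, hTdef⟩ : ∃ T : ℕ → Module.End 𝒪 (𝒪 ⊗[ℤ] ↥(Lpar N)),
      ∀ (ℓ : ℕ) [Fact ℓ.Prime] (hℓ : ¬ ℓ ∣ N), T ℓ = (s59tqTcZ N ℓ hℓ).baseChange 𝒪 := by
    refine ⟨fun ℓ => if h : ℓ.Prime ∧ ¬ ℓ ∣ N then
      (@s59tqTcZ N ℓ ⟨h.1⟩ h.2).baseChange 𝒪 else 0, ?_⟩
    intro ℓ hℓP hℓ
    have h : ℓ.Prime ∧ ¬ ℓ ∣ N := ⟨hℓP.out, hℓ⟩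
    simp only [dif_pos h]
  -- eigenvalues indexed by `ℕ`, with `aq` at `q`
  obtain ⟨a', ha'q, ha'⟩ : ∃ a' : ℕ → 𝒪, a' q = aq ∧ ∀ ℓ : ℕ, ℓ ≠ q → a' ℓ = a ℓ :=
    ⟨fun ℓ => if ℓ = q then aq else a ℓ, if_pos rfl, fun ℓ h => if_neg h⟩
  have hS' : ∀ ℓ : ℕ, ℓ.Prime → ℓ ∉ S → ¬ ℓ ∣ N := fun ℓ hℓ hℓS h =>
    hℓS (hS ℓ hℓ (dvd_mul_of_dvd_left h p))
  have hmain := s59tq_main (N := N) (p := p) (𝒪 := 𝒪) (L := 𝒪 ⊗[ℤ] ↥(Lpar N)) hp𝒪 T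
    ((TensorProduct.mk ℤ 𝒪 ↥(Lpar N) 1).toAddMonoidHom)
    (s59tq_span_one_tmul 𝒪 ↥(Lpar N))
    (by
      intro ℓ hℓP hℓ _ φ ψ h
      rw [hTdef ℓ hℓ]
      show (s59tqTcZ N ℓ hℓ).baseChange 𝒪 ((1 : 𝒪) ⊗ₜ[ℤ] φ) = (1 : 𝒪) ⊗ₜ[ℤ] ψ
      rw [LinearMap.baseChange_tmul]
      congr 1
      exact Subtype.ext h.symm)
    (S ∪ {q}) (fun r hr h => Finset.mem_union_left _ (hS r hr h)) q hq hqNp a' x hx0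
    (by rw [hTdef q hqN, ha'q]; exact hxq)
    (by
      intro ℓ hℓP hℓS
      have hℓS' : ℓ ∉ S := fun h => hℓS (Finset.mem_union_left _ h)
      have hℓq : ℓ ≠ q := fun h => hℓS (Finset.mem_union_right _ (Finset.mem_singleton.mpr h))
      haveI : Fact ℓ.Prime := ⟨hℓP⟩
      rw [hTdef ℓ (hS' ℓ hℓP hℓS'), ha' ℓ hℓq]
      exact hx ℓ (hS' ℓ hℓP hℓS') hℓS')
    y
    (by
      intro ℓ hℓP hℓS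
      have hℓS' : ℓ ∉ S := fun h => hℓS (Finset.mem_union_left _ h)
      have hℓq : ℓ ≠ q := fun h => hℓS (Finset.mem_union_right _ (Finset.mem_singleton.mpr h))
      haveI : Fact ℓ.Prime := ⟨hℓP⟩
      rw [hTdef ℓ (hS' ℓ hℓP hℓS'), ha' ℓ hℓq]
      exact hy ℓ (hS' ℓ hℓP hℓS') hℓS')
  rw [hTdef q hqN, ha'q] at hmain
  exact hmain

/-- **`hTQ`, literal shape of the hub** (`s59r2_step_abs`, `s59r2f_step_DD`). -/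
theorem s59tq_hTQ (hp𝒪 : (p : 𝒪) ∈ maximalIdeal 𝒪)
    (S : Finset ℕ) (hS : ∀ r : ℕ, r.Prime → r ∣ N * p → r ∈ S)
    {ι : Type} (t : ι → (↥(Lpar N) →ₗ[ℤ] ↥(Lpar N))) (ψ : ι → 𝒪)
    (ht : ∀ (ℓ : ℕ) [Fact ℓ.Prime] (hℓ : ¬ ℓ ∣ N), ℓ ∉ S →
      ∃ i : ι, ∀ φ : ↥(Lpar N), ((t i φ : ↥(Lpar N)) : HomG N ℤ) = Tc ℓ hℓ (φ : HomG N ℤ))
    (q : ℕ) [Fact q.Prime] (hqN : ¬ q ∣ N) (hqp : q ≠ p)
    (tq : ↥(Lpar N) →ₗ[ℤ] ↥(Lpar N))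
    (htq : ∀ φ : ↥(Lpar N), ((tq φ : ↥(Lpar N)) : HomG N ℤ) = Tc q hqN (φ : HomG N ℤ))
    (a : 𝒪) (x : 𝒪 ⊗[ℤ] ↥(Lpar N)) (hx0 : x ≠ 0)
    (hx : x ∈ s59r2E (fun i => (t i).baseChange 𝒪) ψ (tq.baseChange 𝒪) a) :
    ∀ v : 𝒪 ⊗[ℤ] ↥(Lpar N), (∀ i, (t i).baseChange 𝒪 v = ψ i • v) →
      tq.baseChange 𝒪 v = a • v := by
  classical
  intro v hv
  have htq' : tq = s59tqTcZ N q hqN := s59tqTcZ_eq N q hqN tq htq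
  -- choose the index of every prime outside `S`
  have hex : ∀ ℓ : ℕ, ∃ i : Option ι, ∀ (hℓP : ℓ.Prime) (hℓ : ¬ ℓ ∣ N), ℓ ∉ S →
      ∃ i₀ : ι, i = some i₀ ∧ t i₀ = @s59tqTcZ N ℓ ⟨hℓP⟩ hℓ := by
    intro ℓ
    by_cases h : ℓ.Prime ∧ ¬ ℓ ∣ N ∧ ℓ ∉ S
    · obtain ⟨i₀, hi₀⟩ := @ht ℓ ⟨h.1⟩ h.2.1 h.2.2
      exact ⟨some i₀, fun hℓP hℓ _ => ⟨i₀, rfl, @s59tqTcZ_eq N ℓ ⟨hℓP⟩ hℓ (t i₀) hi₀⟩⟩
    · exact ⟨none, fun hℓP hℓ hℓS => absurd ⟨hℓP, hℓ, hℓS⟩ h⟩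
  choose idx hidx using hex
  obtain ⟨a', ha'⟩ : ∃ a' : ℕ → 𝒪, ∀ (ℓ : ℕ) (i₀ : ι), idx ℓ = some i₀ → a' ℓ = ψ i₀ :=
    ⟨fun ℓ => (idx ℓ).elim 0 ψ, fun ℓ i₀ h => by simp only [h, Option.elim]⟩
  rw [htq']
  rw [htq'] at hx
  refine s59tq_bc (N := N) (p := p) hp𝒪 S hS q hqN hqp a' a x hx0 hx.2 ?_ v ?_
  · intro ℓ hℓP hℓ hℓS
    obtain ⟨i₀, hi₀, hti₀⟩ := hidx ℓ hℓP.out hℓ hℓS
    rw [ha' ℓ i₀ hi₀, ← hti₀]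
    exact hx.1 i₀
  · intro ℓ hℓP hℓ hℓS
    obtain ⟨i₀, hi₀, hti₀⟩ := hidx ℓ hℓP.out hℓ hℓS
    rw [ha' ℓ i₀ hi₀, ← hti₀]
    exact hv i₀

end Main

end Fermat.Agent.S59
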