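/-
S59, wall R2 (ETA′), piece **E-ASM** (helper72, deputy): THE ASSEMBLY of the step on the concrete
lattices `L_M = 𝒪 ⊗[ℤ] Hom_par(Γ₀(M), ℤ)`.

Objects (all from `S59/Eta/BCLin.lean`, helper36, base-changed to `𝒪`):

* `s59asmL 𝒪 M = 𝒪 ⊗[ℤ] ↥(Lpar M)`, `s59asmB 𝒪 M` the pairing, `s59asmT 𝒪 M ℓ hℓ` the Hecke
  operators (`ℓ ∤ M`), `s59asmXi0/1/2 𝒪 N q : L_N → L_{N q q}` the three degeneracy maps;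
* `s59asmE 𝒪 M p ψ` : the `ψ`-eigen-submodule (`T_ℓ y = ψ ℓ • y` for the primes `ℓ ∤ M`, `ℓ ≠ p`);
* `s59asmJ 𝒪 M p ψ x = B(x, E)` : the module congruence ideal;
* `s59asmDep 𝒪 N q a x = q ξ₀ x − a ξ₁ x + ξ₂ x` : the depleted vector.

Results:

* `s59asm_dep_mem`, `s59asm_dep_prim` : the depleted vector is an eigenvector, and primitive;
* **`s59asm_step`** : `J_{N q q}(x') ≤ ((q − 1)(ψ(q)² − (q + 1)²)) · J_N(x)`.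
  Inputs USED (all landed, unconditional): `hdep` (E-GRAM, helper80/helper36), `hcomm` (BCLin),
  `hsatE` (`s59bcr_hsatE`, helper19 + helper68), `hinj` (`s59gram_hinj_bcc`, helper80 + helper6),
  `hTQ` (`s59tq_hTQ`, helper75).  Inputs LEFT as hypotheses: the two non-Eisenstein units
  (E-NE, helper57: `s59ne_unit_two`) and **`s59asm_HRat`** (E-MULT1a/b, the long pole);
* `s59asmChain`, **`s59asm_chain`** : the induction over a sequence of primes `q₀, q₁, …`.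
-/
import Fermat.Agent.S59.Eta.PlanR2Full
import Fermat.Agent.S59.Eta.BCBase
import Fermat.Agent.S59.Eta.BCGram
import Fermat.Agent.S59.Eta.BCRedSat
import Fermat.Agent.S59.Eta.GramInj
import Fermat.Agent.S59.Eta.TqBC

set_option autoImplicit false
set_option linter.unusedSectionVars false
set_option linter.unusedVariables false
set_option linter.style.haveILetI false
set_option linter.style.longLine false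

noncomputable section

namespace Fermat.Agent.S59

open TensorProduct CongruenceSubgroup Fermat.Agent.S41 Fermat.Agent.S41.PD IsLocalRing

/-! ### The objects -/

section Defs

variable (𝒪 : Type) [CommRing 𝒪] (M : ℕ)

/-- the lattice `𝒪 ⊗ Hom_par(Γ₀(M), ℤ)` -/
abbrev s59asmL : Type := 𝒪 ⊗[ℤ] ↥(Lpar M)

variable [NeZero M]

/-- the pairing on `L_M` -/
def s59asmB : s59asmL 𝒪 M →ₗ[𝒪] s59asmL 𝒪 M →ₗ[𝒪] 𝒪 := s59bcForm 𝒪 (s59bcPairZ M)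

/-- the Hecke operator `T_ℓ` on `L_M` (`ℓ ∤ M`) -/
def s59asmT (ℓ : ℕ) [Fact ℓ.Prime] (hℓ : ¬ ℓ ∣ M) : s59asmL 𝒪 M →ₗ[𝒪] s59asmL 𝒪 M :=
  (s59bcTcZ M ℓ hℓ).baseChange 𝒪

/-- the `ψ`-eigen-submodule of `L_M`: `T_ℓ y = ψ ℓ • y` for every prime `ℓ ∤ M`, `ℓ ≠ p` -/
def s59asmE (p : ℕ) (ψ : ℕ → 𝒪) : Submodule 𝒪 (s59asmL 𝒪 M) where
  carrier := {y | ∀ (ℓ : ℕ) [Fact ℓ.Prime] (hℓ : ¬ ℓ ∣ M), ℓ ≠ p →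
    s59asmT 𝒪 M ℓ hℓ y = ψ ℓ • y}
  zero_mem' := fun ℓ _ hℓ _ => by rw [map_zero, smul_zero]
  add_mem' := fun {y z} hy hz ℓ _ hℓ hp => by rw [map_add, hy ℓ hℓ hp, hz ℓ hℓ hp, smul_add]
  smul_mem' := fun c y hy ℓ _ hℓ hp => by rw [map_smul, hy ℓ hℓ hp, smul_comm]

theorem s59asm_mem_E {p : ℕ} {ψ : ℕ → 𝒪} {y : s59asmL 𝒪 M} :
    y ∈ s59asmE 𝒪 M p ψ ↔ ∀ (ℓ : ℕ) [Fact ℓ.Prime] (hℓ : ¬ ℓ ∣ M), ℓ ≠ p →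
      s59asmT 𝒪 M ℓ hℓ y = ψ ℓ • y := Iff.rfl

/-- the module congruence ideal `J_M(x) = B(x, E)` -/
def s59asmJ (p : ℕ) (ψ : ℕ → 𝒪) (x : s59asmL 𝒪 M) : Ideal 𝒪 :=
  s59eta_J (s59asmB 𝒪 M) (s59asmE 𝒪 M p ψ) x

end Defs

section Level

variable (𝒪 : Type) [CommRing 𝒪] (N q : ℕ) [NeZero N] [NeZero q]

/-- `ξ₀ : L_N → L_{N q q}` -/
def s59asmXi0 : s59asmL 𝒪 N →ₗ[𝒪] s59asmL 𝒪 (N * q * q) := (s59bcXiZ0 N q).baseChange 𝒪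

/-- `ξ₁ : L_N → L_{N q q}` -/
def s59asmXi1 : s59asmL 𝒪 N →ₗ[𝒪] s59asmL 𝒪 (N * q * q) := (s59bcXiZ1 N q).baseChange 𝒪

/-- `ξ₂ : L_N → L_{N q q}` -/
def s59asmXi2 : s59asmL 𝒪 N →ₗ[𝒪] s59asmL 𝒪 (N * q * q) := (s59bcXiZ2 N q).baseChange 𝒪

/-- the depleted vector `x' = q ξ₀ x − a ξ₁ x + ξ₂ x` -/
def s59asmDep (a : 𝒪) (x : s59asmL 𝒪 N) : s59asmL 𝒪 (N * q * q) :=
  (q : 𝒪) • s59asmXi0 𝒪 N q x - a • s59asmXi1 𝒪 N q x + s59asmXi2 𝒪 N q x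

/-- **(hrat)**, the input of E-MULT1a/b at the level `N`, the prime `q`: every `ψ`-eigenvector of
level `N q q` is, up to a nonzero scalar, in the image of `ξ = (ξ₀, ξ₁, ξ₂)`. -/
def s59asm_HRat (p : ℕ) (ψ : ℕ → 𝒪) : Prop :=
  ∀ y' ∈ s59asmE 𝒪 (N * q * q) p ψ, ∃ c : 𝒪, c ≠ 0 ∧ ∃ w₀ w₁ w₂ : s59asmL 𝒪 N,
    c • y' = s59asmXi0 𝒪 N q w₀ + s59asmXi1 𝒪 N q w₁ + s59asmXi2 𝒪 N q w₂

end Level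

/-! ### The index type of the step -/

section Index

/-- the good primes of the step `N ↦ N q q`: the primes `ℓ ∤ N q q`, `ℓ ≠ p` -/
def S59asmI (N q p : ℕ) : Type := {ℓ : ℕ // ℓ.Prime ∧ ¬ ℓ ∣ N * q * q ∧ ℓ ≠ p}

variable {N q p : ℕ}

theorem S59asmI.fact (i : S59asmI N q p) : Fact i.1.Prime := ⟨i.2.1⟩

theorem S59asmI.not_dvd (i : S59asmI N q p) : ¬ i.1 ∣ N := fun h =>
  i.2.2.1 (Dvd.dvd.mul_right (Dvd.dvd.mul_right h q) q)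

theorem S59asmI.not_dvd_q (i : S59asmI N q p) : ¬ i.1 ∣ q := fun h =>
  i.2.2.1 (Dvd.dvd.mul_left h (N * q))

theorem s59asm_not_dvd_mul {N q ℓ : ℕ} (hℓ : ℓ.Prime) (hq : q.Prime) (hN : ¬ ℓ ∣ N)
    (hℓq : ℓ ≠ q) : ¬ ℓ ∣ N * q * q := by
  intro h
  rcases (Nat.Prime.dvd_mul hℓ).1 h with h1 | h1
  · rcases (Nat.Prime.dvd_mul hℓ).1 h1 with h2 | h2
    · exact hN h2
    · exact hℓq ((Nat.prime_dvd_prime_iff_eq hℓ hq).1 h2)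
  · exact hℓq ((Nat.prime_dvd_prime_iff_eq hℓ hq).1 h1)

end Index

/-! ### The families `t`, `t'` and the eigen-submodules -/

section Families

variable (𝒪 : Type) [CommRing 𝒪] (N q p : ℕ) [NeZero N] [NeZero q]

/-- the family `T_ℓ` (`ℓ` good) over `ℤ` at the level `N` -/
def s59asmTZ (i : S59asmI N q p) : ↥(Lpar N) →ₗ[ℤ] ↥(Lpar N) :=
  haveI := i.fact
  s59bcTcZ N i.1 i.not_dvd

/-- the family `T_ℓ` (`ℓ` good) over `ℤ` at the level `N q q` -/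
def s59asmTZ' (i : S59asmI N q p) : ↥(Lpar (N * q * q)) →ₗ[ℤ] ↥(Lpar (N * q * q)) :=
  haveI := i.fact
  s59bcTcZ (N * q * q) i.1 i.2.2.1

/-- the family `T_ℓ` (`ℓ` good) at the level `N` -/
def s59asmTI (i : S59asmI N q p) : s59asmL 𝒪 N →ₗ[𝒪] s59asmL 𝒪 N :=
  (s59asmTZ N q p i).baseChange 𝒪

/-- the family `T_ℓ` (`ℓ` good) at the level `N q q` -/
def s59asmTI' (i : S59asmI N q p) : s59asmL 𝒪 (N * q * q) →ₗ[𝒪] s59asmL 𝒪 (N * q * q) :=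
  (s59asmTZ' N q p i).baseChange 𝒪

theorem s59asmTI_eq (i : S59asmI N q p) :
    s59asmTI 𝒪 N q p i = @s59asmT 𝒪 _ N _ i.1 i.fact i.not_dvd := rfl

theorem s59asmTI'_eq (i : S59asmI N q p) :
    s59asmTI' 𝒪 N q p i = @s59asmT 𝒪 _ (N * q * q) _ i.1 i.fact i.2.2.1 := rfl

/-- `E'` of the step is the eigen-submodule of the level `N q q` -/
theorem s59asm_E'_eq (ψ : ℕ → 𝒪) :
    s59r2E' (s59asmTI' 𝒪 N q p) (fun i => ψ i.1) = s59asmE 𝒪 (N * q * q) p ψ := by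
  ext y
  constructor
  · intro h ℓ hℓ hℓN hℓp
    exact h ⟨ℓ, hℓ.out, hℓN, hℓp⟩
  · intro h i
    exact @h i.1 i.fact i.2.2.1 i.2.2.2

variable [hq : Fact q.Prime]

/-- `E` of the step is the eigen-submodule of the level `N` -/
theorem s59asm_E_eq (hqN : ¬ q ∣ N) (hqp : q ≠ p) (ψ : ℕ → 𝒪) :
    s59r2E (s59asmTI 𝒪 N q p) (fun i => ψ i.1) (s59asmT 𝒪 N q hqN) (ψ q) =
      s59asmE 𝒪 N p ψ := by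
  ext y
  constructor
  · rintro ⟨h1, h2⟩ ℓ hℓ hℓN hℓp
    by_cases hℓq : ℓ = q
    · subst hℓq
      exact h2
    · exact h1 ⟨ℓ, hℓ.out, s59asm_not_dvd_mul hℓ.out hq.out hℓN hℓq, hℓp⟩
  · intro h
    exact ⟨fun i => @h i.1 i.fact i.not_dvd i.2.2.2, h q hqN hqp⟩

/-- `hcomm` of the step -/
theorem s59asm_hcomm (i : S59asmI N q p) (w : s59asmL 𝒪 N) :
    s59asmXi0 𝒪 N q (s59asmTI 𝒪 N q p i w) = s59asmTI' 𝒪 N q p i (s59asmXi0 𝒪 N q w) ∧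
    s59asmXi1 𝒪 N q (s59asmTI 𝒪 N q p i w) = s59asmTI' 𝒪 N q p i (s59asmXi1 𝒪 N q w) ∧
    s59asmXi2 𝒪 N q (s59asmTI 𝒪 N q p i w) = s59asmTI' 𝒪 N q p i (s59asmXi2 𝒪 N q w) :=
  s59bcc_hcomm 𝒪 (s59bcXiZ0 N q) (s59bcXiZ1 N q) (s59bcXiZ2 N q) (s59asmTZ N q p)
    (s59asmTZ' N q p)
    (fun i w => by
      haveI := i.fact
      exact ⟨s59bcXiZ0_Tc N q i.1 i.not_dvd i.2.2.1 w, s59bcXiZ1_Tc N q i.1 i.not_dvd i.2.2.1 w,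
        s59bcXiZ2_Tc N q i.1 i.not_dvd i.2.2.1 w⟩) i w

/-- `hdep` of the step -/
theorem s59asm_hdep (hqN : ¬ q ∣ N) (x w₀ w₁ w₂ : s59asmL 𝒪 N) :
    s59asmB 𝒪 (N * q * q)
        ((q : 𝒪) • s59asmXi0 𝒪 N q x - s59asmXi1 𝒪 N q (s59asmT 𝒪 N q hqN x) +
          s59asmXi2 𝒪 N q x)
        (s59asmXi0 𝒪 N q w₀ + s59asmXi1 𝒪 N q w₁ + s59asmXi2 𝒪 N q w₂) =
      s59asmB 𝒪 N (((q : 𝒪) - 1) • (((q : 𝒪) + 1) ^ 2 • x -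
        s59asmT 𝒪 N q hqN (s59asmT 𝒪 N q hqN x))) w₀ := by
  have h := s59bcc_hdep 𝒪 (s59bcPairZ N) (s59bcPairZ (N * q * q)) (s59bcXiZ0 N q)
    (s59bcXiZ1 N q) (s59bcXiZ2 N q) (s59bcTcZ N q hqN) (q : ℤ) (s59bcg_hdepZ N q hqN) x w₀ w₁ w₂
  rw [Int.cast_natCast] at h
  exact h

end Families

/-! ### The step -/

section Step

variable (𝒪 : Type) [CommRing 𝒪] [IsDomain 𝒪] [IsDiscreteValuationRing 𝒪] [CharZero 𝒪]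
  (p : ℕ) [Fact p.Prime] (N q : ℕ) [NeZero N] [NeZero q] [hq : Fact q.Prime]

/-- the depleted vector is a `ψ`-eigenvector of the level `N q q` -/
theorem s59asm_dep_mem (hqN : ¬ q ∣ N) (hqp : q ≠ p) (ψ : ℕ → 𝒪) (x : s59asmL 𝒪 N)
    (hx : x ∈ s59asmE 𝒪 N p ψ) :
    s59asmDep 𝒪 N q (ψ q) x ∈ s59asmE 𝒪 (N * q * q) p ψ := by
  haveI : NoZeroSMulDivisors 𝒪 (s59asmL 𝒪 N) := s59bcc_noZeroSMulDivisors 𝒪 _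
  haveI : NoZeroSMulDivisors 𝒪 (s59asmL 𝒪 (N * q * q)) := s59bcc_noZeroSMulDivisors 𝒪 _
  rw [← s59asm_E'_eq 𝒪 N q p ψ]
  rw [← s59asm_E_eq 𝒪 N q p hqN hqp ψ] at hx
  exact s59r2_depleted_mem (s59asmXi0 𝒪 N q) (s59asmXi1 𝒪 N q) (s59asmXi2 𝒪 N q)
    (s59asmTI 𝒪 N q p) (s59asmTI' 𝒪 N q p) (fun i => ψ i.1) (s59asmT 𝒪 N q hqN) (q : 𝒪) (ψ q)
    (s59asm_hcomm 𝒪 N q p) x hx

/-- `hsatE` of the step (helper19's `s59bcr_hsatE`) -/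
theorem s59asm_hsatE (hp2 : p ≠ 2) (hqN : ¬ q ∣ N) (hqp : q ≠ p) {ϖ : 𝒪}
    (hpϖ : (p : 𝒪) ∈ Ideal.span {ϖ}) (i₁ i₂ : S59asmI N q p) :
    ∀ (w₀ w₁ w₂ : s59asmL 𝒪 N) (y' : s59asmL 𝒪 (N * q * q)),
      s59asmXi0 𝒪 N q w₀ + s59asmXi1 𝒪 N q w₁ + s59asmXi2 𝒪 N q w₂ = ϖ • y' →
      ∃ v₀ v₁ v₂ : s59asmL 𝒪 N,
        s59r2fDD (s59asmTI 𝒪 N q p) i₁ i₂ ((i₁.1 : 𝒪) + 1) ((i₂.1 : 𝒪) + 1) w₀ = ϖ • v₀ ∧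
        s59r2fDD (s59asmTI 𝒪 N q p) i₁ i₂ ((i₁.1 : 𝒪) + 1) ((i₂.1 : 𝒪) + 1) w₁ = ϖ • v₁ ∧
        s59r2fDD (s59asmTI 𝒪 N q p) i₁ i₂ ((i₁.1 : 𝒪) + 1) ((i₂.1 : 𝒪) + 1) w₂ = ϖ • v₂ := by
  haveI := i₁.fact
  haveI := i₂.fact
  exact s59bcr_hsatE N q p 𝒪 ϖ hqN hp2 (Ne.symm hqp) hpϖ i₁.1 i₂.1 i₁.not_dvd i₂.not_dvd
    i₁.not_dvd_q i₂.not_dvd_q (s59asmTI 𝒪 N q p) i₁ i₂ rfl rfl

/-- `hTQ` of the step (helper75's `s59tq_hTQ`): needs one nonzero eigenvector -/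
theorem s59asm_hTQ (hp𝒪 : (p : 𝒪) ∈ maximalIdeal 𝒪) (hqN : ¬ q ∣ N) (hqp : q ≠ p)
    (ψ : ℕ → 𝒪) (x : s59asmL 𝒪 N) (hx : x ∈ s59asmE 𝒪 N p ψ) (hx0 : x ≠ 0) :
    ∀ v : s59asmL 𝒪 N, (∀ i, s59asmTI 𝒪 N q p i v = ψ i.1 • v) →
      s59asmT 𝒪 N q hqN v = ψ q • v := by
  classical
  have hp : p.Prime := Fact.out
  have hNp : N * p ≠ 0 := Nat.mul_ne_zero (NeZero.ne N) hp.ne_zero
  rw [← s59asm_E_eq 𝒪 N q p hqN hqp ψ] at hx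
  refine s59tq_hTQ (N := N) (p := p) (𝒪 := 𝒪) hp𝒪 (insert q (N * p).primeFactors) ?_
    (s59asmTZ N q p) (fun i => ψ i.1) ?_ q hqN hqp (s59bcTcZ N q hqN) (fun φ => rfl) (ψ q) x hx0
    hx
  · intro r hr hrd
    exact Finset.mem_insert_of_mem (Nat.mem_primeFactors.2 ⟨hr, hrd, hNp⟩)
  · intro ℓ hℓ hℓN hℓS
    rw [Finset.mem_insert, not_or] at hℓS
    have hℓp : ℓ ≠ p := by
      rintro rfl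
      exact hℓS.2 (Nat.mem_primeFactors.2 ⟨hℓ.out, Dvd.intro_left N rfl, hNp⟩)
    exact ⟨⟨ℓ, hℓ.out, s59asm_not_dvd_mul hℓ.out hq.out hℓN hℓS.1, hℓp⟩, fun φ => rfl⟩

/-- **(R2, THE STEP on the concrete lattices)**:
`J_{N q q}(q ξ₀ x − ψ(q) ξ₁ x + ξ₂ x) ≤ ((q − 1)(ψ(q)² − (q + 1)²)) · J_N(x)`.
Hypotheses left: two non-Eisenstein primes `ℓ₁, ℓ₂` (E-NE) and `hrat` (E-MULT1a/b). -/
theorem s59asm_step (hp2 : p ≠ 2) (hp𝒪 : (p : 𝒪) ∈ maximalIdeal 𝒪)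
    (hqN : ¬ q ∣ N) (hqp : q ≠ p) (ψ : ℕ → 𝒪)
    (ℓ₁ ℓ₂ : ℕ) (h₁ : ℓ₁.Prime) (h₂ : ℓ₂.Prime) (h₁N : ¬ ℓ₁ ∣ N * q * q)
    (h₂N : ¬ ℓ₂ ∣ N * q * q) (h₁p : ℓ₁ ≠ p) (h₂p : ℓ₂ ≠ p)
    (hu₁ : IsUnit (ψ ℓ₁ - ((ℓ₁ : 𝒪) + 1))) (hu₂ : IsUnit (ψ ℓ₂ - ((ℓ₂ : 𝒪) + 1)))
    (hrat : s59asm_HRat 𝒪 N q p ψ)
    (x : s59asmL 𝒪 N) (hx : x ∈ s59asmE 𝒪 N p ψ) (hx0 : x ≠ 0) :
    s59asmJ 𝒪 (N * q * q) p ψ (s59asmDep 𝒪 N q (ψ q) x) ≤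
      Ideal.span {((q : 𝒪) - 1) * (ψ q ^ 2 - ((q : 𝒪) + 1) ^ 2)} * s59asmJ 𝒪 N p ψ x := by
  obtain ⟨ϖ, hϖ⟩ := IsDiscreteValuationRing.exists_irreducible 𝒪
  have hpϖ : (p : 𝒪) ∈ Ideal.span {ϖ} := by
    rw [← hϖ.maximalIdeal_eq]
    exact hp𝒪
  haveI : NoZeroSMulDivisors 𝒪 (s59asmL 𝒪 N) := s59bcc_noZeroSMulDivisors 𝒪 _
  haveI : NoZeroSMulDivisors 𝒪 (s59asmL 𝒪 (N * q * q)) := s59bcc_noZeroSMulDivisors 𝒪 _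
  have hx' : x ∈ s59r2E (s59asmTI 𝒪 N q p) (fun i => ψ i.1) (s59asmT 𝒪 N q hqN) (ψ q) := by
    rw [s59asm_E_eq 𝒪 N q p hqN hqp ψ]
    exact hx
  have hrat' : ∀ y' ∈ s59r2E' (s59asmTI' 𝒪 N q p) (fun i => ψ i.1), ∃ c : 𝒪, c ≠ 0 ∧
      ∃ w₀ w₁ w₂ : s59asmL 𝒪 N,
        c • y' = s59asmXi0 𝒪 N q w₀ + s59asmXi1 𝒪 N q w₁ + s59asmXi2 𝒪 N q w₂ := by
    intro y' hy'
    rw [s59asm_E'_eq 𝒪 N q p ψ] at hy'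
    exact hrat y' hy'
  have key := s59r2f_step_DD (s59asmB 𝒪 N) (s59asmB 𝒪 (N * q * q)) (s59asmXi0 𝒪 N q)
    (s59asmXi1 𝒪 N q) (s59asmXi2 𝒪 N q) (s59asmTI 𝒪 N q p) (s59asmTI' 𝒪 N q p)
    (fun i => ψ i.1) (s59asmT 𝒪 N q hqN) (q : 𝒪) (ψ q) hϖ (s59asm_hdep 𝒪 N q hqN)
    (s59asm_hcomm 𝒪 N q p) (⟨ℓ₁, h₁, h₁N, h₁p⟩ : S59asmI N q p) ⟨ℓ₂, h₂, h₂N, h₂p⟩
    ((ℓ₁ : 𝒪) + 1) ((ℓ₂ : 𝒪) + 1) hu₁ hu₂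
    (s59asm_hsatE 𝒪 p N q hp2 hqN hqp hpϖ ⟨ℓ₁, h₁, h₁N, h₁p⟩ ⟨ℓ₂, h₂, h₂N, h₂p⟩)
    (s59gram_hinj_bcc 𝒪 N q hqN) hrat' (s59asm_hTQ 𝒪 p N q hp𝒪 hqN hqp ψ x hx hx0) x hx'
  rw [s59asm_E'_eq 𝒪 N q p ψ, s59asm_E_eq 𝒪 N q p hqN hqp ψ] at key
  exact key

/-- **(PRIM)** the depleted vector is primitive if `x` is (no `hrat` needed). -/
theorem s59asm_dep_prim (hp2 : p ≠ 2) (hqN : ¬ q ∣ N) (hqp : q ≠ p) (ψ : ℕ → 𝒪)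
    (ℓ₁ ℓ₂ : ℕ) (h₁ : ℓ₁.Prime) (h₂ : ℓ₂.Prime) (h₁N : ¬ ℓ₁ ∣ N * q * q)
    (h₂N : ¬ ℓ₂ ∣ N * q * q) (h₁p : ℓ₁ ≠ p) (h₂p : ℓ₂ ≠ p)
    (hu₁ : IsUnit (ψ ℓ₁ - ((ℓ₁ : 𝒪) + 1))) (hu₂ : IsUnit (ψ ℓ₂ - ((ℓ₂ : 𝒪) + 1)))
    {ϖ : 𝒪} (hpϖ : (p : 𝒪) ∈ Ideal.span {ϖ})
    (x : s59asmL 𝒪 N) (hx : x ∈ s59asmE 𝒪 N p ψ) (hprim : ∀ v : s59asmL 𝒪 N, x ≠ ϖ • v) :
    ∀ y' : s59asmL 𝒪 (N * q * q), s59asmDep 𝒪 N q (ψ q) x ≠ ϖ • y' := by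
  haveI : NoZeroSMulDivisors 𝒪 (s59asmL 𝒪 N) := s59bcc_noZeroSMulDivisors 𝒪 _
  haveI : NoZeroSMulDivisors 𝒪 (s59asmL 𝒪 (N * q * q)) := s59bcc_noZeroSMulDivisors 𝒪 _
  have hx' : x ∈ s59r2E (s59asmTI 𝒪 N q p) (fun i => ψ i.1) (s59asmT 𝒪 N q hqN) (ψ q) := by
    rw [s59asm_E_eq 𝒪 N q p hqN hqp ψ]
    exact hx
  exact s59r2f_prim_DD (s59asmXi0 𝒪 N q) (s59asmXi1 𝒪 N q) (s59asmXi2 𝒪 N q)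
    (s59asmTI 𝒪 N q p) (fun i => ψ i.1) (q : 𝒪) (ψ q)
    (⟨ℓ₁, h₁, h₁N, h₁p⟩ : S59asmI N q p) ⟨ℓ₂, h₂, h₂N, h₂p⟩
    ((ℓ₁ : 𝒪) + 1) ((ℓ₂ : 𝒪) + 1) hu₁ hu₂
    (s59asm_hsatE 𝒪 p N q hp2 hqN hqp hpϖ ⟨ℓ₁, h₁, h₁N, h₁p⟩ ⟨ℓ₂, h₂, h₂N, h₂p⟩)
    x hx'.1 hprim

end Step

end Fermat.Agent.S59

end
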