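/-
S59, wall R2 (ETA′), piece **E-ASM**, part 2 (helper72, deputy): THE CHAIN.

The induction of Wiles over a sequence of primes `q₀, q₁, …` (the primes of `Σ`), on the concrete
lattices `L_M = 𝒪 ⊗[ℤ] Hom_par(Γ₀(M), ℤ)`:

* `S59asmSt 𝒪` : a state = a level `M ≠ 0` with a vector `x ∈ L_M`;
* `s59asmNext ψ q s` : the next state `(M q q, q ξ₀ x − ψ(q) ξ₁ x + ξ₂ x)`;
* `s59asmChain ψ qs s₀ i` : the `i`-th state; `s59asmEta p ψ s = J_M(x)` its congruence ideal;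
* `s59asmGood p ψ ϖ s` : `x` is a PRIMITIVE `ψ`-eigenvector;
* `s59asm_next` : one step (`Good` is kept, `η' ≤ c_q η`);
* **`s59asm_chain`** : `∀ i ≤ n, Good (chain i)` and `∀ i < n, η_{i+1} ≤ c_{q_i} η_i`
  (= `heta` of `s59top_StmtChain`, `c i = s59p_cq 𝒪 (qs i) (ψ (qs i))`).

Hypotheses left: `hrat` at every level of the chain (E-MULT1a/b) and two non-Eisenstein primes.
-/
import Fermat.Agent.S59.Eta.Asm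

set_option autoImplicit false
set_option linter.unusedSectionVars false
set_option linter.unusedVariables false
set_option linter.style.haveILetI false
set_option linter.style.longLine false

noncomputable section

namespace Fermat.Agent.S59

open TensorProduct CongruenceSubgroup Fermat.Agent.S41 Fermat.Agent.S41.PD IsLocalRing

section Chain

variable (𝒪 : Type) [CommRing 𝒪]

/-- a state of the chain: a level `M ≠ 0` and a vector of `L_M` -/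
structure S59asmSt where
  /-- the level -/
  M : ℕ
  /-- the level is nonzero -/
  hM : M ≠ 0
  /-- the vector -/
  x : s59asmL 𝒪 M

variable {𝒪}

/-- the next state: level `M q q`, the depleted vector -/
def s59asmNext (ψ : ℕ → 𝒪) (q : ℕ) (s : S59asmSt 𝒪) : S59asmSt 𝒪 :=
  if hq : q = 0 then s else
    { M := s.M * q * q
      hM := Nat.mul_ne_zero (Nat.mul_ne_zero s.hM hq) hq
      x := @s59asmDep 𝒪 _ s.M q ⟨s.hM⟩ ⟨hq⟩ (ψ q) s.x }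

theorem s59asmNext_eq (ψ : ℕ → 𝒪) (q : ℕ) (hq : q ≠ 0) (s : S59asmSt 𝒪) :
    s59asmNext ψ q s =
      { M := s.M * q * q
        hM := Nat.mul_ne_zero (Nat.mul_ne_zero s.hM hq) hq
        x := @s59asmDep 𝒪 _ s.M q ⟨s.hM⟩ ⟨hq⟩ (ψ q) s.x } := by
  unfold s59asmNext
  rw [dif_neg hq]

theorem s59asmNext_M (ψ : ℕ → 𝒪) (q : ℕ) (hq : q ≠ 0) (s : S59asmSt 𝒪) :
    (s59asmNext ψ q s).M = s.M * q * q := by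
  rw [s59asmNext_eq ψ q hq s]

/-- the chain of states -/
def s59asmChain (ψ : ℕ → 𝒪) (qs : ℕ → ℕ) (s₀ : S59asmSt 𝒪) : ℕ → S59asmSt 𝒪
  | 0 => s₀
  | i + 1 => s59asmNext ψ (qs i) (s59asmChain ψ qs s₀ i)

@[simp]
theorem s59asmChain_zero (ψ : ℕ → 𝒪) (qs : ℕ → ℕ) (s₀ : S59asmSt 𝒪) :
    s59asmChain ψ qs s₀ 0 = s₀ := rfl

theorem s59asmChain_succ (ψ : ℕ → 𝒪) (qs : ℕ → ℕ) (s₀ : S59asmSt 𝒪) (i : ℕ) :
    s59asmChain ψ qs s₀ (i + 1) = s59asmNext ψ (qs i) (s59asmChain ψ qs s₀ i) := rfl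

/-- the level of the `i`-th state: `M₀ · ∏_{j < i} q_j²` -/
theorem s59asmChain_M (ψ : ℕ → 𝒪) (qs : ℕ → ℕ) (s₀ : S59asmSt 𝒪) (n : ℕ)
    (hqs : ∀ i < n, qs i ≠ 0) :
    ∀ i ≤ n, (s59asmChain ψ qs s₀ i).M = s₀.M * ∏ j ∈ Finset.range i, qs j ^ 2 := by
  intro i
  induction i with
  | zero => intro _; simp
  | succ i ih =>
    intro hi
    rw [s59asmChain_succ, s59asmNext_M ψ (qs i) (hqs i (by omega)), ih (by omega),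
      Finset.prod_range_succ]
    ring

/-- the congruence ideal of a state -/
def s59asmEta (p : ℕ) (ψ : ℕ → 𝒪) (s : S59asmSt 𝒪) : Ideal 𝒪 :=
  @s59asmJ 𝒪 _ s.M ⟨s.hM⟩ p ψ s.x

/-- a good state: `x` is a primitive `ψ`-eigenvector -/
def s59asmGood (p : ℕ) (ψ : ℕ → 𝒪) (ϖ : 𝒪) (s : S59asmSt 𝒪) : Prop :=
  s.x ∈ @s59asmE 𝒪 _ s.M ⟨s.hM⟩ p ψ ∧ ∀ v : s59asmL 𝒪 s.M, s.x ≠ ϖ • v

/-- `hrat` at a state, for the prime `q` -/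
def s59asmRat (p : ℕ) (ψ : ℕ → 𝒪) (q : ℕ) (s : S59asmSt 𝒪) : Prop :=
  ∀ hq : q ≠ 0, @s59asm_HRat 𝒪 _ s.M q ⟨s.hM⟩ ⟨hq⟩ p ψ

theorem s59asmGood.ne_zero {p : ℕ} {ψ : ℕ → 𝒪} {ϖ : 𝒪} {s : S59asmSt 𝒪}
    (h : s59asmGood p ψ ϖ s) : s.x ≠ 0 := fun h0 => h.2 0 (by rw [h0, smul_zero])

end Chain

section Main

variable {𝒪 : Type} [CommRing 𝒪] [IsDomain 𝒪] [IsDiscreteValuationRing 𝒪] [CharZero 𝒪]
  (p : ℕ) [Fact p.Prime]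

/-- **one step of the chain** -/
theorem s59asm_next (hp2 : p ≠ 2) (hp𝒪 : (p : 𝒪) ∈ maximalIdeal 𝒪) (ψ : ℕ → 𝒪) {ϖ : 𝒪}
    (hϖ : Irreducible ϖ)
    (ℓ₁ ℓ₂ : ℕ) (h₁ : ℓ₁.Prime) (h₂ : ℓ₂.Prime) (h₁p : ℓ₁ ≠ p) (h₂p : ℓ₂ ≠ p)
    (hu₁ : IsUnit (ψ ℓ₁ - ((ℓ₁ : 𝒪) + 1))) (hu₂ : IsUnit (ψ ℓ₂ - ((ℓ₂ : 𝒪) + 1)))
    (s : S59asmSt 𝒪) (q : ℕ) (hq : q.Prime) (hqM : ¬ q ∣ s.M) (hqp : q ≠ p)
    (h₁M : ¬ ℓ₁ ∣ s.M * q * q) (h₂M : ¬ ℓ₂ ∣ s.M * q * q)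
    (hrat : s59asmRat p ψ q s) (hs : s59asmGood p ψ ϖ s) :
    s59asmGood p ψ ϖ (s59asmNext ψ q s) ∧
      s59asmEta p ψ (s59asmNext ψ q s) ≤
        Ideal.span {((q : 𝒪) - 1) * (ψ q ^ 2 - ((q : 𝒪) + 1) ^ 2)} * s59asmEta p ψ s := by
  haveI : NeZero s.M := ⟨s.hM⟩
  haveI : NeZero q := ⟨hq.ne_zero⟩
  haveI : Fact q.Prime := ⟨hq⟩
  have hpϖ : (p : 𝒪) ∈ Ideal.span {ϖ} := by
    rw [← hϖ.maximalIdeal_eq]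
    exact hp𝒪
  rw [s59asmNext_eq ψ q hq.ne_zero s]
  refine ⟨⟨s59asm_dep_mem 𝒪 p s.M q hqM hqp ψ s.x hs.1, ?_⟩, ?_⟩
  · exact s59asm_dep_prim 𝒪 p s.M q hp2 hqM hqp ψ ℓ₁ ℓ₂ h₁ h₂ h₁M h₂M h₁p h₂p hu₁ hu₂ hpϖ s.x
      hs.1 hs.2
  · exact s59asm_step 𝒪 p s.M q hp2 hp𝒪 hqM hqp ψ ℓ₁ ℓ₂ h₁ h₂ h₁M h₂M h₁p h₂p hu₁ hu₂
      (hrat hq.ne_zero) s.x hs.1 hs.ne_zero

/-- **(R2, THE CHAIN)**: along a sequence of primes `q_i` (`q_i ∤ M_i`, `q_i ≠ p`), starting from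
a primitive `ψ`-eigenvector `x₀` of level `M₀`, every state is good and
`η_{i+1} ≤ ((q_i − 1)(ψ(q_i)² − (q_i + 1)²)) · η_i`. -/
theorem s59asm_chain (hp2 : p ≠ 2) (hp𝒪 : (p : 𝒪) ∈ maximalIdeal 𝒪) (ψ : ℕ → 𝒪) {ϖ : 𝒪}
    (hϖ : Irreducible ϖ)
    (ℓ₁ ℓ₂ : ℕ) (h₁ : ℓ₁.Prime) (h₂ : ℓ₂.Prime) (h₁p : ℓ₁ ≠ p) (h₂p : ℓ₂ ≠ p)
    (hu₁ : IsUnit (ψ ℓ₁ - ((ℓ₁ : 𝒪) + 1))) (hu₂ : IsUnit (ψ ℓ₂ - ((ℓ₂ : 𝒪) + 1)))
    (qs : ℕ → ℕ) (s₀ : S59asmSt 𝒪) (n : ℕ)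
    (hqs : ∀ i < n, (qs i).Prime ∧ ¬ qs i ∣ (s59asmChain ψ qs s₀ i).M ∧ qs i ≠ p)
    (h₁M : ∀ i ≤ n, ¬ ℓ₁ ∣ (s59asmChain ψ qs s₀ i).M)
    (h₂M : ∀ i ≤ n, ¬ ℓ₂ ∣ (s59asmChain ψ qs s₀ i).M)
    (hrat : ∀ i < n, s59asmRat p ψ (qs i) (s59asmChain ψ qs s₀ i))
    (hs₀ : s59asmGood p ψ ϖ s₀) :
    (∀ i ≤ n, s59asmGood p ψ ϖ (s59asmChain ψ qs s₀ i)) ∧
      ∀ i < n, s59asmEta p ψ (s59asmChain ψ qs s₀ (i + 1)) ≤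
        Ideal.span {((qs i : 𝒪) - 1) * (ψ (qs i) ^ 2 - ((qs i : 𝒪) + 1) ^ 2)} *
          s59asmEta p ψ (s59asmChain ψ qs s₀ i) := by
  have hstep : ∀ i < n, s59asmGood p ψ ϖ (s59asmChain ψ qs s₀ i) →
      s59asmGood p ψ ϖ (s59asmChain ψ qs s₀ (i + 1)) ∧
        s59asmEta p ψ (s59asmChain ψ qs s₀ (i + 1)) ≤
          Ideal.span {((qs i : 𝒪) - 1) * (ψ (qs i) ^ 2 - ((qs i : 𝒪) + 1) ^ 2)} *
            s59asmEta p ψ (s59asmChain ψ qs s₀ i) := by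
    intro i hi hg
    obtain ⟨hq, hqM, hqp⟩ := hqs i hi
    have e : (s59asmChain ψ qs s₀ (i + 1)).M =
        (s59asmChain ψ qs s₀ i).M * qs i * qs i := by
      rw [s59asmChain_succ, s59asmNext_M ψ (qs i) hq.ne_zero]
    have h₁' := h₁M (i + 1) (by omega)
    have h₂' := h₂M (i + 1) (by omega)
    rw [e] at h₁' h₂'
    exact s59asm_next p hp2 hp𝒪 ψ hϖ ℓ₁ ℓ₂ h₁ h₂ h₁p h₂p hu₁ hu₂ _ (qs i) hq hqM hqp h₁' h₂'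
      (hrat i hi) hg
  have hgood : ∀ i ≤ n, s59asmGood p ψ ϖ (s59asmChain ψ qs s₀ i) := by
    intro i
    induction i with
    | zero => intro _; exact hs₀
    | succ i ih =>
      intro hi
      exact (hstep i (by omega) (ih (by omega))).1
  exact ⟨hgood, fun i hi => (hstep i hi (hgood i (by omega))).2⟩

end Main

end Fermat.Agent.S59

end
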