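import Mathlib
import Fermat.Agent.S59.Eta.PlanR2Full

/-!
# S59, wall M5 (P-STEP), piece ETA-P — the abstract step with TWO degeneracy maps (helper72)

The twin of `S59/Eta/Abs.lean` (`s59eta_step_abs`) and `S59/Eta/PlanR2Full.lean` for the step
`N ↦ N p` (`p ∤ N`; in the application `p` is the residue characteristic):
`L = 𝒪 ⊗ Lpar N`, `L' = 𝒪 ⊗ Lpar (N p)`, `ξ₀ = res`, `ξ₁ = res^δ`, `tp = T_p` on `L`, `c = p + 1`.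

* `hdep`  : `B' (c ξ₀ x − ξ₁ (T_p x)) (ξ₀ w₀ + ξ₁ w₁) = B (c² x − T_p² x) w₀`  (2×2 Gram matrix
            `[[p + 1, T_p], [T_p, p + 1]]`);
* `hsatE` : `ξ₀ w₀ + ξ₁ w₁ ∈ ϖ L' ⇒ s w_i ∈ ϖ L` (Ihara's lemma at `p`, `s = D_ℓ = T_ℓ − (ℓ + 1)`);
* `hinj`, `hrat`, `hTQ`, `hcomm` as for the `q`-step.

Results: `s59etp_step_abs` (`J' ≤ (c² − a²) · J` from `hmult`), `s59etp_lift`, `s59etp_hmult`,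
**`s59etp_step`** (full lattices), `s59etp_prim`, and the forms `s59etp_step_D`, `s59etp_prim_D`
with `s = t i₁ − c₁`.
-/

set_option autoImplicit false
set_option linter.unusedSectionVars false
set_option linter.unusedVariables false
set_option linter.style.haveILetI false

namespace Fermat.Agent.S59

open IsLocalRing

section Abs

variable {𝒪 : Type} [CommRing 𝒪]
  {L L' : Type} [AddCommGroup L] [Module 𝒪 L] [AddCommGroup L'] [Module 𝒪 L']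

/-- **(ETA-P, abstract)**: `B'(x', E') ≤ (c² − a²) · B(x, E)` for `x' = c ξ₀ x − a ξ₁ x`. -/
theorem s59etp_step_abs (B : L →ₗ[𝒪] L →ₗ[𝒪] 𝒪) (B' : L' →ₗ[𝒪] L' →ₗ[𝒪] 𝒪)
    (ξ₀ ξ₁ : L →ₗ[𝒪] L') (tp : L →ₗ[𝒪] L) (c a : 𝒪)
    (hdep : ∀ x w₀ w₁ : L, B' (c • ξ₀ x - ξ₁ (tp x)) (ξ₀ w₀ + ξ₁ w₁) =
      B (c ^ 2 • x - tp (tp x)) w₀)
    (E : Submodule 𝒪 L) (E' : Submodule 𝒪 L') (hE : ∀ y ∈ E, tp y = a • y)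
    (hmult : ∀ y' ∈ E', ∃ w₀ ∈ E, ∃ w₁ ∈ E, y' = ξ₀ w₀ + ξ₁ w₁)
    (x : L) (hx : x ∈ E) :
    s59eta_J B' E' (c • ξ₀ x - a • ξ₁ x) ≤ Ideal.span {c ^ 2 - a ^ 2} * s59eta_J B E x := by
  intro d hd
  rw [s59eta_mem_J] at hd
  obtain ⟨y', hy', rfl⟩ := hd
  obtain ⟨w₀, hw₀, w₁, -, rfl⟩ := hmult y' hy'
  have h1 : c • ξ₀ x - a • ξ₁ x = c • ξ₀ x - ξ₁ (tp x) := by
    rw [hE x hx, map_smul]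
  rw [h1, hdep]
  have h2 : c ^ 2 • x - tp (tp x) = (c ^ 2 - a ^ 2) • x := by
    rw [hE x hx, map_smul, hE x hx, smul_smul, ← sub_smul]
    congr 1
    ring
  rw [h2, map_smul, LinearMap.smul_apply, smul_eq_mul]
  exact Ideal.mul_mem_mul (Ideal.mem_span_singleton_self _) (s59eta_mem_J.2 ⟨w₀, hw₀, rfl⟩)

end Abs

section Full

variable {𝒪 : Type} [CommRing 𝒪] [IsDomain 𝒪] [IsDiscreteValuationRing 𝒪]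
  {L L' : Type} [AddCommGroup L] [Module 𝒪 L] [AddCommGroup L'] [Module 𝒪 L']
  [NoZeroSMulDivisors 𝒪 L] [NoZeroSMulDivisors 𝒪 L']
  {ι : Type}

/-- **Lifting through `ξ = (ξ₀, ξ₁)`.** -/
theorem s59etp_lift (ξ₀ ξ₁ : L →ₗ[𝒪] L') {ϖ : 𝒪} (hϖ : Irreducible ϖ)
    (s : L →ₗ[𝒪] L) (s' : L' →ₗ[𝒪] L') (u : 𝒪) (hu : IsUnit u)
    (hsξ : ∀ w : L, ξ₀ (s w) = s' (ξ₀ w) ∧ ξ₁ (s w) = s' (ξ₁ w))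
    (hsatE : ∀ (w₀ w₁ : L) (y' : L'), ξ₀ w₀ + ξ₁ w₁ = ϖ • y' →
      ∃ v₀ v₁ : L, s w₀ = ϖ • v₀ ∧ s w₁ = ϖ • v₁)
    (y' : L') (hy' : s' y' = u • y') (c : 𝒪) (hc : c ≠ 0) (w₀ w₁ : L)
    (h : c • y' = ξ₀ w₀ + ξ₁ w₁) :
    ∃ v₀ v₁ : L, y' = ξ₀ v₀ + ξ₁ v₁ := by
  obtain ⟨n, u₀, rfl⟩ := IsDiscreteValuationRing.eq_unit_mul_pow_irreducible hc hϖ
  clear hc
  induction n generalizing u₀ w₀ w₁ with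
  | zero =>
    refine ⟨(↑u₀⁻¹ : 𝒪) • w₀, (↑u₀⁻¹ : 𝒪) • w₁, ?_⟩
    rw [map_smul, map_smul, ← smul_add, ← h, pow_zero, mul_one, smul_smul,
      Units.inv_mul, one_smul]
  | succ n ih =>
    have h1 : ξ₀ w₀ + ξ₁ w₁ = ϖ • ((↑u₀ * ϖ ^ n) • y') := by
      rw [← h, smul_smul]
      congr 1
      ring
    obtain ⟨v₀, v₁, e₀, e₁⟩ := hsatE w₀ w₁ _ h1
    obtain ⟨u', rfl⟩ := hu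
    have h2 : ϖ • (ξ₀ v₀ + ξ₁ v₁) = ϖ • ((↑(u₀ * u') * ϖ ^ n) • y') := by
      calc ϖ • (ξ₀ v₀ + ξ₁ v₁)
          = ξ₀ (s w₀) + ξ₁ (s w₁) := by
            rw [e₀, e₁, map_smul, map_smul, smul_add]
        _ = s' (ξ₀ w₀ + ξ₁ w₁) := by
            rw [(hsξ w₀).1, (hsξ w₁).2, map_add]
        _ = (↑u₀ * ϖ ^ (n + 1)) • ((↑u' : 𝒪) • y') := by
            rw [← h, map_smul, hy']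
        _ = ϖ • ((↑(u₀ * u') * ϖ ^ n) • y') := by
            rw [smul_smul, smul_smul, Units.val_mul]
            congr 1
            ring
    have h3 : (↑(u₀ * u') * ϖ ^ n) • y' = ξ₀ v₀ + ξ₁ v₁ :=
      (smul_right_injective L' hϖ.ne_zero h2).symm
    exact ih _ _ _ h3

/-- the eigen-submodule `E = {y | T_ℓ y = ψ ℓ • y (ℓ good), T_p y = a • y}` is `s59r2E`;
**(hmult)** for two maps: `E' ⊆ ξ₀ E + ξ₁ E`. -/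
theorem s59etp_hmult (ξ₀ ξ₁ : L →ₗ[𝒪] L') (t : ι → L →ₗ[𝒪] L) (t' : ι → L' →ₗ[𝒪] L')
    (ψ : ι → 𝒪) (tp : L →ₗ[𝒪] L) (a : 𝒪) {ϖ : 𝒪} (hϖ : Irreducible ϖ)
    (hcomm : ∀ (i : ι) (w : L), ξ₀ (t i w) = t' i (ξ₀ w) ∧ ξ₁ (t i w) = t' i (ξ₁ w))
    (s : L →ₗ[𝒪] L) (s' : L' →ₗ[𝒪] L') (u : 𝒪) (hu : IsUnit u)
    (hsξ : ∀ w : L, ξ₀ (s w) = s' (ξ₀ w) ∧ ξ₁ (s w) = s' (ξ₁ w))
    (hs' : ∀ y' ∈ s59r2E' t' ψ, s' y' = u • y')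
    (hsatE : ∀ (w₀ w₁ : L) (y' : L'), ξ₀ w₀ + ξ₁ w₁ = ϖ • y' →
      ∃ v₀ v₁ : L, s w₀ = ϖ • v₀ ∧ s w₁ = ϖ • v₁)
    (hinj : ∀ w₀ w₁ : L, ξ₀ w₀ + ξ₁ w₁ = 0 → w₀ = 0 ∧ w₁ = 0)
    (hrat : ∀ y' ∈ s59r2E' t' ψ, ∃ c : 𝒪, c ≠ 0 ∧ ∃ w₀ w₁ : L, c • y' = ξ₀ w₀ + ξ₁ w₁)
    (hTQ : ∀ v : L, (∀ i, t i v = ψ i • v) → tp v = a • v) :
    ∀ y' ∈ s59r2E' t' ψ, ∃ w₀ ∈ s59r2E t ψ tp a, ∃ w₁ ∈ s59r2E t ψ tp a,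
      y' = ξ₀ w₀ + ξ₁ w₁ := by
  intro y' hy'
  obtain ⟨c, hc, w₀, w₁, hw⟩ := hrat y' hy'
  obtain ⟨v₀, v₁, hv⟩ :=
    s59etp_lift ξ₀ ξ₁ hϖ s s' u hu hsξ hsatE y' (hs' y' hy') c hc w₀ w₁ hw
  have heig : ∀ i, t i v₀ = ψ i • v₀ ∧ t i v₁ = ψ i • v₁ := by
    intro i
    have h1 : ξ₀ (t i v₀ - ψ i • v₀) + ξ₁ (t i v₁ - ψ i • v₁) = 0 := by
      have h2 : t' i y' = ψ i • y' := hy' i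
      rw [hv, map_add, ← (hcomm i v₀).1, ← (hcomm i v₁).2, smul_add] at h2
      rw [map_sub, map_sub, map_smul, map_smul]
      have h3 : ξ₀ (t i v₀) + ξ₁ (t i v₁) - (ψ i • ξ₀ v₀ + ψ i • ξ₁ v₁) = 0 :=
        sub_eq_zero.2 h2
      rw [← h3]
      abel
    obtain ⟨e₀, e₁⟩ := hinj _ _ h1
    exact ⟨sub_eq_zero.1 e₀, sub_eq_zero.1 e₁⟩
  exact ⟨v₀, ⟨fun i => (heig i).1, hTQ v₀ fun i => (heig i).1⟩,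
    v₁, ⟨fun i => (heig i).2, hTQ v₁ fun i => (heig i).2⟩, hv⟩

/-- **(ETA-P, the step on the full lattices)**: `J' ≤ (c² − a²) · J` for the vector
`x' = c ξ₀ x − a ξ₁ x` (`c = p + 1`, `a = ψ(p)`). -/
theorem s59etp_step (B : L →ₗ[𝒪] L →ₗ[𝒪] 𝒪) (B' : L' →ₗ[𝒪] L' →ₗ[𝒪] 𝒪)
    (ξ₀ ξ₁ : L →ₗ[𝒪] L') (t : ι → L →ₗ[𝒪] L) (t' : ι → L' →ₗ[𝒪] L')
    (ψ : ι → 𝒪) (tp : L →ₗ[𝒪] L) (c a : 𝒪) {ϖ : 𝒪} (hϖ : Irreducible ϖ)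
    (hdep : ∀ x w₀ w₁ : L, B' (c • ξ₀ x - ξ₁ (tp x)) (ξ₀ w₀ + ξ₁ w₁) =
      B (c ^ 2 • x - tp (tp x)) w₀)
    (hcomm : ∀ (i : ι) (w : L), ξ₀ (t i w) = t' i (ξ₀ w) ∧ ξ₁ (t i w) = t' i (ξ₁ w))
    (s : L →ₗ[𝒪] L) (s' : L' →ₗ[𝒪] L') (u : 𝒪) (hu : IsUnit u)
    (hsξ : ∀ w : L, ξ₀ (s w) = s' (ξ₀ w) ∧ ξ₁ (s w) = s' (ξ₁ w))
    (hs' : ∀ y' ∈ s59r2E' t' ψ, s' y' = u • y')
    (hsatE : ∀ (w₀ w₁ : L) (y' : L'), ξ₀ w₀ + ξ₁ w₁ = ϖ • y' →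
      ∃ v₀ v₁ : L, s w₀ = ϖ • v₀ ∧ s w₁ = ϖ • v₁)
    (hinj : ∀ w₀ w₁ : L, ξ₀ w₀ + ξ₁ w₁ = 0 → w₀ = 0 ∧ w₁ = 0)
    (hrat : ∀ y' ∈ s59r2E' t' ψ, ∃ c : 𝒪, c ≠ 0 ∧ ∃ w₀ w₁ : L, c • y' = ξ₀ w₀ + ξ₁ w₁)
    (hTQ : ∀ v : L, (∀ i, t i v = ψ i • v) → tp v = a • v)
    (x : L) (hx : x ∈ s59r2E t ψ tp a) :
    s59eta_J B' (s59r2E' t' ψ) (c • ξ₀ x - a • ξ₁ x) ≤
      Ideal.span {c ^ 2 - a ^ 2} * s59eta_J B (s59r2E t ψ tp a) x :=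
  s59etp_step_abs B B' ξ₀ ξ₁ tp c a hdep (s59r2E t ψ tp a) (s59r2E' t' ψ)
    (fun y hy => hy.2)
    (s59etp_hmult ξ₀ ξ₁ t t' ψ tp a hϖ hcomm s s' u hu hsξ hs' hsatE hinj hrat hTQ) x hx

/-- the vector `x' = c ξ₀ x − a ξ₁ x` lies in `E'` -/
theorem s59etp_mem (ξ₀ ξ₁ : L →ₗ[𝒪] L') (t : ι → L →ₗ[𝒪] L) (t' : ι → L' →ₗ[𝒪] L')
    (ψ : ι → 𝒪) (tp : L →ₗ[𝒪] L) (c a : 𝒪)
    (hcomm : ∀ (i : ι) (w : L), ξ₀ (t i w) = t' i (ξ₀ w) ∧ ξ₁ (t i w) = t' i (ξ₁ w))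
    (x : L) (hx : x ∈ s59r2E t ψ tp a) :
    c • ξ₀ x - a • ξ₁ x ∈ s59r2E' t' ψ := by
  intro i
  rw [map_sub, map_smul, map_smul, ← (hcomm i x).1, ← (hcomm i x).2, hx.1 i, map_smul,
    map_smul, smul_sub, smul_comm (ψ i) c, smul_comm (ψ i) a]

/-- **(PRIM)**: `x' = c ξ₀ x − a ξ₁ x` is primitive if `x` is and `c` is a unit
(`c = p + 1 ≡ 1`). -/
theorem s59etp_prim (ξ₀ ξ₁ : L →ₗ[𝒪] L') (c a : 𝒪) {ϖ : 𝒪} (hc : IsUnit c)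
    (s : L →ₗ[𝒪] L) (u : 𝒪) (hu : IsUnit u)
    (hsatE : ∀ (w₀ w₁ : L) (y' : L'), ξ₀ w₀ + ξ₁ w₁ = ϖ • y' →
      ∃ v₀ v₁ : L, s w₀ = ϖ • v₀ ∧ s w₁ = ϖ • v₁)
    (x : L) (hsx : s x = u • x) (hprim : ∀ v : L, x ≠ ϖ • v) :
    ∀ y' : L', c • ξ₀ x - a • ξ₁ x ≠ ϖ • y' := by
  intro y' h
  have h1 : ξ₀ (c • x) + ξ₁ ((-a) • x) = ϖ • y' := by
    rw [map_smul, map_smul, neg_smul, ← sub_eq_add_neg]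
    exact h
  obtain ⟨v₀, -, h2, -⟩ := hsatE _ _ _ h1
  obtain ⟨u', rfl⟩ := hu
  obtain ⟨c', rfl⟩ := hc
  apply hprim ((↑u'⁻¹ * ↑c'⁻¹ : 𝒪) • v₀)
  rw [smul_comm, ← h2, map_smul, hsx, smul_smul, smul_smul]
  have e : (↑u'⁻¹ * ↑c'⁻¹ * ↑c' * ↑u' : 𝒪) = 1 := by
    calc (↑u'⁻¹ * ↑c'⁻¹ * ↑c' * ↑u' : 𝒪) = (↑u'⁻¹ * ↑u') * (↑c'⁻¹ * ↑c') := by ring
      _ = 1 := by rw [Units.inv_mul, Units.inv_mul, one_mul]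
  rw [e, one_smul]

/-- `D = t i₁ − c₁` -/
def s59etpD (t : ι → L →ₗ[𝒪] L) (i₁ : ι) (c₁ : 𝒪) : L →ₗ[𝒪] L := t i₁ - c₁ • LinearMap.id

theorem s59etpD_apply (t : ι → L →ₗ[𝒪] L) (i₁ : ι) (c₁ : 𝒪) (w : L) :
    s59etpD t i₁ c₁ w = t i₁ w - c₁ • w := rfl

/-- **(ETA-P, the step, `s = D_ℓ`)** -/
theorem s59etp_step_D (B : L →ₗ[𝒪] L →ₗ[𝒪] 𝒪) (B' : L' →ₗ[𝒪] L' →ₗ[𝒪] 𝒪)
    (ξ₀ ξ₁ : L →ₗ[𝒪] L') (t : ι → L →ₗ[𝒪] L) (t' : ι → L' →ₗ[𝒪] L')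
    (ψ : ι → 𝒪) (tp : L →ₗ[𝒪] L) (c a : 𝒪) {ϖ : 𝒪} (hϖ : Irreducible ϖ)
    (hdep : ∀ x w₀ w₁ : L, B' (c • ξ₀ x - ξ₁ (tp x)) (ξ₀ w₀ + ξ₁ w₁) =
      B (c ^ 2 • x - tp (tp x)) w₀)
    (hcomm : ∀ (i : ι) (w : L), ξ₀ (t i w) = t' i (ξ₀ w) ∧ ξ₁ (t i w) = t' i (ξ₁ w))
    (i₁ : ι) (c₁ : 𝒪) (hu₁ : IsUnit (ψ i₁ - c₁))
    (hsatE : ∀ (w₀ w₁ : L) (y' : L'), ξ₀ w₀ + ξ₁ w₁ = ϖ • y' →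
      ∃ v₀ v₁ : L, s59etpD t i₁ c₁ w₀ = ϖ • v₀ ∧ s59etpD t i₁ c₁ w₁ = ϖ • v₁)
    (hinj : ∀ w₀ w₁ : L, ξ₀ w₀ + ξ₁ w₁ = 0 → w₀ = 0 ∧ w₁ = 0)
    (hrat : ∀ y' ∈ s59r2E' t' ψ, ∃ c : 𝒪, c ≠ 0 ∧ ∃ w₀ w₁ : L, c • y' = ξ₀ w₀ + ξ₁ w₁)
    (hTQ : ∀ v : L, (∀ i, t i v = ψ i • v) → tp v = a • v)
    (x : L) (hx : x ∈ s59r2E t ψ tp a) :
    s59eta_J B' (s59r2E' t' ψ) (c • ξ₀ x - a • ξ₁ x) ≤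
      Ideal.span {c ^ 2 - a ^ 2} * s59eta_J B (s59r2E t ψ tp a) x :=
  s59etp_step B B' ξ₀ ξ₁ t t' ψ tp c a hϖ hdep hcomm
    (s59etpD t i₁ c₁) (s59etpD t' i₁ c₁) (ψ i₁ - c₁) hu₁
    (fun w => by
      rw [s59etpD_apply, s59etpD_apply, s59etpD_apply, map_sub, map_sub,
        map_smul, map_smul, (hcomm i₁ w).1, (hcomm i₁ w).2]
      exact ⟨rfl, rfl⟩)
    (fun y' hy' => by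
      rw [s59etpD_apply, hy' i₁, ← sub_smul])
    hsatE hinj hrat hTQ x hx

/-- **(PRIM, `s = D_ℓ`)** -/
theorem s59etp_prim_D (ξ₀ ξ₁ : L →ₗ[𝒪] L') (t : ι → L →ₗ[𝒪] L) (ψ : ι → 𝒪) (c a : 𝒪)
    {ϖ : 𝒪} (hc : IsUnit c) (i₁ : ι) (c₁ : 𝒪) (hu₁ : IsUnit (ψ i₁ - c₁))
    (hsatE : ∀ (w₀ w₁ : L) (y' : L'), ξ₀ w₀ + ξ₁ w₁ = ϖ • y' →
      ∃ v₀ v₁ : L, s59etpD t i₁ c₁ w₀ = ϖ • v₀ ∧ s59etpD t i₁ c₁ w₁ = ϖ • v₁)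
    (x : L) (hx : ∀ i, t i x = ψ i • x) (hprim : ∀ v : L, x ≠ ϖ • v) :
    ∀ y' : L', c • ξ₀ x - a • ξ₁ x ≠ ϖ • y' :=
  s59etp_prim ξ₀ ξ₁ c a hc (s59etpD t i₁ c₁) (ψ i₁ - c₁) hu₁ hsatE x
    (by rw [s59etpD_apply, hx i₁, ← sub_smul]) hprim

end Full

end Fermat.Agent.S59
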