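import Mathlib
import Fermat.Agent.S59.Eta.PStepAbs

/-!
# S59, wall M5 (P-STEP), piece ETA-P — the abstract step, ANEMIC form (helper72)

The form of `S59/Eta/PStepAbs.lean` which is used at `p`: the eigen-submodules `E ⊆ L`, `E' ⊆ L'`
are both cut out by the SAME family of operators (`T_ℓ`, `ℓ ∤ N p`), and `T_p` is only known on
the ONE vector `x` (`T_p x = a • x`).  No `hTQ`.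

* `s59etq_step_abs` : `J'(c ξ₀ x − a ξ₁ x) ≤ (c² − a²) · J(x)` from `hmult`;
* `s59etq_hmult`    : `E' ⊆ ξ₀ E + ξ₁ E` (from `hsatE`, `hinj`, `hrat`, `hcomm`);
* **`s59etq_step`**, `s59etq_step_D` : the step on the full lattices;
* `s59etq_mem`      : `c ξ₀ x − a ξ₁ x ∈ E'`.
-/

set_option autoImplicit false
set_option linter.unusedSectionVars false
set_option linter.unusedVariables false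
set_option linter.style.haveILetI false

namespace Fermat.Agent.S59

open IsLocalRing

section Abs

variable {𝒪 : Type} [CommRing 𝒪]
  {L L' : Type} [AddCommGroup L] [Module 𝒪 L] [AddCommGroup L'] [Module 𝒪 L']

/-- **(ETA-P, abstract, anemic)** -/
theorem s59etq_step_abs (B : L →ₗ[𝒪] L →ₗ[𝒪] 𝒪) (B' : L' →ₗ[𝒪] L' →ₗ[𝒪] 𝒪)
    (ξ₀ ξ₁ : L →ₗ[𝒪] L') (tp : L →ₗ[𝒪] L) (c a : 𝒪)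
    (hdep : ∀ x w₀ w₁ : L, B' (c • ξ₀ x - ξ₁ (tp x)) (ξ₀ w₀ + ξ₁ w₁) =
      B (c ^ 2 • x - tp (tp x)) w₀)
    (E : Submodule 𝒪 L) (E' : Submodule 𝒪 L')
    (hmult : ∀ y' ∈ E', ∃ w₀ ∈ E, ∃ w₁ ∈ E, y' = ξ₀ w₀ + ξ₁ w₁)
    (x : L) (hxp : tp x = a • x) :
    s59eta_J B' E' (c • ξ₀ x - a • ξ₁ x) ≤ Ideal.span {c ^ 2 - a ^ 2} * s59eta_J B E x := by
  intro d hd
  rw [s59eta_mem_J] at hd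
  obtain ⟨y', hy', rfl⟩ := hd
  obtain ⟨w₀, hw₀, w₁, -, rfl⟩ := hmult y' hy'
  have h1 : c • ξ₀ x - a • ξ₁ x = c • ξ₀ x - ξ₁ (tp x) := by
    rw [hxp, map_smul]
  rw [h1, hdep]
  have h2 : c ^ 2 • x - tp (tp x) = (c ^ 2 - a ^ 2) • x := by
    rw [hxp, map_smul, hxp, smul_smul, ← sub_smul]
    congr 1
    ring
  rw [h2, map_smul, LinearMap.smul_apply, smul_eq_mul]
  exact Ideal.mul_mem_mul (Ideal.mem_span_singleton_self _) (s59eta_mem_J.2 ⟨w₀, hw₀, rfl⟩)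

end Abs

section Full

variable {𝒪 : Type} [CommRing 𝒪] [IsDomain 𝒪] [IsDiscreteValuationRing 𝒪]
  {L L' : Type} [AddCommGroup L] [Module 𝒪 L] [AddCommGroup L'] [Module 𝒪 L']
  [NoZeroSMulDivisors 𝒪 L] [NoZeroSMulDivisors 𝒪 L']
  {ι : Type}

/-- **(hmult), anemic**: `E' ⊆ ξ₀ E + ξ₁ E`, `E = s59r2E' t ψ`, `E' = s59r2E' t' ψ`. -/
theorem s59etq_hmult (ξ₀ ξ₁ : L →ₗ[𝒪] L') (t : ι → L →ₗ[𝒪] L) (t' : ι → L' →ₗ[𝒪] L')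
    (ψ : ι → 𝒪) {ϖ : 𝒪} (hϖ : Irreducible ϖ)
    (hcomm : ∀ (i : ι) (w : L), ξ₀ (t i w) = t' i (ξ₀ w) ∧ ξ₁ (t i w) = t' i (ξ₁ w))
    (s : L →ₗ[𝒪] L) (s' : L' →ₗ[𝒪] L') (u : 𝒪) (hu : IsUnit u)
    (hsξ : ∀ w : L, ξ₀ (s w) = s' (ξ₀ w) ∧ ξ₁ (s w) = s' (ξ₁ w))
    (hs' : ∀ y' ∈ s59r2E' t' ψ, s' y' = u • y')
    (hsatE : ∀ (w₀ w₁ : L) (y' : L'), ξ₀ w₀ + ξ₁ w₁ = ϖ • y' →
      ∃ v₀ v₁ : L, s w₀ = ϖ • v₀ ∧ s w₁ = ϖ • v₁)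
    (hinj : ∀ w₀ w₁ : L, ξ₀ w₀ + ξ₁ w₁ = 0 → w₀ = 0 ∧ w₁ = 0)
    (hrat : ∀ y' ∈ s59r2E' t' ψ, ∃ c : 𝒪, c ≠ 0 ∧ ∃ w₀ w₁ : L, c • y' = ξ₀ w₀ + ξ₁ w₁) :
    ∀ y' ∈ s59r2E' t' ψ, ∃ w₀ ∈ s59r2E' t ψ, ∃ w₁ ∈ s59r2E' t ψ, y' = ξ₀ w₀ + ξ₁ w₁ := by
  intro y' hy'
  obtain ⟨c, hc, w₀, w₁, hw⟩ := hrat y' hy'
  obtain ⟨v₀, v₁, hv⟩ :=
    s59etp_lift ξ₀ ξ₁ hϖ s s' u hu hsξ hsatE y' (hs' y' hy') c hc w₀ w₁ hw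
  have heig : ∀ i, t i v₀ = ψ i • v₀ ∧ t i v₁ = ψ i • v₁ := by
    intro i
    have h1 : ξ₀ (t i v₀ - ψ i • v₀) + ξ₁ (t i v₁ - ψ i • v₁) = 0 := by
      have h2 : t' i y' = ψ i • y' := hy' i
      rw [hv, map_add, ← (hcomm i v₀).1, ← (hcomm i v₁).2, smul_add] at h2
      rw [map_sub, map_sub, map_smul, map_smul]
      have h3 : ξ₀ (t i v₀) + ξ₁ (t i v₁) - (ψ i • ξ₀ v₀ + ψ i • ξ₁ v₁) = 0 :=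
        sub_eq_zero.2 h2
      rw [← h3]
      abel
    obtain ⟨e₀, e₁⟩ := hinj _ _ h1
    exact ⟨sub_eq_zero.1 e₀, sub_eq_zero.1 e₁⟩
  exact ⟨v₀, fun i => (heig i).1, v₁, fun i => (heig i).2, hv⟩

/-- **(ETA-P, the step on the full lattices, anemic)** -/
theorem s59etq_step (B : L →ₗ[𝒪] L →ₗ[𝒪] 𝒪) (B' : L' →ₗ[𝒪] L' →ₗ[𝒪] 𝒪)
    (ξ₀ ξ₁ : L →ₗ[𝒪] L') (t : ι → L →ₗ[𝒪] L) (t' : ι → L' →ₗ[𝒪] L')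
    (ψ : ι → 𝒪) (tp : L →ₗ[𝒪] L) (c a : 𝒪) {ϖ : 𝒪} (hϖ : Irreducible ϖ)
    (hdep : ∀ x w₀ w₁ : L, B' (c • ξ₀ x - ξ₁ (tp x)) (ξ₀ w₀ + ξ₁ w₁) =
      B (c ^ 2 • x - tp (tp x)) w₀)
    (hcomm : ∀ (i : ι) (w : L), ξ₀ (t i w) = t' i (ξ₀ w) ∧ ξ₁ (t i w) = t' i (ξ₁ w))
    (s : L →ₗ[𝒪] L) (s' : L' →ₗ[𝒪] L') (u : 𝒪) (hu : IsUnit u)
    (hsξ : ∀ w : L, ξ₀ (s w) = s' (ξ₀ w) ∧ ξ₁ (s w) = s' (ξ₁ w))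
    (hs' : ∀ y' ∈ s59r2E' t' ψ, s' y' = u • y')
    (hsatE : ∀ (w₀ w₁ : L) (y' : L'), ξ₀ w₀ + ξ₁ w₁ = ϖ • y' →
      ∃ v₀ v₁ : L, s w₀ = ϖ • v₀ ∧ s w₁ = ϖ • v₁)
    (hinj : ∀ w₀ w₁ : L, ξ₀ w₀ + ξ₁ w₁ = 0 → w₀ = 0 ∧ w₁ = 0)
    (hrat : ∀ y' ∈ s59r2E' t' ψ, ∃ c : 𝒪, c ≠ 0 ∧ ∃ w₀ w₁ : L, c • y' = ξ₀ w₀ + ξ₁ w₁)
    (x : L) (hxp : tp x = a • x) :
    s59eta_J B' (s59r2E' t' ψ) (c • ξ₀ x - a • ξ₁ x) ≤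
      Ideal.span {c ^ 2 - a ^ 2} * s59eta_J B (s59r2E' t ψ) x :=
  s59etq_step_abs B B' ξ₀ ξ₁ tp c a hdep (s59r2E' t ψ) (s59r2E' t' ψ)
    (s59etq_hmult ξ₀ ξ₁ t t' ψ hϖ hcomm s s' u hu hsξ hs' hsatE hinj hrat) x hxp

/-- the vector `x' = c ξ₀ x − a ξ₁ x` lies in `E'` -/
theorem s59etq_mem (ξ₀ ξ₁ : L →ₗ[𝒪] L') (t : ι → L →ₗ[𝒪] L) (t' : ι → L' →ₗ[𝒪] L')
    (ψ : ι → 𝒪) (c a : 𝒪)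
    (hcomm : ∀ (i : ι) (w : L), ξ₀ (t i w) = t' i (ξ₀ w) ∧ ξ₁ (t i w) = t' i (ξ₁ w))
    (x : L) (hx : x ∈ s59r2E' t ψ) :
    c • ξ₀ x - a • ξ₁ x ∈ s59r2E' t' ψ := by
  intro i
  have hxi : t i x = ψ i • x := hx i
  rw [map_sub, map_smul, map_smul, ← (hcomm i x).1, ← (hcomm i x).2, hxi, map_smul,
    map_smul, smul_sub, smul_comm (ψ i) c, smul_comm (ψ i) a]

/-- **(ETA-P, the step, `s = D_ℓ`, anemic)** -/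
theorem s59etq_step_D (B : L →ₗ[𝒪] L →ₗ[𝒪] 𝒪) (B' : L' →ₗ[𝒪] L' →ₗ[𝒪] 𝒪)
    (ξ₀ ξ₁ : L →ₗ[𝒪] L') (t : ι → L →ₗ[𝒪] L) (t' : ι → L' →ₗ[𝒪] L')
    (ψ : ι → 𝒪) (tp : L →ₗ[𝒪] L) (c a : 𝒪) {ϖ : 𝒪} (hϖ : Irreducible ϖ)
    (hdep : ∀ x w₀ w₁ : L, B' (c • ξ₀ x - ξ₁ (tp x)) (ξ₀ w₀ + ξ₁ w₁) =
      B (c ^ 2 • x - tp (tp x)) w₀)
    (hcomm : ∀ (i : ι) (w : L), ξ₀ (t i w) = t' i (ξ₀ w) ∧ ξ₁ (t i w) = t' i (ξ₁ w))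
    (i₁ : ι) (c₁ : 𝒪) (hu₁ : IsUnit (ψ i₁ - c₁))
    (hsatE : ∀ (w₀ w₁ : L) (y' : L'), ξ₀ w₀ + ξ₁ w₁ = ϖ • y' →
      ∃ v₀ v₁ : L, s59etpD t i₁ c₁ w₀ = ϖ • v₀ ∧ s59etpD t i₁ c₁ w₁ = ϖ • v₁)
    (hinj : ∀ w₀ w₁ : L, ξ₀ w₀ + ξ₁ w₁ = 0 → w₀ = 0 ∧ w₁ = 0)
    (hrat : ∀ y' ∈ s59r2E' t' ψ, ∃ c : 𝒪, c ≠ 0 ∧ ∃ w₀ w₁ : L, c • y' = ξ₀ w₀ + ξ₁ w₁)
    (x : L) (hxp : tp x = a • x) :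
    s59eta_J B' (s59r2E' t' ψ) (c • ξ₀ x - a • ξ₁ x) ≤
      Ideal.span {c ^ 2 - a ^ 2} * s59eta_J B (s59r2E' t ψ) x :=
  s59etq_step B B' ξ₀ ξ₁ t t' ψ tp c a hϖ hdep hcomm
    (s59etpD t i₁ c₁) (s59etpD t' i₁ c₁) (ψ i₁ - c₁) hu₁
    (fun w => by
      rw [s59etpD_apply, s59etpD_apply, s59etpD_apply, map_sub, map_sub,
        map_smul, map_smul, (hcomm i₁ w).1, (hcomm i₁ w).2]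
      exact ⟨rfl, rfl⟩)
    (fun y' hy' => by
      have hyi : t' i₁ y' = ψ i₁ • y' := hy' i₁
      rw [s59etpD_apply, hyi, ← sub_smul])
    hsatE hinj hrat x hxp

end Full

end Fermat.Agent.S59
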