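import Mathlib
import Fermat.Agent.S59.Eta.Gram
import Fermat.Agent.S59.Eta.BCLin

/-!
# S59 ETA′, piece **E-GRAM** (helper80): bridge to the `ℤ`-level package of E-BC (helper36)

`S59/Eta/BCLin.lean` (helper36) and `S59/Eta/Gram.lean` (helper80) package the same objects on the
parabolic lattices `Lpar M` under two sets of names.  Here they are identified, and the Gram
identity `hdep` is restated in the names of `BCLin.lean`, i.e. in the shape of the input `hdepZ`
of `s59bcc_hdep` / `s59bcc_step` (`S59/Eta/BCBase.lean`, helper9) with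
`b = s59bcPairZ N`, `b' = s59bcPairZ (N * q * q)`, `ξ_i = s59bcXiZ_i N q`, `tq = s59bcTcZ N q hqN`.

* `s59gramB_eq_bc`, `s59gramRes_eq_bc`, …, `s59gramT_eq_bc`, `s59gramXi0_eq_bc`, … : the dictionary;
* `s59gram_hdepZ` : **`hdepZ`** in the names of `BCLin.lean`.
-/

set_option autoImplicit false
set_option linter.style.haveILetI false
set_option linter.unusedSectionVars false
set_option linter.unusedVariables false

noncomputable section

namespace Fermat.Agent.S59

open CongruenceSubgroup Matrix Fermat.Agent.S41 Fermat.Agent.S41.PD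
open scoped MatrixGroups

section dict

theorem s59gramB_eq_bc (M : ℕ) [NeZero M] : s59gramB M = s59bcPairZ M := by
  letI := s59gramFin M
  refine LinearMap.ext fun x => LinearMap.ext fun y => ?_
  rw [s59gramB_eq, s59bcPairZ_apply]

variable (N q : ℕ) [NeZero N] [NeZero q]

theorem s59gramRes_eq_bc : s59gramRes N q = s59bcResZ N q :=
  LinearMap.ext fun _ => Subtype.ext rfl

theorem s59gramResD_eq_bc : s59gramResD N q = s59bcResDZ N q :=
  LinearMap.ext fun _ => Subtype.ext rfl

theorem s59gramCores_eq_bc : s59gramCores N q = s59bcCoresZ N q :=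
  LinearMap.ext fun _ => Subtype.ext rfl

theorem s59gramCoresD_eq_bc : s59gramCoresD N q = s59bcCoresDZ N q :=
  LinearMap.ext fun _ => Subtype.ext rfl

theorem s59gramXi0_eq_bc : s59gramXi0 N q = s59bcXiZ0 N q :=
  LinearMap.ext fun _ => Subtype.ext rfl

theorem s59gramXi1_eq_bc : s59gramXi1 N q = s59bcXiZ1 N q :=
  LinearMap.ext fun _ => Subtype.ext rfl

theorem s59gramXi2_eq_bc : s59gramXi2 N q = s59bcXiZ2 N q :=
  LinearMap.ext fun _ => Subtype.ext rfl

theorem s59gramT_eq_bc [Fact q.Prime] (hqN : ¬ q ∣ N) : s59gramT N q = s59bcTcZ N q hqN :=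
  LinearMap.ext fun x => Subtype.ext (by rw [s59gramT_coe hqN, s59bcTcZ_coe])

end dict

section main

variable (N q : ℕ) [NeZero N] [NeZero q] [hq : Fact q.Prime]

/-- **(E-GRAM)** the `ℤ`-level Gram identity in the names of `S59/Eta/BCLin.lean`: the input
`hdepZ` of `s59bcc_hdep` and `s59bcc_step` (with `q := (q : ℤ)`). -/
theorem s59gram_hdepZ (hqN : ¬ q ∣ N) : ∀ x w₀ w₁ w₂ : Lpar N,
    s59bcPairZ (N * q * q)
        ((q : ℤ) • s59bcXiZ0 N q x - s59bcXiZ1 N q (s59bcTcZ N q hqN x) + s59bcXiZ2 N q x)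
        (s59bcXiZ0 N q w₀ + s59bcXiZ1 N q w₁ + s59bcXiZ2 N q w₂) =
      s59bcPairZ N
        (((q : ℤ) - 1) • (((q : ℤ) + 1) ^ 2 • x - s59bcTcZ N q hqN (s59bcTcZ N q hqN x))) w₀ := by
  have h := s59gram_hdep N q hqN
  rw [s59gramB_eq_bc, s59gramB_eq_bc, s59gramXi0_eq_bc, s59gramXi1_eq_bc, s59gramXi2_eq_bc,
    s59gramT_eq_bc N q hqN] at h
  exact h

end main

end Fermat.Agent.S59
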