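import Mathlib
import Fermat.Agent.S59.Eta.GramBridge
import Fermat.Agent.S59.Eta.GramBC

/-!
# S59 ETA-P, piece **P-GRAM** (helper80): the Gram identity for the TWO maps `N → N q`

`q` prime, `q ∤ N` (NOTHING about `q` versus the residue characteristic).
`ξ₀ = res`, `ξ₁ = res^δ : Lpar N → Lpar (N q)`, `c = q + 1`.  The Gram matrix of `(ξ₀, ξ₁)` is
`[[q + 1, T_q], [T_q, q + 1]]`, hence

  `[c ξ₀ x − ξ₁ (T_q x), ξ₀ w₀ + ξ₁ w₁]_{N q} = [c² x − T_q² x, w₀]_N`.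

* `s59etpg_hdep_gram` : over `ℤ`, names of `Gram.lean`;
* `s59etpg_hdepZ`     : over `ℤ`, names of E-BC (`s59bcPairZ`, `s59bcResZ`, `s59bcResDZ`, `s59bcTcZ`);
* `s59etpg_hdep_bc_gram`, **`s59etpg_hdep_bc`** : over any commutative ring `𝒪`, the literal `hdep`
  of `s59etp_step_abs` (`PStepAbs.lean`) for `B = s59bcForm 𝒪 (s59bcPairZ N)`,
  `B' = s59bcForm 𝒪 (s59bcPairZ (N * q))`, `ξ₀ = (s59bcResZ N q).baseChange 𝒪`,
  `ξ₁ = (s59bcResDZ N q).baseChange 𝒪`, `tp = (s59bcTcZ N q hqN).baseChange 𝒪`, `c = (q : 𝒪) + 1`.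
-/

set_option autoImplicit false
set_option linter.style.haveILetI false
set_option linter.unusedSectionVars false
set_option linter.unusedSimpArgs false
set_option linter.unusedVariables false

noncomputable section

namespace Fermat.Agent.S59

open TensorProduct Fermat.Agent.S41

section overZ

variable (N q : ℕ) [NeZero N] [NeZero q] [hq : Fact q.Prime]

/-- the operator `D = (q + 1) ξ₀ − ξ₁ T_q` over `ℤ` -/
def s59etpgD : Lpar N →ₗ[ℤ] Lpar (N * q) :=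
  ((q : ℤ) + 1) • s59gramRes N q - (s59gramResD N q) ∘ₗ (s59gramT N q)

/-- the operator `C = (q + 1)² − T_q²` over `ℤ` -/
def s59etpgC : Lpar N →ₗ[ℤ] Lpar N :=
  ((q : ℤ) + 1) ^ 2 • LinearMap.id - (s59gramT N q) ∘ₗ (s59gramT N q)

theorem s59etpgD_apply (x : Lpar N) :
    s59etpgD N q x = ((q : ℤ) + 1) • s59gramRes N q x - s59gramResD N q (s59gramT N q x) := rfl

theorem s59etpgC_apply (x : Lpar N) :
    s59etpgC N q x = ((q : ℤ) + 1) ^ 2 • x - s59gramT N q (s59gramT N q x) := rfl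

/-- `[D x, ξ₀ w] = [C x, w]` over `ℤ` -/
theorem s59etpg_D_res (hqN : ¬ q ∣ N) (x w : Lpar N) :
    s59gramB (N * q) (s59etpgD N q x) (s59gramRes N q w) = s59gramB N (s59etpgC N q x) w := by
  rw [s59gram_adj_res_right, s59etpgD_apply, s59etpgC_apply, map_sub, map_smul,
    s59gram_cores_res hqN, s59gram_cores_resD hqN, smul_smul, ← pow_two]

/-- `[D x, ξ₁ w] = 0` over `ℤ` -/
theorem s59etpg_D_resD (hqN : ¬ q ∣ N) (x w : Lpar N) :
    s59gramB (N * q) (s59etpgD N q x) (s59gramResD N q w) = 0 := by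
  rw [s59gram_adj_resD_right N q hq.out, s59etpgD_apply, map_sub, map_smul,
    s59gram_coresD_res, s59gram_coresD_resD hqN, sub_self, map_zero, LinearMap.zero_apply]

/-- **(P-GRAM over `ℤ`)**, names of `Gram.lean`. -/
theorem s59etpg_hdep_gram (hqN : ¬ q ∣ N) (x w₀ w₁ : Lpar N) :
    s59gramB (N * q)
        (((q : ℤ) + 1) • s59gramRes N q x - s59gramResD N q (s59gramT N q x))
        (s59gramRes N q w₀ + s59gramResD N q w₁) =
      s59gramB N (((q : ℤ) + 1) ^ 2 • x - s59gramT N q (s59gramT N q x)) w₀ := by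
  rw [← s59etpgD_apply, ← s59etpgC_apply, map_add, s59etpg_D_res N q hqN,
    s59etpg_D_resD N q hqN, add_zero]

/-- **(P-GRAM over `ℤ`)**, names of E-BC, literal shape of the dispatch. -/
theorem s59etpg_hdepZ (hqN : ¬ q ∣ N) (x w₀ w₁ : Lpar N) :
    s59bcPairZ (N * q)
        (((q : ℤ) + 1) • s59bcResZ N q x - s59bcResDZ N q (s59bcTcZ N q hqN x))
        (s59bcResZ N q w₀ + s59bcResDZ N q w₁) =
      s59bcPairZ N (((q : ℤ) + 1) ^ 2 • x - s59bcTcZ N q hqN (s59bcTcZ N q hqN x)) w₀ := by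
  have h := s59etpg_hdep_gram N q hqN x w₀ w₁
  rw [s59gramB_eq_bc, s59gramB_eq_bc, s59gramRes_eq_bc, s59gramResD_eq_bc,
    s59gramT_eq_bc N q hqN] at h
  exact h

end overZ

section overO

variable (𝒪 : Type*) [CommRing 𝒪] (N q : ℕ) [NeZero N] [NeZero q] [hq : Fact q.Prime]

theorem s59etpgD_baseChange (X : 𝒪 ⊗[ℤ] Lpar N) :
    (s59etpgD N q).baseChange 𝒪 X =
      ((q : 𝒪) + 1) • (s59gramRes N q).baseChange 𝒪 X
        - (s59gramResD N q).baseChange 𝒪 ((s59gramT N q).baseChange 𝒪 X) := by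
  unfold s59etpgD
  rw [LinearMap.baseChange_sub, LinearMap.baseChange_smul, LinearMap.baseChange_comp]
  simp only [LinearMap.sub_apply, LinearMap.smul_apply, LinearMap.comp_apply]
  rw [← Int.cast_smul_eq_zsmul 𝒪]
  push_cast
  rfl

theorem s59etpgC_baseChange (X : 𝒪 ⊗[ℤ] Lpar N) :
    (s59etpgC N q).baseChange 𝒪 X =
      ((q : 𝒪) + 1) ^ 2 • X
        - (s59gramT N q).baseChange 𝒪 ((s59gramT N q).baseChange 𝒪 X) := by
  unfold s59etpgC
  rw [LinearMap.baseChange_sub, LinearMap.baseChange_smul,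
    LinearMap.baseChange_comp, LinearMap.baseChange_id]
  simp only [LinearMap.sub_apply, LinearMap.smul_apply, LinearMap.comp_apply,
    LinearMap.id_apply]
  rw [← Int.cast_smul_eq_zsmul 𝒪]
  push_cast
  rfl

/-- **(P-GRAM over `𝒪`)**, names of `Gram.lean`. -/
theorem s59etpg_hdep_bc_gram (hqN : ¬ q ∣ N) : ∀ x w₀ w₁ : 𝒪 ⊗[ℤ] Lpar N,
    s59bcForm 𝒪 (s59gramB (N * q))
        (((q : 𝒪) + 1) • (s59gramRes N q).baseChange 𝒪 x
          - (s59gramResD N q).baseChange 𝒪 ((s59gramT N q).baseChange 𝒪 x))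
        ((s59gramRes N q).baseChange 𝒪 w₀ + (s59gramResD N q).baseChange 𝒪 w₁) =
      s59bcForm 𝒪 (s59gramB N)
        (((q : 𝒪) + 1) ^ 2 • x
          - (s59gramT N q).baseChange 𝒪 ((s59gramT N q).baseChange 𝒪 x)) w₀ := by
  intro x w₀ w₁
  rw [← s59etpgD_baseChange, ← s59etpgC_baseChange, map_add,
    s59gram_bc_bilin 𝒪 (s59gramB N) (s59gramB (N * q)) (s59etpgD N q) (s59gramRes N q)
      (s59etpgC N q) (s59etpg_D_res N q hqN),
    s59gram_bc_bilin 𝒪 (s59gramB N) (s59gramB (N * q)) (s59etpgD N q) (s59gramResD N q)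
      0 (fun x w => by rw [s59etpg_D_resD N q hqN]; simp)]
  simp

/-- **(P-GRAM over `𝒪`)** the literal `hdep` of `s59etp_step_abs` / `s59etp_step` /
`s59etp_step_D`, names of E-BC. -/
theorem s59etpg_hdep_bc (hqN : ¬ q ∣ N) : ∀ x w₀ w₁ : 𝒪 ⊗[ℤ] Lpar N,
    s59bcForm 𝒪 (s59bcPairZ (N * q))
        (((q : 𝒪) + 1) • (s59bcResZ N q).baseChange 𝒪 x
          - (s59bcResDZ N q).baseChange 𝒪 ((s59bcTcZ N q hqN).baseChange 𝒪 x))
        ((s59bcResZ N q).baseChange 𝒪 w₀ + (s59bcResDZ N q).baseChange 𝒪 w₁) =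
      s59bcForm 𝒪 (s59bcPairZ N)
        (((q : 𝒪) + 1) ^ 2 • x
          - (s59bcTcZ N q hqN).baseChange 𝒪 ((s59bcTcZ N q hqN).baseChange 𝒪 x)) w₀ := by
  have h := s59etpg_hdep_bc_gram 𝒪 N q hqN
  rw [s59gramB_eq_bc, s59gramB_eq_bc, s59gramRes_eq_bc, s59gramResD_eq_bc,
    s59gramT_eq_bc N q hqN] at h
  exact h

end overO

end Fermat.Agent.S59
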