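import Mathlib
import Fermat.Agent.S59.Eta.PlanR2

/-!
# S59, wall R2 (ETA′), piece E-MULT1b — the REDUCTION of `hrat` (helper8)

`hrat` of `s59r2_step_abs` (S59/Eta/PlanR2.lean):
every `y'` of the `ψ`-eigenspace `E'` of `L'` (level `N q²`) is RATIONALLY in the image of
`ξ = (ξ₀, ξ₁, ξ₂) : L³ → L'` (`L` = level `N`):  `c • y' = ξ₀ w₀ + ξ₁ w₁ + ξ₂ w₂`, `c ≠ 0`.

ABSTRACT FRAME: `𝒪` a domain, `L`, `L₁`, `L'` modules (levels `N`, `N q`, `N q²`),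
`ξ_i : L → L'` the three degeneracy maps, `η_i : L' → L` their adjoints (transfers), factored
through level `N q`: `η₀ = c₁ c₂`, `η₁ = e₁ c₂ = c₁ e₂`, `η₂ = e₁ e₂`
(`c = cores`, `e = coresD`), `t i`, `t₁ i`, `t' i` the good Hecke operators.

INPUTS (each in the shape its owner delivers):
* `hG`  (operator Gram, E-GRAM):  `η ∘ ξ = G(T_q)`,
  `G(T) = [[q(q+1), qT, T² − (q+1)], [qT, q(q+1), qT], [T² − (q+1), qT, q(q+1)]]`;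
* `hTQ` (E-TQ): `T_q = a` on the `ψ`-eigenvectors of `L`;
* `ha`  (E-PET): `a² ≠ (q+1)²`;
* `h1a` (E-MULT1a): a `ψ`-eigenvector of level `N q` killed by `c₁`, `e₁` (`q`-new) is `0`;
* `h1b` (E-MULT1b): a `ψ`-eigenvector of level `N q²` killed by `c₂`, `e₂` (`q²`-new) is `0`.

RESULT: `s59m1r_hrat_abs` = `hrat`, with `c = det G(a) = q (q − 1) ((q + 1)² − a²)²` and
`w = adj G(a) · η(y')`.  No Petersson product, no semisimplicity is used: only the adjugate.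
-/

set_option autoImplicit false
set_option linter.unusedSectionVars false
set_option linter.unusedVariables false

namespace Fermat.Agent.S59

section abs

variable {𝒪 : Type} [CommRing 𝒪]
  {L L₁ L' : Type} [AddCommGroup L] [Module 𝒪 L] [AddCommGroup L₁] [Module 𝒪 L₁]
  [AddCommGroup L'] [Module 𝒪 L'] {ι : Type}

/-- `det G(a) = q (q − 1) ((q + 1)² − a²)²` -/
def s59m1rDet (q a : 𝒪) : 𝒪 := q * (q - 1) * ((q + 1) ^ 2 - a ^ 2) ^ 2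

theorem s59m1rDet_ne_zero [IsDomain 𝒪] {q a : 𝒪} (hq : q ≠ 0) (hq1 : q ≠ 1)
    (ha : a ^ 2 ≠ (q + 1) ^ 2) : s59m1rDet q a ≠ 0 := by
  unfold s59m1rDet
  refine mul_ne_zero (mul_ne_zero hq (sub_ne_zero.mpr hq1)) (pow_ne_zero _ ?_)
  exact sub_ne_zero.mpr (Ne.symm ha)

/-- first row of `adj G(a)` applied to `(z₀, z₁, z₂)` -/
def s59m1rW0 (q a : 𝒪) (z₀ z₁ z₂ : L) : L :=
  ((q * (q + 1)) ^ 2 - (q * a) ^ 2) • z₀ - ((q * a) * (q * (q + 1) - (a ^ 2 - (q + 1)))) • z₁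
    + ((q * a) ^ 2 - (q * (q + 1)) * (a ^ 2 - (q + 1))) • z₂

/-- second row of `adj G(a)` applied to `(z₀, z₁, z₂)` -/
def s59m1rW1 (q a : 𝒪) (z₀ z₁ z₂ : L) : L :=
  ((q * (q + 1)) ^ 2 - (a ^ 2 - (q + 1)) ^ 2) • z₁
    - ((q * a) * (q * (q + 1) - (a ^ 2 - (q + 1)))) • (z₀ + z₂)

/-- third row of `adj G(a)` applied to `(z₀, z₁, z₂)` -/
def s59m1rW2 (q a : 𝒪) (z₀ z₁ z₂ : L) : L := s59m1rW0 q a z₂ z₁ z₀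

/-- `G(a) · adj G(a) = det G(a)`, first row. -/
theorem s59m1r_row0 (q a : 𝒪) (z₀ z₁ z₂ : L) :
    (q * (q + 1)) • s59m1rW0 q a z₀ z₁ z₂ + (q * a) • s59m1rW1 q a z₀ z₁ z₂
      + (a ^ 2 - (q + 1)) • s59m1rW2 q a z₀ z₁ z₂ = s59m1rDet q a • z₀ := by
  unfold s59m1rW2 s59m1rW0 s59m1rW1 s59m1rDet
  module

/-- `G(a) · adj G(a) = det G(a)`, second row. -/
theorem s59m1r_row1 (q a : 𝒪) (z₀ z₁ z₂ : L) :
    (q * a) • s59m1rW0 q a z₀ z₁ z₂ + (q * (q + 1)) • s59m1rW1 q a z₀ z₁ z₂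
      + (q * a) • s59m1rW2 q a z₀ z₁ z₂ = s59m1rDet q a • z₁ := by
  unfold s59m1rW2 s59m1rW0 s59m1rW1 s59m1rDet
  module

/-- `G(a) · adj G(a) = det G(a)`, third row. -/
theorem s59m1r_row2 (q a : 𝒪) (z₀ z₁ z₂ : L) :
    (a ^ 2 - (q + 1)) • s59m1rW0 q a z₀ z₁ z₂ + (q * a) • s59m1rW1 q a z₀ z₁ z₂
      + (q * (q + 1)) • s59m1rW2 q a z₀ z₁ z₂ = s59m1rDet q a • z₂ := by
  unfold s59m1rW2 s59m1rW0 s59m1rW1 s59m1rDet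
  module

/-- eigenvectors are stable under the `adj G(a)`-combinations -/
theorem s59m1r_eig_W0 (t : ι → L →ₗ[𝒪] L) (ψ : ι → 𝒪) (q a : 𝒪) {z₀ z₁ z₂ : L}
    (h₀ : ∀ i, t i z₀ = ψ i • z₀) (h₁ : ∀ i, t i z₁ = ψ i • z₁) (h₂ : ∀ i, t i z₂ = ψ i • z₂) :
    ∀ i, t i (s59m1rW0 q a z₀ z₁ z₂) = ψ i • s59m1rW0 q a z₀ z₁ z₂ := by
  intro i
  unfold s59m1rW0
  simp only [map_add, map_sub, map_smul, h₀ i, h₁ i, h₂ i]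
  module

theorem s59m1r_eig_W1 (t : ι → L →ₗ[𝒪] L) (ψ : ι → 𝒪) (q a : 𝒪) {z₀ z₁ z₂ : L}
    (h₀ : ∀ i, t i z₀ = ψ i • z₀) (h₁ : ∀ i, t i z₁ = ψ i • z₁) (h₂ : ∀ i, t i z₂ = ψ i • z₂) :
    ∀ i, t i (s59m1rW1 q a z₀ z₁ z₂) = ψ i • s59m1rW1 q a z₀ z₁ z₂ := by
  intro i
  unfold s59m1rW1
  simp only [map_add, map_sub, map_smul, h₀ i, h₁ i, h₂ i]
  module

theorem s59m1r_eig_W2 (t : ι → L →ₗ[𝒪] L) (ψ : ι → 𝒪) (q a : 𝒪) {z₀ z₁ z₂ : L}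
    (h₀ : ∀ i, t i z₀ = ψ i • z₀) (h₁ : ∀ i, t i z₁ = ψ i • z₁) (h₂ : ∀ i, t i z₂ = ψ i • z₂) :
    ∀ i, t i (s59m1rW2 q a z₀ z₁ z₂) = ψ i • s59m1rW2 q a z₀ z₁ z₂ :=
  s59m1r_eig_W0 t ψ q a h₂ h₁ h₀

/-- **E-MULT1b, the reduction.**  `hrat` of `s59r2_step_abs` from the operator Gram identity
(`hG`), `T_q = a` on eigenvectors (`hTQ`), `a² ≠ (q+1)²` and the two multiplicity-one
statements: no `q`-new `ψ`-eigenvector at level `N q` (`h1a`), no `q²`-new `ψ`-eigenvector at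
level `N q²` (`h1b`). -/
theorem s59m1r_hrat_abs [IsDomain 𝒪]
    (ξ₀ ξ₁ ξ₂ : L →ₗ[𝒪] L') (η₀ η₁ η₂ : L' →ₗ[𝒪] L)
    (c₂ e₂ : L' →ₗ[𝒪] L₁) (c₁ e₁ : L₁ →ₗ[𝒪] L)
    (t : ι → L →ₗ[𝒪] L) (t₁ : ι → L₁ →ₗ[𝒪] L₁) (t' : ι → L' →ₗ[𝒪] L')
    (ψ : ι → 𝒪) (tq : L →ₗ[𝒪] L) (q a : 𝒪)
    (hη₀ : ∀ y, η₀ y = c₁ (c₂ y)) (hη₁ : ∀ y, η₁ y = e₁ (c₂ y))
    (hη₁' : ∀ y, η₁ y = c₁ (e₂ y)) (hη₂ : ∀ y, η₂ y = e₁ (e₂ y))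
    (hcomm : ∀ (i : ι) (w : L), ξ₀ (t i w) = t' i (ξ₀ w) ∧ ξ₁ (t i w) = t' i (ξ₁ w) ∧
      ξ₂ (t i w) = t' i (ξ₂ w))
    (hcomm₂ : ∀ (i : ι) (y : L'), c₂ (t' i y) = t₁ i (c₂ y) ∧ e₂ (t' i y) = t₁ i (e₂ y))
    (hcomm₁ : ∀ (i : ι) (u : L₁), c₁ (t₁ i u) = t i (c₁ u) ∧ e₁ (t₁ i u) = t i (e₁ u))
    (hG : ∀ x : L,
      (η₀ (ξ₀ x) = (q * (q + 1)) • x ∧ η₀ (ξ₁ x) = q • tq x ∧
        η₀ (ξ₂ x) = tq (tq x) - (q + 1) • x) ∧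
      (η₁ (ξ₀ x) = q • tq x ∧ η₁ (ξ₁ x) = (q * (q + 1)) • x ∧ η₁ (ξ₂ x) = q • tq x) ∧
      (η₂ (ξ₀ x) = tq (tq x) - (q + 1) • x ∧ η₂ (ξ₁ x) = q • tq x ∧
        η₂ (ξ₂ x) = (q * (q + 1)) • x))
    (hTQ : ∀ v : L, (∀ i, t i v = ψ i • v) → tq v = a • v)
    (hq : q ≠ 0) (hq1 : q ≠ 1) (ha : a ^ 2 ≠ (q + 1) ^ 2)
    (h1a : ∀ u : L₁, (∀ i, t₁ i u = ψ i • u) → c₁ u = 0 → e₁ u = 0 → u = 0)
    (h1b : ∀ y : L', (∀ i, t' i y = ψ i • y) → c₂ y = 0 → e₂ y = 0 → y = 0) :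
    ∀ y' ∈ s59r2E' t' ψ, ∃ c : 𝒪, c ≠ 0 ∧ ∃ w₀ w₁ w₂ : L,
      c • y' = ξ₀ w₀ + ξ₁ w₁ + ξ₂ w₂ := by
  intro y' hy'
  have hy : ∀ i, t' i y' = ψ i • y' := hy'
  -- the three adjoint components of `y'` are `ψ`-eigenvectors of level `N`
  have heig : ∀ (η : L' →ₗ[𝒪] L), (∀ i y, η (t' i y) = t i (η y)) →
      ∀ y : L', (∀ i, t' i y = ψ i • y) → ∀ i, t i (η y) = ψ i • η y := by
    intro η hη y hy i
    rw [← hη, hy i, map_smul]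
  have hη₀c : ∀ i y, η₀ (t' i y) = t i (η₀ y) := by
    intro i y
    rw [hη₀, hη₀, (hcomm₂ i y).1, (hcomm₁ i _).1]
  have hη₁c : ∀ i y, η₁ (t' i y) = t i (η₁ y) := by
    intro i y
    rw [hη₁, hη₁, (hcomm₂ i y).1, (hcomm₁ i _).2]
  have hη₂c : ∀ i y, η₂ (t' i y) = t i (η₂ y) := by
    intro i y
    rw [hη₂, hη₂, (hcomm₂ i y).2, (hcomm₁ i _).2]
  have hz₀ := heig η₀ hη₀c y' hy
  have hz₁ := heig η₁ hη₁c y' hy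
  have hz₂ := heig η₂ hη₂c y' hy
  set z₀ := η₀ y' with hz₀def
  set z₁ := η₁ y' with hz₁def
  set z₂ := η₂ y' with hz₂def
  set w₀ := s59m1rW0 q a z₀ z₁ z₂ with hw₀def
  set w₁ := s59m1rW1 q a z₀ z₁ z₂ with hw₁def
  set w₂ := s59m1rW2 q a z₀ z₁ z₂ with hw₂def
  have hw₀ : ∀ i, t i w₀ = ψ i • w₀ := s59m1r_eig_W0 t ψ q a hz₀ hz₁ hz₂
  have hw₁ : ∀ i, t i w₁ = ψ i • w₁ := s59m1r_eig_W1 t ψ q a hz₀ hz₁ hz₂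
  have hw₂ : ∀ i, t i w₂ = ψ i • w₂ := s59m1r_eig_W2 t ψ q a hz₀ hz₁ hz₂
  have hT₀ : tq w₀ = a • w₀ := hTQ w₀ hw₀
  have hT₁ : tq w₁ = a • w₁ := hTQ w₁ hw₁
  have hT₂ : tq w₂ = a • w₂ := hTQ w₂ hw₂
  have hTT₀ : tq (tq w₀) = (a ^ 2) • w₀ := by rw [hT₀, map_smul, hT₀, smul_smul, pow_two]
  have hTT₂ : tq (tq w₂) = (a ^ 2) • w₂ := by rw [hT₂, map_smul, hT₂, smul_smul, pow_two]
  refine ⟨s59m1rDet q a, s59m1rDet_ne_zero hq hq1 ha, w₀, w₁, w₂, ?_⟩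
  -- the defect
  set y'' : L' := s59m1rDet q a • y' - (ξ₀ w₀ + ξ₁ w₁ + ξ₂ w₂) with hy''def
  have hy''eig : ∀ i, t' i y'' = ψ i • y'' := by
    intro i
    rw [hy''def, map_sub, map_smul, map_add, map_add, hy i, ← (hcomm i w₀).1,
      ← (hcomm i w₁).2.1, ← (hcomm i w₂).2.2, hw₀ i, hw₁ i, hw₂ i, map_smul, map_smul, map_smul]
    module
  obtain ⟨⟨g00, g01, g02⟩, ⟨g10, g11, g12⟩, ⟨g20, g21, g22⟩⟩ :
      (η₀ (ξ₀ w₀) = (q * (q + 1)) • w₀ ∧ η₀ (ξ₁ w₁) = (q * a) • w₁ ∧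
        η₀ (ξ₂ w₂) = (a ^ 2 - (q + 1)) • w₂) ∧
      (η₁ (ξ₀ w₀) = (q * a) • w₀ ∧ η₁ (ξ₁ w₁) = (q * (q + 1)) • w₁ ∧
        η₁ (ξ₂ w₂) = (q * a) • w₂) ∧
      (η₂ (ξ₀ w₀) = (a ^ 2 - (q + 1)) • w₀ ∧ η₂ (ξ₁ w₁) = (q * a) • w₁ ∧
        η₂ (ξ₂ w₂) = (q * (q + 1)) • w₂) := by
    refine ⟨⟨(hG w₀).1.1, ?_, ?_⟩, ⟨?_, (hG w₁).2.1.2.1, ?_⟩, ⟨?_, ?_, (hG w₂).2.2.2.2⟩⟩
    · rw [(hG w₁).1.2.1, hT₁, smul_smul]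
    · rw [(hG w₂).1.2.2, hTT₂, sub_smul]
    · rw [(hG w₀).2.1.1, hT₀, smul_smul]
    · rw [(hG w₂).2.1.2.2, hT₂, smul_smul]
    · rw [(hG w₀).2.2.1, hTT₀, sub_smul]
    · rw [(hG w₁).2.2.2.1, hT₁, smul_smul]
  have hη₀y'' : η₀ y'' = 0 := by
    rw [hy''def, map_sub, map_smul, map_add, map_add, g00, g01, g02, ← hz₀def,
      ← s59m1r_row0 q a z₀ z₁ z₂]
    exact sub_self _
  have hη₁y'' : η₁ y'' = 0 := by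
    rw [hy''def, map_sub, map_smul, map_add, map_add, g10, g11, g12, ← hz₁def,
      ← s59m1r_row1 q a z₀ z₁ z₂]
    exact sub_self _
  have hη₂y'' : η₂ y'' = 0 := by
    rw [hy''def, map_sub, map_smul, map_add, map_add, g20, g21, g22, ← hz₂def,
      ← s59m1r_row2 q a z₀ z₁ z₂]
    exact sub_self _
  -- `c₂ y''` and `e₂ y''` are `q`-new `ψ`-eigenvectors of level `N q`: they vanish by (1a)
  have hc₂ : c₂ y'' = 0 := by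
    refine h1a _ (fun i => ?_) ?_ ?_
    · rw [← (hcomm₂ i y'').1, hy''eig i, map_smul]
    · rw [← hη₀, hη₀y'']
    · rw [← hη₁, hη₁y'']
  have he₂ : e₂ y'' = 0 := by
    refine h1a _ (fun i => ?_) ?_ ?_
    · rw [← (hcomm₂ i y'').2, hy''eig i, map_smul]
    · rw [← hη₁', hη₁y'']
    · rw [← hη₂, hη₂y'']
  -- `y''` is a `q²`-new `ψ`-eigenvector of level `N q²`: it vanishes by (1b)
  have h0 : y'' = 0 := h1b y'' hy''eig hc₂ he₂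
  exact sub_eq_zero.mp h0

/-- **E-MULT1b, the reduction, E-PET form.**  As `s59m1r_hrat_abs`, with `a² ≠ (q+1)²` replaced
by the injectivity of `T_q² − (q+1)²` on `L` (`hpet`, E-PET in the shape of
`s59pet_Lpar_sq_eq_zero`): if `a² = (q+1)²` there is no `ψ`-eigenvector of level `N` at all and
`c = 1`, `w = 0` works. -/
theorem s59m1r_hrat_of_pet [IsDomain 𝒪]
    (ξ₀ ξ₁ ξ₂ : L →ₗ[𝒪] L') (η₀ η₁ η₂ : L' →ₗ[𝒪] L)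
    (c₂ e₂ : L' →ₗ[𝒪] L₁) (c₁ e₁ : L₁ →ₗ[𝒪] L)
    (t : ι → L →ₗ[𝒪] L) (t₁ : ι → L₁ →ₗ[𝒪] L₁) (t' : ι → L' →ₗ[𝒪] L')
    (ψ : ι → 𝒪) (tq : L →ₗ[𝒪] L) (q a : 𝒪)
    (hη₀ : ∀ y, η₀ y = c₁ (c₂ y)) (hη₁ : ∀ y, η₁ y = e₁ (c₂ y))
    (hη₁' : ∀ y, η₁ y = c₁ (e₂ y)) (hη₂ : ∀ y, η₂ y = e₁ (e₂ y))
    (hcomm : ∀ (i : ι) (w : L), ξ₀ (t i w) = t' i (ξ₀ w) ∧ ξ₁ (t i w) = t' i (ξ₁ w) ∧
      ξ₂ (t i w) = t' i (ξ₂ w))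
    (hcomm₂ : ∀ (i : ι) (y : L'), c₂ (t' i y) = t₁ i (c₂ y) ∧ e₂ (t' i y) = t₁ i (e₂ y))
    (hcomm₁ : ∀ (i : ι) (u : L₁), c₁ (t₁ i u) = t i (c₁ u) ∧ e₁ (t₁ i u) = t i (e₁ u))
    (hG : ∀ x : L,
      (η₀ (ξ₀ x) = (q * (q + 1)) • x ∧ η₀ (ξ₁ x) = q • tq x ∧
        η₀ (ξ₂ x) = tq (tq x) - (q + 1) • x) ∧
      (η₁ (ξ₀ x) = q • tq x ∧ η₁ (ξ₁ x) = (q * (q + 1)) • x ∧ η₁ (ξ₂ x) = q • tq x) ∧
      (η₂ (ξ₀ x) = tq (tq x) - (q + 1) • x ∧ η₂ (ξ₁ x) = q • tq x ∧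
        η₂ (ξ₂ x) = (q * (q + 1)) • x))
    (hTQ : ∀ v : L, (∀ i, t i v = ψ i • v) → tq v = a • v)
    (hq : q ≠ 0) (hq1 : q ≠ 1)
    (hpet : ∀ x : L, tq (tq x) = (q + 1) ^ 2 • x → x = 0)
    (h1a : ∀ u : L₁, (∀ i, t₁ i u = ψ i • u) → c₁ u = 0 → e₁ u = 0 → u = 0)
    (h1b : ∀ y : L', (∀ i, t' i y = ψ i • y) → c₂ y = 0 → e₂ y = 0 → y = 0) :
    ∀ y' ∈ s59r2E' t' ψ, ∃ c : 𝒪, c ≠ 0 ∧ ∃ w₀ w₁ w₂ : L,
      c • y' = ξ₀ w₀ + ξ₁ w₁ + ξ₂ w₂ := by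
  by_cases ha : a ^ 2 = (q + 1) ^ 2
  · -- no `ψ`-eigenvector of level `N`
    have hE : ∀ v : L, (∀ i, t i v = ψ i • v) → v = 0 := by
      intro v hv
      refine hpet v ?_
      rw [hTQ v hv, map_smul, hTQ v hv, smul_smul, ← pow_two, ha]
    intro y' hy'
    have hy : ∀ i, t' i y' = ψ i • y' := hy'
    have hc₂eig : ∀ i, t₁ i (c₂ y') = ψ i • c₂ y' := fun i => by
      rw [← (hcomm₂ i y').1, hy i, map_smul]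
    have he₂eig : ∀ i, t₁ i (e₂ y') = ψ i • e₂ y' := fun i => by
      rw [← (hcomm₂ i y').2, hy i, map_smul]
    have hkill : ∀ u : L₁, (∀ i, t₁ i u = ψ i • u) → u = 0 := by
      intro u hu
      refine h1a u hu (hE _ fun i => ?_) (hE _ fun i => ?_)
      · rw [← (hcomm₁ i u).1, hu i, map_smul]
      · rw [← (hcomm₁ i u).2, hu i, map_smul]
    have h0 : y' = 0 := h1b y' hy (hkill _ hc₂eig) (hkill _ he₂eig)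
    refine ⟨1, one_ne_zero, 0, 0, 0, ?_⟩
    rw [h0]
    simp
  · exact s59m1r_hrat_abs ξ₀ ξ₁ ξ₂ η₀ η₁ η₂ c₂ e₂ c₁ e₁ t t₁ t' ψ tq q a hη₀ hη₁ hη₁' hη₂
      hcomm hcomm₂ hcomm₁ hG hTQ hq hq1 ha h1a h1b

/-- **(hinj)** of `s59r2f_step_DD`: `ξ = (ξ₀, ξ₁, ξ₂)` is injective on `L³`, from the operator
Gram identity and E-PET (`T_q² − (q+1)²` injective on `L`). -/
theorem s59m1r_hinj_abs [IsDomain 𝒪] [NoZeroSMulDivisors 𝒪 L]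
    (ξ₀ ξ₁ ξ₂ : L →ₗ[𝒪] L') (η₀ η₁ η₂ : L' →ₗ[𝒪] L) (tq : L →ₗ[𝒪] L) (q : 𝒪)
    (hG : ∀ x : L,
      (η₀ (ξ₀ x) = (q * (q + 1)) • x ∧ η₀ (ξ₁ x) = q • tq x ∧
        η₀ (ξ₂ x) = tq (tq x) - (q + 1) • x) ∧
      (η₁ (ξ₀ x) = q • tq x ∧ η₁ (ξ₁ x) = (q * (q + 1)) • x ∧ η₁ (ξ₂ x) = q • tq x) ∧
      (η₂ (ξ₀ x) = tq (tq x) - (q + 1) • x ∧ η₂ (ξ₁ x) = q • tq x ∧
        η₂ (ξ₂ x) = (q * (q + 1)) • x))
    (hq : q ≠ 0) (hq1 : q ≠ 1)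
    (hpet : ∀ x : L, tq (tq x) = (q + 1) ^ 2 • x → x = 0) :
    ∀ w₀ w₁ w₂ : L, ξ₀ w₀ + ξ₁ w₁ + ξ₂ w₂ = 0 → w₀ = 0 ∧ w₁ = 0 ∧ w₂ = 0 := by
  intro w₀ w₁ w₂ h
  -- the three rows of `G(T_q) w = 0`
  have h0 : (q * (q + 1)) • w₀ + q • tq w₁ + (tq (tq w₂) - (q + 1) • w₂) = 0 := by
    have := congrArg η₀ h
    rwa [map_add, map_add, (hG w₀).1.1, (hG w₁).1.2.1, (hG w₂).1.2.2, map_zero] at this
  have h1 : q • tq w₀ + (q * (q + 1)) • w₁ + q • tq w₂ = 0 := by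
    have := congrArg η₁ h
    rwa [map_add, map_add, (hG w₀).2.1.1, (hG w₁).2.1.2.1, (hG w₂).2.1.2.2, map_zero] at this
  have h2 : (tq (tq w₀) - (q + 1) • w₀) + q • tq w₁ + (q * (q + 1)) • w₂ = 0 := by
    have := congrArg η₂ h
    rwa [map_add, map_add, (hG w₀).2.2.1, (hG w₁).2.2.2.1, (hG w₂).2.2.2.2, map_zero] at this
  -- step 1: `w₀ = w₂`
  have hd : w₀ - w₂ = 0 := by
    refine hpet _ ?_
    rw [map_sub, map_sub]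
    have h02 : (q * (q + 1)) • w₀ + q • tq w₁ + (tq (tq w₂) - (q + 1) • w₂)
        = (tq (tq w₀) - (q + 1) • w₀) + q • tq w₁ + (q * (q + 1)) • w₂ := by rw [h0, h2]
    have h3 : tq (tq w₀) - tq (tq w₂)
        = (q * (q + 1)) • w₀ + q • tq w₁ + (tq (tq w₂) - (q + 1) • w₂)
          - ((tq (tq w₀) - (q + 1) • w₀) + q • tq w₁ + (q * (q + 1)) • w₂)
          + (tq (tq w₀) - tq (tq w₂)) := by
      rw [h02, sub_self, zero_add]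
    rw [h3]
    module
  have h20 : w₂ = w₀ := (sub_eq_zero.mp hd).symm
  subst h20
  -- step 2: `w₀ = 0`
  have h1T : q • tq (tq w₂) + (q * (q + 1)) • tq w₁ + q • tq (tq w₂) = 0 := by
    have := congrArg tq h1
    simpa only [map_add, map_smul, map_zero] using this
  have hw₀ : w₂ = 0 := by
    refine hpet _ ?_
    have hsm : (q - 1) • (tq (tq w₂) - (q + 1) ^ 2 • w₂) = 0 := by
      have h4 : (q - 1) • (tq (tq w₂) - (q + 1) ^ 2 • w₂)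
          = (q • tq (tq w₂) + (q * (q + 1)) • tq w₁ + q • tq (tq w₂))
            - (q + 1) • ((q * (q + 1)) • w₂ + q • tq w₁ + (tq (tq w₂) - (q + 1) • w₂)) := by
        module
      rw [h4, h1T, h0, smul_zero, sub_zero]
    rcases smul_eq_zero.mp hsm with h5 | h5
    · exact absurd (sub_eq_zero.mp h5) hq1
    · exact sub_eq_zero.mp h5
  subst hw₀
  -- step 3: `w₁ = 0`
  refine ⟨rfl, ?_, rfl⟩
  have hTw : tq w₁ = 0 := by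
    have : q • tq w₁ = 0 := by
      simpa using h0
    rcases smul_eq_zero.mp this with h5 | h5
    · exact absurd h5 hq
    · exact h5
  have hsw : (q + 1) • w₁ = 0 := by
    have : (q * (q + 1)) • w₁ = 0 := by
      simpa using h1
    rw [mul_smul] at this
    rcases smul_eq_zero.mp this with h5 | h5
    · exact absurd h5 hq
    · exact h5
  refine hpet _ ?_
  rw [hTw, map_zero, pow_two, mul_smul, hsw, smul_zero]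

end abs

end Fermat.Agent.S59
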