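import Mathlib
import Fermat.Agent.S59.Eta.Mult1bRed
import Fermat.Agent.S59.Eta.BCBase

/-!
# S59, wall R2 (ETA′), piece E-MULT1b — the reduction of `hrat` / `hinj` AFTER BASE CHANGE (helper8)

`Λ`, `Λ₁`, `Λ'` the `ℤ`-lattices of levels `N`, `N q`, `N q²` (e.g. `Lpar N`, `Lpar (N q)`,
`Lpar (N q q)`), all maps `ℤ`-linear, all identities at the `ℤ`-level; `𝒪` a domain, flat over `ℤ`.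
The base-changed objects are `s59bccL 𝒪 Λ = 𝒪 ⊗[ℤ] Λ`, `s59bccMap 𝒪 f = f.baseChange 𝒪`
(helper9, `S59/Eta/BCBase.lean`).

* `s59m1r_pet_bc`  : E-PET over `𝒪`: `T_q² − (q+1)²` stays injective on `𝒪 ⊗ Λ` (flatness);
* `s59m1r_gram_bc` : the operator Gram identity over `𝒪` from the one over `ℤ`;
* `s59m1r_hinj_bc` : **(hinj)** of `s59r2f_step_DD` for the base-changed `ξ₀, ξ₁, ξ₂`;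
* `s59m1r_hrat_bc` : **(hrat)** of `s59r2_step_abs` / `s59r2f_step_DD` for the base-changed
  package, from `hTQ`, (1a), (1b) over `𝒪`.
-/

set_option autoImplicit false
set_option linter.unusedSectionVars false
set_option linter.unusedVariables false

open TensorProduct

namespace Fermat.Agent.S59

section bc

variable (𝒪 : Type) [CommRing 𝒪]
  {Λ Λ₁ Λ' : Type} [AddCommGroup Λ] [AddCommGroup Λ₁] [AddCommGroup Λ'] {ι : Type}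

/-- base change of a pointwise identity between `ℤ`-linear maps -/
theorem s59m1r_map_congr {X Y : Type} [AddCommGroup X] [AddCommGroup Y] {f g : X →ₗ[ℤ] Y}
    (h : ∀ x, f x = g x) (W : s59bccL 𝒪 X) : s59bccMap 𝒪 f W = s59bccMap 𝒪 g W := by
  rw [LinearMap.ext h]

/-- **E-PET over `𝒪`**: an injectivity statement `T (T x) = c • x ⇒ x = 0` on a `ℤ`-lattice
survives the base change to a flat `ℤ`-algebra. -/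
theorem s59m1r_pet_bc [Module.Flat ℤ 𝒪] (tq : Λ →ₗ[ℤ] Λ) (c : ℤ)
    (hpet : ∀ x : Λ, tq (tq x) = c • x → x = 0) :
    ∀ X : s59bccL 𝒪 Λ, s59bccMap 𝒪 tq (s59bccMap 𝒪 tq X) = (c : 𝒪) • X → X = 0 := by
  set D : Λ →ₗ[ℤ] Λ := tq ∘ₗ tq - c • LinearMap.id with hD
  have hDinj : Function.Injective D := by
    rw [injective_iff_map_eq_zero]
    intro x hx
    refine hpet x ?_
    have : tq (tq x) - c • x = 0 := hx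
    exact sub_eq_zero.mp this
  have hinj : Function.Injective (D.lTensor 𝒪) :=
    Module.Flat.lTensor_preserves_injective_linearMap D hDinj
  have hinj' : Function.Injective (s59bccMap 𝒪 D) := by
    have h := LinearMap.baseChange_eq_ltensor (A := 𝒪) D
    unfold s59bccMap
    rw [h]
    exact hinj
  intro X hX
  apply hinj'
  rw [map_zero, hD, s59bcc_map_sub, s59bcc_map_comp, s59bcc_map_zsmul, s59bcc_map_id, hX,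
    sub_self]

/-- the operator Gram identity over `𝒪` from the operator Gram identity over `ℤ` -/
theorem s59m1r_gram_bc (ξ₀ ξ₁ ξ₂ : Λ →ₗ[ℤ] Λ') (η₀ η₁ η₂ : Λ' →ₗ[ℤ] Λ) (tq : Λ →ₗ[ℤ] Λ) (q : ℤ)
    (hG : ∀ x : Λ,
      (η₀ (ξ₀ x) = (q * (q + 1)) • x ∧ η₀ (ξ₁ x) = q • tq x ∧
        η₀ (ξ₂ x) = tq (tq x) - (q + 1) • x) ∧
      (η₁ (ξ₀ x) = q • tq x ∧ η₁ (ξ₁ x) = (q * (q + 1)) • x ∧ η₁ (ξ₂ x) = q • tq x) ∧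
      (η₂ (ξ₀ x) = tq (tq x) - (q + 1) • x ∧ η₂ (ξ₁ x) = q • tq x ∧
        η₂ (ξ₂ x) = (q * (q + 1)) • x)) :
    ∀ X : s59bccL 𝒪 Λ,
      (s59bccMap 𝒪 η₀ (s59bccMap 𝒪 ξ₀ X) = ((q : 𝒪) * ((q : 𝒪) + 1)) • X ∧
        s59bccMap 𝒪 η₀ (s59bccMap 𝒪 ξ₁ X) = (q : 𝒪) • s59bccMap 𝒪 tq X ∧
        s59bccMap 𝒪 η₀ (s59bccMap 𝒪 ξ₂ X)
          = s59bccMap 𝒪 tq (s59bccMap 𝒪 tq X) - ((q : 𝒪) + 1) • X) ∧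
      (s59bccMap 𝒪 η₁ (s59bccMap 𝒪 ξ₀ X) = (q : 𝒪) • s59bccMap 𝒪 tq X ∧
        s59bccMap 𝒪 η₁ (s59bccMap 𝒪 ξ₁ X) = ((q : 𝒪) * ((q : 𝒪) + 1)) • X ∧
        s59bccMap 𝒪 η₁ (s59bccMap 𝒪 ξ₂ X) = (q : 𝒪) • s59bccMap 𝒪 tq X) ∧
      (s59bccMap 𝒪 η₂ (s59bccMap 𝒪 ξ₀ X)
          = s59bccMap 𝒪 tq (s59bccMap 𝒪 tq X) - ((q : 𝒪) + 1) • X ∧
        s59bccMap 𝒪 η₂ (s59bccMap 𝒪 ξ₁ X) = (q : 𝒪) • s59bccMap 𝒪 tq X ∧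
        s59bccMap 𝒪 η₂ (s59bccMap 𝒪 ξ₂ X) = ((q : 𝒪) * ((q : 𝒪) + 1)) • X) := by
  intro X
  -- the three kinds of right-hand sides
  have hA : ∀ (η : Λ' →ₗ[ℤ] Λ) (ξ : Λ →ₗ[ℤ] Λ'), (∀ x, η (ξ x) = (q * (q + 1)) • x) →
      s59bccMap 𝒪 η (s59bccMap 𝒪 ξ X) = ((q : 𝒪) * ((q : 𝒪) + 1)) • X := by
    intro η ξ h
    rw [← s59bcc_map_comp,
      s59m1r_map_congr 𝒪 (g := (q * (q + 1)) • (LinearMap.id : Λ →ₗ[ℤ] Λ)) (fun x => by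
        rw [LinearMap.comp_apply, h]; rfl),
      s59bcc_map_zsmul, s59bcc_map_id]
    push_cast
    rfl
  have hB : ∀ (η : Λ' →ₗ[ℤ] Λ) (ξ : Λ →ₗ[ℤ] Λ'), (∀ x, η (ξ x) = q • tq x) →
      s59bccMap 𝒪 η (s59bccMap 𝒪 ξ X) = (q : 𝒪) • s59bccMap 𝒪 tq X := by
    intro η ξ h
    rw [← s59bcc_map_comp,
      s59m1r_map_congr 𝒪 (g := q • tq) (fun x => by
        rw [LinearMap.comp_apply, h]; rfl),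
      s59bcc_map_zsmul]
  have hC : ∀ (η : Λ' →ₗ[ℤ] Λ) (ξ : Λ →ₗ[ℤ] Λ'), (∀ x, η (ξ x) = tq (tq x) - (q + 1) • x) →
      s59bccMap 𝒪 η (s59bccMap 𝒪 ξ X)
        = s59bccMap 𝒪 tq (s59bccMap 𝒪 tq X) - ((q : 𝒪) + 1) • X := by
    intro η ξ h
    rw [← s59bcc_map_comp,
      s59m1r_map_congr 𝒪 (g := tq ∘ₗ tq - (q + 1) • (LinearMap.id : Λ →ₗ[ℤ] Λ)) (fun x => by
        rw [LinearMap.comp_apply, h]; rfl),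
      s59bcc_map_sub, s59bcc_map_comp, s59bcc_map_zsmul, s59bcc_map_id]
    push_cast
    rfl
  exact ⟨⟨hA η₀ ξ₀ fun x => (hG x).1.1, hB η₀ ξ₁ fun x => (hG x).1.2.1,
      hC η₀ ξ₂ fun x => (hG x).1.2.2⟩,
    ⟨hB η₁ ξ₀ fun x => (hG x).2.1.1, hA η₁ ξ₁ fun x => (hG x).2.1.2.1,
      hB η₁ ξ₂ fun x => (hG x).2.1.2.2⟩,
    ⟨hC η₂ ξ₀ fun x => (hG x).2.2.1, hB η₂ ξ₁ fun x => (hG x).2.2.2.1,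
      hA η₂ ξ₂ fun x => (hG x).2.2.2.2⟩⟩

variable [IsDomain 𝒪] [Module.Flat ℤ 𝒪]

/-- **(hinj) over `𝒪`**: the base-changed `ξ = (ξ₀, ξ₁, ξ₂)` is injective on `(𝒪 ⊗ Λ)³`, from the
`ℤ`-level operator Gram identity and E-PET. -/
theorem s59m1r_hinj_bc [Module.Free ℤ Λ]
    (ξ₀ ξ₁ ξ₂ : Λ →ₗ[ℤ] Λ') (η₀ η₁ η₂ : Λ' →ₗ[ℤ] Λ) (tq : Λ →ₗ[ℤ] Λ) (q : ℤ)
    (hG : ∀ x : Λ,
      (η₀ (ξ₀ x) = (q * (q + 1)) • x ∧ η₀ (ξ₁ x) = q • tq x ∧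
        η₀ (ξ₂ x) = tq (tq x) - (q + 1) • x) ∧
      (η₁ (ξ₀ x) = q • tq x ∧ η₁ (ξ₁ x) = (q * (q + 1)) • x ∧ η₁ (ξ₂ x) = q • tq x) ∧
      (η₂ (ξ₀ x) = tq (tq x) - (q + 1) • x ∧ η₂ (ξ₁ x) = q • tq x ∧
        η₂ (ξ₂ x) = (q * (q + 1)) • x))
    (hq : (q : 𝒪) ≠ 0) (hq1 : (q : 𝒪) ≠ 1)
    (hpet : ∀ x : Λ, tq (tq x) = (q + 1) ^ 2 • x → x = 0) :
    ∀ w₀ w₁ w₂ : s59bccL 𝒪 Λ,
      s59bccMap 𝒪 ξ₀ w₀ + s59bccMap 𝒪 ξ₁ w₁ + s59bccMap 𝒪 ξ₂ w₂ = 0 →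
        w₀ = 0 ∧ w₁ = 0 ∧ w₂ = 0 := by
  have : NoZeroSMulDivisors 𝒪 (s59bccL 𝒪 Λ) := s59bcc_noZeroSMulDivisors 𝒪 Λ
  refine s59m1r_hinj_abs (s59bccMap 𝒪 ξ₀) (s59bccMap 𝒪 ξ₁) (s59bccMap 𝒪 ξ₂)
    (s59bccMap 𝒪 η₀) (s59bccMap 𝒪 η₁) (s59bccMap 𝒪 η₂) (s59bccMap 𝒪 tq) (q : 𝒪)
    (s59m1r_gram_bc 𝒪 ξ₀ ξ₁ ξ₂ η₀ η₁ η₂ tq q hG) hq hq1 ?_
  intro X hX
  refine s59m1r_pet_bc 𝒪 tq ((q + 1) ^ 2) hpet X ?_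
  rw [hX]
  push_cast
  rfl

/-- **(hrat) over `𝒪`**: `hrat` of `s59r2_step_abs` for the base-changed package, from the
`ℤ`-level operator Gram identity, the `ℤ`-level Hecke equivariance, E-PET, and `hTQ`, (1a), (1b)
over `𝒪`. -/
theorem s59m1r_hrat_bc
    (ξ₀ ξ₁ ξ₂ : Λ →ₗ[ℤ] Λ') (η₀ η₁ η₂ : Λ' →ₗ[ℤ] Λ)
    (c₂ e₂ : Λ' →ₗ[ℤ] Λ₁) (c₁ e₁ : Λ₁ →ₗ[ℤ] Λ)
    (t : ι → Λ →ₗ[ℤ] Λ) (t₁ : ι → Λ₁ →ₗ[ℤ] Λ₁) (t' : ι → Λ' →ₗ[ℤ] Λ')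
    (tq : Λ →ₗ[ℤ] Λ) (q : ℤ)
    (hη₀ : ∀ y, η₀ y = c₁ (c₂ y)) (hη₁ : ∀ y, η₁ y = e₁ (c₂ y))
    (hη₁' : ∀ y, η₁ y = c₁ (e₂ y)) (hη₂ : ∀ y, η₂ y = e₁ (e₂ y))
    (hcomm : ∀ (i : ι) (w : Λ), ξ₀ (t i w) = t' i (ξ₀ w) ∧ ξ₁ (t i w) = t' i (ξ₁ w) ∧
      ξ₂ (t i w) = t' i (ξ₂ w))
    (hcomm₂ : ∀ (i : ι) (y : Λ'), c₂ (t' i y) = t₁ i (c₂ y) ∧ e₂ (t' i y) = t₁ i (e₂ y))
    (hcomm₁ : ∀ (i : ι) (u : Λ₁), c₁ (t₁ i u) = t i (c₁ u) ∧ e₁ (t₁ i u) = t i (e₁ u))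
    (hG : ∀ x : Λ,
      (η₀ (ξ₀ x) = (q * (q + 1)) • x ∧ η₀ (ξ₁ x) = q • tq x ∧
        η₀ (ξ₂ x) = tq (tq x) - (q + 1) • x) ∧
      (η₁ (ξ₀ x) = q • tq x ∧ η₁ (ξ₁ x) = (q * (q + 1)) • x ∧ η₁ (ξ₂ x) = q • tq x) ∧
      (η₂ (ξ₀ x) = tq (tq x) - (q + 1) • x ∧ η₂ (ξ₁ x) = q • tq x ∧
        η₂ (ξ₂ x) = (q * (q + 1)) • x))
    (hpet : ∀ x : Λ, tq (tq x) = (q + 1) ^ 2 • x → x = 0)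
    (hq : (q : 𝒪) ≠ 0) (hq1 : (q : 𝒪) ≠ 1)
    (ψ : ι → 𝒪) (a : 𝒪)
    (hTQ : ∀ v : s59bccL 𝒪 Λ, (∀ i, s59bccMap 𝒪 (t i) v = ψ i • v) →
      s59bccMap 𝒪 tq v = a • v)
    (h1a : ∀ u : s59bccL 𝒪 Λ₁, (∀ i, s59bccMap 𝒪 (t₁ i) u = ψ i • u) →
      s59bccMap 𝒪 c₁ u = 0 → s59bccMap 𝒪 e₁ u = 0 → u = 0)
    (h1b : ∀ y : s59bccL 𝒪 Λ', (∀ i, s59bccMap 𝒪 (t' i) y = ψ i • y) →
      s59bccMap 𝒪 c₂ y = 0 → s59bccMap 𝒪 e₂ y = 0 → y = 0) :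
    ∀ y' ∈ s59r2E' (fun i => s59bccMap 𝒪 (t' i)) ψ, ∃ c : 𝒪, c ≠ 0 ∧
      ∃ w₀ w₁ w₂ : s59bccL 𝒪 Λ,
        c • y' = s59bccMap 𝒪 ξ₀ w₀ + s59bccMap 𝒪 ξ₁ w₁ + s59bccMap 𝒪 ξ₂ w₂ := by
  refine s59m1r_hrat_of_pet (s59bccMap 𝒪 ξ₀) (s59bccMap 𝒪 ξ₁) (s59bccMap 𝒪 ξ₂)
    (s59bccMap 𝒪 η₀) (s59bccMap 𝒪 η₁) (s59bccMap 𝒪 η₂)
    (s59bccMap 𝒪 c₂) (s59bccMap 𝒪 e₂) (s59bccMap 𝒪 c₁) (s59bccMap 𝒪 e₁)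
    (fun i => s59bccMap 𝒪 (t i)) (fun i => s59bccMap 𝒪 (t₁ i)) (fun i => s59bccMap 𝒪 (t' i))
    ψ (s59bccMap 𝒪 tq) (q : 𝒪) a ?_ ?_ ?_ ?_ ?_ ?_ ?_
    (s59m1r_gram_bc 𝒪 ξ₀ ξ₁ ξ₂ η₀ η₁ η₂ tq q hG) hTQ hq hq1 ?_ h1a h1b
  · intro y
    rw [← s59bcc_map_comp]
    exact s59m1r_map_congr 𝒪 hη₀ y
  · intro y
    rw [← s59bcc_map_comp]
    exact s59m1r_map_congr 𝒪 hη₁ y
  · intro y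
    rw [← s59bcc_map_comp]
    exact s59m1r_map_congr 𝒪 hη₁' y
  · intro y
    rw [← s59bcc_map_comp]
    exact s59m1r_map_congr 𝒪 hη₂ y
  · exact s59bcc_hcomm 𝒪 ξ₀ ξ₁ ξ₂ t t' hcomm
  · intro i y
    exact ⟨s59bcc_intertwine 𝒪 c₂ (t' i) (t₁ i) (fun w => (hcomm₂ i w).1) y,
      s59bcc_intertwine 𝒪 e₂ (t' i) (t₁ i) (fun w => (hcomm₂ i w).2) y⟩
  · intro i u
    exact ⟨s59bcc_intertwine 𝒪 c₁ (t₁ i) (t i) (fun w => (hcomm₁ i w).1) u,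
      s59bcc_intertwine 𝒪 e₁ (t₁ i) (t i) (fun w => (hcomm₁ i w).2) u⟩
  · intro X hX
    refine s59m1r_pet_bc 𝒪 tq ((q + 1) ^ 2) hpet X ?_
    rw [hX]
    push_cast
    rfl

end bc

end Fermat.Agent.S59
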