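import Mathlib
import Fermat.Agent.S59.Eta.Mult1bBC
import Fermat.Agent.S59.Eta.GramInj
import Fermat.Agent.S59.Eta.BCGram

/-!
# S59, wall R2 (ETA′), piece E-MULT1b — `hrat` on the CONCRETE lattices (helper8)

`q` prime, `q ∤ N`, `𝒪` a domain of characteristic `0`, `ℓ i` (`i : ι`) a family of primes
`ℓ i ∤ N q` (the good primes), `ψ : ι → 𝒪` an eigensystem, `a : 𝒪`.
Lattices: `s59bccL 𝒪 (Lpar M) = 𝒪 ⊗[ℤ] Hom_par(Γ₀(M), ℤ)`, `M = N, N q, N q q`; operators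
`s59bccMap 𝒪 (s59bcTcZ M ℓ _)`, degeneracy maps `s59bccMap 𝒪 (s59bcXiZ0/1/2 N q)`, transfers
`s59bccMap 𝒪 (s59bcCoresZ _ q)`, `s59bccMap 𝒪 (s59bcCoresDZ _ q)` (helper36's `BCLin.lean`,
helper9's `BCBase.lean`).

* `s59m1r_StmtTQ`     : the Prop **E-TQ** (`T_q = a` on the `ψ`-eigenvectors of level `N`);
* `s59m1r_StmtMult1a` : the Prop **E-MULT1a** (no `q`-new `ψ`-eigenvector of level `N q`);
* `s59m1r_StmtMult1b` : the Prop **E-MULT1b** (no `q²`-new `ψ`-eigenvector of level `N q²`);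
* `s59m1r_hrat_conc`  : **E-TQ + E-MULT1a + E-MULT1b ⇒ `hrat`** of `s59r2_step_abs` /
  `s59r2f_step_DD`, literal shape, on the concrete lattices.  The operator Gram identity
  (helper80, `GramOp.lean`), E-PET (helper6) and the Hecke equivariance (S41 `stmtC1`) are
  discharged.

TRUTH: (1a) and (1b) hold for an eigensystem `ψ` which OCCURS at level `N` (strong multiplicity
one); they are false for a `ψ` which is new at `q`.  The Props below are statements about ONE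
given `ψ`: the owner proves them for the `ψ` of the step (the eigensystem of the form attached
to the curve at level `N`).
-/

set_option autoImplicit false
set_option linter.unusedSectionVars false
set_option linter.unusedVariables false
set_option linter.style.haveILetI false

noncomputable section

open TensorProduct

namespace Fermat.Agent.S59

open CongruenceSubgroup Matrix Fermat.Agent.S41
open scoped MatrixGroups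

section conc

variable (𝒪 : Type) [CommRing 𝒪]
  (N q : ℕ) [NeZero N] [NeZero q] [hq : Fact q.Prime]
  {ι : Type} (ℓ : ι → ℕ) [hℓ : ∀ i, Fact (ℓ i).Prime]

/-- **E-TQ** for the eigensystem `ψ`: on the `ψ`-eigenvectors of `𝒪 ⊗ Lpar N`, `T_q = a`. -/
def s59m1r_StmtTQ (hqN : ¬ q ∣ N) (hN : ∀ i, ¬ ℓ i ∣ N) (ψ : ι → 𝒪) (a : 𝒪) : Prop :=
  ∀ v : s59bccL 𝒪 (Lpar N), (∀ i, s59bccMap 𝒪 (s59bcTcZ N (ℓ i) (hN i)) v = ψ i • v) →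
    s59bccMap 𝒪 (s59bcTcZ N q hqN) v = a • v

/-- **E-MULT1a** for the eigensystem `ψ`: a `ψ`-eigenvector of `𝒪 ⊗ Lpar (N q)` killed by
`cores` and `cores^δ` (`q`-new) vanishes. -/
def s59m1r_StmtMult1a (hNq : ∀ i, ¬ ℓ i ∣ N * q) (ψ : ι → 𝒪) : Prop :=
  ∀ u : s59bccL 𝒪 (Lpar (N * q)),
    (∀ i, s59bccMap 𝒪 (s59bcTcZ (N * q) (ℓ i) (hNq i)) u = ψ i • u) →
    s59bccMap 𝒪 (s59bcCoresZ N q) u = 0 → s59bccMap 𝒪 (s59bcCoresDZ N q) u = 0 → u = 0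

/-- **E-MULT1b** for the eigensystem `ψ`: a `ψ`-eigenvector of `𝒪 ⊗ Lpar (N q q)` killed by
`cores` and `cores^δ` to level `N q` (`q²`-new) vanishes. -/
def s59m1r_StmtMult1b (hNqq : ∀ i, ¬ ℓ i ∣ N * q * q) (ψ : ι → 𝒪) : Prop :=
  ∀ y : s59bccL 𝒪 (Lpar (N * q * q)),
    (∀ i, s59bccMap 𝒪 (s59bcTcZ (N * q * q) (ℓ i) (hNqq i)) y = ψ i • y) →
    s59bccMap 𝒪 (s59bcCoresZ (N * q) q) y = 0 →
    s59bccMap 𝒪 (s59bcCoresDZ (N * q) q) y = 0 → y = 0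

variable [IsDomain 𝒪] [CharZero 𝒪]

/-- **`hrat` on the concrete lattices** from E-TQ, E-MULT1a, E-MULT1b. -/
theorem s59m1r_hrat_conc (hqN : ¬ q ∣ N) (hN : ∀ i, ¬ ℓ i ∣ N) (hNq : ∀ i, ¬ ℓ i ∣ N * q)
    (hNqq : ∀ i, ¬ ℓ i ∣ N * q * q) (ψ : ι → 𝒪) (a : 𝒪)
    (hTQ : s59m1r_StmtTQ 𝒪 N q ℓ hqN hN ψ a)
    (h1a : s59m1r_StmtMult1a 𝒪 N q ℓ hNq ψ)
    (h1b : s59m1r_StmtMult1b 𝒪 N q ℓ hNqq ψ) :
    ∀ y' ∈ s59r2E' (fun i => s59bccMap 𝒪 (s59bcTcZ (N * q * q) (ℓ i) (hNqq i))) ψ,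
      ∃ c : 𝒪, c ≠ 0 ∧ ∃ w₀ w₁ w₂ : s59bccL 𝒪 (Lpar N),
        c • y' = s59bccMap 𝒪 (s59bcXiZ0 N q) w₀ + s59bccMap 𝒪 (s59bcXiZ1 N q) w₁
          + s59bccMap 𝒪 (s59bcXiZ2 N q) w₂ := by
  have hq0 : ((q : ℤ) : 𝒪) ≠ 0 := by
    rw [Int.cast_natCast]
    exact s59gram_q_ne_zero' 𝒪 q
  have hq1 : ((q : ℤ) : 𝒪) ≠ 1 := by
    rw [Int.cast_natCast]
    exact fun h => s59gram_q_sub_one_ne_zero' 𝒪 q (sub_eq_zero.mpr h)
  refine s59m1r_hrat_bc 𝒪 (s59bcXiZ0 N q) (s59bcXiZ1 N q) (s59bcXiZ2 N q)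
    (s59gramXi0T N q) (s59gramXi1T N q) (s59gramXi2T N q)
    (s59bcCoresZ (N * q) q) (s59bcCoresDZ (N * q) q) (s59bcCoresZ N q) (s59bcCoresDZ N q)
    (fun i => s59bcTcZ N (ℓ i) (hN i)) (fun i => s59bcTcZ (N * q) (ℓ i) (hNq i))
    (fun i => s59bcTcZ (N * q * q) (ℓ i) (hNqq i)) (s59bcTcZ N q hqN) (q : ℤ)
    ?_ ?_ ?_ ?_ ?_ ?_ ?_ ?_ ?_ hq0 hq1 ψ a hTQ h1a h1b
  · -- η₀ = cores₁ ∘ cores₂
    intro y
    rw [← s59bcg_Cores_eq, ← s59bcg_Cores_eq]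
    rfl
  · -- η₁ = cores^δ₁ ∘ cores₂
    intro y
    rw [← s59bcg_Cores_eq, ← s59bcg_CoresD_eq]
    rfl
  · -- η₁ = cores₁ ∘ cores^δ₂
    intro y
    rw [← s59bcg_Cores_eq, ← s59bcg_CoresD_eq]
    exact (s59gram_xi1T_eq y).symm
  · -- η₂ = cores^δ₁ ∘ cores^δ₂
    intro y
    rw [← s59bcg_CoresD_eq, ← s59bcg_CoresD_eq]
    rfl
  · -- hcomm
    intro i w
    exact ⟨s59bcXiZ0_Tc N q (ℓ i) (hN i) (hNqq i) w, s59bcXiZ1_Tc N q (ℓ i) (hN i) (hNqq i) w,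
      s59bcXiZ2_Tc N q (ℓ i) (hN i) (hNqq i) w⟩
  · -- hcomm₂
    intro i y
    exact ⟨s59bcCoresZ_Tc (N * q) q (ℓ i) (hNq i) (hNqq i) y,
      s59bcCoresDZ_Tc (N * q) q (ℓ i) (hNq i) (hNqq i) y⟩
  · -- hcomm₁
    intro i u
    exact ⟨s59bcCoresZ_Tc N q (ℓ i) (hN i) (hNq i) u, s59bcCoresDZ_Tc N q (ℓ i) (hN i) (hNq i) u⟩
  · -- the operator Gram identity
    intro x
    rw [← s59bcg_Xi0_eq, ← s59bcg_Xi1_eq, ← s59bcg_Xi2_eq, ← s59bcg_T_eq N q hqN]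
    exact ⟨⟨s59gram_op_00 hqN x, s59gram_op_01 hqN x, s59gram_op_02 hqN x⟩,
      ⟨s59gram_op_10 hqN x, s59gram_op_11 hqN x, s59gram_op_12 hqN x⟩,
      ⟨s59gram_op_20 hqN x, s59gram_op_21 hqN x, s59gram_op_22 hqN x⟩⟩
  · -- E-PET
    intro x hx
    rw [← s59bcg_T_eq N q hqN] at hx
    exact s59gram_pet hqN x hx

end conc

end Fermat.Agent.S59
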