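import Mathlib
import Fermat.Agent.S59.Eta.Mult1bConc

/-!
# S59, wall M5 (P-STEP), piece P-RAT — `hrat` for TWO degeneracy maps, WITHOUT `hTQ` (helper8)

The twin of `s59m1r_hrat_conc` (`S59/Eta/Mult1bConc.lean`) for the step `N ↦ N q` (`q ∤ N`; in the
application `q := p`, the residue characteristic — nothing about `q` versus the residue
characteristic is used): `L = 𝒪 ⊗ Lpar N`, `L' = 𝒪 ⊗ Lpar (N q)`, `ξ₀ = res`, `ξ₁ = res^δ`,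
`η₀ = cores`, `η₁ = cores^δ`.

* `s59etpr_adj`       : an injective endomorphism `G` of a finite free module over a domain has
                        `c ≠ 0` and `H` with `G ∘ H = c` (`c = det G`, `H` = the adjugate);
* `s59etpr_ginj_abs`  : the `2 × 2` operator Gram matrix `[[c₀, T], [T, c₀]]` is injective on
                        `L × L`, from E-PET (`T² = c₀² ⇒ 0`);
* `s59etpr_hrat_unif` : ONE `c ≠ 0` with `c • E' ⊆ ξ₀ L + ξ₁ L` (abstract), from (1a);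
* `s59etpr_hrat_abs`  : the literal `hrat` of `s59etp_hmult` (abstract);
* `s59etpr_hinj_abs`  : `hinj` of `s59etp_hmult` (abstract; by-product);
* `s59etpr_hrat_bc`, `s59etpr_hinj_bc` : after base change `ℤ → 𝒪`;
* **`s59etpr_hrat_conc`** : `s59m1r_StmtMult1a 𝒪 N q ℓ hNq ψ ⇒ hrat` on the concrete lattices;
* `s59etpr_hinj_conc` : `hinj` on the concrete lattices.

No eigenvalue of `T_q` enters: the Gram operator `G = η ∘ ξ` on `L × L` commutes with the good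
Hecke operators (by `hcomm`), it is injective, `c := det G`; the preimage `w` of `c • η y'` is
automatically a `ψ`-eigenvector (injectivity of `G`), and (1a) kills `c • y' − ξ w`.
-/

set_option autoImplicit false
set_option linter.unusedSectionVars false
set_option linter.unusedVariables false
set_option linter.style.haveILetI false

noncomputable section

open TensorProduct

namespace Fermat.Agent.S59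

section abs

variable {𝒪 : Type} [CommRing 𝒪] [IsDomain 𝒪]

/-- An injective endomorphism of a finite free module over a domain has a quasi-inverse:
`G ∘ H = c` with `c ≠ 0` (`c = det G`, `H` the adjugate in a basis). -/
theorem s59etpr_adj {M : Type} [AddCommGroup M] [Module 𝒪 M] [Module.Free 𝒪 M]
    [Module.Finite 𝒪 M] (G : M →ₗ[𝒪] M) (hG : Function.Injective G) :
    ∃ c : 𝒪, c ≠ 0 ∧ ∃ H : M →ₗ[𝒪] M, ∀ m, G (H m) = c • m := by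
  classical
  let b := Module.Free.chooseBasis 𝒪 M
  set A := LinearMap.toMatrix b b G with hA
  refine ⟨A.det, ?_, Matrix.toLin b b A.adjugate, ?_⟩
  · intro h0
    obtain ⟨v, hv, hAv⟩ := Matrix.exists_mulVec_eq_zero_iff.mpr h0
    apply hv
    have h1 : G (b.equivFun.symm v) = 0 := by
      have h2 : Matrix.toLin b b A (b.equivFun.symm v) = 0 := by
        rw [Matrix.toLin_apply]
        have h3 : (b.repr (b.equivFun.symm v) : _ → 𝒪) = v := by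
          rw [← Module.Basis.equivFun_apply]
          exact b.equivFun.apply_symm_apply v
        simp only [h3, hAv]
        simp
      rwa [hA, Matrix.toLin_toMatrix] at h2
    have h4 : b.equivFun.symm v = 0 := hG (by rw [h1, map_zero])
    have h5 := congrArg b.equivFun h4
    rwa [LinearEquiv.apply_symm_apply, map_zero] at h5
  · intro m
    have h1 : G ∘ₗ Matrix.toLin b b A.adjugate = A.det • LinearMap.id := by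
      have h2 : G = Matrix.toLin b b A := by rw [hA, Matrix.toLin_toMatrix]
      conv_lhs => rw [h2]
      rw [← Matrix.toLin_mul b b b, Matrix.mul_adjugate, map_smul, Matrix.toLin_one]
    have h3 := congrArg (fun f => f m) h1
    simpa using h3

variable {L L' : Type} [AddCommGroup L] [Module 𝒪 L] [AddCommGroup L'] [Module 𝒪 L']
  {ι : Type}

/-- the `2 × 2` operator Gram matrix `[[c₀, T], [T, c₀]]` is injective (E-PET). -/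
theorem s59etpr_ginj_abs (tq : L →ₗ[𝒪] L) (c₀ : 𝒪)
    (hpet : ∀ x : L, tq (tq x) = c₀ ^ 2 • x → x = 0)
    (w₀ w₁ : L) (h0 : c₀ • w₀ + tq w₁ = 0) (h1 : tq w₀ + c₀ • w₁ = 0) :
    w₀ = 0 ∧ w₁ = 0 := by
  have e0 : tq w₁ = -(c₀ • w₀) := eq_neg_of_add_eq_zero_right h0
  have e1 : tq w₀ = -(c₀ • w₁) := eq_neg_of_add_eq_zero_left h1
  refine ⟨hpet w₀ ?_, hpet w₁ ?_⟩
  · rw [e1, map_neg, map_smul, e0, smul_neg, neg_neg, smul_smul, pow_two]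
  · rw [e0, map_neg, map_smul, e1, smul_neg, neg_neg, smul_smul, pow_two]

/-- **(hinj)** for two maps, abstract: `ξ = (ξ₀, ξ₁)` is injective on `L × L`. -/
theorem s59etpr_hinj_abs (ξ₀ ξ₁ : L →ₗ[𝒪] L') (η₀ η₁ : L' →ₗ[𝒪] L) (tq : L →ₗ[𝒪] L) (c₀ : 𝒪)
    (hG : ∀ x : L, η₀ (ξ₀ x) = c₀ • x ∧ η₁ (ξ₁ x) = c₀ • x ∧ η₀ (ξ₁ x) = tq x ∧
      η₁ (ξ₀ x) = tq x)
    (hpet : ∀ x : L, tq (tq x) = c₀ ^ 2 • x → x = 0) :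
    ∀ w₀ w₁ : L, ξ₀ w₀ + ξ₁ w₁ = 0 → w₀ = 0 ∧ w₁ = 0 := by
  intro w₀ w₁ h
  refine s59etpr_ginj_abs tq c₀ hpet w₀ w₁ ?_ ?_
  · have := congrArg η₀ h
    rwa [map_add, (hG w₀).1, (hG w₁).2.2.1, map_zero] at this
  · have := congrArg η₁ h
    rwa [map_add, (hG w₀).2.2.2, (hG w₁).2.1, map_zero] at this

variable [Module.Free 𝒪 L] [Module.Finite 𝒪 L]

/-- **(hrat), uniform form**, abstract: ONE `c ≠ 0` with `c • E' ⊆ ξ₀ L + ξ₁ L`; moreover the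
`w_i` are `ψ`-eigenvectors. -/
theorem s59etpr_hrat_unif (ξ₀ ξ₁ : L →ₗ[𝒪] L') (η₀ η₁ : L' →ₗ[𝒪] L)
    (t : ι → L →ₗ[𝒪] L) (t' : ι → L' →ₗ[𝒪] L') (ψ : ι → 𝒪) (tq : L →ₗ[𝒪] L) (c₀ : 𝒪)
    (hcomm : ∀ (i : ι) (w : L), ξ₀ (t i w) = t' i (ξ₀ w) ∧ ξ₁ (t i w) = t' i (ξ₁ w))
    (hcomm₁ : ∀ (i : ι) (u : L'), η₀ (t' i u) = t i (η₀ u) ∧ η₁ (t' i u) = t i (η₁ u))
    (hG : ∀ x : L, η₀ (ξ₀ x) = c₀ • x ∧ η₁ (ξ₁ x) = c₀ • x ∧ η₀ (ξ₁ x) = tq x ∧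
      η₁ (ξ₀ x) = tq x)
    (hpet : ∀ x : L, tq (tq x) = c₀ ^ 2 • x → x = 0)
    (h1a : ∀ u : L', (∀ i, t' i u = ψ i • u) → η₀ u = 0 → η₁ u = 0 → u = 0) :
    ∃ c : 𝒪, c ≠ 0 ∧ ∀ y' : L', (∀ i, t' i y' = ψ i • y') →
      ∃ w₀ w₁ : L, (∀ i, t i w₀ = ψ i • w₀) ∧ (∀ i, t i w₁ = ψ i • w₁) ∧
        c • y' = ξ₀ w₀ + ξ₁ w₁ := by
  -- the Gram operator on `L × L`
  set Φ : L × L →ₗ[𝒪] L' := ξ₀.coprod ξ₁ with hΦ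
  set η : L' →ₗ[𝒪] L × L := η₀.prod η₁ with hη
  set G : L × L →ₗ[𝒪] L × L := η ∘ₗ Φ with hGdef
  have hGapp : ∀ w : L × L, G w = (η₀ (ξ₀ w.1 + ξ₁ w.2), η₁ (ξ₀ w.1 + ξ₁ w.2)) := by
    intro w
    simp [hGdef, hΦ, hη]
  have hGval : ∀ w : L × L, G w = (c₀ • w.1 + tq w.2, tq w.1 + c₀ • w.2) := by
    intro w
    rw [hGapp, map_add, map_add, (hG w.1).1, (hG w.2).2.2.1, (hG w.1).2.2.2, (hG w.2).2.1]
  have hGinj : Function.Injective G := by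
    rw [injective_iff_map_eq_zero]
    intro w hw
    rw [hGval] at hw
    have h0 := congrArg Prod.fst hw
    have h1 := congrArg Prod.snd hw
    obtain ⟨e0, e1⟩ := s59etpr_ginj_abs tq c₀ hpet w.1 w.2 h0 h1
    exact Prod.ext e0 e1
  obtain ⟨c, hc, H, hH⟩ := s59etpr_adj G hGinj
  refine ⟨c, hc, ?_⟩
  intro y' hy'
  set w : L × L := H (η y') with hw
  have hGw : G w = c • η y' := hH _
  have hGw0 : η₀ (ξ₀ w.1 + ξ₁ w.2) = c • η₀ y' := by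
    have := congrArg Prod.fst hGw
    rw [hGapp] at this
    simpa [hη] using this
  have hGw1 : η₁ (ξ₀ w.1 + ξ₁ w.2) = c • η₁ y' := by
    have := congrArg Prod.snd hGw
    rw [hGapp] at this
    simpa [hη] using this
  -- `w` is a `ψ`-eigenvector, by the injectivity of `G`
  have heig : ∀ i, t i w.1 = ψ i • w.1 ∧ t i w.2 = ψ i • w.2 := by
    intro i
    have hz : G (t i w.1 - ψ i • w.1, t i w.2 - ψ i • w.2) = 0 := by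
      rw [hGapp]
      have e : ξ₀ (t i w.1 - ψ i • w.1) + ξ₁ (t i w.2 - ψ i • w.2)
          = t' i (ξ₀ w.1 + ξ₁ w.2) - ψ i • (ξ₀ w.1 + ξ₁ w.2) := by
        rw [map_sub, map_sub, (hcomm i w.1).1, (hcomm i w.2).2, map_smul, map_smul, map_add,
          smul_add]
        abel
      simp only [e]
      rw [map_sub, map_sub, (hcomm₁ i _).1, (hcomm₁ i _).2, map_smul, map_smul, hGw0, hGw1,
        map_smul, map_smul, ← (hcomm₁ i y').1, ← (hcomm₁ i y').2, hy' i, map_smul, map_smul,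
        smul_comm c (ψ i), smul_comm c (ψ i), sub_self, sub_self]
      rfl
    have hz' := hGinj (hz.trans (map_zero G).symm)
    exact ⟨sub_eq_zero.mp (congrArg Prod.fst hz'), sub_eq_zero.mp (congrArg Prod.snd hz')⟩
  refine ⟨w.1, w.2, fun i => (heig i).1, fun i => (heig i).2, ?_⟩
  have hu : c • y' - (ξ₀ w.1 + ξ₁ w.2) = 0 := by
    refine h1a _ ?_ ?_ ?_
    · intro i
      rw [map_sub, map_smul, hy' i, map_add, ← (hcomm i w.1).1, ← (hcomm i w.2).2, (heig i).1,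
        (heig i).2, map_smul, map_smul, smul_sub, smul_add, smul_comm c (ψ i)]
    · rw [map_sub, map_smul, hGw0, sub_self]
    · rw [map_sub, map_smul, hGw1, sub_self]
  exact sub_eq_zero.mp hu

/-- **(hrat)** of `s59etp_hmult`, literal shape, abstract. -/
theorem s59etpr_hrat_abs (ξ₀ ξ₁ : L →ₗ[𝒪] L') (η₀ η₁ : L' →ₗ[𝒪] L)
    (t : ι → L →ₗ[𝒪] L) (t' : ι → L' →ₗ[𝒪] L') (ψ : ι → 𝒪) (tq : L →ₗ[𝒪] L) (c₀ : 𝒪)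
    (hcomm : ∀ (i : ι) (w : L), ξ₀ (t i w) = t' i (ξ₀ w) ∧ ξ₁ (t i w) = t' i (ξ₁ w))
    (hcomm₁ : ∀ (i : ι) (u : L'), η₀ (t' i u) = t i (η₀ u) ∧ η₁ (t' i u) = t i (η₁ u))
    (hG : ∀ x : L, η₀ (ξ₀ x) = c₀ • x ∧ η₁ (ξ₁ x) = c₀ • x ∧ η₀ (ξ₁ x) = tq x ∧
      η₁ (ξ₀ x) = tq x)
    (hpet : ∀ x : L, tq (tq x) = c₀ ^ 2 • x → x = 0)
    (h1a : ∀ u : L', (∀ i, t' i u = ψ i • u) → η₀ u = 0 → η₁ u = 0 → u = 0) :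
    ∀ y' ∈ s59r2E' t' ψ, ∃ c : 𝒪, c ≠ 0 ∧ ∃ w₀ w₁ : L, c • y' = ξ₀ w₀ + ξ₁ w₁ := by
  obtain ⟨c, hc, h⟩ := s59etpr_hrat_unif ξ₀ ξ₁ η₀ η₁ t t' ψ tq c₀ hcomm hcomm₁ hG hpet h1a
  intro y' hy'
  obtain ⟨w₀, w₁, -, -, e⟩ := h y' hy'
  exact ⟨c, hc, w₀, w₁, e⟩

end abs

section bc

variable (𝒪 : Type) [CommRing 𝒪] [IsDomain 𝒪] [Module.Flat ℤ 𝒪]
  {Λ Λ' : Type} [AddCommGroup Λ] [AddCommGroup Λ'] {ι : Type}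

/-- the `2 × 2` operator Gram identity over `𝒪` from the one over `ℤ` -/
theorem s59etpr_gram_bc (ξ₀ ξ₁ : Λ →ₗ[ℤ] Λ') (η₀ η₁ : Λ' →ₗ[ℤ] Λ) (tq : Λ →ₗ[ℤ] Λ) (c₀ : ℤ)
    (hG : ∀ x : Λ, η₀ (ξ₀ x) = c₀ • x ∧ η₁ (ξ₁ x) = c₀ • x ∧ η₀ (ξ₁ x) = tq x ∧
      η₁ (ξ₀ x) = tq x) :
    ∀ X : s59bccL 𝒪 Λ,
      s59bccMap 𝒪 η₀ (s59bccMap 𝒪 ξ₀ X) = (c₀ : 𝒪) • X ∧
      s59bccMap 𝒪 η₁ (s59bccMap 𝒪 ξ₁ X) = (c₀ : 𝒪) • X ∧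
      s59bccMap 𝒪 η₀ (s59bccMap 𝒪 ξ₁ X) = s59bccMap 𝒪 tq X ∧
      s59bccMap 𝒪 η₁ (s59bccMap 𝒪 ξ₀ X) = s59bccMap 𝒪 tq X := by
  intro X
  have hsm : ∀ Y : s59bccL 𝒪 Λ, s59bccMap 𝒪 (c₀ • (LinearMap.id : Λ →ₗ[ℤ] Λ)) Y
      = (c₀ : 𝒪) • Y := by
    intro Y
    rw [s59bcc_map_zsmul, s59bcc_map_id]
  refine ⟨?_, ?_, ?_, ?_⟩
  · rw [← s59bcc_map_comp, ← hsm]
    exact s59m1r_map_congr 𝒪 (fun x => (hG x).1) X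
  · rw [← s59bcc_map_comp, ← hsm]
    exact s59m1r_map_congr 𝒪 (fun x => (hG x).2.1) X
  · rw [← s59bcc_map_comp]
    exact s59m1r_map_congr 𝒪 (fun x => (hG x).2.2.1) X
  · rw [← s59bcc_map_comp]
    exact s59m1r_map_congr 𝒪 (fun x => (hG x).2.2.2) X

/-- E-PET over `𝒪`, in the shape of `s59etpr_hrat_abs` -/
theorem s59etpr_pet_bc (tq : Λ →ₗ[ℤ] Λ) (c₀ : ℤ)
    (hpet : ∀ x : Λ, tq (tq x) = c₀ ^ 2 • x → x = 0) :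
    ∀ X : s59bccL 𝒪 Λ, s59bccMap 𝒪 tq (s59bccMap 𝒪 tq X) = (c₀ : 𝒪) ^ 2 • X → X = 0 := by
  intro X hX
  refine s59m1r_pet_bc 𝒪 tq (c₀ ^ 2) hpet X ?_
  rw [hX]
  push_cast
  rfl

/-- **(hinj) over `𝒪`** for two maps -/
theorem s59etpr_hinj_bc (ξ₀ ξ₁ : Λ →ₗ[ℤ] Λ') (η₀ η₁ : Λ' →ₗ[ℤ] Λ) (tq : Λ →ₗ[ℤ] Λ) (c₀ : ℤ)
    (hG : ∀ x : Λ, η₀ (ξ₀ x) = c₀ • x ∧ η₁ (ξ₁ x) = c₀ • x ∧ η₀ (ξ₁ x) = tq x ∧
      η₁ (ξ₀ x) = tq x)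
    (hpet : ∀ x : Λ, tq (tq x) = c₀ ^ 2 • x → x = 0) :
    ∀ w₀ w₁ : s59bccL 𝒪 Λ, s59bccMap 𝒪 ξ₀ w₀ + s59bccMap 𝒪 ξ₁ w₁ = 0 → w₀ = 0 ∧ w₁ = 0 :=
  s59etpr_hinj_abs (s59bccMap 𝒪 ξ₀) (s59bccMap 𝒪 ξ₁) (s59bccMap 𝒪 η₀) (s59bccMap 𝒪 η₁)
    (s59bccMap 𝒪 tq) (c₀ : 𝒪) (s59etpr_gram_bc 𝒪 ξ₀ ξ₁ η₀ η₁ tq c₀ hG)
    (s59etpr_pet_bc 𝒪 tq c₀ hpet)

/-- **(hrat) over `𝒪`** for two maps, uniform `c`, eigen `w_i` -/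
theorem s59etpr_hrat_unif_bc [Module.Free ℤ Λ] [Module.Finite ℤ Λ]
    (ξ₀ ξ₁ : Λ →ₗ[ℤ] Λ') (η₀ η₁ : Λ' →ₗ[ℤ] Λ)
    (t : ι → Λ →ₗ[ℤ] Λ) (t' : ι → Λ' →ₗ[ℤ] Λ') (tq : Λ →ₗ[ℤ] Λ) (c₀ : ℤ)
    (hcomm : ∀ (i : ι) (w : Λ), ξ₀ (t i w) = t' i (ξ₀ w) ∧ ξ₁ (t i w) = t' i (ξ₁ w))
    (hcomm₁ : ∀ (i : ι) (u : Λ'), η₀ (t' i u) = t i (η₀ u) ∧ η₁ (t' i u) = t i (η₁ u))
    (hG : ∀ x : Λ, η₀ (ξ₀ x) = c₀ • x ∧ η₁ (ξ₁ x) = c₀ • x ∧ η₀ (ξ₁ x) = tq x ∧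
      η₁ (ξ₀ x) = tq x)
    (hpet : ∀ x : Λ, tq (tq x) = c₀ ^ 2 • x → x = 0)
    (ψ : ι → 𝒪)
    (h1a : ∀ u : s59bccL 𝒪 Λ', (∀ i, s59bccMap 𝒪 (t' i) u = ψ i • u) →
      s59bccMap 𝒪 η₀ u = 0 → s59bccMap 𝒪 η₁ u = 0 → u = 0) :
    ∃ c : 𝒪, c ≠ 0 ∧ ∀ y' : s59bccL 𝒪 Λ', (∀ i, s59bccMap 𝒪 (t' i) y' = ψ i • y') →
      ∃ w₀ w₁ : s59bccL 𝒪 Λ, (∀ i, s59bccMap 𝒪 (t i) w₀ = ψ i • w₀) ∧
        (∀ i, s59bccMap 𝒪 (t i) w₁ = ψ i • w₁) ∧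
        c • y' = s59bccMap 𝒪 ξ₀ w₀ + s59bccMap 𝒪 ξ₁ w₁ := by
  haveI : Module.Free 𝒪 (s59bccL 𝒪 Λ) := s59bcc_free 𝒪 Λ
  haveI : Module.Finite 𝒪 (s59bccL 𝒪 Λ) := s59bcc_finite 𝒪 Λ
  refine s59etpr_hrat_unif (s59bccMap 𝒪 ξ₀) (s59bccMap 𝒪 ξ₁) (s59bccMap 𝒪 η₀) (s59bccMap 𝒪 η₁)
    (fun i => s59bccMap 𝒪 (t i)) (fun i => s59bccMap 𝒪 (t' i)) ψ (s59bccMap 𝒪 tq) (c₀ : 𝒪)
    ?_ ?_ (s59etpr_gram_bc 𝒪 ξ₀ ξ₁ η₀ η₁ tq c₀ hG) (s59etpr_pet_bc 𝒪 tq c₀ hpet) h1a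
  · intro i w
    exact ⟨s59bcc_intertwine 𝒪 ξ₀ (t i) (t' i) (fun x => (hcomm i x).1) w,
      s59bcc_intertwine 𝒪 ξ₁ (t i) (t' i) (fun x => (hcomm i x).2) w⟩
  · intro i u
    exact ⟨s59bcc_intertwine 𝒪 η₀ (t' i) (t i) (fun x => (hcomm₁ i x).1) u,
      s59bcc_intertwine 𝒪 η₁ (t' i) (t i) (fun x => (hcomm₁ i x).2) u⟩

end bc

section conc

open CongruenceSubgroup Matrix Fermat.Agent.S41
open scoped MatrixGroups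

variable (𝒪 : Type) [CommRing 𝒪] [IsDomain 𝒪] [CharZero 𝒪]
  (N q : ℕ) [NeZero N] [NeZero q] [hq : Fact q.Prime]
  {ι : Type} (ℓ : ι → ℕ) [hℓ : ∀ i, Fact (ℓ i).Prime]

/-- the `ℤ`-level `2 × 2` operator Gram identity (S41 `stmtC2`) with `c₀ = q + 1 : ℤ` -/
theorem s59etpr_gramZ (hqN : ¬ q ∣ N) (x : ↥(Lpar N)) :
    s59bcCoresZ N q (s59bcResZ N q x) = ((q : ℤ) + 1) • x ∧
    s59bcCoresDZ N q (s59bcResDZ N q x) = ((q : ℤ) + 1) • x ∧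
    s59bcCoresZ N q (s59bcResDZ N q x) = s59bcTcZ N q hqN x ∧
    s59bcCoresDZ N q (s59bcResZ N q x) = s59bcTcZ N q hqN x := by
  obtain ⟨h1, h2, h3, h4⟩ := s59bc_C2 N q hqN x
  have e : ((q : ℤ) + 1) • x = (q + 1) • x := by
    have : ((q : ℤ) + 1) = ((q + 1 : ℕ) : ℤ) := by push_cast; rfl
    rw [this, natCast_zsmul]
  exact ⟨by rw [h1, e], by rw [h2, e], h3, h4⟩

/-- E-PET at the `ℤ`-level for `s59bcTcZ N q hqN` -/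
theorem s59etpr_petZ (hqN : ¬ q ∣ N) (x : ↥(Lpar N))
    (h : s59bcTcZ N q hqN (s59bcTcZ N q hqN x) = ((q : ℤ) + 1) ^ 2 • x) : x = 0 := by
  rw [← s59bcg_T_eq N q hqN] at h
  exact s59gram_pet hqN x h

/-- **(hinj) on the concrete lattices** for `res`, `res^δ` : `N → N q`. -/
theorem s59etpr_hinj_conc (hqN : ¬ q ∣ N) :
    ∀ w₀ w₁ : s59bccL 𝒪 (Lpar N),
      s59bccMap 𝒪 (s59bcResZ N q) w₀ + s59bccMap 𝒪 (s59bcResDZ N q) w₁ = 0 →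
        w₀ = 0 ∧ w₁ = 0 :=
  s59etpr_hinj_bc 𝒪 (s59bcResZ N q) (s59bcResDZ N q) (s59bcCoresZ N q) (s59bcCoresDZ N q)
    (s59bcTcZ N q hqN) ((q : ℤ) + 1) (s59etpr_gramZ N q hqN) (s59etpr_petZ N q hqN)

/-- **(hrat) on the concrete lattices, uniform form**: from E-MULT1a for `ψ`, ONE `c ≠ 0` with
`c • y' = res w₀ + res^δ w₁`, `w_i` `ψ`-eigenvectors of level `N`, for every `ψ`-eigenvector `y'`
of level `N q`. -/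
theorem s59etpr_hrat_unif_conc (hqN : ¬ q ∣ N) (hN : ∀ i, ¬ ℓ i ∣ N) (hNq : ∀ i, ¬ ℓ i ∣ N * q)
    (ψ : ι → 𝒪) (h1a : s59m1r_StmtMult1a 𝒪 N q ℓ hNq ψ) :
    ∃ c : 𝒪, c ≠ 0 ∧ ∀ y' : s59bccL 𝒪 (Lpar (N * q)),
      (∀ i, s59bccMap 𝒪 (s59bcTcZ (N * q) (ℓ i) (hNq i)) y' = ψ i • y') →
      ∃ w₀ w₁ : s59bccL 𝒪 (Lpar N),
        (∀ i, s59bccMap 𝒪 (s59bcTcZ N (ℓ i) (hN i)) w₀ = ψ i • w₀) ∧
        (∀ i, s59bccMap 𝒪 (s59bcTcZ N (ℓ i) (hN i)) w₁ = ψ i • w₁) ∧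
        c • y' = s59bccMap 𝒪 (s59bcResZ N q) w₀ + s59bccMap 𝒪 (s59bcResDZ N q) w₁ := by
  refine s59etpr_hrat_unif_bc 𝒪 (s59bcResZ N q) (s59bcResDZ N q) (s59bcCoresZ N q)
    (s59bcCoresDZ N q) (fun i => s59bcTcZ N (ℓ i) (hN i))
    (fun i => s59bcTcZ (N * q) (ℓ i) (hNq i)) (s59bcTcZ N q hqN) ((q : ℤ) + 1)
    ?_ ?_ (s59etpr_gramZ N q hqN) (s59etpr_petZ N q hqN) ψ h1a
  · intro i w
    exact ⟨s59bcResZ_Tc N q (ℓ i) (hN i) (hNq i) w, s59bcResDZ_Tc N q (ℓ i) (hN i) (hNq i) w⟩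
  · intro i u
    exact ⟨s59bcCoresZ_Tc N q (ℓ i) (hN i) (hNq i) u, s59bcCoresDZ_Tc N q (ℓ i) (hN i) (hNq i) u⟩

/-- **P-RAT: `hrat` of `s59etp_hmult` on the concrete lattices**, literal shape, from
E-MULT1a for `ψ` (no `hTQ`). -/
theorem s59etpr_hrat_conc (hqN : ¬ q ∣ N) (hN : ∀ i, ¬ ℓ i ∣ N) (hNq : ∀ i, ¬ ℓ i ∣ N * q)
    (ψ : ι → 𝒪) (h1a : s59m1r_StmtMult1a 𝒪 N q ℓ hNq ψ) :
    ∀ y' ∈ s59r2E' (fun i => s59bccMap 𝒪 (s59bcTcZ (N * q) (ℓ i) (hNq i))) ψ,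
      ∃ c : 𝒪, c ≠ 0 ∧ ∃ w₀ w₁ : s59bccL 𝒪 (Lpar N),
        c • y' = s59bccMap 𝒪 (s59bcResZ N q) w₀ + s59bccMap 𝒪 (s59bcResDZ N q) w₁ := by
  obtain ⟨c, hc, h⟩ := s59etpr_hrat_unif_conc 𝒪 N q ℓ hqN hN hNq ψ h1a
  intro y' hy'
  obtain ⟨w₀, w₁, -, -, e⟩ := h y' hy'
  exact ⟨c, hc, w₀, w₁, e⟩

end conc

end Fermat.Agent.S59
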