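/-
S59, Route A, ETA-P (wall M5 = P-STEP, R2 side; hub helper72), leaf **P-SAT** (helper19):
**`hsatE`** of `s59etp_step_D` / `s59etp_prim_D` (S59/Eta/PStepAbs.lean) on the concrete lattices,
UNCONDITIONAL, for the step `N ↦ N q` with the TWO degeneracy maps.

`L = 𝒪 ⊗[ℤ] Lpar N`, `L' = 𝒪 ⊗[ℤ] Lpar (N q)`, `ξ₀ = (s59bcResZ N q).baseChange 𝒪`,
`ξ₁ = (s59bcResDZ N q).baseChange 𝒪` (S59/Eta/BCLin.lean), `T_ℓ = (s59bcTcZ N ℓ hℓ).baseChange 𝒪`,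
`ϖ ∈ 𝒪` with `p ∈ (ϖ)`; NO hypothesis relating `q` and `p` (`q = p` is allowed):

    `ξ₀ w₀ + ξ₁ w₁ = ϖ • y'   ⇒   D_ℓ w_i ∈ ϖ L`   (`D_ℓ = T_ℓ − (ℓ + 1)`, ONE prime `ℓ ∤ N`).

Proof: reduce modulo `ϖ` (`s59bcrRed`), apply Ihara's lemma `s59sat_ihara1` (SatMain.lean) to the
reductions, and use the kernel of the reduction (`s59bcrRed_ker_span`).

* `s59etps_red_res`, `s59etps_red_resD` : compatibilities of the reduction;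
* **`s59etps_hsatE'`** : operator form (`s59bcrD`);
* **`s59etps_hsatE`**  : the literal `hsatE` of `s59etp_step_D`, for any family `t` with
  `t i₁ = T_ℓ`, `c₁ = ℓ + 1`.
-/
import Fermat.Agent.S59.Eta.BCRedSat
import Fermat.Agent.S59.Eta.PStepAbs

set_option autoImplicit false
set_option linter.unusedSectionVars false
set_option linter.unusedVariables false
set_option linter.style.haveILetI false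

noncomputable section

namespace Fermat.Agent.S59

open TensorProduct CongruenceSubgroup Fermat.Agent.S41
open ModularCurve.Period (IsParabolicHom parabolicHoms mem_parabolicHoms_iff)

section Compat

variable (𝒪 : Type) [CommRing 𝒪] (I : Ideal 𝒪) (N q : ℕ) [NeZero N] [NeZero q]

theorem s59etps_red_res (X : 𝒪 ⊗[ℤ] ↥(Lpar N)) :
    s59bcrRed (N * q) 𝒪 I ((s59bcResZ N q).baseChange 𝒪 X) =
      res N q (𝒪 ⧸ I) (s59bcrRed N 𝒪 I X) :=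
  s59bcrRed_res 𝒪 I q (s59bcResZ N q) (fun x => rfl) X

theorem s59etps_red_resD (X : 𝒪 ⊗[ℤ] ↥(Lpar N)) :
    s59bcrRed (N * q) 𝒪 I ((s59bcResDZ N q).baseChange 𝒪 X) =
      resD N q (𝒪 ⧸ I) (s59bcrRed N 𝒪 I X) :=
  s59bcrRed_resD 𝒪 I q (s59bcResDZ N q) (fun x => rfl) X

end Compat

section Main

variable (N q p : ℕ) [NeZero N] [NeZero q] [Fact q.Prime] [Fact p.Prime]
  (𝒪 : Type) [CommRing 𝒪] (ϖ : 𝒪)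

/-- **P-SAT, operator form.** -/
theorem s59etps_hsatE' (hqN : ¬ q ∣ N) (hp : (p : 𝒪) ∈ Ideal.span {ϖ})
    (ℓ : ℕ) [Fact ℓ.Prime] (hℓ : ¬ ℓ ∣ N)
    (w₀ w₁ : 𝒪 ⊗[ℤ] ↥(Lpar N)) (y' : 𝒪 ⊗[ℤ] ↥(Lpar (N * q)))
    (h : (s59bcResZ N q).baseChange 𝒪 w₀ + (s59bcResDZ N q).baseChange 𝒪 w₁ = ϖ • y') :
    ∃ v₀ v₁ : 𝒪 ⊗[ℤ] ↥(Lpar N),
      s59bcrD 𝒪 N ℓ hℓ w₀ = ϖ • v₀ ∧ s59bcrD 𝒪 N ℓ hℓ w₁ = ϖ • v₁ := by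
  -- reduce the relation
  have hred := congrArg (s59bcrRed (N * q) 𝒪 (Ideal.span {ϖ})) h
  rw [s59bcr_red_smul, map_add, s59etps_red_res, s59etps_red_resD] at hred
  -- Ihara
  obtain ⟨e₀, e₁⟩ := s59sat_ihara1 (A := 𝒪 ⧸ Ideal.span {ϖ}) N q hqN
    (s59bcrRed N 𝒪 (Ideal.span {ϖ}) w₀) (s59bcrRed N 𝒪 (Ideal.span {ϖ}) w₁)
    (s59bcrRed_mem_Hpar 𝒪 _ w₀) (s59bcrRed_mem_Hpar 𝒪 _ w₁) hred ℓ hℓ
  -- back to the lattice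
  have key : ∀ w : 𝒪 ⊗[ℤ] ↥(Lpar N),
      s59satD ℓ hℓ (s59bcrRed N 𝒪 (Ideal.span {ϖ}) w) = 0 →
      ∃ v : 𝒪 ⊗[ℤ] ↥(Lpar N), s59bcrD 𝒪 N ℓ hℓ w = ϖ • v := by
    intro w hw
    apply s59bcrRed_ker_span N 𝒪 p ϖ hp
    rw [s59bcr_red_D, hw]
  obtain ⟨v₀, hv₀⟩ := key w₀ e₀
  obtain ⟨v₁, hv₁⟩ := key w₁ e₁
  exact ⟨v₀, v₁, hv₀, hv₁⟩

/-- **P-SAT**: `hsatE` in the literal shape of `s59etp_step_D` / `s59etp_prim_D`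
(S59/Eta/PStepAbs.lean), for any family `t` with `t i₁ = T_ℓ`, `c₁ = ℓ + 1`. -/
theorem s59etps_hsatE (hqN : ¬ q ∣ N) (hp : (p : 𝒪) ∈ Ideal.span {ϖ})
    (ℓ : ℕ) [Fact ℓ.Prime] (hℓ : ¬ ℓ ∣ N)
    {ι : Type} (t : ι → (𝒪 ⊗[ℤ] ↥(Lpar N)) →ₗ[𝒪] (𝒪 ⊗[ℤ] ↥(Lpar N))) (i₁ : ι)
    (ht₁ : t i₁ = (s59bcTcZ N ℓ hℓ).baseChange 𝒪) :
    ∀ (w₀ w₁ : 𝒪 ⊗[ℤ] ↥(Lpar N)) (y' : 𝒪 ⊗[ℤ] ↥(Lpar (N * q))),
      (s59bcResZ N q).baseChange 𝒪 w₀ + (s59bcResDZ N q).baseChange 𝒪 w₁ = ϖ • y' →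
      ∃ v₀ v₁ : 𝒪 ⊗[ℤ] ↥(Lpar N),
        s59etpD t i₁ ((ℓ : 𝒪) + 1) w₀ = ϖ • v₀ ∧ s59etpD t i₁ ((ℓ : 𝒪) + 1) w₁ = ϖ • v₁ := by
  intro w₀ w₁ y' h
  have hD : ∀ w, s59etpD t i₁ ((ℓ : 𝒪) + 1) w = s59bcrD 𝒪 N ℓ hℓ w := by
    intro w
    unfold s59etpD s59bcrD
    rw [ht₁]
  simp only [hD]
  exact s59etps_hsatE' N q p 𝒪 ϖ hqN hp ℓ hℓ w₀ w₁ y' h

end Main

end Fermat.Agent.S59

end
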