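/-
S59, wall M5 (P-STEP), piece ETA-P, **P-ASM** (helper72): the step `N ↦ N p` on the concrete
lattices `L_M = 𝒪 ⊗[ℤ] Hom_par(Γ₀(M), ℤ)` (twin of `S59/Eta/Asm.lean`, two degeneracy maps).

`q` a prime, `q ∤ N` (in the application `q = p`, the residue characteristic; the eigen-submodules
exclude the prime `p₀`, and the application has `p₀ = q = p`):

* `s59asmpXi0/1 𝒪 N q = (s59bcResZ/ResDZ N q).baseChange 𝒪 : L_N → L_{N q}`;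
* `s59asmpDep 𝒪 N q a x = (q + 1) ξ₀ x − a ξ₁ x`;
* Props (inputs): `s59asmp_HDep` (P-GRAM), `s59asmp_HInj` (P-INJ), `s59asmp_HSat` (P-SAT),
  `s59asmp_HRat` (P-RAT + (1a-P));
* `s59asmp_dep_mem`, `s59asmp_dep_prim`, **`s59asmp_step`** :
  `J_{N q}(x') ≤ ((q + 1)² − a²) · J_N(x)` for `x ∈ E_N` with `T_q x = a • x`;
* `s59asm_dep_Tp` : the `q`-steps of `Asm.lean` keep `T_r x = a • x` (`r ∤ N q q`);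
* the leaves PLUGGED: `s59asmp_hdep` (helper80), `s59asmp_hinj` (helper80), `s59asmp_hsat`
  (helper19), `s59asmp_hrat` (helper8, from (1a-P) = `s59asmp_M1a`), and
  **`s59asmp_step'`**, `s59asmp_dep_prim'` : the step with the only open input (1a-P).
-/
import Fermat.Agent.S59.Eta.Asm
import Fermat.Agent.S59.Eta.PStepAbs2
import Fermat.Agent.S59.Eta.PStepGram
import Fermat.Agent.S59.Eta.PStepInj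
import Fermat.Agent.S59.Eta.PStepSat
import Fermat.Agent.S59.Eta.PStepRat

set_option autoImplicit false
set_option linter.unusedSectionVars false
set_option linter.unusedVariables false
set_option linter.style.haveILetI false
set_option linter.style.longLine false

noncomputable section

namespace Fermat.Agent.S59

open TensorProduct CongruenceSubgroup Fermat.Agent.S41 Fermat.Agent.S41.PD IsLocalRing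

section Level

variable (𝒪 : Type) [CommRing 𝒪] (N q : ℕ) [NeZero N] [NeZero q]

/-- `ξ₀ = res : L_N → L_{N q}` -/
def s59asmpXi0 : s59asmL 𝒪 N →ₗ[𝒪] s59asmL 𝒪 (N * q) := (s59bcResZ N q).baseChange 𝒪

/-- `ξ₁ = res^δ : L_N → L_{N q}` -/
def s59asmpXi1 : s59asmL 𝒪 N →ₗ[𝒪] s59asmL 𝒪 (N * q) := (s59bcResDZ N q).baseChange 𝒪

/-- the vector `x' = (q + 1) ξ₀ x − a ξ₁ x` -/
def s59asmpDep (a : 𝒪) (x : s59asmL 𝒪 N) : s59asmL 𝒪 (N * q) :=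
  ((q : 𝒪) + 1) • s59asmpXi0 𝒪 N q x - a • s59asmpXi1 𝒪 N q x

/-- **(P-INJ)** `ξ = (ξ₀, ξ₁)` is injective -/
def s59asmp_HInj : Prop :=
  ∀ w₀ w₁ : s59asmL 𝒪 N, s59asmpXi0 𝒪 N q w₀ + s59asmpXi1 𝒪 N q w₁ = 0 → w₀ = 0 ∧ w₁ = 0

/-- **(P-RAT)** every `ψ`-eigenvector of level `N q` is rationally in the image of `ξ` -/
def s59asmp_HRat (p₀ : ℕ) (ψ : ℕ → 𝒪) : Prop :=
  ∀ y' ∈ s59asmE 𝒪 (N * q) p₀ ψ, ∃ c : 𝒪, c ≠ 0 ∧ ∃ w₀ w₁ : s59asmL 𝒪 N,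
    c • y' = s59asmpXi0 𝒪 N q w₀ + s59asmpXi1 𝒪 N q w₁

variable [hq : Fact q.Prime]

/-- **(P-GRAM)** the `2 × 2` Gram identity -/
def s59asmp_HDep (hqN : ¬ q ∣ N) : Prop :=
  ∀ x w₀ w₁ : s59asmL 𝒪 N,
    s59asmB 𝒪 (N * q)
        (((q : 𝒪) + 1) • s59asmpXi0 𝒪 N q x - s59asmpXi1 𝒪 N q (s59asmT 𝒪 N q hqN x))
        (s59asmpXi0 𝒪 N q w₀ + s59asmpXi1 𝒪 N q w₁) =
      s59asmB 𝒪 N (((q : 𝒪) + 1) ^ 2 • x - s59asmT 𝒪 N q hqN (s59asmT 𝒪 N q hqN x)) w₀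

/-- **(P-SAT)** Ihara's lemma at `q`: `ξ₀ w₀ + ξ₁ w₁ ∈ ϖ L'` ⇒ `D_ℓ w_i ∈ ϖ L` -/
def s59asmp_HSat (ϖ : 𝒪) (ℓ : ℕ) [Fact ℓ.Prime] (hℓ : ¬ ℓ ∣ N) : Prop :=
  ∀ (w₀ w₁ : s59asmL 𝒪 N) (y' : s59asmL 𝒪 (N * q)),
    s59asmpXi0 𝒪 N q w₀ + s59asmpXi1 𝒪 N q w₁ = ϖ • y' →
    ∃ v₀ v₁ : s59asmL 𝒪 N,
      s59asmT 𝒪 N ℓ hℓ w₀ - ((ℓ : 𝒪) + 1) • w₀ = ϖ • v₀ ∧
      s59asmT 𝒪 N ℓ hℓ w₁ - ((ℓ : 𝒪) + 1) • w₁ = ϖ • v₁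

end Level

/-! ### The index type and the families -/

section Families

/-- the good primes of the step `N ↦ N q`: the primes `ℓ ∤ N q`, `ℓ ≠ p₀` -/
def S59asmpI (N q p₀ : ℕ) : Type := {ℓ : ℕ // ℓ.Prime ∧ ¬ ℓ ∣ N * q ∧ ℓ ≠ p₀}

variable {N q p₀ : ℕ}

theorem S59asmpI.fact (i : S59asmpI N q p₀) : Fact i.1.Prime := ⟨i.2.1⟩

theorem S59asmpI.not_dvd (i : S59asmpI N q p₀) : ¬ i.1 ∣ N := fun h =>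
  i.2.2.1 (Dvd.dvd.mul_right h q)

theorem s59asmp_not_dvd_mul {N q ℓ : ℕ} (hℓ : ℓ.Prime) (hq : q.Prime) (hN : ¬ ℓ ∣ N)
    (hℓq : ℓ ≠ q) : ¬ ℓ ∣ N * q := by
  intro h
  rcases (Nat.Prime.dvd_mul hℓ).1 h with h1 | h1
  · exact hN h1
  · exact hℓq ((Nat.prime_dvd_prime_iff_eq hℓ hq).1 h1)

end Families

section Families2

variable (𝒪 : Type) [CommRing 𝒪] (N q p₀ : ℕ) [NeZero N] [NeZero q]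

/-- the family `T_ℓ` (`ℓ` good) over `ℤ` at the level `N` -/
def s59asmpTZ (i : S59asmpI N q p₀) : ↥(Lpar N) →ₗ[ℤ] ↥(Lpar N) :=
  haveI := i.fact
  s59bcTcZ N i.1 i.not_dvd

/-- the family `T_ℓ` (`ℓ` good) over `ℤ` at the level `N q` -/
def s59asmpTZ' (i : S59asmpI N q p₀) : ↥(Lpar (N * q)) →ₗ[ℤ] ↥(Lpar (N * q)) :=
  haveI := i.fact
  s59bcTcZ (N * q) i.1 i.2.2.1

/-- the family `T_ℓ` (`ℓ` good) at the level `N` -/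
def s59asmpTI (i : S59asmpI N q p₀) : s59asmL 𝒪 N →ₗ[𝒪] s59asmL 𝒪 N :=
  (s59asmpTZ N q p₀ i).baseChange 𝒪

/-- the family `T_ℓ` (`ℓ` good) at the level `N q` -/
def s59asmpTI' (i : S59asmpI N q p₀) : s59asmL 𝒪 (N * q) →ₗ[𝒪] s59asmL 𝒪 (N * q) :=
  (s59asmpTZ' N q p₀ i).baseChange 𝒪

/-- `E'` of the step is the eigen-submodule of the level `N q` -/
theorem s59asmp_E'_eq (ψ : ℕ → 𝒪) :
    s59r2E' (s59asmpTI' 𝒪 N q p₀) (fun i => ψ i.1) = s59asmE 𝒪 (N * q) p₀ ψ := by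
  ext y
  constructor
  · intro h ℓ hℓ hℓN hℓp
    exact h ⟨ℓ, hℓ.out, hℓN, hℓp⟩
  · intro h i
    exact @h i.1 i.fact i.2.2.1 i.2.2.2

variable [hq : Fact q.Prime]

/-- `E` of the step is the eigen-submodule of the level `N`, if `q = p₀` is excluded -/
theorem s59asmp_E_eq (ψ : ℕ → 𝒪) :
    s59r2E' (s59asmpTI 𝒪 N q q) (fun i => ψ i.1) = s59asmE 𝒪 N q ψ := by
  ext y
  constructor
  · intro h ℓ hℓ hℓN hℓp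
    exact h ⟨ℓ, hℓ.out, s59asmp_not_dvd_mul hℓ.out hq.out hℓN hℓp, hℓp⟩
  · intro h i
    exact @h i.1 i.fact i.not_dvd i.2.2.2

/-- `hcomm` of the step -/
theorem s59asmp_hcomm (i : S59asmpI N q p₀) (w : s59asmL 𝒪 N) :
    s59asmpXi0 𝒪 N q (s59asmpTI 𝒪 N q p₀ i w) = s59asmpTI' 𝒪 N q p₀ i (s59asmpXi0 𝒪 N q w) ∧
    s59asmpXi1 𝒪 N q (s59asmpTI 𝒪 N q p₀ i w) = s59asmpTI' 𝒪 N q p₀ i (s59asmpXi1 𝒪 N q w) := by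
  haveI := i.fact
  exact ⟨s59bcc_intertwine 𝒪 (s59bcResZ N q) (s59asmpTZ N q p₀ i) (s59asmpTZ' N q p₀ i)
      (fun w => s59bcResZ_Tc N q i.1 i.not_dvd i.2.2.1 w) w,
    s59bcc_intertwine 𝒪 (s59bcResDZ N q) (s59asmpTZ N q p₀ i) (s59asmpTZ' N q p₀ i)
      (fun w => s59bcResDZ_Tc N q i.1 i.not_dvd i.2.2.1 w) w⟩

end Families2

/-! ### The step at `p` -/

section Step

variable (𝒪 : Type) [CommRing 𝒪] [IsDomain 𝒪] [IsDiscreteValuationRing 𝒪]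
  (N q : ℕ) [NeZero N] [NeZero q] [hq : Fact q.Prime]

/-- the vector `x'` is a `ψ`-eigenvector of the level `N q` -/
theorem s59asmp_dep_mem (ψ : ℕ → 𝒪) (a : 𝒪) (x : s59asmL 𝒪 N) (hx : x ∈ s59asmE 𝒪 N q ψ) :
    s59asmpDep 𝒪 N q a x ∈ s59asmE 𝒪 (N * q) q ψ := by
  haveI : NoZeroSMulDivisors 𝒪 (s59asmL 𝒪 N) := s59bcc_noZeroSMulDivisors 𝒪 _
  haveI : NoZeroSMulDivisors 𝒪 (s59asmL 𝒪 (N * q)) := s59bcc_noZeroSMulDivisors 𝒪 _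
  rw [← s59asmp_E'_eq 𝒪 N q q ψ]
  rw [← s59asmp_E_eq 𝒪 N q ψ] at hx
  exact s59etq_mem (s59asmpXi0 𝒪 N q) (s59asmpXi1 𝒪 N q) (s59asmpTI 𝒪 N q q)
    (s59asmpTI' 𝒪 N q q) (fun i => ψ i.1) ((q : 𝒪) + 1) a (s59asmp_hcomm 𝒪 N q q) x hx

/-- **(ETA-P, THE STEP on the concrete lattices)**:
`J_{N q}((q + 1) ξ₀ x − a ξ₁ x) ≤ ((q + 1)² − a²) · J_N(x)` if `T_q x = a • x`. -/
theorem s59asmp_step (hqN : ¬ q ∣ N) (ψ : ℕ → 𝒪) (a : 𝒪) {ϖ : 𝒪} (hϖ : Irreducible ϖ)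
    (ℓ₁ : ℕ) [Fact ℓ₁.Prime] (h₁N : ¬ ℓ₁ ∣ N * q) (h₁q : ℓ₁ ≠ q)
    (hu₁ : IsUnit (ψ ℓ₁ - ((ℓ₁ : 𝒪) + 1)))
    (hdep : s59asmp_HDep 𝒪 N q hqN) (hinj : s59asmp_HInj 𝒪 N q)
    (hsat : s59asmp_HSat 𝒪 N q ϖ ℓ₁ (fun h => h₁N (Dvd.dvd.mul_right h q)))
    (hrat : s59asmp_HRat 𝒪 N q q ψ)
    (x : s59asmL 𝒪 N) (hxq : s59asmT 𝒪 N q hqN x = a • x) :
    s59asmJ 𝒪 (N * q) q ψ (s59asmpDep 𝒪 N q a x) ≤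
      Ideal.span {((q : 𝒪) + 1) ^ 2 - a ^ 2} * s59asmJ 𝒪 N q ψ x := by
  haveI : NoZeroSMulDivisors 𝒪 (s59asmL 𝒪 N) := s59bcc_noZeroSMulDivisors 𝒪 _
  haveI : NoZeroSMulDivisors 𝒪 (s59asmL 𝒪 (N * q)) := s59bcc_noZeroSMulDivisors 𝒪 _
  have hrat' : ∀ y' ∈ s59r2E' (s59asmpTI' 𝒪 N q q) (fun i => ψ i.1), ∃ c : 𝒪, c ≠ 0 ∧
      ∃ w₀ w₁ : s59asmL 𝒪 N, c • y' = s59asmpXi0 𝒪 N q w₀ + s59asmpXi1 𝒪 N q w₁ := by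
    intro y' hy'
    rw [s59asmp_E'_eq 𝒪 N q q ψ] at hy'
    exact hrat y' hy'
  have key := s59etq_step_D (s59asmB 𝒪 N) (s59asmB 𝒪 (N * q)) (s59asmpXi0 𝒪 N q)
    (s59asmpXi1 𝒪 N q) (s59asmpTI 𝒪 N q q) (s59asmpTI' 𝒪 N q q) (fun i => ψ i.1)
    (s59asmT 𝒪 N q hqN) ((q : 𝒪) + 1) a hϖ hdep (s59asmp_hcomm 𝒪 N q q)
    (⟨ℓ₁, Fact.out, h₁N, h₁q⟩ : S59asmpI N q q) ((ℓ₁ : 𝒪) + 1) hu₁ hsat hinj hrat' x hxq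
  rw [s59asmp_E'_eq 𝒪 N q q ψ, s59asmp_E_eq 𝒪 N q ψ] at key
  exact key

/-- **(PRIM)** the vector `x'` is primitive if `x` is (`q + 1` a unit: `q = p`). -/
theorem s59asmp_dep_prim (ψ : ℕ → 𝒪) (a : 𝒪) {ϖ : 𝒪} (hc : IsUnit ((q : 𝒪) + 1))
    (ℓ₁ : ℕ) [Fact ℓ₁.Prime] (h₁N : ¬ ℓ₁ ∣ N * q) (h₁q : ℓ₁ ≠ q)
    (hu₁ : IsUnit (ψ ℓ₁ - ((ℓ₁ : 𝒪) + 1)))
    (hsat : s59asmp_HSat 𝒪 N q ϖ ℓ₁ (fun h => h₁N (Dvd.dvd.mul_right h q)))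
    (x : s59asmL 𝒪 N) (hx : x ∈ s59asmE 𝒪 N q ψ) (hprim : ∀ v : s59asmL 𝒪 N, x ≠ ϖ • v) :
    ∀ y' : s59asmL 𝒪 (N * q), s59asmpDep 𝒪 N q a x ≠ ϖ • y' := by
  haveI : NoZeroSMulDivisors 𝒪 (s59asmL 𝒪 N) := s59bcc_noZeroSMulDivisors 𝒪 _
  haveI : NoZeroSMulDivisors 𝒪 (s59asmL 𝒪 (N * q)) := s59bcc_noZeroSMulDivisors 𝒪 _
  rw [← s59asmp_E_eq 𝒪 N q ψ] at hx
  exact s59etp_prim_D (s59asmpXi0 𝒪 N q) (s59asmpXi1 𝒪 N q) (s59asmpTI 𝒪 N q q)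
    (fun i => ψ i.1) ((q : 𝒪) + 1) a hc
    (⟨ℓ₁, Fact.out, h₁N, h₁q⟩ : S59asmpI N q q) ((ℓ₁ : 𝒪) + 1) hu₁ hsat x hx hprim

end Step

/-! ### The `q`-steps keep `T_r x = a • x` -/

section Keep

variable (𝒪 : Type) [CommRing 𝒪] (N q : ℕ) [NeZero N] [NeZero q]

/-- the depleted vector of the `q`-step is a `T_r`-eigenvector if `x` is (`r ∤ N q q`). -/
theorem s59asm_dep_Tp (r : ℕ) [Fact r.Prime] (hrN : ¬ r ∣ N) (hrNqq : ¬ r ∣ N * q * q)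
    (a b : 𝒪) (x : s59asmL 𝒪 N) (hx : s59asmT 𝒪 N r hrN x = a • x) :
    s59asmT 𝒪 (N * q * q) r hrNqq (s59asmDep 𝒪 N q b x) = a • s59asmDep 𝒪 N q b x := by
  have h0 := s59bcc_intertwine 𝒪 (s59bcXiZ0 N q) (s59bcTcZ N r hrN) (s59bcTcZ (N * q * q) r hrNqq)
    (fun w => s59bcXiZ0_Tc N q r hrN hrNqq w) x
  have h1 := s59bcc_intertwine 𝒪 (s59bcXiZ1 N q) (s59bcTcZ N r hrN) (s59bcTcZ (N * q * q) r hrNqq)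
    (fun w => s59bcXiZ1_Tc N q r hrN hrNqq w) x
  have h2 := s59bcc_intertwine 𝒪 (s59bcXiZ2 N q) (s59bcTcZ N r hrN) (s59bcTcZ (N * q * q) r hrNqq)
    (fun w => s59bcXiZ2_Tc N q r hrN hrNqq w) x
  have hx' : s59bccMap 𝒪 (s59bcTcZ N r hrN) x = a • x := hx
  rw [hx', map_smul] at h0 h1 h2
  show s59bccMap 𝒪 (s59bcTcZ (N * q * q) r hrNqq)
      ((q : 𝒪) • s59bccMap 𝒪 (s59bcXiZ0 N q) x - b • s59bccMap 𝒪 (s59bcXiZ1 N q) x +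
        s59bccMap 𝒪 (s59bcXiZ2 N q) x) = a • _
  rw [map_add, map_sub, map_smul, map_smul, ← h0, ← h1, ← h2]
  show _ = a • ((q : 𝒪) • s59bccMap 𝒪 (s59bcXiZ0 N q) x - b • s59bccMap 𝒪 (s59bcXiZ1 N q) x +
        s59bccMap 𝒪 (s59bcXiZ2 N q) x)
  rw [smul_add, smul_sub, smul_comm a (q : 𝒪), smul_comm a b]

end Keep

/-! ### The leaves, plugged -/

section Plug

variable (𝒪 : Type) [CommRing 𝒪] (N q : ℕ) [NeZero N] [NeZero q] [hq : Fact q.Prime]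

/-- **(1a-P)**: E-MULT1a at the step `(N, q)` for the family of the good primes -/
def s59asmp_M1a (p₀ : ℕ) (ψ : ℕ → 𝒪) : Prop :=
  s59m1r_StmtMult1a 𝒪 N q (hℓ := fun i => S59asmpI.fact i) (fun i : S59asmpI N q p₀ => i.1)
    (fun i => i.2.2.1) (fun i => ψ i.1)

/-- (P-GRAM), helper80 -/
theorem s59asmp_hdep (hqN : ¬ q ∣ N) : s59asmp_HDep 𝒪 N q hqN :=
  s59etpg_hdep_bc 𝒪 N q hqN

/-- (P-SAT), helper19 -/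
theorem s59asmp_hsat (hqN : ¬ q ∣ N) (p : ℕ) [Fact p.Prime] {ϖ : 𝒪}
    (hp : (p : 𝒪) ∈ Ideal.span {ϖ}) (ℓ : ℕ) [Fact ℓ.Prime] (hℓ : ¬ ℓ ∣ N) :
    s59asmp_HSat 𝒪 N q ϖ ℓ hℓ := by
  intro w₀ w₁ y' h
  obtain ⟨v₀, v₁, h0, h1⟩ := s59etps_hsatE' N q p 𝒪 ϖ hqN hp ℓ hℓ w₀ w₁ y' h
  exact ⟨v₀, v₁, h0, h1⟩

variable [IsDomain 𝒪] [CharZero 𝒪]

/-- (P-INJ), helper80 -/
theorem s59asmp_hinj (hqN : ¬ q ∣ N) : s59asmp_HInj 𝒪 N q :=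
  s59etpi_hinj 𝒪 N q hqN

/-- (P-RAT), helper8: from (1a-P) -/
theorem s59asmp_hrat (hqN : ¬ q ∣ N) (p₀ : ℕ) (ψ : ℕ → 𝒪) (h1a : s59asmp_M1a 𝒪 N q p₀ ψ) :
    s59asmp_HRat 𝒪 N q p₀ ψ := by
  intro y' hy'
  rw [← s59asmp_E'_eq 𝒪 N q p₀ ψ] at hy'
  exact s59etpr_hrat_conc 𝒪 N q (hℓ := fun i => S59asmpI.fact i)
    (fun i : S59asmpI N q p₀ => i.1) hqN (fun i => i.not_dvd) (fun i => i.2.2.1)
    (fun i => ψ i.1) h1a y' hy'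

variable [IsDiscreteValuationRing 𝒪]

/-- **(ETA-P, THE STEP)** with the only open input (1a-P):
`J_{N q}((q + 1) ξ₀ x − a ξ₁ x) ≤ ((q + 1)² − a²) · J_N(x)` if `T_q x = a • x`
(`q` the residue characteristic). -/
theorem s59asmp_step' (hqN : ¬ q ∣ N) (hq𝒪 : (q : 𝒪) ∈ maximalIdeal 𝒪) (ψ : ℕ → 𝒪) (a : 𝒪)
    (ℓ₁ : ℕ) [Fact ℓ₁.Prime] (h₁N : ¬ ℓ₁ ∣ N * q) (h₁q : ℓ₁ ≠ q)
    (hu₁ : IsUnit (ψ ℓ₁ - ((ℓ₁ : 𝒪) + 1)))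
    (h1a : s59asmp_M1a 𝒪 N q q ψ)
    (x : s59asmL 𝒪 N) (hxq : s59asmT 𝒪 N q hqN x = a • x) :
    s59asmJ 𝒪 (N * q) q ψ (s59asmpDep 𝒪 N q a x) ≤
      Ideal.span {((q : 𝒪) + 1) ^ 2 - a ^ 2} * s59asmJ 𝒪 N q ψ x := by
  obtain ⟨ϖ, hϖ⟩ := IsDiscreteValuationRing.exists_irreducible 𝒪
  have hqϖ : (q : 𝒪) ∈ Ideal.span {ϖ} := by
    rw [← hϖ.maximalIdeal_eq]
    exact hq𝒪
  exact s59asmp_step 𝒪 N q hqN ψ a hϖ ℓ₁ h₁N h₁q hu₁ (s59asmp_hdep 𝒪 N q hqN)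
    (s59asmp_hinj 𝒪 N q hqN) (s59asmp_hsat 𝒪 N q hqN q hqϖ ℓ₁ _)
    (s59asmp_hrat 𝒪 N q hqN q ψ h1a) x hxq

/-- **(PRIM)** with the leaves plugged: `x'` is primitive if `x` is. -/
theorem s59asmp_dep_prim' (hqN : ¬ q ∣ N) (ψ : ℕ → 𝒪) (a : 𝒪) {ϖ : 𝒪} (hϖ : Irreducible ϖ)
    (hq𝒪 : (q : 𝒪) ∈ maximalIdeal 𝒪)
    (ℓ₁ : ℕ) [Fact ℓ₁.Prime] (h₁N : ¬ ℓ₁ ∣ N * q) (h₁q : ℓ₁ ≠ q)
    (hu₁ : IsUnit (ψ ℓ₁ - ((ℓ₁ : 𝒪) + 1)))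
    (x : s59asmL 𝒪 N) (hx : x ∈ s59asmE 𝒪 N q ψ) (hprim : ∀ v : s59asmL 𝒪 N, x ≠ ϖ • v) :
    ∀ y' : s59asmL 𝒪 (N * q), s59asmpDep 𝒪 N q a x ≠ ϖ • y' := by
  have hqϖ : (q : 𝒪) ∈ Ideal.span {ϖ} := by
    rw [← hϖ.maximalIdeal_eq]
    exact hq𝒪
  have hc : IsUnit ((q : 𝒪) + 1) := by
    by_contra h
    have h1 : (q : 𝒪) + 1 ∈ maximalIdeal 𝒪 := (IsLocalRing.mem_maximalIdeal _).2 h
    have h2 : (1 : 𝒪) ∈ maximalIdeal 𝒪 := by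
      have := (maximalIdeal 𝒪).sub_mem h1 hq𝒪
      rwa [add_sub_cancel_left] at this
    exact (Ideal.ne_top_iff_one _).1 (maximalIdeal.isMaximal 𝒪).ne_top h2
  exact s59asmp_dep_prim 𝒪 N q ψ a hc ℓ₁ h₁N h₁q hu₁ (s59asmp_hsat 𝒪 N q hqN q hqϖ ℓ₁ _) x hx
    hprim

end Plug

end Fermat.Agent.S59

end
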