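/-
S59, route A, piece ETA′ (R2, deputy helper72), leaf **E-TRANS** (helper70): the Eichler–Shimura
TRANSPORT of the anemic Hecke algebra to the parabolic lattice.

`M` a level, `S` a set of primes containing every prime divisor of `M`, so that
`H = CuspForm.heckeAlgebra M 2 S` is generated by the `T_ℓ`, `ℓ ∤ M`, `ℓ ∉ S`.
`Lpar M = Hom_par(Γ₀(M), ℤ)` (S41/Plan.lean), `Tc ℓ` the Hecke operator on `Hom(Γ₀(M), A)`.

* `S59trCompat M t τ τ'` : a COMPATIBLE triple (`S41.TpCompat` for `K = Lpar M`, plus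
  `ℂ`-linearity of `τ'`);  closed under `0`, `+`, `*`, integers; generators `(T_ℓ, Tc ℓ, Tc ℓ)`.
* `s59tr_exists_compat` : every `t ∈ H` has a compatible triple.
* `s59tr_eq_of_compat`  : two compatible triples of the same `t` agree on `Lpar M`
  (Eichler–Shimura, S21: the parabolic classes are the period pairs).
* `s59trTheta hS : H →+* Module.End ℤ ↥(Lpar M)` with `s59trTheta_T : Θ (T_ℓ) = Tc ℓ` on `Lpar M`
  (`s59trTheta_T_apply`), `s59trTheta_spec` (the characterisation by compatible triples).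
* `s59trTheta_injective` : `Θ` is injective (the parabolic classes over `ℂ` are spanned by the
  integral ones: `ES.mem_span_range_castHomC`).
* `s59trTheta_isNilpotent`, `s59tr_range_isReduced` : the image of `Θ` (the `ℤ`-algebra of the
  `Tc ℓ` on `Lpar M`) is reduced (`PET.isReduced_heckeAlgebra`).
* the DICTIONARY over `ℂ`: `s59tr_class_of_form` (an eigenform gives an eigenclass with the same
  eigenvalues), `s59tr_form_of_class` (a parabolic eigenclass over `ℂ` gives an eigenform),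
  for the generators `T_ℓ` / `Tc ℓ`.
-/
import Fermat.Agent.S41.Transport
import Fermat.Agent.ES.EigenSupport
import Fermat.Agent.S22.Cosets
import Fermat.Agent.PET.Semisimple

set_option autoImplicit false
set_option linter.unusedSectionVars false
set_option linter.unusedVariables false
set_option linter.style.haveILetI false

noncomputable section

namespace Fermat.Agent.S59

open CongruenceSubgroup Matrix ModularCurve ModularCurve.Period Fermat.Agent.S41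
open scoped MatrixGroups

variable {M : ℕ} [NeZero M]

/-! ### compatible triples -/

/-- a compatible triple for the lattice `Lpar M`, with `ℂ`-linear `τ'` -/
structure S59trCompat (M : ℕ) [NeZero M] (t : Module.End ℂ (CuspForm (Gamma0 M) 2))
    (τ : HomG M ℤ →+ HomG M ℤ) (τ' : HomG M ℂ →+ HomG M ℂ) : Prop where
  compat : TpCompat M (Lpar M) t τ τ'
  smul : ∀ (c : ℂ) (ψ : HomG M ℂ), τ' (c • ψ) = c • τ' ψ

theorem S59trCompat.zero : S59trCompat M 0 0 0 where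
  compat := TpCompat.zero
  smul c ψ := by
    rw [AddMonoidHom.zero_apply, AddMonoidHom.zero_apply, smul_zero]

theorem S59trCompat.add {t₁ t₂ : Module.End ℂ (CuspForm (Gamma0 M) 2)}
    {τ₁ τ₂ : HomG M ℤ →+ HomG M ℤ} {τ₁' τ₂' : HomG M ℂ →+ HomG M ℂ}
    (h₁ : S59trCompat M t₁ τ₁ τ₁') (h₂ : S59trCompat M t₂ τ₂ τ₂') :
    S59trCompat M (t₁ + t₂) (τ₁ + τ₂) (τ₁' + τ₂') where
  compat := h₁.compat.add h₂.compat
  smul c ψ := by
    rw [AddMonoidHom.add_apply, AddMonoidHom.add_apply, h₁.smul, h₂.smul, smul_add]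

theorem S59trCompat.mul {t₁ t₂ : Module.End ℂ (CuspForm (Gamma0 M) 2)}
    {τ₁ τ₂ : HomG M ℤ →+ HomG M ℤ} {τ₁' τ₂' : HomG M ℂ →+ HomG M ℂ}
    (h₁ : S59trCompat M t₁ τ₁ τ₁') (h₂ : S59trCompat M t₂ τ₂ τ₂') :
    S59trCompat M (t₁ * t₂) (τ₁.comp τ₂) (τ₁'.comp τ₂') where
  compat := h₁.compat.mul h₂.compat
  smul c ψ := by
    rw [AddMonoidHom.comp_apply, AddMonoidHom.comp_apply, h₂.smul, h₁.smul]

theorem S59trCompat.int (n : ℤ) :
    S59trCompat M (algebraMap ℤ (Module.End ℂ (CuspForm (Gamma0 M) 2)) n)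
      (zsmulAddGroupHom n) (zsmulAddGroupHom n) where
  compat := TpCompat.int n
  smul c ψ := by
    rw [zsmulAddGroupHom_apply, zsmulAddGroupHom_apply, smul_comm]

/-- `Tc ℓ` is `ℂ`-linear on `Hom(Γ₀(M), ℂ)` -/
theorem s59tr_Tc_smul (ℓ : ℕ) [Fact ℓ.Prime] (hℓ : ¬ ℓ ∣ M) (c : ℂ) (ψ : HomG M ℂ) :
    Tc ℓ hℓ (c • ψ) = c • Tc ℓ hℓ ψ := by
  have h := Fermat.Agent.ES.HeckeP.heckeHom_comp hℓ (AddMonoidHom.mulLeft c) ψ
  have e1 : (AddMonoidHom.mulLeft c).comp ψ = c • ψ := by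
    refine AddMonoidHom.ext fun γ => ?_
    rfl
  have e2 : (AddMonoidHom.mulLeft c).comp (Fermat.Agent.ES.HeckeP.heckeHom hℓ ψ)
      = c • Fermat.Agent.ES.HeckeP.heckeHom hℓ ψ := by
    refine AddMonoidHom.ext fun γ => ?_
    rfl
  rw [e1, e2] at h
  exact h

/-- the generator triple `(T_ℓ, Tc ℓ, Tc ℓ)` is compatible -/
theorem s59tr_compat_T (ℓ : ℕ) [hℓ : Fact ℓ.Prime] (hℓM : ¬ ℓ ∣ M) :
    S59trCompat M (CuspForm.heckeTLin 2 hℓ.out hℓM) (tpTc M ℓ hℓM ℤ) (tpTc M ℓ hℓM ℂ) where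
  compat :=
    { period := fun f => Fermat.Agent.ES.periodMap_heckeTLin_eq_heckeP hℓM f
      cast := fun y => Fermat.Agent.ES.HeckeP.heckeHom_comp hℓM (Int.castAddHom ℂ) y
      inv := fun ψ => charInv_Tc ℓ hℓM ℂ ψ
      stable := fun y hy =>
        Fermat.Agent.ES.HeckeP.heckeHom_mem_parabolicHoms hℓM ℤ hy }
  smul c ψ := s59tr_Tc_smul ℓ hℓM c ψ

/-- every element of the anemic Hecke algebra has a compatible triple -/
theorem s59tr_exists_compat {S : Set ℕ} (hS : ∀ q : ℕ, q.Prime → q ∣ M → q ∈ S)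
    (t : Module.End ℂ (CuspForm (Gamma0 M) 2)) (ht : t ∈ CuspForm.heckeAlgebra M 2 S) :
    ∃ (τ : HomG M ℤ →+ HomG M ℤ) (τ' : HomG M ℂ →+ HomG M ℂ), S59trCompat M t τ τ' := by
  induction ht using Algebra.adjoin_induction with
  | mem x hx =>
    rcases hx with ⟨ℓ, hℓ, hℓN, -, rfl⟩ | ⟨q', hq'N, hq', hq'S, rfl⟩
    · have : Fact ℓ.Prime := ⟨hℓ⟩
      exact ⟨_, _, s59tr_compat_T ℓ hℓN⟩
    · exact (hq'S (hS q' hq' hq'N)).elim
  | algebraMap r => exact ⟨_, _, S59trCompat.int r⟩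
  | add x y _ _ ihx ihy =>
    obtain ⟨τ₁, τ₁', h₁⟩ := ihx
    obtain ⟨τ₂, τ₂', h₂⟩ := ihy
    exact ⟨_, _, h₁.add h₂⟩
  | mul x y _ _ ihx ihy =>
    obtain ⟨τ₁, τ₁', h₁⟩ := ihx
    obtain ⟨τ₂, τ₂', h₂⟩ := ihy
    exact ⟨_, _, h₁.mul h₂⟩

/-! ### uniqueness -/

/-- the cast of an integral parabolic class is a parabolic class over `ℂ` -/
theorem s59tr_cast_mem {y : HomG M ℤ} (hy : y ∈ Lpar M) :
    tpCast M y ∈ parabolicHoms ℂ (Gamma0 M) ℂ := by
  rw [mem_parabolicHoms_iff]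
  intro γ hγ
  have h : y (Additive.ofMul γ) = 0 := hy γ hγ
  rw [tpCast_apply_apply, h, Int.cast_zero]

/-- a compatible `τ'` on the period pairs -/
theorem s59tr_compat_periodHomPair {t : Module.End ℂ (CuspForm (Gamma0 M) 2)}
    {τ : HomG M ℤ →+ HomG M ℤ} {τ' : HomG M ℂ →+ HomG M ℂ} (h : S59trCompat M t τ τ')
    (f g : CuspForm (Gamma0 M) 2) :
    τ' (periodHomPair M (f, g)) = periodHomPair M (t f, t g) := by
  rw [Fermat.Agent.S21.periodHomPair_apply, Fermat.Agent.S21.periodHomPair_apply,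
    map_add, map_add, map_sub, h.compat.inv, h.compat.inv, h.compat.period, h.compat.period]

/-- a compatible `τ'` is determined by `t` on the parabolic classes -/
theorem s59tr_tau'_eq {t : Module.End ℂ (CuspForm (Gamma0 M) 2)}
    {τ₁ τ₂ : HomG M ℤ →+ HomG M ℤ} {τ₁' τ₂' : HomG M ℂ →+ HomG M ℂ}
    (h₁ : S59trCompat M t τ₁ τ₁') (h₂ : S59trCompat M t τ₂ τ₂')
    {ψ : HomG M ℂ} (hψ : ψ ∈ parabolicHoms ℂ (Gamma0 M) ℂ) : τ₁' ψ = τ₂' ψ := by
  rw [← (Fermat.Agent.S21.result M).2] at hψ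
  obtain ⟨⟨f, g⟩, rfl⟩ := hψ
  rw [s59tr_compat_periodHomPair h₁, s59tr_compat_periodHomPair h₂]

/-- **uniqueness**: two compatible triples of the same `t` agree on `Lpar M` -/
theorem s59tr_eq_of_compat {t : Module.End ℂ (CuspForm (Gamma0 M) 2)}
    {τ₁ τ₂ : HomG M ℤ →+ HomG M ℤ} {τ₁' τ₂' : HomG M ℂ →+ HomG M ℂ}
    (h₁ : S59trCompat M t τ₁ τ₁') (h₂ : S59trCompat M t τ₂ τ₂')
    {y : HomG M ℤ} (hy : y ∈ Lpar M) : τ₁ y = τ₂ y := by
  apply tpCast_injective M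
  rw [← h₁.compat.cast, ← h₂.compat.cast]
  exact s59tr_tau'_eq h₁ h₂ (s59tr_cast_mem hy)

/-! ### the ring homomorphism `Θ` -/

/-- the restriction of an additive endomorphism of `Hom(Γ₀(M), ℤ)` stabilising `Lpar M` -/
def s59trRestrict (τ : HomG M ℤ →+ HomG M ℤ) (h : ∀ y ∈ Lpar M, τ y ∈ Lpar M) :
    Module.End ℤ ↥(Lpar M) :=
  ((τ.comp (Lpar M).subtype).codRestrict (Lpar M) (fun y => h y y.2)).toIntLinearMap

@[simp]
theorem s59trRestrict_coe (τ : HomG M ℤ →+ HomG M ℤ) (h : ∀ y ∈ Lpar M, τ y ∈ Lpar M)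
    (y : ↥(Lpar M)) : ((s59trRestrict τ h y : ↥(Lpar M)) : HomG M ℤ) = τ (y : HomG M ℤ) := rfl

variable {S : Set ℕ}

/-- the chosen integral endomorphism of `t` -/
def s59trTau (hS : ∀ q : ℕ, q.Prime → q ∣ M → q ∈ S) (t : CuspForm.heckeAlgebra M 2 S) :
    HomG M ℤ →+ HomG M ℤ :=
  Classical.choose (s59tr_exists_compat hS t.1 t.2)

/-- the chosen complex endomorphism of `t` -/
def s59trTau' (hS : ∀ q : ℕ, q.Prime → q ∣ M → q ∈ S) (t : CuspForm.heckeAlgebra M 2 S) :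
    HomG M ℂ →+ HomG M ℂ :=
  Classical.choose (Classical.choose_spec (s59tr_exists_compat hS t.1 t.2))

theorem s59trTau_compat (hS : ∀ q : ℕ, q.Prime → q ∣ M → q ∈ S)
    (t : CuspForm.heckeAlgebra M 2 S) :
    S59trCompat M (t : Module.End ℂ (CuspForm (Gamma0 M) 2)) (s59trTau hS t) (s59trTau' hS t) :=
  Classical.choose_spec (Classical.choose_spec (s59tr_exists_compat hS t.1 t.2))

/-- `Θ` as a function -/
def s59trThetaFun (hS : ∀ q : ℕ, q.Prime → q ∣ M → q ∈ S) (t : CuspForm.heckeAlgebra M 2 S) :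
    Module.End ℤ ↥(Lpar M) :=
  s59trRestrict (s59trTau hS t) (fun y hy => (s59trTau_compat hS t).compat.stable y hy)

/-- **the characterisation of `Θ`**: `Θ t` is the restriction of `τ` for EVERY compatible triple
`(t, τ, τ')`. -/
theorem s59trThetaFun_spec (hS : ∀ q : ℕ, q.Prime → q ∣ M → q ∈ S)
    (t : CuspForm.heckeAlgebra M 2 S) {τ : HomG M ℤ →+ HomG M ℤ} {τ' : HomG M ℂ →+ HomG M ℂ}
    (h : S59trCompat M (t : Module.End ℂ (CuspForm (Gamma0 M) 2)) τ τ') (y : ↥(Lpar M)) :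
    ((s59trThetaFun hS t y : ↥(Lpar M)) : HomG M ℤ) = τ (y : HomG M ℤ) := by
  rw [s59trThetaFun, s59trRestrict_coe]
  exact s59tr_eq_of_compat (s59trTau_compat hS t) h y.2

/-- **E-TRANS**: the ring homomorphism `Θ : 𝕋 → End_ℤ (Hom_par(Γ₀(M), ℤ))`. -/
def s59trTheta (hS : ∀ q : ℕ, q.Prime → q ∣ M → q ∈ S) :
    CuspForm.heckeAlgebra M 2 S →+* Module.End ℤ ↥(Lpar M) where
  toFun := s59trThetaFun hS
  map_one' := by
    refine LinearMap.ext fun y => Subtype.ext ?_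
    have h : S59trCompat M
        (((1 : CuspForm.heckeAlgebra M 2 S)) : Module.End ℂ (CuspForm (Gamma0 M) 2))
        (zsmulAddGroupHom 1) (zsmulAddGroupHom 1) := by
      have e : (((1 : CuspForm.heckeAlgebra M 2 S)) : Module.End ℂ (CuspForm (Gamma0 M) 2))
          = algebraMap ℤ (Module.End ℂ (CuspForm (Gamma0 M) 2)) 1 := by
        rw [map_one]
        rfl
      rw [e]
      exact S59trCompat.int 1
    rw [s59trThetaFun_spec hS 1 h y, zsmulAddGroupHom_apply, one_smul]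
    rfl
  map_mul' a b := by
    refine LinearMap.ext fun y => Subtype.ext ?_
    have h : S59trCompat M
        (((a * b : CuspForm.heckeAlgebra M 2 S)) : Module.End ℂ (CuspForm (Gamma0 M) 2))
        ((s59trTau hS a).comp (s59trTau hS b)) ((s59trTau' hS a).comp (s59trTau' hS b)) :=
      (s59trTau_compat hS a).mul (s59trTau_compat hS b)
    rw [s59trThetaFun_spec hS (a * b) h y, AddMonoidHom.comp_apply, Module.End.mul_apply,
      s59trThetaFun_spec hS a (s59trTau_compat hS a),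
      s59trThetaFun_spec hS b (s59trTau_compat hS b)]
  map_zero' := by
    refine LinearMap.ext fun y => Subtype.ext ?_
    have h : S59trCompat M
        (((0 : CuspForm.heckeAlgebra M 2 S)) : Module.End ℂ (CuspForm (Gamma0 M) 2)) 0 0 :=
      S59trCompat.zero
    rw [s59trThetaFun_spec hS 0 h y, AddMonoidHom.zero_apply]
    rfl
  map_add' a b := by
    refine LinearMap.ext fun y => Subtype.ext ?_
    have h : S59trCompat M
        (((a + b : CuspForm.heckeAlgebra M 2 S)) : Module.End ℂ (CuspForm (Gamma0 M) 2))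
        (s59trTau hS a + s59trTau hS b) (s59trTau' hS a + s59trTau' hS b) :=
      (s59trTau_compat hS a).add (s59trTau_compat hS b)
    rw [s59trThetaFun_spec hS (a + b) h y, AddMonoidHom.add_apply, LinearMap.add_apply,
      AddSubgroup.coe_add,
      s59trThetaFun_spec hS a (s59trTau_compat hS a),
      s59trThetaFun_spec hS b (s59trTau_compat hS b)]

theorem s59trTheta_spec (hS : ∀ q : ℕ, q.Prime → q ∣ M → q ∈ S)
    (t : CuspForm.heckeAlgebra M 2 S) {τ : HomG M ℤ →+ HomG M ℤ} {τ' : HomG M ℂ →+ HomG M ℂ}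
    (h : S59trCompat M (t : Module.End ℂ (CuspForm (Gamma0 M) 2)) τ τ') (y : ↥(Lpar M)) :
    ((s59trTheta hS t y : ↥(Lpar M)) : HomG M ℤ) = τ (y : HomG M ℤ) :=
  s59trThetaFun_spec hS t h y

/-- the restriction of `Tc ℓ` to `Lpar M` -/
def s59trTc (M : ℕ) [NeZero M] (ℓ : ℕ) [Fact ℓ.Prime] (hℓM : ¬ ℓ ∣ M) : Module.End ℤ ↥(Lpar M) :=
  s59trRestrict (tpTc M ℓ hℓM ℤ)
    (fun y hy => Fermat.Agent.ES.HeckeP.heckeHom_mem_parabolicHoms hℓM ℤ hy)

@[simp]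
theorem s59trTc_coe (ℓ : ℕ) [Fact ℓ.Prime] (hℓM : ¬ ℓ ∣ M) (y : ↥(Lpar M)) :
    ((s59trTc M ℓ hℓM y : ↥(Lpar M)) : HomG M ℤ) = Tc ℓ hℓM (y : HomG M ℤ) := rfl

/-- **`Θ (T_ℓ) = Tc ℓ`**, elementwise. -/
theorem s59trTheta_T_apply (hS : ∀ q : ℕ, q.Prime → q ∣ M → q ∈ S) (ℓ : ℕ) [hℓ : Fact ℓ.Prime]
    (hℓM : ¬ ℓ ∣ M) (hℓS : ℓ ∉ S) (y : ↥(Lpar M)) :
    ((s59trTheta hS (CuspForm.heckeAlgebra.T hℓ.out hℓM hℓS) y : ↥(Lpar M)) : HomG M ℤ)
      = Tc ℓ hℓM (y : HomG M ℤ) := by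
  rw [s59trTheta_spec hS _ (s59tr_compat_T ℓ hℓM) y, tpTc_apply]

/-- **`Θ (T_ℓ) = Tc ℓ`**. -/
theorem s59trTheta_T (hS : ∀ q : ℕ, q.Prime → q ∣ M → q ∈ S) (ℓ : ℕ) [hℓ : Fact ℓ.Prime]
    (hℓM : ¬ ℓ ∣ M) (hℓS : ℓ ∉ S) :
    s59trTheta hS (CuspForm.heckeAlgebra.T hℓ.out hℓM hℓS) = s59trTc M ℓ hℓM :=
  LinearMap.ext fun y => Subtype.ext (s59trTheta_T_apply hS ℓ hℓM hℓS y)

/-- `Θ` on integers -/
theorem s59trTheta_intCast_apply (hS : ∀ q : ℕ, q.Prime → q ∣ M → q ∈ S) (n : ℤ)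
    (y : ↥(Lpar M)) : s59trTheta hS (n : CuspForm.heckeAlgebra M 2 S) y = n • y := by
  rw [map_intCast]
  rfl

/-! ### injectivity -/

/-- a compatible triple with `τ = 0` on `Lpar M` has `τ' = 0` on the parabolic classes -/
theorem s59tr_tau'_eq_zero {t : Module.End ℂ (CuspForm (Gamma0 M) 2)}
    {τ : HomG M ℤ →+ HomG M ℤ} {τ' : HomG M ℂ →+ HomG M ℂ} (h : S59trCompat M t τ τ')
    (hτ : ∀ y ∈ Lpar M, τ y = 0) {ψ : HomG M ℂ} (hψ : ψ ∈ parabolicHoms ℂ (Gamma0 M) ℂ) :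
    τ' ψ = 0 := by
  haveI : Group.FG (Gamma0 M) := (Group.fg_iff_subgroup_fg _).mpr (Fermat.Agent.S22.gamma0_fg M)
  have hspan := Fermat.Agent.ES.mem_span_range_castHomC (G := Gamma0 M)
    (P := Fermat.Agent.ES.parabolicSet M) ψ (fun g hg => hψ g hg)
  have key : ∀ φ ∈ Submodule.span ℂ (Set.range fun x : Fermat.Agent.ES.intHoms (Gamma0 M)
      (Fermat.Agent.ES.parabolicSet M) =>
        Fermat.Agent.ES.castHomC (x : Additive (Gamma0 M) →+ ℤ)), τ' φ = 0 := by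
    intro φ hφ
    induction hφ using Submodule.span_induction with
    | mem x hx =>
      obtain ⟨y, rfl⟩ := hx
      have hy : (y : HomG M ℤ) ∈ Lpar M := y.2
      have e : τ' (Fermat.Agent.ES.castHomC (y : Additive (Gamma0 M) →+ ℤ))
          = τ' (tpCast M (y : HomG M ℤ)) := rfl
      show τ' (Fermat.Agent.ES.castHomC (y : Additive (Gamma0 M) →+ ℤ)) = 0
      rw [e, h.compat.cast, hτ _ hy, map_zero]
    | zero => exact map_zero τ'
    | add x y _ _ hx hy => rw [map_add, hx, hy, add_zero]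
    | smul c x _ hx => rw [h.smul, hx, smul_zero]
  exact key ψ hspan

/-- the period map is injective -/
theorem s59tr_periodMap_eq_zero {f : CuspForm (Gamma0 M) 2} (hf : periodMap M f = 0) : f = 0 := by
  have h1 : periodHomPair M (f, f) = 0 := by
    rw [Fermat.Agent.S21.periodHomPair_apply, hf, map_zero]
    simp
  have h2 : periodHomPair M (f, f) = periodHomPair M (0, 0) := by
    rw [h1]
    exact (map_zero (periodHomPair M)).symm
  have h3 := (Fermat.Agent.S21.result M).1 h2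
  exact (Prod.mk.inj h3).1

/-- **`Θ` is injective.** -/
theorem s59trTheta_injective (hS : ∀ q : ℕ, q.Prime → q ∣ M → q ∈ S) :
    Function.Injective (s59trTheta (M := M) hS) := by
  rw [injective_iff_map_eq_zero]
  intro t ht
  have hc := s59trTau_compat hS t
  have hτ : ∀ y ∈ Lpar M, s59trTau hS t y = 0 := by
    intro y hy
    have h1 := s59trTheta_spec hS t hc ⟨y, hy⟩
    rw [ht] at h1
    exact h1.symm
  apply Subtype.ext
  refine LinearMap.ext fun f => ?_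
  apply s59tr_periodMap_eq_zero
  rw [hc.compat.period]
  exact s59tr_tau'_eq_zero hc hτ (Fermat.Agent.S21.periodMap_mem_parabolicHoms M f)

/-- `Θ t = 0` on `Lpar M` iff `t = 0` -/
theorem s59trTheta_eq_zero_iff (hS : ∀ q : ℕ, q.Prime → q ∣ M → q ∈ S)
    (t : CuspForm.heckeAlgebra M 2 S) : s59trTheta hS t = 0 ↔ t = 0 :=
  ⟨fun h => s59trTheta_injective hS (h.trans (map_zero _).symm), fun h => by rw [h, map_zero]⟩

/-! ### the image of `Θ` is reduced -/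

/-- a nilpotent `Θ t` is zero -/
theorem s59trTheta_isNilpotent (hS : ∀ q : ℕ, q.Prime → q ∣ M → q ∈ S)
    (t : CuspForm.heckeAlgebra M 2 S) (h : IsNilpotent (s59trTheta hS t)) :
    s59trTheta hS t = 0 := by
  haveI := Fermat.Agent.PET.isReduced_heckeAlgebra M 2 hS
  obtain ⟨n, hn⟩ := h
  have h1 : s59trTheta hS (t ^ n) = 0 := by rw [map_pow, hn]
  have h2 : t ^ n = 0 := (s59trTheta_eq_zero_iff hS _).1 h1
  have h3 : t = 0 := IsReduced.eq_zero t ⟨n, h2⟩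
  rw [h3, map_zero]

/-- **the `ℤ`-algebra of the `Tc ℓ` on `Lpar M` is reduced** -/
theorem s59tr_range_isReduced (hS : ∀ q : ℕ, q.Prime → q ∣ M → q ∈ S) :
    IsReduced ↥(s59trTheta (M := M) hS).range := by
  refine ⟨?_⟩
  rintro ⟨x, t, rfl⟩ ⟨n, hn⟩
  apply Subtype.ext
  refine s59trTheta_isNilpotent hS t ⟨n, ?_⟩
  have := congrArg Subtype.val hn
  simpa using this

/-! ### the dictionary over `ℂ` -/

/-- an eigenform gives a parabolic eigenclass with the same eigenvalues -/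
theorem s59tr_class_of_form (a : ℕ → ℂ) (f : CuspForm (Gamma0 M) 2) (hf : f ≠ 0)
    (h : ∀ (ℓ : ℕ) [hℓ : Fact ℓ.Prime] (hℓM : ¬ ℓ ∣ M), ℓ ∉ S →
      CuspForm.heckeTLin 2 hℓ.out hℓM f = a ℓ • f) :
    ∃ φ : HomG M ℂ, φ ≠ 0 ∧ φ ∈ parabolicHoms ℂ (Gamma0 M) ℂ ∧
      ∀ (ℓ : ℕ) [Fact ℓ.Prime] (hℓM : ¬ ℓ ∣ M), ℓ ∉ S → Tc ℓ hℓM φ = a ℓ • φ := by
  refine ⟨periodMap M f, fun h0 => hf (s59tr_periodMap_eq_zero h0),
    Fermat.Agent.S21.periodMap_mem_parabolicHoms M f, ?_⟩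
  intro ℓ _ hℓM hℓS
  have h1 := Fermat.Agent.ES.periodMap_heckeTLin_eq_heckeP hℓM f
  rw [h ℓ hℓM hℓS] at h1
  have h2 : periodMap M (a ℓ • f) = a ℓ • periodMap M f :=
    map_smul (Fermat.Agent.S21.periodMapLinear M) (a ℓ) f
  rw [h2] at h1
  exact h1.symm

/-- a parabolic eigenclass over `ℂ` gives an eigenform with the same eigenvalues -/
theorem s59tr_form_of_class (a : ℕ → ℂ) (φ : HomG M ℂ) (hφ0 : φ ≠ 0)
    (hφ : φ ∈ parabolicHoms ℂ (Gamma0 M) ℂ)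
    (h : ∀ (ℓ : ℕ) [Fact ℓ.Prime] (hℓM : ¬ ℓ ∣ M), ℓ ∉ S → Tc ℓ hℓM φ = a ℓ • φ) :
    ∃ f : CuspForm (Gamma0 M) 2, f ≠ 0 ∧
      ∀ (ℓ : ℕ) [hℓ : Fact ℓ.Prime] (hℓM : ¬ ℓ ∣ M), ℓ ∉ S →
        CuspForm.heckeTLin 2 hℓ.out hℓM f = a ℓ • f := by
  rw [← (Fermat.Agent.S21.result M).2] at hφ
  obtain ⟨⟨f, g⟩, rfl⟩ := hφ
  have key : ∀ (ℓ : ℕ) [hℓ : Fact ℓ.Prime] (hℓM : ¬ ℓ ∣ M), ℓ ∉ S →
      CuspForm.heckeTLin 2 hℓ.out hℓM f = a ℓ • f ∧
      CuspForm.heckeTLin 2 hℓ.out hℓM g = a ℓ • g := by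
    intro ℓ hℓ hℓM hℓS
    have h1 := s59tr_compat_periodHomPair (s59tr_compat_T ℓ hℓM) f g
    rw [tpTc_apply, h ℓ hℓM hℓS, ← map_smul] at h1
    have h2 := (Fermat.Agent.S21.result M).1 h1
    have h3 : (a ℓ • f, a ℓ • g) = (CuspForm.heckeTLin 2 hℓ.out hℓM f,
        CuspForm.heckeTLin 2 hℓ.out hℓM g) := h2
    exact ⟨(Prod.mk.inj h3).1.symm, (Prod.mk.inj h3).2.symm⟩
  by_cases hf : f = 0
  · refine ⟨g, ?_, fun ℓ hℓ hℓM hℓS => (key ℓ hℓM hℓS).2⟩
    rintro rfl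
    apply hφ0
    rw [hf]
    exact map_zero (periodHomPair M)
  · exact ⟨f, hf, fun ℓ hℓ hℓM hℓS => (key ℓ hℓM hℓS).1⟩

end Fermat.Agent.S59

end
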