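/-
S59, route A, piece ETA′ (R2), leaf **E-TRANS**, part 2 (helper70): BASE CHANGE of the transport.

* `s59trbc_abs_injective` (abstract): `H` a commutative ring, `L` a finite `ℤ`-module,
  `Θ : H →+* End_ℤ L` injective, `A` a flat `ℤ`-algebra  ⇒  the `A`-algebra homomorphism
  `Θ_A = s59trbcMap A Θ : A ⊗[ℤ] H →ₐ[A] End_A (A ⊗[ℤ] L)`, `a ⊗ t ↦ a • (Θ t ⊗ A)`, is injective.
* `s59trbcTheta A hS : A ⊗[ℤ] 𝕋 →ₐ[A] End_A (A ⊗[ℤ] Lpar M)` for `𝕋 = heckeAlgebra M 2 S`,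
  `s59trbcTheta_tmul`, `s59trbcTheta_T` (on `1 ⊗ T_ℓ` it is `Tc ℓ ⊗ A`), and
  **`s59trbcTheta_injective`** (`A` flat over `ℤ`: `𝒪`, `K`, `ℂ`, …).
* `s59tr_finite_Lpar`, `s59tr_free_Lpar` : `Lpar M` is a finite free `ℤ`-module;
  `s59tr_finite_hecke` : `𝕋` is a finite `ℤ`-module (through `Θ`).
-/
import Fermat.Agent.S59.Eta.Trans

set_option autoImplicit false
set_option linter.unusedSectionVars false
set_option linter.unusedVariables false
set_option linter.style.haveILetI false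

noncomputable section

namespace Fermat.Agent.S59

open CongruenceSubgroup Matrix ModularCurve ModularCurve.Period Fermat.Agent.S41 TensorProduct
open scoped MatrixGroups

section Abs

variable {H L : Type*} [CommRing H] [AddCommGroup L]
  (A : Type*) [CommRing A]

/-- the base change `Θ_A : A ⊗[ℤ] H →ₐ[A] End_A (A ⊗[ℤ] L)` of `Θ : H →+* End_ℤ L` -/
def s59trbcMap (Θ : H →+* Module.End ℤ L) : A ⊗[ℤ] H →ₐ[A] Module.End A (A ⊗[ℤ] L) :=
  (LinearMap.tensorProductEnd ℤ A L).comp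
    (Algebra.TensorProduct.map (AlgHom.id A A) Θ.toIntAlgHom)

theorem s59trbcMap_tmul (Θ : H →+* Module.End ℤ L) (a : A) (t : H) :
    s59trbcMap A Θ (a ⊗ₜ[ℤ] t) = a • (Θ t).baseChange A := by
  simp [s59trbcMap]
  rfl

theorem s59trbcMap_tmul_apply (Θ : H →+* Module.End ℤ L) (a b : A) (t : H) (y : L) :
    s59trbcMap A Θ (a ⊗ₜ[ℤ] t) (b ⊗ₜ[ℤ] y) = (a * b) ⊗ₜ[ℤ] Θ t y := by
  rw [s59trbcMap_tmul, LinearMap.smul_apply, LinearMap.baseChange_tmul, TensorProduct.smul_tmul',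
    smul_eq_mul]

/-- evaluation on a finite family of `L` -/
def s59trbcEv (Θ : H →+* Module.End ℤ L) {n : ℕ} (s : Fin n → L) : H →ₗ[ℤ] (Fin n → L) where
  toFun t := fun j => Θ t (s j)
  map_add' t t' := by
    funext j
    simp
  map_smul' c t := by
    funext j
    simp

theorem s59trbcEv_injective (Θ : H →+* Module.End ℤ L) (hΘ : Function.Injective Θ) {n : ℕ}
    (s : Fin n → L) (hs : Submodule.span ℤ (Set.range s) = ⊤) :
    Function.Injective (s59trbcEv Θ s) := by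
  rw [injective_iff_map_eq_zero]
  intro t ht
  apply hΘ
  rw [map_zero]
  apply LinearMap.ext_on_range hs
  intro j
  have := congrFun ht j
  simpa [s59trbcEv] using this

/-- **base change keeps the transport injective** (abstract form) -/
theorem s59trbc_abs_injective [Module.Finite ℤ L] [Module.Flat ℤ A]
    (Θ : H →+* Module.End ℤ L) (hΘ : Function.Injective Θ) :
    Function.Injective (s59trbcMap A Θ) := by
  classical
  obtain ⟨n, s, hs⟩ := Module.Finite.exists_fin (R := ℤ) (M := L)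
  have h1 : Function.Injective ((s59trbcEv Θ s).lTensor A) :=
    Module.Flat.lTensor_preserves_injective_linearMap _ (s59trbcEv_injective Θ hΘ s hs)
  have key : ∀ x : A ⊗[ℤ] H, ∀ j : Fin n,
      TensorProduct.piRightHom ℤ ℤ A (fun _ : Fin n => L) ((s59trbcEv Θ s).lTensor A x) j
        = s59trbcMap A Θ x ((1 : A) ⊗ₜ[ℤ] s j) := by
    intro x j
    induction x using TensorProduct.induction_on with
    | zero => simp
    | tmul a t =>
      rw [LinearMap.lTensor_tmul, TensorProduct.piRightHom_tmul, s59trbcMap_tmul_apply, mul_one]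
      rfl
    | add x y hx hy =>
      rw [map_add, map_add, Pi.add_apply, hx, hy, map_add, LinearMap.add_apply]
  rw [injective_iff_map_eq_zero]
  intro x hx
  apply h1
  rw [map_zero]
  apply (TensorProduct.piRight ℤ ℤ A (fun _ : Fin n => L)).injective
  rw [map_zero, TensorProduct.piRight_apply]
  funext j
  rw [key x j, hx]
  rfl

end Abs

/-! ### the lattice `Lpar M` -/

variable {M : ℕ} [NeZero M] {S : Set ℕ}

/-- `Lpar M` is a finite `ℤ`-module -/
theorem s59tr_finite_Lpar (M : ℕ) [NeZero M] : Module.Finite ℤ ↥(Lpar M) := by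
  haveI : Group.FG (Gamma0 M) := (Group.fg_iff_subgroup_fg _).mpr (Fermat.Agent.S22.gamma0_fg M)
  exact Fermat.Agent.ES.finite_intHoms (Gamma0 M) (Fermat.Agent.ES.parabolicSet M)

/-- `Lpar M` is a free `ℤ`-module -/
theorem s59tr_free_Lpar (M : ℕ) [NeZero M] : Module.Free ℤ ↥(Lpar M) := by
  haveI : Group.FG (Gamma0 M) := (Group.fg_iff_subgroup_fg _).mpr (Fermat.Agent.S22.gamma0_fg M)
  exact Fermat.Agent.ES.free_intHoms (Gamma0 M) (Fermat.Agent.ES.parabolicSet M)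

/-- the anemic Hecke algebra is a finite `ℤ`-module -/
theorem s59tr_finite_hecke (hS : ∀ q : ℕ, q.Prime → q ∣ M → q ∈ S) :
    Module.Finite ℤ ↥(CuspForm.heckeAlgebra M 2 S) := by
  haveI := s59tr_finite_Lpar M
  haveI := s59tr_free_Lpar M
  exact Module.Finite.of_injective (s59trTheta hS).toIntAlgHom.toLinearMap
    (s59trTheta_injective hS)

variable (A : Type*) [CommRing A]

/-- **the base change of `Θ`**: `Θ_A : A ⊗[ℤ] 𝕋 →ₐ[A] End_A (A ⊗[ℤ] Lpar M)` -/
def s59trbcTheta (hS : ∀ q : ℕ, q.Prime → q ∣ M → q ∈ S) :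
    A ⊗[ℤ] ↥(CuspForm.heckeAlgebra M 2 S) →ₐ[A] Module.End A (A ⊗[ℤ] ↥(Lpar M)) :=
  s59trbcMap A (s59trTheta hS)

theorem s59trbcTheta_tmul (hS : ∀ q : ℕ, q.Prime → q ∣ M → q ∈ S) (a : A)
    (t : CuspForm.heckeAlgebra M 2 S) :
    s59trbcTheta A hS (a ⊗ₜ[ℤ] t) = a • (s59trTheta hS t).baseChange A :=
  s59trbcMap_tmul A _ a t

theorem s59trbcTheta_tmul_apply (hS : ∀ q : ℕ, q.Prime → q ∣ M → q ∈ S) (a b : A)
    (t : CuspForm.heckeAlgebra M 2 S) (y : ↥(Lpar M)) :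
    s59trbcTheta A hS (a ⊗ₜ[ℤ] t) (b ⊗ₜ[ℤ] y) = (a * b) ⊗ₜ[ℤ] s59trTheta hS t y :=
  s59trbcMap_tmul_apply A _ a b t y

/-- on `1 ⊗ T_ℓ` the base change is `Tc ℓ ⊗ A` -/
theorem s59trbcTheta_T (hS : ∀ q : ℕ, q.Prime → q ∣ M → q ∈ S) (ℓ : ℕ) [hℓ : Fact ℓ.Prime]
    (hℓM : ¬ ℓ ∣ M) (hℓS : ℓ ∉ S) :
    s59trbcTheta A hS ((1 : A) ⊗ₜ[ℤ] CuspForm.heckeAlgebra.T hℓ.out hℓM hℓS)
      = (s59trTc M ℓ hℓM).baseChange A := by
  rw [s59trbcTheta_tmul, one_smul, s59trTheta_T]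

/-- **`Θ_A` is injective** for every flat `ℤ`-algebra `A`. -/
theorem s59trbcTheta_injective [Module.Flat ℤ A] (hS : ∀ q : ℕ, q.Prime → q ∣ M → q ∈ S) :
    Function.Injective (s59trbcTheta (M := M) A hS) := by
  haveI := s59tr_finite_Lpar M
  exact s59trbc_abs_injective A (s59trTheta hS) (s59trTheta_injective hS)

end Fermat.Agent.S59

end
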