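import Mathlib
import Fermat.Agent.S59.Eta.TransBC
import Fermat.Agent.S59.Eta.BCLin
import Fermat.Agent.S59.Eta.BCBase

/-!
# S59 ETA′, piece **E-GEN-CONC**, parts `hB` and `hE` (helper80)

`𝕋 = CuspForm.heckeAlgebra M 2 S` (all primes of `M` in `S`), `Θ = s59trTheta hS : 𝕋 →+* End_ℤ (Lpar M)`
(helper70), `A = 𝒪 ⊗[ℤ] 𝕋` acting on `L = 𝒪 ⊗[ℤ] Lpar M` through `Θ_𝒪 = s59trbcTheta 𝒪 hS`,
`B = s59bcForm 𝒪 (s59bcPairZ M)`.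

* `s59gencb_selfadj_Z` : every `Θ t` is self-adjoint for `s59bcPairZ M`;
* `s59gencb_selfadj`   : every `Θ_𝒪 a` is self-adjoint for `B`;
* `s59gencb_T`         : `Θ_𝒪 (1 ⊗ T_ℓ) = (s59bcTcZ M ℓ hℓ).baseChange 𝒪`;
* `s59gencb_eig_T`     : an eigenvector of all `Θ_𝒪 (1 ⊗ t)` with system `χ` is an eigenvector of
                         the `T_ℓ` with eigenvalues `χ (T_ℓ)`  (**`hE`**);
* `s59gencb_eig_all`   : conversely, an eigenvector of the `T_ℓ` (`ℓ ∤ M`, `ℓ ∉ S`) with eigenvalues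
                         `χ (T_ℓ)` is an eigenvector of every `Θ_𝒪 (1 ⊗ t)`  (**`hx`**);
* `s59gencbModule`, `s59gencb_isScalarTower`, `s59gencb_smul_def` : the `A`-module structure on `L`;
* `s59gencb_hB`, `s59gencb_hE`, `s59gencb_hx` : the hypotheses `hB`, `hE`, `hx` of
  `s59locgen_gen_of_sep` (helper33), literal shapes, for `ι t = 1 ⊗ t`.
-/

set_option autoImplicit false
set_option linter.style.haveILetI false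
set_option linter.unusedSectionVars false
set_option linter.unusedSimpArgs false
set_option linter.unusedVariables false

noncomputable section

namespace Fermat.Agent.S59

open CongruenceSubgroup Matrix Fermat.Agent.S41 Fermat.Agent.S41.PD TensorProduct
open scoped MatrixGroups

section overZ

variable {M : ℕ} [NeZero M] {S : Set ℕ}

/-- the two packagings of `T_ℓ` on `Lpar M` agree -/
theorem s59gencb_trTc_eq (ℓ : ℕ) [Fact ℓ.Prime] (hℓM : ¬ ℓ ∣ M) :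
    s59trTc M ℓ hℓM = s59bcTcZ M ℓ hℓM :=
  LinearMap.ext fun y => Subtype.ext rfl

/-- self-adjointness, stated on the ambient endomorphism ring (for the induction) -/
theorem s59gencb_selfadj_aux (hS : ∀ q : ℕ, q.Prime → q ∣ M → q ∈ S)
    (t : Module.End ℂ (CuspForm (Gamma0 M) 2)) (ht : t ∈ CuspForm.heckeAlgebra M 2 S) :
    ∀ x y : Lpar M, s59bcPairZ M (s59trTheta hS ⟨t, ht⟩ x) y =
      s59bcPairZ M x (s59trTheta hS ⟨t, ht⟩ y) := by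
  induction ht using Algebra.adjoin_induction with
  | mem x hx =>
    rcases hx with ⟨ℓ, hℓ, hℓN, hℓS, rfl⟩ | ⟨q', hq'N, hq', hq'S, rfl⟩
    · haveI : Fact ℓ.Prime := ⟨hℓ⟩
      intro x y
      have e : (⟨CuspForm.heckeTLin 2 hℓ hℓN, Algebra.subset_adjoin
          (Or.inl ⟨ℓ, hℓ, hℓN, hℓS, rfl⟩)⟩ : CuspForm.heckeAlgebra M 2 S) =
          CuspForm.heckeAlgebra.T hℓ hℓN hℓS := rfl
      rw [e, s59trTheta_T hS ℓ hℓN hℓS, s59gencb_trTc_eq]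
      exact s59bcPairZ_Tc M ℓ hℓN x y
    · exact (hq'S (hS q' hq' hq'N)).elim
  | algebraMap r =>
    intro x y
    have e : (⟨algebraMap ℤ (Module.End ℂ (CuspForm (Gamma0 M) 2)) r,
        Subalgebra.algebraMap_mem _ r⟩ : CuspForm.heckeAlgebra M 2 S) =
        ((r : ℤ) : CuspForm.heckeAlgebra M 2 S) := by
      apply Subtype.ext
      simp
    rw [e, s59trTheta_intCast_apply, s59trTheta_intCast_apply, map_smul, map_smul,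
      LinearMap.smul_apply]
  | add a b ha hb iha ihb =>
    intro x y
    have e : (⟨a + b, Subalgebra.add_mem _ ha hb⟩ : CuspForm.heckeAlgebra M 2 S) =
        ⟨a, ha⟩ + ⟨b, hb⟩ := rfl
    rw [e, map_add, LinearMap.add_apply, LinearMap.add_apply, map_add, map_add,
      LinearMap.add_apply, iha, ihb]
  | mul a b ha hb iha ihb =>
    intro x y
    have e : (⟨a * b, Subalgebra.mul_mem _ ha hb⟩ : CuspForm.heckeAlgebra M 2 S) =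
        ⟨a, ha⟩ * ⟨b, hb⟩ := rfl
    have e' : (⟨a, ha⟩ * ⟨b, hb⟩ : CuspForm.heckeAlgebra M 2 S) = ⟨b, hb⟩ * ⟨a, ha⟩ :=
      mul_comm _ _
    rw [e]
    conv_rhs => rw [e']
    rw [map_mul, map_mul, Module.End.mul_apply, Module.End.mul_apply, iha, ihb]

/-- **every `Θ t` is self-adjoint** for the pairing on `Lpar M`. -/
theorem s59gencb_selfadj_Z (hS : ∀ q : ℕ, q.Prime → q ∣ M → q ∈ S)
    (t : CuspForm.heckeAlgebra M 2 S) (x y : Lpar M) :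
    s59bcPairZ M (s59trTheta hS t x) y = s59bcPairZ M x (s59trTheta hS t y) :=
  s59gencb_selfadj_aux hS t.1 t.2 x y

end overZ

section overO

variable (𝒪 : Type) [CommRing 𝒪] {M : ℕ} [NeZero M] {S : Set ℕ}

/-- **every `Θ_𝒪 a`, `a ∈ 𝒪 ⊗ 𝕋`, is self-adjoint** for `s59bcForm 𝒪 (s59bcPairZ M)`. -/
theorem s59gencb_selfadj (hS : ∀ q : ℕ, q.Prime → q ∣ M → q ∈ S)
    (a : 𝒪 ⊗[ℤ] ↥(CuspForm.heckeAlgebra M 2 S)) (X Y : 𝒪 ⊗[ℤ] ↥(Lpar M)) :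
    s59bcForm 𝒪 (s59bcPairZ M) (s59trbcTheta 𝒪 hS a X) Y =
      s59bcForm 𝒪 (s59bcPairZ M) X (s59trbcTheta 𝒪 hS a Y) := by
  induction a using TensorProduct.induction_on with
  | zero => simp
  | add a₁ a₂ h₁ h₂ =>
    rw [map_add, LinearMap.add_apply, LinearMap.add_apply, map_add, map_add,
      LinearMap.add_apply, h₁, h₂]
  | tmul c t =>
    have h1 : ∀ Z : 𝒪 ⊗[ℤ] ↥(Lpar M), s59trbcTheta 𝒪 hS (c ⊗ₜ[ℤ] t) Z =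
        c • (s59trTheta hS t).baseChange 𝒪 Z := fun Z => by
      rw [s59trbcTheta_tmul]
      rfl
    have h2 : s59bcForm 𝒪 (s59bcPairZ M) ((s59trTheta hS t).baseChange 𝒪 X) Y =
        s59bcForm 𝒪 (s59bcPairZ M) X ((s59trTheta hS t).baseChange 𝒪 Y) :=
      s59bc_baseChange_adj 𝒪 (s59bcPairZ M) (s59bcPairZ M) (s59trTheta hS t)
        (s59trTheta hS t) (s59gencb_selfadj_Z hS t) X Y
    have e1 := congrArg (fun Z => s59bcForm 𝒪 (s59bcPairZ M) Z Y) (h1 X)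
    have e2 := congrArg (fun Z => s59bcForm 𝒪 (s59bcPairZ M) X Z) (h1 Y)
    refine e1.trans ?_
    refine Eq.trans ?_ e2.symm
    rw [map_smul, LinearMap.smul_apply, h2, map_smul]

/-- `Θ_𝒪 (1 ⊗ T_ℓ) = T_ℓ ⊗ 𝒪` in the names of E-BC -/
theorem s59gencb_T (hS : ∀ q : ℕ, q.Prime → q ∣ M → q ∈ S) (ℓ : ℕ) [hℓ : Fact ℓ.Prime]
    (hℓM : ¬ ℓ ∣ M) (hℓS : ℓ ∉ S) :
    s59trbcTheta 𝒪 hS ((1 : 𝒪) ⊗ₜ[ℤ] CuspForm.heckeAlgebra.T hℓ.out hℓM hℓS) =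
      (s59bcTcZ M ℓ hℓM).baseChange 𝒪 := by
  rw [s59trbcTheta_T, s59gencb_trTc_eq]

/-- **(hE)** an eigenvector of all `Θ_𝒪 (1 ⊗ t)` with system `χ` is an eigenvector of the `T_ℓ`. -/
theorem s59gencb_eig_T (hS : ∀ q : ℕ, q.Prime → q ∣ M → q ∈ S)
    (χ : ↥(CuspForm.heckeAlgebra M 2 S) → 𝒪) (y : 𝒪 ⊗[ℤ] ↥(Lpar M))
    (hy : ∀ t : CuspForm.heckeAlgebra M 2 S, s59trbcTheta 𝒪 hS ((1 : 𝒪) ⊗ₜ[ℤ] t) y = χ t • y)
    (ℓ : ℕ) [hℓ : Fact ℓ.Prime] (hℓM : ¬ ℓ ∣ M) (hℓS : ℓ ∉ S) :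
    (s59bcTcZ M ℓ hℓM).baseChange 𝒪 y = χ (CuspForm.heckeAlgebra.T hℓ.out hℓM hℓS) • y := by
  rw [← s59gencb_T 𝒪 hS ℓ hℓM hℓS]
  exact hy _

/-- auxiliary form of `s59gencb_eig_all` for the induction -/
theorem s59gencb_eig_all_aux (hS : ∀ q : ℕ, q.Prime → q ∣ M → q ∈ S)
    (χ : ↥(CuspForm.heckeAlgebra M 2 S) →+* 𝒪) (x : 𝒪 ⊗[ℤ] ↥(Lpar M))
    (hx : ∀ (ℓ : ℕ) [hℓ : Fact ℓ.Prime] (hℓM : ¬ ℓ ∣ M) (hℓS : ℓ ∉ S),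
      (s59bcTcZ M ℓ hℓM).baseChange 𝒪 x = χ (CuspForm.heckeAlgebra.T hℓ.out hℓM hℓS) • x)
    (t : Module.End ℂ (CuspForm (Gamma0 M) 2)) (ht : t ∈ CuspForm.heckeAlgebra M 2 S) :
    s59trbcTheta 𝒪 hS ((1 : 𝒪) ⊗ₜ[ℤ] (⟨t, ht⟩ : CuspForm.heckeAlgebra M 2 S)) x =
      χ ⟨t, ht⟩ • x := by
  induction ht using Algebra.adjoin_induction with
  | mem u hu =>
    rcases hu with ⟨ℓ, hℓ, hℓN, hℓS, rfl⟩ | ⟨q', hq'N, hq', hq'S, rfl⟩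
    · haveI : Fact ℓ.Prime := ⟨hℓ⟩
      have e : (⟨CuspForm.heckeTLin 2 hℓ hℓN, Algebra.subset_adjoin
          (Or.inl ⟨ℓ, hℓ, hℓN, hℓS, rfl⟩)⟩ : CuspForm.heckeAlgebra M 2 S) =
          CuspForm.heckeAlgebra.T hℓ hℓN hℓS := rfl
      rw [e, s59gencb_T 𝒪 hS ℓ hℓN hℓS]
      exact hx ℓ hℓN hℓS
    · exact (hq'S (hS q' hq' hq'N)).elim
  | algebraMap r =>
    have e : (⟨algebraMap ℤ (Module.End ℂ (CuspForm (Gamma0 M) 2)) r,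
        Subalgebra.algebraMap_mem _ r⟩ : CuspForm.heckeAlgebra M 2 S) =
        algebraMap ℤ (CuspForm.heckeAlgebra M 2 S) r := rfl
    have e2 : (1 : 𝒪) ⊗ₜ[ℤ] (algebraMap ℤ (CuspForm.heckeAlgebra M 2 S) r) =
        algebraMap 𝒪 (𝒪 ⊗[ℤ] ↥(CuspForm.heckeAlgebra M 2 S)) ((r : ℤ) : 𝒪) := by
      rw [Algebra.TensorProduct.algebraMap_apply, Algebra.algebraMap_eq_smul_one,
        TensorProduct.tmul_smul, Algebra.algebraMap_self_apply, ← Int.cast_smul_eq_zsmul 𝒪,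
        TensorProduct.smul_tmul', smul_eq_mul, mul_one]
    rw [e, e2, AlgHom.commutes, Module.algebraMap_end_apply, eq_intCast, map_intCast]
  | add a b ha hb iha ihb =>
    have e : (⟨a + b, Subalgebra.add_mem _ ha hb⟩ : CuspForm.heckeAlgebra M 2 S) =
        ⟨a, ha⟩ + ⟨b, hb⟩ := rfl
    rw [e, TensorProduct.tmul_add, map_add, LinearMap.add_apply, iha, ihb, map_add, add_smul]
  | mul a b ha hb iha ihb =>
    have e : (⟨a * b, Subalgebra.mul_mem _ ha hb⟩ : CuspForm.heckeAlgebra M 2 S) =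
        ⟨a, ha⟩ * ⟨b, hb⟩ := rfl
    have e2 : (1 : 𝒪) ⊗ₜ[ℤ] ((⟨a, ha⟩ : CuspForm.heckeAlgebra M 2 S) * ⟨b, hb⟩) =
        ((1 : 𝒪) ⊗ₜ[ℤ] (⟨a, ha⟩ : CuspForm.heckeAlgebra M 2 S)) * ((1 : 𝒪) ⊗ₜ[ℤ] ⟨b, hb⟩) := by
      rw [Algebra.TensorProduct.tmul_mul_tmul, one_mul]
    rw [e, e2, map_mul, Module.End.mul_apply, ihb, map_smul, iha, map_mul, smul_smul, mul_comm]

/-- **(hx)** an eigenvector of the `T_ℓ` (`ℓ ∤ M`, `ℓ ∉ S`) with eigenvalues `χ (T_ℓ)`, `χ` a ring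
homomorphism, is an eigenvector of every `Θ_𝒪 (1 ⊗ t)`. -/
theorem s59gencb_eig_all (hS : ∀ q : ℕ, q.Prime → q ∣ M → q ∈ S)
    (χ : ↥(CuspForm.heckeAlgebra M 2 S) →+* 𝒪) (x : 𝒪 ⊗[ℤ] ↥(Lpar M))
    (hx : ∀ (ℓ : ℕ) [hℓ : Fact ℓ.Prime] (hℓM : ¬ ℓ ∣ M) (hℓS : ℓ ∉ S),
      (s59bcTcZ M ℓ hℓM).baseChange 𝒪 x = χ (CuspForm.heckeAlgebra.T hℓ.out hℓM hℓS) • x)
    (t : CuspForm.heckeAlgebra M 2 S) :
    s59trbcTheta 𝒪 hS ((1 : 𝒪) ⊗ₜ[ℤ] t) x = χ t • x :=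
  s59gencb_eig_all_aux 𝒪 hS χ x hx t.1 t.2

end overO

/-! ## The `A`-module structure on `L` and the literal hypotheses of `s59locgen_gen_of_sep` -/

section module

variable (𝒪 : Type) [CommRing 𝒪] {M : ℕ} [NeZero M] {S : Set ℕ}

/-- the action of `A = 𝒪 ⊗[ℤ] 𝕋` on `L = 𝒪 ⊗[ℤ] Lpar M` through `Θ_𝒪` -/
@[reducible] def s59gencbModule (hS : ∀ q : ℕ, q.Prime → q ∣ M → q ∈ S) :
    Module (𝒪 ⊗[ℤ] ↥(CuspForm.heckeAlgebra M 2 S)) (𝒪 ⊗[ℤ] ↥(Lpar M)) :=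
  Module.compHom (𝒪 ⊗[ℤ] ↥(Lpar M)) (s59trbcTheta 𝒪 hS).toRingHom

theorem s59gencb_smul_def (hS : ∀ q : ℕ, q.Prime → q ∣ M → q ∈ S)
    (a : 𝒪 ⊗[ℤ] ↥(CuspForm.heckeAlgebra M 2 S)) (X : 𝒪 ⊗[ℤ] ↥(Lpar M)) :
    letI := s59gencbModule 𝒪 hS
    a • X = s59trbcTheta 𝒪 hS a X := rfl

theorem s59gencb_isScalarTower (hS : ∀ q : ℕ, q.Prime → q ∣ M → q ∈ S) :
    letI := s59gencbModule 𝒪 hS
    IsScalarTower 𝒪 (𝒪 ⊗[ℤ] ↥(CuspForm.heckeAlgebra M 2 S)) (𝒪 ⊗[ℤ] ↥(Lpar M)) := by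
  letI := s59gencbModule 𝒪 hS
  refine ⟨fun c a X => ?_⟩
  show s59trbcTheta 𝒪 hS (c • a) X = c • s59trbcTheta 𝒪 hS a X
  rw [map_smul, LinearMap.smul_apply]

/-- the ring homomorphism `ι : 𝕋 → A`, `t ↦ 1 ⊗ t` -/
def s59gencbIota (𝒪 : Type) [CommRing 𝒪] (M : ℕ) [NeZero M] (S : Set ℕ) :
    ↥(CuspForm.heckeAlgebra M 2 S) →+* 𝒪 ⊗[ℤ] ↥(CuspForm.heckeAlgebra M 2 S) :=
  (Algebra.TensorProduct.includeRight :
    ↥(CuspForm.heckeAlgebra M 2 S) →ₐ[ℤ] 𝒪 ⊗[ℤ] ↥(CuspForm.heckeAlgebra M 2 S)).toRingHom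

theorem s59gencbIota_apply (t : CuspForm.heckeAlgebra M 2 S) :
    s59gencbIota 𝒪 M S t = (1 : 𝒪) ⊗ₜ[ℤ] t := rfl

/-- **`hB`** of `s59locgen_gen_of_sep`, literal shape. -/
theorem s59gencb_hB (hS : ∀ q : ℕ, q.Prime → q ∣ M → q ∈ S) :
    letI := s59gencbModule 𝒪 hS
    ∀ (a : 𝒪 ⊗[ℤ] ↥(CuspForm.heckeAlgebra M 2 S)) (x y : 𝒪 ⊗[ℤ] ↥(Lpar M)),
      s59bcForm 𝒪 (s59bcPairZ M) (a • x) y = s59bcForm 𝒪 (s59bcPairZ M) x (a • y) :=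
  fun a x y => s59gencb_selfadj 𝒪 hS a x y

/-- **`hE`** of `s59locgen_gen_of_sep`, literal shape, for every submodule `E` which contains the
eigenvectors of the `T_ℓ` (`ℓ ∤ M`, `ℓ ∉ S`) with eigenvalues `χ (T_ℓ)`. -/
theorem s59gencb_hE (hS : ∀ q : ℕ, q.Prime → q ∣ M → q ∈ S)
    (χ : ↥(CuspForm.heckeAlgebra M 2 S) → 𝒪) (E : Submodule 𝒪 (𝒪 ⊗[ℤ] ↥(Lpar M)))
    (hEdef : ∀ y : 𝒪 ⊗[ℤ] ↥(Lpar M),
      (∀ (ℓ : ℕ) [hℓ : Fact ℓ.Prime] (hℓM : ¬ ℓ ∣ M) (hℓS : ℓ ∉ S),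
        (s59bcTcZ M ℓ hℓM).baseChange 𝒪 y = χ (CuspForm.heckeAlgebra.T hℓ.out hℓM hℓS) • y) →
      y ∈ E) :
    letI := s59gencbModule 𝒪 hS
    ∀ y : 𝒪 ⊗[ℤ] ↥(Lpar M),
      (∀ t : CuspForm.heckeAlgebra M 2 S, s59gencbIota 𝒪 M S t • y = χ t • y) → y ∈ E :=
  fun y hy => hEdef y fun ℓ _ hℓM hℓS => s59gencb_eig_T 𝒪 hS χ y hy ℓ hℓM hℓS

/-- **`hx`** of `s59locgen_gen_of_sep`, literal shape. -/
theorem s59gencb_hx (hS : ∀ q : ℕ, q.Prime → q ∣ M → q ∈ S)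
    (χ : ↥(CuspForm.heckeAlgebra M 2 S) →+* 𝒪) (x : 𝒪 ⊗[ℤ] ↥(Lpar M))
    (hx : ∀ (ℓ : ℕ) [hℓ : Fact ℓ.Prime] (hℓM : ¬ ℓ ∣ M) (hℓS : ℓ ∉ S),
      (s59bcTcZ M ℓ hℓM).baseChange 𝒪 x = χ (CuspForm.heckeAlgebra.T hℓ.out hℓM hℓS) • x) :
    letI := s59gencbModule 𝒪 hS
    ∀ t : CuspForm.heckeAlgebra M 2 S, s59gencbIota 𝒪 M S t • x = χ t • x :=
  fun t => s59gencb_eig_all 𝒪 hS χ x hx t

end module

end Fermat.Agent.S59
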