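/-
S59 Route A, ETA′ (R2), piece **E-LOC** (helper33), part 1: THE IDEMPOTENT.

`𝒪` a complete local ring (a complete DVR in the applications), `T` a commutative `𝒪`-algebra,
finite and free as an `𝒪`-module (the image of the Hecke algebra in `End (L_𝒪)`), `𝔪` a maximal
ideal of `T` (the kernel of `θ`).  Then

* `s59loc_isAdicComplete` : `T` is `𝔪_𝒪 T`-adically complete;
* `s59loc_lift_idem`      : idempotents lift along `T → T ⧸ 𝔪_𝒪 T` (Hensel for `X² − X`);
* `s59loc_le_of_isMaximal`: every maximal ideal of `T` contains `𝔪_𝒪 T`;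
* `s59loc_artinian_idem`  : in an Artinian ring, the idempotent of a maximal ideal;
* `s59loc_exists_idem`    : **`∃ e ∈ T` idempotent, `1 − e ∈ 𝔪`, `e ∈ 𝔫` for every maximal
                            `𝔫 ≠ 𝔪`**;
* `s59loc_idem_unique`    : it is unique;
* `s59loc_isUnit_of_not_mem` : `t ∉ 𝔪 ⇒ ∃ s, s * t = e` (so `e T` is local with maximal ideal
                            `e 𝔪`).
Mathlib only.
-/
import Mathlib

set_option autoImplicit false
set_option linter.unusedVariables false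
set_option linter.unusedSectionVars false
set_option linter.style.haveILetI false

noncomputable section

namespace Fermat.Agent.S59

open IsLocalRing Polynomial

/-! ### Completeness of a module with a finite basis -/

section Complete

variable {R M ι : Type*} [CommRing R] [AddCommGroup M] [Module R M]

theorem s59loc_repr_mem (b : Module.Basis ι R M) (J : Ideal R) {x : M}
    (hx : x ∈ (J • ⊤ : Submodule R M)) (i : ι) : b.repr x i ∈ J := by
  refine Submodule.smul_induction_on hx ?_ ?_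
  · intro r hr m _
    rw [map_smul, Finsupp.smul_apply, smul_eq_mul]
    exact J.mul_mem_right _ hr
  · intro x y hx hy
    rw [map_add, Finsupp.add_apply]
    exact J.add_mem hx hy

theorem s59loc_mem_smul_top_of_repr [Fintype ι] (b : Module.Basis ι R M) (J : Ideal R) {x : M}
    (hx : ∀ i, b.repr x i ∈ J) : x ∈ (J • ⊤ : Submodule R M) := by
  rw [← b.sum_repr x]
  exact Submodule.sum_mem _ fun i _ => Submodule.smul_mem_smul (hx i) Submodule.mem_top

theorem s59loc_isHausdorff_of_basis (I : Ideal R) [IsHausdorff I R] (b : Module.Basis ι R M) :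
    IsHausdorff I M := by
  refine ⟨fun x hx => ?_⟩
  apply b.repr.injective
  ext i
  rw [map_zero, Finsupp.zero_apply]
  apply IsHausdorff.haus' (I := I)
  intro n
  rw [SModEq.zero]
  have h1 := hx n
  rw [SModEq.zero] at h1
  have h2 := s59loc_repr_mem b (I ^ n) h1 i
  rw [smul_eq_mul, Ideal.mul_top]
  exact h2

theorem s59loc_isPrecomplete_of_basis [Fintype ι] (I : Ideal R) [IsPrecomplete I R]
    (b : Module.Basis ι R M) : IsPrecomplete I M := by
  refine ⟨fun f hf => ?_⟩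
  have hc : ∀ i, ∃ L : R, ∀ n, b.repr (f n) i ≡ L [SMOD (I ^ n • ⊤ : Submodule R R)] := by
    intro i
    apply IsPrecomplete.prec' (I := I)
    intro m n hmn
    rw [SModEq.sub_mem]
    have h1 := hf hmn
    rw [SModEq.sub_mem] at h1
    have h2 := s59loc_repr_mem b (I ^ m) h1 i
    rw [map_sub, Finsupp.sub_apply] at h2
    rw [smul_eq_mul, Ideal.mul_top]
    exact h2
  choose L hL using hc
  refine ⟨∑ i, L i • b i, fun n => ?_⟩
  rw [SModEq.sub_mem]
  apply s59loc_mem_smul_top_of_repr b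
  intro i
  have h3 := hL i n
  rw [SModEq.sub_mem, smul_eq_mul, Ideal.mul_top] at h3
  rw [map_sub, Finsupp.sub_apply, b.repr_sum_self]
  exact h3

theorem s59loc_isAdicComplete_of_basis [Fintype ι] (I : Ideal R) [IsAdicComplete I R]
    (b : Module.Basis ι R M) : IsAdicComplete I M :=
  { toIsHausdorff := s59loc_isHausdorff_of_basis I b
    toIsPrecomplete := s59loc_isPrecomplete_of_basis I b }

end Complete

/-! ### Lifting idempotents -/

section Lift

variable {T : Type*} [CommRing T]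

/-- **Hensel for `X² − X`**: idempotents lift modulo a Henselian ideal. -/
theorem s59loc_lift_idem_henselian (I : Ideal T) [HenselianRing T I] (a₀ : T)
    (h : a₀ * a₀ - a₀ ∈ I) : ∃ e : T, IsIdempotentElem e ∧ e - a₀ ∈ I := by
  have hmonic : (X ^ 2 - X : T[X]).Monic := by
    nontriviality T
    apply Polynomial.monic_X_pow_sub
    rw [degree_X]
    norm_num
  have hev : eval a₀ (X ^ 2 - X : T[X]) ∈ I := by
    rw [eval_sub, eval_pow, eval_X, pow_two]
    exact h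
  have hder : IsUnit (Ideal.Quotient.mk I (eval a₀ (derivative (X ^ 2 - X : T[X])))) := by
    have hd : eval a₀ (derivative (X ^ 2 - X : T[X])) = 2 * a₀ - 1 := by
      simp
      ring
    rw [hd]
    have hsq : Ideal.Quotient.mk I (2 * a₀ - 1) * Ideal.Quotient.mk I (2 * a₀ - 1) = 1 := by
      rw [← map_mul, ← map_one (Ideal.Quotient.mk I), Ideal.Quotient.eq]
      have : (2 * a₀ - 1) * (2 * a₀ - 1) - 1 = 4 * (a₀ * a₀ - a₀) := by ring
      rw [this]
      exact I.mul_mem_left _ h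
    exact IsUnit.of_mul_eq_one _ hsq
  obtain ⟨e, he, hea⟩ := HenselianRing.is_henselian (X ^ 2 - X : T[X]) hmonic a₀ hev hder
  refine ⟨e, ?_, hea⟩
  rw [IsRoot.def, eval_sub, eval_pow, eval_X, pow_two, sub_eq_zero] at he
  exact he

/-- two idempotents which are congruent modulo the Jacobson radical are equal -/
theorem s59loc_idem_eq_of_sub_mem_jacobson {e e' : T} (he : IsIdempotentElem e)
    (he' : IsIdempotentElem e') (h : e - e' ∈ (⊥ : Ideal T).jacobson) : e = e' := by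
  have he2 : e * e = e := he
  have he2' : e' * e' = e' := he'
  -- (e - e')^3 = e - e'
  have h3 : (e - e') * (1 - (e - e') * (e - e')) = 0 := by
    linear_combination (3 * e' - e - 1) * he2 + (e' + 1 - 3 * e) * he2'
  have hu : IsUnit (1 - (e - e') * (e - e')) := by
    have hmem : -((e - e') * (e - e')) ∈ (⊥ : Ideal T).jacobson :=
      Submodule.neg_mem _ (Ideal.mul_mem_left _ _ h)
    have := (Ideal.mem_jacobson_bot.mp hmem) 1
    rw [neg_mul, mul_one] at this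
    have h5 : -((e - e') * (e - e')) + 1 = 1 - (e - e') * (e - e') := by ring
    rw [h5] at this
    exact this
  have h6 : (1 - (e - e') * (e - e')) * (e - e') = 0 := by rw [mul_comm]; exact h3
  have := hu.mul_right_eq_zero.mp h6
  exact sub_eq_zero.mp this

end Lift

/-! ### Artinian rings -/

section Artinian

variable (R : Type*) [CommRing R] [IsArtinianRing R]

/-- in an Artinian ring every maximal ideal has its idempotent -/
theorem s59loc_artinian_idem (𝔪 : Ideal R) [h𝔪 : 𝔪.IsMaximal] :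
    ∃ e : R, IsIdempotentElem e ∧ 1 - e ∈ 𝔪 ∧
      ∀ 𝔫 : Ideal R, 𝔫.IsMaximal → 𝔫 ≠ 𝔪 → e ∈ 𝔫 := by
  classical
  let P : MaximalSpectrum R := ⟨𝔪, h𝔪⟩
  let δ : ∀ I : MaximalSpectrum R, R ⧸ I.asIdeal := fun I => if I = P then 1 else 0
  have hδ : IsIdempotentElem δ := by
    funext I
    show δ I * δ I = δ I
    by_cases hI : I = P
    · simp only [δ, if_pos hI, mul_one]
    · simp only [δ, if_neg hI, mul_zero]
  let E := IsArtinianRing.quotNilradicalEquivPi R
  have h0 : IsIdempotentElem (E.symm δ) := by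
    show E.symm δ * E.symm δ = E.symm δ
    rw [← map_mul, hδ.eq]
  obtain ⟨e, he, hee⟩ := exists_isIdempotentElem_eq_of_ker_isNilpotent
    (Ideal.Quotient.mk (nilradical R))
    (fun x hx => by
      rw [Ideal.mk_ker] at hx
      exact (mem_nilradical).mp hx)
    (E.symm δ) (by
      obtain ⟨x, hx⟩ := Ideal.Quotient.mk_surjective (I := nilradical R) (E.symm δ)
      exact ⟨x, hx⟩) h0
  have hval : ∀ I : MaximalSpectrum R, Ideal.Quotient.mk I.asIdeal e = δ I := by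
    intro I
    have h1 : E (Ideal.Quotient.mk (nilradical R) e) = δ := by rw [hee, AlgEquiv.apply_symm_apply]
    have h2 := congrFun h1 I
    rw [← h2]
    rfl
  refine ⟨e, he, ?_, ?_⟩
  · have h1 := hval P
    simp only [δ, if_true] at h1
    rw [← Ideal.Quotient.eq_zero_iff_mem, map_sub, map_one]
    show (1 : R ⧸ P.asIdeal) - Ideal.Quotient.mk P.asIdeal e = 0
    rw [h1, sub_self]
  · intro 𝔫 h𝔫 hne
    have h1 := hval ⟨𝔫, h𝔫⟩
    have hne' : (⟨𝔫, h𝔫⟩ : MaximalSpectrum R) ≠ P := by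
      intro h
      exact hne (congrArg MaximalSpectrum.asIdeal h)
    simp only [δ, if_neg hne'] at h1
    exact Ideal.Quotient.eq_zero_iff_mem.mp h1

end Artinian

/-! ### Finite algebras over a complete local ring -/

section Idem

variable (𝒪 T : Type*) [CommRing 𝒪] [IsLocalRing 𝒪] [CommRing T] [Algebra 𝒪 T]

/-- `T` is `𝔪_𝒪 T`-adically complete -/
theorem s59loc_isAdicComplete [IsAdicComplete (maximalIdeal 𝒪) 𝒪] [Module.Finite 𝒪 T]
    [Module.Free 𝒪 T] : IsAdicComplete ((maximalIdeal 𝒪).map (algebraMap 𝒪 T)) T := by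
  rw [IsAdicComplete.map_algebraMap_iff]
  exact s59loc_isAdicComplete_of_basis _ (Module.Free.chooseBasis 𝒪 T)

/-- idempotents lift along `T → T ⧸ 𝔪_𝒪 T` -/
theorem s59loc_lift_idem [IsAdicComplete (maximalIdeal 𝒪) 𝒪] [Module.Finite 𝒪 T]
    [Module.Free 𝒪 T] (a₀ : T) (h : a₀ * a₀ - a₀ ∈ (maximalIdeal 𝒪).map (algebraMap 𝒪 T)) :
    ∃ e : T, IsIdempotentElem e ∧ e - a₀ ∈ (maximalIdeal 𝒪).map (algebraMap 𝒪 T) := by
  haveI := s59loc_isAdicComplete 𝒪 T
  haveI : HenselianRing T ((maximalIdeal 𝒪).map (algebraMap 𝒪 T)) :=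
    IsAdicComplete.henselianRing T _
  exact s59loc_lift_idem_henselian _ a₀ h

variable {T}

/-- every maximal ideal of `T` contains `𝔪_𝒪 T` -/
theorem s59loc_le_of_isMaximal [Algebra.IsIntegral 𝒪 T] (𝔫 : Ideal T) [h𝔫 : 𝔫.IsMaximal] :
    (maximalIdeal 𝒪).map (algebraMap 𝒪 T) ≤ 𝔫 := by
  rw [Ideal.map_le_iff_le_comap]
  have := Ideal.isMaximal_comap_of_isIntegral_of_isMaximal (R := 𝒪) 𝔫
  exact (IsLocalRing.eq_maximalIdeal this).ge

variable (T)

theorem s59loc_isArtinianRing_quot [Module.Finite 𝒪 T] :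
    IsArtinianRing (T ⧸ (maximalIdeal 𝒪).map (algebraMap 𝒪 T)) := by
  letI : Field (𝒪 ⧸ maximalIdeal 𝒪) := Ideal.Quotient.field _
  haveI : Module.Finite (𝒪 ⧸ maximalIdeal 𝒪) (T ⧸ (maximalIdeal 𝒪).map (algebraMap 𝒪 T)) :=
    Module.Finite.of_restrictScalars_finite 𝒪 _ _
  exact IsArtinianRing.of_finite (𝒪 ⧸ maximalIdeal 𝒪) _

variable {T}

/-- **E-LOC, the idempotent**: `e_θ ∈ T` with `e_θ ≡ 1 mod 𝔪` and `e_θ ≡ 0` modulo every other
maximal ideal. -/
theorem s59loc_exists_idem [IsAdicComplete (maximalIdeal 𝒪) 𝒪] [Module.Finite 𝒪 T]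
    [Module.Free 𝒪 T] (𝔪 : Ideal T) [h𝔪 : 𝔪.IsMaximal] :
    ∃ e : T, IsIdempotentElem e ∧ 1 - e ∈ 𝔪 ∧
      ∀ 𝔫 : Ideal T, 𝔫.IsMaximal → 𝔫 ≠ 𝔪 → e ∈ 𝔫 := by
  haveI : Algebra.IsIntegral 𝒪 T := Algebra.IsIntegral.of_finite 𝒪 T
  set I : Ideal T := (maximalIdeal 𝒪).map (algebraMap 𝒪 T) with hI
  haveI := s59loc_isArtinianRing_quot 𝒪 T
  have hsurj : Function.Surjective (Ideal.Quotient.mk I) := Ideal.Quotient.mk_surjective
  have hker : RingHom.ker (Ideal.Quotient.mk I) = I := Ideal.mk_ker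
  -- comap of the image of a maximal ideal
  have hcm : ∀ 𝔫 : Ideal T, 𝔫.IsMaximal →
      Ideal.comap (Ideal.Quotient.mk I) (Ideal.map (Ideal.Quotient.mk I) 𝔫) = 𝔫 := by
    intro 𝔫 h𝔫
    rw [Ideal.comap_map_of_surjective' _ hsurj, hker]
    haveI := h𝔫
    exact sup_eq_left.mpr (s59loc_le_of_isMaximal 𝒪 𝔫)
  have hmax : ∀ 𝔫 : Ideal T, 𝔫.IsMaximal → (Ideal.map (Ideal.Quotient.mk I) 𝔫).IsMaximal := by
    intro 𝔫 h𝔫
    haveI := h𝔫
    exact Ideal.IsMaximal.map_of_surjective_of_ker_le hsurj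
      (by rw [hker]; exact s59loc_le_of_isMaximal 𝒪 𝔫)
  haveI := hmax 𝔪 h𝔪
  obtain ⟨ē, hē, h1, h2⟩ := s59loc_artinian_idem (T ⧸ I) (Ideal.map (Ideal.Quotient.mk I) 𝔪)
  obtain ⟨a₀, rfl⟩ := hsurj ē
  have ha₀ : a₀ * a₀ - a₀ ∈ I := by
    rw [← Ideal.Quotient.eq_zero_iff_mem, map_sub, map_mul, hē.eq, sub_self]
  obtain ⟨e, he, hea⟩ := s59loc_lift_idem 𝒪 T a₀ ha₀
  have hmk : Ideal.Quotient.mk I e = Ideal.Quotient.mk I a₀ := Ideal.Quotient.eq.mpr hea
  refine ⟨e, he, ?_, ?_⟩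
  · rw [← hcm 𝔪 h𝔪, Ideal.mem_comap, map_sub, map_one, hmk]
    exact h1
  · intro 𝔫 h𝔫 hne
    rw [← hcm 𝔫 h𝔫, Ideal.mem_comap, hmk]
    apply h2 _ (hmax 𝔫 h𝔫)
    intro h
    apply hne
    rw [← hcm 𝔫 h𝔫, h, hcm 𝔪 h𝔪]

omit [IsLocalRing 𝒪] [Algebra 𝒪 T] in
/-- the idempotent of `𝔪` is unique -/
theorem s59loc_idem_unique (𝔪 : Ideal T) {e e' : T} (he : IsIdempotentElem e)
    (he' : IsIdempotentElem e') (h1 : 1 - e ∈ 𝔪) (h1' : 1 - e' ∈ 𝔪)
    (h2 : ∀ 𝔫 : Ideal T, 𝔫.IsMaximal → 𝔫 ≠ 𝔪 → e ∈ 𝔫)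
    (h2' : ∀ 𝔫 : Ideal T, 𝔫.IsMaximal → 𝔫 ≠ 𝔪 → e' ∈ 𝔫) : e = e' := by
  apply s59loc_idem_eq_of_sub_mem_jacobson he he'
  rw [Ideal.jacobson, Ideal.mem_sInf]
  intro 𝔫 h𝔫
  obtain ⟨-, h𝔫max⟩ := h𝔫
  by_cases hne : 𝔫 = 𝔪
  · subst hne
    have : e - e' = (1 - e') - (1 - e) := by ring
    rw [this]
    exact 𝔫.sub_mem h1' h1
  · exact 𝔫.sub_mem (h2 𝔫 h𝔫max hne) (h2' 𝔫 h𝔫max hne)

omit [IsLocalRing 𝒪] [Algebra 𝒪 T] in
/-- **locality of `e T`**: an element outside `𝔪` is invertible in `e T`. -/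
theorem s59loc_exists_inv (𝔪 : Ideal T) [h𝔪 : 𝔪.IsMaximal] {e : T} (he : IsIdempotentElem e)
    (h1 : 1 - e ∈ 𝔪) (h2 : ∀ 𝔫 : Ideal T, 𝔫.IsMaximal → 𝔫 ≠ 𝔪 → e ∈ 𝔫) {t : T} (ht : t ∉ 𝔪) :
    ∃ s : T, s * t = e := by
  -- `t e + (1 − e)` lies in no maximal ideal
  have hu : IsUnit (t * e + (1 - e)) := by
    by_contra hnu
    obtain ⟨𝔫, h𝔫, hmem⟩ := exists_max_ideal_of_mem_nonunits hnu
    by_cases hne : 𝔫 = 𝔪
    · subst hne
      have hte : t * e ∈ 𝔫 := by
        have := 𝔫.sub_mem hmem h1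
        rwa [add_sub_cancel_right] at this
      have ht' : t ∈ 𝔫 := by
        have h3 : t = t * e + t * (1 - e) := by ring
        rw [h3]
        exact 𝔫.add_mem hte (𝔫.mul_mem_left _ h1)
      exact ht ht'
    · have he𝔫 := h2 𝔫 h𝔫 hne
      have h3 : (1 : T) ∈ 𝔫 := by
        have h4 : (1 : T) = (t * e + (1 - e)) - t * e + e := by ring
        rw [h4]
        exact 𝔫.add_mem (𝔫.sub_mem hmem (𝔫.mul_mem_left _ he𝔫)) he𝔫
      exact h𝔫.ne_top ((Ideal.eq_top_iff_one _).mpr h3)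
  obtain ⟨u, hu'⟩ := hu
  refine ⟨↑u⁻¹ * e, ?_⟩
  have h5 : (↑u⁻¹ : T) * (t * e + (1 - e)) = 1 := by rw [← hu']; exact u.inv_mul
  have h6 : (t * e + (1 - e)) * e = t * e := by
    have : (t * e + (1 - e)) * e = t * (e * e) + (e - e * e) := by ring
    rw [this, he.eq, sub_self, add_zero]
  calc ↑u⁻¹ * e * t = ↑u⁻¹ * (t * e) := by ring
    _ = ↑u⁻¹ * ((t * e + (1 - e)) * e) := by rw [h6]
    _ = (↑u⁻¹ * (t * e + (1 - e))) * e := by ring
    _ = e := by rw [h5, one_mul]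

end Idem

end Fermat.Agent.S59
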