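/-
S59 Route A, ETA′ (R2), piece **E-LOC** (helper33), part 2: THE `θ`-PART OF A LATTICE.

`𝒪` a commutative ring, `T` a commutative `𝒪`-algebra acting on an `𝒪`-module `L`
(`IsScalarTower 𝒪 T L`), `e ∈ T` an idempotent (`e = e_θ` of `S59/Eta/LocIdem.lean`).

* `s59locL L e : Submodule 𝒪 L` — the `θ`-part `e L = {y | e • y = y}`; `s59locLT` the same as a
  `T`-submodule; `s59locProj L e : L →ₗ[𝒪] s59locL L e` the projection;
* `s59loc_isCompl` : `L = e L ⊕ (1 − e) L`;
* `s59loc_finite`, `s59loc_free` (`𝒪` local) : `e L` is finite free when `L` is;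
* `s59locB B e` : the restriction of a bilinear form; `s59loc_partner` (right-perfectness
  descends to `e L` when `T` is self-adjoint), `s59loc_nondeg`, `s59loc_nondeg_right`;
* `s59loc_faithful` : if `T` acts faithfully on `L`, then `t` kills `e L` iff `e * t = 0`;
* `s59loc_point_eq_one_iff` : for `ψ : T →ₐ[𝒪] 𝒪`, `𝒪` local, `e` the idempotent of `𝔪`:
  `ψ e = 1 ↔ ψ` maps `𝔪` into the maximal ideal (`ψ` lifts `θ`); otherwise `ψ e = 0`;
* `s59loc_eig_le` : an eigenvector of a system `ψ` with `ψ e = 1` lies in `e L`;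
* `s59loc_nilpotent` : `T` reduced ⇒ `e T` reduced.
Mathlib only.
-/
import Mathlib

set_option autoImplicit false
set_option linter.unusedVariables false
set_option linter.unusedSectionVars false
set_option linter.style.haveILetI false

noncomputable section

namespace Fermat.Agent.S59

open IsLocalRing

section Part

variable {𝒪 T : Type*} [CommRing 𝒪] [CommRing T] [Algebra 𝒪 T]
  (L : Type*) [AddCommGroup L] [Module 𝒪 L] [Module T L] [IsScalarTower 𝒪 T L]

/-- the `θ`-part `e L` of `L`, as an `𝒪`-submodule -/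
def s59locL (e : T) : Submodule 𝒪 L where
  carrier := {y | e • y = y}
  zero_mem' := smul_zero e
  add_mem' := fun {y z} hy hz => by
    show e • (y + z) = y + z
    rw [smul_add, hy, hz]
  smul_mem' := fun c y hy => by
    show e • c • y = c • y
    rw [smul_comm, hy]

/-- the `θ`-part `e L` of `L`, as a `T`-submodule -/
def s59locLT (e : T) : Submodule T L where
  carrier := {y | e • y = y}
  zero_mem' := smul_zero e
  add_mem' := fun {y z} hy hz => by
    show e • (y + z) = y + z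
    rw [smul_add, hy, hz]
  smul_mem' := fun c y hy => by
    show e • c • y = c • y
    rw [smul_comm, hy]

variable {L}

theorem s59loc_mem {e : T} {y : L} : y ∈ s59locL (𝒪 := 𝒪) L e ↔ e • y = y := Iff.rfl

theorem s59loc_memT {e : T} {y : L} : y ∈ s59locLT L e ↔ e • y = y := Iff.rfl

theorem s59loc_smul_mem {e : T} (he : IsIdempotentElem e) (y : L) :
    e • y ∈ s59locL (𝒪 := 𝒪) L e := by
  show e • e • y = e • y
  rw [smul_smul, he.eq]

/-- `e L` is stable under `T` -/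
theorem s59loc_stable {e : T} (t : T) {y : L} (hy : y ∈ s59locL (𝒪 := 𝒪) L e) :
    t • y ∈ s59locL (𝒪 := 𝒪) L e := by
  show e • t • y = t • y
  rw [smul_comm, s59loc_mem.mp hy]

variable (L)

/-- the projection `L → e L`, `y ↦ e • y` -/
def s59locProj {e : T} (he : IsIdempotentElem e) : L →ₗ[𝒪] s59locL (𝒪 := 𝒪) L e where
  toFun y := ⟨e • y, s59loc_smul_mem he y⟩
  map_add' y z := Subtype.ext (smul_add e y z)
  map_smul' c y := Subtype.ext (smul_comm e c y)

variable {L}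

@[simp] theorem s59locProj_coe {e : T} (he : IsIdempotentElem e) (y : L) :
    ((s59locProj (𝒪 := 𝒪) L he y : s59locL (𝒪 := 𝒪) L e) : L) = e • y := rfl

theorem s59locProj_of_mem {e : T} (he : IsIdempotentElem e) (y : s59locL (𝒪 := 𝒪) L e) :
    s59locProj (𝒪 := 𝒪) L he (y : L) = y :=
  Subtype.ext (s59loc_mem.mp y.2)

theorem s59locProj_surjective {e : T} (he : IsIdempotentElem e) :
    Function.Surjective (s59locProj (𝒪 := 𝒪) L he) :=
  fun y => ⟨(y : L), s59locProj_of_mem he y⟩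

theorem s59locProj_comp_subtype {e : T} (he : IsIdempotentElem e) :
    (s59locProj (𝒪 := 𝒪) L he).comp (s59locL (𝒪 := 𝒪) L e).subtype = LinearMap.id :=
  LinearMap.ext fun y => s59locProj_of_mem he y

/-- `L = e L ⊕ (1 − e) L` -/
theorem s59loc_isCompl {e : T} (he : IsIdempotentElem e) :
    IsCompl (s59locL (𝒪 := 𝒪) L e) (s59locL (𝒪 := 𝒪) L (1 - e)) := by
  constructor
  · rw [Submodule.disjoint_def]
    intro y hy hy'
    have h1 : e • y = y := hy
    have h2 : (1 - e) • y = y := hy'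
    rw [sub_smul, one_smul, h1, sub_self] at h2
    exact h2.symm
  · rw [codisjoint_iff, eq_top_iff]
    intro y _
    have hy : y = e • y + (1 - e) • y := by
      rw [sub_smul, one_smul, add_sub_cancel]
    rw [hy]
    exact Submodule.add_mem_sup (s59loc_smul_mem he y) (s59loc_smul_mem he.one_sub y)

/-- `e L` is finite over `𝒪` when `L` is -/
theorem s59loc_finite [Module.Finite 𝒪 L] {e : T} (he : IsIdempotentElem e) :
    Module.Finite 𝒪 (s59locL (𝒪 := 𝒪) L e) :=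
  Module.Finite.of_surjective (s59locProj (𝒪 := 𝒪) L he) (s59locProj_surjective he)

/-- `e L` is projective over `𝒪` when `L` is -/
theorem s59loc_projective [Module.Projective 𝒪 L] {e : T} (he : IsIdempotentElem e) :
    Module.Projective 𝒪 (s59locL (𝒪 := 𝒪) L e) :=
  Module.Projective.of_split (s59locL (𝒪 := 𝒪) L e).subtype (s59locProj (𝒪 := 𝒪) L he)
    (s59locProj_comp_subtype he)

/-- `e L` is free over the local ring `𝒪` when `L` is finite free -/
theorem s59loc_free [IsLocalRing 𝒪] [Module.Finite 𝒪 L] [Module.Free 𝒪 L] {e : T}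
    (he : IsIdempotentElem e) : Module.Free 𝒪 (s59locL (𝒪 := 𝒪) L e) := by
  haveI := s59loc_finite (𝒪 := 𝒪) (L := L) he
  haveI := s59loc_projective (𝒪 := 𝒪) (L := L) he
  exact Module.free_of_flat_of_isLocalRing

end Part

/-! ### Bilinear forms -/

section Form

variable {𝒪 T : Type*} [CommRing 𝒪] [CommRing T] [Algebra 𝒪 T]
  {L : Type*} [AddCommGroup L] [Module 𝒪 L] [Module T L] [IsScalarTower 𝒪 T L]
  (B : L →ₗ[𝒪] L →ₗ[𝒪] 𝒪)

/-- the restriction of `B` to `e L` -/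
def s59locB (e : T) : s59locL (𝒪 := 𝒪) L e →ₗ[𝒪] s59locL (𝒪 := 𝒪) L e →ₗ[𝒪] 𝒪 :=
  (B.comp (s59locL (𝒪 := 𝒪) L e).subtype).compl₂ (s59locL (𝒪 := 𝒪) L e).subtype

@[simp] theorem s59locB_apply (e : T) (x y : s59locL (𝒪 := 𝒪) L e) :
    s59locB B e x y = B (x : L) (y : L) := rfl

variable {B}

/-- `e L` and `(1 − e) L` are orthogonal -/
theorem s59loc_orth (hB : ∀ (t : T) (x y : L), B (t • x) y = B x (t • y)) {e : T}
    (he : IsIdempotentElem e) {x y : L} (hx : x ∈ s59locL (𝒪 := 𝒪) L e)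
    (hy : y ∈ s59locL (𝒪 := 𝒪) L (1 - e)) : B x y = 0 := by
  have h1 : e • x = x := hx
  have h2 : (1 - e) • y = y := hy
  have h3 : e • y = 0 := by
    rw [sub_smul, one_smul] at h2
    have : y - e • y = y := h2
    rw [sub_eq_self] at this
    exact this
  rw [← h1, hB, h3, map_zero]

/-- **right-perfectness descends to `e L`**: every functional on `e L` is `B(·, z)`, `z ∈ e L`. -/
theorem s59loc_partner (hB : ∀ (t : T) (x y : L), B (t • x) y = B x (t • y)) {e : T}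
    (he : IsIdempotentElem e)
    (hperf : ∀ φ : L →ₗ[𝒪] 𝒪, ∃ z : L, ∀ x : L, B x z = φ x)
    (φ : s59locL (𝒪 := 𝒪) L e →ₗ[𝒪] 𝒪) :
    ∃ z : s59locL (𝒪 := 𝒪) L e, ∀ x : s59locL (𝒪 := 𝒪) L e, s59locB B e x z = φ x := by
  obtain ⟨z, hz⟩ := hperf (φ.comp (s59locProj (𝒪 := 𝒪) L he))
  refine ⟨⟨e • z, s59loc_smul_mem he z⟩, fun x => ?_⟩
  rw [s59locB_apply]
  show B (x : L) (e • z) = φ x
  rw [← hB, s59loc_mem.mp x.2, hz]
  show φ (s59locProj (𝒪 := 𝒪) L he (x : L)) = φ x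
  rw [s59locProj_of_mem]

/-- **left-perfectness descends to `e L`** -/
theorem s59loc_partner_left (hB : ∀ (t : T) (x y : L), B (t • x) y = B x (t • y)) {e : T}
    (he : IsIdempotentElem e)
    (hperf : ∀ φ : L →ₗ[𝒪] 𝒪, ∃ z : L, ∀ x : L, B z x = φ x)
    (φ : s59locL (𝒪 := 𝒪) L e →ₗ[𝒪] 𝒪) :
    ∃ z : s59locL (𝒪 := 𝒪) L e, ∀ x : s59locL (𝒪 := 𝒪) L e, s59locB B e z x = φ x := by
  obtain ⟨z, hz⟩ := hperf (φ.comp (s59locProj (𝒪 := 𝒪) L he))
  refine ⟨⟨e • z, s59loc_smul_mem he z⟩, fun x => ?_⟩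
  rw [s59locB_apply]
  show B (e • z) (x : L) = φ x
  rw [hB, s59loc_mem.mp x.2, hz]
  show φ (s59locProj (𝒪 := 𝒪) L he (x : L)) = φ x
  rw [s59locProj_of_mem]

/-- non-degeneracy (left kernel) descends to `e L` -/
theorem s59loc_nondeg (hB : ∀ (t : T) (x y : L), B (t • x) y = B x (t • y)) {e : T}
    (he : IsIdempotentElem e) (hnd : ∀ x : L, (∀ y : L, B x y = 0) → x = 0)
    (x : s59locL (𝒪 := 𝒪) L e) (hx : ∀ y : s59locL (𝒪 := 𝒪) L e, s59locB B e x y = 0) :
    x = 0 := by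
  apply Subtype.ext
  apply hnd
  intro y
  have h1 := hx ⟨e • y, s59loc_smul_mem he y⟩
  rw [s59locB_apply] at h1
  have h2 : B (x : L) (e • y) = B (x : L) y := by
    rw [← hB, s59loc_mem.mp x.2]
  rw [← h2]
  exact h1

/-- non-degeneracy (right kernel) descends to `e L` -/
theorem s59loc_nondeg_right (hB : ∀ (t : T) (x y : L), B (t • x) y = B x (t • y)) {e : T}
    (he : IsIdempotentElem e) (hnd : ∀ y : L, (∀ x : L, B x y = 0) → y = 0)
    (y : s59locL (𝒪 := 𝒪) L e) (hy : ∀ x : s59locL (𝒪 := 𝒪) L e, s59locB B e x y = 0) :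
    y = 0 := by
  apply Subtype.ext
  apply hnd
  intro x
  have h1 := hy ⟨e • x, s59loc_smul_mem he x⟩
  rw [s59locB_apply] at h1
  have h2 : B (e • x) (y : L) = B x (y : L) := by
    rw [hB, s59loc_mem.mp y.2]
  rw [← h2]
  exact h1

/-- `T` stays self-adjoint on `e L` -/
theorem s59loc_selfAdjoint (hB : ∀ (t : T) (x y : L), B (t • x) y = B x (t • y)) {e : T}
    (t : T) (x y : s59locL (𝒪 := 𝒪) L e) :
    B (t • (x : L)) (y : L) = B (x : L) (t • (y : L)) := hB t x y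

end Form

/-! ### The ring `e T` -/

section Ring

variable {𝒪 T : Type*} [CommRing 𝒪] [CommRing T] [Algebra 𝒪 T]
  {L : Type*} [AddCommGroup L] [Module 𝒪 L] [Module T L] [IsScalarTower 𝒪 T L]

/-- **faithfulness**: if `T` acts faithfully on `L` then `t` kills `e L` iff `e * t = 0`. -/
theorem s59loc_faithful (hf : ∀ t : T, (∀ y : L, t • y = 0) → t = 0) {e : T}
    (he : IsIdempotentElem e) (t : T) :
    (∀ y ∈ s59locL (𝒪 := 𝒪) L e, t • y = 0) ↔ e * t = 0 := by
  constructor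
  · intro h
    apply hf
    intro y
    rw [mul_comm, ← smul_smul]
    exact h _ (s59loc_smul_mem he y)
  · intro h y hy
    rw [← s59loc_mem.mp hy, smul_smul, mul_comm, h, zero_smul]

omit [Algebra 𝒪 T] in
/-- `T` reduced ⇒ `e T` reduced -/
theorem s59loc_nilpotent [IsReduced T] {e t : T} (h : IsNilpotent (e * t)) : e * t = 0 :=
  h.eq_zero

/-- an `𝒪`-point of `T` takes the value `0` or `1` at an idempotent (`𝒪` local) -/
theorem s59loc_point_idem [IsLocalRing 𝒪] (ψ : T →ₐ[𝒪] 𝒪) {e : T} (he : IsIdempotentElem e) :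
    ψ e = 1 ∨ ψ e = 0 := by
  have h1 : IsIdempotentElem (ψ e) := by
    show ψ e * ψ e = ψ e
    rw [← map_mul, he.eq]
  rcases IsLocalRing.isUnit_or_isUnit_one_sub_self (ψ e) with h | h
  · left
    have h2 : ψ e * (ψ e - 1) = 0 := by rw [mul_sub, h1.eq, mul_one, sub_self]
    have := h.mul_right_eq_zero.mp h2
    exact sub_eq_zero.mp this
  · right
    have h2 : (1 - ψ e) * ψ e = 0 := by rw [sub_mul, one_mul, h1.eq, sub_self]
    exact h.mul_right_eq_zero.mp h2

/-- **the `𝒪`-points of `e T`**: for the idempotent `e` of the maximal ideal `𝔪`, an `𝒪`-point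
`ψ` of `T` has `ψ e = 1` iff it maps `𝔪` into the maximal ideal of `𝒪` (`ψ` lifts `θ`). -/
theorem s59loc_point_eq_one_iff [IsLocalRing 𝒪] (ψ : T →ₐ[𝒪] 𝒪) (𝔪 : Ideal T)
    [h𝔪 : 𝔪.IsMaximal] {e : T} (he : IsIdempotentElem e) (h1 : 1 - e ∈ 𝔪)
    (h2 : ∀ 𝔫 : Ideal T, 𝔫.IsMaximal → 𝔫 ≠ 𝔪 → e ∈ 𝔫) :
    ψ e = 1 ↔ ∀ t ∈ 𝔪, ψ t ∈ maximalIdeal 𝒪 := by
  -- the kernel of `T → 𝒪 → k` is a maximal ideal
  have hmax : (Ideal.comap (ψ : T →+* 𝒪) (maximalIdeal 𝒪)).IsMaximal := by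
    have hsurj : Function.Surjective (ψ : T →+* 𝒪) := fun c => ⟨algebraMap 𝒪 T c, by
      show ψ (algebraMap 𝒪 T c) = c
      rw [AlgHom.commutes]
      rfl⟩
    exact Ideal.comap_isMaximal_of_surjective _ hsurj
  constructor
  · intro h t ht
    by_contra hnot
    -- `comap ≠ 𝔪`, so `e ∈ comap`, contradiction with `ψ e = 1`
    have hne : Ideal.comap (ψ : T →+* 𝒪) (maximalIdeal 𝒪) ≠ 𝔪 := by
      intro heq
      apply hnot
      have : t ∈ Ideal.comap (ψ : T →+* 𝒪) (maximalIdeal 𝒪) := heq ▸ ht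
      exact this
    have hmem := h2 _ hmax hne
    rw [Ideal.mem_comap] at hmem
    have h3 : ψ e ∈ maximalIdeal 𝒪 := hmem
    rw [h] at h3
    exact (maximalIdeal 𝒪).ne_top_iff_one.mp (IsLocalRing.maximalIdeal.isMaximal 𝒪).ne_top h3
  · intro h
    rcases s59loc_point_idem ψ he with h3 | h3
    · exact h3
    · exfalso
      have h4 := h _ h1
      rw [map_sub, map_one, h3, sub_zero] at h4
      exact (maximalIdeal 𝒪).ne_top_iff_one.mp (IsLocalRing.maximalIdeal.isMaximal 𝒪).ne_top h4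

/-- an eigenvector of a system `ψ` with `ψ e = 1` lies in `e L` -/
theorem s59loc_eig_le (ψ : T →ₐ[𝒪] 𝒪) {e : T} (hψ : ψ e = 1) {y : L}
    (hy : ∀ t : T, t • y = ψ t • y) : y ∈ s59locL (𝒪 := 𝒪) L e := by
  show e • y = y
  rw [hy e, hψ, one_smul]

/-- an eigenvector of a system `ψ` with `ψ e = 0` lies in `(1 − e) L` -/
theorem s59loc_eig_le' (ψ : T →ₐ[𝒪] 𝒪) {e : T} (hψ : ψ e = 0) {y : L}
    (hy : ∀ t : T, t • y = ψ t • y) : y ∈ s59locL (𝒪 := 𝒪) L (1 - e) := by
  show (1 - e) • y = y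
  rw [hy (1 - e), map_sub, map_one, hψ, sub_zero, one_smul]

end Ring

end Fermat.Agent.S59
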