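/-
S59 Route A, ETA′ (R2), piece **E-LOC** (helper33), part 3: THE RING `T_θ`.

`e ∈ T` an idempotent of the commutative `𝒪`-algebra `T`.

* `s59locT e := T ⧸ (1 − e)` (`≅ e T`), a commutative `𝒪`-algebra, `s59locMk e : T →ₐ[𝒪] T_θ`;
  `s59locMk_eq_zero_iff` (`t ↦ 0 ⇔ e t = 0`), `s59locMk_idem` (`e ↦ 1`);
* `s59locSec e : T_θ →ₗ[𝒪] T` (`t̄ ↦ e t`), a section of `s59locMk`; `s59locT_finite`,
  `s59locT_projective`, `s59locT_free` (`𝒪` local);
* `s59locT_isLocalRing` (for the idempotent of a maximal ideal `𝔪`), `s59locT_isReduced`;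
* the action on the `θ`-part: instances `Module T (e L)`, `Module T_θ (e L)`,
  `s59locT_smul` (`t̄ • y = t • y`), `s59locT_faithful`, `s59locT_selfAdjoint`;
* `𝒪`-points: `s59locPoint ψ hψ : T_θ →ₐ[𝒪] 𝒪` for `ψ e = 1`, `s59locPoint_comp`,
  `s59loc_point_of` (every point of `T_θ` comes from a `ψ` with `ψ e = 1`),
  `s59locT_eig_iff` (eigenvectors for `T_θ` in `e L` = eigenvectors for `T`),
  `s59locT_sep` (`T_θ` embeds in the product of its `𝒪`-points if `T` does).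
-/
import Mathlib
import Fermat.Agent.S59.Eta.LocIdem
import Fermat.Agent.S59.Eta.LocMod

set_option autoImplicit false
set_option linter.unusedVariables false
set_option linter.unusedSectionVars false
set_option linter.style.haveILetI false

noncomputable section

namespace Fermat.Agent.S59

open IsLocalRing

section RingR

variable {T : Type*} [CommRing T]

/-- `T_θ = T ⧸ (1 − e)` -/
def s59locT (e : T) : Type _ := T ⧸ Ideal.span {1 - e}

instance s59locT_commRing (e : T) : CommRing (s59locT e) :=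
  inferInstanceAs (CommRing (T ⧸ Ideal.span {1 - e}))

instance s59locT_algebraT (e : T) : Algebra T (s59locT e) :=
  inferInstanceAs (Algebra T (T ⧸ Ideal.span {1 - e}))

/-- `T → T_θ`, as a ring homomorphism -/
def s59locMkR (e : T) : T →+* s59locT e := Ideal.Quotient.mk (Ideal.span {1 - e})

theorem s59locMkR_surjective (e : T) : Function.Surjective (s59locMkR e) :=
  Ideal.Quotient.mk_surjective

theorem s59locMkR_eq_zero_iff {e : T} (he : IsIdempotentElem e) (t : T) :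
    s59locMkR e t = 0 ↔ e * t = 0 := by
  have h0 : s59locMkR e t = 0 ↔ t ∈ Ideal.span {1 - e} := Ideal.Quotient.eq_zero_iff_mem
  rw [h0, Ideal.mem_span_singleton']
  constructor
  · rintro ⟨a, rfl⟩
    have : e * (a * (1 - e)) = a * (e - e * e) := by ring
    rw [this, he.eq, sub_self, mul_zero]
  · intro h
    refine ⟨t, ?_⟩
    rw [mul_sub, mul_one, mul_comm t e, h, sub_zero]

theorem s59locMkR_eq_iff {e : T} (he : IsIdempotentElem e) (s t : T) :
    s59locMkR e s = s59locMkR e t ↔ e * s = e * t := by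
  rw [← sub_eq_zero, ← map_sub, s59locMkR_eq_zero_iff he, mul_sub, sub_eq_zero]

theorem s59locMkR_idem (e : T) : s59locMkR e e = 1 := by
  have h0 : s59locMkR e (1 - e) = 0 :=
    Ideal.Quotient.eq_zero_iff_mem.mpr (Ideal.subset_span rfl)
  rw [map_sub, map_one, sub_eq_zero] at h0
  exact h0.symm

theorem s59locMkR_mul_idem (e t : T) : s59locMkR e (e * t) = s59locMkR e t := by
  rw [map_mul, s59locMkR_idem, one_mul]

theorem s59locT_isNoetherianRing [IsNoetherianRing T] (e : T) : IsNoetherianRing (s59locT e) :=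
  inferInstanceAs (IsNoetherianRing (T ⧸ Ideal.span {1 - e}))

/-- `T_θ` is reduced when `T` is -/
theorem s59locT_isReduced [IsReduced T] {e : T} (he : IsIdempotentElem e) :
    IsReduced (s59locT e) := by
  constructor
  intro a ha
  obtain ⟨t, rfl⟩ := s59locMkR_surjective e a
  obtain ⟨n, hn⟩ := ha
  rw [← map_pow, s59locMkR_eq_zero_iff he] at hn
  rw [s59locMkR_eq_zero_iff he]
  have h1 : (e * t) ^ (n + 1) = 0 := by
    have h2 : (e * t) ^ (n + 1) = e ^ n * t * (e * t ^ n) := by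
      rw [mul_pow, pow_succ t n, pow_succ e n]
      ring
    rw [h2, hn, mul_zero]
  exact (IsNilpotent.eq_zero ⟨n + 1, h1⟩)

/-- **`T_θ` is local** for the idempotent of a maximal ideal -/
theorem s59locT_isLocalRing (𝔪 : Ideal T) [h𝔪 : 𝔪.IsMaximal] {e : T} (he : IsIdempotentElem e)
    (h1 : 1 - e ∈ 𝔪) (h2 : ∀ 𝔫 : Ideal T, 𝔫.IsMaximal → 𝔫 ≠ 𝔪 → e ∈ 𝔫) :
    IsLocalRing (s59locT e) := by
  have he𝔪 : e ∉ 𝔪 := by
    intro h
    have : (1 : T) ∈ 𝔪 := by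
      have h3 : (1 : T) = (1 - e) + e := by ring
      rw [h3]
      exact 𝔪.add_mem h1 h
    exact h𝔪.ne_top ((Ideal.eq_top_iff_one _).mpr this)
  haveI : Nontrivial (s59locT e) := by
    refine ⟨⟨0, 1, ?_⟩⟩
    intro h01
    have h3 : s59locMkR e (1 : T) = 0 := by rw [map_one]; exact h01.symm
    rw [s59locMkR_eq_zero_iff he, mul_one] at h3
    rw [h3] at he𝔪
    exact he𝔪 𝔪.zero_mem
  apply IsLocalRing.of_isUnit_or_isUnit_one_sub_self
  intro a
  obtain ⟨t, rfl⟩ := s59locMkR_surjective e a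
  have key : ∀ t : T, t ∉ 𝔪 → IsUnit (s59locMkR e t) := by
    intro t ht
    obtain ⟨s, hs⟩ := s59loc_exists_inv 𝔪 he h1 h2 ht
    have h3 : s59locMkR e s * s59locMkR e t = 1 := by
      rw [← map_mul, hs, s59locMkR_idem]
    exact IsUnit.of_mul_eq_one _ (by rw [mul_comm]; exact h3)
  by_cases ht : t ∈ 𝔪
  · right
    have h3 : 1 - t ∉ 𝔪 := by
      intro h
      have : (1 : T) ∈ 𝔪 := by
        have h4 : (1 : T) = (1 - t) + t := by ring
        rw [h4]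
        exact 𝔪.add_mem h ht
      exact h𝔪.ne_top ((Ideal.eq_top_iff_one _).mpr this)
    have := key _ h3
    rwa [map_sub, map_one] at this
  · left
    exact key t ht

/-- the non-units of `T_θ` are the images of the elements of `𝔪` -/
theorem s59locT_isUnit_iff (𝔪 : Ideal T) [h𝔪 : 𝔪.IsMaximal] {e : T}
    (he : IsIdempotentElem e) (h1 : 1 - e ∈ 𝔪)
    (h2 : ∀ 𝔫 : Ideal T, 𝔫.IsMaximal → 𝔫 ≠ 𝔪 → e ∈ 𝔫) (t : T) :
    IsUnit (s59locMkR e t) ↔ t ∉ 𝔪 := by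
  constructor
  · intro hu ht
    obtain ⟨b, hb⟩ := hu.exists_right_inv
    obtain ⟨s, rfl⟩ := s59locMkR_surjective e b
    rw [← map_mul, ← s59locMkR_idem e, s59locMkR_eq_iff he] at hb
    have : e ∈ 𝔪 := by
      have h3 : e = e * (t * s) := by rw [hb, he.eq]
      rw [h3]
      exact 𝔪.mul_mem_left _ (𝔪.mul_mem_right _ ht)
    have h4 : (1 : T) ∈ 𝔪 := by
      have h5 : (1 : T) = (1 - e) + e := by ring
      rw [h5]
      exact 𝔪.add_mem h1 this
    exact h𝔪.ne_top ((Ideal.eq_top_iff_one _).mpr h4)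
  · intro ht
    obtain ⟨s, hs⟩ := s59loc_exists_inv 𝔪 he h1 h2 ht
    have h3 : s59locMkR e s * s59locMkR e t = 1 := by
      rw [← map_mul, hs, s59locMkR_idem]
    exact IsUnit.of_mul_eq_one _ (by rw [mul_comm]; exact h3)

end RingR

section Ring

variable {𝒪 T : Type*} [CommRing 𝒪] [CommRing T] [Algebra 𝒪 T]

instance s59locT_algebra (e : T) : Algebra 𝒪 (s59locT e) :=
  inferInstanceAs (Algebra 𝒪 (T ⧸ Ideal.span {1 - e}))

instance s59locT_tower (e : T) : IsScalarTower 𝒪 T (s59locT e) :=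
  inferInstanceAs (IsScalarTower 𝒪 T (T ⧸ Ideal.span {1 - e}))

variable (𝒪) in
/-- `T → T_θ` -/
def s59locMk (e : T) : T →ₐ[𝒪] s59locT e := Ideal.Quotient.mkₐ 𝒪 (Ideal.span {1 - e})

theorem s59locMk_apply (e t : T) : s59locMk 𝒪 e t = s59locMkR e t := rfl

theorem s59locMk_surjective (e : T) : Function.Surjective (s59locMk 𝒪 e) :=
  Ideal.Quotient.mkₐ_surjective 𝒪 _

theorem s59locMk_eq_zero_iff {e : T} (he : IsIdempotentElem e) (t : T) :
    s59locMk 𝒪 e t = 0 ↔ e * t = 0 := s59locMkR_eq_zero_iff he t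

theorem s59locMk_eq_iff {e : T} (he : IsIdempotentElem e) (s t : T) :
    s59locMk 𝒪 e s = s59locMk 𝒪 e t ↔ e * s = e * t := s59locMkR_eq_iff he s t

theorem s59locMk_idem (e : T) : s59locMk 𝒪 e e = 1 := s59locMkR_idem e

theorem s59locMk_mul_idem (e t : T) : s59locMk 𝒪 e (e * t) = s59locMk 𝒪 e t :=
  s59locMkR_mul_idem e t

/-- the section `T_θ → T`, `t̄ ↦ e t` (`𝒪`-linear, multiplicative, NOT unital) -/
def s59locSec {e : T} (he : IsIdempotentElem e) : s59locT e →ₗ[𝒪] T :=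
  (Submodule.liftQ (Ideal.span {1 - e}) (LinearMap.mulLeft T e) (by
    intro t ht
    rw [LinearMap.mem_ker, LinearMap.mulLeft_apply]
    exact (s59locMkR_eq_zero_iff he t).mp (Ideal.Quotient.eq_zero_iff_mem.mpr ht))
    : (T ⧸ Ideal.span {1 - e}) →ₗ[T] T).restrictScalars 𝒪

theorem s59locSec_mk {e : T} (he : IsIdempotentElem e) (t : T) :
    s59locSec (𝒪 := 𝒪) he (s59locMk 𝒪 e t) = e * t := rfl

theorem s59locMk_sec {e : T} (he : IsIdempotentElem e) (a : s59locT e) :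
    s59locMk 𝒪 e (s59locSec (𝒪 := 𝒪) he a) = a := by
  obtain ⟨t, rfl⟩ := s59locMk_surjective (𝒪 := 𝒪) e a
  rw [s59locSec_mk, s59locMk_mul_idem]

theorem s59locSec_injective {e : T} (he : IsIdempotentElem e) :
    Function.Injective (s59locSec (𝒪 := 𝒪) he) :=
  Function.LeftInverse.injective (s59locMk_sec he)

theorem s59locT_finite [Module.Finite 𝒪 T] (e : T) : Module.Finite 𝒪 (s59locT e) :=
  Module.Finite.of_surjective (s59locMk 𝒪 e).toLinearMap (s59locMk_surjective (𝒪 := 𝒪) e)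

theorem s59locT_projective [Module.Projective 𝒪 T] {e : T} (he : IsIdempotentElem e) :
    Module.Projective 𝒪 (s59locT e) :=
  Module.Projective.of_split (s59locSec (𝒪 := 𝒪) he) (s59locMk 𝒪 e).toLinearMap
    (LinearMap.ext fun a => s59locMk_sec he a)

theorem s59locT_free [IsLocalRing 𝒪] [Module.Finite 𝒪 T] [Module.Free 𝒪 T] {e : T}
    (he : IsIdempotentElem e) : Module.Free 𝒪 (s59locT e) := by
  haveI := s59locT_finite (𝒪 := 𝒪) e
  haveI := s59locT_projective (𝒪 := 𝒪) he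
  exact Module.free_of_flat_of_isLocalRing

/-- the maximal ideal of `T_θ` is the image of `𝔪` -/
theorem s59locT_mem_maximalIdeal (𝔪 : Ideal T) [h𝔪 : 𝔪.IsMaximal] {e : T}
    (he : IsIdempotentElem e) (h1 : 1 - e ∈ 𝔪)
    (h2 : ∀ 𝔫 : Ideal T, 𝔫.IsMaximal → 𝔫 ≠ 𝔪 → e ∈ 𝔫) (t : T) :
    letI := s59locT_isLocalRing 𝔪 he h1 h2
    s59locMk 𝒪 e t ∈ maximalIdeal (s59locT e) ↔ t ∈ 𝔪 := by
  letI := s59locT_isLocalRing 𝔪 he h1 h2
  rw [IsLocalRing.mem_maximalIdeal, mem_nonunits_iff, s59locMk_apply,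
    s59locT_isUnit_iff 𝔪 he h1 h2, not_not]

/-- `𝒪 → T_θ` is a local homomorphism (`𝒪` local, `T` integral over `𝒪`) -/
theorem s59locT_isLocalHom [IsLocalRing 𝒪] [Algebra.IsIntegral 𝒪 T] (𝔪 : Ideal T)
    [h𝔪 : 𝔪.IsMaximal] {e : T} (he : IsIdempotentElem e) (h1 : 1 - e ∈ 𝔪)
    (h2 : ∀ 𝔫 : Ideal T, 𝔫.IsMaximal → 𝔫 ≠ 𝔪 → e ∈ 𝔫) :
    IsLocalHom (algebraMap 𝒪 (s59locT e)) := by
  refine ⟨fun c hc => ?_⟩
  by_contra hnu
  have hcm : c ∈ maximalIdeal 𝒪 := (IsLocalRing.mem_maximalIdeal c).mpr hnu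
  have h3 : algebraMap 𝒪 T c ∈ 𝔪 :=
    s59loc_le_of_isMaximal 𝒪 𝔪 (Ideal.mem_map_of_mem _ hcm)
  have h4 : algebraMap 𝒪 (s59locT e) c = s59locMkR e (algebraMap 𝒪 T c) := rfl
  rw [h4, s59locT_isUnit_iff 𝔪 he h1 h2] at hc
  exact hc h3

end Ring

/-! ### The action of `T_θ` on `e L` -/

section Action

variable {𝒪 T : Type*} [CommRing 𝒪] [CommRing T] [Algebra 𝒪 T]
  {L : Type*} [AddCommGroup L] [Module 𝒪 L] [Module T L] [IsScalarTower 𝒪 T L]

instance s59locL_smulT (e : T) : SMul T ↥(s59locL (𝒪 := 𝒪) L e) :=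
  ⟨fun t y => ⟨t • (y : L), s59loc_stable t y.2⟩⟩

@[simp] theorem s59locL_smulT_coe (e : T) (t : T) (y : ↥(s59locL (𝒪 := 𝒪) L e)) :
    ((t • y : ↥(s59locL (𝒪 := 𝒪) L e)) : L) = t • (y : L) := rfl

instance s59locL_moduleT (e : T) : Module T ↥(s59locL (𝒪 := 𝒪) L e) :=
  Function.Injective.module T (s59locL (𝒪 := 𝒪) L e).subtype.toAddMonoidHom
    Subtype.coe_injective (fun _ _ => rfl)

instance s59locL_towerT (e : T) : IsScalarTower 𝒪 T ↥(s59locL (𝒪 := 𝒪) L e) :=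
  ⟨fun c t y => Subtype.ext (smul_assoc c t (y : L))⟩

theorem s59locL_torsion (e : T) :
    Module.IsTorsionBySet T ↥(s59locL (𝒪 := 𝒪) L e) ↑(Ideal.span {1 - e} : Ideal T) := by
  intro y ⟨a, ha⟩
  obtain ⟨b, rfl⟩ := Ideal.mem_span_singleton'.mp ha
  apply Subtype.ext
  show (b * (1 - e)) • (y : L) = 0
  rw [mul_smul, sub_smul, one_smul, s59loc_mem.mp y.2, sub_self, smul_zero]

instance s59locL_moduleTθ (e : T) : Module (s59locT e) ↥(s59locL (𝒪 := 𝒪) L e) :=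
  (s59locL_torsion (𝒪 := 𝒪) (L := L) e).module

/-- `t̄ • y = t • y` -/
theorem s59locT_smul (e : T) (t : T) (y : ↥(s59locL (𝒪 := 𝒪) L e)) :
    s59locMk 𝒪 e t • y = t • y :=
  Module.IsTorsionBySet.mk_smul (s59locL_torsion (𝒪 := 𝒪) (L := L) e) t y

theorem s59locT_smul_coe (e : T) (t : T) (y : ↥(s59locL (𝒪 := 𝒪) L e)) :
    ((s59locMk 𝒪 e t • y : ↥(s59locL (𝒪 := 𝒪) L e)) : L) = t • (y : L) := by
  rw [s59locT_smul]
  rfl

instance s59locL_towerTθ (e : T) : IsScalarTower 𝒪 (s59locT e) ↥(s59locL (𝒪 := 𝒪) L e) := by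
  refine ⟨fun c a y => ?_⟩
  obtain ⟨t, rfl⟩ := s59locMk_surjective (𝒪 := 𝒪) e a
  rw [← map_smul, s59locT_smul, s59locT_smul, smul_assoc]

/-- **`T_θ` acts faithfully on `e L`** when `T` acts faithfully on `L` -/
theorem s59locT_faithful (hf : ∀ t : T, (∀ y : L, t • y = 0) → t = 0) {e : T}
    (he : IsIdempotentElem e) (a : s59locT e)
    (ha : ∀ y : ↥(s59locL (𝒪 := 𝒪) L e), a • y = 0) : a = 0 := by
  obtain ⟨t, rfl⟩ := s59locMk_surjective (𝒪 := 𝒪) e a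
  rw [s59locMk_eq_zero_iff he]
  apply (s59loc_faithful (𝒪 := 𝒪) (L := L) hf he t).mp
  intro y hy
  have h1 := ha ⟨y, hy⟩
  have h2 := congrArg Subtype.val h1
  rw [s59locT_smul_coe] at h2
  exact h2

/-- `T_θ` is self-adjoint for the restricted form -/
theorem s59locT_selfAdjoint {B : L →ₗ[𝒪] L →ₗ[𝒪] 𝒪}
    (hB : ∀ (t : T) (x y : L), B (t • x) y = B x (t • y)) (e : T) (a : s59locT e)
    (x y : ↥(s59locL (𝒪 := 𝒪) L e)) :
    s59locB B e (a • x) y = s59locB B e x (a • y) := by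
  obtain ⟨t, rfl⟩ := s59locMk_surjective (𝒪 := 𝒪) e a
  rw [s59locB_apply, s59locB_apply, s59locT_smul_coe, s59locT_smul_coe]
  exact hB t x y

end Action

/-! ### `𝒪`-points -/

section Points

variable {𝒪 T : Type*} [CommRing 𝒪] [CommRing T] [Algebra 𝒪 T]
  {L : Type*} [AddCommGroup L] [Module 𝒪 L] [Module T L] [IsScalarTower 𝒪 T L]

/-- the `𝒪`-point of `T_θ` defined by an `𝒪`-point `ψ` of `T` with `ψ e = 1` -/
def s59locPoint {e : T} (ψ : T →ₐ[𝒪] 𝒪) (hψ : ψ e = 1) : s59locT e →ₐ[𝒪] 𝒪 :=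
  Ideal.Quotient.liftₐ (Ideal.span {1 - e}) ψ (by
    intro a ha
    obtain ⟨b, rfl⟩ := Ideal.mem_span_singleton'.mp ha
    rw [map_mul, map_sub, map_one, hψ, sub_self, mul_zero])

@[simp] theorem s59locPoint_mk {e : T} (ψ : T →ₐ[𝒪] 𝒪) (hψ : ψ e = 1) (t : T) :
    s59locPoint ψ hψ (s59locMk 𝒪 e t) = ψ t := rfl

theorem s59locPoint_comp {e : T} (ψ : T →ₐ[𝒪] 𝒪) (hψ : ψ e = 1) :
    (s59locPoint ψ hψ).comp (s59locMk 𝒪 e) = ψ :=
  AlgHom.ext fun t => rfl

/-- every `𝒪`-point of `T_θ` comes from a point `ψ` of `T` with `ψ e = 1` -/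
theorem s59loc_point_of {e : T} (ψ' : s59locT e →ₐ[𝒪] 𝒪) :
    (ψ'.comp (s59locMk 𝒪 e)) e = 1 := by
  rw [AlgHom.comp_apply, s59locMk_idem, map_one]

theorem s59locPoint_of_comp {e : T} (ψ' : s59locT e →ₐ[𝒪] 𝒪) :
    s59locPoint (ψ'.comp (s59locMk 𝒪 e)) (s59loc_point_of ψ') = ψ' := by
  apply AlgHom.ext
  intro a
  obtain ⟨t, rfl⟩ := s59locMk_surjective (𝒪 := 𝒪) e a
  rfl

/-- eigenvectors for `T_θ` in `e L` are the eigenvectors for `T` -/
theorem s59locT_eig_iff {e : T} (ψ' : s59locT e →ₐ[𝒪] 𝒪) (y : ↥(s59locL (𝒪 := 𝒪) L e)) :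
    (∀ a : s59locT e, a • y = ψ' a • y) ↔
      ∀ t : T, t • (y : L) = (ψ'.comp (s59locMk 𝒪 e)) t • (y : L) := by
  constructor
  · intro h t
    have h1 := congrArg Subtype.val (h (s59locMk 𝒪 e t))
    rw [s59locT_smul_coe] at h1
    exact h1
  · intro h a
    obtain ⟨t, rfl⟩ := s59locMk_surjective (𝒪 := 𝒪) e a
    apply Subtype.ext
    rw [s59locT_smul_coe]
    exact h t

/-- separation: if the `𝒪`-points of `T` separate the elements of `T`, the `𝒪`-points of `T_θ`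
separate the elements of `T_θ` (`𝒪` local) -/
theorem s59locT_sep [IsLocalRing 𝒪] {e : T} (he : IsIdempotentElem e)
    (hsep : ∀ y : T, (∀ ψ : T →ₐ[𝒪] 𝒪, ψ y = 0) → y = 0) (a : s59locT e)
    (ha : ∀ ψ' : s59locT e →ₐ[𝒪] 𝒪, ψ' a = 0) : a = 0 := by
  obtain ⟨t, rfl⟩ := s59locMk_surjective (𝒪 := 𝒪) e a
  rw [s59locMk_eq_zero_iff he]
  apply hsep
  intro ψ
  rcases s59loc_point_idem ψ he with h | h
  · have h1 := ha (s59locPoint ψ h)
    rw [s59locPoint_mk] at h1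
    rw [map_mul, h1, mul_zero]
  · rw [map_mul, h, zero_mul]

end Points

end Fermat.Agent.S59
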