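/-
S59 Route A, wall R2 (ETA′), piece E-GEN, ABSTRACT CORE (helper33).

Setting: `𝒪` a local ring, `𝕋` a commutative ring (the `ℤ`-Hecke algebra), `θ : 𝕋 →+* k`.
* the DATUM ring `R` (`T` of `CuspForm.HeckeGaloisRepDatum`, e.g. `s59hgrT 𝒪 θ`) with `π : 𝕋 →+* R`,
  `Algebra.adjoin 𝒪 (range π) = ⊤` and `exists_point` (every lift `χ : 𝕋 →+* 𝒪` of `θ` is a point of
  `R`);
* the ACTING algebra `A` (e.g. `𝒪 ⊗[ℤ] 𝕋`), a commutative `𝒪`-algebra with `ι : 𝕋 →+* A`, acting on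
  the lattice `L` by `B`-self-adjoint operators, `θA : A →ₐ[𝒪] k` with `θA ∘ ι = θ`, and the
  idempotent `e` of the maximal ideal `ker θA` (`s59loc_exists_idem`), `A_θ = s59locT e`.

Results:
* `s59locgen_exists_hom`   : two presentations — if the `𝒪`-points of `A'` separate and pull back to
                             points of `R`, there is `Ψ : R →ₐ[𝒪] A'` with `Ψ (π t) = ι' t`;
* `s59locgen_point_residue`: an `𝒪`-point of `A_θ` reduces to `θA`;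
* `s59locgen_exists_hom_loc`: hence `Ψ : R →ₐ[𝒪] A_θ`, `Ψ (π t) = mk (ι t)`, if the `𝒪`-points of
                             `A_θ` separate;
* `s59locgen_hom_surjective`, `s59locgen_hom_injective` : `Ψ` is onto; it is injective if the points
                             of `R` separate and reduce to `θ` and every lift of `θ` is a point of `A`;
* `s59locgen_gen_of_hom`   : **(GEN on the FULL lattice)** `η_R(ψ) ≤ B(x, E)` for every `E` containing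
                             the `ψ`-eigenvectors of `L`, `x` an eigenvector with a partner `z`;
* `s59locgen_gen`          : the same from the separation of the points of `A_θ`;
* `s59locgen_gen_of_sep`   : the same from the separation of the points of `A` (`𝒪` contains all the
                             eigenvalues of level `N`), with the idempotent constructed (`𝒪` complete).
Mathlib + `S59/Eta/Abs.lean` + `S59/Eta/Loc*.lean`.
-/
import Mathlib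
import Fermat.Agent.S59.Eta.Abs
import Fermat.Agent.S59.Eta.LocIdem
import Fermat.Agent.S59.Eta.LocMod
import Fermat.Agent.S59.Eta.LocRing

set_option autoImplicit false
set_option linter.unusedSectionVars false
set_option linter.unusedVariables false
set_option linter.style.haveILetI false

namespace Fermat.Agent.S59

open IsLocalRing

/-! ### Two presentations of the same ring -/

section Hom

variable {𝒪 𝕋 R A' : Type*} [CommRing 𝒪] [CommRing 𝕋] [CommRing R] [Algebra 𝒪 R]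
  [CommRing A'] [Algebra 𝒪 A']

/-- If `R` is generated by `π(𝕋)`, the `𝒪`-points of `A'` separate the elements of `A'` and every
`𝒪`-point of `A'` pulls back to an `𝒪`-point of `R`, there is an algebra homomorphism
`Ψ : R → A'` with `Ψ ∘ π = ι'`. -/
theorem s59locgen_exists_hom (π : 𝕋 →+* R) (hadj : Algebra.adjoin 𝒪 (Set.range π) = ⊤)
    (ι' : 𝕋 →+* A')
    (hpt : ∀ ψ' : A' →ₐ[𝒪] 𝒪, ∃ ψ : R →ₐ[𝒪] 𝒪, ∀ t, ψ (π t) = ψ' (ι' t))
    (hsep : ∀ a : A', (∀ ψ' : A' →ₐ[𝒪] 𝒪, ψ' a = 0) → a = 0) :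
    ∃ Ψ : R →ₐ[𝒪] A', ∀ t, Ψ (π t) = ι' t := by
  classical
  let f₁ : MvPolynomial 𝕋 𝒪 →ₐ[𝒪] R := MvPolynomial.aeval fun t => π t
  let f₂ : MvPolynomial 𝕋 𝒪 →ₐ[𝒪] A' := MvPolynomial.aeval fun t => ι' t
  have hsurj : Function.Surjective f₁ := by
    rw [← AlgHom.range_eq_top, ← Algebra.adjoin_range_eq_range_aeval]
    exact hadj
  have hker : ∀ P : MvPolynomial 𝕋 𝒪, f₁ P = 0 → f₂ P = 0 := by
    intro P hP
    apply hsep
    intro ψ'
    obtain ⟨ψ, hψ⟩ := hpt ψ'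
    have h1 : ψ'.comp f₂ = ψ.comp f₁ := by
      apply MvPolynomial.algHom_ext
      intro t
      show ψ' (f₂ (MvPolynomial.X t)) = ψ (f₁ (MvPolynomial.X t))
      rw [MvPolynomial.aeval_X, MvPolynomial.aeval_X, hψ]
    have h2 : ψ' (f₂ P) = ψ (f₁ P) := congrArg (fun g => g P) h1
    rw [h2, hP, map_zero]
  let g : (MvPolynomial 𝕋 𝒪 ⧸ RingHom.ker (f₁ : MvPolynomial 𝕋 𝒪 →+* R)) →ₐ[𝒪] A' :=
    Ideal.Quotient.liftₐ _ f₂ (fun P hP => hker P hP)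
  let E := Ideal.quotientKerAlgEquivOfSurjective hsurj
  refine ⟨g.comp E.symm.toAlgHom, fun t => ?_⟩
  have h3 : E.symm (π t) = Ideal.Quotient.mk _ (MvPolynomial.X t) := by
    rw [AlgEquiv.symm_apply_eq]
    show π t = f₁ (MvPolynomial.X t)
    rw [MvPolynomial.aeval_X]
  show g (E.symm (π t)) = ι' t
  rw [h3]
  show f₂ (MvPolynomial.X t) = ι' t
  rw [MvPolynomial.aeval_X]

/-- a homomorphism compatible with the generators is onto when the target is generated -/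
theorem s59locgen_hom_surjective (π : 𝕋 →+* R) (ι' : 𝕋 →+* A')
    (hadj' : Algebra.adjoin 𝒪 (Set.range ι') = ⊤)
    (Ψ : R →ₐ[𝒪] A') (hΨ : ∀ t, Ψ (π t) = ι' t) : Function.Surjective Ψ := by
  rw [← AlgHom.range_eq_top, eq_top_iff, ← hadj']
  apply Algebra.adjoin_le
  rintro _ ⟨t, rfl⟩
  exact ⟨π t, hΨ t⟩

/-- a homomorphism compatible with the generators is injective when the points of the source
separate and factor through the target -/
theorem s59locgen_hom_injective (π : 𝕋 →+* R) (hadj : Algebra.adjoin 𝒪 (Set.range π) = ⊤)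
    (ι' : 𝕋 →+* A')
    (Ψ : R →ₐ[𝒪] A') (hΨ : ∀ t, Ψ (π t) = ι' t)
    (hsepR : ∀ y : R, (∀ ψ : R →ₐ[𝒪] 𝒪, ψ y = 0) → y = 0)
    (hptR : ∀ ψ : R →ₐ[𝒪] 𝒪, ∃ ψ' : A' →ₐ[𝒪] 𝒪, ∀ t, ψ' (ι' t) = ψ (π t)) :
    Function.Injective Ψ := by
  rw [injective_iff_map_eq_zero]
  intro y hy
  apply hsepR
  intro ψ
  obtain ⟨ψ', hψ'⟩ := hptR ψ
  have h1 : ψ'.comp Ψ = ψ := by
    apply AlgHom.ext_of_adjoin_eq_top hadj
    rintro _ ⟨t, rfl⟩
    show ψ' (Ψ (π t)) = ψ (π t)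
    rw [hΨ, hψ']
  rw [← h1]
  show ψ' (Ψ y) = 0
  rw [hy, map_zero]

end Hom

/-! ### The points of `A_θ` reduce to `θ` -/

section Points

variable {𝒪 A : Type*} [CommRing 𝒪] [IsLocalRing 𝒪] [CommRing A] [Algebra 𝒪 A]

/-- the kernel of an `𝒪`-algebra homomorphism to the residue field of `𝒪` is a maximal ideal -/
theorem s59locgen_ker_isMaximal (θA : A →ₐ[𝒪] ResidueField 𝒪) :
    (RingHom.ker (θA : A →+* ResidueField 𝒪)).IsMaximal := by
  apply RingHom.ker_isMaximal_of_surjective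
  intro c
  obtain ⟨c, rfl⟩ := IsLocalRing.residue_surjective c
  refine ⟨algebraMap 𝒪 A c, ?_⟩
  show θA (algebraMap 𝒪 A c) = _
  rw [AlgHom.commutes]
  rfl

/-- an `𝒪`-point `ψ` of `A` with `ψ e = 1` (`e` the idempotent of `ker θA`) reduces to `θA` -/
theorem s59locgen_residue_of_idem (θA : A →ₐ[𝒪] ResidueField 𝒪) {e : A}
    (he : IsIdempotentElem e) (h1 : 1 - e ∈ RingHom.ker (θA : A →+* ResidueField 𝒪))
    (h2 : ∀ 𝔫 : Ideal A, 𝔫.IsMaximal → 𝔫 ≠ RingHom.ker (θA : A →+* ResidueField 𝒪) → e ∈ 𝔫)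
    (ψ : A →ₐ[𝒪] 𝒪) (hψ : ψ e = 1) (a : A) : residue 𝒪 (ψ a) = θA a := by
  haveI := s59locgen_ker_isMaximal θA
  have h3 := (s59loc_point_eq_one_iff ψ (RingHom.ker (θA : A →+* ResidueField 𝒪)) he h1 h2).mp hψ
  obtain ⟨c, hc⟩ := IsLocalRing.residue_surjective (θA a)
  have h4 : a - algebraMap 𝒪 A c ∈ RingHom.ker (θA : A →+* ResidueField 𝒪) := by
    rw [RingHom.mem_ker]
    show θA (a - algebraMap 𝒪 A c) = 0
    rw [map_sub, AlgHom.commutes, ← hc]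
    exact sub_self _
  have h5 := h3 _ h4
  rw [map_sub, AlgHom.commutes] at h5
  have h6 : residue 𝒪 (ψ a - (algebraMap 𝒪 𝒪) c) = 0 := (IsLocalRing.residue_eq_zero_iff _).mpr h5
  rw [map_sub, sub_eq_zero] at h6
  rw [h6, ← hc]
  rfl

/-- conversely an `𝒪`-point of `A` which reduces to `θA` has `ψ e = 1` -/
theorem s59locgen_idem_of_residue (θA : A →ₐ[𝒪] ResidueField 𝒪) {e : A}
    (he : IsIdempotentElem e) (h1 : 1 - e ∈ RingHom.ker (θA : A →+* ResidueField 𝒪))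
    (ψ : A →ₐ[𝒪] 𝒪) (hψ : ∀ a : A, residue 𝒪 (ψ a) = θA a) : ψ e = 1 := by
  rcases s59loc_point_idem ψ he with h | h
  · exact h
  · exfalso
    have h3 : θA (1 - e) = 0 := h1
    rw [← hψ, map_sub, map_one, h, sub_zero, map_one] at h3
    exact one_ne_zero h3

/-- **an `𝒪`-point of `A_θ` reduces to `θA`** -/
theorem s59locgen_point_residue (θA : A →ₐ[𝒪] ResidueField 𝒪) {e : A}
    (he : IsIdempotentElem e) (h1 : 1 - e ∈ RingHom.ker (θA : A →+* ResidueField 𝒪))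
    (h2 : ∀ 𝔫 : Ideal A, 𝔫.IsMaximal → 𝔫 ≠ RingHom.ker (θA : A →+* ResidueField 𝒪) → e ∈ 𝔫)
    (ψ' : s59locT e →ₐ[𝒪] 𝒪) (a : A) : residue 𝒪 (ψ' (s59locMk 𝒪 e a)) = θA a :=
  s59locgen_residue_of_idem θA he h1 h2 (ψ'.comp (s59locMk 𝒪 e)) (s59loc_point_of ψ') a

end Points

/-! ### The datum ring acts on `e L` -/

section Act

variable {𝒪 𝕋 R A : Type*} [CommRing 𝒪] [IsLocalRing 𝒪] [CommRing 𝕋] [CommRing R] [Algebra 𝒪 R]
  [CommRing A] [Algebra 𝒪 A]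

/-- **`R → A_θ`**: if the `𝒪`-points of `A_θ` separate, the datum ring `R` (generated by `π(𝕋)`,
every lift of `θ` is a point of `R`) maps to `A_θ`, compatibly with `𝕋`. -/
theorem s59locgen_exists_hom_loc (θ : 𝕋 →+* ResidueField 𝒪)
    (π : 𝕋 →+* R) (hadj : Algebra.adjoin 𝒪 (Set.range π) = ⊤)
    (hpt : ∀ χ : 𝕋 →+* 𝒪, (∀ t, residue 𝒪 (χ t) = θ t) → ∃ ψ : R →ₐ[𝒪] 𝒪, ∀ t, ψ (π t) = χ t)
    (ι : 𝕋 →+* A) (θA : A →ₐ[𝒪] ResidueField 𝒪) (hθA : ∀ t, θA (ι t) = θ t) {e : A}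
    (he : IsIdempotentElem e) (h1 : 1 - e ∈ RingHom.ker (θA : A →+* ResidueField 𝒪))
    (h2 : ∀ 𝔫 : Ideal A, 𝔫.IsMaximal → 𝔫 ≠ RingHom.ker (θA : A →+* ResidueField 𝒪) → e ∈ 𝔫)
    (hsep : ∀ a : s59locT e, (∀ ψ' : s59locT e →ₐ[𝒪] 𝒪, ψ' a = 0) → a = 0) :
    ∃ Ψ : R →ₐ[𝒪] s59locT e, ∀ t, Ψ (π t) = s59locMk 𝒪 e (ι t) := by
  refine s59locgen_exists_hom π hadj ((s59locMk 𝒪 e : A →+* s59locT e).comp ι) ?_ hsep
  intro ψ'
  refine hpt ((ψ' : s59locT e →+* 𝒪).comp ((s59locMk 𝒪 e : A →+* s59locT e).comp ι)) ?_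
  intro t
  show residue 𝒪 (ψ' (s59locMk 𝒪 e (ι t))) = θ t
  rw [s59locgen_point_residue θA he h1 h2 ψ' (ι t), hθA]

end Act

/-! ### GEN on the full lattice -/

section Gen

variable {𝒪 : Type} [CommRing 𝒪] [IsLocalRing 𝒪] {𝕋 : Type} [CommRing 𝕋]
  {R : Type} [CommRing R] [Algebra 𝒪 R] {A : Type} [CommRing A] [Algebra 𝒪 A]
  {L : Type} [AddCommGroup L] [Module 𝒪 L] [Module A L] [IsScalarTower 𝒪 A L]

/-- **(GEN on the full lattice, from the homomorphism `R → A_θ`)**.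
`η_R(ψ) ≤ B(x, E)` for every submodule `E` of the FULL lattice `L` containing the eigenvectors of
the system `ψ ∘ π`, when `x ∈ e L` is such an eigenvector and has a partner `z`. -/
theorem s59locgen_gen_of_hom (B : L →ₗ[𝒪] L →ₗ[𝒪] 𝒪)
    (hB : ∀ (a : A) (x y : L), B (a • x) y = B x (a • y))
    (π : 𝕋 →+* R) (hadj : Algebra.adjoin 𝒪 (Set.range π) = ⊤) (ι : 𝕋 →+* A)
    {e : A} (he : IsIdempotentElem e)
    (Ψ : R →ₐ[𝒪] s59locT e) (hΨ : ∀ t, Ψ (π t) = s59locMk 𝒪 e (ι t))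
    (ψ : R →ₐ[𝒪] 𝒪) (E : Submodule 𝒪 L)
    (hE : ∀ y : L, (∀ t : 𝕋, ι t • y = ψ (π t) • y) → y ∈ E)
    (x z : L) (hx : ∀ t : 𝕋, ι t • x = ψ (π t) • x) (hex : e • x = x) (hxz : B x z = 1) :
    s59p_eta 𝒪 ψ ≤ s59eta_J B E x := by
  letI modR : Module R ↥(s59locL (𝒪 := 𝒪) L e) :=
    Module.compHom ↥(s59locL (𝒪 := 𝒪) L e) (Ψ : R →+* s59locT e)
  have hsmul : ∀ (r : R) (y : ↥(s59locL (𝒪 := 𝒪) L e)), r • y = Ψ r • y := fun _ _ => rfl
  haveI tower : IsScalarTower 𝒪 R ↥(s59locL (𝒪 := 𝒪) L e) := ⟨fun c r y => by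
    rw [hsmul, hsmul, map_smul, smul_assoc]⟩
  have hcoe : ∀ (t : 𝕋) (y : ↥(s59locL (𝒪 := 𝒪) L e)),
      ((π t • y : ↥(s59locL (𝒪 := 𝒪) L e)) : L) = ι t • (y : L) := by
    intro t y
    rw [hsmul, hΨ, s59locT_smul_coe]
  have hBθ : ∀ (r : R) (u v : ↥(s59locL (𝒪 := 𝒪) L e)),
      s59locB B e (r • u) v = s59locB B e u (r • v) := by
    intro r u v
    rw [hsmul, hsmul]
    exact s59locT_selfAdjoint hB e (Ψ r) u v
  -- the eigenvector and its partner in `e L`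
  let xθ : ↥(s59locL (𝒪 := 𝒪) L e) := ⟨x, hex⟩
  let zθ : ↥(s59locL (𝒪 := 𝒪) L e) := ⟨e • z, s59loc_smul_mem he z⟩
  have hxθ : xθ ∈ s59eta_eig ↥(s59locL (𝒪 := 𝒪) L e) ψ := by
    rw [s59eta_mem_eig]
    intro r
    have hr : r ∈ Algebra.adjoin 𝒪 (Set.range π) := by
      rw [hadj]
      exact Algebra.mem_top
    induction hr using Algebra.adjoin_induction with
    | mem r hr =>
      obtain ⟨t, rfl⟩ := hr
      apply Subtype.ext
      rw [hcoe]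
      exact hx t
    | algebraMap c =>
      rw [algebraMap_smul, AlgHom.commutes]
      rfl
    | add r s _ _ hr hs =>
      rw [add_smul, hr, hs, map_add, add_smul]
    | mul r s _ _ hr hs =>
      rw [mul_smul, hs, map_mul, ← smul_smul]
      have h1 : r • ψ s • xθ = ψ s • r • xθ := by
        rw [← algebraMap_smul R (ψ s) xθ, smul_smul, mul_comm, ← smul_smul, algebraMap_smul]
      rw [h1, hr, smul_comm]
  have hxzθ : s59locB B e xθ zθ = 1 := by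
    rw [s59locB_apply]
    show B x (e • z) = 1
    rw [← hB, hex, hxz]
  have hgen := s59eta_gen_abs (T := R) (L := ↥(s59locL (𝒪 := 𝒪) L e)) (s59locB B e) hBθ ψ xθ zθ
    hxθ hxzθ
  refine hgen.trans ?_
  intro c hc
  rw [s59eta_mem_J] at hc
  obtain ⟨y, hy, rfl⟩ := hc
  rw [s59eta_mem_J]
  refine ⟨(y : L), hE _ (fun t => ?_), rfl⟩
  rw [s59eta_mem_eig] at hy
  have h1 := congrArg Subtype.val (hy (π t))
  rw [hcoe] at h1
  exact h1

/-- an eigenvector with a partner, of a system reducing to `θ`, lies in `e L` -/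
theorem s59locgen_eig_mem (B : L →ₗ[𝒪] L →ₗ[𝒪] 𝒪) (θ : 𝕋 →+* ResidueField 𝒪)
    (ι : 𝕋 →+* A) (hadjA : Algebra.adjoin 𝒪 (Set.range ι) = ⊤)
    (θA : A →ₐ[𝒪] ResidueField 𝒪) (hθA : ∀ t, θA (ι t) = θ t) {e : A}
    (he : IsIdempotentElem e) (h1 : 1 - e ∈ RingHom.ker (θA : A →+* ResidueField 𝒪))
    (a : 𝕋 → 𝒪) (ha : ∀ t, residue 𝒪 (a t) = θ t)
    (x z : L) (hx : ∀ t : 𝕋, ι t • x = a t • x) (hxz : B x z = 1) : e • x = x := by
  -- every element of `A` acts on `x` by a scalar reducing to `θA`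
  have key : ∀ b : A, ∃ c : 𝒪, b • x = c • x ∧ residue 𝒪 c = θA b := by
    intro b
    have hb : b ∈ Algebra.adjoin 𝒪 (Set.range ι) := by
      rw [hadjA]
      exact Algebra.mem_top
    induction hb using Algebra.adjoin_induction with
    | mem b hb =>
      obtain ⟨t, rfl⟩ := hb
      exact ⟨a t, hx t, by rw [ha, hθA]⟩
    | algebraMap c =>
      refine ⟨c, algebraMap_smul A c x, ?_⟩
      rw [AlgHom.commutes]
      rfl
    | add r s _ _ hr hs =>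
      obtain ⟨c, hc, hc'⟩ := hr
      obtain ⟨d, hd, hd'⟩ := hs
      exact ⟨c + d, by rw [add_smul, hc, hd, add_smul], by rw [map_add, hc', hd', map_add]⟩
    | mul r s _ _ hr hs =>
      obtain ⟨c, hc, hc'⟩ := hr
      obtain ⟨d, hd, hd'⟩ := hs
      refine ⟨c * d, ?_, by rw [map_mul, hc', hd', map_mul]⟩
      rw [mul_smul, hd, smul_comm, hc, smul_smul, mul_comm]
  obtain ⟨c, hc, hc'⟩ := key e
  have h3 : θA e = 1 := by
    have : θA (1 - e) = 0 := h1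
    rw [map_sub, map_one, sub_eq_zero] at this
    exact this.symm
  -- `c` is a unit
  have hcu : IsUnit c := by
    by_contra hnu
    have : residue 𝒪 c = 0 := (IsLocalRing.residue_eq_zero_iff _).mpr
      ((IsLocalRing.mem_maximalIdeal _).mpr hnu)
    rw [hc', h3] at this
    exact one_ne_zero this
  -- `c² = c` since `x` has a partner
  have h4 : e • e • x = e • x := by rw [smul_smul, he.eq]
  rw [hc, smul_comm, hc, smul_smul] at h4
  have h5 : c * c = c := by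
    have := congrArg (fun v => B v z) h4
    simp only [map_smul, LinearMap.smul_apply, hxz, smul_eq_mul, mul_one] at this
    exact this
  have h6 : c = 1 := by
    have h7 : c * (c - 1) = 0 := by rw [mul_sub, h5, mul_one, sub_self]
    exact sub_eq_zero.mp (hcu.mul_right_eq_zero.mp h7)
  rw [hc, h6, one_smul]

/-- **(GEN on the full lattice)** from the separation of the `𝒪`-points of `A_θ`. -/
theorem s59locgen_gen (B : L →ₗ[𝒪] L →ₗ[𝒪] 𝒪)
    (hB : ∀ (a : A) (x y : L), B (a • x) y = B x (a • y))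
    (θ : 𝕋 →+* ResidueField 𝒪)
    (π : 𝕋 →+* R) (hadj : Algebra.adjoin 𝒪 (Set.range π) = ⊤)
    (hpt : ∀ χ : 𝕋 →+* 𝒪, (∀ t, residue 𝒪 (χ t) = θ t) → ∃ ψ : R →ₐ[𝒪] 𝒪, ∀ t, ψ (π t) = χ t)
    (ι : 𝕋 →+* A) (hadjA : Algebra.adjoin 𝒪 (Set.range ι) = ⊤)
    (θA : A →ₐ[𝒪] ResidueField 𝒪) (hθA : ∀ t, θA (ι t) = θ t) {e : A}
    (he : IsIdempotentElem e) (h1 : 1 - e ∈ RingHom.ker (θA : A →+* ResidueField 𝒪))
    (h2 : ∀ 𝔫 : Ideal A, 𝔫.IsMaximal → 𝔫 ≠ RingHom.ker (θA : A →+* ResidueField 𝒪) → e ∈ 𝔫)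
    (hsep : ∀ a : s59locT e, (∀ ψ' : s59locT e →ₐ[𝒪] 𝒪, ψ' a = 0) → a = 0)
    (ψ : R →ₐ[𝒪] 𝒪) (hψθ : ∀ t, residue 𝒪 (ψ (π t)) = θ t) (E : Submodule 𝒪 L)
    (hE : ∀ y : L, (∀ t : 𝕋, ι t • y = ψ (π t) • y) → y ∈ E)
    (x z : L) (hx : ∀ t : 𝕋, ι t • x = ψ (π t) • x) (hxz : B x z = 1) :
    s59p_eta 𝒪 ψ ≤ s59eta_J B E x := by
  obtain ⟨Ψ, hΨ⟩ := s59locgen_exists_hom_loc θ π hadj hpt ι θA hθA he h1 h2 hsep
  have hex := s59locgen_eig_mem B θ ι hadjA θA hθA he h1 (fun t => ψ (π t)) hψθ x z hx hxz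
  exact s59locgen_gen_of_hom B hB π hadj ι he Ψ hΨ ψ E hE x z hx hex hxz

/-- **(GEN on the full lattice)** from the separation of the `𝒪`-points of `A` (`𝒪` complete,
`A` finite free over `𝒪`): the idempotent is constructed. -/
theorem s59locgen_gen_of_sep [IsAdicComplete (maximalIdeal 𝒪) 𝒪] [Module.Finite 𝒪 A]
    [Module.Free 𝒪 A] (B : L →ₗ[𝒪] L →ₗ[𝒪] 𝒪)
    (hB : ∀ (a : A) (x y : L), B (a • x) y = B x (a • y))
    (θ : 𝕋 →+* ResidueField 𝒪)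
    (π : 𝕋 →+* R) (hadj : Algebra.adjoin 𝒪 (Set.range π) = ⊤)
    (hpt : ∀ χ : 𝕋 →+* 𝒪, (∀ t, residue 𝒪 (χ t) = θ t) → ∃ ψ : R →ₐ[𝒪] 𝒪, ∀ t, ψ (π t) = χ t)
    (ι : 𝕋 →+* A) (hadjA : Algebra.adjoin 𝒪 (Set.range ι) = ⊤)
    (θA : A →ₐ[𝒪] ResidueField 𝒪) (hθA : ∀ t, θA (ι t) = θ t)
    (hsepA : ∀ a : A, (∀ ψA : A →ₐ[𝒪] 𝒪, ψA a = 0) → a = 0)
    (ψ : R →ₐ[𝒪] 𝒪) (hψθ : ∀ t, residue 𝒪 (ψ (π t)) = θ t) (E : Submodule 𝒪 L)
    (hE : ∀ y : L, (∀ t : 𝕋, ι t • y = ψ (π t) • y) → y ∈ E)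
    (x z : L) (hx : ∀ t : 𝕋, ι t • x = ψ (π t) • x) (hxz : B x z = 1) :
    s59p_eta 𝒪 ψ ≤ s59eta_J B E x := by
  haveI := s59locgen_ker_isMaximal θA
  obtain ⟨e, he, h1, h2⟩ := s59loc_exists_idem (𝒪 := 𝒪) (T := A)
    (RingHom.ker (θA : A →+* ResidueField 𝒪))
  exact s59locgen_gen B hB θ π hadj hpt ι hadjA θA hθA he h1 h2
    (fun a ha => s59locT_sep he hsepA a ha) ψ hψθ E hE x z hx hxz

end Gen

end Fermat.Agent.S59
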