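import Mathlib
import Fermat.Agent.S59.Eta.GenConcB
import Fermat.Agent.S59.Eta.LocGen

/-!
# S59 ETA′, piece **E-GEN-CONC** (helper80; helper57 reads): GEN on the concrete lattice

`𝒪` a complete local ring, `𝕋 = CuspForm.heckeAlgebra M 2 S` (all primes of `M` in `S`),
`A = 𝒪 ⊗[ℤ] 𝕋` acting on `L = 𝒪 ⊗[ℤ] Lpar M` through `s59trbcTheta` (helper70),
`B = s59bcForm 𝒪 (s59bcPairZ M)`, `R` a datum ring with `π : 𝕋 →+* R`.
This is the instance of helper33's `s59locgen_gen_of_sep`: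

* `s59genc_finite`, `s59genc_free`  : `𝕋` is finite free over `ℤ`, hence `A` over `𝒪`;
* `s59genc_hadjA`                   : `A` is generated over `𝒪` by the `1 ⊗ t`;
* `s59gencThetaA`, `s59gencThetaA_iota` : `θ_A : A →ₐ[𝒪] k`, `θ_A (1 ⊗ t) = θ t`;
* **`s59genc_gen`** : `η_R(ψ) ≤ B(x, E)` for every submodule `E` containing the eigenvectors of the
  `T_ℓ` (`ℓ ∤ M`, `ℓ ∉ S`) with eigenvalues `ψ (π T_ℓ)`, for such an eigenvector `x` with a partner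
  `z` (`B x z = 1`).  Remaining hypotheses: `hadj`, `hpt` (the datum ring, HGD), `hsepA` (the
  `𝒪`-points of `𝒪 ⊗ 𝕋` separate: `𝒪` big, E-BIG), `hψθ`.
-/

set_option autoImplicit false
set_option linter.style.haveILetI false
set_option linter.unusedSectionVars false
set_option linter.unusedSimpArgs false
set_option linter.unusedVariables false

noncomputable section

namespace Fermat.Agent.S59

open CongruenceSubgroup Matrix Fermat.Agent.S41 Fermat.Agent.S41.PD TensorProduct IsLocalRing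
open scoped MatrixGroups

section algebra

variable {M : ℕ} [NeZero M] {S : Set ℕ}

/-- the anemic Hecke algebra is a free `ℤ`-module -/
theorem s59genc_free (hS : ∀ q : ℕ, q.Prime → q ∣ M → q ∈ S) :
    Module.Free ℤ ↥(CuspForm.heckeAlgebra M 2 S) := by
  haveI := s59tr_finite_hecke (M := M) hS
  infer_instance

variable (𝒪 : Type) [CommRing 𝒪]

/-- `A = 𝒪 ⊗ 𝕋` is generated over `𝒪` by the image of `ι : t ↦ 1 ⊗ t`. -/
theorem s59genc_hadjA :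
    Algebra.adjoin 𝒪 (Set.range (s59gencbIota 𝒪 M S)) = ⊤ := by
  rw [eq_top_iff]
  intro a _
  induction a using TensorProduct.induction_on with
  | zero => exact Subalgebra.zero_mem _
  | add a b ha hb => exact Subalgebra.add_mem _ (ha trivial) (hb trivial)
  | tmul c t =>
    have h : c ⊗ₜ[ℤ] t = c • s59gencbIota 𝒪 M S t := by
      rw [s59gencbIota_apply, TensorProduct.smul_tmul', smul_eq_mul, mul_one]
    rw [h]
    exact Subalgebra.smul_mem _ (Algebra.subset_adjoin (Set.mem_range_self t)) c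

/-- `θ_A : 𝒪 ⊗ 𝕋 → k` extending `θ : 𝕋 → k` -/
def s59gencThetaA {k : Type} [CommRing k] [Algebra 𝒪 k]
    (θ : ↥(CuspForm.heckeAlgebra M 2 S) →+* k) :
    𝒪 ⊗[ℤ] ↥(CuspForm.heckeAlgebra M 2 S) →ₐ[𝒪] k :=
  Algebra.TensorProduct.lift (Algebra.ofId 𝒪 k) θ.toIntAlgHom (fun _ _ => Commute.all _ _)

theorem s59gencThetaA_iota {k : Type} [CommRing k] [Algebra 𝒪 k]
    (θ : ↥(CuspForm.heckeAlgebra M 2 S) →+* k) (t : CuspForm.heckeAlgebra M 2 S) :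
    s59gencThetaA 𝒪 θ (s59gencbIota 𝒪 M S t) = θ t := by
  rw [s59gencbIota_apply, s59gencThetaA, Algebra.TensorProduct.lift_tmul, map_one, one_mul]
  rfl

end algebra

section gen

variable (𝒪 : Type) [CommRing 𝒪] [IsLocalRing 𝒪] [IsAdicComplete (maximalIdeal 𝒪) 𝒪]
  {M : ℕ} [NeZero M] {S : Set ℕ} {R : Type} [CommRing R] [Algebra 𝒪 R]

/-- **(E-GEN-CONC)** GEN on the full concrete lattice `𝒪 ⊗ Lpar M`. -/
theorem s59genc_gen (hS : ∀ q : ℕ, q.Prime → q ∣ M → q ∈ S)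
    (θ : ↥(CuspForm.heckeAlgebra M 2 S) →+* ResidueField 𝒪)
    (π : ↥(CuspForm.heckeAlgebra M 2 S) →+* R) (hadj : Algebra.adjoin 𝒪 (Set.range π) = ⊤)
    (hpt : ∀ χ : ↥(CuspForm.heckeAlgebra M 2 S) →+* 𝒪, (∀ t, residue 𝒪 (χ t) = θ t) →
      ∃ ψ : R →ₐ[𝒪] 𝒪, ∀ t, ψ (π t) = χ t)
    (hsepA : ∀ a : 𝒪 ⊗[ℤ] ↥(CuspForm.heckeAlgebra M 2 S),
      (∀ ψA : 𝒪 ⊗[ℤ] ↥(CuspForm.heckeAlgebra M 2 S) →ₐ[𝒪] 𝒪, ψA a = 0) → a = 0)
    (ψ : R →ₐ[𝒪] 𝒪) (hψθ : ∀ t, residue 𝒪 (ψ (π t)) = θ t)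
    (E : Submodule 𝒪 (𝒪 ⊗[ℤ] ↥(Lpar M)))
    (hEdef : ∀ y : 𝒪 ⊗[ℤ] ↥(Lpar M),
      (∀ (ℓ : ℕ) [hℓ : Fact ℓ.Prime] (hℓM : ¬ ℓ ∣ M) (hℓS : ℓ ∉ S),
        (s59bcTcZ M ℓ hℓM).baseChange 𝒪 y =
          ψ (π (CuspForm.heckeAlgebra.T hℓ.out hℓM hℓS)) • y) → y ∈ E)
    (x z : 𝒪 ⊗[ℤ] ↥(Lpar M))
    (hx : ∀ (ℓ : ℕ) [hℓ : Fact ℓ.Prime] (hℓM : ¬ ℓ ∣ M) (hℓS : ℓ ∉ S),
      (s59bcTcZ M ℓ hℓM).baseChange 𝒪 x = ψ (π (CuspForm.heckeAlgebra.T hℓ.out hℓM hℓS)) • x)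
    (hxz : s59bcForm 𝒪 (s59bcPairZ M) x z = 1) :
    s59p_eta 𝒪 ψ ≤ s59eta_J (s59bcForm 𝒪 (s59bcPairZ M)) E x := by
  haveI := s59tr_finite_hecke (M := M) hS
  haveI := s59genc_free (M := M) hS
  letI := s59gencbModule 𝒪 (M := M) hS
  haveI := s59gencb_isScalarTower 𝒪 (M := M) hS
  exact s59locgen_gen_of_sep (s59bcForm 𝒪 (s59bcPairZ M)) (s59gencb_hB 𝒪 hS) θ π hadj hpt
    (s59gencbIota 𝒪 M S) (s59genc_hadjA 𝒪) (s59gencThetaA 𝒪 θ) (s59gencThetaA_iota 𝒪 θ) hsepA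
    ψ hψθ E
    (s59gencb_hE 𝒪 hS (fun t => ψ (π t)) E hEdef)
    x z
    (s59gencb_hx 𝒪 hS ((ψ : R →+* 𝒪).comp π) x hx) hxz

end gen

end Fermat.Agent.S59
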