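/-
S59 Route A, wall R2 (ETA′), piece E-LOC / E-GEN (helper33): SEPARATION FROM BIGNESS.

`𝒪` a complete discrete valuation ring of characteristic zero.
* `s59locbig_isLocalRing_of_domain` : a domain, finite free over a complete local ring, is local;
* `s59locbig_exists_dvr`  : the normalisation of a domain `D`, finite over `𝒪`, `𝒪 ⊆ D`, is a discrete
                            valuation ring `𝒪₁`, finite over `𝒪`, `𝒪 → 𝒪₁` local, `D ↪ 𝒪₁`;
* `s59locbig_sep`         : a reduced finite free `𝒪`-algebra `A'`, all of whose points in such `𝒪₁`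
                            have values in `𝒪`, is separated by its `𝒪`-points;
* `s59locbig_hbig_of_isBig` : for `A'` local, generated by `ι'(𝕋)`, with residual system `θ`, the
                            hypothesis of `s59locbig_sep` follows from the hypothesis
                            "`𝒪` is big for `θ`" in the LITERAL shape of `s59p_IsBig` (S59/PlanArith);
* `s59locbig_sep_loc`     : the `𝒪`-points of `A_θ = s59locT e` separate (`A` reduced, `𝒪` big for `θ`);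
* `s59locbig_gen`         : **(GEN on the full lattice)** `η_R(ψ) ≤ B(x, E)` from bigness for `θ`
                            and the reducedness of the acting algebra `A`.
Mathlib + `S59/Eta/Abs.lean` + `S59/Eta/Loc*.lean`.
-/
import Mathlib
import Fermat.Agent.S59.Eta.Abs
import Fermat.Agent.S59.Eta.LocIdem
import Fermat.Agent.S59.Eta.LocMod
import Fermat.Agent.S59.Eta.LocRing
import Fermat.Agent.S59.Eta.LocGen

set_option autoImplicit false
set_option linter.unusedSectionVars false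
set_option linter.unusedVariables false
set_option linter.style.haveILetI false

namespace Fermat.Agent.S59

open IsLocalRing

/-- a domain which is finite and free over a complete local ring is local -/
theorem s59locbig_isLocalRing_of_domain (𝒪 : Type*) [CommRing 𝒪] [IsLocalRing 𝒪]
    [IsAdicComplete (maximalIdeal 𝒪) 𝒪] (C : Type*) [CommRing C] [IsDomain C] [Algebra 𝒪 C]
    [Module.Finite 𝒪 C] [Module.Free 𝒪 C] : IsLocalRing C := by
  apply IsLocalRing.of_unique_max_ideal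
  obtain ⟨𝔪, h𝔪⟩ := Ideal.exists_maximal C
  refine ⟨𝔪, h𝔪, fun 𝔫 h𝔫 => ?_⟩
  by_contra hne
  obtain ⟨e, he, h1, h2⟩ := s59loc_exists_idem (𝒪 := 𝒪) (T := C) 𝔪
  have h3 : e ∈ 𝔫 := h2 𝔫 h𝔫 hne
  rcases IsIdempotentElem.iff_eq_zero_or_one.mp he with h | h
  · rw [h, sub_zero] at h1
    exact h𝔪.ne_top ((Ideal.eq_top_iff_one _).mpr h1)
  · rw [h] at h3
    exact h𝔫.ne_top ((Ideal.eq_top_iff_one _).mpr h3)

attribute [local instance] FractionRing.liftAlgebra in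
/-- **the normalisation of a finite domain over a complete DVR of characteristic zero is a DVR,
finite over `𝒪`** -/
theorem s59locbig_exists_dvr (𝒪 : Type) [CommRing 𝒪] [IsDomain 𝒪] [IsDiscreteValuationRing 𝒪]
    [IsAdicComplete (maximalIdeal 𝒪) 𝒪] [CharZero 𝒪]
    (D : Type) [CommRing D] [IsDomain D] [Algebra 𝒪 D] [Module.Finite 𝒪 D] [FaithfulSMul 𝒪 D] :
    ∃ (𝒪₁ : Type) (_ : CommRing 𝒪₁) (_ : IsDomain 𝒪₁) (_ : IsDiscreteValuationRing 𝒪₁)
      (_ : Algebra 𝒪 𝒪₁) (_ : Module.Finite 𝒪 𝒪₁) (_ : IsLocalHom (algebraMap 𝒪 𝒪₁))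
      (j : D →ₐ[𝒪] 𝒪₁), Function.Injective j ∧ Function.Injective (algebraMap 𝒪 𝒪₁) := by
  classical
  haveI : Algebra.IsIntegral 𝒪 D := Algebra.IsIntegral.of_finite 𝒪 D
  haveI : CharZero (FractionRing 𝒪) :=
    charZero_of_injective_algebraMap (IsFractionRing.injective 𝒪 (FractionRing 𝒪))
  haveI : FiniteDimensional (FractionRing 𝒪) (FractionRing D) :=
    Module.Finite.of_isLocalization 𝒪 D (nonZeroDivisors 𝒪)
  haveI : Algebra.IsSeparable (FractionRing 𝒪) (FractionRing D) := inferInstance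
  haveI hfin : Module.Finite 𝒪 (integralClosure 𝒪 (FractionRing D)) :=
    IsIntegralClosure.finite 𝒪 (FractionRing 𝒪) (FractionRing D) _
  haveI hded : IsDedekindDomain (integralClosure 𝒪 (FractionRing D)) :=
    integralClosure.isDedekindDomain 𝒪 (FractionRing 𝒪) (FractionRing D)
  haveI hfaith : FaithfulSMul 𝒪 (integralClosure 𝒪 (FractionRing D)) := by
    rw [faithfulSMul_iff_algebraMap_injective]
    intro a b hab
    have := congrArg Subtype.val hab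
    exact FaithfulSMul.algebraMap_injective 𝒪 (FractionRing D) this
  haveI hfree : Module.Free 𝒪 (integralClosure 𝒪 (FractionRing D)) := by
    haveI : Module.IsTorsionFree 𝒪 (integralClosure 𝒪 (FractionRing D)) := inferInstance
    exact Module.free_of_finite_type_torsion_free'
  haveI hloc : IsLocalRing (integralClosure 𝒪 (FractionRing D)) :=
    s59locbig_isLocalRing_of_domain 𝒪 _
  have hnf : ¬ IsField (integralClosure 𝒪 (FractionRing D)) := by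
    intro hf
    have h1 : IsField 𝒪 := isField_of_isIntegral_of_isField
      (FaithfulSMul.algebraMap_injective 𝒪 (integralClosure 𝒪 (FractionRing D))) hf
    exact IsDiscreteValuationRing.not_isField 𝒪 h1
  haveI hdvr : IsDiscreteValuationRing (integralClosure 𝒪 (FractionRing D)) :=
    ((IsDiscreteValuationRing.TFAE (integralClosure 𝒪 (FractionRing D)) hnf).out 0 2).mpr hded
  let j : D →ₐ[𝒪] integralClosure 𝒪 (FractionRing D) :=
    AlgHom.codRestrict (IsScalarTower.toAlgHom 𝒪 D (FractionRing D)) (integralClosure 𝒪 _)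
      (fun b => IsIntegral.map (IsScalarTower.toAlgHom 𝒪 D (FractionRing D))
        (Algebra.IsIntegral.isIntegral b))
  refine ⟨integralClosure 𝒪 (FractionRing D), inferInstance, inferInstance, hdvr, inferInstance,
    hfin, inferInstance, j, ?_, FaithfulSMul.algebraMap_injective 𝒪 _⟩
  intro a b hab
  have := congrArg Subtype.val hab
  exact IsFractionRing.injective D (FractionRing D) this

/-- an `𝒪`-algebra homomorphism with values in the image of `𝒪` is an `𝒪`-point -/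
theorem s59locbig_point_of_range {𝒪 A' 𝒪₁ : Type*} [CommRing 𝒪] [CommRing A'] [Algebra 𝒪 A']
    [CommRing 𝒪₁] [Algebra 𝒪 𝒪₁] (hinj : Function.Injective (algebraMap 𝒪 𝒪₁))
    (φ : A' →ₐ[𝒪] 𝒪₁) (hφ : ∀ a, φ a ∈ Set.range (algebraMap 𝒪 𝒪₁)) :
    ∃ ψ' : A' →ₐ[𝒪] 𝒪, ∀ a, algebraMap 𝒪 𝒪₁ (ψ' a) = φ a := by
  let φ₀ : A' →ₐ[𝒪] (⊥ : Subalgebra 𝒪 𝒪₁) :=
    AlgHom.codRestrict φ ⊥ (fun a => Algebra.mem_bot.mpr (hφ a))
  refine ⟨(Algebra.botEquivOfInjective hinj).toAlgHom.comp φ₀, fun a => ?_⟩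
  show algebraMap 𝒪 𝒪₁ (Algebra.botEquivOfInjective hinj (φ₀ a)) = φ a
  have h1 : ((Algebra.botEquivOfInjective hinj).symm (Algebra.botEquivOfInjective hinj (φ₀ a))
      : 𝒪₁) = φ a := by
    rw [AlgEquiv.symm_apply_apply]
    rfl
  rw [← h1]
  rfl

/-- **separation from bigness**: a reduced finite free algebra `A'` over a complete DVR `𝒪` of
characteristic zero, all of whose points in finite DVR extensions `𝒪₁` of `𝒪` have values in `𝒪`,
is separated by its `𝒪`-points. -/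
theorem s59locbig_sep (𝒪 : Type) [CommRing 𝒪] [IsDomain 𝒪] [IsDiscreteValuationRing 𝒪]
    [IsAdicComplete (maximalIdeal 𝒪) 𝒪] [CharZero 𝒪]
    (A' : Type) [CommRing A'] [Algebra 𝒪 A'] [IsReduced A'] [Module.Finite 𝒪 A']
    [Module.Free 𝒪 A']
    (hbig : ∀ (𝒪₁ : Type) [CommRing 𝒪₁] [IsDomain 𝒪₁] [IsDiscreteValuationRing 𝒪₁]
      [Algebra 𝒪 𝒪₁] [Module.Finite 𝒪 𝒪₁] [IsLocalHom (algebraMap 𝒪 𝒪₁)] (φ : A' →ₐ[𝒪] 𝒪₁)
      (a : A'), φ a ∈ Set.range (algebraMap 𝒪 𝒪₁))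
    (a : A') (ha : ∀ ψ' : A' →ₐ[𝒪] 𝒪, ψ' a = 0) : a = 0 := by
  classical
  by_contra hne
  -- a minimal prime not containing `a`
  have h1 : ∃ 𝔭 ∈ minimalPrimes A', a ∉ 𝔭 := by
    by_contra hcon
    push Not at hcon
    apply hne
    have h2 : a ∈ sInf (⊥ : Ideal A').minimalPrimes := by
      rw [Ideal.mem_sInf]
      intro 𝔭 h𝔭
      exact hcon 𝔭 h𝔭
    rw [Ideal.sInf_minimalPrimes] at h2
    have h3 : (⊥ : Ideal A').radical = ⊥ := by
      have := nilradical_eq_bot_iff.mpr (inferInstance : IsReduced A')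
      exact this
    rw [h3] at h2
    exact (Submodule.mem_bot A').mp h2
  obtain ⟨𝔭, h𝔭, ha𝔭⟩ := h1
  haveI h𝔭prime : 𝔭.IsPrime := h𝔭.1.1
  -- `𝒪 → A' ⧸ 𝔭` is injective
  haveI hfaith : FaithfulSMul 𝒪 (A' ⧸ 𝔭) := by
    rw [faithfulSMul_iff_algebraMap_injective, injective_iff_map_eq_zero]
    intro c hc
    by_contra hc0
    have h4 : algebraMap 𝒪 A' c ∈ 𝔭 := by
      rw [← Ideal.Quotient.eq_zero_iff_mem]
      exact hc
    have h5 : algebraMap 𝒪 A' c ∈ nonZeroDivisors A' := by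
      rw [mem_nonZeroDivisors_iff_right]
      intro b hb
      rw [mul_comm, ← Algebra.smul_def] at hb
      exact (smul_eq_zero.mp hb).resolve_left hc0
    exact Set.disjoint_left.mp (Ideal.disjoint_nonZeroDivisors_of_mem_minimalPrimes h𝔭) h4 h5
  obtain ⟨𝒪₁, i1, i2, i3, i4, i5, i6, j, hj, hinj⟩ := s59locbig_exists_dvr 𝒪 (A' ⧸ 𝔭)
  let φ : A' →ₐ[𝒪] 𝒪₁ := j.comp (Ideal.Quotient.mkₐ 𝒪 𝔭)
  obtain ⟨ψ', hψ'⟩ := s59locbig_point_of_range hinj φ (fun b => hbig 𝒪₁ φ b)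
  have h6 := hψ' a
  rw [ha ψ', map_zero] at h6
  have h7 : j (Ideal.Quotient.mk 𝔭 a) = 0 := h6.symm
  rw [map_eq_zero_iff j hj, Ideal.Quotient.eq_zero_iff_mem] at h7
  exact ha𝔭 h7

/-! ### Bigness for `θ` -/

section Big

variable {𝒪 : Type} [CommRing 𝒪] [IsLocalRing 𝒪] {𝕋 : Type} [CommRing 𝕋]

/-- a homomorphism from a local ring, integral over `𝒪`, to a local `𝒪`-algebra `𝒪₁` with
`𝒪 → 𝒪₁` local, maps the maximal ideal into the maximal ideal -/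
theorem s59locbig_map_maximalIdeal {A' : Type} [CommRing A'] [Algebra 𝒪 A'] [IsLocalRing A']
    [Algebra.IsIntegral 𝒪 A'] {𝒪₁ : Type} [CommRing 𝒪₁] [IsLocalRing 𝒪₁] [Algebra 𝒪 𝒪₁]
    [IsLocalHom (algebraMap 𝒪 𝒪₁)] (φ : A' →ₐ[𝒪] 𝒪₁) {b : A'} (hb : b ∈ maximalIdeal A') :
    φ b ∈ maximalIdeal 𝒪₁ := by
  set 𝔮 : Ideal A' := Ideal.comap (φ : A' →+* 𝒪₁) (maximalIdeal 𝒪₁) with h𝔮
  haveI : 𝔮.IsPrime := Ideal.comap_isPrime _ _
  have h1 : Ideal.comap (algebraMap 𝒪 A') 𝔮 = maximalIdeal 𝒪 := by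
    ext c
    rw [Ideal.mem_comap, h𝔮, Ideal.mem_comap]
    show φ (algebraMap 𝒪 A' c) ∈ maximalIdeal 𝒪₁ ↔ _
    rw [AlgHom.commutes]
    constructor
    · intro h
      rw [IsLocalRing.mem_maximalIdeal, mem_nonunits_iff] at h ⊢
      intro hu
      exact h (hu.map (algebraMap 𝒪 𝒪₁))
    · intro h
      rw [IsLocalRing.mem_maximalIdeal, mem_nonunits_iff] at h ⊢
      intro hu
      exact h (isUnit_of_map_unit (algebraMap 𝒪 𝒪₁) c hu)
  have h2 : 𝔮.IsMaximal := by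
    apply Ideal.isMaximal_of_isIntegral_of_isMaximal_comap (R := 𝒪) 𝔮
    rw [h1]
    exact IsLocalRing.maximalIdeal.isMaximal 𝒪
  have h3 : 𝔮 = maximalIdeal A' := IsLocalRing.eq_maximalIdeal h2
  have h4 : b ∈ 𝔮 := h3 ▸ hb
  exact h4

/-- **from `s59p_IsBig` to the hypothesis of `s59locbig_sep`** -/
theorem s59locbig_hbig_of_isBig (θ : 𝕋 →+* ResidueField 𝒪)
    {A' : Type} [CommRing A'] [Algebra 𝒪 A'] [IsLocalRing A'] [Algebra.IsIntegral 𝒪 A']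
    (ι' : 𝕋 →+* A') (hadj' : Algebra.adjoin 𝒪 (Set.range ι') = ⊤)
    (hres : ∀ t, ∃ c : 𝒪, residue 𝒪 c = θ t ∧ ι' t - algebraMap 𝒪 A' c ∈ maximalIdeal A')
    (hbig : ∀ (𝒪₁ : Type) [CommRing 𝒪₁] [IsDomain 𝒪₁] [IsDiscreteValuationRing 𝒪₁]
      [Algebra 𝒪 𝒪₁] [Module.Finite 𝒪 𝒪₁] [IsLocalHom (algebraMap 𝒪 𝒪₁)] (χ₁ : 𝕋 →+* 𝒪₁),
      (∀ t, residue 𝒪₁ (χ₁ t) = ResidueField.map (algebraMap 𝒪 𝒪₁) (θ t)) →
      ∀ t, χ₁ t ∈ Set.range (algebraMap 𝒪 𝒪₁))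
    (𝒪₁ : Type) [CommRing 𝒪₁] [IsDomain 𝒪₁] [IsDiscreteValuationRing 𝒪₁]
    [Algebra 𝒪 𝒪₁] [Module.Finite 𝒪 𝒪₁] [IsLocalHom (algebraMap 𝒪 𝒪₁)] (φ : A' →ₐ[𝒪] 𝒪₁)
    (a : A') : φ a ∈ Set.range (algebraMap 𝒪 𝒪₁) := by
  have h1 : ∀ t, residue 𝒪₁ (((φ : A' →+* 𝒪₁).comp ι') t) =
      ResidueField.map (algebraMap 𝒪 𝒪₁) (θ t) := by
    intro t
    obtain ⟨c, hc, hmem⟩ := hres t
    have h2 := s59locbig_map_maximalIdeal φ hmem
    rw [map_sub, AlgHom.commutes] at h2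
    have h3 : residue 𝒪₁ (φ (ι' t) - algebraMap 𝒪 𝒪₁ c) = 0 :=
      (IsLocalRing.residue_eq_zero_iff _).mpr h2
    rw [map_sub, sub_eq_zero] at h3
    show residue 𝒪₁ (φ (ι' t)) = _
    rw [h3, ← hc]
    rfl
  have h4 := hbig 𝒪₁ ((φ : A' →+* 𝒪₁).comp ι') h1
  have ha : a ∈ Algebra.adjoin 𝒪 (Set.range ι') := by
    rw [hadj']
    exact Algebra.mem_top
  induction ha using Algebra.adjoin_induction with
  | mem b hb =>
    obtain ⟨t, rfl⟩ := hb
    exact h4 t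
  | algebraMap c => exact ⟨c, (AlgHom.commutes φ c).symm⟩
  | add r s _ _ hr hs =>
    obtain ⟨c, hc⟩ := hr
    obtain ⟨d, hd⟩ := hs
    exact ⟨c + d, by rw [map_add, map_add, hc, hd]⟩
  | mul r s _ _ hr hs =>
    obtain ⟨c, hc⟩ := hr
    obtain ⟨d, hd⟩ := hs
    exact ⟨c * d, by rw [map_mul, map_mul, hc, hd]⟩

end Big

/-! ### The localised algebra `A_θ` and GEN -/

section Loc

variable {𝒪 : Type} [CommRing 𝒪] [IsDomain 𝒪] [IsDiscreteValuationRing 𝒪]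
  [IsAdicComplete (maximalIdeal 𝒪) 𝒪] [CharZero 𝒪] {𝕋 : Type} [CommRing 𝕋]
  {A : Type} [CommRing A] [Algebra 𝒪 A]

/-- **the `𝒪`-points of `A_θ` separate** when `A` is reduced, finite free over `𝒪`, and `𝒪` is big
for `θ` (shape of `s59p_IsBig`). -/
theorem s59locbig_sep_loc [Module.Finite 𝒪 A] [Module.Free 𝒪 A] [IsReduced A]
    (θ : 𝕋 →+* ResidueField 𝒪) (ι : 𝕋 →+* A) (hadjA : Algebra.adjoin 𝒪 (Set.range ι) = ⊤)
    (θA : A →ₐ[𝒪] ResidueField 𝒪) (hθA : ∀ t, θA (ι t) = θ t) {e : A}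
    (he : IsIdempotentElem e) (h1 : 1 - e ∈ RingHom.ker (θA : A →+* ResidueField 𝒪))
    (h2 : ∀ 𝔫 : Ideal A, 𝔫.IsMaximal → 𝔫 ≠ RingHom.ker (θA : A →+* ResidueField 𝒪) → e ∈ 𝔫)
    (hbig : ∀ (𝒪₁ : Type) [CommRing 𝒪₁] [IsDomain 𝒪₁] [IsDiscreteValuationRing 𝒪₁]
      [Algebra 𝒪 𝒪₁] [Module.Finite 𝒪 𝒪₁] [IsLocalHom (algebraMap 𝒪 𝒪₁)] (χ₁ : 𝕋 →+* 𝒪₁),
      (∀ t, residue 𝒪₁ (χ₁ t) = ResidueField.map (algebraMap 𝒪 𝒪₁) (θ t)) →
      ∀ t, χ₁ t ∈ Set.range (algebraMap 𝒪 𝒪₁))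
    (a : s59locT e) (ha : ∀ ψ' : s59locT e →ₐ[𝒪] 𝒪, ψ' a = 0) : a = 0 := by
  haveI hmax := s59locgen_ker_isMaximal θA
  haveI hloc : IsLocalRing (s59locT e) :=
    s59locT_isLocalRing (RingHom.ker (θA : A →+* ResidueField 𝒪)) he h1 h2
  haveI hred : IsReduced (s59locT e) := s59locT_isReduced he
  haveI hfin : Module.Finite 𝒪 (s59locT e) := s59locT_finite (𝒪 := 𝒪) e
  haveI hfree : Module.Free 𝒪 (s59locT e) := s59locT_free (𝒪 := 𝒪) he
  haveI hint : Algebra.IsIntegral 𝒪 (s59locT e) := Algebra.IsIntegral.of_finite 𝒪 _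
  have hadj' : Algebra.adjoin 𝒪
      (Set.range ((s59locMk 𝒪 e : A →+* s59locT e).comp ι)) = ⊤ := by
    rw [eq_top_iff]
    rintro b -
    obtain ⟨b, rfl⟩ := s59locMk_surjective (𝒪 := 𝒪) e b
    have hb : b ∈ Algebra.adjoin 𝒪 (Set.range ι) := by
      rw [hadjA]
      exact Algebra.mem_top
    induction hb using Algebra.adjoin_induction with
    | mem b hb =>
      obtain ⟨t, rfl⟩ := hb
      exact Algebra.subset_adjoin ⟨t, rfl⟩
    | algebraMap c =>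
      rw [AlgHom.commutes]
      exact Subalgebra.algebraMap_mem _ c
    | add r s _ _ hr hs =>
      rw [map_add]
      exact Subalgebra.add_mem _ hr hs
    | mul r s _ _ hr hs =>
      rw [map_mul]
      exact Subalgebra.mul_mem _ hr hs
  have hres : ∀ t, ∃ c : 𝒪, residue 𝒪 c = θ t ∧
      ((s59locMk 𝒪 e : A →+* s59locT e).comp ι) t - algebraMap 𝒪 (s59locT e) c
        ∈ maximalIdeal (s59locT e) := by
    intro t
    obtain ⟨c, hc⟩ := IsLocalRing.residue_surjective (θ t)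
    refine ⟨c, hc, ?_⟩
    have h3 : ι t - algebraMap 𝒪 A c ∈ RingHom.ker (θA : A →+* ResidueField 𝒪) := by
      rw [RingHom.mem_ker]
      show θA (ι t - algebraMap 𝒪 A c) = 0
      rw [map_sub, AlgHom.commutes, hθA, ← hc]
      exact sub_self _
    have h4 := (s59locT_mem_maximalIdeal (𝒪 := 𝒪)
      (RingHom.ker (θA : A →+* ResidueField 𝒪)) he h1 h2 (ι t - algebraMap 𝒪 A c)).mpr h3
    rw [map_sub, AlgHom.commutes] at h4
    exact h4
  exact s59locbig_sep 𝒪 (s59locT e)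
    (fun 𝒪₁ _ _ _ _ _ _ φ b =>
      s59locbig_hbig_of_isBig θ ((s59locMk 𝒪 e : A →+* s59locT e).comp ι) hadj' hres hbig 𝒪₁ φ b)
    a ha

variable {R : Type} [CommRing R] [Algebra 𝒪 R]
  {L : Type} [AddCommGroup L] [Module 𝒪 L] [Module A L] [IsScalarTower 𝒪 A L]

/-- **(GEN on the full lattice, from bigness for `θ`)**: `𝒪` a complete DVR of characteristic zero,
big for `θ` (`s59p_IsBig`), `A` reduced and finite free over `𝒪` acting on `L` by `B`-self-adjoint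
operators, `R` the datum ring (`adjoin_range_π`, `exists_point`), `x` a `ψ`-eigenvector with a
partner `z`: `η_R(ψ) ≤ B(x, E)` for every `E` containing the `ψ`-eigenvectors. -/
theorem s59locbig_gen [Module.Finite 𝒪 A] [Module.Free 𝒪 A] [IsReduced A]
    (B : L →ₗ[𝒪] L →ₗ[𝒪] 𝒪) (hB : ∀ (a : A) (x y : L), B (a • x) y = B x (a • y))
    (θ : 𝕋 →+* ResidueField 𝒪)
    (π : 𝕋 →+* R) (hadj : Algebra.adjoin 𝒪 (Set.range π) = ⊤)
    (hpt : ∀ χ : 𝕋 →+* 𝒪, (∀ t, residue 𝒪 (χ t) = θ t) → ∃ ψ : R →ₐ[𝒪] 𝒪, ∀ t, ψ (π t) = χ t)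
    (ι : 𝕋 →+* A) (hadjA : Algebra.adjoin 𝒪 (Set.range ι) = ⊤)
    (θA : A →ₐ[𝒪] ResidueField 𝒪) (hθA : ∀ t, θA (ι t) = θ t)
    (hbig : ∀ (𝒪₁ : Type) [CommRing 𝒪₁] [IsDomain 𝒪₁] [IsDiscreteValuationRing 𝒪₁]
      [Algebra 𝒪 𝒪₁] [Module.Finite 𝒪 𝒪₁] [IsLocalHom (algebraMap 𝒪 𝒪₁)] (χ₁ : 𝕋 →+* 𝒪₁),
      (∀ t, residue 𝒪₁ (χ₁ t) = ResidueField.map (algebraMap 𝒪 𝒪₁) (θ t)) →
      ∀ t, χ₁ t ∈ Set.range (algebraMap 𝒪 𝒪₁))
    (ψ : R →ₐ[𝒪] 𝒪) (hψθ : ∀ t, residue 𝒪 (ψ (π t)) = θ t) (E : Submodule 𝒪 L)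
    (hE : ∀ y : L, (∀ t : 𝕋, ι t • y = ψ (π t) • y) → y ∈ E)
    (x z : L) (hx : ∀ t : 𝕋, ι t • x = ψ (π t) • x) (hxz : B x z = 1) :
    s59p_eta 𝒪 ψ ≤ s59eta_J B E x := by
  haveI := s59locgen_ker_isMaximal θA
  obtain ⟨e, he, h1, h2⟩ := s59loc_exists_idem (𝒪 := 𝒪) (T := A)
    (RingHom.ker (θA : A →+* ResidueField 𝒪))
  exact s59locgen_gen B hB θ π hadj hpt ι hadjA θA hθA he h1 h2
    (fun a ha => s59locbig_sep_loc θ ι hadjA θA hθA he h1 h2 hbig a ha) ψ hψθ E hE x z hx hxz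

end Loc

end Fermat.Agent.S59
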