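/-
S59 Route A, wall R2 (ETA′), piece E-LOC / E-GEN (helper33): REDUCEDNESS OF `𝒪 ⊗[ℤ] 𝕋`.

* `s59locred_rat`           : `ℚ ⊗[ℤ] 𝕋` is reduced when `𝕋` is (localisation);
* `s59locred_formallyEtale` : a finite reduced algebra over a field of characteristic zero is formally
                              étale (product of separable field extensions);
* `s59locred_field`         : … hence stays reduced after every extension of the base field;
* `s59locred_fieldInt`      : `K ⊗[ℤ] 𝕋` is reduced (`K` a field of characteristic zero, `𝕋` reduced and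
                              finite over `ℤ`);
* `s59locred_tensor`        : **`𝒪 ⊗[ℤ] 𝕋` is reduced** (`𝒪` a domain of characteristic zero, `𝕋` reduced,
                              finite and flat over `ℤ`) — the hypothesis `IsReduced A` of
                              `s59locbig_gen` (`S59/Eta/LocBig.lean`) for `A = 𝒪 ⊗[ℤ] heckeAlgebra N 2 S`.
Mathlib only.
-/
import Mathlib

set_option autoImplicit false
set_option linter.unusedSectionVars false
set_option linter.unusedVariables false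
set_option linter.style.haveILetI false

namespace Fermat.Agent.S59

open TensorProduct

attribute [local instance] Algebra.TensorProduct.rightAlgebra in
/-- `ℚ ⊗[ℤ] 𝕋` is reduced when `𝕋` is -/
theorem s59locred_rat (𝕋 : Type) [CommRing 𝕋] [IsReduced 𝕋] : IsReduced (ℚ ⊗[ℤ] 𝕋) := by
  haveI : IsLocalization (Algebra.algebraMapSubmonoid 𝕋 (nonZeroDivisors ℤ)) (ℚ ⊗[ℤ] 𝕋) :=
    IsLocalization.tensorRight (R := ℤ) (S := 𝕋) ℚ (nonZeroDivisors ℤ)
  exact isReduced_localizationPreserves (Algebra.algebraMapSubmonoid 𝕋 (nonZeroDivisors ℤ))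
    (ℚ ⊗[ℤ] 𝕋) inferInstance

attribute [local instance] IsArtinianRing.fieldOfSubtypeIsMaximal in
/-- a finite reduced algebra over a field of characteristic zero is formally étale -/
theorem s59locred_formallyEtale (k : Type) [Field k] [CharZero k] (B : Type) [CommRing B]
    [Algebra k B] [Module.Finite k B] [IsReduced B] : Algebra.FormallyEtale k B := by
  haveI : IsArtinianRing B := isArtinian_of_tower k inferInstance
  rw [Algebra.FormallyEtale.iff_of_equiv ((IsArtinianRing.equivPi B).restrictScalars k),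
    Algebra.FormallyEtale.pi_iff]
  intro I
  haveI : Module.Finite k (B ⧸ I.asIdeal) :=
    Module.Finite.of_surjective (Ideal.Quotient.mkₐ k I.asIdeal).toLinearMap
      (Ideal.Quotient.mkₐ_surjective k _)
  haveI : Algebra.IsSeparable k (B ⧸ I.asIdeal) := inferInstance
  exact Algebra.FormallyEtale.of_isSeparable k _

/-- a finite reduced algebra over a field of characteristic zero stays reduced after every
extension of the base field -/
theorem s59locred_field (k : Type) [Field k] [CharZero k] (B : Type) [CommRing B]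
    [Algebra k B] [Module.Finite k B] [IsReduced B] (K : Type) [Field K] [Algebra k K] :
    IsReduced (K ⊗[k] B) := by
  haveI := s59locred_formallyEtale k B
  haveI : Algebra.FormallyUnramified K (K ⊗[k] B) := inferInstance
  haveI : Module.Finite K (K ⊗[k] B) := inferInstance
  exact Algebra.FormallyUnramified.isReduced_of_field K (K ⊗[k] B)

/-- `K ⊗[ℤ] 𝕋` is reduced for a field `K` of characteristic zero and `𝕋` reduced, finite over `ℤ` -/
theorem s59locred_fieldInt (K : Type) [Field K] [CharZero K] (𝕋 : Type) [CommRing 𝕋]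
    [IsReduced 𝕋] [Module.Finite ℤ 𝕋] : IsReduced (K ⊗[ℤ] 𝕋) := by
  haveI := s59locred_rat 𝕋
  haveI : Module.Finite ℚ (ℚ ⊗[ℤ] 𝕋) := inferInstance
  haveI := s59locred_field ℚ (ℚ ⊗[ℤ] 𝕋) K
  let e : K ⊗[ℚ] (ℚ ⊗[ℤ] 𝕋) ≃ₐ[K] K ⊗[ℤ] 𝕋 := Algebra.TensorProduct.cancelBaseChange ℤ ℚ K K 𝕋
  exact isReduced_of_injective e.symm.toRingEquiv.toRingHom e.symm.injective

/-- `𝒪 ⊗[ℤ] 𝕋` is reduced when `𝒪` embeds in a field `K` of characteristic zero -/
theorem s59locred_tensor_of_field (𝒪 : Type) [CommRing 𝒪] (K : Type) [Field K] [CharZero K]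
    (j : 𝒪 →+* K) (hj : Function.Injective j) (𝕋 : Type)
    [CommRing 𝕋] [IsReduced 𝕋] [Module.Finite ℤ 𝕋] [Module.Flat ℤ 𝕋] : IsReduced (𝒪 ⊗[ℤ] 𝕋) := by
  haveI := s59locred_fieldInt K 𝕋
  let f : 𝒪 ⊗[ℤ] 𝕋 →ₐ[ℤ] K ⊗[ℤ] 𝕋 :=
    Algebra.TensorProduct.map (j.toIntAlgHom) (AlgHom.id ℤ 𝕋)
  have hf : Function.Injective f := by
    have h1 : ⇑f = ⇑(LinearMap.rTensor 𝕋 (j.toIntAlgHom.toLinearMap)) := by
      ext x
      rfl
    rw [h1]
    exact Module.Flat.rTensor_preserves_injective_linearMap _ hj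
  exact isReduced_of_injective (f : 𝒪 ⊗[ℤ] 𝕋 →+* K ⊗[ℤ] 𝕋) hf

/-- **`𝒪 ⊗[ℤ] 𝕋` is reduced** for a domain `𝒪` of characteristic zero and a reduced ring `𝕋` which
is finite and flat over `ℤ`. -/
theorem s59locred_tensor (𝒪 : Type) [CommRing 𝒪] [IsDomain 𝒪] [CharZero 𝒪] (𝕋 : Type)
    [CommRing 𝕋] [IsReduced 𝕋] [Module.Finite ℤ 𝕋] [Module.Flat ℤ 𝕋] : IsReduced (𝒪 ⊗[ℤ] 𝕋) := by
  haveI : CharZero (FractionRing 𝒪) :=
    charZero_of_injective_algebraMap (IsFractionRing.injective 𝒪 (FractionRing 𝒪))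
  exact s59locred_tensor_of_field 𝒪 (FractionRing 𝒪) (algebraMap 𝒪 (FractionRing 𝒪))
    (IsFractionRing.injective 𝒪 (FractionRing 𝒪)) 𝕋

end Fermat.Agent.S59
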