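import Mathlib
import Fermat.Agent.S59.Eta.GenConc
import Fermat.Agent.S59.Eta.LocBig
import Fermat.Agent.S59.Eta.LocRed
import Fermat.Agent.S59.PlanArith

/-!
# S59 ETA′, piece **E-GEN-CONC** (helper80): GEN on the concrete lattice, from bigness

The instance of helper33's `s59locbig_gen` (`LocBig.lean`): `𝒪` a complete discrete valuation ring
of characteristic `0`, BIG for `(M, S, θ)` (`s59p_IsBig`, `S59/PlanArith.lean`); no separation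
hypothesis is left.

* `s59genc_isReduced` : `𝒪 ⊗[ℤ] 𝕋` is reduced;
* **`s59genc_gen_big`** : `η_R(ψ) ≤ B(x, E)` on `𝒪 ⊗ Lpar M`; hypotheses: the datum ring
  (`hadj`, `hpt`), `hbig : s59p_IsBig 𝒪 M S θ`, `hψθ`, `E ⊇` eigenvectors, `x` an eigenvector with
  a partner `z`.
-/

set_option autoImplicit false
set_option linter.style.haveILetI false
set_option linter.unusedSectionVars false
set_option linter.unusedSimpArgs false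
set_option linter.unusedVariables false

noncomputable section

namespace Fermat.Agent.S59

open CongruenceSubgroup Matrix Fermat.Agent.S41 Fermat.Agent.S41.PD TensorProduct IsLocalRing
open scoped MatrixGroups

section gen

variable (𝒪 : Type) [CommRing 𝒪] [IsDomain 𝒪] [IsDiscreteValuationRing 𝒪]
  [IsAdicComplete (maximalIdeal 𝒪) 𝒪] [CharZero 𝒪]
  {M : ℕ} [NeZero M] {S : Set ℕ} {R : Type} [CommRing R] [Algebra 𝒪 R]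

/-- `𝒪 ⊗[ℤ] 𝕋` is reduced -/
theorem s59genc_isReduced (hS : ∀ q : ℕ, q.Prime → q ∣ M → q ∈ S) :
    IsReduced (𝒪 ⊗[ℤ] ↥(CuspForm.heckeAlgebra M 2 S)) := by
  haveI := Fermat.Agent.PET.isReduced_heckeAlgebra M 2 hS
  haveI := s59tr_finite_hecke (M := M) hS
  haveI := s59genc_free (M := M) hS
  exact s59locred_tensor 𝒪 ↥(CuspForm.heckeAlgebra M 2 S)

/-- **(E-GEN-CONC, from bigness)** GEN on the full concrete lattice `𝒪 ⊗ Lpar M`. -/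
theorem s59genc_gen_big (hS : ∀ q : ℕ, q.Prime → q ∣ M → q ∈ S)
    (θ : ↥(CuspForm.heckeAlgebra M 2 S) →+* ResidueField 𝒪)
    (π : ↥(CuspForm.heckeAlgebra M 2 S) →+* R) (hadj : Algebra.adjoin 𝒪 (Set.range π) = ⊤)
    (hpt : ∀ χ : ↥(CuspForm.heckeAlgebra M 2 S) →+* 𝒪, (∀ t, residue 𝒪 (χ t) = θ t) →
      ∃ ψ : R →ₐ[𝒪] 𝒪, ∀ t, ψ (π t) = χ t)
    (hbig : s59p_IsBig 𝒪 M S θ)
    (ψ : R →ₐ[𝒪] 𝒪) (hψθ : ∀ t, residue 𝒪 (ψ (π t)) = θ t)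
    (E : Submodule 𝒪 (𝒪 ⊗[ℤ] ↥(Lpar M)))
    (hEdef : ∀ y : 𝒪 ⊗[ℤ] ↥(Lpar M),
      (∀ (ℓ : ℕ) [hℓ : Fact ℓ.Prime] (hℓM : ¬ ℓ ∣ M) (hℓS : ℓ ∉ S),
        (s59bcTcZ M ℓ hℓM).baseChange 𝒪 y =
          ψ (π (CuspForm.heckeAlgebra.T hℓ.out hℓM hℓS)) • y) → y ∈ E)
    (x z : 𝒪 ⊗[ℤ] ↥(Lpar M))
    (hx : ∀ (ℓ : ℕ) [hℓ : Fact ℓ.Prime] (hℓM : ¬ ℓ ∣ M) (hℓS : ℓ ∉ S),
      (s59bcTcZ M ℓ hℓM).baseChange 𝒪 x = ψ (π (CuspForm.heckeAlgebra.T hℓ.out hℓM hℓS)) • x)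
    (hxz : s59bcForm 𝒪 (s59bcPairZ M) x z = 1) :
    s59p_eta 𝒪 ψ ≤ s59eta_J (s59bcForm 𝒪 (s59bcPairZ M)) E x := by
  haveI := s59tr_finite_hecke (M := M) hS
  haveI := s59genc_free (M := M) hS
  haveI := s59genc_isReduced 𝒪 (M := M) hS
  letI := s59gencbModule 𝒪 (M := M) hS
  haveI := s59gencb_isScalarTower 𝒪 (M := M) hS
  exact s59locbig_gen (s59bcForm 𝒪 (s59bcPairZ M)) (s59gencb_hB 𝒪 hS) θ π hadj hpt
    (s59gencbIota 𝒪 M S) (s59genc_hadjA 𝒪) (s59gencThetaA 𝒪 θ) (s59gencThetaA_iota 𝒪 θ)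
    (fun 𝒪₁ _ _ _ _ _ _ χ₁ h => hbig 𝒪₁ χ₁ h)
    ψ hψθ E
    (s59gencb_hE 𝒪 hS (fun t => ψ (π t)) E hEdef)
    x z
    (s59gencb_hx 𝒪 hS ((ψ : R →+* 𝒪).comp π) x hx) hxz

end gen

end Fermat.Agent.S59
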