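/-
S59 Route A, ETA′ (deputy helper72), piece **E-NZ + E-PERF**, abstract part (helper9).
Imports Mathlib + `S59/Eta/Abs.lean` only.

* `s59nz_mem_max_smul_top` : over a DVR with uniformiser `ϖ`, `x ∈ 𝔪 • ⊤ ↔ ∃ v, x = ϖ • v`;
* `s59nz_partner_abs` : **(E-PERF)** a primitive vector (`∀ v, x ≠ ϖ • v`) of a free module with a
  right-perfect form has a partner `z`, `B x z = 1`;
* `s59nz_ker_minimal` : the kernel of an augmentation `ψ : T →ₐ[𝒪] 𝒪` of an integral `𝒪`-algebra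
  is a minimal prime;
* `s59nz_exists_proj` : **the projector up to a scalar**: `T` reduced, Noetherian, integral over the
  domain `𝒪` ⇒ there is `e : T` with `ψ e ≠ 0` and `e * a = 0` for all `a ∈ ker ψ`;
* `s59nz_eta_ne_bot` : hence `η_T(ψ) = s59p_eta 𝒪 ψ ≠ ⊥`;
* `s59nz_J_ne_bot_ops` : **(E-NZ, operator form)** `B` non-degenerate, `ε` a `B`-self-adjoint
  operator with `ε = c` on `E`, `ε L ⊆ E`, `c ≠ 0` ⇒ `B(x, E) ≠ 0` for `0 ≠ x ∈ E`;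
* `s59nz_J_ne_bot_abs` : **(E-NZ, module form)** for `E = L[ψ] = s59eta_eig L ψ`;
* `s59nz_J_smul` : `B(c • x, E) = c · B(x, E)`.
-/
import Mathlib
import Fermat.Agent.S59.Eta.Abs

set_option autoImplicit false
set_option linter.unusedSectionVars false
set_option linter.unusedVariables false
set_option linter.style.haveILetI false

namespace Fermat.Agent.S59

section Partner

variable {𝒪 : Type} [CommRing 𝒪] [IsDomain 𝒪] [IsDiscreteValuationRing 𝒪]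
  {L : Type} [AddCommGroup L] [Module 𝒪 L]

/-- over a DVR with uniformiser `ϖ`: `x ∈ 𝔪 • ⊤ ↔ x ∈ ϖ L` -/
theorem s59nz_mem_max_smul_top {ϖ : 𝒪} (hϖ : Irreducible ϖ) (x : L) :
    x ∈ IsLocalRing.maximalIdeal 𝒪 • (⊤ : Submodule 𝒪 L) ↔ ∃ v : L, x = ϖ • v := by
  rw [hϖ.maximalIdeal_eq, Submodule.ideal_span_singleton_smul,
    Submodule.mem_smul_pointwise_iff_exists]
  constructor
  · rintro ⟨v, -, hv⟩
    exact ⟨v, hv.symm⟩
  · rintro ⟨v, hv⟩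
    exact ⟨v, Submodule.mem_top, hv.symm⟩

/-- **(E-PERF)** a primitive vector of a free module with a right-perfect form has a partner -/
theorem s59nz_partner_abs [Module.Free 𝒪 L] (B : L →ₗ[𝒪] L →ₗ[𝒪] 𝒪)
    (hperf : ∀ φ : L →ₗ[𝒪] 𝒪, ∃ z : L, ∀ x : L, B x z = φ x)
    {ϖ : 𝒪} (hϖ : Irreducible ϖ) (x : L) (hprim : ∀ v : L, x ≠ ϖ • v) :
    ∃ z : L, B x z = 1 := by
  refine s59eta_perf_abs B hperf x ?_
  rw [s59nz_mem_max_smul_top hϖ]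
  rintro ⟨v, hv⟩
  exact hprim v hv

end Partner

section Proj

variable {𝒪 T : Type} [CommRing 𝒪] [IsDomain 𝒪] [CommRing T] [Algebra 𝒪 T]

/-- the kernel of an augmentation is prime -/
theorem s59nz_ker_isPrime (ψ : T →ₐ[𝒪] 𝒪) : (RingHom.ker (ψ : T →+* 𝒪)).IsPrime :=
  RingHom.ker_isPrime _

/-- the kernel of an augmentation of an integral algebra is a MINIMAL prime -/
theorem s59nz_ker_minimal [Algebra.IsIntegral 𝒪 T] (ψ : T →ₐ[𝒪] 𝒪) (𝔮 : Ideal T)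
    (h𝔮 : 𝔮.IsPrime) (hle : 𝔮 ≤ RingHom.ker (ψ : T →+* 𝒪)) :
    RingHom.ker (ψ : T →+* 𝒪) ≤ 𝔮 := by
  by_contra hcon
  obtain ⟨x, hx, hx𝔮⟩ := Set.not_subset.1 hcon
  haveI := h𝔮
  have hlt := Ideal.comap_lt_comap_of_integral_mem_sdiff (R := 𝒪) hle ⟨hx, hx𝔮⟩
    (Algebra.IsIntegral.isIntegral x)
  have hbot : (RingHom.ker (ψ : T →+* 𝒪)).comap (algebraMap 𝒪 T) = ⊥ := by
    rw [eq_bot_iff]
    intro c hc
    rw [Ideal.mem_comap, RingHom.mem_ker] at hc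
    have h1 : ψ (algebraMap 𝒪 T c) = c := by rw [AlgHom.commutes]; rfl
    rw [Ideal.mem_bot, ← h1]
    exact hc
  rw [hbot] at hlt
  exact not_lt_bot hlt

/-- **the projector up to a scalar** -/
theorem s59nz_exists_proj [IsNoetherianRing T] [IsReduced T] [Algebra.IsIntegral 𝒪 T]
    (ψ : T →ₐ[𝒪] 𝒪) : ∃ e : T, ψ e ≠ 0 ∧ ∀ a : T, ψ a = 0 → e * a = 0 := by
  classical
  set 𝔭 : Ideal T := RingHom.ker (ψ : T →+* 𝒪) with h𝔭
  have hprime : 𝔭.IsPrime := s59nz_ker_isPrime ψ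
  have hfin : (minimalPrimes T).Finite := minimalPrimes.finite_of_isNoetherianRing T
  set s : Finset (Ideal T) := hfin.toFinset.erase 𝔭 with hs
  have hnot : ¬ s.inf id ≤ 𝔭 := by
    rw [Ideal.IsPrime.inf_le' hprime]
    rintro ⟨𝔮, h𝔮s, h𝔮le⟩
    rw [hs, Finset.mem_erase, Set.Finite.mem_toFinset] at h𝔮s
    obtain ⟨hne, hmin⟩ := h𝔮s
    have h𝔮prime : 𝔮.IsPrime := hmin.1.1
    exact hne (le_antisymm h𝔮le (s59nz_ker_minimal ψ 𝔮 h𝔮prime h𝔮le))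
  obtain ⟨e, hes, he𝔭⟩ := Set.not_subset.1 hnot
  refine ⟨e, fun h0 => he𝔭 ((RingHom.mem_ker).2 h0), fun a ha => ?_⟩
  have ha𝔭 : a ∈ 𝔭 := (RingHom.mem_ker).2 ha
  have hmem : e * a ∈ sInf (minimalPrimes T) := by
    rw [Ideal.mem_sInf]
    intro 𝔮 h𝔮
    by_cases h : 𝔮 = 𝔭
    · rw [h]
      exact 𝔭.mul_mem_left e ha𝔭
    · have h1 : 𝔮 ∈ s := by
        rw [hs, Finset.mem_erase, Set.Finite.mem_toFinset]
        exact ⟨h, h𝔮⟩
      have h2 : s.inf id ≤ 𝔮 := Finset.inf_le (f := id) h1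
      exact 𝔮.mul_mem_right a (h2 hes)
  have hnil : sInf (minimalPrimes T) = ⊥ := by
    have h1 : sInf (minimalPrimes T) = (⊥ : Ideal T).radical := Ideal.sInf_minimalPrimes
    rw [h1]
    exact nilradical_eq_zero T
  rw [hnil] at hmem
  exact hmem

/-- `η_T(ψ) ≠ 0` for a reduced Noetherian integral algebra -/
theorem s59nz_eta_ne_bot [IsNoetherianRing T] [IsReduced T] [Algebra.IsIntegral 𝒪 T]
    (ψ : T →ₐ[𝒪] 𝒪) : s59p_eta 𝒪 ψ ≠ ⊥ := by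
  obtain ⟨e, he, hker⟩ := s59nz_exists_proj ψ
  intro hbot
  apply he
  have hmem : ψ e ∈ s59p_eta 𝒪 ψ := by
    refine Ideal.mem_map_of_mem _ ?_
    rw [Submodule.mem_annihilator]
    intro a ha
    rw [smul_eq_mul]
    exact hker a ((RingHom.mem_ker).1 ha)
  rw [hbot] at hmem
  exact hmem

end Proj

section NonZero

variable {𝒪 : Type} [CommRing 𝒪] [IsDomain 𝒪] {L : Type} [AddCommGroup L] [Module 𝒪 L]

omit [IsDomain 𝒪] in
/-- `B(c • x, E) = c · B(x, E)` -/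
theorem s59nz_J_smul (B : L →ₗ[𝒪] L →ₗ[𝒪] 𝒪) (E : Submodule 𝒪 L) (c : 𝒪) (x : L) :
    s59eta_J B E (c • x) = Ideal.span {c} * s59eta_J B E x := by
  apply le_antisymm
  · rintro r hr
    obtain ⟨y, hy, rfl⟩ := s59eta_mem_J.1 hr
    rw [map_smul, LinearMap.smul_apply, smul_eq_mul]
    exact Ideal.mul_mem_mul (Ideal.mem_span_singleton_self c) (s59eta_mem_J.2 ⟨y, hy, rfl⟩)
  · rw [Ideal.span_singleton_mul_le_iff]
    rintro r hr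
    obtain ⟨y, hy, rfl⟩ := s59eta_mem_J.1 hr
    refine s59eta_mem_J.2 ⟨y, hy, ?_⟩
    rw [map_smul, LinearMap.smul_apply, smul_eq_mul]

/-- **(E-NZ, operator form)** -/
theorem s59nz_J_ne_bot_ops (B : L →ₗ[𝒪] L →ₗ[𝒪] 𝒪) (E : Submodule 𝒪 L) (ε : L →ₗ[𝒪] L)
    (c : 𝒪) (hc : c ≠ 0) (hadj : ∀ x y : L, B (ε x) y = B x (ε y))
    (hεE : ∀ x ∈ E, ε x = c • x) (hrange : ∀ w : L, ε w ∈ E)
    (hnd : ∀ x : L, x ≠ 0 → ∃ w : L, B x w ≠ 0)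
    (x : L) (hx : x ∈ E) (hx0 : x ≠ 0) : s59eta_J B E x ≠ ⊥ := by
  obtain ⟨w, hw⟩ := hnd x hx0
  intro hbot
  have hmem : B x (ε w) ∈ s59eta_J B E x := s59eta_mem_J.2 ⟨ε w, hrange w, rfl⟩
  rw [hbot, Ideal.mem_bot, ← hadj, hεE x hx, map_smul, LinearMap.smul_apply, smul_eq_mul] at hmem
  rcases mul_eq_zero.1 hmem with h | h
  · exact hc h
  · exact hw h

omit [IsDomain 𝒪] in
/-- a sharper form: `c · B(x, L) ⊆ B(x, E)` -/
theorem s59nz_J_ge_ops (B : L →ₗ[𝒪] L →ₗ[𝒪] 𝒪) (E : Submodule 𝒪 L) (ε : L →ₗ[𝒪] L)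
    (c : 𝒪) (hadj : ∀ x y : L, B (ε x) y = B x (ε y))
    (hεE : ∀ x ∈ E, ε x = c • x) (hrange : ∀ w : L, ε w ∈ E)
    (x : L) (hx : x ∈ E) (w : L) : c * B x w ∈ s59eta_J B E x := by
  refine s59eta_mem_J.2 ⟨ε w, hrange w, ?_⟩
  rw [← hadj, hεE x hx, map_smul, LinearMap.smul_apply, smul_eq_mul]

variable {T : Type} [CommRing T] [Algebra 𝒪 T] [Module T L] [IsScalarTower 𝒪 T L]

omit [IsDomain 𝒪] in
/-- `e • w ∈ L[ψ]` when `e` kills `ker ψ` -/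
theorem s59nz_proj_mem (ψ : T →ₐ[𝒪] 𝒪) (e : T) (hker : ∀ a : T, ψ a = 0 → e * a = 0) (w : L) :
    e • w ∈ s59eta_eig L ψ := by
  rw [s59eta_mem_eig]
  intro t
  have h1 : ψ (t - algebraMap 𝒪 T (ψ t)) = 0 := by
    rw [map_sub, AlgHom.commutes]
    exact sub_self _
  have h2 := hker _ h1
  rw [mul_sub, sub_eq_zero] at h2
  rw [smul_smul, mul_comm, h2, mul_comm, ← smul_smul, algebraMap_smul]

/-- **(E-NZ, module form)** `T` acts on `L` by `B`-self-adjoint operators, `B` non-degenerate,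
`e ∈ Ann(ker ψ)` with `ψ e ≠ 0`: `B(x, L[ψ]) ≠ 0` for every `0 ≠ x ∈ L[ψ]`. -/
theorem s59nz_J_ne_bot_proj (B : L →ₗ[𝒪] L →ₗ[𝒪] 𝒪)
    (hadj : ∀ (t : T) (x y : L), B (t • x) y = B x (t • y))
    (hnd : ∀ x : L, x ≠ 0 → ∃ w : L, B x w ≠ 0)
    (ψ : T →ₐ[𝒪] 𝒪) (e : T) (he : ψ e ≠ 0) (hker : ∀ a : T, ψ a = 0 → e * a = 0)
    (x : L) (hx : x ∈ s59eta_eig L ψ) (hx0 : x ≠ 0) :
    s59eta_J B (s59eta_eig L ψ) x ≠ ⊥ := by
  obtain ⟨w, hw⟩ := hnd x hx0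
  intro hbot
  have hmem : B x (e • w) ∈ s59eta_J B (s59eta_eig L ψ) x :=
    s59eta_mem_J.2 ⟨e • w, s59nz_proj_mem ψ e hker w, rfl⟩
  rw [hbot, Ideal.mem_bot, ← hadj, (s59eta_mem_eig.1 hx) e, map_smul, LinearMap.smul_apply,
    smul_eq_mul] at hmem
  rcases mul_eq_zero.1 hmem with h | h
  · exact he h
  · exact hw h

/-- **(E-NZ, module form)** for a reduced Noetherian integral `T` -/
theorem s59nz_J_ne_bot_abs [IsNoetherianRing T] [IsReduced T] [Algebra.IsIntegral 𝒪 T]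
    (B : L →ₗ[𝒪] L →ₗ[𝒪] 𝒪)
    (hadj : ∀ (t : T) (x y : L), B (t • x) y = B x (t • y))
    (hnd : ∀ x : L, x ≠ 0 → ∃ w : L, B x w ≠ 0)
    (ψ : T →ₐ[𝒪] 𝒪) (x : L) (hx : x ∈ s59eta_eig L ψ) (hx0 : x ≠ 0) :
    s59eta_J B (s59eta_eig L ψ) x ≠ ⊥ := by
  obtain ⟨e, he, hker⟩ := s59nz_exists_proj ψ
  exact s59nz_J_ne_bot_proj B hadj hnd ψ e he hker x hx hx0

end NonZero

end Fermat.Agent.S59
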