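/-
S59 Route A, ETA′ (deputy helper72), piece **E-NZ**, the REDUCEDNESS of the base change (helper9).
Mathlib only.

* `s59nzr_formallyUnramified` : a finite reduced algebra over a perfect field is formally unramified
  (= a finite product of finite separable field extensions);
* `s59nzr_isReduced_field` : hence `K ⊗[k] A` is reduced for every field extension `K / k`;
* `s59nzr_isReduced_rat` : `ℚ ⊗[ℤ] 𝕋` is reduced if `𝕋` is;
* `s59nzr_isReduced_charZero_field` : `K ⊗[ℤ] 𝕋` is reduced for a field `K` of characteristic `0`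
  and a finite reduced ring `𝕋`;
* `s59nzr_isReduced_domain` : **`𝒪 ⊗[ℤ] 𝕋` is reduced** for a domain `𝒪` of characteristic `0` and a
  finite flat reduced ring `𝕋` (e.g. `𝕋 = heckeAlgebra N 2 S`).
-/
import Mathlib

set_option autoImplicit false
set_option linter.unusedSectionVars false
set_option linter.unusedVariables false
set_option linter.style.haveILetI false

open TensorProduct

namespace Fermat.Agent.S59

section Red

/-- a finite reduced algebra over a perfect field is formally unramified -/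
theorem s59nzr_formallyUnramified (k A : Type) [Field k] [PerfectField k] [CommRing A]
    [Algebra k A] [Module.Finite k A] [IsReduced A] : Algebra.FormallyUnramified k A := by
  haveI : IsArtinianRing A := IsArtinianRing.of_finite k A
  letI hF : ∀ I : MaximalSpectrum A, Field (A ⧸ I.asIdeal) :=
    fun I => Ideal.Quotient.field I.asIdeal
  haveI hS : ∀ I : MaximalSpectrum A, Algebra.IsSeparable k (A ⧸ I.asIdeal) := fun I => by
    haveI : Module.Finite k (A ⧸ I.asIdeal) :=
      Module.Finite.of_surjective (Ideal.Quotient.mkₐ k I.asIdeal).toLinearMap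
        (Ideal.Quotient.mkₐ_surjective k I.asIdeal)
    haveI : Algebra.IsAlgebraic k (A ⧸ I.asIdeal) := Algebra.IsAlgebraic.of_finite k _
    exact Algebra.IsAlgebraic.isSeparable_of_perfectField
  haveI hU : ∀ I : MaximalSpectrum A, Algebra.FormallyUnramified k (A ⧸ I.asIdeal) :=
    fun I => Algebra.FormallyUnramified.of_isSeparable k _
  haveI : Algebra.FormallyUnramified k (∀ I : MaximalSpectrum A, A ⧸ I.asIdeal) :=
    inferInstance
  exact Algebra.FormallyUnramified.of_equiv ((IsArtinianRing.equivPi A).restrictScalars k).symm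

/-- the base change of a finite reduced algebra over a perfect field to any field is reduced -/
theorem s59nzr_isReduced_field (k A K : Type) [Field k] [PerfectField k] [CommRing A]
    [Algebra k A] [Module.Finite k A] [IsReduced A] [Field K] [Algebra k K] :
    IsReduced (K ⊗[k] A) := by
  haveI := s59nzr_formallyUnramified k A
  haveI : Algebra.FormallyUnramified K (K ⊗[k] A) := inferInstance
  haveI : Algebra.EssFiniteType K (K ⊗[k] A) := inferInstance
  exact Algebra.FormallyUnramified.isReduced_of_field K (K ⊗[k] A)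

/-- `ℚ ⊗[ℤ] 𝕋` is reduced if `𝕋` is -/
theorem s59nzr_isReduced_rat (𝕋 : Type) [CommRing 𝕋] [IsReduced 𝕋] : IsReduced (ℚ ⊗[ℤ] 𝕋) := by
  letI : Algebra 𝕋 (ℚ ⊗[ℤ] 𝕋) := Algebra.TensorProduct.rightAlgebra
  haveI : IsLocalization (Algebra.algebraMapSubmonoid 𝕋 (nonZeroDivisors ℤ)) (ℚ ⊗[ℤ] 𝕋) :=
    IsLocalization.tensorRight ℚ (nonZeroDivisors ℤ)
  exact isReduced_localizationPreserves (Algebra.algebraMapSubmonoid 𝕋 (nonZeroDivisors ℤ))
    (ℚ ⊗[ℤ] 𝕋) inferInstance

/-- `K ⊗[ℤ] 𝕋` is reduced for a field `K` of characteristic `0` -/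
theorem s59nzr_isReduced_charZero_field (𝕋 : Type) [CommRing 𝕋] [IsReduced 𝕋]
    [Module.Finite ℤ 𝕋] (K : Type) [Field K] [CharZero K] : IsReduced (K ⊗[ℤ] 𝕋) := by
  haveI := s59nzr_isReduced_rat 𝕋
  haveI : IsReduced (K ⊗[ℚ] (ℚ ⊗[ℤ] 𝕋)) := s59nzr_isReduced_field ℚ (ℚ ⊗[ℤ] 𝕋) K
  exact isReduced_of_injective (Algebra.TensorProduct.cancelBaseChange ℤ ℚ ℚ K 𝕋).symm
    (Algebra.TensorProduct.cancelBaseChange ℤ ℚ ℚ K 𝕋).symm.injective

/-- `𝒪 ⊗[ℤ] 𝕋` is reduced when `𝒪` embeds in a field of characteristic `0` -/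
theorem s59nzr_isReduced_of_embedding (𝕋 : Type) [CommRing 𝕋] [IsReduced 𝕋]
    [Module.Finite ℤ 𝕋] [Module.Flat ℤ 𝕋] (𝒪 K : Type) [CommRing 𝒪] [Field K] [CharZero K]
    [Algebra 𝒪 K] (hinj : Function.Injective (algebraMap 𝒪 K)) :
    IsReduced (𝒪 ⊗[ℤ] 𝕋) := by
  haveI := s59nzr_isReduced_charZero_field 𝕋 K
  exact isReduced_of_injective
    (Algebra.TensorProduct.map ((Algebra.ofId 𝒪 K).restrictScalars ℤ) (AlgHom.id ℤ 𝕋))
    (Module.Flat.rTensor_preserves_injective_linearMap
      ((Algebra.ofId 𝒪 K).restrictScalars ℤ).toLinearMap hinj)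

/-- **`𝒪 ⊗[ℤ] 𝕋` is reduced** for a domain `𝒪` of characteristic `0` -/
theorem s59nzr_isReduced_domain (𝕋 : Type) [CommRing 𝕋] [IsReduced 𝕋]
    [Module.Finite ℤ 𝕋] [Module.Flat ℤ 𝕋] (𝒪 : Type) [CommRing 𝒪] [IsDomain 𝒪] [CharZero 𝒪] :
    IsReduced (𝒪 ⊗[ℤ] 𝕋) := by
  haveI : CharZero (FractionRing 𝒪) :=
    charZero_of_injective_algebraMap (IsFractionRing.injective 𝒪 (FractionRing 𝒪))
  exact s59nzr_isReduced_of_embedding 𝕋 𝒪 (FractionRing 𝒪)
    (IsFractionRing.injective 𝒪 (FractionRing 𝒪))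

end Red

end Fermat.Agent.S59
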