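/-
S59 Route A, ETA′ (deputy helper72), piece **E-NZ + E-PERF**, CONCRETE part (helper9).

Setting: `M` a level, `S ⊇ {q ∣ M}`, `𝕋 = CuspForm.heckeAlgebra M 2 S`, `Λ = 𝒪 ⊗[ℤ] Lpar M`
(`s59bccL`), `B = s59bcForm 𝒪 (s59bcPairZ M)` (BC-1 + BC-2), `Θ_𝒪 = s59trbcTheta 𝒪 hS`
(E-TRANS, helper70), `ψ : 𝕋 →+* 𝒪` an eigensystem.

* `s59nz_hecke_induction` : induction on `𝕋` from the generators `T_ℓ` (`ℓ ∤ M`, `ℓ ∉ S`);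
* `s59nz_theta_selfadjZ`, `s59nz_theta_selfadj` : EVERY `Θ t` (`t ∈ 𝕋`), resp. `Θ_𝒪 a`
  (`a ∈ 𝒪 ⊗ 𝕋`), is self-adjoint for the pairing;
* `s59nzPsi 𝒪 ψ : 𝒪 ⊗[ℤ] 𝕋 →ₐ[𝒪] 𝒪`, `s59nzPsi_tmul`;
* `s59nzE 𝒪 hS ψ` : the `ψ`-eigenspace of `Λ`; `s59nz_mem_E_iff_gen` (it is cut out by the
  generators: `(Tc ℓ ⊗ 𝒪) X = ψ (T_ℓ) • X`), `s59nz_E_all` (on it `Θ_𝒪 a = ψ_𝒪 a`);
* `s59nz_isReduced` : **`𝒪 ⊗[ℤ] 𝕋` is reduced** (`𝒪` a domain of characteristic `0`);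
  `s59nz_eta_ne_bot_hecke` : `η_{𝒪 ⊗ 𝕋}(ψ_𝒪) ≠ ⊥`;
* `s59nz_partner` : **(E-PERF)** `x` primitive ⇒ `∃ z, B x z = 1`;
* `s59nz_J_ne_bot` : **(E-NZ)** `0 ≠ x ∈ E` ⇒ `s59eta_J B E x ≠ ⊥` (the `hne` of `s59g_chain`);
* `s59nz_gen` : (GEN for the full algebra) `η_{𝒪 ⊗ 𝕋}(ψ_𝒪) ≤ s59eta_J B E x` if `x ∈ E` has a
  partner;
* `s59nz_J_ne_bot_of`, `s59nz_J_ne_bot_gen` : the same for ANY submodule `E'` that is cut out by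
  the generator equations (the shape `s59r2E` / `s59r2E'` of the hub).
-/
import Mathlib
import Fermat.Agent.S59.Eta.NonZeroAbs
import Fermat.Agent.S59.Eta.NonZeroRed
import Fermat.Agent.S59.Eta.BCBase
import Fermat.Agent.S59.Eta.BCLin
import Fermat.Agent.S59.Eta.TransBC

set_option autoImplicit false
set_option linter.unusedSectionVars false
set_option linter.unusedVariables false
set_option linter.style.haveILetI false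

noncomputable section

namespace Fermat.Agent.S59

open CongruenceSubgroup Matrix ModularCurve ModularCurve.Period Fermat.Agent.S41 TensorProduct
open scoped MatrixGroups

variable {M : ℕ} [NeZero M] {S : Set ℕ}

/-! ### induction on the anemic Hecke algebra -/

/-- induction on `𝕋 = heckeAlgebra M 2 S` from the generators `T_ℓ` -/
theorem s59nz_hecke_induction (hS : ∀ q : ℕ, q.Prime → q ∣ M → q ∈ S)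
    {P : CuspForm.heckeAlgebra M 2 S → Prop}
    (hT : ∀ (ℓ : ℕ) (hℓ : ℓ.Prime) (hℓM : ¬ ℓ ∣ M) (hℓS : ℓ ∉ S),
      P (CuspForm.heckeAlgebra.T hℓ hℓM hℓS))
    (hint : ∀ n : ℤ, P (n : CuspForm.heckeAlgebra M 2 S))
    (hadd : ∀ a b, P a → P b → P (a + b)) (hmul : ∀ a b, P a → P b → P (a * b)) :
    ∀ t, P t := by
  rintro ⟨t, ht⟩
  induction ht using Algebra.adjoin_induction with
  | mem x hx =>
    rcases hx with ⟨ℓ, hℓ, hℓN, hℓS, rfl⟩ | ⟨q', hq'N, hq', hq'S, rfl⟩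
    · exact hT ℓ hℓ hℓN hℓS
    · exact (hq'S (hS q' hq' hq'N)).elim
  | algebraMap r =>
    have h := hint r
    have e : (r : CuspForm.heckeAlgebra M 2 S) =
        ⟨algebraMap ℤ (Module.End ℂ (CuspForm (Gamma0 M) 2)) r,
          Subalgebra.algebraMap_mem _ r⟩ := by
      apply Subtype.ext
      simp
    rw [e] at h
    exact h
  | add x y hx hy ihx ihy => exact hadd ⟨x, hx⟩ ⟨y, hy⟩ ihx ihy
  | mul x y hx hy ihx ihy => exact hmul ⟨x, hx⟩ ⟨y, hy⟩ ihx ihy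

/-! ### self-adjointness of the whole Hecke algebra -/

/-- `s59trTc = s59bcTcZ` (both are `Tc ℓ` on `Lpar M`) -/
theorem s59nz_trTc_eq (ℓ : ℕ) [Fact ℓ.Prime] (hℓM : ¬ ℓ ∣ M) :
    s59trTc M ℓ hℓM = s59bcTcZ M ℓ hℓM :=
  LinearMap.ext fun y => Subtype.ext rfl

/-- **every `Θ t` is self-adjoint for the pairing on `Lpar M`** -/
theorem s59nz_theta_selfadjZ (hS : ∀ q : ℕ, q.Prime → q ∣ M → q ∈ S)
    (t : CuspForm.heckeAlgebra M 2 S) (x y : ↥(Lpar M)) :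
    s59bcPairZ M (s59trTheta hS t x) y = s59bcPairZ M x (s59trTheta hS t y) := by
  revert x y
  refine s59nz_hecke_induction hS (P := fun t => ∀ x y : ↥(Lpar M),
    s59bcPairZ M (s59trTheta hS t x) y = s59bcPairZ M x (s59trTheta hS t y)) ?_ ?_ ?_ ?_ t
  · intro ℓ hℓ hℓM hℓS x y
    haveI : Fact ℓ.Prime := ⟨hℓ⟩
    rw [s59trTheta_T hS ℓ hℓM hℓS, s59nz_trTc_eq]
    exact s59bcPairZ_Tc M ℓ hℓM x y
  · intro n x y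
    rw [s59trTheta_intCast_apply, s59trTheta_intCast_apply, map_smul, map_smul,
      LinearMap.smul_apply]
  · intro a b ha hb x y
    rw [map_add, LinearMap.add_apply, LinearMap.add_apply, map_add, map_add,
      LinearMap.add_apply, ha, hb]
  · intro a b ha hb x y
    have h1 : s59trTheta hS (a * b) x = s59trTheta hS a (s59trTheta hS b x) := by
      rw [map_mul]; rfl
    have h2 : s59trTheta hS (a * b) y = s59trTheta hS b (s59trTheta hS a y) := by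
      rw [mul_comm, map_mul]; rfl
    rw [h1, h2, ha, hb]

variable (𝒪 : Type) [CommRing 𝒪]

set_option maxHeartbeats 1600000 in
/-- the base change of `Θ t` is self-adjoint for the base-changed pairing -/
theorem s59nz_theta_selfadj_one (hS : ∀ q : ℕ, q.Prime → q ∣ M → q ∈ S)
    (t : CuspForm.heckeAlgebra M 2 S) (X Y : s59bccL 𝒪 ↥(Lpar M)) :
    s59bcForm 𝒪 (s59bcPairZ M) ((s59trTheta hS t).baseChange 𝒪 X) Y =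
      s59bcForm 𝒪 (s59bcPairZ M) X ((s59trTheta hS t).baseChange 𝒪 Y) :=
  s59bcc_selfadj 𝒪 (s59bcPairZ M) (s59trTheta hS t) (s59nz_theta_selfadjZ hS t) X Y

set_option maxHeartbeats 1600000 in
/-- **every `Θ_𝒪 a`, `a ∈ 𝒪 ⊗ 𝕋`, is self-adjoint for the base-changed pairing** -/
theorem s59nz_theta_selfadj (hS : ∀ q : ℕ, q.Prime → q ∣ M → q ∈ S)
    (a : 𝒪 ⊗[ℤ] ↥(CuspForm.heckeAlgebra M 2 S)) (X Y : s59bccL 𝒪 ↥(Lpar M)) :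
    s59bcForm 𝒪 (s59bcPairZ M) (s59trbcTheta 𝒪 hS a X) Y =
      s59bcForm 𝒪 (s59bcPairZ M) X (s59trbcTheta 𝒪 hS a Y) := by
  induction a using TensorProduct.induction_on with
  | zero =>
    simp only [map_zero, LinearMap.zero_apply]
  | add a₁ a₂ h₁ h₂ =>
    rw [map_add, LinearMap.add_apply, LinearMap.add_apply, map_add, map_add,
      LinearMap.add_apply, h₁, h₂]
  | tmul c t =>
    have key := s59nz_theta_selfadj_one 𝒪 hS t X Y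
    rw [s59trbcTheta_tmul, LinearMap.smul_apply, LinearMap.smul_apply, map_smul, map_smul,
      LinearMap.smul_apply, key]

/-! ### the augmentation and the eigenspace -/

/-- the `𝒪`-linear extension `𝒪 ⊗[ℤ] 𝕋 →ₐ[𝒪] 𝒪` of an eigensystem `ψ : 𝕋 →+* 𝒪` -/
def s59nzPsi (ψ : ↥(CuspForm.heckeAlgebra M 2 S) →+* 𝒪) :
    𝒪 ⊗[ℤ] ↥(CuspForm.heckeAlgebra M 2 S) →ₐ[𝒪] 𝒪 :=
  Algebra.TensorProduct.lift (AlgHom.id 𝒪 𝒪) ψ.toIntAlgHom (fun _ _ => Commute.all _ _)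

@[simp]
theorem s59nzPsi_tmul (ψ : ↥(CuspForm.heckeAlgebra M 2 S) →+* 𝒪) (a : 𝒪)
    (t : CuspForm.heckeAlgebra M 2 S) : s59nzPsi 𝒪 ψ (a ⊗ₜ[ℤ] t) = a * ψ t := by
  simp [s59nzPsi]

/-- the `ψ`-eigenspace of `𝒪 ⊗ Lpar M` -/
def s59nzE (hS : ∀ q : ℕ, q.Prime → q ∣ M → q ∈ S)
    (ψ : ↥(CuspForm.heckeAlgebra M 2 S) →+* 𝒪) : Submodule 𝒪 (s59bccL 𝒪 ↥(Lpar M)) where
  carrier := {X | ∀ t : CuspForm.heckeAlgebra M 2 S,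
    s59trbcTheta 𝒪 hS ((1 : 𝒪) ⊗ₜ[ℤ] t) X = ψ t • X}
  zero_mem' := fun t => by simp
  add_mem' := fun {X Y} hX hY t => by
    show s59trbcTheta 𝒪 hS ((1 : 𝒪) ⊗ₜ[ℤ] t) (X + Y) = ψ t • (X + Y)
    rw [map_add, hX t, hY t, smul_add]
  smul_mem' := fun c X hX t => by
    show s59trbcTheta 𝒪 hS ((1 : 𝒪) ⊗ₜ[ℤ] t) (c • X) = ψ t • c • X
    rw [map_smul, hX t, smul_comm]

theorem s59nz_mem_E {hS : ∀ q : ℕ, q.Prime → q ∣ M → q ∈ S}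
    {ψ : ↥(CuspForm.heckeAlgebra M 2 S) →+* 𝒪} {X : s59bccL 𝒪 ↥(Lpar M)} :
    X ∈ s59nzE 𝒪 hS ψ ↔ ∀ t : CuspForm.heckeAlgebra M 2 S,
      s59trbcTheta 𝒪 hS ((1 : 𝒪) ⊗ₜ[ℤ] t) X = ψ t • X := Iff.rfl

/-- on the eigenspace the whole algebra `𝒪 ⊗ 𝕋` acts through `ψ_𝒪` -/
theorem s59nz_E_all (hS : ∀ q : ℕ, q.Prime → q ∣ M → q ∈ S)
    (ψ : ↥(CuspForm.heckeAlgebra M 2 S) →+* 𝒪) {X : s59bccL 𝒪 ↥(Lpar M)}
    (hX : X ∈ s59nzE 𝒪 hS ψ) (a : 𝒪 ⊗[ℤ] ↥(CuspForm.heckeAlgebra M 2 S)) :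
    s59trbcTheta 𝒪 hS a X = s59nzPsi 𝒪 ψ a • X := by
  induction a using TensorProduct.induction_on with
  | zero => simp
  | add a₁ a₂ h₁ h₂ => rw [map_add, LinearMap.add_apply, h₁, h₂, map_add, add_smul]
  | tmul c t =>
    have h1 : (c ⊗ₜ[ℤ] t : 𝒪 ⊗[ℤ] ↥(CuspForm.heckeAlgebra M 2 S)) = c • ((1 : 𝒪) ⊗ₜ[ℤ] t) := by
      rw [TensorProduct.smul_tmul', smul_eq_mul, mul_one]
    rw [h1, map_smul, LinearMap.smul_apply, (s59nz_mem_E 𝒪).1 hX t, map_smul, s59nzPsi_tmul,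
      one_mul, smul_eq_mul, mul_smul]

set_option maxHeartbeats 1600000 in
/-- **the eigenspace is cut out by the generators** `T_ℓ`, `ℓ ∤ M`, `ℓ ∉ S` -/
theorem s59nz_mem_E_iff_gen (hS : ∀ q : ℕ, q.Prime → q ∣ M → q ∈ S)
    (ψ : ↥(CuspForm.heckeAlgebra M 2 S) →+* 𝒪) (X : s59bccL 𝒪 ↥(Lpar M)) :
    X ∈ s59nzE 𝒪 hS ψ ↔
      ∀ (ℓ : ℕ) [hℓ : Fact ℓ.Prime] (hℓM : ¬ ℓ ∣ M) (hℓS : ℓ ∉ S),
        s59bccMap 𝒪 (s59bcTcZ M ℓ hℓM) X = ψ (CuspForm.heckeAlgebra.T hℓ.out hℓM hℓS) • X := by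
  constructor
  · intro hX ℓ hℓ hℓM hℓS
    have h := (s59nz_mem_E 𝒪).1 hX (CuspForm.heckeAlgebra.T hℓ.out hℓM hℓS)
    rw [s59trbcTheta_T, s59nz_trTc_eq] at h
    exact h
  · intro h
    rw [s59nz_mem_E]
    refine s59nz_hecke_induction hS (P := fun t =>
      s59trbcTheta 𝒪 hS ((1 : 𝒪) ⊗ₜ[ℤ] t) X = ψ t • X) ?_ ?_ ?_ ?_
    · intro ℓ hℓ hℓM hℓS
      haveI : Fact ℓ.Prime := ⟨hℓ⟩
      rw [s59trbcTheta_T, s59nz_trTc_eq]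
      exact h ℓ hℓM hℓS
    · intro n
      have h1 : ((1 : 𝒪) ⊗ₜ[ℤ] (n : CuspForm.heckeAlgebra M 2 S) :
          𝒪 ⊗[ℤ] ↥(CuspForm.heckeAlgebra M 2 S)) =
          ((n : ℤ) : 𝒪 ⊗[ℤ] ↥(CuspForm.heckeAlgebra M 2 S)) := by
        calc ((1 : 𝒪) ⊗ₜ[ℤ] (n : CuspForm.heckeAlgebra M 2 S) :
              𝒪 ⊗[ℤ] ↥(CuspForm.heckeAlgebra M 2 S))
            = (1 : 𝒪) ⊗ₜ[ℤ] (n • (1 : CuspForm.heckeAlgebra M 2 S)) := by rw [zsmul_one]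
          _ = n • ((1 : 𝒪) ⊗ₜ[ℤ] (1 : CuspForm.heckeAlgebra M 2 S)) :=
              TensorProduct.tmul_smul n _ _
          _ = n • (1 : 𝒪 ⊗[ℤ] ↥(CuspForm.heckeAlgebra M 2 S)) := by
              rw [Algebra.TensorProduct.one_def]
          _ = ((n : ℤ) : 𝒪 ⊗[ℤ] ↥(CuspForm.heckeAlgebra M 2 S)) := zsmul_one n
      rw [h1, map_intCast, map_intCast, Module.End.intCast_apply, Int.cast_smul_eq_zsmul]
    · intro a b ha hb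
      rw [TensorProduct.tmul_add, map_add, LinearMap.add_apply, ha, hb, map_add, add_smul]
    · intro a b ha hb
      have h1 : ((1 : 𝒪) ⊗ₜ[ℤ] (a * b) : 𝒪 ⊗[ℤ] ↥(CuspForm.heckeAlgebra M 2 S)) =
          ((1 : 𝒪) ⊗ₜ[ℤ] a) * ((1 : 𝒪) ⊗ₜ[ℤ] b) := by
        rw [Algebra.TensorProduct.tmul_mul_tmul, one_mul]
      rw [h1, map_mul, Module.End.mul_apply, hb, map_smul, ha, map_mul, mul_smul, smul_comm]

/-! ### reducedness, `η ≠ 0` -/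

set_option maxHeartbeats 1600000 in
set_option synthInstance.maxHeartbeats 400000 in
/-- **`𝒪 ⊗[ℤ] 𝕋` is reduced** -/
theorem s59nz_isReduced [IsDomain 𝒪] [CharZero 𝒪] (hS : ∀ q : ℕ, q.Prime → q ∣ M → q ∈ S) :
    IsReduced (𝒪 ⊗[ℤ] ↥(CuspForm.heckeAlgebra M 2 S)) := by
  haveI := Fermat.Agent.PET.isReduced_heckeAlgebra M 2 hS
  haveI := s59tr_finite_hecke (M := M) hS
  exact s59nzr_isReduced_domain _ 𝒪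

/-- `𝒪 ⊗[ℤ] 𝕋` is a finite `𝒪`-module -/
theorem s59nz_finite (hS : ∀ q : ℕ, q.Prime → q ∣ M → q ∈ S) :
    Module.Finite 𝒪 (𝒪 ⊗[ℤ] ↥(CuspForm.heckeAlgebra M 2 S)) := by
  haveI := s59tr_finite_hecke (M := M) hS
  infer_instance

/-- **the projector up to a scalar in `𝒪 ⊗ 𝕋`** -/
theorem s59nz_exists_proj_hecke [IsDomain 𝒪] [CharZero 𝒪] [IsNoetherianRing 𝒪]
    (hS : ∀ q : ℕ, q.Prime → q ∣ M → q ∈ S) (ψ : ↥(CuspForm.heckeAlgebra M 2 S) →+* 𝒪) :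
    ∃ e : 𝒪 ⊗[ℤ] ↥(CuspForm.heckeAlgebra M 2 S), s59nzPsi 𝒪 ψ e ≠ 0 ∧
      ∀ a, s59nzPsi 𝒪 ψ a = 0 → e * a = 0 := by
  haveI := s59nz_isReduced 𝒪 (M := M) hS
  haveI := s59nz_finite 𝒪 (M := M) hS
  haveI : IsNoetherianRing (𝒪 ⊗[ℤ] ↥(CuspForm.heckeAlgebra M 2 S)) :=
    IsNoetherianRing.of_finite 𝒪 _
  haveI : Algebra.IsIntegral 𝒪 (𝒪 ⊗[ℤ] ↥(CuspForm.heckeAlgebra M 2 S)) :=
    Algebra.IsIntegral.of_finite 𝒪 _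
  exact s59nz_exists_proj (s59nzPsi 𝒪 ψ)

/-- `η_{𝒪 ⊗ 𝕋}(ψ_𝒪) ≠ 0` -/
theorem s59nz_eta_ne_bot_hecke [IsDomain 𝒪] [CharZero 𝒪] [IsNoetherianRing 𝒪]
    (hS : ∀ q : ℕ, q.Prime → q ∣ M → q ∈ S) (ψ : ↥(CuspForm.heckeAlgebra M 2 S) →+* 𝒪) :
    s59p_eta 𝒪 (s59nzPsi 𝒪 ψ) ≠ ⊥ := by
  haveI := s59nz_isReduced 𝒪 (M := M) hS
  haveI := s59nz_finite 𝒪 (M := M) hS
  haveI : IsNoetherianRing (𝒪 ⊗[ℤ] ↥(CuspForm.heckeAlgebra M 2 S)) :=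
    IsNoetherianRing.of_finite 𝒪 _
  haveI : Algebra.IsIntegral 𝒪 (𝒪 ⊗[ℤ] ↥(CuspForm.heckeAlgebra M 2 S)) :=
    Algebra.IsIntegral.of_finite 𝒪 _
  exact s59nz_eta_ne_bot (s59nzPsi 𝒪 ψ)

/-! ### the pairing: perfect, non-degenerate -/

/-- the pairing on `Lpar M` is right-perfect (input `hb` of BC-2) -/
theorem s59nz_hb (M : ℕ) [NeZero M] :
    ∀ φ : ↥(Lpar M) →ₗ[ℤ] ℤ, ∃ z : ↥(Lpar M), ∀ x : ↥(Lpar M), s59bcPairZ M x z = φ x := by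
  intro φ
  obtain ⟨z, hz⟩ := (s59bcPairZ_flip_bijective M).2 φ
  exact ⟨z, fun x => by rw [← hz, LinearMap.flip_apply]⟩

/-- the base-changed pairing is non-degenerate -/
theorem s59nz_nondeg (M : ℕ) [NeZero M] (X : s59bccL 𝒪 ↥(Lpar M)) (hX : X ≠ 0) :
    ∃ W : s59bccL 𝒪 ↥(Lpar M), s59bcForm 𝒪 (s59bcPairZ M) X W ≠ 0 := by
  by_contra hcon
  push Not at hcon
  exact hX (s59bcc_nondeg_left 𝒪 (s59bcPairZ M) (s59nz_hb M) X hcon)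

/-- **(E-PERF)** a primitive vector of `𝒪 ⊗ Lpar M` has a partner -/
theorem s59nz_partner [IsDomain 𝒪] [IsDiscreteValuationRing 𝒪] (M : ℕ) [NeZero M]
    {ϖ : 𝒪} (hϖ : Irreducible ϖ) (x : s59bccL 𝒪 ↥(Lpar M))
    (hprim : ∀ v : s59bccL 𝒪 ↥(Lpar M), x ≠ ϖ • v) :
    ∃ z : s59bccL 𝒪 ↥(Lpar M), s59bcForm 𝒪 (s59bcPairZ M) x z = 1 := by
  haveI : Module.Free 𝒪 (s59bccL 𝒪 ↥(Lpar M)) := s59bcc_free 𝒪 _
  exact s59nz_partner_abs (s59bcForm 𝒪 (s59bcPairZ M))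
    (s59bcc_hperf 𝒪 (s59bcPairZ M) (s59nz_hb M)) hϖ x hprim

/-! ### E-NZ -/

/-- `Θ_𝒪 e` maps `Λ` into the eigenspace when `e` kills `ker ψ_𝒪` -/
theorem s59nz_proj_range (hS : ∀ q : ℕ, q.Prime → q ∣ M → q ∈ S)
    (ψ : ↥(CuspForm.heckeAlgebra M 2 S) →+* 𝒪)
    (e : 𝒪 ⊗[ℤ] ↥(CuspForm.heckeAlgebra M 2 S))
    (hker : ∀ a, s59nzPsi 𝒪 ψ a = 0 → e * a = 0) (W : s59bccL 𝒪 ↥(Lpar M)) :
    s59trbcTheta 𝒪 hS e W ∈ s59nzE 𝒪 hS ψ := by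
  rw [s59nz_mem_E]
  intro t
  have h1 : s59nzPsi 𝒪 ψ ((1 : 𝒪) ⊗ₜ[ℤ] t - algebraMap 𝒪 _ (ψ t)) = 0 := by
    rw [map_sub, AlgHom.commutes, s59nzPsi_tmul, one_mul]
    exact sub_self _
  have h2 := hker _ h1
  rw [mul_sub, sub_eq_zero] at h2
  have h3 : s59trbcTheta 𝒪 hS ((1 : 𝒪) ⊗ₜ[ℤ] t) (s59trbcTheta 𝒪 hS e W) =
      s59trbcTheta 𝒪 hS (e * ((1 : 𝒪) ⊗ₜ[ℤ] t)) W := by
    rw [mul_comm, map_mul]; rfl
  rw [h3, h2, mul_comm, ← Algebra.smul_def, map_smul, LinearMap.smul_apply]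

/-- **(E-NZ)** on `Λ = 𝒪 ⊗ Lpar M`: `B(x, E) ≠ 0` for every `0 ≠ x ∈ E = Λ[ψ]`. -/
theorem s59nz_J_ne_bot [IsDomain 𝒪] [CharZero 𝒪] [IsNoetherianRing 𝒪]
    (hS : ∀ q : ℕ, q.Prime → q ∣ M → q ∈ S) (ψ : ↥(CuspForm.heckeAlgebra M 2 S) →+* 𝒪)
    (x : s59bccL 𝒪 ↥(Lpar M)) (hx : x ∈ s59nzE 𝒪 hS ψ) (hx0 : x ≠ 0) :
    s59eta_J (s59bcForm 𝒪 (s59bcPairZ M)) (s59nzE 𝒪 hS ψ) x ≠ ⊥ := by
  obtain ⟨e, he, hker⟩ := s59nz_exists_proj_hecke 𝒪 hS ψ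
  exact s59nz_J_ne_bot_ops (s59bcForm 𝒪 (s59bcPairZ M)) (s59nzE 𝒪 hS ψ) (s59trbcTheta 𝒪 hS e)
    (s59nzPsi 𝒪 ψ e) he (s59nz_theta_selfadj 𝒪 hS e)
    (fun X hX => s59nz_E_all 𝒪 hS ψ hX e) (s59nz_proj_range 𝒪 hS ψ e hker)
    (s59nz_nondeg 𝒪 M) x hx hx0

/-- **(GEN for the full algebra)** `η_{𝒪 ⊗ 𝕋}(ψ_𝒪) ≤ B(x, E)` when `x ∈ E` has a partner. -/
theorem s59nz_gen (hS : ∀ q : ℕ, q.Prime → q ∣ M → q ∈ S)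
    (ψ : ↥(CuspForm.heckeAlgebra M 2 S) →+* 𝒪)
    (x : s59bccL 𝒪 ↥(Lpar M)) (hx : x ∈ s59nzE 𝒪 hS ψ)
    (z : s59bccL 𝒪 ↥(Lpar M)) (hz : s59bcForm 𝒪 (s59bcPairZ M) x z = 1) :
    s59p_eta 𝒪 (s59nzPsi 𝒪 ψ) ≤ s59eta_J (s59bcForm 𝒪 (s59bcPairZ M)) (s59nzE 𝒪 hS ψ) x := by
  rw [s59p_eta, Ideal.map_le_iff_le_comap]
  intro e he
  rw [Submodule.mem_annihilator] at he
  have hker : ∀ a, s59nzPsi 𝒪 ψ a = 0 → e * a = 0 := fun a ha => by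
    have := he a ((RingHom.mem_ker).2 ha)
    rwa [smul_eq_mul] at this
  rw [Ideal.mem_comap]
  have h1 := s59nz_J_ge_ops (s59bcForm 𝒪 (s59bcPairZ M)) (s59nzE 𝒪 hS ψ) (s59trbcTheta 𝒪 hS e)
    (s59nzPsi 𝒪 ψ e) (s59nz_theta_selfadj 𝒪 hS e)
    (fun X hX => s59nz_E_all 𝒪 hS ψ hX e) (s59nz_proj_range 𝒪 hS ψ e hker) x hx z
  rw [hz, mul_one] at h1
  exact h1

/-- **(E-NZ)** for ANY submodule `E'` with the same elements as the eigenspace -/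
theorem s59nz_J_ne_bot_of [IsDomain 𝒪] [CharZero 𝒪] [IsNoetherianRing 𝒪]
    (hS : ∀ q : ℕ, q.Prime → q ∣ M → q ∈ S) (ψ : ↥(CuspForm.heckeAlgebra M 2 S) →+* 𝒪)
    (E' : Submodule 𝒪 (s59bccL 𝒪 ↥(Lpar M)))
    (hE' : ∀ X, X ∈ E' ↔ X ∈ s59nzE 𝒪 hS ψ)
    (x : s59bccL 𝒪 ↥(Lpar M)) (hx : x ∈ E') (hx0 : x ≠ 0) :
    s59eta_J (s59bcForm 𝒪 (s59bcPairZ M)) E' x ≠ ⊥ := by
  have h : E' = s59nzE 𝒪 hS ψ := Submodule.ext hE'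
  rw [h] at hx ⊢
  exact s59nz_J_ne_bot 𝒪 hS ψ x hx hx0

/-- **(E-NZ, generator form)** for a submodule `E'` cut out by the equations
`(Tc ℓ ⊗ 𝒪) X = ψ (T_ℓ) • X`, `ℓ ∤ M`, `ℓ ∉ S`. -/
theorem s59nz_J_ne_bot_gen [IsDomain 𝒪] [CharZero 𝒪] [IsNoetherianRing 𝒪]
    (hS : ∀ q : ℕ, q.Prime → q ∣ M → q ∈ S) (ψ : ↥(CuspForm.heckeAlgebra M 2 S) →+* 𝒪)
    (E' : Submodule 𝒪 (s59bccL 𝒪 ↥(Lpar M)))
    (hE' : ∀ X, X ∈ E' ↔ ∀ (ℓ : ℕ) [hℓ : Fact ℓ.Prime] (hℓM : ¬ ℓ ∣ M) (hℓS : ℓ ∉ S),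
      s59bccMap 𝒪 (s59bcTcZ M ℓ hℓM) X = ψ (CuspForm.heckeAlgebra.T hℓ.out hℓM hℓS) • X)
    (x : s59bccL 𝒪 ↥(Lpar M)) (hx : x ∈ E') (hx0 : x ≠ 0) :
    s59eta_J (s59bcForm 𝒪 (s59bcPairZ M)) E' x ≠ ⊥ :=
  s59nz_J_ne_bot_of 𝒪 hS ψ E'
    (fun X => (hE' X).trans (s59nz_mem_E_iff_gen 𝒪 hS ψ X).symm) x hx hx0

end Fermat.Agent.S59

end
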