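import Mathlib
import Fermat.Prelude.Def_CuspForm_HeckeGaloisRepDatum
import Fermat.Agent.S59.Eta.GenConcBig
import Fermat.Agent.S59.Eta.AsmChain
import Fermat.Agent.S59.Eta.NonZero

/-!
# S59 ETA′, piece **E-GEN-ASM** (helper80): GEN in the shape of the assembly (`AsmChain.lean`)

`H : CuspForm.HeckeGaloisRepDatum M S 𝒪 θ T` a Hecke–Galois datum of level `M` away from `S`
(`S ∩ primes = {p} ∪ {ℓ ∣ M}`), `πT : T →ₐ[𝒪] 𝒪` an augmentation with `πT (H.π T_ℓ) = ψ ℓ`,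
`𝒪` BIG for `(M, S, θ)`.  Then for every GOOD state `s` of level `M` (a primitive `ψ`-eigenvector)

  `s59p_eta 𝒪 πT ≤ s59asmEta p ψ s`,

the ring congruence ideal of the datum is contained in the module congruence ideal.

* `s59gena_residue`  : `residue 𝒪 (πT (H.π t)) = θ t`;
* `s59gena_gen_x`    : GEN for a primitive `ψ`-eigenvector `x` of `𝒪 ⊗ Lpar M`;
* **`s59gena_gen`**  : GEN for a good state `s` with `s.M = M`.
-/

set_option autoImplicit false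
set_option linter.style.haveILetI false
set_option linter.unusedSectionVars false
set_option linter.unusedSimpArgs false
set_option linter.unusedVariables false

noncomputable section

namespace Fermat.Agent.S59

open CongruenceSubgroup Matrix Fermat.Agent.S41 Fermat.Agent.S41.PD TensorProduct IsLocalRing
open scoped MatrixGroups

section residue

variable {𝒪 : Type} [CommRing 𝒪] [IsLocalRing 𝒪] {T : Type} [CommRing T] [IsLocalRing T]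
  [Algebra 𝒪 T] [IsLocalHom (algebraMap 𝒪 T)]

/-- an augmentation `πT : T →ₐ[𝒪] 𝒪` of a local `𝒪`-algebra inverts `ResidueField.map` -/
theorem s59gena_residue_abs (πT : T →ₐ[𝒪] 𝒪) (y : T) (c : ResidueField 𝒪)
    (h : residue T y = ResidueField.map (algebraMap 𝒪 T) c) : residue 𝒪 (πT y) = c := by
  have hsurj : Function.Surjective (πT : T →+* 𝒪) := fun a =>
    ⟨algebraMap 𝒪 T a, πT.commutes a⟩
  haveI : IsLocalHom (πT : T →+* 𝒪) := IsLocalHom.of_surjective _ hsurj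
  have h1 : residue 𝒪 (πT y) = ResidueField.map (πT : T →+* 𝒪) (residue T y) := by
    rw [ResidueField.map_residue]
    rfl
  obtain ⟨c', rfl⟩ := residue_surjective c
  rw [h1, h, ResidueField.map_residue, ResidueField.map_residue]
  congr 1
  exact πT.commutes c'

end residue

section gen

variable {𝒪 : Type} [CommRing 𝒪] [IsDomain 𝒪] [IsDiscreteValuationRing 𝒪]
  [IsAdicComplete (maximalIdeal 𝒪) 𝒪] [CharZero 𝒪]
  {M : ℕ} [NeZero M] {S : Set ℕ}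
  {θ : ↥(CuspForm.heckeAlgebra M 2 S) →+* ResidueField 𝒪}
  {T : Type} [CommRing T] [IsLocalRing T] [IsNoetherianRing T]
  [IsAdicComplete (maximalIdeal T) T] [Algebra 𝒪 T] [IsLocalHom (algebraMap 𝒪 T)]
  [Module.Finite 𝒪 T] [Module.Free 𝒪 T]

/-- the points of the datum ring reduce to `θ` -/
theorem s59gena_residue (H : CuspForm.HeckeGaloisRepDatum M S 𝒪 θ T) (πT : T →ₐ[𝒪] 𝒪)
    (t : CuspForm.heckeAlgebra M 2 S) : residue 𝒪 (πT (H.π t)) = θ t :=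
  s59gena_residue_abs πT (H.π t) (θ t) (H.residue_π t)

/-- **(E-GEN-ASM)** for a primitive `ψ`-eigenvector `x` of `𝒪 ⊗ Lpar M`. -/
theorem s59gena_gen_x (p : ℕ) (hS : ∀ q : ℕ, q.Prime → q ∣ M → q ∈ S) (hpS : p ∈ S)
    (hSsub : ∀ ℓ : ℕ, ℓ.Prime → ℓ ∈ S → ℓ = p ∨ ℓ ∣ M)
    (H : CuspForm.HeckeGaloisRepDatum M S 𝒪 θ T) (hbig : s59p_IsBig 𝒪 M S θ)
    (πT : T →ₐ[𝒪] 𝒪) (ψ : ℕ → 𝒪)
    (hπψ : ∀ (ℓ : ℕ) (hℓ : ℓ.Prime) (hℓM : ¬ ℓ ∣ M) (hℓS : ℓ ∉ S),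
      πT (H.π (CuspForm.heckeAlgebra.T hℓ hℓM hℓS)) = ψ ℓ)
    {ϖ : 𝒪} (hϖ : Irreducible ϖ) (x : s59asmL 𝒪 M) (hx : x ∈ s59asmE 𝒪 M p ψ)
    (hprim : ∀ v : s59asmL 𝒪 M, x ≠ ϖ • v) :
    s59p_eta 𝒪 πT ≤ s59asmJ 𝒪 M p ψ x := by
  obtain ⟨z, hz⟩ := s59nz_partner 𝒪 M hϖ x hprim
  refine s59genc_gen_big 𝒪 hS θ H.π H.adjoin_range_π H.exists_point hbig πT
    (s59gena_residue H πT) (s59asmE 𝒪 M p ψ) ?_ x z ?_ hz
  · intro y hy
    rw [s59asm_mem_E]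
    intro ℓ hℓ hℓM hℓp
    have hℓS : ℓ ∉ S := fun h => by
      rcases hSsub ℓ hℓ.out h with h1 | h1
      · exact hℓp h1
      · exact hℓM h1
    have := hy ℓ hℓM hℓS
    rw [hπψ ℓ hℓ.out hℓM hℓS] at this
    exact this
  · intro ℓ hℓ hℓM hℓS
    have hℓp : ℓ ≠ p := fun h => hℓS (h ▸ hpS)
    rw [hπψ ℓ hℓ.out hℓM hℓS]
    exact (s59asm_mem_E 𝒪 M).1 hx ℓ hℓM hℓp

/-- **(E-GEN-ASM)** GEN in the shape of the assembly: for a good state `s` of level `M`. -/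
theorem s59gena_gen (p : ℕ) (hS : ∀ q : ℕ, q.Prime → q ∣ M → q ∈ S) (hpS : p ∈ S)
    (hSsub : ∀ ℓ : ℕ, ℓ.Prime → ℓ ∈ S → ℓ = p ∨ ℓ ∣ M)
    (H : CuspForm.HeckeGaloisRepDatum M S 𝒪 θ T) (hbig : s59p_IsBig 𝒪 M S θ)
    (πT : T →ₐ[𝒪] 𝒪) (ψ : ℕ → 𝒪)
    (hπψ : ∀ (ℓ : ℕ) (hℓ : ℓ.Prime) (hℓM : ¬ ℓ ∣ M) (hℓS : ℓ ∉ S),
      πT (H.π (CuspForm.heckeAlgebra.T hℓ hℓM hℓS)) = ψ ℓ)
    {ϖ : 𝒪} (hϖ : Irreducible ϖ) (s : S59asmSt 𝒪) (hsM : s.M = M)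
    (hs : s59asmGood p ψ ϖ s) :
    s59p_eta 𝒪 πT ≤ s59asmEta p ψ s := by
  obtain ⟨M', hM', x⟩ := s
  simp only at hsM
  subst hsM
  have e : (⟨hM'⟩ : NeZero M') = ‹NeZero M'› := Subsingleton.elim _ _
  unfold s59asmEta
  unfold s59asmGood at hs
  simp only [e] at hs ⊢
  exact s59gena_gen_x p hS hpS hSsub H hbig πT ψ hπψ hϖ x hs.1 hs.2

end gen

end Fermat.Agent.S59
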