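/-
S59, wall R2 (ETA′), piece **E-ASM**, part 3 (helper72, deputy): `hrat` PLUGGED.

`hrat` of the step (`s59asm_HRat`, S59/Eta/Asm.lean) from helper8's reduction
(`s59m1r_hrat_conc`, S59/Eta/Mult1bConc.lean): E-TQ (landed, `s59asm_hTQ`) + **E-MULT1a** +
**E-MULT1b**, the two multiplicity-one Props for the family of the good primes of the step.

* `s59asm_M1a 𝒪 N q p ψ`, `s59asm_M1b 𝒪 N q p ψ` : the two Props (= `s59m1r_StmtMult1a/b` at the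
  index type `S59asmI N q p`);
* `s59asm_hrat` : E-MULT1a + E-MULT1b + one nonzero eigenvector ⇒ `s59asm_HRat`;
* **`s59asm_step'`** : the step with hypotheses E-MULT1a, E-MULT1b, E-NE only;
* `s59asmM1 p ψ q s` (the two Props at a state) and **`s59asm_chain'`** : the chain.
-/
import Fermat.Agent.S59.Eta.AsmChain
import Fermat.Agent.S59.Eta.Mult1bConc

set_option autoImplicit false
set_option linter.unusedSectionVars false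
set_option linter.unusedVariables false
set_option linter.style.haveILetI false
set_option linter.style.longLine false

noncomputable section

namespace Fermat.Agent.S59

open TensorProduct CongruenceSubgroup Fermat.Agent.S41 Fermat.Agent.S41.PD IsLocalRing

section Rat

variable (𝒪 : Type) [CommRing 𝒪] (N q p : ℕ) [NeZero N] [NeZero q] [hq : Fact q.Prime]

theorem S59asmI.not_dvd_mid {N q p : ℕ} (i : S59asmI N q p) : ¬ i.1 ∣ N * q := fun h =>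
  i.2.2.1 (Dvd.dvd.mul_right h q)

/-- **E-MULT1a** at the step `(N, q)`: no `q`-new `ψ`-eigenvector of level `N q` -/
def s59asm_M1a (ψ : ℕ → 𝒪) : Prop :=
  s59m1r_StmtMult1a 𝒪 N q (hℓ := fun i => S59asmI.fact i) (fun i : S59asmI N q p => i.1)
    (fun i => i.not_dvd_mid) (fun i => ψ i.1)

/-- **E-MULT1b** at the step `(N, q)`: no `q²`-new `ψ`-eigenvector of level `N q q` -/
def s59asm_M1b (ψ : ℕ → 𝒪) : Prop :=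
  s59m1r_StmtMult1b 𝒪 N q (hℓ := fun i => S59asmI.fact i) (fun i : S59asmI N q p => i.1)
    (fun i => i.2.2.1) (fun i => ψ i.1)

variable [IsDomain 𝒪] [IsDiscreteValuationRing 𝒪] [CharZero 𝒪] [Fact p.Prime]

/-- **`hrat`** from E-MULT1a + E-MULT1b (+ E-TQ, landed) -/
theorem s59asm_hrat (hp𝒪 : (p : 𝒪) ∈ maximalIdeal 𝒪) (hqN : ¬ q ∣ N) (hqp : q ≠ p)
    (ψ : ℕ → 𝒪) (h1a : s59asm_M1a 𝒪 N q p ψ) (h1b : s59asm_M1b 𝒪 N q p ψ)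
    (x : s59asmL 𝒪 N) (hx : x ∈ s59asmE 𝒪 N p ψ) (hx0 : x ≠ 0) :
    s59asm_HRat 𝒪 N q p ψ := by
  intro y' hy'
  rw [← s59asm_E'_eq 𝒪 N q p ψ] at hy'
  exact s59m1r_hrat_conc 𝒪 N q (hℓ := fun i => S59asmI.fact i) (fun i : S59asmI N q p => i.1)
    hqN (fun i => i.not_dvd) (fun i => i.not_dvd_mid) (fun i => i.2.2.1) (fun i => ψ i.1) (ψ q)
    (s59asm_hTQ 𝒪 p N q hp𝒪 hqN hqp ψ x hx hx0) h1a h1b y' hy'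

/-- **(R2, THE STEP)** with hypotheses E-MULT1a, E-MULT1b and E-NE only. -/
theorem s59asm_step' (hp2 : p ≠ 2) (hp𝒪 : (p : 𝒪) ∈ maximalIdeal 𝒪)
    (hqN : ¬ q ∣ N) (hqp : q ≠ p) (ψ : ℕ → 𝒪)
    (ℓ₁ ℓ₂ : ℕ) (h₁ : ℓ₁.Prime) (h₂ : ℓ₂.Prime) (h₁N : ¬ ℓ₁ ∣ N * q * q)
    (h₂N : ¬ ℓ₂ ∣ N * q * q) (h₁p : ℓ₁ ≠ p) (h₂p : ℓ₂ ≠ p)
    (hu₁ : IsUnit (ψ ℓ₁ - ((ℓ₁ : 𝒪) + 1))) (hu₂ : IsUnit (ψ ℓ₂ - ((ℓ₂ : 𝒪) + 1)))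
    (h1a : s59asm_M1a 𝒪 N q p ψ) (h1b : s59asm_M1b 𝒪 N q p ψ)
    (x : s59asmL 𝒪 N) (hx : x ∈ s59asmE 𝒪 N p ψ) (hx0 : x ≠ 0) :
    s59asmJ 𝒪 (N * q * q) p ψ (s59asmDep 𝒪 N q (ψ q) x) ≤
      Ideal.span {((q : 𝒪) - 1) * (ψ q ^ 2 - ((q : 𝒪) + 1) ^ 2)} * s59asmJ 𝒪 N p ψ x :=
  s59asm_step 𝒪 p N q hp2 hp𝒪 hqN hqp ψ ℓ₁ ℓ₂ h₁ h₂ h₁N h₂N h₁p h₂p hu₁ hu₂
    (s59asm_hrat 𝒪 N q p hp𝒪 hqN hqp ψ h1a h1b x hx hx0) x hx hx0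

end Rat

section ChainRat

variable {𝒪 : Type} [CommRing 𝒪]

/-- E-MULT1a and E-MULT1b at a state, for the prime `q` -/
def s59asmM1 (p : ℕ) (ψ : ℕ → 𝒪) (q : ℕ) (s : S59asmSt 𝒪) : Prop :=
  ∀ hq : q.Prime,
    @s59asm_M1a 𝒪 _ s.M q p ⟨s.hM⟩ ⟨hq.ne_zero⟩ ψ ∧
    @s59asm_M1b 𝒪 _ s.M q p ⟨s.hM⟩ ⟨hq.ne_zero⟩ ψ

variable [IsDomain 𝒪] [IsDiscreteValuationRing 𝒪] [CharZero 𝒪] (p : ℕ) [Fact p.Prime]

/-- **(R2, THE CHAIN)** with hypotheses E-MULT1a/b at every level and E-NE only. -/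
theorem s59asm_chain' (hp2 : p ≠ 2) (hp𝒪 : (p : 𝒪) ∈ maximalIdeal 𝒪) (ψ : ℕ → 𝒪) {ϖ : 𝒪}
    (hϖ : Irreducible ϖ)
    (ℓ₁ ℓ₂ : ℕ) (h₁ : ℓ₁.Prime) (h₂ : ℓ₂.Prime) (h₁p : ℓ₁ ≠ p) (h₂p : ℓ₂ ≠ p)
    (hu₁ : IsUnit (ψ ℓ₁ - ((ℓ₁ : 𝒪) + 1))) (hu₂ : IsUnit (ψ ℓ₂ - ((ℓ₂ : 𝒪) + 1)))
    (qs : ℕ → ℕ) (s₀ : S59asmSt 𝒪) (n : ℕ)
    (hqs : ∀ i < n, (qs i).Prime ∧ ¬ qs i ∣ (s59asmChain ψ qs s₀ i).M ∧ qs i ≠ p)
    (h₁M : ∀ i ≤ n, ¬ ℓ₁ ∣ (s59asmChain ψ qs s₀ i).M)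
    (h₂M : ∀ i ≤ n, ¬ ℓ₂ ∣ (s59asmChain ψ qs s₀ i).M)
    (hm1 : ∀ i < n, s59asmM1 p ψ (qs i) (s59asmChain ψ qs s₀ i))
    (hs₀ : s59asmGood p ψ ϖ s₀) :
    (∀ i ≤ n, s59asmGood p ψ ϖ (s59asmChain ψ qs s₀ i)) ∧
      ∀ i < n, s59asmEta p ψ (s59asmChain ψ qs s₀ (i + 1)) ≤
        Ideal.span {((qs i : 𝒪) - 1) * (ψ (qs i) ^ 2 - ((qs i : 𝒪) + 1) ^ 2)} *
          s59asmEta p ψ (s59asmChain ψ qs s₀ i) := by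
  -- goodness does not need `hrat`: first the invariant, then the inequalities
  have hpϖ : (p : 𝒪) ∈ Ideal.span {ϖ} := by
    rw [← hϖ.maximalIdeal_eq]
    exact hp𝒪
  have hgood : ∀ i ≤ n, s59asmGood p ψ ϖ (s59asmChain ψ qs s₀ i) := by
    intro i
    induction i with
    | zero => intro _; exact hs₀
    | succ i ih =>
      intro hi
      have hg := ih (by omega)
      obtain ⟨hq, hqM, hqp⟩ := hqs i (by omega)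
      have e : (s59asmChain ψ qs s₀ (i + 1)).M =
          (s59asmChain ψ qs s₀ i).M * qs i * qs i := by
        rw [s59asmChain_succ, s59asmNext_M ψ (qs i) hq.ne_zero]
      have h₁' := h₁M (i + 1) hi
      have h₂' := h₂M (i + 1) hi
      rw [e] at h₁' h₂'
      haveI : NeZero (s59asmChain ψ qs s₀ i).M := ⟨(s59asmChain ψ qs s₀ i).hM⟩
      haveI : NeZero (qs i) := ⟨hq.ne_zero⟩
      haveI : Fact (qs i).Prime := ⟨hq⟩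
      rw [s59asmChain_succ, s59asmNext_eq ψ (qs i) hq.ne_zero]
      exact ⟨s59asm_dep_mem 𝒪 p _ (qs i) hqM hqp ψ _ hg.1,
        s59asm_dep_prim 𝒪 p _ (qs i) hp2 hqM hqp ψ ℓ₁ ℓ₂ h₁ h₂ h₁' h₂' h₁p h₂p hu₁ hu₂ hpϖ _
          hg.1 hg.2⟩
  refine s59asm_chain p hp2 hp𝒪 ψ hϖ ℓ₁ ℓ₂ h₁ h₂ h₁p h₂p hu₁ hu₂ qs s₀ n hqs h₁M h₂M ?_ hs₀
  intro i hi hq0
  obtain ⟨hq, hqM, hqp⟩ := hqs i hi
  have hg := hgood i (by omega)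
  haveI : NeZero (s59asmChain ψ qs s₀ i).M := ⟨(s59asmChain ψ qs s₀ i).hM⟩
  haveI : NeZero (qs i) := ⟨hq.ne_zero⟩
  haveI : Fact (qs i).Prime := ⟨hq⟩
  exact s59asm_hrat 𝒪 _ (qs i) p hp𝒪 hqM hqp ψ (hm1 i hi hq).1 (hm1 i hi hq).2 _ hg.1 hg.ne_zero

end ChainRat

end Fermat.Agent.S59

end
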