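import Fermat.Agent.ES.TopFaith
import Fermat.Agent.S59.Eta.BCLin

/-!
# S59, R2, piece E-MULT1b, step (P2) (helper58, for helper31's assembly)

From the multiplier contract `ES.MultData M p e μ` (`μ : J₀(M)[p^∞] → Hom(Γ₀(M), A)`, onto the classes
`e n ∘ φ`, `φ` integral parabolic) we construct the reduction maps

`r n : Lpar M →+ PDiv M p`,   `μ (r n v) = e n ∘ v`,

with

* (R1) `pⁿ • r n v = 0`;
* (R2) `r n v = 0 → v ∈ pⁿ · Lpar M`;
* (R3) `r n (T_ℓ v) = heckeGen ℓ • r n v` for the good primes `ℓ ∤ M p`.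

Main statement: `s59m1br_exists`.
-/

set_option autoImplicit false
set_option linter.style.haveILetI false
set_option linter.unusedSectionVars false
set_option linter.unusedVariables false

noncomputable section

namespace Fermat.Agent.S59

open CongruenceSubgroup Matrix Fermat.Agent.S41 Fermat.Agent.ES ModularCurve
open scoped MatrixGroups
open ModularCurve.Period (IsParabolicHom parabolicHoms mem_parabolicHoms_iff)

section

variable {M p : ℕ} [NeZero M] {A : Type} [AddCommGroup A] {e : ℕ → ℤ →+ A}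
  {μ : JZero M → (Additive (Gamma0 M) →+ A)}

/-- the class `e n ∘ v` is hit by a point of `PDiv M p` killed by `pⁿ` -/
theorem s59m1br_exists_pt (hμ : MultData M p e μ) (n : ℕ) (v : ↥(Lpar M)) :
    ∃ x : PDiv M p, p ^ n • (x : JZero M) = 0 ∧
      μ (x : JZero M) = (e n).comp (v : HomG M ℤ) := by
  obtain ⟨x, hx, hxn, hμx⟩ := hμ.surj_pDiv (v : HomG M ℤ) v.2 n
  exact ⟨⟨x, hx⟩, hxn, hμx⟩

/-- the point `r_n(v)` -/
def s59m1brPt (hμ : MultData M p e μ) (n : ℕ) (v : ↥(Lpar M)) : PDiv M p :=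
  (s59m1br_exists_pt hμ n v).choose

theorem s59m1brPt_tors (hμ : MultData M p e μ) (n : ℕ) (v : ↥(Lpar M)) :
    p ^ n • ((s59m1brPt hμ n v : PDiv M p) : JZero M) = 0 :=
  (s59m1br_exists_pt hμ n v).choose_spec.1

theorem s59m1brPt_mu (hμ : MultData M p e μ) (n : ℕ) (v : ↥(Lpar M)) :
    μ ((s59m1brPt hμ n v : PDiv M p) : JZero M) = (e n).comp (v : HomG M ℤ) :=
  (s59m1br_exists_pt hμ n v).choose_spec.2

theorem s59m1brPt_toHom (hμ : MultData M p e μ) (n : ℕ) (v : ↥(Lpar M)) :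
    hμ.toHom (s59m1brPt hμ n v) = (e n).comp (v : HomG M ℤ) :=
  s59m1brPt_mu hμ n v

/-- uniqueness of `r_n(v)` -/
theorem s59m1brPt_unique (hμ : MultData M p e μ) (n : ℕ) (v : ↥(Lpar M)) (x : PDiv M p)
    (hx : hμ.toHom x = (e n).comp (v : HomG M ℤ)) : x = s59m1brPt hμ n v :=
  hμ.toHom_injective (by rw [hx, s59m1brPt_toHom])

/-- the reduction map `r_n : Lpar M →+ PDiv M p` -/
def s59m1brHom (hμ : MultData M p e μ) (n : ℕ) : ↥(Lpar M) →+ PDiv M p where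
  toFun := s59m1brPt hμ n
  map_zero' := by
    refine (s59m1brPt_unique hμ n 0 0 ?_).symm
    rw [map_zero, AddSubgroup.coe_zero, AddMonoidHom.comp_zero]
  map_add' v w := by
    refine (s59m1brPt_unique hμ n (v + w) _ ?_).symm
    rw [map_add, s59m1brPt_toHom, s59m1brPt_toHom, AddSubgroup.coe_add, AddMonoidHom.comp_add]

theorem s59m1brHom_apply (hμ : MultData M p e μ) (n : ℕ) (v : ↥(Lpar M)) :
    s59m1brHom hμ n v = s59m1brPt hμ n v := rfl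

/-- `μ (r n v) = e n ∘ v` -/
theorem s59m1brHom_mu (hμ : MultData M p e μ) (n : ℕ) (v : ↥(Lpar M)) :
    μ ((s59m1brHom hμ n v : PDiv M p) : JZero M) = (e n).comp (v : HomG M ℤ) :=
  s59m1brPt_mu hμ n v

/-- (R1) `pⁿ • r n v = 0` -/
theorem s59m1brHom_tors (hμ : MultData M p e μ) (n : ℕ) (v : ↥(Lpar M)) :
    p ^ n • s59m1brHom hμ n v = 0 :=
  (pDiv_smul_eq_zero_iff (p ^ n) _).mpr (s59m1brPt_tors hμ n v)

/-- division of an integral parabolic class whose values are all divisible by `d` -/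
theorem s59m1br_exists_div (d : ℤ) (v : ↥(Lpar M))
    (hd : ∀ γ : Additive (Gamma0 M), d ∣ (v : HomG M ℤ) γ) :
    ∃ w : ↥(Lpar M), ∀ γ : Additive (Gamma0 M), (v : HomG M ℤ) γ = d * (w : HomG M ℤ) γ := by
  let w₀ : HomG M ℤ := AddMonoidHom.mk' (fun γ => (v : HomG M ℤ) γ / d) (fun a b => by
    show (v : HomG M ℤ) (a + b) / d = (v : HomG M ℤ) a / d + (v : HomG M ℤ) b / d
    rw [map_add, Int.add_ediv_of_dvd_left (hd a)])
  have hw₀ : ∀ γ, w₀ γ = (v : HomG M ℤ) γ / d := fun γ => rfl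
  have hpar : w₀ ∈ Lpar M := by
    show IsParabolicHom (Gamma0 M) w₀
    intro γ hγ
    have hv : IsParabolicHom (Gamma0 M) (v : HomG M ℤ) := v.2
    rw [hw₀, hv γ hγ, Int.zero_ediv]
  refine ⟨⟨w₀, hpar⟩, fun γ => ?_⟩
  show (v : HomG M ℤ) γ = d * w₀ γ
  rw [hw₀, Int.mul_ediv_cancel' (hd γ)]

/-- (R2) `r n v = 0 → v ∈ pⁿ · Lpar M` -/
theorem s59m1brHom_ker (hμ : MultData M p e μ) (n : ℕ) (v : ↥(Lpar M))
    (h : s59m1brHom hμ n v = 0) : ∃ w : ↥(Lpar M), v = (p ^ n : ℕ) • w := by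
  have h0 : (e n).comp (v : HomG M ℤ) = 0 := by
    rw [← s59m1brHom_mu hμ n v, h]
    exact hμ.map_zero
  have hd : ∀ γ : Additive (Gamma0 M), (((p ^ n : ℕ) : ℤ)) ∣ (v : HomG M ℤ) γ := by
    intro γ
    refine hμ.ker n _ ?_
    have := DFunLike.congr_fun h0 γ
    rwa [AddMonoidHom.comp_apply, AddMonoidHom.zero_apply] at this
  obtain ⟨w, hw⟩ := s59m1br_exists_div ((p ^ n : ℕ) : ℤ) v hd
  refine ⟨w, Subtype.ext (AddMonoidHom.ext fun γ => ?_)⟩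
  rw [hw γ, AddSubgroup.coe_nsmul, AddMonoidHom.nsmul_apply, nsmul_eq_mul]

/-- (R3) `r n (T_ℓ v) = heckeGen ℓ • r n v` for a good prime `ℓ` -/
theorem s59m1brHom_hecke (hμ : MultData M p e μ) (n : ℕ) (ℓ : ℕ) [Fact ℓ.Prime]
    (hℓM : ¬ ℓ ∣ M) (hℓMp : ¬ ℓ ∣ M * p) (v : ↥(Lpar M)) :
    s59m1brHom hμ n (s59bcTcZ M ℓ hℓM v) =
      (letI := pDivModule M p; heckeGen ⟨ℓ, Fact.out⟩ • s59m1brHom hμ n v) := by
  letI := pDivModule M p
  let ℓ' : GoodPrime M p := ⟨⟨ℓ, Fact.out⟩, hℓMp⟩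
  refine (s59m1brPt_unique hμ n (s59bcTcZ M ℓ hℓM v) _ ?_).symm
  have h1 : (heckeGen (⟨ℓ, Fact.out⟩ : Nat.Primes) • s59m1brHom hμ n v : PDiv M p) =
      pDivOp M p (ℓ' : Nat.Primes) (s59m1brHom hμ n v) :=
    hμ.heckeGen_smul _ _
  rw [h1, hμ.toHom_pDivOp ℓ', s59m1brHom_apply, s59m1brPt_toHom, heckeOp_natural, s59bcTcZ_coe]
  rfl

end

/-- **(P2)** the reduction maps `r_n : Lpar M →+ PDiv M p` of a multiplier contract. -/
theorem s59m1br_exists (M p : ℕ) [NeZero M] [Fact p.Prime] {A : Type} [AddCommGroup A]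
    {e : ℕ → ℤ →+ A} {μ : JZero M → (Additive (Gamma0 M) →+ A)} (hμ : MultData M p e μ) :
    ∃ r : ℕ → ↥(Lpar M) →+ PDiv M p,
      (∀ n v, μ (r n v : JZero M) = (e n).comp (v : HomG M ℤ)) ∧
      (∀ n v, p ^ n • r n v = 0) ∧
      (∀ n v, r n v = 0 → ∃ w : ↥(Lpar M), v = (p ^ n : ℕ) • w) ∧
      (∀ n (ℓ : ℕ) [Fact ℓ.Prime] (hℓM : ¬ ℓ ∣ M) (hℓMp : ¬ ℓ ∣ M * p) v,
        r n (s59bcTcZ M ℓ hℓM v) =
          (letI := pDivModule M p; heckeGen ⟨ℓ, Fact.out⟩ • r n v)) :=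
  ⟨s59m1brHom hμ, s59m1brHom_mu hμ, s59m1brHom_tors hμ, s59m1brHom_ker hμ,
    fun n ℓ _ hℓM hℓMp v => s59m1brHom_hecke hμ n ℓ hℓM hℓMp v⟩

end Fermat.Agent.S59
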