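import Fermat.Agent.S59.Eta.Mult1bFin
import Fermat.Agent.S59.Eta.Mult1bR
import Fermat.Agent.ES.TorsionUnifProved

/-!
# S59, R2, piece E-MULT1b (helper31): **(1b)**, the only open input being μDEG at `(N q, q)`

* `s59m1b_torsionUnifData_muMap` : `ES.muMap M` satisfies the G1 contract `TorsionUnifData`;
* `s59m1b_stmtR` : piece (P2) (helper58, `s59m1br_exists`) for `μ = ES.muMap`,
  `e n = expHom (pⁿ)`;
* **`s59m1b_mult1b`** : E-MULT1b (helper8's Prop `s59m1r_StmtMult1b`) for an eigensystem `ψ` which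
  occurs at level `N` and is residually absolutely irreducible (`hU`), from μDEG at `(N q, q)`
  (helper84's Props `s59mud_RelAlphaAt (N * q) q`, `s59mud_RelBetaAt (N * q) q`).
-/

set_option autoImplicit false
set_option linter.unusedSectionVars false
set_option linter.unusedVariables false
set_option linter.style.haveILetI false

noncomputable section

namespace Fermat.Agent.S59

open ModularCurve Fermat.Agent.ES Fermat.Agent.S31 Fermat.Agent.S32 Fermat.Agent.S30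
open Fermat.Agent.S36 Fermat.Agent.STB Fermat.Agent.S41 CongruenceSubgroup
open scoped MatrixGroups

/-- `ES.muMap M` satisfies the G1 contract. -/
theorem s59m1b_torsionUnifData_muMap (M p : ℕ) [NeZero M] (hp : 0 < p) :
    TorsionUnifData M p (muMap M) := by
  have hE : MuExists M := muExists M
  have hU : MuUnique M := muUnique
  have hA : MuAdd M := muAdd
  have hI : MuInj M := muInj M
  have hH : MuHecke M := muHecke M
  have hS : MuSurj M := Sur.muSurj M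
  refine ⟨?_, ?_, ?_, ?_⟩
  · rintro x y ⟨a, ha⟩ ⟨b, hb⟩
    have hn : 0 < p ^ (a + b) := pow_pos hp _
    have hx : p ^ (a + b) • x = 0 := by rw [pow_add, mul_comm, mul_smul, ha, smul_zero]
    have hy : p ^ (a + b) • y = 0 := by rw [pow_add, mul_smul, hb, smul_zero]
    exact muMap_eq hU hn (hA _ hn x y _ _ (muRel_muMap hE hU hn hx) (muRel_muMap hE hU hn hy))
  · rintro x ⟨a, ha⟩ h0
    have hn : 0 < p ^ a := pow_pos hp _
    have := muRel_muMap hE hU hn ha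
    rw [h0] at this
    exact hI _ hn x this
  · rintro ℓ x ⟨a, ha⟩
    have hn : 0 < p ^ a := pow_pos hp _
    exact muMap_eq hU hn (hH p ℓ _ hn x _ (muRel_muMap hE hU hn ha))
  · intro φ hφ n
    have hn : 0 < p ^ n := pow_pos hp _
    obtain ⟨x, hx, hrel⟩ := hS φ hφ (p ^ n) hn
    exact ⟨x, hx, muMap_eq hU hn hrel⟩

/-- piece (P2) for `μ = ES.muMap`. -/
theorem s59m1b_stmtR (M p : ℕ) [NeZero M] [Fact p.Prime] : s59m1b_StmtR M p := by
  have hp : p.Prime := Fact.out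
  exact s59m1br_exists M p
    (multData_of_torsionUnifData hp.ne_zero (s59m1b_torsionUnifData_muMap M p hp.pos))

/-- **E-MULT1b**: no `q²`-new eigenvector at level `N q q` for an eigensystem which occurs at level
`N` and is residually absolutely irreducible.  Only open input: μDEG at `(N q, q)`. -/
theorem s59m1b_mult1b {N q p : ℕ} [NeZero N] [NeZero q] [hqF : Fact q.Prime]
    [Fact p.Prime] (hqN : ¬ q ∣ N) (hqp : q ≠ p) (hp2 : p ≠ 2)
    (S : Finset ℕ) (hpS : p ∈ S) (hMS : ∀ r : ℕ, r.Prime → r ∣ N * q * q → r ∈ S)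
    (𝒪 : Type) [CommRing 𝒪] [IsDomain 𝒪] [IsDiscreteValuationRing 𝒪]
    [IsAdicComplete (IsLocalRing.maximalIdeal 𝒪) 𝒪] [CharZero 𝒪]
    (hp𝒪 : (p : 𝒪) ∈ IsLocalRing.maximalIdeal 𝒪)
    {ι : Type} (ℓ : ι → ℕ) [hℓ : ∀ i, Fact (ℓ i).Prime]
    (hN : ∀ i, ¬ ℓ i ∣ N) (hNqq : ∀ i, ¬ ℓ i ∣ N * q * q)
    (hcov : ∀ r : ℕ, r.Prime → r ∉ S → ∃ i, ℓ i = r)
    (ψ : ι → 𝒪)
    (x₀ : s59bccL 𝒪 (Lpar N)) (hx₀ : x₀ ≠ 0)
    (hx₀eig : ∀ i, s59bccMap 𝒪 (s59bcTcZ N (ℓ i) (hN i)) x₀ = ψ i • x₀)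
    (hU : ∀ t₀ : GQ → 𝒪,
      IsPseudoChar2 (cycloCharO p (IsLocalRing.maximalIdeal 𝒪) hp𝒪) t₀ →
      (∀ i, ℓ i ∉ S → ∀ A : ValuationSubring (AlgebraicClosure ℚ), A.LiesOverPrime (ℓ i) →
        ∀ τ : GQ, A.IsFrobeniusAt τ (ℓ i) → t₀ τ = ψ i) →
      (∀ k : ℕ, ∃ E : IntermediateField ℚ (AlgebraicClosure ℚ), FiniteDimensional ℚ E ∧
        ∀ σ : GQ, (∀ a ∈ E, σ a = a) → ∀ g : GQ,
          t₀ (σ * g) - t₀ g ∈ IsLocalRing.maximalIdeal 𝒪 ^ k) →
      ∃ g₁ g₂ g₃ : GQ, t₀ (g₁ * g₂ * g₃) - t₀ (g₂ * g₁ * g₃) ∉ IsLocalRing.maximalIdeal 𝒪)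
    (hα : s59mud_RelAlphaAt (N * q) q) (hβ : s59mud_RelBetaAt (N * q) q) :
    s59m1r_StmtMult1b 𝒪 N q ℓ hNqq ψ :=
  s59m1b_mult1b_of_R hqN hqp hp2 S hpS hMS 𝒪 hp𝒪 ℓ hN hNqq hcov ψ x₀ hx₀ hx₀eig hU hα hβ
    (s59m1b_stmtR (N * q * q) p)

end Fermat.Agent.S59
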