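import Fermat.Agent.S59.Eta.Mult1bPs
import Fermat.Agent.EC.TateResOdd
import Fermat.Agent.EC.Cmp
import Fermat.Agent.S32.KeyAlg
import Fermat.Agent.Cheb.Final

/-!
# S59, R2, piece E-MULT1b, step (U) (helper58): the unit commutator trace

`hU` of `s59m1b_notFaithful` ("the level-`N` eigensystem `ψ₀` is residually absolutely irreducible",
in pseudo-character form) from the curve:

`W[p]` irreducible, `p` odd, `t₀` a pseudo-character over a local ring `𝒪'` (`p ∈ 𝔪`) which is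
constant modulo `𝔪` on the cosets of an open subgroup and has `t₀(Frob_ℓ) ≡ a_ℓ(W)`,
`ε(Frob_ℓ) ≡ ℓ` modulo `𝔪` outside a finite set of primes
`⇒ ∃ g₁ g₂ g₃, t₀(g₁ g₂ g₃) − t₀(g₂ g₁ g₃) ∉ 𝔪`.

Route: `t₀ mod 𝔪` and the trace of `T_p(W) mod p` are two pseudo-characters with values in the
residue field `k` of `𝒪'`; they agree on the Frobenius elements, hence everywhere (weak Chebotarev
+ the recursion on the powers of a Frobenius); `T_p(W)` is residually absolutely irreducible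
(`EC.tateResInt_isAbsolutelyIrreducible`), so it has a unit commutator trace
(`S32.exists_unit_trace`).  No representation is attached to `t₀`.

* `s59m1bu_pow_eq`, `s59m1bu_eq_of_frob` : two pseudo-characters (possibly different determinants)
  which agree, with their determinants, on the Frobenius elements outside `S` are equal;
* `s59m1bu_mat_trace` : `tr(XY) + det(Y) tr(XY⁻¹) = tr(X) tr(Y)` for `2 × 2` matrices;
* `s59m1bu_isPseudoChar2_rep` : the trace of a `GaloisRepAdic`, pushed along a ring homomorphism;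
* `s59m1bu_unit` : the statement; `s59m1bu_hU` : the literal `hU` of `s59m1b_notFaithful`.
-/

set_option autoImplicit false
set_option linter.unusedSectionVars false
set_option linter.unusedVariables false

noncomputable section

namespace Fermat.Agent.S59

open Fermat.Agent.ES Fermat.Agent.S30 Fermat.Agent.S31 Fermat.Agent.EC Polynomial

/-! ## Pseudo-characters with possibly different determinants -/

/-- a pseudo-character is determined on the powers of `τ` by `t τ` and `ε τ` -/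
theorem s59m1bu_pow_eq {G R : Type*} [Group G] [CommRing R] {ε ε' : G →* Rˣ} {t t' : G → R}
    (ht : IsPseudoChar2 ε t) (ht' : IsPseudoChar2 ε' t') (τ : G) (h : t τ = t' τ)
    (hε : (ε τ : R) = (ε' τ : R)) :
    ∀ j : ℕ, t (τ ^ j) = t' (τ ^ j) := by
  have key : ∀ j : ℕ, t (τ ^ j) = t' (τ ^ j) ∧ t (τ ^ (j + 1)) = t' (τ ^ (j + 1)) := by
    intro j
    induction j with
    | zero =>
      refine ⟨?_, ?_⟩
      · rw [pow_zero, ht.map_one, ht'.map_one]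
      · rw [zero_add, pow_one]; exact h
    | succ j ih =>
      refine ⟨ih.2, ?_⟩
      have h1 := ht.mul (τ ^ (j + 1)) τ
      have h2 := ht'.mul (τ ^ (j + 1)) τ
      have e1 : τ ^ (j + 1) * τ = τ ^ (j + 1 + 1) := (pow_succ τ (j + 1)).symm
      have e2 : τ ^ (j + 1) * τ⁻¹ = τ ^ j := by
        rw [pow_succ, mul_assoc, mul_inv_cancel, mul_one]
      rw [e1, e2] at h1 h2
      have h3 : t (τ ^ (j + 1 + 1)) = t (τ ^ (j + 1)) * t τ - (ε τ : R) * t (τ ^ j) := by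
        rw [← h1]; ring
      have h4 : t' (τ ^ (j + 1 + 1)) = t' (τ ^ (j + 1)) * t' τ - (ε' τ : R) * t' (τ ^ j) := by
        rw [← h2]; ring
      rw [h3, h4, ih.1, ih.2, h, hε]
  exact fun j => (key j).1

/-- if `γ` and `δ` agree on a field modulo which `t` is constant, then `t γ = t δ` -/
theorem s59m1bu_eq_of_fix {R : Type*} [CommRing R] (ε : GQ →* Rˣ)
    (t : GQ → R) (ht : IsPseudoChar2 ε t)
    (E : IntermediateField ℚ (AlgebraicClosure ℚ))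
    (hE : ∀ σ : GQ, (∀ a ∈ E, σ a = a) → ∀ g : GQ, t (σ * g) = t g)
    (γ δ : GQ) (hγδ : ∀ a ∈ E, δ a = γ a) :
    t γ = t δ := by
  obtain ⟨σ, hσ⟩ : ∃ σ : GQ, σ = δ⁻¹ * γ := ⟨_, rfl⟩
  have hσE : ∀ a ∈ E, σ a = a := by
    intro a ha
    have e : (δ⁻¹ * δ) a = a := by rw [inv_mul_cancel]; rfl
    rw [AlgEquiv.mul_apply] at e
    rw [hσ, AlgEquiv.mul_apply, ← hγδ a ha]
    exact e
  have hγ : γ = δ * σ := by rw [hσ, mul_inv_cancel_left]
  rw [hγ, ht.comm]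
  exact hE σ hσE δ

/-- two locally constant pseudo-characters which agree, with their determinants, on the Frobenius
elements outside `S` are equal -/
theorem s59m1bu_eq_of_frob {R : Type*} [CommRing R] (ε ε' : GQ →* Rˣ) (S : Finset ℕ)
    (t t' : GQ → R) (ht : IsPseudoChar2 ε t) (ht' : IsPseudoChar2 ε' t')
    (hfrob : ∀ ℓ : ℕ, ℓ.Prime → ℓ ∉ S →
      ∀ A : ValuationSubring (AlgebraicClosure ℚ), A.LiesOverPrime ℓ →
        ∀ τ : GQ, A.IsFrobeniusAt τ ℓ → t τ = t' τ ∧ (ε τ : R) = (ε' τ : R))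
    (hc : ∃ E : IntermediateField ℚ (AlgebraicClosure ℚ), FiniteDimensional ℚ E ∧
      ∀ σ : GQ, (∀ a ∈ E, σ a = a) → ∀ g : GQ, t (σ * g) = t g)
    (hc' : ∃ E : IntermediateField ℚ (AlgebraicClosure ℚ), FiniteDimensional ℚ E ∧
      ∀ σ : GQ, (∀ a ∈ E, σ a = a) → ∀ g : GQ, t' (σ * g) = t' g) :
    t = t' := by
  funext γ
  obtain ⟨E, hEfin, hE⟩ := hc
  obtain ⟨E', hE'fin, hE'⟩ := hc'
  obtain ⟨F, hFfin, hFgal, hEF, hE'F, -⟩ := exists_galois_hull E E' E'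
  obtain ⟨ℓ, A, τ, m, hℓ, hℓS, hA, hτ, hτm⟩ := Fermat.Agent.Cheb.exists_frobenius_pow_eq F S γ
  obtain ⟨h1, h2⟩ := hfrob ℓ hℓ hℓS A hA τ hτ
  rw [s59m1bu_eq_of_fix ε t ht E hE γ (τ ^ m) (fun a ha => hτm a (hEF ha)),
    s59m1bu_eq_of_fix ε' t' ht' E' hE' γ (τ ^ m) (fun a ha => hτm a (hE'F ha))]
  exact s59m1bu_pow_eq ht ht' τ h1 h2 m

/-- push-forward of a pseudo-character along a ring homomorphism -/
theorem s59m1bu_isPseudoChar2_map {G R R' : Type*} [Group G] [CommRing R] [CommRing R']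
    (φ : R →+* R') {ε : G →* Rˣ} {t : G → R} (ht : IsPseudoChar2 ε t) :
    IsPseudoChar2 ((Units.map φ.toMonoidHom).comp ε) (fun g => φ (t g)) where
  map_one := by
    show φ (t 1) = 2
    rw [ht.map_one, map_ofNat]
  comm x y := by
    show φ (t (x * y)) = φ (t (y * x))
    rw [ht.comm]
  mul x y := by
    show φ (t (x * y)) + φ (ε y : R) * φ (t (x * y⁻¹)) = φ (t x) * φ (t y)
    rw [← map_mul, ← map_add, ht.mul, map_mul]

/-! ## The trace of a two-dimensional representation -/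

section Mat

variable {R : Type*} [CommRing R]

theorem s59m1bu_mat_add_adjugate (Y : Matrix (Fin 2) (Fin 2) R) :
    Y + Y.adjugate = Y.trace • (1 : Matrix (Fin 2) (Fin 2) R) := by
  rw [Matrix.adjugate_fin_two, Matrix.trace_fin_two]
  ext i j
  fin_cases i <;> fin_cases j <;> (simp; try ring)

/-- `tr(XY) + det(Y) tr(XY⁻¹) = tr(X) tr(Y)` for `2 × 2` matrices -/
theorem s59m1bu_mat_trace (X Y Y' : Matrix (Fin 2) (Fin 2) R) (h : Y * Y' = 1) :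
    (X * Y).trace + Y.det * (X * Y').trace = X.trace * Y.trace := by
  have hadj : Y.det • Y' = Y.adjugate := by
    have h1 : Y.adjugate * (Y * Y') = Y.adjugate := by rw [h, mul_one]
    rw [← mul_assoc, Matrix.adjugate_mul, Matrix.smul_mul, one_mul] at h1
    exact h1
  have h2 : X * Y + Y.det • (X * Y') = Y.trace • X := by
    rw [← Matrix.mul_smul, hadj, ← mul_add, s59m1bu_mat_add_adjugate, Matrix.mul_smul, mul_one]
  have h3 := congrArg Matrix.trace h2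
  rw [Matrix.trace_add, Matrix.trace_smul, Matrix.trace_smul, smul_eq_mul, smul_eq_mul] at h3
  rw [h3, mul_comm]

end Mat

section Rep

variable {O : Type} [CommRing O] [IsLocalRing O]

theorem s59m1bu_trace_eq (ρ : GaloisRepAdic O) (g : GQ) :
    LinearMap.trace O ρ.V (ρ.ρ g) = (cmpMat ρ g).trace :=
  LinearMap.trace_eq_matrix_trace O (Module.finBasisOfFinrankEq O ρ.V ρ.finrank_eq) (ρ.ρ g)

theorem s59m1bu_det_eq (ρ : GaloisRepAdic O) (g : GQ) :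
    ((ρ.det g : Oˣ) : O) = (cmpMat ρ g).det := by
  show LinearMap.det (ρ.ρ g) = _
  exact (LinearMap.det_toMatrix (Module.finBasisOfFinrankEq O ρ.V ρ.finrank_eq) (ρ.ρ g)).symm

/-- the trace of a `GaloisRepAdic` is a pseudo-character with determinant `ρ.det` -/
theorem s59m1bu_isPseudoChar2_rep (ρ : GaloisRepAdic O) :
    IsPseudoChar2 ρ.det (fun g => LinearMap.trace O ρ.V (ρ.ρ g)) where
  map_one := by
    show LinearMap.trace O ρ.V (ρ.ρ 1) = 2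
    rw [s59m1bu_trace_eq, cmpMat_one, Matrix.trace_one, Fintype.card_fin]
    norm_num
  comm x y := by
    show LinearMap.trace O ρ.V (ρ.ρ (x * y)) = LinearMap.trace O ρ.V (ρ.ρ (y * x))
    rw [ρ.ρ.map_mul x y, ρ.ρ.map_mul y x, LinearMap.trace_mul_comm]
  mul x y := by
    show LinearMap.trace O ρ.V (ρ.ρ (x * y)) + ((ρ.det y : Oˣ) : O) *
      LinearMap.trace O ρ.V (ρ.ρ (x * y⁻¹)) =
        LinearMap.trace O ρ.V (ρ.ρ x) * LinearMap.trace O ρ.V (ρ.ρ y)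
    rw [s59m1bu_trace_eq, s59m1bu_trace_eq, s59m1bu_trace_eq, s59m1bu_trace_eq, s59m1bu_det_eq,
      cmpMat_mul, cmpMat_mul]
    refine s59m1bu_mat_trace _ _ _ ?_
    rw [← cmpMat_mul, mul_inv_cancel, cmpMat_one]

/-- the trace of a `GaloisRepAdic` is constant modulo `𝔪` on the cosets of an open subgroup -/
theorem s59m1bu_rep_cont (ρ : GaloisRepAdic O) :
    ∃ E : IntermediateField ℚ (AlgebraicClosure ℚ), FiniteDimensional ℚ E ∧
      ∀ σ : GQ, (∀ a ∈ E, σ a = a) → ∀ g : GQ,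
        LinearMap.trace O ρ.V (ρ.ρ (σ * g)) - LinearMap.trace O ρ.V (ρ.ρ g) ∈
          IsLocalRing.maximalIdeal O := by
  obtain ⟨L, hL, h⟩ := ρ.isAdicContinuous 1
  refine ⟨L, hL, fun σ hσ g => ?_⟩
  have hσ' : ∀ v : ρ.V, ρ.ρ σ v - v ∈ IsLocalRing.maximalIdeal O • (⊤ : Submodule O ρ.V) := by
    intro v
    have := h σ hσ v
    rwa [pow_one] at this
  have hcomm : LinearMap.trace O ρ.V (ρ.ρ (σ * g)) = LinearMap.trace O ρ.V (ρ.ρ (g * σ)) := by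
    rw [ρ.ρ.map_mul σ g, ρ.ρ.map_mul g σ, LinearMap.trace_mul_comm]
  rw [hcomm, s59m1bu_trace_eq, s59m1bu_trace_eq, Matrix.trace_fin_two, Matrix.trace_fin_two]
  have h0 := cmpMat_congr ρ (IsLocalRing.maximalIdeal O) g σ hσ' 0 0
  have h1 := cmpMat_congr ρ (IsLocalRing.maximalIdeal O) g σ hσ' 1 1
  have e : cmpMat ρ (g * σ) 0 0 + cmpMat ρ (g * σ) 1 1 - (cmpMat ρ g 0 0 + cmpMat ρ g 1 1)
      = (cmpMat ρ (g * σ) 0 0 - cmpMat ρ g 0 0) + (cmpMat ρ (g * σ) 1 1 - cmpMat ρ g 1 1) := by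
    ring
  rw [e]
  exact Ideal.add_mem _ h0 h1

/-- trace and determinant from the characteristic polynomial `X² − a X + b` -/
theorem s59m1bu_trace_det_of_charpoly (ρ : GaloisRepAdic O) (g : GQ) (a b : O)
    (h : LinearMap.charpoly (ρ.ρ g) = X ^ 2 - C a * X + C b) :
    LinearMap.trace O ρ.V (ρ.ρ g) = a ∧ ((ρ.det g : Oˣ) : O) = b := by
  rw [s59m1bu_trace_eq, s59m1bu_det_eq]
  rw [← cmpMat_charpoly, Matrix.charpoly_fin_two] at h
  have h0 := congrArg (fun f => f.coeff 0) h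
  have h1 := congrArg (fun f => f.coeff 1) h
  simp [Polynomial.coeff_X, Polynomial.coeff_C, Polynomial.coeff_X_pow] at h0 h1
  exact ⟨h1, h0⟩

end Rep

/-! ## The statement -/

section Main

open IsLocalRing

variable (W : WeierstrassCurve ℤ) (p : ℕ) [hp : Fact p.Prime]

/-- **(U)** the unit commutator trace of a pseudo-character which is congruent to `W` on the
Frobenius elements outside `S`. -/
theorem s59m1bu_unit (hΔ : W.Δ ≠ 0) (hp2 : p ≠ 2) (hirr : W.ModRepIsIrreducible p)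
    {𝒪' : Type} [CommRing 𝒪'] [IsLocalRing 𝒪'] (hp𝒪 : (p : 𝒪') ∈ maximalIdeal 𝒪')
    (S : Finset ℕ) (ε : GQ →* 𝒪'ˣ) (t₀ : GQ → 𝒪') (ht₀ : IsPseudoChar2 ε t₀)
    (hfrob : ∀ ℓ : ℕ, ℓ.Prime → ℓ ∉ S → ℓ ≠ p → ¬ (ℓ : ℤ) ∣ W.Δ →
      ∀ A : ValuationSubring (AlgebraicClosure ℚ), A.LiesOverPrime ℓ →
        ∀ τ : GQ, A.IsFrobeniusAt τ ℓ →
          t₀ τ - ((W.apOfModel ℓ : ℤ) : 𝒪') ∈ maximalIdeal 𝒪' ∧
            (ε τ : 𝒪') - (ℓ : 𝒪') ∈ maximalIdeal 𝒪')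
    (hc : ∃ E : IntermediateField ℚ (AlgebraicClosure ℚ), FiniteDimensional ℚ E ∧
      ∀ σ : GQ, (∀ a ∈ E, σ a = a) → ∀ g : GQ, t₀ (σ * g) - t₀ g ∈ maximalIdeal 𝒪') :
    ∃ g₁ g₂ g₃ : GQ, t₀ (g₁ * g₂ * g₃) - t₀ (g₂ * g₁ * g₃) ∉ maximalIdeal 𝒪' := by
  classical
  -- the residue field and the two reductions
  let k := ResidueField 𝒪'
  let res : 𝒪' →+* k := residue 𝒪'
  have hres0 : ∀ x : 𝒪', res x = 0 ↔ x ∈ maximalIdeal 𝒪' := fun x => residue_eq_zero_iff x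
  have hreseq : ∀ x y : 𝒪', x - y ∈ maximalIdeal 𝒪' → res x = res y := by
    intro x y h
    have := (hres0 _).mpr h
    rwa [map_sub, sub_eq_zero] at this
  have hchar : CharP k p := by
    refine (CharP.charP_iff_prime_eq_zero hp.out).mpr ?_
    have := (hres0 _).mpr hp𝒪
    rwa [map_natCast] at this
  let φ₀ : ℤ_[p] →+* k := (ZMod.castHom (dvd_refl p) k).comp PadicInt.toZMod
  have hφ₀ : ∀ x : ℤ_[p], φ₀ x = 0 → x ∈ maximalIdeal ℤ_[p] := by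
    intro x hx
    have h1 : PadicInt.toZMod x = 0 :=
      (ZMod.castHom (dvd_refl p) k).injective (by rw [map_zero]; exact hx)
    rw [← PadicInt.ker_toZMod]
    exact h1
  set T := tateRepInt W hΔ p with hT
  -- the two pseudo-characters with values in `k`
  have ht₁ := s59m1bu_isPseudoChar2_map res ht₀
  have ht₂ := s59m1bu_isPseudoChar2_map φ₀ (s59m1bu_isPseudoChar2_rep T)
  -- the excluded primes
  let S' : Finset ℕ := S ∪ ({2, p} ∪ W.Δ.natAbs.primeFactors)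
  have hS' : ∀ ℓ : ℕ, ℓ.Prime → ℓ ∉ S' → ℓ ∉ S ∧ ℓ ≠ 2 ∧ ℓ ≠ p ∧ ¬ (ℓ : ℤ) ∣ W.Δ := by
    intro ℓ hℓ hℓS'
    simp only [S', Finset.mem_union, Finset.mem_insert, Finset.mem_singleton,
      Nat.mem_primeFactors, not_or, not_and] at hℓS'
    obtain ⟨h1, ⟨h2, h3⟩, h4⟩ := hℓS'
    refine ⟨h1, h2, h3, fun hd => ?_⟩
    have hd' : ℓ ∣ W.Δ.natAbs := Int.natCast_dvd.mp hd
    exact h4 hℓ hd' (Int.natAbs_ne_zero.mpr hΔ)
  -- equality of the two
  have heq : (fun g => res (t₀ g)) = fun g => φ₀ (LinearMap.trace ℤ_[p] T.V (T.ρ g)) := by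
    refine s59m1bu_eq_of_frob _ _ S' _ _ ht₁ ht₂ ?_ ?_ ?_
    · intro ℓ hℓ hℓS' A hA τ hτ
      obtain ⟨hℓS, hℓ2, hℓp, hℓΔ⟩ := hS' ℓ hℓ hℓS'
      obtain ⟨h1, h2⟩ := hfrob ℓ hℓ hℓS hℓp hℓΔ A hA τ hτ
      obtain ⟨h3, h4⟩ := s59m1bu_trace_det_of_charpoly T τ _ _
        (tateRepInt_charpoly_frob W hΔ p hℓ hℓ2 hℓΔ hℓp A hA τ hτ)
      refine ⟨?_, ?_⟩
      · show res (t₀ τ) = φ₀ (LinearMap.trace ℤ_[p] T.V (T.ρ τ))
        rw [h3, hreseq _ _ h1, map_intCast, map_intCast]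
      · show res (ε τ : 𝒪') = φ₀ ((T.det τ : ℤ_[p]ˣ) : ℤ_[p])
        rw [h4, hreseq _ _ h2, map_natCast, map_natCast]
    · obtain ⟨E, hE, h⟩ := hc
      exact ⟨E, hE, fun σ hσ g => hreseq _ _ (h σ hσ g)⟩
    · obtain ⟨E, hE, h⟩ := s59m1bu_rep_cont T
      refine ⟨E, hE, fun σ hσ g => ?_⟩
      have h1 := h σ hσ g
      have h2 : φ₀ (LinearMap.trace ℤ_[p] T.V (T.ρ (σ * g)) - LinearMap.trace ℤ_[p] T.V (T.ρ g))
          = 0 := by
        show (ZMod.castHom (dvd_refl p) k) (PadicInt.toZMod _) = 0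
        have h3 : PadicInt.toZMod
            (LinearMap.trace ℤ_[p] T.V (T.ρ (σ * g)) - LinearMap.trace ℤ_[p] T.V (T.ρ g)) = 0 := by
          rw [← RingHom.mem_ker, PadicInt.ker_toZMod]
          exact h1
        rw [h3, map_zero]
      rwa [map_sub, sub_eq_zero] at h2
  -- the unit commutator trace of the Tate module
  obtain ⟨g₁, g₂, g₃, hg⟩ := Fermat.Agent.S32.exists_unit_trace T
    (tateResInt_isAbsolutelyIrreducible W hΔ p hp2 hirr)
  refine ⟨g₁, g₂, g₃, fun hmem => hg ?_⟩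
  apply hφ₀
  rw [map_sub, ← congrFun heq (g₁ * g₂ * g₃), ← congrFun heq (g₂ * g₁ * g₃)]
  show res (t₀ (g₁ * g₂ * g₃)) - res (t₀ (g₂ * g₁ * g₃)) = 0
  rw [← map_sub]
  exact (hres0 _).mpr hmem

/-- **(U), literal**: the hypothesis `hU` of `s59m1b_notFaithful`, for an eigensystem `ψ₀` of
level `N` which is congruent to `W` modulo `𝔪`. -/
theorem s59m1bu_hU (hΔ : W.Δ ≠ 0) (hp2 : p ≠ 2) (hirr : W.ModRepIsIrreducible p)
    {N : ℕ} [NeZero N] (S : Finset ℕ) (hpS : p ∈ S)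
    (𝒪' : Type) [CommRing 𝒪'] [IsLocalRing 𝒪'] [IsAdicComplete (maximalIdeal 𝒪') 𝒪']
    (hp𝒪 : (p : 𝒪') ∈ maximalIdeal 𝒪')
    (ψ₀ : CuspForm.heckeAlgebra N 2 (↑S : Set ℕ) →+* 𝒪')
    (hN : ∀ r : ℕ, r.Prime → r ∣ N → r ∈ S)
    (hψ : ∀ (ℓ : ℕ) (hℓ : ℓ.Prime) (hℓN : ¬ ℓ ∣ N) (hℓS : ℓ ∉ (↑S : Set ℕ)),
      ¬ (ℓ : ℤ) ∣ W.Δ →
        ψ₀ (CuspForm.heckeAlgebra.T hℓ hℓN hℓS) - ((W.apOfModel ℓ : ℤ) : 𝒪') ∈ maximalIdeal 𝒪') :
    ∀ t₀ : GQ → 𝒪',
      IsPseudoChar2 (cycloCharO p (maximalIdeal 𝒪') hp𝒪) t₀ →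
      (∀ (ℓ : ℕ) (hℓ : ℓ.Prime) (hℓN : ¬ ℓ ∣ N) (hℓS : ℓ ∉ (↑S : Set ℕ)),
        ∀ A : ValuationSubring (AlgebraicClosure ℚ), A.LiesOverPrime ℓ →
          ∀ τ : GQ, A.IsFrobeniusAt τ ℓ → t₀ τ = ψ₀ (CuspForm.heckeAlgebra.T hℓ hℓN hℓS)) →
      (∀ k : ℕ, ∃ E : IntermediateField ℚ (AlgebraicClosure ℚ), FiniteDimensional ℚ E ∧
        ∀ σ : GQ, (∀ a ∈ E, σ a = a) → ∀ g : GQ,
          t₀ (σ * g) - t₀ g ∈ maximalIdeal 𝒪' ^ k) →
      ∃ g₁ g₂ g₃ : GQ, t₀ (g₁ * g₂ * g₃) - t₀ (g₂ * g₁ * g₃) ∉ maximalIdeal 𝒪' := by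
  intro t₀ ht₀ hfr hcont
  refine s59m1bu_unit W p hΔ hp2 hirr hp𝒪 S _ t₀ ht₀ ?_ ?_
  · intro ℓ hℓ hℓS hℓp hℓΔ A hA τ hτ
    have hℓS' : ℓ ∉ (↑S : Set ℕ) := fun h => hℓS (Finset.mem_coe.mp h)
    have hℓN : ¬ ℓ ∣ N := fun h => hℓS (hN ℓ hℓ h)
    refine ⟨?_, ?_⟩
    · rw [hfr ℓ hℓ hℓN hℓS' A hA τ hτ]
      exact hψ ℓ hℓ hℓN hℓS' hℓΔ
    · rw [cycloCharO_frob p (maximalIdeal 𝒪') hp𝒪 ℓ hℓ hℓp A hA τ hτ, sub_self]
      exact Ideal.zero_mem _
  · obtain ⟨E, hE, h⟩ := hcont 1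
    refine ⟨E, hE, fun σ hσ g => ?_⟩
    have := h σ hσ g
    rwa [pow_one] at this

end Main

end Fermat.Agent.S59
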