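/-
S59, wall R2 (ETA′), piece **E-ASM**, part 4 (helper72, deputy): E-MULT1b PLUGGED.

`s59asm_M1b 𝒪 N q p ψ` (S59/Eta/AsmRat.lean; = helper8's `s59m1r_StmtMult1b` at the family of the
good primes of the step) from helper31's `s59m1b_mult1b` (S59/Eta/Mult1bMain.lean), with `hU` from
helper58's `s59m1bu_unit` (S59/Eta/Mult1bUW.lean): the eigensystem `ψ` is congruent to the curve
`W` (`ψ ℓ ≡ a_ℓ(W)` mod `𝔪`) and `W[p]` is irreducible.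

* `s59asm_hU_W`     : `hU` in the family form of `s59m1b_mult1b`;
* **`s59asm_M1b_of_W`** : E-MULT1b at the step `(N, q)`; open inputs: μDEG at `(N q, q)` only
  (`s59mud_RelAlphaAt (N * q) q`, `s59mud_RelBetaAt (N * q) q`, helper84).
-/
import Fermat.Agent.S59.Eta.AsmRat
import Fermat.Agent.S59.Eta.Mult1bMain
import Fermat.Agent.S59.Eta.Mult1bUW

set_option autoImplicit false
set_option linter.unusedSectionVars false
set_option linter.unusedVariables false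
set_option linter.style.haveILetI false
set_option linter.style.longLine false

noncomputable section

namespace Fermat.Agent.S59

open TensorProduct CongruenceSubgroup Fermat.Agent.S41 IsLocalRing
open Fermat.Agent.ES Fermat.Agent.S30 Fermat.Agent.S31

/-- **(U), family form**: `hU` of `s59m1b_mult1b` for an eigensystem congruent to `W`. -/
theorem s59asm_hU_W (W : WeierstrassCurve ℤ) (hΔ : W.Δ ≠ 0) (p : ℕ) [Fact p.Prime]
    (hp2 : p ≠ 2) (hirr : W.ModRepIsIrreducible p)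
    {𝒪 : Type} [CommRing 𝒪] [IsLocalRing 𝒪] [IsAdicComplete (maximalIdeal 𝒪) 𝒪]
    (hp𝒪 : (p : 𝒪) ∈ maximalIdeal 𝒪)
    {ι : Type} (ℓ : ι → ℕ) (S : Finset ℕ)
    (hcov : ∀ r : ℕ, r.Prime → r ∉ S → ∃ i, ℓ i = r) (ψ : ι → 𝒪)
    (hψW : ∀ i, ℓ i ∉ S → ¬ ((ℓ i : ℕ) : ℤ) ∣ W.Δ →
      ψ i - ((W.apOfModel (ℓ i) : ℤ) : 𝒪) ∈ maximalIdeal 𝒪) :
    ∀ t₀ : GQ → 𝒪,
      IsPseudoChar2 (cycloCharO p (maximalIdeal 𝒪) hp𝒪) t₀ →
      (∀ i, ℓ i ∉ S → ∀ A : ValuationSubring (AlgebraicClosure ℚ), A.LiesOverPrime (ℓ i) →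
        ∀ τ : GQ, A.IsFrobeniusAt τ (ℓ i) → t₀ τ = ψ i) →
      (∀ k : ℕ, ∃ E : IntermediateField ℚ (AlgebraicClosure ℚ), FiniteDimensional ℚ E ∧
        ∀ σ : GQ, (∀ a ∈ E, σ a = a) → ∀ g : GQ,
          t₀ (σ * g) - t₀ g ∈ maximalIdeal 𝒪 ^ k) →
      ∃ g₁ g₂ g₃ : GQ, t₀ (g₁ * g₂ * g₃) - t₀ (g₂ * g₁ * g₃) ∉ maximalIdeal 𝒪 := by
  intro t₀ ht₀ hfr hcont
  refine s59m1bu_unit W p hΔ hp2 hirr hp𝒪 S _ t₀ ht₀ ?_ ?_
  · intro r hr hrS hrp hrΔ A hA τ hτ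
    obtain ⟨i, rfl⟩ := hcov r hr hrS
    refine ⟨?_, ?_⟩
    · rw [hfr i hrS A hA τ hτ]
      exact hψW i hrS hrΔ
    · rw [cycloCharO_frob p (maximalIdeal 𝒪) hp𝒪 (ℓ i) hr hrp A hA τ hτ, sub_self]
      exact Ideal.zero_mem _
  · obtain ⟨E, hE, h⟩ := hcont 1
    refine ⟨E, hE, fun σ hσ g => ?_⟩
    have := h σ hσ g
    rwa [pow_one] at this

section Step

variable {N q p : ℕ} [NeZero N] [NeZero q] [hq : Fact q.Prime] [Fact p.Prime]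

/-- **E-MULT1b at the step `(N, q)`** for an eigensystem `ψ` which occurs at level `N` and is
congruent to `W` outside a finite set `S₀` (`W[p]` irreducible).  Open inputs: μDEG at
`(N q, q)`. -/
theorem s59asm_M1b_of_W (hqN : ¬ q ∣ N) (hqp : q ≠ p) (hp2 : p ≠ 2)
    (𝒪 : Type) [CommRing 𝒪] [IsDomain 𝒪] [IsDiscreteValuationRing 𝒪]
    [IsAdicComplete (maximalIdeal 𝒪) 𝒪] [CharZero 𝒪] (hp𝒪 : (p : 𝒪) ∈ maximalIdeal 𝒪)
    (ψ : ℕ → 𝒪) (x₀ : s59asmL 𝒪 N) (hx₀ : x₀ ≠ 0) (hx₀E : x₀ ∈ s59asmE 𝒪 N p ψ)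
    (W : WeierstrassCurve ℤ) (hΔ : W.Δ ≠ 0) (hirr : W.ModRepIsIrreducible p)
    (S₀ : Finset ℕ)
    (hψW : ∀ r : ℕ, r.Prime → r ∉ S₀ → r ≠ p → ¬ (r : ℤ) ∣ W.Δ →
      ψ r - ((W.apOfModel r : ℤ) : 𝒪) ∈ maximalIdeal 𝒪)
    (hα : s59mud_RelAlphaAt (N * q) q) (hβ : s59mud_RelBetaAt (N * q) q) :
    s59asm_M1b 𝒪 N q p ψ := by
  classical
  have hNqq : N * q * q ≠ 0 := NeZero.ne _
  have hmem : ∀ r : ℕ, r.Prime → r ∉ insert p (N * q * q).primeFactors ∪ S₀ →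
      (¬ r ∣ N * q * q ∧ r ≠ p) ∧ r ∉ S₀ := by
    intro r hr hrS
    rw [Finset.mem_union, not_or, Finset.mem_insert, not_or] at hrS
    exact ⟨⟨fun h => hrS.1.2 (Nat.mem_primeFactors.2 ⟨hr, h, hNqq⟩), hrS.1.1⟩, hrS.2⟩
  have hcov : ∀ r : ℕ, r.Prime → r ∉ insert p (N * q * q).primeFactors ∪ S₀ →
      ∃ i : S59asmI N q p, i.1 = r := fun r hr hrS =>
    ⟨⟨r, hr, (hmem r hr hrS).1.1, (hmem r hr hrS).1.2⟩, rfl⟩
  exact s59m1b_mult1b hqN hqp hp2 (insert p (N * q * q).primeFactors ∪ S₀)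
    (Finset.mem_union_left _ (Finset.mem_insert_self _ _))
    (fun r hr hrd => Finset.mem_union_left _
      (Finset.mem_insert_of_mem (Nat.mem_primeFactors.2 ⟨hr, hrd, hNqq⟩)))
    𝒪 hp𝒪 (hℓ := fun i => S59asmI.fact i) (fun i : S59asmI N q p => i.1)
    (fun i => i.not_dvd) (fun i => i.2.2.1) hcov (fun i => ψ i.1) x₀ hx₀
    (fun i => @hx₀E i.1 i.fact i.not_dvd i.2.2.2)
    (s59asm_hU_W W hΔ p hp2 hirr hp𝒪 (fun i : S59asmI N q p => i.1) _ hcov (fun i => ψ i.1)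
      (fun i hiS hiΔ => hψW i.1 i.2.1 (fun h => hiS (Finset.mem_union_right _ h)) i.2.2.2 hiΔ))
    hα hβ

end Step

end Fermat.Agent.S59

end
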