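/-
S59 Route A, ETA′ (deputy helper72), leaf **E-CHAR** (needed by E-NZ-ASM; helper9).

`𝒪` a domain, `x ≠ 0` in `𝒪 ⊗[ℤ] Lpar M` with `(Tc ℓ ⊗ 𝒪) x = ψ ℓ • x` for all primes `ℓ ∤ M`,
`ℓ ∉ S` (`ψ : ℕ → 𝒪` any function).  Then there is a ring homomorphism
`χ : heckeAlgebra M 2 S →+* 𝒪` with `χ (T_ℓ) = ψ ℓ` and `Θ_𝒪 (1 ⊗ t) x = χ t • x` for all `t`.

* `s59nza_unique` : `c • x = c' • x`, `x ≠ 0` ⇒ `c = c'` (the lattice is torsion-free);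
* `s59nza_exists_scalar` : every `t ∈ 𝕋` acts on `x` by a scalar;
* `s59nzaChi`, `s59nzaChi_spec`;
* **`s59nza_char`** : E-CHAR.
-/
import Mathlib
import Fermat.Agent.S59.Eta.NonZero

set_option autoImplicit false
set_option linter.unusedSectionVars false
set_option linter.unusedVariables false
set_option linter.style.haveILetI false

noncomputable section

namespace Fermat.Agent.S59

open TensorProduct CongruenceSubgroup Fermat.Agent.S41 Fermat.Agent.S41.PD IsLocalRing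

section Char

variable {𝒪 : Type} [CommRing 𝒪] [IsDomain 𝒪] {M : ℕ} [NeZero M] {S : Set ℕ}

/-- uniqueness of the eigenvalue on a nonzero vector -/
theorem s59nza_unique {x : s59bccL 𝒪 ↥(Lpar M)} (hx : x ≠ 0) {c c' : 𝒪}
    (h : c • x = c' • x) : c = c' := by
  have h1 : (c - c') • x = 0 := by rw [sub_smul, h, sub_self]
  rcases smul_eq_zero.1 h1 with h2 | h2
  · exact sub_eq_zero.1 h2
  · exact (hx h2).elim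

set_option maxHeartbeats 1600000 in
/-- every `t ∈ 𝕋` acts on a generator-eigenvector by a scalar -/
theorem s59nza_exists_scalar (hS : ∀ q : ℕ, q.Prime → q ∣ M → q ∈ S) (ψ : ℕ → 𝒪)
    (x : s59bccL 𝒪 ↥(Lpar M))
    (hψ : ∀ (ℓ : ℕ) [Fact ℓ.Prime] (hℓM : ¬ ℓ ∣ M), ℓ ∉ S →
      (s59bcTcZ M ℓ hℓM).baseChange 𝒪 x = ψ ℓ • x)
    (t : CuspForm.heckeAlgebra M 2 S) :
    ∃ c : 𝒪, s59trbcTheta 𝒪 hS ((1 : 𝒪) ⊗ₜ[ℤ] t) x = c • x := by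
  refine s59nz_hecke_induction hS (P := fun t =>
    ∃ c : 𝒪, s59trbcTheta 𝒪 hS ((1 : 𝒪) ⊗ₜ[ℤ] t) x = c • x) ?_ ?_ ?_ ?_ t
  · intro ℓ hℓ hℓM hℓS
    haveI : Fact ℓ.Prime := ⟨hℓ⟩
    refine ⟨ψ ℓ, ?_⟩
    rw [s59trbcTheta_T, s59nz_trTc_eq]
    exact hψ ℓ hℓM hℓS
  · intro n
    refine ⟨(n : 𝒪), ?_⟩
    have h1 : ((1 : 𝒪) ⊗ₜ[ℤ] (n : CuspForm.heckeAlgebra M 2 S) :
        𝒪 ⊗[ℤ] ↥(CuspForm.heckeAlgebra M 2 S)) =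
        ((n : ℤ) : 𝒪 ⊗[ℤ] ↥(CuspForm.heckeAlgebra M 2 S)) := by
      calc ((1 : 𝒪) ⊗ₜ[ℤ] (n : CuspForm.heckeAlgebra M 2 S) :
            𝒪 ⊗[ℤ] ↥(CuspForm.heckeAlgebra M 2 S))
          = (1 : 𝒪) ⊗ₜ[ℤ] (n • (1 : CuspForm.heckeAlgebra M 2 S)) := by rw [zsmul_one]
        _ = n • ((1 : 𝒪) ⊗ₜ[ℤ] (1 : CuspForm.heckeAlgebra M 2 S)) :=
            TensorProduct.tmul_smul n _ _
        _ = n • (1 : 𝒪 ⊗[ℤ] ↥(CuspForm.heckeAlgebra M 2 S)) := by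
            rw [Algebra.TensorProduct.one_def]
        _ = ((n : ℤ) : 𝒪 ⊗[ℤ] ↥(CuspForm.heckeAlgebra M 2 S)) := zsmul_one n
    rw [h1, map_intCast, Module.End.intCast_apply, Int.cast_smul_eq_zsmul]
  · rintro a b ⟨ca, ha⟩ ⟨cb, hb⟩
    refine ⟨ca + cb, ?_⟩
    rw [TensorProduct.tmul_add, map_add, LinearMap.add_apply, ha, hb, add_smul]
  · rintro a b ⟨ca, ha⟩ ⟨cb, hb⟩
    refine ⟨ca * cb, ?_⟩
    have h1 : ((1 : 𝒪) ⊗ₜ[ℤ] (a * b) : 𝒪 ⊗[ℤ] ↥(CuspForm.heckeAlgebra M 2 S)) =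
        ((1 : 𝒪) ⊗ₜ[ℤ] a) * ((1 : 𝒪) ⊗ₜ[ℤ] b) := by
      rw [Algebra.TensorProduct.tmul_mul_tmul, one_mul]
    rw [h1, map_mul, Module.End.mul_apply, hb, map_smul, ha, mul_smul, smul_comm]

/-- the eigencharacter of a nonzero generator-eigenvector, as a function -/
def s59nzaChi (hS : ∀ q : ℕ, q.Prime → q ∣ M → q ∈ S) (ψ : ℕ → 𝒪)
    (x : s59bccL 𝒪 ↥(Lpar M))
    (hψ : ∀ (ℓ : ℕ) [Fact ℓ.Prime] (hℓM : ¬ ℓ ∣ M), ℓ ∉ S →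
      (s59bcTcZ M ℓ hℓM).baseChange 𝒪 x = ψ ℓ • x)
    (t : CuspForm.heckeAlgebra M 2 S) : 𝒪 :=
  Classical.choose (s59nza_exists_scalar hS ψ x hψ t)

theorem s59nzaChi_spec (hS : ∀ q : ℕ, q.Prime → q ∣ M → q ∈ S) (ψ : ℕ → 𝒪)
    (x : s59bccL 𝒪 ↥(Lpar M))
    (hψ : ∀ (ℓ : ℕ) [Fact ℓ.Prime] (hℓM : ¬ ℓ ∣ M), ℓ ∉ S →
      (s59bcTcZ M ℓ hℓM).baseChange 𝒪 x = ψ ℓ • x)
    (t : CuspForm.heckeAlgebra M 2 S) :
    s59trbcTheta 𝒪 hS ((1 : 𝒪) ⊗ₜ[ℤ] t) x = s59nzaChi hS ψ x hψ t • x :=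
  Classical.choose_spec (s59nza_exists_scalar hS ψ x hψ t)

set_option maxHeartbeats 1600000 in
/-- **E-CHAR**: a nonzero generator-eigenvector of `𝒪 ⊗ Lpar M` defines a character of `𝕋` -/
theorem s59nza_char (hS : ∀ q : ℕ, q.Prime → q ∣ M → q ∈ S) (ψ : ℕ → 𝒪)
    (x : s59bccL 𝒪 ↥(Lpar M)) (hx : x ≠ 0)
    (hψ : ∀ (ℓ : ℕ) [Fact ℓ.Prime] (hℓM : ¬ ℓ ∣ M), ℓ ∉ S →
      (s59bcTcZ M ℓ hℓM).baseChange 𝒪 x = ψ ℓ • x) :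
    ∃ χ : CuspForm.heckeAlgebra M 2 S →+* 𝒪,
      (∀ (ℓ : ℕ) (hℓ : ℓ.Prime) (hℓM : ¬ ℓ ∣ M) (hℓS : ℓ ∉ S),
        χ (CuspForm.heckeAlgebra.T hℓ hℓM hℓS) = ψ ℓ) ∧
      ∀ t : CuspForm.heckeAlgebra M 2 S,
        s59trbcTheta 𝒪 hS ((1 : 𝒪) ⊗ₜ[ℤ] t) x = χ t • x := by
  have hone : ((1 : 𝒪) ⊗ₜ[ℤ] (1 : CuspForm.heckeAlgebra M 2 S) :
      𝒪 ⊗[ℤ] ↥(CuspForm.heckeAlgebra M 2 S)) = 1 := Algebra.TensorProduct.one_def.symm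
  refine ⟨{ toFun := s59nzaChi hS ψ x hψ
            map_one' := ?_
            map_mul' := ?_
            map_zero' := ?_
            map_add' := ?_ }, ?_, ?_⟩
  · apply s59nza_unique hx
    rw [← s59nzaChi_spec, hone, map_one, Module.End.one_apply, one_smul]
  · intro a b
    apply s59nza_unique hx
    have h1 : ((1 : 𝒪) ⊗ₜ[ℤ] (a * b) : 𝒪 ⊗[ℤ] ↥(CuspForm.heckeAlgebra M 2 S)) =
        ((1 : 𝒪) ⊗ₜ[ℤ] a) * ((1 : 𝒪) ⊗ₜ[ℤ] b) := by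
      rw [Algebra.TensorProduct.tmul_mul_tmul, one_mul]
    rw [← s59nzaChi_spec, h1, map_mul, Module.End.mul_apply, s59nzaChi_spec hS ψ x hψ b,
      map_smul, s59nzaChi_spec hS ψ x hψ a, mul_smul, smul_comm]
  · apply s59nza_unique hx
    rw [← s59nzaChi_spec, TensorProduct.tmul_zero, map_zero, LinearMap.zero_apply, zero_smul]
  · intro a b
    apply s59nza_unique hx
    rw [← s59nzaChi_spec, TensorProduct.tmul_add, map_add, LinearMap.add_apply,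
      s59nzaChi_spec hS ψ x hψ a, s59nzaChi_spec hS ψ x hψ b, add_smul]
  · intro ℓ hℓ hℓM hℓS
    haveI : Fact ℓ.Prime := ⟨hℓ⟩
    apply s59nza_unique hx
    show s59nzaChi hS ψ x hψ (CuspForm.heckeAlgebra.T hℓ hℓM hℓS) • x = ψ ℓ • x
    rw [← s59nzaChi_spec, s59trbcTheta_T, s59nz_trTc_eq]
    exact hψ ℓ hℓM hℓS
  · intro t
    exact s59nzaChi_spec hS ψ x hψ t

end Char

end Fermat.Agent.S59

end
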