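/-
S59 Route A, ETA′ (deputy helper72), leaf **E-NZ-ASM** (helper9): `hne` in the ASM shape.

* `s59nzaS M p = {ℓ | ℓ = p ∨ ℓ ∣ M}` (the set `S` of a level), `s59nza_hS`, `s59nza_not_mem_S`;
* `s59nza_J_ne_bot` : `0 ≠ x ∈ s59asmE 𝒪 M p ψ` ⇒ `s59asmJ 𝒪 M p ψ x ≠ ⊥`
  (`𝒪` a Noetherian domain of characteristic `0`; from `s59nz_J_ne_bot_gen` + E-CHAR `s59nza_char`);
* **`s59nza_hne`** : `s59asmGood p ψ ϖ s → s59asmEta p ψ s ≠ ⊥`  — UNCONDITIONAL;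
* `s59nza_hne_chain` : the same along a chain of good states (= `hne` of `s59g_chain`);
* `s59nza_partner` : a good state has a partner `z`, `B x z = 1` (for E-GEN-ASM);
* `s59nza_char_state` : the character `χ : heckeAlgebra M 2 (s59nzaS M p) →+* 𝒪` of a good state.
-/
import Fermat.Agent.S59.Eta.AsmChain
import Fermat.Agent.S59.Eta.NonZeroChar

set_option autoImplicit false
set_option linter.unusedSectionVars false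
set_option linter.unusedVariables false
set_option linter.style.haveILetI false
set_option linter.style.longLine false

noncomputable section

namespace Fermat.Agent.S59

open TensorProduct CongruenceSubgroup Fermat.Agent.S41 Fermat.Agent.S41.PD IsLocalRing

section AsmNZ

/-- the set `S` of a level: `p` and the divisors of `M` -/
def s59nzaS (M p : ℕ) : Set ℕ := {ℓ | ℓ = p ∨ ℓ ∣ M}

theorem s59nza_hS (M p : ℕ) : ∀ q : ℕ, q.Prime → q ∣ M → q ∈ s59nzaS M p :=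
  fun q _ h => Or.inr h

theorem s59nza_p_mem (M p : ℕ) : p ∈ s59nzaS M p := Or.inl rfl

theorem s59nza_not_mem_S {M p ℓ : ℕ} : ℓ ∉ s59nzaS M p ↔ ℓ ≠ p ∧ ¬ ℓ ∣ M := by
  constructor
  · intro h
    exact ⟨fun h1 => h (Or.inl h1), fun h1 => h (Or.inr h1)⟩
  · rintro ⟨h1, h2⟩ (h | h)
    · exact h1 h
    · exact h2 h

variable {𝒪 : Type} [CommRing 𝒪] [IsDomain 𝒪]

/-- the character of a nonzero `ψ`-eigenvector of `L_M` -/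
theorem s59nza_char_level (M : ℕ) [NeZero M] (p : ℕ) (ψ : ℕ → 𝒪) (x : s59asmL 𝒪 M)
    (hx : x ∈ s59asmE 𝒪 M p ψ) (hx0 : x ≠ 0) :
    ∃ χ : CuspForm.heckeAlgebra M 2 (s59nzaS M p) →+* 𝒪,
      (∀ (ℓ : ℕ) (hℓ : ℓ.Prime) (hℓM : ¬ ℓ ∣ M) (hℓS : ℓ ∉ s59nzaS M p),
        χ (CuspForm.heckeAlgebra.T hℓ hℓM hℓS) = ψ ℓ) ∧
      ∀ t : CuspForm.heckeAlgebra M 2 (s59nzaS M p),
        s59trbcTheta 𝒪 (s59nza_hS M p) ((1 : 𝒪) ⊗ₜ[ℤ] t) x = χ t • x :=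
  s59nza_char (s59nza_hS M p) ψ x hx0
    (fun ℓ _ hℓM hℓS => (s59asm_mem_E 𝒪 M).1 hx ℓ hℓM (s59nza_not_mem_S.1 hℓS).1)

variable [CharZero 𝒪] [IsNoetherianRing 𝒪]

/-- **`hne` at a level**: `J_M(x) ≠ 0` for a nonzero `ψ`-eigenvector -/
theorem s59nza_J_ne_bot (M : ℕ) [NeZero M] (p : ℕ) (ψ : ℕ → 𝒪) (x : s59asmL 𝒪 M)
    (hx : x ∈ s59asmE 𝒪 M p ψ) (hx0 : x ≠ 0) : s59asmJ 𝒪 M p ψ x ≠ ⊥ := by
  obtain ⟨χ, hχ, -⟩ := s59nza_char_level M p ψ x hx hx0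
  show s59eta_J (s59bcForm 𝒪 (s59bcPairZ M)) (s59asmE 𝒪 M p ψ) x ≠ ⊥
  refine s59nz_J_ne_bot_gen 𝒪 (s59nza_hS M p) χ (s59asmE 𝒪 M p ψ) ?_ x hx hx0
  intro X
  rw [s59asm_mem_E]
  constructor
  · intro h ℓ hℓ hℓM hℓS
    rw [hχ]
    exact h ℓ hℓM (s59nza_not_mem_S.1 hℓS).1
  · intro h ℓ hℓ hℓM hℓp
    have h1 := h ℓ hℓM (s59nza_not_mem_S.2 ⟨hℓp, hℓM⟩)
    rw [hχ] at h1
    exact h1

/-- **E-NZ-ASM**: the congruence ideal of a good state is nonzero -/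
theorem s59nza_hne (p : ℕ) (ψ : ℕ → 𝒪) (ϖ : 𝒪) (s : S59asmSt 𝒪)
    (hs : s59asmGood p ψ ϖ s) : s59asmEta p ψ s ≠ ⊥ := by
  haveI : NeZero s.M := ⟨s.hM⟩
  exact s59nza_J_ne_bot s.M p ψ s.x hs.1 hs.ne_zero

/-- `hne` along a chain of good states -/
theorem s59nza_hne_chain (p : ℕ) (ψ : ℕ → 𝒪) (ϖ : 𝒪) (qs : ℕ → ℕ) (s₀ : S59asmSt 𝒪) (n : ℕ)
    (hgood : ∀ i ≤ n, s59asmGood p ψ ϖ (s59asmChain ψ qs s₀ i)) :
    ∀ i ≤ n, s59asmEta p ψ (s59asmChain ψ qs s₀ i) ≠ ⊥ :=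
  fun i hi => s59nza_hne p ψ ϖ _ (hgood i hi)

omit [CharZero 𝒪] [IsNoetherianRing 𝒪] in
/-- a good state has a partner -/
theorem s59nza_partner [IsDiscreteValuationRing 𝒪] (p : ℕ) (ψ : ℕ → 𝒪) {ϖ : 𝒪}
    (hϖ : Irreducible ϖ) (s : S59asmSt 𝒪) (hs : s59asmGood p ψ ϖ s) :
    ∃ z : s59asmL 𝒪 s.M, @s59asmB 𝒪 _ s.M ⟨s.hM⟩ s.x z = 1 := by
  haveI : NeZero s.M := ⟨s.hM⟩
  exact s59nz_partner 𝒪 s.M hϖ s.x hs.2

end AsmNZ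

end Fermat.Agent.S59

end
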