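import Fermat.Agent.ES.Multiplier
import Fermat.Agent.S41.Cores

/-!
# S59 / R2 / μDEG, piece P7 — the coset product of a root datum has multiplier `cores χ` (helper84)

`Γ = Γ₀(N)`, `Γ' = Γ₀(N q) = (incl N q).range ≤ Γ`, `rep : Γ ⧸ Γ' → Γ` ANY section of the quotient
map (`hrep : ∀ c, ↑(rep c) = c`).

* `s59mudPt rep c τ = (rep c)⁻¹ τ`;
* `s59mudProd rep f τ = ∏_{c : Γ ⧸ Γ'} f ((rep c)⁻¹ τ)` (`= N_{Γ' → Γ} f`, the norm of the
  function field extension `ℂ(X₀(N q)) / ℂ(X₀(N))` when `f` is `Γ'`-invariant);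
* `s59mudKap rep hrep γ c = (rep c)⁻¹ γ rep (γ⁻¹ c) ∈ Γ'`, `s59mud_transfer_eq` :
  `transfer ϕ γ = ∏_c ϕ (κ(γ, c))` (Mathlib's transfer, for any section, any group);
* `s59mud_isMultiplier` : if `a / g` has multiplier `χ` on `Γ'` then `Prod a / Prod g` has
  multiplier `γ ↦ ∏_c χ (κ(γ, c))` on `Γ`;
* `s59mudRoot` : the root datum `(Prod a) / (Prod g)` on `Γ₀(N)`; **`s59mudRoot_multAdd`** : its
  multiplier character is `S41.cores N q (Additive ℂˣ) R.multAdd`;
* `s59mudProd_smul_of_invariant`, `s59mudProd_congr_rep` : for a `Γ'`-invariant `f`, `Prod f` is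
  `Γ`-invariant and does not depend on the section;
* `s59mudProd_rel` : a relation `A ^ n · g = a · G ^ n` is preserved by `Prod`.
-/

set_option autoImplicit false
set_option linter.unusedSectionVars false

noncomputable section

namespace Fermat.Agent.S59

open UpperHalfPlane CongruenceSubgroup Matrix Matrix.SpecialLinearGroup
open Fermat.Agent.ES Fermat.Agent.S41
open scoped MatrixGroups Manifold

attribute [local instance] Subgroup.fintypeQuotientOfFiniteIndex

/-! ## Mathlib's transfer with an arbitrary section (any group) -/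

section Generic

variable {G : Type*} [Group G] (H : Subgroup G)

theorem s59mud_kapG_mem {rep : G ⧸ H → G} (hrep : ∀ c, ((rep c : G) : G ⧸ H) = c)
    (γ : G) (c : G ⧸ H) : (rep c)⁻¹ * (γ * rep (γ⁻¹ • c)) ∈ H := by
  rw [← QuotientGroup.eq]
  rw [hrep c]
  have : ((γ * rep (γ⁻¹ • c) : G) : G ⧸ H) = γ • ((rep (γ⁻¹ • c) : G) : G ⧸ H) := rfl
  rw [this, hrep, smul_inv_smul]

/-- `κ(γ, c) = (rep c)⁻¹ γ rep (γ⁻¹ c) ∈ H` -/
def s59mudKapG (rep : G ⧸ H → G) (hrep : ∀ c, ((rep c : G) : G ⧸ H) = c) (γ : G) (c : G ⧸ H) :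
    H :=
  ⟨(rep c)⁻¹ * (γ * rep (γ⁻¹ • c)), s59mud_kapG_mem H hrep γ c⟩

theorem s59mudKapG_coe (rep : G ⧸ H → G) (hrep : ∀ c, ((rep c : G) : G ⧸ H) = c) (γ : G)
    (c : G ⧸ H) :
    ((s59mudKapG H rep hrep γ c : H) : G) = (rep c)⁻¹ * (γ * rep (γ⁻¹ • c)) := rfl

/-- **Mathlib's transfer, computed with any section.** -/
theorem s59mud_transfer_eq [H.FiniteIndex] {A : Type*} [CommGroup A] (ϕ : H →* A)
    (rep : G ⧸ H → G) (hrep : ∀ c, ((rep c : G) : G ⧸ H) = c) (γ : G) :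
    MonoidHom.transfer ϕ γ = ∏ c : G ⧸ H, ϕ (s59mudKapG H rep hrep γ c) := by
  rw [MonoidHom.transfer_def ϕ ⟨Set.range rep, Subgroup.isComplement_range_left hrep⟩ γ]
  unfold Subgroup.leftTransversals.diff
  refine Finset.prod_congr rfl fun c _ => ?_
  congr 1
  apply Subtype.ext
  rw [s59mudKapG_coe]
  simp only
  rw [Subgroup.smul_apply_eq_smul_apply_inv_smul]
  rw [Subgroup.IsComplement.leftQuotientEquiv_apply hrep,
    Subgroup.IsComplement.leftQuotientEquiv_apply hrep]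
  rfl

end Generic

section Main

variable (N q : ℕ) [NeZero N] [NeZero q]

/-- the quotient `Γ₀(N) ⧸ Γ₀(N q)` -/
abbrev s59mudQuot : Type := Gamma0 N ⧸ (incl N q).range

/-! ## The points `(rep c)⁻¹ τ` and the coset product -/

/-- the point `(rep c)⁻¹ τ` -/
def s59mudPt (rep : s59mudQuot N q → Gamma0 N) (c : s59mudQuot N q) (τ : ℍ) : ℍ :=
  (((rep c : Gamma0 N) : SL(2, ℤ)))⁻¹ • τ

/-- **the coset product** `∏_{c : Γ₀(N) ⧸ Γ₀(N q)} f ((rep c)⁻¹ τ)` -/
def s59mudProd (rep : s59mudQuot N q → Gamma0 N) (f : ℍ → ℂ) : ℍ → ℂ :=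
  fun τ => ∏ c : s59mudQuot N q, f (s59mudPt N q rep c τ)

variable {N q}

theorem s59mudProd_apply (rep : s59mudQuot N q → Gamma0 N) (f : ℍ → ℂ) (τ : ℍ) :
    s59mudProd N q rep f τ = ∏ c : s59mudQuot N q, f (s59mudPt N q rep c τ) := rfl

/-- the same product, for any `Fintype` instance on the quotient -/
theorem s59mudProd_apply' [inst : Fintype (s59mudQuot N q)]
    (rep : s59mudQuot N q → Gamma0 N) (f : ℍ → ℂ) (τ : ℍ) :
    s59mudProd N q rep f τ
      = @Finset.prod _ _ _ (@Finset.univ _ inst) fun c => f (s59mudPt N q rep c τ) := by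
  rw [s59mudProd_apply]
  have : inst = (incl N q).range.fintypeQuotientOfFiniteIndex := Subsingleton.elim _ _
  subst this
  rfl

theorem s59mudProd_mul (rep : s59mudQuot N q → Gamma0 N) (f g : ℍ → ℂ) :
    s59mudProd N q rep (fun τ => f τ * g τ)
      = fun τ => s59mudProd N q rep f τ * s59mudProd N q rep g τ := by
  funext τ
  simp only [s59mudProd_apply, Finset.prod_mul_distrib]

theorem s59mudProd_pow (rep : s59mudQuot N q → Gamma0 N) (f : ℍ → ℂ) (k : ℕ) :
    s59mudProd N q rep (fun τ => f τ ^ k) = fun τ => s59mudProd N q rep f τ ^ k := by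
  funext τ
  simp only [s59mudProd_apply, Finset.prod_pow]

theorem s59mudProd_one (rep : s59mudQuot N q → Gamma0 N) :
    s59mudProd N q rep (fun _ => (1 : ℂ)) = fun _ => 1 := by
  funext τ
  simp only [s59mudProd_apply, Finset.prod_const_one]

/-- a relation `A ^ n · g = a · G ^ n` is preserved by the coset product -/
theorem s59mudProd_rel (rep : s59mudQuot N q → Gamma0 N) {n : ℕ}
    {A G a g : ℍ → ℂ} (h : ∀ τ, A τ ^ n * g τ = a τ * G τ ^ n) (τ : ℍ) :
    s59mudProd N q rep A τ ^ n * s59mudProd N q rep g τ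
      = s59mudProd N q rep a τ * s59mudProd N q rep G τ ^ n := by
  simp only [s59mudProd_apply, ← Finset.prod_pow, ← Finset.prod_mul_distrib]
  exact Finset.prod_congr rfl fun c _ => h _

theorem s59mud_mdiff_pt (rep : s59mudQuot N q → Gamma0 N) (c : s59mudQuot N q) {f : ℍ → ℂ}
    (hf : MDiff f) : MDiff (fun τ => f (s59mudPt N q rep c τ)) :=
  mdiff_comp_SL hf _

theorem s59mud_pt_ne_zero (rep : s59mudQuot N q → Gamma0 N) (c : s59mudQuot N q) {f : ℍ → ℂ}
    (hf0 : f ≠ 0) : (fun τ => f (s59mudPt N q rep c τ)) ≠ 0 := fun h =>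
  hf0 ((comp_SL_eq_zero_iff (w := f) (((rep c : Gamma0 N) : SL(2, ℤ)))⁻¹).mp h)

theorem s59mud_mdiff_prod (rep : s59mudQuot N q → Gamma0 N) {f : ℍ → ℂ}
    (hf : MDiff f) : MDiff (s59mudProd N q rep f) := by
  have h : ∀ s : Finset (s59mudQuot N q),
      MDiff (fun τ : ℍ => ∏ c ∈ s, f (s59mudPt N q rep c τ)) := by
    intro s
    classical
    induction s using Finset.induction_on with
    | empty => simpa using (mdifferentiable_const : MDiff (fun _ : ℍ => (1 : ℂ)))
    | insert c s hc ih =>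
      simp only [Finset.prod_insert hc]
      exact (s59mud_mdiff_pt rep c hf).mul ih
  exact h Finset.univ

theorem s59mud_prod_ne_zero (rep : s59mudQuot N q → Gamma0 N) {f : ℍ → ℂ}
    (hf : MDiff f) (hf0 : f ≠ 0) : s59mudProd N q rep f ≠ 0 := by
  have h : ∀ s : Finset (s59mudQuot N q),
      (fun τ : ℍ => ∏ c ∈ s, f (s59mudPt N q rep c τ)) ≠ 0 ∧
        MDiff (fun τ : ℍ => ∏ c ∈ s, f (s59mudPt N q rep c τ)) := by
    intro s
    classical
    induction s using Finset.induction_on with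
    | empty =>
      refine ⟨?_, by simpa using (mdifferentiable_const : MDiff (fun _ : ℍ => (1 : ℂ)))⟩
      intro h
      have := congrFun h UpperHalfPlane.I
      simp at this
    | insert c s hc ih =>
      simp only [Finset.prod_insert hc]
      exact ⟨mdiff_mul_ne_zero (s59mud_mdiff_pt rep c hf) ih.2 (s59mud_pt_ne_zero rep c hf0)
        ih.1, (s59mud_mdiff_pt rep c hf).mul ih.2⟩
  exact (h Finset.univ).1

/-! ## The cocycle `κ(γ, c) = (rep c)⁻¹ γ rep (γ⁻¹ c)` and its preimage in `Γ₀(N q)` -/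

/-- `κ(γ, c) ∈ (incl N q).range` -/
abbrev s59mudKap (rep : s59mudQuot N q → Gamma0 N)
    (hrep : ∀ c, ((rep c : Gamma0 N) : s59mudQuot N q) = c)
    (γ : Gamma0 N) (c : s59mudQuot N q) : (incl N q).range :=
  s59mudKapG (incl N q).range rep hrep γ c

/-- `κ(γ, c)` as an element of `Γ₀(N q)` -/
def s59mudKapLow (rep : s59mudQuot N q → Gamma0 N)
    (hrep : ∀ c, ((rep c : Gamma0 N) : s59mudQuot N q) = c)
    (γ : Gamma0 N) (c : s59mudQuot N q) : Gamma0 (N * q) :=
  (MonoidHom.ofInjective (incl_injective N q)).symm (s59mudKap rep hrep γ c)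

theorem s59mud_incl_kapLow (rep : s59mudQuot N q → Gamma0 N)
    (hrep : ∀ c, ((rep c : Gamma0 N) : s59mudQuot N q) = c)
    (γ : Gamma0 N) (c : s59mudQuot N q) :
    incl N q (s59mudKapLow rep hrep γ c) = (rep c)⁻¹ * (γ * rep (γ⁻¹ • c)) := by
  have h := (MonoidHom.ofInjective (incl_injective N q)).apply_symm_apply
    (s59mudKap rep hrep γ c)
  have h' : (((MonoidHom.ofInjective (incl_injective N q))
      ((MonoidHom.ofInjective (incl_injective N q)).symm (s59mudKap rep hrep γ c))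
        : (incl N q).range) : Gamma0 N) = ((s59mudKap rep hrep γ c : (incl N q).range) : Gamma0 N) :=
    congrArg Subtype.val h
  rw [MonoidHom.ofInjective_apply] at h'
  exact h'

theorem s59mudKapLow_coe (rep : s59mudQuot N q → Gamma0 N)
    (hrep : ∀ c, ((rep c : Gamma0 N) : s59mudQuot N q) = c)
    (γ : Gamma0 N) (c : s59mudQuot N q) :
    ((s59mudKapLow rep hrep γ c : Gamma0 (N * q)) : SL(2, ℤ))
      = (((rep c : Gamma0 N) : SL(2, ℤ)))⁻¹
          * ((γ : SL(2, ℤ)) * ((rep (γ⁻¹ • c) : Gamma0 N) : SL(2, ℤ))) := by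
  have h := congrArg (fun x : Gamma0 N => (x : SL(2, ℤ))) (s59mud_incl_kapLow rep hrep γ c)
  simpa using h

/-- `(rep c)⁻¹ (γ τ) = κ(γ, c) · ((rep (γ⁻¹ c))⁻¹ τ)` -/
theorem s59mudPt_smul (rep : s59mudQuot N q → Gamma0 N)
    (hrep : ∀ c, ((rep c : Gamma0 N) : s59mudQuot N q) = c)
    (γ : Gamma0 N) (c : s59mudQuot N q) (τ : ℍ) :
    s59mudPt N q rep c ((γ : SL(2, ℤ)) • τ)
      = ((s59mudKapLow rep hrep γ c : Gamma0 (N * q)) : SL(2, ℤ))
          • s59mudPt N q rep (γ⁻¹ • c) τ := by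
  unfold s59mudPt
  rw [s59mudKapLow_coe]
  rw [← mul_smul, ← mul_smul, mul_assoc, mul_assoc, mul_inv_cancel, mul_one]

/-! ## The multiplier of the coset product -/

/-- **Multiplier of the coset product.** -/
theorem s59mud_isMultiplier (rep : s59mudQuot N q → Gamma0 N)
    (hrep : ∀ c, ((rep c : Gamma0 N) : s59mudQuot N q) = c)
    {a g : ℍ → ℂ} (χ : Gamma0 (N * q) → ℂ)
    (hχ : ∀ γ : Gamma0 (N * q), IsMultiplier (γ : SL(2, ℤ)) a g (χ γ)) (γ : Gamma0 N) :
    IsMultiplier (γ : SL(2, ℤ)) (s59mudProd N q rep a) (s59mudProd N q rep g)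
      (∏ c : s59mudQuot N q, χ (s59mudKapLow rep hrep γ c)) := by
  intro τ
  simp only [s59mudProd_apply]
  have e1 : ∀ f : ℍ → ℂ, ∏ c : s59mudQuot N q, f (s59mudPt N q rep c τ)
      = ∏ c : s59mudQuot N q, f (s59mudPt N q rep (γ⁻¹ • c) τ) := by
    intro f
    exact (Equiv.prod_comp (MulAction.toPerm γ⁻¹) (fun c => f (s59mudPt N q rep c τ))).symm
  have e2 : ∀ f : ℍ → ℂ,
      ∏ c : s59mudQuot N q, f (s59mudPt N q rep c ((γ : SL(2, ℤ)) • τ))
      = ∏ c : s59mudQuot N q,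
          f (((s59mudKapLow rep hrep γ c : Gamma0 (N * q)) : SL(2, ℤ))
            • s59mudPt N q rep (γ⁻¹ • c) τ) := by
    intro f
    refine Finset.prod_congr rfl fun c _ => ?_
    rw [s59mudPt_smul rep hrep γ c τ]
  rw [e2 a, e2 g, e1 g, e1 a, ← Finset.prod_mul_distrib, ← Finset.prod_mul_distrib,
    ← Finset.prod_mul_distrib]
  refine Finset.prod_congr rfl fun c _ => ?_
  exact hχ _ (s59mudPt N q rep (γ⁻¹ • c) τ)

/-- for a `Γ₀(N q)`-invariant `f` the coset product is `Γ₀(N)`-invariant -/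
theorem s59mudProd_smul_of_invariant (rep : s59mudQuot N q → Gamma0 N)
    (hrep : ∀ c, ((rep c : Gamma0 N) : s59mudQuot N q) = c)
    {f : ℍ → ℂ} (hf : ∀ γ ∈ Gamma0 (N * q), ∀ z, f (γ • z) = f z)
    {γ : SL(2, ℤ)} (hγ : γ ∈ Gamma0 N) (τ : ℍ) :
    s59mudProd N q rep f (γ • τ) = s59mudProd N q rep f τ := by
  simp only [s59mudProd_apply]
  have e1 : ∏ c : s59mudQuot N q, f (s59mudPt N q rep c τ)
      = ∏ c : s59mudQuot N q, f (s59mudPt N q rep ((⟨γ, hγ⟩ : Gamma0 N)⁻¹ • c) τ) :=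
    (Equiv.prod_comp (MulAction.toPerm (⟨γ, hγ⟩ : Gamma0 N)⁻¹)
      (fun c => f (s59mudPt N q rep c τ))).symm
  rw [e1]
  refine Finset.prod_congr rfl fun c _ => ?_
  have := s59mudPt_smul rep hrep ⟨γ, hγ⟩ c τ
  rw [show ((⟨γ, hγ⟩ : Gamma0 N) : SL(2, ℤ)) = γ from rfl] at this
  rw [this]
  exact hf _ (SetLike.coe_mem _) _

/-- for a `Γ₀(N q)`-invariant `f` the coset product does not depend on the section -/
theorem s59mudProd_congr_rep (rep rep' : s59mudQuot N q → Gamma0 N)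
    (hrep : ∀ c, ((rep c : Gamma0 N) : s59mudQuot N q) = c)
    (hrep' : ∀ c, ((rep' c : Gamma0 N) : s59mudQuot N q) = c)
    {f : ℍ → ℂ} (hf : ∀ γ ∈ Gamma0 (N * q), ∀ z, f (γ • z) = f z) :
    s59mudProd N q rep f = s59mudProd N q rep' f := by
  funext τ
  simp only [s59mudProd_apply]
  refine Finset.prod_congr rfl fun c _ => ?_
  have hmem : (rep c)⁻¹ * rep' c ∈ (incl N q).range := by
    rw [← QuotientGroup.eq, hrep, hrep']
  obtain ⟨κ, hκ⟩ := hmem
  have hκ' : ((κ : Gamma0 (N * q)) : SL(2, ℤ))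
      = (((rep c : Gamma0 N) : SL(2, ℤ)))⁻¹ * ((rep' c : Gamma0 N) : SL(2, ℤ)) := by
    have h := congrArg (fun x : Gamma0 N => (x : SL(2, ℤ))) hκ
    simpa using h
  unfold s59mudPt
  have e : (((rep c : Gamma0 N) : SL(2, ℤ)))⁻¹ • τ
      = ((κ : Gamma0 (N * q)) : SL(2, ℤ)) • ((((rep' c : Gamma0 N) : SL(2, ℤ)))⁻¹ • τ) := by
    rw [hκ', ← mul_smul, mul_assoc, mul_inv_cancel, mul_one]
  rw [e]
  exact hf _ κ.2 _

/-! ## The coset transform of a root datum -/

variable {n : ℕ}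

theorem s59mud_prod_multVal_pow (rep : s59mudQuot N q → Gamma0 N)
    (hrep : ∀ c, ((rep c : Gamma0 N) : s59mudQuot N q) = c)
    (R : RootData (Gamma0 (N * q)) n) (γ : Gamma0 N) :
    (∏ c : s59mudQuot N q, R.multVal (s59mudKapLow rep hrep γ c)) ^ n = 1 := by
  rw [← Finset.prod_pow]
  exact Finset.prod_eq_one fun c _ => R.multVal_pow _

/-- **The coset transform** `(Prod a) / (Prod g)` of a root datum on `Γ₀(N q)`: a root datum on
`Γ₀(N)`. -/
def s59mudRoot (rep : s59mudQuot N q → Gamma0 N)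
    (hrep : ∀ c, ((rep c : Gamma0 N) : s59mudQuot N q) = c)
    (R : RootData (Gamma0 (N * q)) n) : RootData (Gamma0 N) n where
  a := s59mudProd N q rep R.a
  g := s59mudProd N q rep R.g
  p_ne_zero := R.p_ne_zero
  mdiff_a := s59mud_mdiff_prod rep R.mdiff_a
  mdiff_g := s59mud_mdiff_prod rep R.mdiff_g
  a_ne_zero := s59mud_prod_ne_zero rep R.mdiff_a R.a_ne_zero
  g_ne_zero := s59mud_prod_ne_zero rep R.mdiff_g R.g_ne_zero
  pow_inv γ hγ τ := by
    have h := s59mud_isMultiplier rep hrep (fun δ : Gamma0 (N * q) => R.multVal δ)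
      (fun δ => R.multVal_spec δ) ⟨γ, hγ⟩ τ
    have h1 := s59mud_prod_multVal_pow rep hrep R ⟨γ, hγ⟩
    have h2 : s59mudProd N q rep R.a (γ • τ) * s59mudProd N q rep R.g τ
        = (∏ c : s59mudQuot N q, R.multVal (s59mudKapLow rep hrep ⟨γ, hγ⟩ c))
          * (s59mudProd N q rep R.a τ * s59mudProd N q rep R.g (γ • τ)) := h
    rw [h2, mul_pow, h1, one_mul]

@[simp] theorem s59mudRoot_a (rep : s59mudQuot N q → Gamma0 N)
    (hrep : ∀ c, ((rep c : Gamma0 N) : s59mudQuot N q) = c)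
    (R : RootData (Gamma0 (N * q)) n) :
    (s59mudRoot rep hrep R).a = s59mudProd N q rep R.a := rfl

@[simp] theorem s59mudRoot_g (rep : s59mudQuot N q → Gamma0 N)
    (hrep : ∀ c, ((rep c : Gamma0 N) : s59mudQuot N q) = c)
    (R : RootData (Gamma0 (N * q)) n) :
    (s59mudRoot rep hrep R).g = s59mudProd N q rep R.g := rfl

/-- the multiplier of the coset transform -/
theorem s59mudRoot_mult (rep : s59mudQuot N q → Gamma0 N)
    (hrep : ∀ c, ((rep c : Gamma0 N) : s59mudQuot N q) = c)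
    (R : RootData (Gamma0 (N * q)) n) (γ : Gamma0 N) :
    (s59mudRoot rep hrep R).mult γ
      = ∏ c : s59mudQuot N q, R.mult (s59mudKapLow rep hrep γ c) := by
  rw [RootData.mult_eq_iff]
  have h := s59mud_isMultiplier rep hrep (fun δ : Gamma0 (N * q) => R.multVal δ)
    (fun δ => R.multVal_spec δ) γ
  have e : ((∏ c : s59mudQuot N q, R.mult (s59mudKapLow rep hrep γ c) : ℂˣ) : ℂ)
      = ∏ c : s59mudQuot N q, R.multVal (s59mudKapLow rep hrep γ c) := by
    rw [Units.coe_prod]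
    rfl
  rw [e]
  exact h

/-- **Equivariance of the multiplier map for the degeneracy map `α`**: the multiplier character
of the coset transform is `cores` (Mathlib's transfer along `Γ₀(N q) ≤ Γ₀(N)`) of the multiplier
character. -/
theorem s59mudRoot_multAdd (rep : s59mudQuot N q → Gamma0 N)
    (hrep : ∀ c, ((rep c : Gamma0 N) : s59mudQuot N q) = c)
    (R : RootData (Gamma0 (N * q)) n) :
    (s59mudRoot rep hrep R).multAdd = cores N q (Additive ℂˣ) R.multAdd := by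
  refine DFunLike.ext _ _ fun γ => ?_
  obtain ⟨γ, rfl⟩ := Additive.ofMul.surjective γ
  rw [RootData.multAdd_apply, s59mudRoot_mult]
  show _ = Multiplicative.toAdd (MonoidHom.transfer
    (rangeHom (Additive ℂˣ) (incl N q) (incl_injective N q) R.multAdd) γ)
  rw [s59mud_transfer_eq (incl N q).range
    (rangeHom (Additive ℂˣ) (incl N q) (incl_injective N q) R.multAdd) rep hrep γ]
  rw [ofMul_prod, toAdd_prod]
  refine Finset.sum_congr rfl fun c _ => ?_
  rfl

/-- a section of the quotient map always exists -/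
theorem s59mud_exists_rep :
    ∃ rep : s59mudQuot N q → Gamma0 N, ∀ c, ((rep c : Gamma0 N) : s59mudQuot N q) = c :=
  ⟨fun c => Quotient.out c, fun c => Quotient.out_eq' c⟩

end Main

end Fermat.Agent.S59
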