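import Fermat.Agent.S20.Index
import Fermat.Agent.S28.UpperBound
import Fermat.Agent.S34.ALAnalytic
import Fermat.Agent.ES.RC.HeckeProdLaurent
import Fermat.Agent.S59.Eta.MuDegRoot

/-!
# S59 / R2 / μDEG, piece P4 — the cosets of `Γ₀(N q)` in `Γ₀(N)`, `q ∤ N` prime (helper84)

`γ₁ = [[a₀, b₀], [N, q]]` (`AL.alGamma1 q N a₀ b₀ h`, `q a₀ - N b₀ = 1`), `W τ = γ₁ • (q τ)`.

* `s59mud_index` : `[Γ₀(N) : Γ₀(N q)] = q + 1` (`S20.index_Gamma0`, `ψ(N q) = (q + 1) ψ(N)`);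
* `s59mudFam : Option (Fin q) → Γ₀(N)` : `1` and `(γ₁ T^b)⁻¹`, `b < q`;
  `s59mudFam_bijective` : it is a system of representatives of `Γ₀(N) ⧸ Γ₀(N q)`;
* **`s59mudProd_eq`** : for a `Γ₀(N q)`-invariant `f` and ANY section `rep`
  `s59mudProd N q rep f τ = f τ · ∏_{b<q} (f ∘ W) ((τ + b)/q)`  (`= f · RC.rcNormFun q (f ∘ W)`).
-/

set_option autoImplicit false
set_option linter.style.haveILetI false
set_option linter.unusedSectionVars false

noncomputable section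

namespace Fermat.Agent.S59

open UpperHalfPlane CongruenceSubgroup Matrix Matrix.SpecialLinearGroup ModularGroup
open Fermat.Agent.ES Fermat.Agent.ES.RC Fermat.Agent.S41 Fermat.Agent.AL Fermat.Agent.S23
open scoped MatrixGroups Manifold

attribute [local instance] Subgroup.fintypeQuotientOfFiniteIndex

section Index

variable (N q : ℕ) [NeZero N] [NeZero q]

theorem s59mud_mem_range_iff (x : Gamma0 N) :
    x ∈ (incl N q).range ↔ ((x : Gamma0 N) : SL(2, ℤ)) ∈ Gamma0 (N * q) := by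
  constructor
  · rintro ⟨y, rfl⟩
    exact y.2
  · intro hx
    exact ⟨⟨(x : SL(2, ℤ)), hx⟩, Subtype.ext rfl⟩

theorem s59mud_range_eq : (incl N q).range = (Gamma0 (N * q)).subgroupOf (Gamma0 N) := by
  ext x
  rw [s59mud_mem_range_iff, Subgroup.mem_subgroupOf]

/-- `[Γ₀(N) : Γ₀(N q)] · ψ(N) = ψ(N q)` -/
theorem s59mud_index_mul : (incl N q).range.index * ModularCurve.dedekindPsi N
    = ModularCurve.dedekindPsi (N * q) := by
  haveI : NeZero (N * q) := inferInstance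
  rw [s59mud_range_eq, ← Fermat.Agent.S20.index_Gamma0 N (NeZero.ne N),
    ← Fermat.Agent.S20.index_Gamma0 (N * q) (NeZero.ne (N * q))]
  exact Subgroup.relIndex_mul_index (Gamma0_mul_le N q)

/-- **the index**: `[Γ₀(N) : Γ₀(N q)] = q + 1` for a prime `q ∤ N` -/
theorem s59mud_index (hq : q.Prime) (hqN : ¬ q ∣ N) : (incl N q).range.index = q + 1 := by
  have h1 := s59mud_index_mul N q
  have h2 : ModularCurve.dedekindPsi (N * q) = (q + 1) * ModularCurve.dedekindPsi N := by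
    rw [Nat.mul_comm]
    exact Fermat.Agent.S28.UB.psi_mul_of_not_dvd hq hqN
  rw [h2] at h1
  have hpos : ModularCurve.dedekindPsi N ≠ 0 := by
    rw [← Fermat.Agent.S20.index_Gamma0 N (NeZero.ne N)]
    exact Subgroup.FiniteIndex.index_ne_zero
  exact Nat.eq_of_mul_eq_mul_right (Nat.pos_of_ne_zero hpos) h1

theorem s59mud_card_quot (hq : q.Prime) (hqN : ¬ q ∣ N) :
    Fintype.card (s59mudQuot N q) = q + 1 := by
  rw [← s59mud_index N q hq hqN, Subgroup.index_eq_card, Nat.card_eq_fintype_card]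

end Index

section Fam

variable {q N : ℕ} [NeZero q] [NeZero N] (a₀ b₀ : ℤ) (h : (q : ℤ) * a₀ - (N : ℤ) * b₀ = 1)

/-- the matrix `γ₁ T^k = [[a₀, a₀ k + b₀], [N, N k + q]]` -/
def s59mudGT (k : ℤ) : SL(2, ℤ) := alGamma1 q N a₀ b₀ h * T ^ k

theorem s59mud_alGamma1_coe :
    ((alGamma1 q N a₀ b₀ h : SL(2, ℤ)) : Matrix (Fin 2) (Fin 2) ℤ)
      = !![a₀, b₀; (N : ℤ), (q : ℤ)] := rfl

theorem s59mud_alGamma1_inv_coe :
    (((alGamma1 q N a₀ b₀ h)⁻¹ : SL(2, ℤ)) : Matrix (Fin 2) (Fin 2) ℤ)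
      = !![(q : ℤ), -b₀; -(N : ℤ), a₀] := by
  rw [Matrix.SpecialLinearGroup.SL2_inv_expl]
  simp [s59mud_alGamma1_coe]
  rfl

theorem s59mudGT_10 (k : ℤ) : (s59mudGT a₀ b₀ h k) 1 0 = (N : ℤ) := by
  show ((alGamma1 q N a₀ b₀ h * T ^ k : SL(2, ℤ)) : Matrix (Fin 2) (Fin 2) ℤ) 1 0 = _
  rw [Matrix.SpecialLinearGroup.coe_mul, Matrix.mul_apply, Fin.sum_univ_two,
    s59mud_alGamma1_coe, coe_T_zpow]
  simp

theorem s59mudGT_mem (k : ℤ) : s59mudGT a₀ b₀ h k ∈ Gamma0 N := by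
  apply mem_Gamma0_of_dvd
  rw [s59mudGT_10]

/-- `(γ₁ T^k) (γ₁ T^k')⁻¹` has lower left entry `- N² (k - k')` -/
theorem s59mudGT_mul_inv_10 (k k' : ℤ) :
    (s59mudGT a₀ b₀ h k * (s59mudGT a₀ b₀ h k')⁻¹) 1 0 = -((N : ℤ) * (N : ℤ) * (k - k')) := by
  have e : s59mudGT a₀ b₀ h k * (s59mudGT a₀ b₀ h k')⁻¹
      = alGamma1 q N a₀ b₀ h * T ^ (k - k') * (alGamma1 q N a₀ b₀ h)⁻¹ := by
    simp only [s59mudGT]
    rw [_root_.mul_inv_rev, ← _root_.zpow_neg, sub_eq_add_neg, _root_.zpow_add]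
    simp only [mul_assoc]
  rw [e]
  show ((alGamma1 q N a₀ b₀ h * T ^ (k - k') * (alGamma1 q N a₀ b₀ h)⁻¹ : SL(2, ℤ)) :
    Matrix (Fin 2) (Fin 2) ℤ) 1 0 = _
  rw [Matrix.SpecialLinearGroup.coe_mul, Matrix.SpecialLinearGroup.coe_mul,
    s59mud_alGamma1_coe, s59mud_alGamma1_inv_coe, coe_T_zpow]
  simp only [Matrix.mul_apply, Fin.sum_univ_two]
  simp
  ring

/-- the family of representatives: `1` and `(γ₁ T^b)⁻¹`, `b < q` -/
def s59mudFam : Option (Fin q) → Gamma0 N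
  | none => 1
  | some b => (⟨s59mudGT a₀ b₀ h (b : ℕ), s59mudGT_mem a₀ b₀ h _⟩ : Gamma0 N)⁻¹

theorem s59mudFam_none : s59mudFam a₀ b₀ h (none : Option (Fin q)) = 1 := rfl

theorem s59mudFam_some_inv_coe (b : Fin q) :
    (((s59mudFam a₀ b₀ h (some b))⁻¹ : Gamma0 N) : SL(2, ℤ)) = s59mudGT a₀ b₀ h (b : ℕ) := by
  simp [s59mudFam]

theorem s59mud_not_dvd_of_prime (hq : q.Prime) : ¬ ((N * q : ℕ) : ℤ) ∣ (N : ℤ) := by
  intro hd
  have h1 : N * q ∣ N := by exact_mod_cast hd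
  have h2 : N * q ∣ N * 1 := by rwa [mul_one]
  have h3 : q ∣ 1 := (Nat.mul_dvd_mul_iff_left (Nat.pos_of_ne_zero (NeZero.ne N))).mp h2
  exact hq.one_lt.ne' (Nat.dvd_one.mp h3)

theorem s59mudFam_injective (hq : q.Prime) (hqN : ¬ q ∣ N) :
    Function.Injective
      (fun i : Option (Fin q) => ((s59mudFam a₀ b₀ h i : Gamma0 N) : s59mudQuot N q)) := by
  intro i j hij
  have hmem : (s59mudFam a₀ b₀ h i)⁻¹ * s59mudFam a₀ b₀ h j ∈ (incl N q).range :=
    QuotientGroup.eq.mp hij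
  rw [s59mud_mem_range_iff] at hmem
  have hdvd := dvd_of_mem_Gamma0 hmem
  cases i with
  | none =>
    cases j with
    | none => rfl
    | some b' =>
      exfalso
      -- `1⁻¹ * (γ₁ T^b')⁻¹ ∈ Γ₀(N q)` hence `γ₁ T^b' ∈ Γ₀(N q)`
      have h1 : s59mudGT a₀ b₀ h (b' : ℕ) ∈ Gamma0 (N * q) := by
        have := (Gamma0 (N * q)).inv_mem hmem
        simpa [s59mudFam] using this
      have h2 := dvd_of_mem_Gamma0 h1
      rw [s59mudGT_10] at h2
      exact s59mud_not_dvd_of_prime hq h2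
  | some b =>
    cases j with
    | none =>
      exfalso
      have h1 : s59mudGT a₀ b₀ h (b : ℕ) ∈ Gamma0 (N * q) := by
        simpa [s59mudFam] using hmem
      have h2 := dvd_of_mem_Gamma0 h1
      rw [s59mudGT_10] at h2
      exact s59mud_not_dvd_of_prime hq h2
    | some b' =>
      have h1 : s59mudGT a₀ b₀ h (b : ℕ) * (s59mudGT a₀ b₀ h (b' : ℕ))⁻¹ ∈ Gamma0 (N * q) := by
        simpa [s59mudFam] using hmem
      have h2 := dvd_of_mem_Gamma0 h1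
      rw [s59mudGT_mul_inv_10, dvd_neg] at h2
      -- `N q ∣ N² (b - b')` hence `q ∣ b - b'`
      have hN0 : (N : ℤ) ≠ 0 := by exact_mod_cast NeZero.ne N
      have h3 : (q : ℤ) ∣ (N : ℤ) * (((b : ℕ) : ℤ) - ((b' : ℕ) : ℤ)) := by
        have h4 : (N : ℤ) * (q : ℤ) ∣ (N : ℤ) * ((N : ℤ) * (((b : ℕ) : ℤ) - ((b' : ℕ) : ℤ))) := by
          have : ((N * q : ℕ) : ℤ) = (N : ℤ) * (q : ℤ) := by push_cast; ring
          rw [← this, ← mul_assoc]
          exact h2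
        exact (mul_dvd_mul_iff_left hN0).mp h4
      have hqp : Prime (q : ℤ) := Nat.prime_iff_prime_int.mp hq
      have h5 : (q : ℤ) ∣ ((b : ℕ) : ℤ) - ((b' : ℕ) : ℤ) := by
        rcases hqp.dvd_or_dvd h3 with h6 | h6
        · exact absurd (by exact_mod_cast h6 : q ∣ N) hqN
        · exact h6
      have h7 : ((b : ℕ) : ℤ) % (q : ℤ) = ((b' : ℕ) : ℤ) % (q : ℤ) :=
        Int.emod_eq_emod_iff_emod_sub_eq_zero.mpr (Int.emod_eq_zero_of_dvd h5)
      have h8 : (b : ℕ) = (b' : ℕ) := by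
        have hb : ((b : ℕ) : ℤ) % (q : ℤ) = ((b : ℕ) : ℤ) :=
          Int.emod_eq_of_lt (by positivity) (by exact_mod_cast b.2)
        have hb' : ((b' : ℕ) : ℤ) % (q : ℤ) = ((b' : ℕ) : ℤ) :=
          Int.emod_eq_of_lt (by positivity) (by exact_mod_cast b'.2)
        rw [hb, hb'] at h7
        exact_mod_cast h7
      exact congrArg some (Fin.ext h8)

/-- **the family is a system of representatives** -/
theorem s59mudFam_bijective (hq : q.Prime) (hqN : ¬ q ∣ N) :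
    Function.Bijective
      (fun i : Option (Fin q) => ((s59mudFam a₀ b₀ h i : Gamma0 N) : s59mudQuot N q)) := by
  rw [Fintype.bijective_iff_injective_and_card]
  refine ⟨s59mudFam_injective a₀ b₀ h hq hqN, ?_⟩
  rw [s59mud_card_quot N q hq hqN, Fintype.card_option, Fintype.card_fin]

/-- `W ((τ + b)/q) = (γ₁ T^b) τ` -/
theorem s59mud_alW_beta (b : ℕ) (τ : ℍ) :
    alW q N a₀ b₀ h (rcBeta q b τ) = s59mudGT a₀ b₀ h (b : ℕ) • τ := by
  rw [alW, s59mudGT, mul_smul]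
  congr 1
  apply UpperHalfPlane.ext
  rw [coe_scaleN, rc_coe_beta, coe_T_zpow_smul_eq]
  have hq0 : (q : ℂ) ≠ 0 := by exact_mod_cast NeZero.ne q
  push_cast
  field_simp

/-- **the coset product, explicitly**: for a `Γ₀(N q)`-invariant `f` and any section `rep`
`∏_c f ((rep c)⁻¹ τ) = f τ · ∏_{b<q} f (W ((τ + b)/q))`. -/
theorem s59mudProd_eq (hq : q.Prime) (hqN : ¬ q ∣ N)
    (rep : s59mudQuot N q → Gamma0 N) (hrep : ∀ c, ((rep c : Gamma0 N) : s59mudQuot N q) = c)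
    {f : ℍ → ℂ} (hf : ∀ γ ∈ Gamma0 (N * q), ∀ z, f (γ • z) = f z) (τ : ℍ) :
    s59mudProd N q rep f τ
      = f τ * rcNormFun q (fun z => f (alW q N a₀ b₀ h z)) τ := by
  -- the section attached to the family
  let e : Option (Fin q) ≃ s59mudQuot N q :=
    Equiv.ofBijective _ (s59mudFam_bijective a₀ b₀ h hq hqN)
  let rep' : s59mudQuot N q → Gamma0 N := fun c => s59mudFam a₀ b₀ h (e.symm c)
  have hrep' : ∀ c, ((rep' c : Gamma0 N) : s59mudQuot N q) = c := by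
    intro c
    exact e.apply_symm_apply c
  rw [s59mudProd_congr_rep rep rep' hrep hrep' hf, s59mudProd_apply]
  rw [← Equiv.prod_comp e (fun c => f (s59mudPt N q rep' c τ))]
  have hpt : ∀ i : Option (Fin q), s59mudPt N q rep' (e i) τ
      = (((s59mudFam a₀ b₀ h i)⁻¹ : Gamma0 N) : SL(2, ℤ)) • τ := by
    intro i
    show ((((rep' (e i) : Gamma0 N) : SL(2, ℤ)))⁻¹) • τ = _
    have : rep' (e i) = s59mudFam a₀ b₀ h i := by
      show s59mudFam a₀ b₀ h (e.symm (e i)) = _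
      rw [Equiv.symm_apply_apply]
    rw [this]
    rfl
  simp only [hpt]
  rw [Fintype.prod_option]
  congr 1
  · rw [s59mudFam_none]
    simp
  · rw [rc_normFun_apply, ← Fin.prod_univ_eq_prod_range (fun b => f (alW q N a₀ b₀ h (rcBeta q b τ)))]
    refine Finset.prod_congr rfl fun b _ => ?_
    rw [s59mudFam_some_inv_coe, s59mud_alW_beta]

end Fam

end Fermat.Agent.S59
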