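import Fermat.Agent.S59.Eta.MuDegAt
import Fermat.Agent.S59.Eta.MuDegCoset
import Fermat.Agent.STB.PushHeckeDiv
import Fermat.Agent.S15.ModFrWN
import Fermat.Agent.ES.RC.FracField
import Fermat.Agent.ES.G2.Frob
import Fermat.Agent.ES.RootModFun

/-!
# S59 / R2 / μDEG — the `α`-half at `(M, q)` for a prime `q ∣ M` (helper75)

E-MULT1b needs μDEG for the degeneracy maps `J₀(M q) → J₀(M)` with `q ∣ M` (`M = N q`).  Here is
the `α`-half: `s59mud_RelAlphaAt M q` for every prime `q ∣ M`, UNCONDITIONAL.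

`w_K` = Fricke involution of `F_K` (`STB.stbdW K = ES.M.frickeAut K`), analytically
`τ ↦ -1/(K τ)` (`S28.fricke K`, `S15.stmtFrWN`); `L_k = [[1, 0], [M k, 1]] ∈ Γ₀(M)`.

* `s59muda_norm_coe` : `w_M (N_α y) = kronNorm q ζ (w_{Mq} y)` as `q`-expansions (the `q`
  embeddings `STB.stbdRotA` of `F_{Mq}` over `α (F_M)` are all of them);
* `s59mudaFam_bijective` : `L_b`, `b < q`, is a system of representatives of `Γ₀(M) ⧸ Γ₀(M q)`;
* `s59muda_prod_eq` : for a `Γ₀(M q)`-invariant `f` and ANY section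
  `s59mudProd M q rep f τ = ∏_{b<q} f (L_{-b} τ) = rcNormFun q (f ∘ w_{Mq}) (w_M τ)`;
* `s59muda_isMerInf_comp` : `f ∘ L_k` is meromorphic at `i∞` (the cusps `1/(M k)` of `Γ₀(M q)` have
  width `1`);
* **`s59muda_bridgeAlphaAt`** : `s59mud_BridgeAlphaAt M q`;
* **`s59muda_relAlphaAt`** : `s59mud_RelAlphaAt M q`; `s59muda_relAlphaAt_mul` : at `(N q, q)`.
-/

set_option autoImplicit false
set_option linter.style.haveILetI false
set_option linter.unusedSectionVars false

noncomputable section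

namespace Fermat.Agent.S59

open ModularCurve AlgebraicCurve CongruenceSubgroup ModularCurve.Period UpperHalfPlane
open Fermat.Agent.S23 Fermat.Agent.S24 Fermat.Agent.S28 Fermat.Agent.ES Fermat.Agent.ES.G2
  Fermat.Agent.ES.RC Fermat.Agent.S41 Fermat.Agent.STB Fermat.Agent.ES.M
open scoped MatrixGroups Manifold ModularForm

attribute [local instance] Subgroup.fintypeQuotientOfFiniteIndex

local notation "Δ" => ModularForm.discriminant

/-! ## The norm along `α`, `q ∣ M` -/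

section Norm

variable (M q : ℕ) [NeZero M] [NeZero q]

/-- **the `q`-expansion of the norm along `α`, `q ∣ M`**:
`w_M (N_α y) = kronNorm q ζ (w_{Mq} y)`. -/
theorem s59muda_norm_coe (hq : q.Prime) (hqM : q ∣ M) (ζ : Qbˣ) (hζ : IsPrimitiveRoot ζ q)
    (y : modularFunctionFieldBar (M * q)) :
    ((stbdW M (stbNorm (heckeAlphaBar Qb M q).toRingHom y) : modularFunctionFieldBar M) :
        LaurentSeries Qb)
      = kronNorm q ζ ((stbdW (M * q) y : modularFunctionFieldBar (M * q)) : LaurentSeries Qb) := by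
  let algF' : Algebra (modularFunctionFieldBar M) (modularFunctionFieldBar (M * q)) :=
    (heckeAlphaBar Qb M q).toRingHom.toAlgebra
  let algE : Algebra (modularFunctionFieldBar M) HnOmegaBar := (stbdBaseA M q).toAlgebra
  have hdeg : Module.finrank (modularFunctionFieldBar M) (modularFunctionFieldBar (M * q)) = q :=
    stbd_deg_alpha M q hq hqM
  have hfin : FiniteDimensional (modularFunctionFieldBar M) (modularFunctionFieldBar (M * q)) :=
    Module.finite_of_finrank_pos (by rw [hdeg]; exact hq.pos)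
  have : CharZero (modularFunctionFieldBar M) := stb_charZero_bar M
  have hsep : Algebra.IsSeparable (modularFunctionFieldBar M)
      (modularFunctionFieldBar (M * q)) := inferInstance
  let e : Fin q → (modularFunctionFieldBar (M * q) →ₐ[modularFunctionFieldBar M] HnOmegaBar) :=
    fun b =>
    { stbdRotA M q (ζ ^ (b : ℕ)) with
      commutes' := fun x =>
        stbdRotA_alpha M q _ (stbd_pow_pow_eq_one q hζ.pow_eq_one _) x }
  have h2 : ∀ c : Qbˣ, stbdRotA M q c (stbdW (M * q) (hnJ (M * q)))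
      = algebraMap HnOmega HnOmegaBar (kronRot c (coeffEmb Qb jq)) := by
    intro c
    rw [stbdRotA_apply, stbdW_stbdW, stbdRotB_apply, hnJ_coe]
  have he : Function.Injective e := by
    intro b b' h
    apply stbd_rot_injective_at_one q ζ hζ
    have h1 : stbdRotA M q (ζ ^ (b : ℕ)) (stbdW (M * q) (hnJ (M * q)))
        = stbdRotA M q (ζ ^ (b' : ℕ)) (stbdW (M * q) (hnJ (M * q))) :=
      congrArg (fun g : modularFunctionFieldBar (M * q) →ₐ[modularFunctionFieldBar M]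
        HnOmegaBar => g (stbdW (M * q) (hnJ (M * q)))) h
    rw [h2, h2] at h1
    exact hn_algebraMap_injective h1
  have hcard : Fintype.card (Fin q)
      = Module.finrank (modularFunctionFieldBar M) (modularFunctionFieldBar (M * q)) := by
    rw [hdeg, Fintype.card_fin]
  have key := hn_norm_eq_prod_of_injective e he hcard y
  have h3 : algebraMap (modularFunctionFieldBar M) HnOmegaBar
      (Algebra.norm (modularFunctionFieldBar M) y)
      = algebraMap HnOmega HnOmegaBar (qExpand Qb q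
          ((stbdW M (Algebra.norm (modularFunctionFieldBar M) y) : modularFunctionFieldBar M) :
            LaurentSeries Qb)) := rfl
  have h4 : ∀ b : Fin q, e b y
      = algebraMap HnOmega HnOmegaBar
          (kronRot (ζ ^ (b : ℕ))
            ((stbdW (M * q) y : modularFunctionFieldBar (M * q)) : LaurentSeries Qb)) :=
    fun b => rfl
  rw [h3] at key
  simp only [h4] at key
  rw [← map_prod,
    Fin.prod_univ_eq_prod_range
      (fun b => kronRot (ζ ^ b)
        ((stbdW (M * q) y : modularFunctionFieldBar (M * q)) : LaurentSeries Qb)) q,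
    ← qExpand_kronNorm_field ζ hζ] at key
  exact qExpand_injective q (hn_algebraMap_injective key)

end Norm

/-! ## The cosets of `Γ₀(M q)` in `Γ₀(M)`, `q ∣ M` -/

section Cosets

variable (M q : ℕ) [NeZero M] [NeZero q]

/-- `L_k = [[1, 0], [M k, 1]]` -/
def s59mudaL (k : ℤ) : SL(2, ℤ) :=
  ⟨!![1, 0; (M : ℤ) * k, 1], by rw [Matrix.det_fin_two_of]; ring⟩

omit [NeZero M] in
theorem s59mudaL_coe (k : ℤ) :
    ((s59mudaL M k : SL(2, ℤ)) : Matrix (Fin 2) (Fin 2) ℤ) = !![1, 0; (M : ℤ) * k, 1] := rfl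

omit [NeZero M] in
theorem s59mudaL_10 (k : ℤ) : (s59mudaL M k) 1 0 = (M : ℤ) * k := rfl

omit [NeZero M] in
theorem s59mudaL_mem (k : ℤ) : s59mudaL M k ∈ Gamma0 M :=
  mem_Gamma0_of_dvd ⟨k, s59mudaL_10 M k⟩

omit [NeZero M] in
theorem s59mudaL_mul (k k' : ℤ) : s59mudaL M k * s59mudaL M k' = s59mudaL M (k + k') := by
  apply Subtype.ext
  show ((s59mudaL M k * s59mudaL M k' : SL(2, ℤ)) : Matrix (Fin 2) (Fin 2) ℤ) = _
  rw [Matrix.SpecialLinearGroup.coe_mul, s59mudaL_coe, s59mudaL_coe, s59mudaL_coe]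
  ext i j
  fin_cases i <;> fin_cases j <;> simp [Matrix.mul_apply, Fin.sum_univ_two]
  ring

omit [NeZero M] in
theorem s59mudaL_zero : s59mudaL M 0 = 1 := by
  apply Subtype.ext
  show ((s59mudaL M 0 : SL(2, ℤ)) : Matrix (Fin 2) (Fin 2) ℤ) = 1
  rw [s59mudaL_coe]
  ext i j
  fin_cases i <;> fin_cases j <;> simp

omit [NeZero M] in
theorem s59mudaL_inv (k : ℤ) : (s59mudaL M k)⁻¹ = s59mudaL M (-k) := by
  apply inv_eq_of_mul_eq_one_right
  rw [s59mudaL_mul, add_neg_cancel, s59mudaL_zero]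

/-- `L_k T L_k⁻¹ ∈ Γ₀(M q)` if `q ∣ M` : the cusp `1/(M k)` of `Γ₀(M q)` has width `1` -/
theorem s59mudaL_T_mem (hqM : q ∣ M) (k : ℤ) :
    s59mudaL M k * ModularGroup.T * (s59mudaL M k)⁻¹ ∈ Gamma0 (M * q) := by
  apply mem_Gamma0_of_dvd
  rw [s59mudaL_inv]
  have e : (s59mudaL M k * ModularGroup.T * s59mudaL M (-k)) 1 0
      = -((M : ℤ) * (M : ℤ) * (k * k)) := by
    show ((s59mudaL M k * ModularGroup.T * s59mudaL M (-k) : SL(2, ℤ)) :
      Matrix (Fin 2) (Fin 2) ℤ) 1 0 = _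
    rw [Matrix.SpecialLinearGroup.coe_mul, Matrix.SpecialLinearGroup.coe_mul,
      s59mudaL_coe, s59mudaL_coe, ModularGroup.coe_T]
    simp only [Matrix.mul_apply, Fin.sum_univ_two]
    simp
    ring
  rw [e, dvd_neg]
  obtain ⟨m', hm'⟩ := hqM
  refine ⟨(m' : ℤ) * (k * k), ?_⟩
  have : (M : ℤ) = (q : ℤ) * (m' : ℤ) := by exact_mod_cast hm'
  push_cast
  rw [this]
  ring

/-- the family of representatives `L_b`, `b < q` -/
def s59mudaFam (b : Fin q) : Gamma0 M := ⟨s59mudaL M ((b : ℕ) : ℤ), s59mudaL_mem M _⟩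

omit [NeZero M] in
theorem s59mudaFam_inv_coe (b : Fin q) :
    (((s59mudaFam M q b)⁻¹ : Gamma0 M) : SL(2, ℤ)) = s59mudaL M (-((b : ℕ) : ℤ)) := by
  rw [← s59mudaL_inv]
  rfl

theorem s59mudaFam_injective :
    Function.Injective
      (fun b : Fin q => ((s59mudaFam M q b : Gamma0 M) : s59mudQuot M q)) := by
  intro b b' hbb'
  have hmem : (s59mudaFam M q b)⁻¹ * s59mudaFam M q b' ∈ (incl M q).range :=
    QuotientGroup.eq.mp hbb'
  rw [s59mud_mem_range_iff] at hmem
  have h1 : s59mudaL M (-((b : ℕ) : ℤ) + ((b' : ℕ) : ℤ)) ∈ Gamma0 (M * q) := by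
    rw [← s59mudaL_mul, ← s59mudaFam_inv_coe]
    exact hmem
  have h2 := dvd_of_mem_Gamma0 h1
  rw [s59mudaL_10] at h2
  have hM0 : (M : ℤ) ≠ 0 := by exact_mod_cast NeZero.ne M
  have h3 : (q : ℤ) ∣ -((b : ℕ) : ℤ) + ((b' : ℕ) : ℤ) := by
    have h4 : (M : ℤ) * (q : ℤ) ∣ (M : ℤ) * (-((b : ℕ) : ℤ) + ((b' : ℕ) : ℤ)) := by
      have : ((M * q : ℕ) : ℤ) = (M : ℤ) * (q : ℤ) := by push_cast; ring
      rw [← this]
      exact h2
    exact (mul_dvd_mul_iff_left hM0).mp h4
  have h5 : (q : ℤ) ∣ ((b' : ℕ) : ℤ) - ((b : ℕ) : ℤ) := by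
    have : ((b' : ℕ) : ℤ) - ((b : ℕ) : ℤ) = -((b : ℕ) : ℤ) + ((b' : ℕ) : ℤ) := by ring
    rw [this]
    exact h3
  have h7 : ((b' : ℕ) : ℤ) % (q : ℤ) = ((b : ℕ) : ℤ) % (q : ℤ) :=
    Int.emod_eq_emod_iff_emod_sub_eq_zero.mpr (Int.emod_eq_zero_of_dvd h5)
  have hb : ((b : ℕ) : ℤ) % (q : ℤ) = ((b : ℕ) : ℤ) :=
    Int.emod_eq_of_lt (by positivity) (by exact_mod_cast b.2)
  have hb' : ((b' : ℕ) : ℤ) % (q : ℤ) = ((b' : ℕ) : ℤ) :=
    Int.emod_eq_of_lt (by positivity) (by exact_mod_cast b'.2)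
  rw [hb, hb'] at h7
  exact Fin.ext (by exact_mod_cast h7.symm)

/-- **the index**: `[Γ₀(M) : Γ₀(M q)] = q` for a prime `q ∣ M` -/
theorem s59muda_index (hq : q.Prime) (hqM : q ∣ M) : (incl M q).range.index = q := by
  have h1 := s59mud_index_mul M q
  have h2 : ModularCurve.dedekindPsi (M * q) = q * ModularCurve.dedekindPsi M := by
    rw [Nat.mul_comm]
    exact Fermat.Agent.S28.UB.psi_mul_of_dvd hq hqM (NeZero.ne M)
  rw [h2] at h1
  have hpos : ModularCurve.dedekindPsi M ≠ 0 := by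
    rw [← Fermat.Agent.S20.index_Gamma0 M (NeZero.ne M)]
    exact Subgroup.FiniteIndex.index_ne_zero
  exact Nat.eq_of_mul_eq_mul_right (Nat.pos_of_ne_zero hpos) h1

theorem s59muda_card_quot (hq : q.Prime) (hqM : q ∣ M) :
    Fintype.card (s59mudQuot M q) = q := by
  have h := s59muda_index M q hq hqM
  rw [Subgroup.index_eq_card, Nat.card_eq_fintype_card] at h
  exact h

/-- **the family is a system of representatives** -/
theorem s59mudaFam_bijective (hq : q.Prime) (hqM : q ∣ M) :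
    Function.Bijective
      (fun b : Fin q => ((s59mudaFam M q b : Gamma0 M) : s59mudQuot M q)) := by
  rw [Fintype.bijective_iff_injective_and_card]
  refine ⟨s59mudaFam_injective M q, ?_⟩
  rw [s59muda_card_quot M q hq hqM, Fintype.card_fin]

variable {M q}

/-- **the coset product, explicitly**: for a `Γ₀(M q)`-invariant `f` and any section `rep`
`∏_c f ((rep c)⁻¹ τ) = ∏_{b<q} f (L_{-b} τ)`. -/
theorem s59muda_prod_eq (hq : q.Prime) (hqM : q ∣ M)
    (rep : s59mudQuot M q → Gamma0 M) (hrep : ∀ c, ((rep c : Gamma0 M) : s59mudQuot M q) = c)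
    {f : ℍ → ℂ} (hf : ∀ γ ∈ Gamma0 (M * q), ∀ z, f (γ • z) = f z) (τ : ℍ) :
    s59mudProd M q rep f τ = ∏ b : Fin q, f (s59mudaL M (-((b : ℕ) : ℤ)) • τ) := by
  let e : Fin q ≃ s59mudQuot M q := Equiv.ofBijective _ (s59mudaFam_bijective M q hq hqM)
  let rep' : s59mudQuot M q → Gamma0 M := fun c => s59mudaFam M q (e.symm c)
  have hrep' : ∀ c, ((rep' c : Gamma0 M) : s59mudQuot M q) = c := by
    intro c
    exact e.apply_symm_apply c
  rw [s59mudProd_congr_rep rep rep' hrep hrep' hf, s59mudProd_apply]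
  rw [← Equiv.prod_comp e (fun c => f (s59mudPt M q rep' c τ))]
  refine Finset.prod_congr rfl fun b _ => ?_
  have : rep' (e b) = s59mudaFam M q b := by
    show s59mudaFam M q (e.symm (e b)) = _
    rw [Equiv.symm_apply_apply]
  show f (((((rep' (e b) : Gamma0 M) : SL(2, ℤ)))⁻¹) • τ) = _
  rw [this, ← s59mudaFam_inv_coe]
  rfl

/-- `w_{Mq} ((w_M τ + b)/q) = L_{-b} τ` -/
theorem s59muda_fricke_beta (b : ℕ) (τ : ℍ) :
    fricke (M * q) (rcBeta q b (fricke M τ)) = s59mudaL M (-(b : ℤ)) • τ := by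
  apply UpperHalfPlane.ext
  rw [coe_fricke, rc_coe_beta, coe_fricke, coe_specialLinearGroup_apply]
  have hτ : (τ : ℂ) ≠ 0 := UpperHalfPlane.ne_zero τ
  have hM : (M : ℂ) ≠ 0 := by exact_mod_cast NeZero.ne M
  have hq0 : (q : ℂ) ≠ 0 := by exact_mod_cast NeZero.ne q
  have hden : ((M : ℂ) * (-(b : ℂ))) * (τ : ℂ) + 1 ≠ 0 := by
    intro h0
    have h1 := congrArg Complex.im h0
    have h2 : (((M : ℂ) * (-(b : ℂ))) * (τ : ℂ) + 1).im = -((M : ℝ) * (b : ℝ) * τ.im) := by
      simp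
    rw [h2] at h1
    have h3 : (M : ℝ) * (b : ℝ) * τ.im = 0 := by
      have := h1
      simp only [Complex.zero_im] at this
      linarith
    have hMr : (M : ℝ) ≠ 0 := by exact_mod_cast NeZero.ne M
    have hb0 : (b : ℝ) = 0 := by
      rcases mul_eq_zero.mp h3 with h4 | h4
      · rcases mul_eq_zero.mp h4 with h5 | h5
        · exact absurd h5 hMr
        · exact h5
      · exact absurd h4 τ.im_pos.ne'
    have hb0' : (b : ℂ) = 0 := by exact_mod_cast hb0
    rw [hb0'] at h0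
    simp at h0
  have e10 : (algebraMap ℤ ℝ ((s59mudaL M (-(b : ℤ))) 1 0) : ℂ) = (M : ℂ) * (-(b : ℂ)) := by
    rw [s59mudaL_10]
    simp
  have e00 : (algebraMap ℤ ℝ ((s59mudaL M (-(b : ℤ))) 0 0) : ℂ) = 1 := by
    show (algebraMap ℤ ℝ (1 : ℤ) : ℂ) = 1
    simp
  have e01 : (algebraMap ℤ ℝ ((s59mudaL M (-(b : ℤ))) 0 1) : ℂ) = 0 := by
    show (algebraMap ℤ ℝ (0 : ℤ) : ℂ) = 0
    simp
  have e11 : (algebraMap ℤ ℝ ((s59mudaL M (-(b : ℤ))) 1 1) : ℂ) = 1 := by
    show (algebraMap ℤ ℝ (1 : ℤ) : ℂ) = 1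
    simp
  rw [e10, e00, e01, e11]
  have key : -(((M * q : ℕ) : ℂ) * (((-((M : ℂ) * (τ : ℂ)))⁻¹ + (b : ℂ)) / (q : ℂ)))
      = ((M : ℂ) * (-(b : ℂ)) * (τ : ℂ) + 1) / (τ : ℂ) := by
    push_cast
    field_simp
    ring
  rw [key, inv_div, one_mul, add_zero]

/-- the coset product as a rotation norm: `∏_c f ((rep c)⁻¹ τ) = rcNormFun q (f ∘ w_{Mq}) (w_M τ)` -/
theorem s59muda_prod_eq_normFun (hq : q.Prime) (hqM : q ∣ M)
    (rep : s59mudQuot M q → Gamma0 M) (hrep : ∀ c, ((rep c : Gamma0 M) : s59mudQuot M q) = c)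
    {f : ℍ → ℂ} (hf : ∀ γ ∈ Gamma0 (M * q), ∀ z, f (γ • z) = f z) (τ : ℍ) :
    s59mudProd M q rep f τ = rcNormFun q (fun z => f (fricke (M * q) z)) (fricke M τ) := by
  rw [s59muda_prod_eq hq hqM rep hrep hf, rc_normFun_apply,
    ← Fin.prod_univ_eq_prod_range (fun b => f (fricke (M * q) (rcBeta q b (fricke M τ))))]
  refine Finset.prod_congr rfl fun b _ => ?_
  rw [s59muda_fricke_beta]

end Cosets

/-! ## Meromorphy at `i∞` of the coset product -/

section MerInf

theorem s59muda_periodic_of_vadd {f : ℍ → ℂ} (hf : ∀ z : ℍ, f ((1 : ℝ) +ᵥ z) = f z) :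
    Function.Periodic (f ∘ ofComplex) 1 := by
  intro w
  by_cases hw : 0 < Complex.im w
  · have hw1 : 0 < Complex.im (w + 1) := by simpa using hw
    simp only [Function.comp_apply, ofComplex_apply_of_im_pos hw1, ofComplex_apply_of_im_pos hw]
    rw [← hf ⟨w, hw⟩]
    congr 1
    ext
    simp [add_comm]
  · have hw' : Complex.im w ≤ 0 := not_lt.mp hw
    have hw1 : Complex.im (w + 1) ≤ 0 := by simpa using hw'
    simp [ofComplex_apply_of_im_nonpos hw1, ofComplex_apply_of_im_nonpos hw']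

theorem s59muda_vadd_of_periodic {f : ℍ → ℂ} (hf : Function.Periodic (f ∘ ofComplex) 1) (z : ℍ) :
    f ((1 : ℝ) +ᵥ z) = f z := by
  have h := hf (z : ℂ)
  simp only [Function.comp_apply, ofComplex_apply] at h
  rw [← h]
  congr 1
  have him : 0 < Complex.im ((z : ℂ) + 1) := by simpa using z.im_pos
  rw [ofComplex_apply_of_im_pos him]
  ext
  simp [add_comm]

/-- for `γ ∈ SL(2, ℤ)` with `γ T γ⁻¹ ∈ Γ₀(K)` and a modular function `f` of level `K`, `f ∘ γ` is
meromorphic at `i∞` -/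
theorem s59muda_isMerInf_comp {K : ℕ} [NeZero K] {f : ℍ → ℂ} (hf : IsModFun K f) (γ : SL(2, ℤ))
    (hT : γ * ModularGroup.T * γ⁻¹ ∈ Gamma0 K) : IsMerInf (fun τ => f (γ • τ)) := by
  have hmd : MDiff f := rc_mdiff_of_isModFun hf
  have hinv : ∀ z : ℍ, f (γ • ((1 : ℝ) +ᵥ z)) = f (γ • z) := by
    intro z
    have h1 := isModFun_comp_smul hf hT (γ • z)
    rw [← h1, ← modular_T_smul, ← mul_smul, ← mul_smul]
    congr 1
    group
  obtain ⟨m, F, hF⟩ := hf
  have hΔ : MDiff (fun z : ℍ => Δ z ^ m) := by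
    have h : MDiff (CuspForm.discriminant : ℍ → ℂ) := CuspForm.discriminant.holo'
    exact h.pow m
  refine ⟨m, (mdiff_comp_SL hmd γ).mul hΔ, ?_, ?_⟩
  · apply s59muda_periodic_of_vadd
    intro z
    show f (γ • ((1 : ℝ) +ᵥ z)) * Δ ((1 : ℝ) +ᵥ z) ^ m = f (γ • z) * Δ z ^ m
    rw [hinv z, s59muda_vadd_of_periodic bridge_isHPB_discriminant.2.1 z]
  · have h1 : IsBoundedAtImInfty ((F : ℍ → ℂ) ∣[(12 * (m : ℤ))] γ) :=
      ModularFormClass.bdd_at_infty_slash F γ
    rw [hF, slash_mul_discPow] at h1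
    exact h1

variable {M q : ℕ} [NeZero M] [NeZero q]

/-- **the coset product of a modular function of level `M q` is meromorphic at `i∞`**, `q ∣ M` -/
theorem s59muda_isMerInf_prod (hq : q.Prime) (hqM : q ∣ M)
    (rep : s59mudQuot M q → Gamma0 M) (hrep : ∀ c, ((rep c : Gamma0 M) : s59mudQuot M q) = c)
    {f : ℍ → ℂ} (hf : IsModFun (M * q) f) : IsMerInf (s59mudProd M q rep f) := by
  haveI : NeZero (M * q) := inferInstance
  have hP : s59mudProd M q rep f
      = ∏ b : Fin q, (fun τ : ℍ => f (s59mudaL M (-((b : ℕ) : ℤ)) • τ)) := by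
    funext τ
    rw [s59muda_prod_eq hq hqM rep hrep (fun γ hγ z => isModFun_comp_smul hf hγ z) τ,
      Finset.prod_apply]
  rw [hP]
  exact Subalgebra.prod_mem merInf fun b _ =>
    s59muda_isMerInf_comp hf _ (s59mudaL_T_mem M q hqM _)

end MerInf

/-! ## BRIDGE-`α` and μDEG-`α` at `(M, q)`, `q ∣ M` -/

section Bridge

variable {M q : ℕ} [NeZero M] [NeZero q]

/-- **BRIDGE-`α` for a prime `q ∣ M`.** -/
theorem s59muda_bridgeAlphaAt (hq : q.Prime) (hqM : q ∣ M) : s59mud_BridgeAlphaAt M q := by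
  intro rep hrep u
  haveI : NeZero (M * q) := inferInstance
  -- an analytic fraction of `u`
  obtain ⟨a, g, ha, hg, hg0, hfr⟩ := rc_exists_frac (M * q) (coeffMap_embC_mem (M * q) u.2)
  have hgne : g ≠ 0 := by
    rintro rfl
    exact hg0 laurentOf_zero
  refine ⟨a, g, ⟨ha, hg, hgne, hfr⟩, ?_⟩
  -- Fricke at level `M q`
  obtain ⟨haW, hgW, hfrW⟩ := Fermat.Agent.S15.stmtFrWN (M * q) u a g ha hg hfr
  -- the coset products
  have hPa : ∀ τ, s59mudProd M q rep a τ
      = rcNormFun q (fun z => a (fricke (M * q) z)) (fricke M τ) :=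
    s59muda_prod_eq_normFun hq hqM rep hrep (fun γ hγ z => isModFun_comp_smul ha hγ z)
  have hPg : ∀ τ, s59mudProd M q rep g τ
      = rcNormFun q (fun z => g (fricke (M * q) z)) (fricke M τ) :=
    s59muda_prod_eq_normFun hq hqM rep hrep (fun γ hγ z => isModFun_comp_smul hg hγ z)
  have hMa : IsMerInf (s59mudProd M q rep a) := s59muda_isMerInf_prod hq hqM rep hrep ha
  have hMg : IsMerInf (s59mudProd M q rep g) := s59muda_isMerInf_prod hq hqM rep hrep hg
  refine ⟨hMa, hMg, ?_⟩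
  -- the roots of unity
  obtain ⟨ζ, hζ⟩ := frob_exists_primitiveRoot q hq.ne_zero
  obtain ⟨ζC, hζCdef⟩ : ∃ ζC : ℂˣ, ζC = Units.map ((embC : Qb →+* ℂ) : Qb →* ℂ) ζ := ⟨_, rfl⟩
  have hζC : IsPrimitiveRoot ζC q := by
    rw [hζCdef]
    exact hζ.map_of_injective (Units.map_injective (f := ((embC : Qb →+* ℂ) : Qb →* ℂ))
      embC.injective)
  -- `y = w_M (N_α u)`
  obtain ⟨y, hy⟩ : ∃ y : modularFunctionFieldBar M,
      y = stbdW M (stbNorm (heckeAlphaBar Qb M q).toRingHom u) := ⟨_, rfl⟩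
  have hycoe : coeffMap embC (y : LaurentSeries Qb)
      = kronNorm q ζC (coeffMap embC
          ((stbdW (M * q) u : modularFunctionFieldBar (M * q)) : LaurentSeries Qb)) := by
    rw [hy, s59muda_norm_coe M q hq hqM ζ hζ u, coeffMap_kronNorm, hζCdef]
  -- the rotation norms
  have hA' : IsMerInf (rcNormFun q (fun z => a (fricke (M * q) z))) :=
    rc_isMerInf_normFun q haW.isMerInf
  have hG' : IsMerInf (rcNormFun q (fun z => g (fricke (M * q) z))) :=
    rc_isMerInf_normFun q hgW.isMerInf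
  have hLA' : laurentOf (rcNormFun q (fun z => a (fricke (M * q) z)))
      = kronNorm q ζC (laurentOf (fun z => a (fricke (M * q) z))) := by
    rw [rc_laurentOf_normFun q haW.isMerInf,
      kronNorm_eq_of_isPrimitiveRoot q ζC (rcRoot 1 (q : ℤ)) hζC (rc_isPrimitiveRoot_root q)]
  have hLG' : laurentOf (rcNormFun q (fun z => g (fricke (M * q) z)))
      = kronNorm q ζC (laurentOf (fun z => g (fricke (M * q) z))) := by
    rw [rc_laurentOf_normFun q hgW.isMerInf,
      kronNorm_eq_of_isPrimitiveRoot q ζC (rcRoot 1 (q : ℤ)) hζC (rc_isPrimitiveRoot_root q)]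
  have hyfr : coeffMap embC (y : LaurentSeries Qb)
      * laurentOf (rcNormFun q (fun z => g (fricke (M * q) z)))
      = laurentOf (rcNormFun q (fun z => a (fricke (M * q) z))) := by
    rw [hycoe, hLA', hLG', ← hfrW, kronNorm_mul q ζC hζC]
    rfl
  -- an analytic fraction of `y` at level `M`
  obtain ⟨a₁, g₁, ha₁, hg₁, hg₁0, hfr₁⟩ := rc_exists_frac M (coeffMap_embC_mem M y.2)
  have hcr : a₁ * rcNormFun q (fun z => g (fricke (M * q) z))
      = g₁ * rcNormFun q (fun z => a (fricke (M * q) z)) := by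
    apply laurentOf_injective (ha₁.isMerInf.mul hG') (hg₁.isMerInf.mul hA')
    rw [laurentOf_mul ha₁.isMerInf hG', laurentOf_mul hg₁.isMerInf hA', ← hfr₁, ← hyfr]
    ring
  -- Fricke at level `M`
  obtain ⟨ha₁W, hg₁W, hfr₁W⟩ := Fermat.Agent.S15.stmtFrWN M y a₁ g₁ ha₁ hg₁ hfr₁
  have hwy : frickeAut M y = stbNorm (heckeAlphaBar Qb M q).toRingHom u := by
    rw [hy]
    exact stbdW_stbdW M _
  rw [hwy] at hfr₁W
  have hcr' : (fun τ => a₁ (fricke M τ)) * s59mudProd M q rep g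
      = (fun τ => g₁ (fricke M τ)) * s59mudProd M q rep a := by
    funext τ
    have h1 := congrFun hcr (fricke M τ)
    simp only [Pi.mul_apply] at h1 ⊢
    rw [hPa, hPg]
    exact h1
  have hL := congrArg laurentOf hcr'
  rw [laurentOf_mul ha₁W.isMerInf hMg, laurentOf_mul hg₁W.isMerInf hMa, ← hfr₁W] at hL
  have hg₁W0 : laurentOf (fun τ => g₁ (fricke M τ)) ≠ 0 := by
    intro h0
    apply hg₁0
    have h1 : (fun τ => g₁ (fricke M τ)) = 0 :=
      laurentOf_injective hg₁W.isMerInf (isMerInf_const 0) (h0.trans laurentOf_zero.symm)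
    have h2 : g₁ = 0 := by
      funext τ
      have h3 := congrFun h1 (fricke M τ)
      rw [fricke_fricke] at h3
      exact h3
    rw [h2]
    exact laurentOf_zero
  apply mul_left_cancel₀ hg₁W0
  linear_combination hL

/-- **μDEG-`α` at `(M, q)` for a prime `q ∣ M`, relational form, unconditional.** -/
theorem s59muda_relAlphaAt (hq : q.Prime) (hqM : q ∣ M) : s59mud_RelAlphaAt M q :=
  s59mud_relAlphaAt_of_bridge (s59muda_bridgeAlphaAt hq hqM)

/-- **μDEG-`α` at `(M, q)` for a prime `q ∣ M`, for `ES.muMap`, unconditional**: for every torsion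
point `x` of `J₀(M q)`, `μ_M (α_* x) = cores (μ_{Mq} x)`. -/
theorem s59muda_muAlphaAt (hq : q.Prime) (hqM : q ∣ M) : s59mud_MuAlphaAt M q :=
  s59mud_muAlphaAt_of_rel (s59muda_relAlphaAt hq hqM)

end Bridge

/-- μDEG-`α` at `(N q, q)` (the shape of E-MULT1b) -/
theorem s59muda_relAlphaAt_mul (N q : ℕ) [NeZero N] [NeZero q] (hq : q.Prime) :
    s59mud_RelAlphaAt (N * q) q :=
  s59muda_relAlphaAt hq (dvd_mul_left q N)

end Fermat.Agent.S59
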