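import Fermat.Agent.S59.Eta.MuDegDivRoot
import Fermat.Agent.S59.Eta.SatConc

/-!
# S59 / R2 / μDEG at `q ∣ M`, piece P4-`β` — the cosets of `δ Γ₀(M q) δ⁻¹` in `Γ₀(M)` (helper31)

`q ∣ M` (`q > 0`, not necessarily prime), `H = (conjD M q).range = {g ∈ Γ₀(M) : q ∣ b}`.
The `q` elements `T^{-b}` (`0 ≤ b < q`) are a system of representatives of `Γ₀(M) ⧸ H`:

* `s59muddTm M b = T^{-b} ∈ Γ₀(M)`, `s59muddEquiv : Fin q ≃ s59muddQuot M q`;
* `s59muddSec : s59muddQuot M q → Γ₀(M)`, a section (`s59muddSec_spec`);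
* **`s59muddProd_sec`** : `s59muddProd M q s59muddSec f = RC.rcNormFun q f`
  (`τ ↦ ∏_{b < q} f ((τ + b) / q)`).
-/

set_option autoImplicit false
set_option linter.unusedSectionVars false
set_option linter.style.haveILetI false

noncomputable section

namespace Fermat.Agent.S59

open UpperHalfPlane CongruenceSubgroup Matrix Matrix.SpecialLinearGroup
open Fermat.Agent.ES Fermat.Agent.ES.RC Fermat.Agent.S41
open scoped MatrixGroups Manifold

attribute [local instance] Subgroup.fintypeQuotientOfFiniteIndex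

section Cos

variable (M q : ℕ) [NeZero M] [NeZero q]

theorem s59mudd_T_zpow_00 (k : ℤ) : (ModularGroup.T ^ k : SL(2, ℤ)) 0 0 = 1 := by
  show (ModularGroup.T ^ k : SL(2, ℤ)).1 0 0 = 1
  rw [ModularGroup.coe_T_zpow]
  rfl

theorem s59mudd_T_zpow_01 (k : ℤ) : (ModularGroup.T ^ k : SL(2, ℤ)) 0 1 = k := by
  show (ModularGroup.T ^ k : SL(2, ℤ)).1 0 1 = k
  rw [ModularGroup.coe_T_zpow]
  rfl

theorem s59mudd_T_zpow_10 (k : ℤ) : (ModularGroup.T ^ k : SL(2, ℤ)) 1 0 = 0 := by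
  show (ModularGroup.T ^ k : SL(2, ℤ)).1 1 0 = 0
  rw [ModularGroup.coe_T_zpow]
  rfl

theorem s59mudd_T_zpow_11 (k : ℤ) : (ModularGroup.T ^ k : SL(2, ℤ)) 1 1 = 1 := by
  show (ModularGroup.T ^ k : SL(2, ℤ)).1 1 1 = 1
  rw [ModularGroup.coe_T_zpow]
  rfl

/-- `T^{-b}` as an element of `Γ₀(M)` -/
def s59muddTm (b : ℤ) : Gamma0 M :=
  ⟨ModularGroup.T ^ (-b), mem_Gamma0_of_dvd (by rw [s59mudd_T_zpow_10]; exact dvd_zero _)⟩

theorem s59muddTm_coe (b : ℤ) :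
    ((s59muddTm M b : Gamma0 M) : SL(2, ℤ)) = ModularGroup.T ^ (-b) := rfl

theorem s59muddTm_inv_coe (b : ℤ) :
    (((s59muddTm M b : Gamma0 M) : SL(2, ℤ)))⁻¹ = ModularGroup.T ^ b := by
  rw [s59muddTm_coe, _root_.zpow_neg, inv_inv]

/-- two elements of `Γ₀(M)` are in the same coset iff `q ∣ (g₁⁻¹ g₂)₀₁` -/
theorem s59mudd_coset_eq_iff (g₁ g₂ : Gamma0 M) :
    ((g₁ : Gamma0 M) : s59muddQuot M q) = g₂ ↔
      (q : ℤ) ∣ (((g₁ : SL(2, ℤ)))⁻¹ * (g₂ : SL(2, ℤ))) 0 1 := by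
  rw [QuotientGroup.eq, s59sat_mem_conjD_range M q]
  rfl

/-- the representatives are pairwise inequivalent -/
theorem s59mudd_injective :
    Function.Injective fun b : Fin q =>
      ((s59muddTm M ((b : ℕ) : ℤ) : Gamma0 M) : s59muddQuot M q) := by
  intro b b' hbb
  have h1 := (s59mudd_coset_eq_iff M q _ _).mp hbb
  rw [s59muddTm_inv_coe, s59muddTm_coe, ← _root_.zpow_add, s59mudd_T_zpow_01] at h1
  have hb : ((b : ℕ) : ℤ) < q := by exact_mod_cast b.2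
  have hb' : ((b' : ℕ) : ℤ) < q := by exact_mod_cast b'.2
  have hb0 : (0 : ℤ) ≤ ((b : ℕ) : ℤ) := Int.natCast_nonneg _
  have hb'0 : (0 : ℤ) ≤ ((b' : ℕ) : ℤ) := Int.natCast_nonneg _
  have h4 : ((b : ℕ) : ℤ) + -((b' : ℕ) : ℤ) = 0 := by
    apply Int.eq_zero_of_abs_lt_dvd h1
    rw [abs_lt]
    constructor <;> linarith
  have h5 : (b : ℕ) = (b' : ℕ) := by
    have : ((b : ℕ) : ℤ) = ((b' : ℕ) : ℤ) := by linarith
    exact_mod_cast this
  exact Fin.ext h5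

/-- every coset has a representative (`q ∣ M`) -/
theorem s59mudd_surjective (hqM : q ∣ M) :
    Function.Surjective fun b : Fin q =>
      ((s59muddTm M ((b : ℕ) : ℤ) : Gamma0 M) : s59muddQuot M q) := by
  intro c
  obtain ⟨g, rfl⟩ := QuotientGroup.mk_surjective c
  have hq0 : (q : ℤ) ≠ 0 := by exact_mod_cast NeZero.ne q
  have hqpos : (0 : ℤ) < (q : ℤ) := by exact_mod_cast Nat.pos_of_ne_zero (NeZero.ne q)
  have hc : (q : ℤ) ∣ g.1.1 1 0 :=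
    dvd_trans (Int.natCast_dvd_natCast.mpr hqM) (gamma0_dvd M g)
  obtain ⟨c', hc'⟩ := hc
  have hdet := gamma0_det M g
  -- `t ≡ - b' a mod q`
  obtain ⟨t, ht0, htq, k, hk⟩ : ∃ t : ℤ, 0 ≤ t ∧ t < q ∧ ∃ k : ℤ,
      t = -(g.1.1 0 1 * g.1.1 0 0) - q * k :=
    ⟨(-(g.1.1 0 1 * g.1.1 0 0)) % q, Int.emod_nonneg _ hq0, Int.emod_lt_of_pos _ hqpos,
      (-(g.1.1 0 1 * g.1.1 0 0)) / q, by
        have := Int.emod_add_mul_ediv (-(g.1.1 0 1 * g.1.1 0 0)) (q : ℤ)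
        linarith⟩
  have htn : ((t.toNat : ℕ) : ℤ) = t := Int.toNat_of_nonneg ht0
  have htlt : t.toNat < q := by
    have : ((t.toNat : ℕ) : ℤ) < (q : ℤ) := by rw [htn]; exact htq
    exact_mod_cast this
  refine ⟨⟨t.toNat, htlt⟩, ?_⟩
  show ((s59muddTm M ((t.toNat : ℕ) : ℤ) : Gamma0 M) : s59muddQuot M q) = g
  rw [s59mudd_coset_eq_iff, s59muddTm_inv_coe, s59mudb_sl_mul_apply, s59mudd_T_zpow_00,
    s59mudd_T_zpow_01, htn]
  have e : (1 : ℤ) * (g : SL(2, ℤ)) 0 1 + t * (g : SL(2, ℤ)) 1 1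
      = (q : ℤ) * (-(g.1.1 0 1 * g.1.1 0 1 * c') - k * g.1.1 1 1) := by
    have e1 : (g : SL(2, ℤ)) 0 1 = g.1.1 0 1 := rfl
    have e2 : (g : SL(2, ℤ)) 1 1 = g.1.1 1 1 := rfl
    rw [e1, e2, hk]
    rw [hc'] at hdet
    linear_combination (-(g.1.1 0 1)) * hdet
  rw [e]
  exact dvd_mul_right _ _

/-- **the bijection** `Fin q ≃ Γ₀(M) ⧸ δ Γ₀(M q) δ⁻¹` (`q ∣ M`) -/
def s59muddEquiv (hqM : q ∣ M) : Fin q ≃ s59muddQuot M q :=
  Equiv.ofBijective _ ⟨s59mudd_injective M q, s59mudd_surjective M q hqM⟩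

theorem s59muddEquiv_apply (hqM : q ∣ M) (b : Fin q) :
    s59muddEquiv M q hqM b = ((s59muddTm M ((b : ℕ) : ℤ) : Gamma0 M) : s59muddQuot M q) := rfl

/-- **the explicit section** of `Γ₀(M) → Γ₀(M) ⧸ δ Γ₀(M q) δ⁻¹` -/
def s59muddSec (hqM : q ∣ M) : s59muddQuot M q → Gamma0 M :=
  fun c => s59muddTm M ((((s59muddEquiv M q hqM).symm c : Fin q) : ℕ) : ℤ)

theorem s59muddSec_spec (hqM : q ∣ M) (c : s59muddQuot M q) :
    ((s59muddSec M q hqM c : Gamma0 M) : s59muddQuot M q) = c := by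
  unfold s59muddSec
  rw [← s59muddEquiv_apply M q hqM, Equiv.apply_symm_apply]

theorem s59muddSec_equiv (hqM : q ∣ M) (b : Fin q) :
    s59muddSec M q hqM (s59muddEquiv M q hqM b) = s59muddTm M ((b : ℕ) : ℤ) := by
  unfold s59muddSec
  rw [Equiv.symm_apply_apply]

/-- `(T^b τ) / q = (τ + b) / q` -/
theorem s59muddT_T_zpow (b : ℕ) (τ : ℍ) :
    s59muddT q ((ModularGroup.T ^ ((b : ℕ) : ℤ) : SL(2, ℤ)) • τ) = rcBeta q b τ := by
  apply UpperHalfPlane.ext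
  rw [s59muddT_coe, rc_coe_beta, ModularGroup.coe_T_zpow_smul_eq]
  push_cast
  rfl

/-- **the twisted coset product for the explicit section** is `τ ↦ ∏_{b < q} f ((τ + b)/q)`. -/
theorem s59muddProd_sec (hqM : q ∣ M) (f : ℍ → ℂ) :
    s59muddProd M q (s59muddSec M q hqM) f = rcNormFun q f := by
  funext τ
  rw [s59muddProd_apply, rc_normFun_apply]
  rw [← Fintype.prod_equiv (s59muddEquiv M q hqM)
    (fun b : Fin q => f (rcBeta q (b : ℕ) τ))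
    (fun c => f (s59muddPt M q (s59muddSec M q hqM) c τ))
    (fun b => by
      unfold s59muddPt
      rw [s59muddSec_equiv, s59muddTm_inv_coe, s59muddT_T_zpow])]
  exact Fin.prod_univ_eq_prod_range (fun b => f (rcBeta q b τ)) q

end Cos

end Fermat.Agent.S59
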