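import Fermat.Agent.ES.G2.HeckeDegStmt
import Fermat.Agent.STB.PushHeckeDiv

/-!
# S59 / R2 / μDEG at `q ∣ M`, piece P1-`β` — the norm `N_β : F_{Mq} → F_M` (helper31)

`q` a prime with `q ∣ M`, `β = heckeBetaBar ℚ̄ M q : F_M → F_{Mq}`, `f ↦ f(Q^q)`, of degree `q`
(`STB.stbd_deg_beta`), `ζ` a primitive `q`-th root of unity.  For every `y ∈ F_{Mq}`

  `N_β y = kronNorm q ζ y`,   i.e.  `(N_β y)(t^q) = ∏_{b<q} y(ζ^b t)`

as `q`-expansions (`s59mudd_norm_beta_coe`).  Proof: the `q` embeddings `STB.stbdRotB` of `F_{Mq}`
over `β (F_M)` are all of them (`ES.G2.hn_norm_eq_prod_of_injective`).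
-/

set_option autoImplicit false
set_option linter.style.haveILetI false
set_option linter.unusedSectionVars false

noncomputable section

namespace Fermat.Agent.S59

open ModularCurve AlgebraicCurve Fermat.Agent.ES Fermat.Agent.ES.G2 Fermat.Agent.STB

section Core

variable (M q : ℕ) [NeZero M] [NeZero q]

/-- **P1-`β`: the `q`-expansion of the norm along `β`, `q ∣ M`**: `N_β y = kronNorm q ζ y`. -/
theorem s59mudd_norm_beta_coe (hq : q.Prime) (hqM : q ∣ M) (ζ : Qbˣ) (hζ : IsPrimitiveRoot ζ q)
    (y : modularFunctionFieldBar (M * q)) :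
    ((stbNorm (heckeBetaBar Qb M q).toRingHom y : modularFunctionFieldBar M) : LaurentSeries Qb)
      = kronNorm q ζ (y : LaurentSeries Qb) := by
  let algF' : Algebra (modularFunctionFieldBar M) (modularFunctionFieldBar (M * q)) :=
    (heckeBetaBar Qb M q).toRingHom.toAlgebra
  let algE : Algebra (modularFunctionFieldBar M) HnOmegaBar := (hnBase M q).toAlgebra
  have hdeg : Module.finrank (modularFunctionFieldBar M) (modularFunctionFieldBar (M * q)) = q :=
    stbd_deg_beta M q hq hqM
  have hfin : FiniteDimensional (modularFunctionFieldBar M) (modularFunctionFieldBar (M * q)) :=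
    Module.finite_of_finrank_pos (by rw [hdeg]; exact hq.pos)
  have : CharZero (modularFunctionFieldBar M) :=
    charZero_of_injective_algebraMap (algebraMap Qb (modularFunctionFieldBar M)).injective
  have hsep : Algebra.IsSeparable (modularFunctionFieldBar M)
      (modularFunctionFieldBar (M * q)) := inferInstance
  let e : Fin q → (modularFunctionFieldBar (M * q) →ₐ[modularFunctionFieldBar M]
      HnOmegaBar) := fun b =>
    { stbdRotB M q (ζ ^ (b : ℕ)) with
      commutes' := fun x =>
        stbdRotB_beta M q (ζ ^ (b : ℕ)) (stbd_pow_pow_eq_one q hζ.pow_eq_one _) x }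
  have he : Function.Injective e := by
    intro b b' h
    apply stbd_rot_injective_at_one q ζ hζ
    have h1 := congrArg (fun g : modularFunctionFieldBar (M * q) →ₐ[modularFunctionFieldBar M]
      HnOmegaBar => g (hnJ (M * q))) h
    have h2 : ∀ c : Fin q, e c (hnJ (M * q))
        = algebraMap HnOmega HnOmegaBar (kronRot (ζ ^ (c : ℕ)) (coeffEmb Qb jq)) := fun c => rfl
    simp only [h2] at h1
    exact hn_algebraMap_injective h1
  have hcard : Fintype.card (Fin q)
      = Module.finrank (modularFunctionFieldBar M) (modularFunctionFieldBar (M * q)) := by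
    rw [hdeg, Fintype.card_fin]
  have key := hn_norm_eq_prod_of_injective e he hcard y
  have h2 : ∀ b : Fin q, e b y
      = algebraMap HnOmega HnOmegaBar (kronRot (ζ ^ (b : ℕ)) (y : LaurentSeries Qb)) :=
    fun b => rfl
  have h3 : algebraMap (modularFunctionFieldBar M) HnOmegaBar
      (Algebra.norm (modularFunctionFieldBar M) y)
      = algebraMap HnOmega HnOmegaBar (qExpand Qb q
          ((Algebra.norm (modularFunctionFieldBar M) y : modularFunctionFieldBar M) :
            LaurentSeries Qb)) := rfl
  rw [h3] at key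
  simp only [h2] at key
  rw [← map_prod,
    Fin.prod_univ_eq_prod_range
      (fun b => kronRot (ζ ^ b) (y : LaurentSeries Qb)) q,
    ← qExpand_kronNorm_field ζ hζ] at key
  exact qExpand_injective q (hn_algebraMap_injective key)

end Core

end Fermat.Agent.S59
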