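import Fermat.Agent.S59.Eta.MuDegAt
import Fermat.Agent.S59.Eta.MuDegDivCos
import Fermat.Agent.S59.Eta.MuDegDivNorm
import Fermat.Agent.ES.G2.Frob

/-!
# S59 / R2 / μDEG-`β` at `(M, q)` for a prime `q ∣ M` (helper31)

* `s59mudd_bridgeBeta` : the analytic norm along `β`: for every analytic fraction `u = a / g`
  of `u ∈ F_{Mq}`, `N_β u = (∏_{b<q} a((τ+b)/q)) / (∏_{b<q} g((τ+b)/q))` as `q`-expansions;
* **`s59mudd_relBetaAt : s59mud_RelBetaAt M q`** for a prime `q ∣ M`: for every torsion point `x`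
  of `J₀(M q)` with multiplier character `χ`, `β_* x` has multiplier character `coresD χ`;
* **`s59mudd_muBetaAt : s59mud_MuBetaAt M q`** : `μ_M (β_* x) = coresD (μ_{Mq} x)`;
* `s59mudd_relBetaAt_mul (hq) : s59mud_RelBetaAt (N * q) q` (the case needed by E-MULT1b).

Proof: `N_β u = kronNorm q ζ u` (P1-`β`, `s59mudd_norm_beta_coe`), the cosets `T^{-b}` of
`δ Γ₀(M q) δ⁻¹` in `Γ₀(M)` (P4-`β`, `s59muddProd_sec`), `RC.rc_laurentOf_normFun`, and the
multiplier of the twisted coset product (P7-`β`, `s59muddRoot_multAdd`).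
-/

set_option autoImplicit false
set_option linter.style.haveILetI false
set_option linter.unusedSectionVars false

noncomputable section

namespace Fermat.Agent.S59

open ModularCurve AlgebraicCurve CongruenceSubgroup ModularCurve.Period UpperHalfPlane
open Fermat.Agent.S24 Fermat.Agent.S28 Fermat.Agent.ES Fermat.Agent.ES.G2 Fermat.Agent.ES.RC
  Fermat.Agent.S41 Fermat.Agent.STB
open scoped MatrixGroups Manifold

section BridgeB

variable {M q : ℕ} [NeZero M] [NeZero q]

/-- **BRIDGE-`β` for a prime `q ∣ M`**: the analytic norm along `β`, for ANY analytic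
fraction. -/
theorem s59mudd_bridgeBeta (hq : q.Prime) (hqM : q ∣ M)
    (u : modularFunctionFieldBar (M * q)) {a g : ℍ → ℂ} (hfr : IsAnFrac (M * q) u a g) :
    IsMerInf (rcNormFun q a) ∧ IsMerInf (rcNormFun q g) ∧
      coeffMap embC ((stbNorm (heckeBetaBar Qb M q).toRingHom u : modularFunctionFieldBar M) :
          LaurentSeries Qb) * laurentOf (rcNormFun q g)
        = laurentOf (rcNormFun q a) := by
  obtain ⟨ha, hg, hg0, hq1⟩ := hfr
  have hMa := rc_isMerInf_normFun q ha.isMerInf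
  have hMg := rc_isMerInf_normFun q hg.isMerInf
  refine ⟨hMa, hMg, ?_⟩
  obtain ⟨ζ, hζ⟩ := frob_exists_primitiveRoot q hq.ne_zero
  obtain ⟨ζC, hζCdef⟩ : ∃ ζC : ℂˣ, ζC = Units.map ((embC : Qb →+* ℂ) : Qb →* ℂ) ζ := ⟨_, rfl⟩
  have hζC : IsPrimitiveRoot ζC q := by
    rw [hζCdef]
    exact hζ.map_of_injective (Units.map_injective (f := ((embC : Qb →+* ℂ) : Qb →* ℂ))
      embC.injective)
  have hN : coeffMap embC
      ((stbNorm (heckeBetaBar Qb M q).toRingHom u : modularFunctionFieldBar M) : LaurentSeries Qb)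
      = kronNorm q ζC (coeffMap embC (u : LaurentSeries Qb)) := by
    rw [s59mudd_norm_beta_coe M q hq hqM ζ hζ u, coeffMap_kronNorm, hζCdef]
  have hLa : laurentOf (rcNormFun q a) = kronNorm q ζC (laurentOf a) := by
    rw [rc_laurentOf_normFun q ha.isMerInf,
      kronNorm_eq_of_isPrimitiveRoot q ζC (rcRoot 1 (q : ℤ)) hζC (rc_isPrimitiveRoot_root q)]
  have hLg : laurentOf (rcNormFun q g) = kronNorm q ζC (laurentOf g) := by
    rw [rc_laurentOf_normFun q hg.isMerInf,
      kronNorm_eq_of_isPrimitiveRoot q ζC (rcRoot 1 (q : ℤ)) hζC (rc_isPrimitiveRoot_root q)]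
  rw [hN, hLa, hLg, ← hq1, kronNorm_mul q ζC hζC]

/-- **μDEG-`β` at `(M, q)`, relational form, for a prime `q ∣ M`.** -/
theorem s59mudd_relBetaAt (hq : q.Prime) (hqM : q ∣ M) : s59mud_RelBetaAt M q := by
  intro n hn x χ hrel
  obtain ⟨u, a, g, R, hK, hfr, hroot, hχ⟩ := hrel
  haveI : NeZero (M * q) := inferInstance
  obtain ⟨hMa, hMg, hq2⟩ := s59mudd_bridgeBeta hq hqM u hfr
  obtain ⟨ha, hg, hg0, hfr1⟩ := hfr
  have hmda : MDiff a := RC.rc_mdiff_of_isModFun ha
  have hmdg : MDiff g := RC.rc_mdiff_of_isModFun hg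
  obtain ⟨u', hu'def⟩ : ∃ u' : modularFunctionFieldBar M,
      u' = stbNorm (heckeBetaBar Qb M q).toRingHom u := ⟨_, rfl⟩
  have hK' : KummerRel n (stbPushBeta M q x) u' := by
    rw [hu'def]
    exact stb_kummerRel_pushBeta M q hK
  rw [← hu'def] at hq2
  obtain ⟨a', g', ha', hg', hg'0, hq'⟩ := RC.rc_exists_frac M (coeffMap_embC_mem M u'.2)
  have hg'ne : g' ≠ 0 := by
    rintro rfl
    exact hg'0 laurentOf_zero
  have hcross : a' * rcNormFun q g = g' * rcNormFun q a := by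
    apply laurentOf_injective (ha'.isMerInf.mul hMg) (hg'.isMerInf.mul hMa)
    rw [laurentOf_mul ha'.isMerInf hMg, laurentOf_mul hg'.isMerInf hMa, ← hq', ← hq2]
    ring
  have hsec := s59muddSec_spec M q hqM
  have hPa : s59muddProd M q (s59muddSec M q hqM) a = rcNormFun q a := s59muddProd_sec M q hqM a
  have hPg : s59muddProd M q (s59muddSec M q hqM) g = rcNormFun q g := s59muddProd_sec M q hqM g
  have hrootP : ∀ τ : ℍ, s59muddProd M q (s59muddSec M q hqM) R.a τ ^ n * rcNormFun q g τ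
      = rcNormFun q a τ * s59muddProd M q (s59muddSec M q hqM) R.g τ ^ n := by
    intro τ
    have h := s59muddProd_rel (s59muddSec M q hqM) (fun τ => hroot τ) τ
    rw [hPa, hPg] at h
    exact h
  have hmda' : MDiff a' := RC.rc_mdiff_of_isModFun ha'
  have hmdg' : MDiff g' := RC.rc_mdiff_of_isModFun hg'
  have hmdRa : MDiff (s59muddProd M q (s59muddSec M q hqM) R.a) :=
    s59mudd_mdiff_prod _ R.mdiff_a
  have hmdRg : MDiff (s59muddProd M q (s59muddSec M q hqM) R.g) :=
    s59mudd_mdiff_prod _ R.mdiff_g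
  have hmdPg : MDiff (rcNormFun q g) := by
    rw [← hPg]
    exact s59mudd_mdiff_prod _ hmdg
  have hPg0 : rcNormFun q g ≠ 0 := by
    rw [← hPg]
    exact s59mudd_prod_ne_zero _ hmdg hg0
  have hfin : (fun τ : ℍ => s59muddProd M q (s59muddSec M q hqM) R.a τ ^ n * g' τ)
      = fun τ : ℍ => a' τ * s59muddProd M q (s59muddSec M q hqM) R.g τ ^ n := by
    refine mdiff_eq_of_mul_eq ((hmdRa.pow n).mul hmdg') (hmda'.mul (hmdRg.pow n)) hmdPg hPg0
      fun τ => ?_
    have h1 := hrootP τ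
    have h2 : a' τ * rcNormFun q g τ = g' τ * rcNormFun q a τ := congrFun hcross τ
    linear_combination g' τ * h1 - s59muddProd M q (s59muddSec M q hqM) R.g τ ^ n * h2
  refine ⟨u', a', g', s59muddRoot (s59muddSec M q hqM) hsec R, hK', ⟨ha', hg', hg'ne, hq'⟩,
    fun τ => congrFun hfin τ, ?_⟩
  rw [s59muddRoot_multAdd, hχ]

/-- **μDEG-`β` at `(M, q)` for `ES.muMap`, for a prime `q ∣ M`**: for every torsion point `x` of
`J₀(M q)`, `μ_M (β_* x) = coresD (μ_{Mq} x)`. -/
theorem s59mudd_muBetaAt (hq : q.Prime) (hqM : q ∣ M) : s59mud_MuBetaAt M q :=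
  s59mud_muBetaAt_of_rel (s59mudd_relBetaAt hq hqM)

end BridgeB

/-- **μDEG-`β` at `(N q, q)`** — the `β`-input of E-MULT1b (`s59m1b_mult1b`, `s59m1b_asm1b`). -/
theorem s59mudd_relBetaAt_mul (N q : ℕ) [NeZero N] [NeZero q] (hq : q.Prime) :
    s59mud_RelBetaAt (N * q) q :=
  s59mudd_relBetaAt hq (Dvd.intro_left N rfl)

end Fermat.Agent.S59
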