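/-
S59, R2 (ETA′), leaf **E-NE** (helper57, for the hub helper72): a NON-EISENSTEIN prime.

`W` an integral Weierstrass model with `Δ ≠ 0`, `p` an odd prime, `E[p]` irreducible.  Then for every
finite set `S` of primes there is a good prime `ℓ ∉ S`, `ℓ ≠ p`, with `p ∤ ℓ + 1 − a_ℓ(W)`
(`a_ℓ = W.apOfModel ℓ`, the point count): at such a prime `D_ℓ = T_ℓ − ℓ − 1` acts by a unit on
every eigenspace congruent to `W` modulo a prime over `p`.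

This is `Fermat.Agent.RED.exists_prime_not_dvd_of_model` (Chebotarev in generator form + the
Frobenius relation on `E[p]` + "every element has the eigenvalue `1` ⇒ reducible"), restated in
the shape asked for by the hub.

* `s59ne_exists`       : the statement with `Δ ≠ 0`.
* `s59ne_exists_modEq` : the same with `ℓ ≡ 1 mod M` and `ℓ ≠ 2` in addition.
* `s59ne_isUnit`       : the unit form, in any local ring `𝒪` with `p` in its maximal ideal.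
-/
import Fermat.Agent.RED.ModelTrace

set_option autoImplicit false

namespace Fermat.Agent.S59

open WeierstrassCurve

/-- **E-NE**, with the congruence `ℓ ≡ 1 mod M` and `ℓ ≠ 2`. -/
theorem s59ne_exists_modEq (W : WeierstrassCurve ℤ) (hΔ : W.Δ ≠ 0) (p : ℕ) [Fact p.Prime]
    (hp2 : p ≠ 2) (hirr : W.ModRepIsIrreducible p) (S : Finset ℕ) {M : ℕ} (hM : 0 < M) :
    ∃ ℓ : ℕ, ℓ.Prime ∧ ℓ ∉ S ∧ ℓ ≠ 2 ∧ ℓ ≠ p ∧ ¬ (ℓ : ℤ) ∣ W.Δ ∧ ℓ ≡ 1 [MOD M] ∧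
      ¬ (p : ℤ) ∣ ((ℓ : ℤ) + 1 - W.apOfModel ℓ) := by
  obtain ⟨ℓ, hℓ, hℓS, hℓ2, hℓp, hgood, hmod, hnd⟩ :=
    Fermat.Agent.RED.exists_prime_not_dvd_of_model W hΔ hp2 hirr S hM
  refine ⟨ℓ, hℓ, hℓS, hℓ2, hℓp, hgood, hmod, fun h => hnd ?_⟩
  have e : W.apOfModel ℓ - ((ℓ : ℤ) + 1) = -(((ℓ : ℤ) + 1) - W.apOfModel ℓ) := by ring
  rw [e]
  exact (dvd_neg).2 h

/-- **E-NE**: a good prime `ℓ ∉ S`, `ℓ ≠ p`, with `p ∤ ℓ + 1 − a_ℓ(W)`. -/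
theorem s59ne_exists (W : WeierstrassCurve ℤ) (hΔ : W.Δ ≠ 0) (p : ℕ) [Fact p.Prime]
    (hp2 : p ≠ 2) (hirr : W.ModRepIsIrreducible p) (S : Finset ℕ) :
    ∃ ℓ : ℕ, ℓ.Prime ∧ ℓ ∉ S ∧ ℓ ≠ p ∧ ¬ (ℓ : ℤ) ∣ W.Δ ∧
      ¬ (p : ℤ) ∣ ((ℓ : ℤ) + 1 - W.apOfModel ℓ) := by
  obtain ⟨ℓ, hℓ, hℓS, -, hℓp, hgood, -, hnd⟩ :=
    s59ne_exists_modEq W hΔ p hp2 hirr S (M := 1) Nat.one_pos
  exact ⟨ℓ, hℓ, hℓS, hℓp, hgood, hnd⟩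

/-- two good primes at once (for `D_ℓ D_ℓ'` of E-SAT): distinct, both non-Eisenstein. -/
theorem s59ne_exists_two (W : WeierstrassCurve ℤ) (hΔ : W.Δ ≠ 0) (p : ℕ) [Fact p.Prime]
    (hp2 : p ≠ 2) (hirr : W.ModRepIsIrreducible p) (S : Finset ℕ) :
    ∃ ℓ ℓ' : ℕ, ℓ.Prime ∧ ℓ'.Prime ∧ ℓ ≠ ℓ' ∧ ℓ ∉ S ∧ ℓ' ∉ S ∧ ℓ ≠ p ∧ ℓ' ≠ p ∧
      ¬ (ℓ : ℤ) ∣ W.Δ ∧ ¬ (ℓ' : ℤ) ∣ W.Δ ∧
      ¬ (p : ℤ) ∣ ((ℓ : ℤ) + 1 - W.apOfModel ℓ) ∧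
      ¬ (p : ℤ) ∣ ((ℓ' : ℤ) + 1 - W.apOfModel ℓ') := by
  classical
  obtain ⟨ℓ, hℓ, hℓS, hℓp, hgood, hnd⟩ := s59ne_exists W hΔ p hp2 hirr S
  obtain ⟨ℓ', hℓ', hℓ'S, hℓ'p, hgood', hnd'⟩ := s59ne_exists W hΔ p hp2 hirr (insert ℓ S)
  rw [Finset.mem_insert, not_or] at hℓ'S
  exact ⟨ℓ, ℓ', hℓ, hℓ', fun h => hℓ'S.1 h.symm, hℓS, hℓ'S.2, hℓp, hℓ'p, hgood, hgood', hnd,
    hnd'⟩

/-- **unit form**: in a local ring `𝒪` in which `p` is not a unit and whose residue field has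
characteristic `p` (i.e. an integer is a unit of `𝒪` iff it is prime to `p`), the integer
`ℓ + 1 − a_ℓ(W)` of E-NE is a unit. -/
theorem s59ne_isUnit {𝒪 : Type*} [CommRing 𝒪] (p : ℕ) [Fact p.Prime]
    (hunit : ∀ n : ℤ, ¬ (p : ℤ) ∣ n → IsUnit (n : 𝒪))
    (W : WeierstrassCurve ℤ) (hΔ : W.Δ ≠ 0) (hp2 : p ≠ 2) (hirr : W.ModRepIsIrreducible p)
    (S : Finset ℕ) :
    ∃ ℓ : ℕ, ℓ.Prime ∧ ℓ ∉ S ∧ ℓ ≠ p ∧ ¬ (ℓ : ℤ) ∣ W.Δ ∧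
      IsUnit ((((ℓ : ℤ) + 1 - W.apOfModel ℓ : ℤ)) : 𝒪) := by
  obtain ⟨ℓ, hℓ, hℓS, hℓp, hgood, hnd⟩ := s59ne_exists W hΔ p hp2 hirr S
  exact ⟨ℓ, hℓ, hℓS, hℓp, hgood, hunit _ hnd⟩

/-- the hypothesis `hunit` of `s59ne_isUnit` for a local ring whose maximal ideal contains `p`. -/
theorem s59ne_hunit_of_mem {𝒪 : Type*} [CommRing 𝒪] [IsLocalRing 𝒪] (p : ℕ) [Fact p.Prime]
    (hp : (p : 𝒪) ∈ IsLocalRing.maximalIdeal 𝒪) (n : ℤ) (hn : ¬ (p : ℤ) ∣ n) :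
    IsUnit (n : 𝒪) := by
  have hp' : p.Prime := Fact.out
  have hcop : IsCoprime (p : ℤ) n := by
    rw [Int.isCoprime_iff_gcd_eq_one]
    have hpi : Prime (p : ℤ) := Nat.prime_iff_prime_int.1 hp'
    exact Int.isCoprime_iff_gcd_eq_one.1 ((hpi.coprime_iff_not_dvd).2 hn)
  obtain ⟨a, b, hab⟩ := hcop
  have h1 : (a : 𝒪) * (p : 𝒪) + (b : 𝒪) * (n : 𝒪) = 1 := by
    have := congrArg (Int.cast : ℤ → 𝒪) hab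
    push_cast at this
    exact this
  by_contra hnu
  have hnm : (n : 𝒪) ∈ IsLocalRing.maximalIdeal 𝒪 := (IsLocalRing.mem_maximalIdeal _).2 hnu
  have h2 : (1 : 𝒪) ∈ IsLocalRing.maximalIdeal 𝒪 := by
    rw [← h1]
    exact Ideal.add_mem _ (Ideal.mul_mem_left _ _ hp) (Ideal.mul_mem_left _ _ hnm)
  exact (Ideal.ne_top_iff_one _).1 (IsLocalRing.maximalIdeal.isMaximal 𝒪).ne_top h2

end Fermat.Agent.S59
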