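/-
S59, R2 (ETA′), leaf **E-NE**, unit adapter (helper57, for the hub helper72).

`𝒪` a local ring with `p ∈ 𝔪_𝒪`; `ψ ℓ ∈ 𝒪` with `ψ ℓ ≡ a_ℓ(W) mod 𝔪_𝒪` at the good primes.  Then there
are good primes `ℓ ∉ S` (two distinct ones if wanted) at which `ψ ℓ − (ℓ + 1)` is a UNIT of `𝒪`
(the hypotheses `hu₁`, `hu₂` of the step).

* `s59ne_isUnit_sub`   : the congruence lemma (no curve).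
* `s59ne_unit`         : one prime.
* `s59ne_unit_two`     : two distinct primes.
-/
import Fermat.Agent.S59.Eta.NonEis

set_option autoImplicit false

namespace Fermat.Agent.S59

open WeierstrassCurve IsLocalRing

/-- in a local ring with `p ∈ 𝔪`: `x ≡ a mod 𝔪`, `p ∤ ℓ + 1 − a` ⇒ `x − (ℓ + 1)` is a unit. -/
theorem s59ne_isUnit_sub {𝒪 : Type*} [CommRing 𝒪] [IsLocalRing 𝒪] (p : ℕ) [Fact p.Prime]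
    (hp : (p : 𝒪) ∈ maximalIdeal 𝒪) (x : 𝒪) (a : ℤ) (ℓ : ℕ)
    (hx : x - (a : 𝒪) ∈ maximalIdeal 𝒪) (hnd : ¬ (p : ℤ) ∣ ((ℓ : ℤ) + 1 - a)) :
    IsUnit (x - ((ℓ : 𝒪) + 1)) := by
  have h1 : IsUnit ((((ℓ : ℤ) + 1 - a : ℤ)) : 𝒪) := s59ne_hunit_of_mem p hp _ hnd
  by_contra hnu
  have h2 : x - ((ℓ : 𝒪) + 1) ∈ maximalIdeal 𝒪 := (mem_maximalIdeal _).2 hnu
  have h3 : ((((ℓ : ℤ) + 1 - a : ℤ)) : 𝒪) ∈ maximalIdeal 𝒪 := by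
    have e : ((((ℓ : ℤ) + 1 - a : ℤ)) : 𝒪) = (x - (a : 𝒪)) - (x - ((ℓ : 𝒪) + 1)) := by
      push_cast
      ring
    rw [e]
    exact Ideal.sub_mem _ hx h2
  exact (mem_maximalIdeal _).1 h3 h1

/-- **E-NE, unit form for an eigensystem congruent to `W`**: a good prime `ℓ ∉ S`, `ℓ ≠ p`, at
which `ψ ℓ − (ℓ + 1)` is a unit. -/
theorem s59ne_unit {𝒪 : Type*} [CommRing 𝒪] [IsLocalRing 𝒪] (p : ℕ) [Fact p.Prime]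
    (hp : (p : 𝒪) ∈ maximalIdeal 𝒪)
    (W : WeierstrassCurve ℤ) (hΔ : W.Δ ≠ 0) (hp2 : p ≠ 2) (hirr : W.ModRepIsIrreducible p)
    (S : Finset ℕ) (ψ : ℕ → 𝒪)
    (hψ : ∀ ℓ : ℕ, ℓ.Prime → ℓ ∉ S → ℓ ≠ p → ¬ (ℓ : ℤ) ∣ W.Δ →
      ψ ℓ - ((W.apOfModel ℓ : ℤ) : 𝒪) ∈ maximalIdeal 𝒪) :
    ∃ ℓ : ℕ, ℓ.Prime ∧ ℓ ∉ S ∧ ℓ ≠ p ∧ ¬ (ℓ : ℤ) ∣ W.Δ ∧ IsUnit (ψ ℓ - ((ℓ : 𝒪) + 1)) := by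
  obtain ⟨ℓ, hℓ, hℓS, hℓp, hgood, hnd⟩ := s59ne_exists W hΔ p hp2 hirr S
  exact ⟨ℓ, hℓ, hℓS, hℓp, hgood,
    s59ne_isUnit_sub p hp (ψ ℓ) (W.apOfModel ℓ) ℓ (hψ ℓ hℓ hℓS hℓp hgood) hnd⟩

/-- **E-NE, two distinct primes** (for `D_ℓ D_ℓ'` of E-SAT). -/
theorem s59ne_unit_two {𝒪 : Type*} [CommRing 𝒪] [IsLocalRing 𝒪] (p : ℕ) [Fact p.Prime]
    (hp : (p : 𝒪) ∈ maximalIdeal 𝒪)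
    (W : WeierstrassCurve ℤ) (hΔ : W.Δ ≠ 0) (hp2 : p ≠ 2) (hirr : W.ModRepIsIrreducible p)
    (S : Finset ℕ) (ψ : ℕ → 𝒪)
    (hψ : ∀ ℓ : ℕ, ℓ.Prime → ℓ ∉ S → ℓ ≠ p → ¬ (ℓ : ℤ) ∣ W.Δ →
      ψ ℓ - ((W.apOfModel ℓ : ℤ) : 𝒪) ∈ maximalIdeal 𝒪) :
    ∃ ℓ ℓ' : ℕ, ℓ.Prime ∧ ℓ'.Prime ∧ ℓ ≠ ℓ' ∧ ℓ ∉ S ∧ ℓ' ∉ S ∧ ℓ ≠ p ∧ ℓ' ≠ p ∧
      ¬ (ℓ : ℤ) ∣ W.Δ ∧ ¬ (ℓ' : ℤ) ∣ W.Δ ∧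
      IsUnit (ψ ℓ - ((ℓ : 𝒪) + 1)) ∧ IsUnit (ψ ℓ' - ((ℓ' : 𝒪) + 1)) := by
  obtain ⟨ℓ, ℓ', hℓ, hℓ', hne, hℓS, hℓ'S, hℓp, hℓ'p, hgood, hgood', hnd, hnd'⟩ :=
    s59ne_exists_two W hΔ p hp2 hirr S
  exact ⟨ℓ, ℓ', hℓ, hℓ', hne, hℓS, hℓ'S, hℓp, hℓ'p, hgood, hgood',
    s59ne_isUnit_sub p hp (ψ ℓ) (W.apOfModel ℓ) ℓ (hψ ℓ hℓ hℓS hℓp hgood) hnd,
    s59ne_isUnit_sub p hp (ψ ℓ') (W.apOfModel ℓ') ℓ' (hψ ℓ' hℓ' hℓ'S hℓ'p hgood') hnd'⟩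

end Fermat.Agent.S59
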