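/-
S59, wall R2 (ETA′), piece **E-ASM**, part 5 (helper72, deputy): THE INTERFACE OF R2.

The fields of the captain's interface `S59R2Data` (S59/TopStep.lean), proved for

  states `S59asmSt 𝒪`, `lev s = s.M`, `Good = s59asmGood p ψ ϖ`, `J = s59asmEta p ψ`,
  `next = s59asmNext ψ`

(no import of `TopStep.lean` here):

* `s59asmr_ne`   : two non-Eisenstein primes prime to a given level (from `W[p]` irreducible and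
  `ψ ≡ a(W)` mod `𝔪`; helper57's `s59ne_unit_two`);
* **`s59asmr_step`** : the field `step` (the constant is `s59p_cq 𝒪 q (ψ q)`);
* **`s59asmr_char`** : the field `char`;
* **`s59asmr_gen`**  : the field `gen`, with the two extra hypotheses `hSsub`, `hbig`;
* `s59asmr_J_ne`, `s59asmr_lev_next`.

Open input of `s59asmr_step`: `s59asmr_H1a` (E-MULT1a, helper71) only; μDEG at `q ∣ M` is
helper75's `s59muda_relAlphaAt_mul` and helper31's `s59mudd_relBetaAt_mul`, (U) is helper58's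
`s59m1bu_unit`.
-/
import Fermat.Agent.S59.Eta.AsmRat
import Fermat.Agent.S59.Eta.AsmNZ
import Fermat.Agent.S59.Eta.AsmGen
import Fermat.Agent.S59.Eta.AsmM1b
import Fermat.Agent.S59.Eta.NonEisU
import Fermat.Agent.S59.Eta.MuDegDivB
import Fermat.Agent.S59.Eta.MuDegDivA

set_option autoImplicit false
set_option linter.unusedSectionVars false
set_option linter.unusedVariables false
set_option linter.style.haveILetI false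
set_option linter.style.longLine false

noncomputable section

namespace Fermat.Agent.S59

open TensorProduct CongruenceSubgroup Fermat.Agent.S41 Fermat.Agent.S41.PD IsLocalRing

section Inputs

variable {𝒪 : Type} [CommRing 𝒪]

/-- **open input (1a)**: E-MULT1a at every step `(N, q)` for an eigensystem occurring at level
`N` -/
def s59asmr_H1a (p : ℕ) (ψ : ℕ → 𝒪) : Prop :=
  ∀ (N q : ℕ) [NeZero N] [NeZero q] [Fact q.Prime], ¬ q ∣ N → q ≠ p →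
    ∀ x : s59asmL 𝒪 N, x ≠ 0 → x ∈ s59asmE 𝒪 N p ψ → s59asm_M1a 𝒪 N q p ψ

/-- `ψ` is congruent to the curve `W` outside the finite set `S₀` -/
def s59asmr_CongW [IsLocalRing 𝒪] (p : ℕ) (ψ : ℕ → 𝒪) (W : WeierstrassCurve ℤ)
    (S₀ : Finset ℕ) : Prop :=
  ∀ r : ℕ, r.Prime → r ∉ S₀ → r ≠ p → ¬ (r : ℤ) ∣ W.Δ →
    ψ r - ((W.apOfModel r : ℤ) : 𝒪) ∈ maximalIdeal 𝒪

end Inputs

section R2

variable {𝒪 : Type} [CommRing 𝒪] [IsDomain 𝒪] [IsDiscreteValuationRing 𝒪]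
  [IsAdicComplete (maximalIdeal 𝒪) 𝒪] [CharZero 𝒪] (p : ℕ) [Fact p.Prime]

/-- **E-NE**: two non-Eisenstein primes prime to `M` -/
theorem s59asmr_ne (hp2 : p ≠ 2) (hp𝒪 : (p : 𝒪) ∈ maximalIdeal 𝒪) (ψ : ℕ → 𝒪)
    (W : WeierstrassCurve ℤ) (hΔ : W.Δ ≠ 0) (hirr : W.ModRepIsIrreducible p) (S₀ : Finset ℕ)
    (hψW : s59asmr_CongW p ψ W S₀) (M : ℕ) (hM : M ≠ 0) :
    ∃ ℓ₁ ℓ₂ : ℕ, ℓ₁.Prime ∧ ℓ₂.Prime ∧ ¬ ℓ₁ ∣ M ∧ ¬ ℓ₂ ∣ M ∧ ℓ₁ ≠ p ∧ ℓ₂ ≠ p ∧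
      IsUnit (ψ ℓ₁ - ((ℓ₁ : 𝒪) + 1)) ∧ IsUnit (ψ ℓ₂ - ((ℓ₂ : 𝒪) + 1)) := by
  obtain ⟨ℓ, ℓ', hℓ, hℓ', -, hℓS, hℓ'S, hℓp, hℓ'p, -, -, hu, hu'⟩ :=
    s59ne_unit_two p hp𝒪 W hΔ hp2 hirr (S₀ ∪ M.primeFactors) ψ
      (fun r hr hrS hrp hrΔ => hψW r hr (fun h => hrS (Finset.mem_union_left _ h)) hrp hrΔ)
  refine ⟨ℓ, ℓ', hℓ, hℓ', ?_, ?_, hℓp, hℓ'p, hu, hu'⟩
  · exact fun h => hℓS (Finset.mem_union_right _ (Nat.mem_primeFactors.2 ⟨hℓ, h, hM⟩))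
  · exact fun h => hℓ'S (Finset.mem_union_right _ (Nat.mem_primeFactors.2 ⟨hℓ', h, hM⟩))

/-- **the field `step` of `S59R2Data`** -/
theorem s59asmr_step (hp2 : p ≠ 2) (hp𝒪 : (p : 𝒪) ∈ maximalIdeal 𝒪) (ψ : ℕ → 𝒪) {ϖ : 𝒪}
    (hϖ : Irreducible ϖ)
    (W : WeierstrassCurve ℤ) (hΔ : W.Δ ≠ 0) (hirr : W.ModRepIsIrreducible p) (S₀ : Finset ℕ)
    (hψW : s59asmr_CongW p ψ W S₀)
    (h1a : s59asmr_H1a p ψ)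
    (s : S59asmSt 𝒪) (q : ℕ) (hq : q.Prime) (hqM : ¬ q ∣ s.M) (hqp : q ≠ p)
    (hs : s59asmGood p ψ ϖ s) :
    s59asmGood p ψ ϖ (s59asmNext ψ q s) ∧
      s59asmEta p ψ (s59asmNext ψ q s) ≤
        Ideal.span {s59p_cq 𝒪 q (ψ q)} * s59asmEta p ψ s := by
  haveI : NeZero s.M := ⟨s.hM⟩
  haveI : NeZero q := ⟨hq.ne_zero⟩
  haveI : Fact q.Prime := ⟨hq⟩
  obtain ⟨ℓ₁, ℓ₂, h₁, h₂, h₁M, h₂M, h₁p, h₂p, hu₁, hu₂⟩ :=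
    s59asmr_ne p hp2 hp𝒪 ψ W hΔ hirr S₀ hψW (s.M * q * q)
      (Nat.mul_ne_zero (Nat.mul_ne_zero s.hM hq.ne_zero) hq.ne_zero)
  have hm1a : s59asm_M1a 𝒪 s.M q p ψ := h1a s.M q hqM hqp s.x hs.ne_zero hs.1
  have hm1b : s59asm_M1b 𝒪 s.M q p ψ :=
    s59asm_M1b_of_W hqM hqp hp2 𝒪 hp𝒪 ψ s.x hs.ne_zero hs.1 W hΔ hirr S₀ hψW
      (s59muda_relAlphaAt_mul s.M q hq) (s59mudd_relBetaAt_mul s.M q hq)
  have hrat : s59asmRat p ψ q s := fun _ =>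
    s59asm_hrat 𝒪 s.M q p hp𝒪 hqM hqp ψ hm1a hm1b s.x hs.1 hs.ne_zero
  exact s59asm_next p hp2 hp𝒪 ψ hϖ ℓ₁ ℓ₂ h₁ h₂ h₁p h₂p hu₁ hu₂ s q hq hqM hqp h₁M h₂M hrat hs

omit [IsAdicComplete (maximalIdeal 𝒪) 𝒪] [Fact p.Prime] in
/-- **the field `J_ne`** -/
theorem s59asmr_J_ne (ψ : ℕ → 𝒪) (ϖ : 𝒪) (s : S59asmSt 𝒪) (hs : s59asmGood p ψ ϖ s) :
    s59asmEta p ψ s ≠ ⊥ :=
  s59nza_hne p ψ ϖ s hs

omit [IsDomain 𝒪] [IsDiscreteValuationRing 𝒪] [IsAdicComplete (maximalIdeal 𝒪) 𝒪]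
  [CharZero 𝒪] [Fact p.Prime] in
/-- **the field `lev_next`** -/
theorem s59asmr_lev_next (ψ : ℕ → 𝒪) (q : ℕ) (s : S59asmSt 𝒪) (hq : q.Prime) :
    (s59asmNext ψ q s).M = s.M * q * q :=
  s59asmNext_M ψ q hq.ne_zero s

omit [IsDiscreteValuationRing 𝒪] [IsAdicComplete (maximalIdeal 𝒪) 𝒪] [CharZero 𝒪]
  [Fact p.Prime] in
/-- **the field `char` of `S59R2Data`** -/
theorem s59asmr_char (ψ : ℕ → 𝒪) (ϖ : 𝒪) (s : S59asmSt 𝒪) [NeZero s.M]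
    (hs : s59asmGood p ψ ϖ s) (S : Finset ℕ) (hpS : p ∈ S)
    (hNS : ∀ ℓ : ℕ, ℓ.Prime → ℓ ∣ s.M → ℓ ∈ S) :
    ∃ χ : CuspForm.heckeAlgebra s.M 2 (↑S : Set ℕ) →+* 𝒪,
      ∀ (ℓ : ℕ) (hℓ : ℓ.Prime) (hℓN : ¬ ℓ ∣ s.M) (hℓS : ℓ ∉ (↑S : Set ℕ)),
        χ (CuspForm.heckeAlgebra.T hℓ hℓN hℓS) = ψ ℓ := by
  obtain ⟨χ, hχ, -⟩ := s59nza_char (S := (↑S : Set ℕ))
    (fun q hq h => Finset.mem_coe.2 (hNS q hq h)) ψ s.x hs.ne_zero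
    (fun ℓ _ hℓM hℓS => (s59asm_mem_E 𝒪 s.M).1 hs.1 ℓ hℓM
      (fun h => hℓS (h ▸ Finset.mem_coe.2 hpS)))
  exact ⟨χ, hχ⟩

/-- **the field `gen` of `S59R2Data`**, with the two extra hypotheses `hSsub` (`S` is the set of
the primes of the level, and `p`) and `hbig` (`𝒪` is big for the level). -/
theorem s59asmr_gen (ψ : ℕ → 𝒪) {ϖ : 𝒪} (hϖ : Irreducible ϖ) (s : S59asmSt 𝒪) [NeZero s.M]
    (hs : s59asmGood p ψ ϖ s) (S : Finset ℕ) (hpS : p ∈ S)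
    (hNS : ∀ ℓ : ℕ, ℓ.Prime → ℓ ∣ s.M → ℓ ∈ S)
    (hSsub : ∀ ℓ : ℕ, ℓ.Prime → ℓ ∈ S → ℓ = p ∨ ℓ ∣ s.M)
    (θ : CuspForm.heckeAlgebra s.M 2 (↑S : Set ℕ) →+* ResidueField 𝒪)
    (hbig : s59p_IsBig 𝒪 s.M (↑S : Set ℕ) θ)
    (T : Type) [CommRing T] [IsLocalRing T] [IsNoetherianRing T]
    [IsAdicComplete (maximalIdeal T) T] [Algebra 𝒪 T] [IsLocalHom (algebraMap 𝒪 T)]
    [Module.Finite 𝒪 T] [Module.Free 𝒪 T]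
    (H : CuspForm.HeckeGaloisRepDatum s.M (↑S : Set ℕ) 𝒪 θ T) (πT : T →ₐ[𝒪] 𝒪)
    (hsep : ∀ y : T, (∀ ψ' : T →ₐ[𝒪] 𝒪, ψ' y = 0) → y = 0)
    (heig : ∀ (ℓ : ℕ) (hℓ : ℓ.Prime) (hℓN : ¬ ℓ ∣ s.M) (hℓS : ℓ ∉ (↑S : Set ℕ)),
      πT (H.π (CuspForm.heckeAlgebra.T hℓ hℓN hℓS)) = ψ ℓ) :
    s59p_eta 𝒪 πT ≠ ⊥ ∧ s59p_eta 𝒪 πT ≤ s59asmEta p ψ s := by
  refine ⟨?_, s59gena_gen p (fun q hq h => Finset.mem_coe.2 (hNS q hq h))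
    (Finset.mem_coe.2 hpS) (fun ℓ hℓ h => hSsub ℓ hℓ (Finset.mem_coe.1 h)) H hbig πT ψ heig hϖ s
    rfl hs⟩
  haveI : IsReduced T := ⟨fun y hy => hsep y (fun ψ' => by
    obtain ⟨n, hn⟩ := hy
    have h1 : ψ' y ^ n = 0 := by rw [← map_pow, hn, map_zero]
    exact eq_zero_of_pow_eq_zero h1)⟩
  haveI : Algebra.IsIntegral 𝒪 T := Algebra.IsIntegral.of_finite 𝒪 T
  exact s59nz_eta_ne_bot πT

end R2

end Fermat.Agent.S59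

end
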