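/-
S59, route A, piece ETA′ (R2), leaf **E-BASE**, abstract part (helper19).  Mathlib only.

`𝒪` a discrete valuation ring with fraction field `K`, `L` a finite free `ℤ`-module, `T i` a
family of `ℤ`-endomorphisms of `L`, `a i ∈ 𝒪`.

* `s59baseJ 𝒪 K L : 𝒪 ⊗[ℤ] L →ₗ[ℤ] K ⊗[ℤ] L`, `s59baseJ_tmul`, `s59baseJ_smul`, `s59baseJ_baseChange`,
  `s59baseJ_injective` (`L` flat over `ℤ`);
* `s59base_clear` : every `v ∈ K ⊗ L` has a nonzero `𝒪`-multiple in the image of `𝒪 ⊗ L`;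
* `s59base_descend` : a nonzero simultaneous eigenvector over `K` with eigenvalues in `𝒪` gives a
  nonzero simultaneous eigenvector in `𝒪 ⊗ L`;
* `s59base_primitive` : in a finite torsion-free module over a DVR every `x ≠ 0` is `ϖ ^ k • x₀`
  with `x₀` primitive (`∀ v, x₀ ≠ ϖ • v`);
* **`s59base_abs`** : a nonzero simultaneous eigenvector over `K` with eigenvalues in `𝒪` gives a
  PRIMITIVE simultaneous eigenvector in `𝒪 ⊗ L`.
-/
import Mathlib

set_option autoImplicit false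
set_option linter.unusedSectionVars false
set_option linter.unusedVariables false
set_option linter.style.haveILetI false

noncomputable section

namespace Fermat.Agent.S59

open TensorProduct

section J

variable (𝒪 : Type*) [CommRing 𝒪] (K : Type*) [Field K] [Algebra 𝒪 K]
  (L : Type*) [AddCommGroup L]

/-- the comparison map `𝒪 ⊗[ℤ] L → K ⊗[ℤ] L` -/
def s59baseJ : 𝒪 ⊗[ℤ] L →ₗ[𝒪] K ⊗[ℤ] L :=
  TensorProduct.AlgebraTensorModule.map (Algebra.linearMap 𝒪 K) (LinearMap.id : L →ₗ[ℤ] L)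

variable {𝒪 K L}

@[simp]
theorem s59baseJ_tmul (c : 𝒪) (y : L) :
    s59baseJ 𝒪 K L (c ⊗ₜ[ℤ] y) = (algebraMap 𝒪 K c) ⊗ₜ[ℤ] y := by
  rw [s59baseJ, TensorProduct.AlgebraTensorModule.map_tmul]
  rfl

theorem s59baseJ_smul (c : 𝒪) (x : 𝒪 ⊗[ℤ] L) :
    s59baseJ 𝒪 K L (c • x) = algebraMap 𝒪 K c • s59baseJ 𝒪 K L x := by
  induction x using TensorProduct.induction_on with
  | zero => simp
  | tmul d y =>
    rw [TensorProduct.smul_tmul', s59baseJ_tmul, s59baseJ_tmul, TensorProduct.smul_tmul',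
      smul_eq_mul, smul_eq_mul, map_mul]
  | add x y hx hy => rw [smul_add, map_add, map_add, smul_add, hx, hy]

theorem s59baseJ_baseChange (T : L →ₗ[ℤ] L) (x : 𝒪 ⊗[ℤ] L) :
    s59baseJ 𝒪 K L (T.baseChange 𝒪 x) = T.baseChange K (s59baseJ 𝒪 K L x) := by
  induction x using TensorProduct.induction_on with
  | zero => simp
  | tmul d y =>
    rw [LinearMap.baseChange_tmul, s59baseJ_tmul, s59baseJ_tmul, LinearMap.baseChange_tmul]
  | add x y hx hy => rw [map_add, map_add, map_add, map_add, hx, hy]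

theorem s59baseJ_eq_rTensor (x : 𝒪 ⊗[ℤ] L) :
    LinearMap.rTensor L ((Algebra.linearMap 𝒪 K).restrictScalars ℤ) x = s59baseJ 𝒪 K L x := by
  induction x using TensorProduct.induction_on with
  | zero => simp
  | tmul d y =>
    rw [LinearMap.rTensor_tmul, s59baseJ_tmul]
    rfl
  | add x y hx hy => rw [map_add, map_add, hx, hy]

theorem s59baseJ_injective [Module.Flat ℤ L] (hinj : Function.Injective (algebraMap 𝒪 K)) :
    Function.Injective (s59baseJ 𝒪 K L) := by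
  have h := Module.Flat.rTensor_preserves_injective_linearMap (M := L)
    ((Algebra.linearMap 𝒪 K).restrictScalars ℤ) hinj
  intro x y hxy
  apply h
  rw [s59baseJ_eq_rTensor, s59baseJ_eq_rTensor, hxy]

/-- **clearing denominators** -/
theorem s59base_clear [IsDomain 𝒪] [IsFractionRing 𝒪 K] (v : K ⊗[ℤ] L) :
    ∃ c : 𝒪, c ≠ 0 ∧ ∃ x : 𝒪 ⊗[ℤ] L, s59baseJ 𝒪 K L x = algebraMap 𝒪 K c • v := by
  induction v using TensorProduct.induction_on with
  | zero => exact ⟨1, one_ne_zero, 0, by simp⟩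
  | tmul a y =>
    obtain ⟨n, d, hd, rfl⟩ := IsFractionRing.div_surjective (A := 𝒪) a
    have hd0 : d ≠ 0 := nonZeroDivisors.ne_zero hd
    have hdK : algebraMap 𝒪 K d ≠ 0 := by
      intro h
      exact hd0 ((IsFractionRing.injective 𝒪 K) (by rw [h, map_zero]))
    refine ⟨d, hd0, n ⊗ₜ[ℤ] y, ?_⟩
    rw [s59baseJ_tmul, TensorProduct.smul_tmul', smul_eq_mul, mul_div_cancel₀ _ hdK]
  | add v w hv hw =>
    obtain ⟨c, hc, x, hx⟩ := hv
    obtain ⟨d, hd, y, hy⟩ := hw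
    refine ⟨c * d, mul_ne_zero hc hd, d • x + c • y, ?_⟩
    rw [map_add, s59baseJ_smul, s59baseJ_smul, hx, hy, smul_add, map_mul, smul_smul, smul_smul,
      mul_comm (algebraMap 𝒪 K d)]

/-- **descent of a simultaneous eigenvector** from `K ⊗ L` to `𝒪 ⊗ L` -/
theorem s59base_descend [IsDomain 𝒪] [IsFractionRing 𝒪 K] [Module.Flat ℤ L] {ι : Sort*}
    (T : ι → L →ₗ[ℤ] L) (a : ι → 𝒪) (v : K ⊗[ℤ] L) (hv : v ≠ 0)
    (hT : ∀ i, (T i).baseChange K v = algebraMap 𝒪 K (a i) • v) :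
    ∃ x : 𝒪 ⊗[ℤ] L, x ≠ 0 ∧ ∀ i, (T i).baseChange 𝒪 x = a i • x := by
  obtain ⟨c, hc, x, hx⟩ := s59base_clear (𝒪 := 𝒪) v
  have hcK : algebraMap 𝒪 K c ≠ 0 := by
    intro h
    exact hc ((IsFractionRing.injective 𝒪 K) (by rw [h, map_zero]))
  have hJ := s59baseJ_injective (L := L) (IsFractionRing.injective 𝒪 K)
  refine ⟨x, ?_, fun i => ?_⟩
  · rintro rfl
    rw [map_zero] at hx
    exact (smul_ne_zero hcK hv) hx.symm
  · apply hJ
    rw [s59baseJ_baseChange, s59baseJ_smul, hx, map_smul, hT, smul_comm]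

end J

section Prim

variable {𝒪 : Type*} [CommRing 𝒪] [IsDomain 𝒪] [IsDiscreteValuationRing 𝒪]
  {X : Type*} [AddCommGroup X] [Module 𝒪 X] [Module.Finite 𝒪 X]

/-- **division by the largest power of `ϖ`** in a finite module over a DVR -/
theorem s59base_primitive {ϖ : 𝒪} (hϖ : Irreducible ϖ) (x : X) (hx : x ≠ 0) :
    ∃ (k : ℕ) (x₀ : X), x = ϖ ^ k • x₀ ∧ ∀ v : X, x₀ ≠ ϖ • v := by
  classical
  have hne : Ideal.span {ϖ} ≠ (⊤ : Ideal 𝒪) := by
    rw [Ne, Ideal.span_singleton_eq_top]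
    exact hϖ.not_isUnit
  have hK := Ideal.iInf_pow_smul_eq_bot_of_isLocalRing (R := 𝒪) (M := X) (Ideal.span {ϖ}) hne
  have hex : ∃ k : ℕ, x ∉ (Ideal.span {ϖ} ^ k • ⊤ : Submodule 𝒪 X) := by
    by_contra hcon
    apply hx
    have : x ∈ (⨅ i : ℕ, Ideal.span {ϖ} ^ i • ⊤ : Submodule 𝒪 X) :=
      (Submodule.mem_iInf _).2 (fun i => by
        by_contra h
        exact hcon ⟨i, h⟩)
    rw [hK] at this
    exact (Submodule.mem_bot 𝒪).1 this
  have hmem : ∀ (k : ℕ) (y : X),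
      y ∈ (Ideal.span {ϖ} ^ k • ⊤ : Submodule 𝒪 X) ↔ ∃ z : X, y = ϖ ^ k • z := by
    intro k y
    rw [Ideal.span_singleton_pow, Submodule.ideal_span_singleton_smul]
    constructor
    · rintro h
      obtain ⟨z, -, hz⟩ := (Submodule.mem_smul_pointwise_iff_exists _ _ _).1 h
      exact ⟨z, hz.symm⟩
    · rintro ⟨z, rfl⟩
      exact Submodule.smul_mem_pointwise_smul z _ _ Submodule.mem_top
  set k := Nat.find hex with hk
  have hk1 : x ∉ (Ideal.span {ϖ} ^ k • ⊤ : Submodule 𝒪 X) := Nat.find_spec hex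
  have hk0 : k ≠ 0 := by
    intro h0
    apply hk1
    rw [h0, (hmem 0 x)]
    exact ⟨x, by rw [pow_zero, one_smul]⟩
  obtain ⟨m, hm⟩ := Nat.exists_eq_succ_of_ne_zero hk0
  have hm1 : x ∈ (Ideal.span {ϖ} ^ m • ⊤ : Submodule 𝒪 X) := by
    by_contra hcon
    have := Nat.find_min' hex hcon
    omega
  obtain ⟨x₀, hx₀⟩ := (hmem m x).1 hm1
  refine ⟨m, x₀, hx₀, fun v hv => ?_⟩
  apply hk1
  rw [hm, hmem]
  refine ⟨v, ?_⟩
  rw [hx₀, hv, smul_smul, pow_succ]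

end Prim

section Main

variable {𝒪 : Type*} [CommRing 𝒪] [IsDomain 𝒪] [IsDiscreteValuationRing 𝒪]
  {K : Type*} [Field K] [Algebra 𝒪 K] [IsFractionRing 𝒪 K]
  {L : Type*} [AddCommGroup L] [Module.Free ℤ L] [Module.Finite ℤ L]

/-- **E-BASE, abstract form**: a nonzero simultaneous eigenvector over `K = Frac 𝒪` of the
`T i ⊗ K`, with eigenvalues in `𝒪`, gives a PRIMITIVE simultaneous eigenvector of the `T i ⊗ 𝒪`
in the lattice `𝒪 ⊗[ℤ] L`. -/
theorem s59base_abs {ι : Sort*} (T : ι → L →ₗ[ℤ] L) (a : ι → 𝒪) {ϖ : 𝒪} (hϖ : Irreducible ϖ)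
    (v : K ⊗[ℤ] L) (hv : v ≠ 0)
    (hT : ∀ i, (T i).baseChange K v = algebraMap 𝒪 K (a i) • v) :
    ∃ x₀ : 𝒪 ⊗[ℤ] L, (∀ w : 𝒪 ⊗[ℤ] L, x₀ ≠ ϖ • w) ∧ ∀ i, (T i).baseChange 𝒪 x₀ = a i • x₀ := by
  obtain ⟨x, hx0, hx⟩ := s59base_descend T a v hv hT
  obtain ⟨k, x₀, hxk, hprim⟩ := s59base_primitive hϖ x hx0
  refine ⟨x₀, hprim, fun i => ?_⟩
  have h1 : ϖ ^ k • ((T i).baseChange 𝒪 x₀ - a i • x₀) = 0 := by
    rw [smul_sub, ← map_smul, smul_comm, ← hxk, hx i, sub_self]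
  have h2 : ϖ ^ k ≠ 0 := pow_ne_zero _ hϖ.ne_zero
  rcases smul_eq_zero.1 h1 with h | h
  · exact absurd h h2
  · exact sub_eq_zero.1 h

end Main

end Fermat.Agent.S59

end
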