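/-
S59, route A, piece ETA′ (R2), leaf **E-TRANS**, part 3 (helper70): EVERY EIGENSYSTEM OCCURS.

* `s59treig_abs` (abstract): `K` a field, `A'` a finite commutative `K`-algebra acting FAITHFULLY
  on a finite-dimensional `K`-space `V`, `ψ : A' →ₐ[K] K` a `K`-point.  Then there is `v ≠ 0` in `V`
  with `a • v = ψ a • v` for all `a`.  [`ker ψ` is a minimal prime of the annihilator `⊥` of the
  Artinian ring `A'`, hence an associated prime of `V`.]
* `s59treigPsi K ψ : K ⊗[ℤ] 𝕋 →ₐ[K] K` the `K`-linear extension of a ring homomorphism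
  `ψ : 𝕋 →+* K`, `𝕋 = heckeAlgebra M 2 S`.
* **`s59treig_exists`** : `K` a field of characteristic `0`, `ψ : 𝕋 →+* K`  ⇒  there is `v ≠ 0` in
  `K ⊗[ℤ] Lpar M` with `Θ_K (1 ⊗ t) v = ψ t • v` for all `t ∈ 𝕋`
  (`Θ_K = s59trbcTheta K hS`, S59/Eta/TransBC.lean).
* `s59treig_exists_T` : the same, spelled out on the generators: `(Tc ℓ ⊗ K) v = ψ (T_ℓ) • v`.
-/
import Fermat.Agent.S59.Eta.TransBC

set_option autoImplicit false
set_option linter.unusedSectionVars false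
set_option linter.unusedVariables false
set_option linter.style.haveILetI false

noncomputable section

namespace Fermat.Agent.S59

open CongruenceSubgroup Matrix ModularCurve ModularCurve.Period Fermat.Agent.S41 TensorProduct
open scoped MatrixGroups

section Abs

/-- **every `K`-point of a finite commutative algebra acting faithfully has an eigenvector** -/
theorem s59treig_abs {K A' V : Type*} [Field K] [CommRing A'] [Algebra K A'] [Module.Finite K A']
    [AddCommGroup V] [Module K V] [Module A' V] [IsScalarTower K A' V] [Module.Finite K V]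
    (hfaith : ∀ a : A', (∀ v : V, a • v = 0) → a = 0) (ψ : A' →ₐ[K] K) :
    ∃ v : V, v ≠ 0 ∧ ∀ a : A', a • v = ψ a • v := by
  haveI : IsArtinianRing A' := IsArtinianRing.of_finite K A'
  haveI : IsNoetherianRing A' := inferInstance
  haveI : Module.Finite A' V := Module.Finite.of_restrictScalars_finite K A' V
  have hsurj : Function.Surjective ψ.toRingHom := fun c => ⟨algebraMap K A' c, by simp⟩
  haveI hmax : (RingHom.ker ψ.toRingHom).IsMaximal :=
    RingHom.ker_isMaximal_of_surjective _ hsurj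
  have hann : Module.annihilator A' V = ⊥ := by
    rw [eq_bot_iff]
    intro a ha
    rw [Module.mem_annihilator] at ha
    exact (Ideal.mem_bot).2 (hfaith a ha)
  have hmin : RingHom.ker ψ.toRingHom ∈ (Module.annihilator A' V).minimalPrimes := by
    rw [hann]
    refine ⟨⟨hmax.isPrime, bot_le⟩, ?_⟩
    rintro 𝔭 ⟨h𝔭, -⟩ hle
    haveI := h𝔭
    have h1 : 𝔭.IsMaximal := IsArtinianRing.isMaximal_of_isPrime 𝔭
    exact (h1.eq_of_le hmax.ne_top hle).ge
  have hass : IsAssociatedPrime (RingHom.ker ψ.toRingHom) V :=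
    Module.associatedPrimes.minimalPrimes_annihilator_subset_associatedPrimes A' V hmin
  obtain ⟨-, v, hv⟩ := isAssociatedPrime_iff.1 hass
  refine ⟨v, ?_, ?_⟩
  · rintro rfl
    apply hmax.ne_top
    rw [hv, eq_top_iff]
    intro r _
    rw [Submodule.mem_colon_singleton, smul_zero]
    exact Submodule.zero_mem _
  · intro a
    have h1 : a - algebraMap K A' (ψ a) ∈ RingHom.ker ψ.toRingHom := by
      rw [RingHom.mem_ker]
      simp
    rw [hv, Submodule.mem_colon_singleton, Submodule.mem_bot, sub_smul, algebraMap_smul] at h1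
    exact sub_eq_zero.1 h1

end Abs

variable {M : ℕ} [NeZero M] {S : Set ℕ}

/-- the `K`-linear extension `K ⊗[ℤ] 𝕋 →ₐ[K] K` of a ring homomorphism `ψ : 𝕋 →+* K` -/
def s59treigPsi (K : Type*) [Field K] (ψ : ↥(CuspForm.heckeAlgebra M 2 S) →+* K) :
    K ⊗[ℤ] ↥(CuspForm.heckeAlgebra M 2 S) →ₐ[K] K :=
  Algebra.TensorProduct.lift (AlgHom.id K K) ψ.toIntAlgHom (fun _ _ => Commute.all _ _)

@[simp]
theorem s59treigPsi_tmul (K : Type*) [Field K] (ψ : ↥(CuspForm.heckeAlgebra M 2 S) →+* K)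
    (a : K) (t : CuspForm.heckeAlgebra M 2 S) : s59treigPsi K ψ (a ⊗ₜ[ℤ] t) = a * ψ t := by
  simp [s59treigPsi]

/-- **every eigensystem of the Hecke ring occurs in the lattice** -/
theorem s59treig_exists (K : Type*) [Field K] [CharZero K]
    (hS : ∀ q : ℕ, q.Prime → q ∣ M → q ∈ S) (ψ : ↥(CuspForm.heckeAlgebra M 2 S) →+* K) :
    ∃ v : K ⊗[ℤ] ↥(Lpar M), v ≠ 0 ∧
      ∀ t : CuspForm.heckeAlgebra M 2 S, s59trbcTheta K hS ((1 : K) ⊗ₜ[ℤ] t) v = ψ t • v := by
  haveI := s59tr_finite_Lpar M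
  haveI := s59tr_finite_hecke (M := M) hS
  letI : Module (K ⊗[ℤ] ↥(CuspForm.heckeAlgebra M 2 S)) (K ⊗[ℤ] ↥(Lpar M)) :=
    Module.compHom _ (s59trbcTheta K hS).toRingHom
  have hsmul : ∀ (a : K ⊗[ℤ] ↥(CuspForm.heckeAlgebra M 2 S)) (v : K ⊗[ℤ] ↥(Lpar M)),
      a • v = s59trbcTheta K hS a v := fun _ _ => rfl
  haveI : IsScalarTower K (K ⊗[ℤ] ↥(CuspForm.heckeAlgebra M 2 S)) (K ⊗[ℤ] ↥(Lpar M)) := by
    refine ⟨fun c a v => ?_⟩
    rw [hsmul, hsmul, map_smul, LinearMap.smul_apply]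
  have hfaith : ∀ a : K ⊗[ℤ] ↥(CuspForm.heckeAlgebra M 2 S),
      (∀ v : K ⊗[ℤ] ↥(Lpar M), a • v = 0) → a = 0 := by
    intro a ha
    apply s59trbcTheta_injective K hS
    rw [map_zero]
    exact LinearMap.ext fun v => ha v
  obtain ⟨v, hv0, hv⟩ := s59treig_abs hfaith (s59treigPsi K ψ)
  refine ⟨v, hv0, fun t => ?_⟩
  have h := hv ((1 : K) ⊗ₜ[ℤ] t)
  rw [hsmul, s59treigPsi_tmul, one_mul] at h
  exact h

/-- the same on the generators `T_ℓ` -/
theorem s59treig_exists_T (K : Type*) [Field K] [CharZero K]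
    (hS : ∀ q : ℕ, q.Prime → q ∣ M → q ∈ S) (ψ : ↥(CuspForm.heckeAlgebra M 2 S) →+* K) :
    ∃ v : K ⊗[ℤ] ↥(Lpar M), v ≠ 0 ∧
      ∀ (ℓ : ℕ) [hℓ : Fact ℓ.Prime] (hℓM : ¬ ℓ ∣ M) (hℓS : ℓ ∉ S),
        (s59trTc M ℓ hℓM).baseChange K v = ψ (CuspForm.heckeAlgebra.T hℓ.out hℓM hℓS) • v := by
  obtain ⟨v, hv0, hv⟩ := s59treig_exists K hS ψ
  refine ⟨v, hv0, fun ℓ hℓ hℓM hℓS => ?_⟩
  rw [← hv, s59trbcTheta_T]

end Fermat.Agent.S59

end
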