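/-
S59, route A, piece ETA′ (R2), leaf **E-BASE** (helper19): THE BASE OF THE CHAIN.

`𝒪` a discrete valuation ring of characteristic `0`, `ϖ` a uniformizer, `𝕋 = heckeAlgebra N 2 S`
(`S ⊇` primes of `N`), `χ₀ : 𝕋 →+* 𝒪` a ring homomorphism.  Then the lattice
`𝒪 ⊗[ℤ] Lpar N` contains a PRIMITIVE eigenvector `x₀` for `χ₀`:

* **`s59base_exists_theta`** : `∃ x₀, (∀ v, x₀ ≠ ϖ • v) ∧ ∀ t : 𝕋, Θ_𝒪 (1 ⊗ t) x₀ = χ₀ t • x₀`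
  (`Θ_𝒪 = s59trbcTheta 𝒪 hS`, helper70);
* **`s59base_exists`** : the same on the generators, in the shapes of the step
  `s59r2f_step_DD` / `s59r2f_prim_DD`:
  `(s59bcTcZ N ℓ hℓ).baseChange 𝒪 x₀ = χ₀ (T_ℓ) • x₀` for all primes `ℓ ∤ N`, `ℓ ∉ S`;
* `s59base_exists_trTc` : the same with helper70's `s59trTc`;
* `s59base_trTc_eq_bcTcZ` : `s59trTc N ℓ hℓ = s59bcTcZ N ℓ hℓ`;
* `s59base_ne_zero` : a primitive vector is nonzero.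

Proof: `s59treig_exists` (helper70) gives a nonzero eigenvector over `K = Frac 𝒪`; clear
denominators and divide by the largest power of `ϖ` (`s59base_abs`, BaseAbs.lean).
-/
import Fermat.Agent.S59.Eta.TransEig
import Fermat.Agent.S59.Eta.BCLin
import Fermat.Agent.S59.Eta.BaseAbs

set_option autoImplicit false
set_option linter.unusedSectionVars false
set_option linter.unusedVariables false
set_option linter.style.haveILetI false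

noncomputable section

namespace Fermat.Agent.S59

open CongruenceSubgroup Matrix ModularCurve ModularCurve.Period Fermat.Agent.S41 TensorProduct
open scoped MatrixGroups

variable {N : ℕ} [NeZero N] {S : Set ℕ}

/-- helper70's and helper36's `T_ℓ` on `Lpar N` are the same map -/
theorem s59base_trTc_eq_bcTcZ (ℓ : ℕ) [Fact ℓ.Prime] (hℓ : ¬ ℓ ∣ N) :
    s59trTc N ℓ hℓ = s59bcTcZ N ℓ hℓ :=
  LinearMap.ext fun y => Subtype.ext rfl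

/-- a primitive vector is nonzero -/
theorem s59base_ne_zero {𝒪 X : Type*} [CommRing 𝒪] [AddCommGroup X] [Module 𝒪 X] {ϖ : 𝒪}
    {x : X} (hx : ∀ v : X, x ≠ ϖ • v) : x ≠ 0 := by
  intro h
  exact hx 0 (by rw [h, smul_zero])

variable {𝒪 : Type*} [CommRing 𝒪] [IsDomain 𝒪] [IsDiscreteValuationRing 𝒪] [CharZero 𝒪]

/-- **E-BASE, all of `𝕋`**: a primitive `χ₀`-eigenvector in `𝒪 ⊗ Lpar N`. -/
theorem s59base_exists_theta (hS : ∀ q : ℕ, q.Prime → q ∣ N → q ∈ S)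
    (χ₀ : ↥(CuspForm.heckeAlgebra N 2 S) →+* 𝒪) {ϖ : 𝒪} (hϖ : Irreducible ϖ) :
    ∃ x₀ : 𝒪 ⊗[ℤ] ↥(Lpar N), (∀ v : 𝒪 ⊗[ℤ] ↥(Lpar N), x₀ ≠ ϖ • v) ∧
      ∀ t : CuspForm.heckeAlgebra N 2 S,
        s59trbcTheta 𝒪 hS ((1 : 𝒪) ⊗ₜ[ℤ] t) x₀ = χ₀ t • x₀ := by
  haveI : CharZero (FractionRing 𝒪) :=
    charZero_of_injective_algebraMap (IsFractionRing.injective 𝒪 (FractionRing 𝒪))
  haveI := s59tr_finite_Lpar N
  haveI := s59tr_free_Lpar N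
  obtain ⟨v, hv0, hv⟩ :=
    s59treig_exists (FractionRing 𝒪) hS ((algebraMap 𝒪 (FractionRing 𝒪)).comp χ₀)
  obtain ⟨x₀, hprim, hx⟩ := s59base_abs (𝒪 := 𝒪) (K := FractionRing 𝒪)
    (fun t : CuspForm.heckeAlgebra N 2 S => (s59trTheta hS t : ↥(Lpar N) →ₗ[ℤ] ↥(Lpar N)))
    (fun t => χ₀ t) hϖ v hv0 (fun t => by
      have h := hv t
      rw [s59trbcTheta_tmul, one_smul] at h
      exact h)
  refine ⟨x₀, hprim, fun t => ?_⟩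
  rw [s59trbcTheta_tmul, one_smul]
  exact hx t

/-- **E-BASE** with helper70's `s59trTc`. -/
theorem s59base_exists_trTc (hS : ∀ q : ℕ, q.Prime → q ∣ N → q ∈ S)
    (χ₀ : ↥(CuspForm.heckeAlgebra N 2 S) →+* 𝒪) {ϖ : 𝒪} (hϖ : Irreducible ϖ) :
    ∃ x₀ : 𝒪 ⊗[ℤ] ↥(Lpar N), (∀ v : 𝒪 ⊗[ℤ] ↥(Lpar N), x₀ ≠ ϖ • v) ∧
      ∀ (ℓ : ℕ) [hℓ : Fact ℓ.Prime] (hℓN : ¬ ℓ ∣ N) (hℓS : ℓ ∉ S),
        (s59trTc N ℓ hℓN).baseChange 𝒪 x₀ =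
          χ₀ (CuspForm.heckeAlgebra.T hℓ.out hℓN hℓS) • x₀ := by
  obtain ⟨x₀, hprim, hx⟩ := s59base_exists_theta hS χ₀ hϖ
  refine ⟨x₀, hprim, fun ℓ hℓ hℓN hℓS => ?_⟩
  rw [← hx, s59trbcTheta_T]

/-- **E-BASE**: a primitive `χ₀`-eigenvector `x₀ ∈ 𝒪 ⊗ Lpar N` for the operators
`(s59bcTcZ N ℓ hℓ).baseChange 𝒪` of the step `s59r2f_step_DD`. -/
theorem s59base_exists (hS : ∀ q : ℕ, q.Prime → q ∣ N → q ∈ S)
    (χ₀ : ↥(CuspForm.heckeAlgebra N 2 S) →+* 𝒪) {ϖ : 𝒪} (hϖ : Irreducible ϖ) :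
    ∃ x₀ : 𝒪 ⊗[ℤ] ↥(Lpar N), (∀ v : 𝒪 ⊗[ℤ] ↥(Lpar N), x₀ ≠ ϖ • v) ∧
      ∀ (ℓ : ℕ) [hℓ : Fact ℓ.Prime] (hℓN : ¬ ℓ ∣ N) (hℓS : ℓ ∉ S),
        (s59bcTcZ N ℓ hℓN).baseChange 𝒪 x₀ =
          χ₀ (CuspForm.heckeAlgebra.T hℓ.out hℓN hℓS) • x₀ := by
  obtain ⟨x₀, hprim, hx⟩ := s59base_exists_trTc hS χ₀ hϖ
  refine ⟨x₀, hprim, fun ℓ hℓ hℓN hℓS => ?_⟩
  rw [← s59base_trTc_eq_bcTcZ]
  exact hx ℓ hℓN hℓS

end Fermat.Agent.S59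

end
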