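/-
S59, wall R2 (ETA′) + wall M5 (ETA-P), piece **E-ASM**, part 6 (helper72): THE BASE and THE
`p`-STEP in the shape of the interface (states `S59asmSt 𝒪`, `Good = s59asmGood p ψ ϖ`,
`J = s59asmEta p ψ`).

* **`s59asmr_base`** (E-BASE, = a5 of NOTES/S59-TOP.md): a character `χ₀` of the Hecke algebra of
  level `N₀` away from `S` (`S` = `p` and the primes of `N₀`) with `χ₀ T_ℓ = ψ ℓ` gives a good state
  of level `N₀` (helper19's `s59base_exists`);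
* `s59asmr_base_Tp` : the same for `S'` = the primes of `N₀` only (`p ∉ S'`): the good state is an
  eigenvector of `T_p` too, with eigenvalue `ψ p` (for the `p`-step);
* `s59asmNextP a p s` : the state `(M p, (p + 1) ξ₀ x − a ξ₁ x)`;
* **`s59asmr_stepP`** (ETA-P) : for a good state `s` of level `M`, `p ∤ M`, `T_p x = a • x`:
  `Good (nextP)` and `J (nextP) ≤ ((p + 1)² − a²) · J s`.  Open input: (1a-P) = `s59asmr_H1aP`.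
-/
import Fermat.Agent.S59.Eta.AsmR2
import Fermat.Agent.S59.Eta.AsmP
import Fermat.Agent.S59.Eta.Base

set_option autoImplicit false
set_option linter.unusedSectionVars false
set_option linter.unusedVariables false
set_option linter.style.haveILetI false
set_option linter.style.longLine false

noncomputable section

namespace Fermat.Agent.S59

open TensorProduct CongruenceSubgroup Fermat.Agent.S41 Fermat.Agent.S41.PD IsLocalRing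

section Base

variable {𝒪 : Type} [CommRing 𝒪] [IsDomain 𝒪] [IsDiscreteValuationRing 𝒪] [CharZero 𝒪]

/-- **E-BASE**: a good state of level `N₀` from a character of the Hecke algebra. -/
theorem s59asmr_base (p : ℕ) (ψ : ℕ → 𝒪) {ϖ : 𝒪} (hϖ : Irreducible ϖ) (N0 : ℕ) [NeZero N0]
    (S : Set ℕ) (hS : ∀ q : ℕ, q.Prime → q ∣ N0 → q ∈ S)
    (hSsub : ∀ ℓ : ℕ, ℓ.Prime → ℓ ∈ S → ℓ = p ∨ ℓ ∣ N0)
    (χ₀ : CuspForm.heckeAlgebra N0 2 S →+* 𝒪)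
    (hχ : ∀ (ℓ : ℕ) (hℓ : ℓ.Prime) (hℓN : ¬ ℓ ∣ N0) (hℓS : ℓ ∉ S),
      χ₀ (CuspForm.heckeAlgebra.T hℓ hℓN hℓS) = ψ ℓ) :
    ∃ s : S59asmSt 𝒪, s.M = N0 ∧ s59asmGood p ψ ϖ s := by
  obtain ⟨x₀, hprim, hx⟩ := s59base_exists hS χ₀ hϖ
  refine ⟨⟨N0, NeZero.ne N0, x₀⟩, rfl, ?_, hprim⟩
  intro ℓ hℓ hℓN hℓp
  have hℓS : ℓ ∉ S := fun h => (hSsub ℓ hℓ.out h).elim hℓp hℓN
  have h1 := hx ℓ hℓN hℓS
  rw [hχ ℓ hℓ.out hℓN hℓS] at h1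
  exact h1

/-- **E-BASE with `T_p`**: if `p ∉ S'` (`S'` = the primes of `N₀`), the good state is an
eigenvector of every `T_r`, `r ∤ N₀` (in particular of `T_p`). -/
theorem s59asmr_base_Tp (p : ℕ) (ψ : ℕ → 𝒪) {ϖ : 𝒪} (hϖ : Irreducible ϖ) (N0 : ℕ) [NeZero N0]
    (S' : Set ℕ) (hS' : ∀ q : ℕ, q.Prime → q ∣ N0 → q ∈ S')
    (hS'sub : ∀ ℓ : ℕ, ℓ.Prime → ℓ ∈ S' → ℓ ∣ N0)
    (χ₀ : CuspForm.heckeAlgebra N0 2 S' →+* 𝒪)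
    (hχ : ∀ (ℓ : ℕ) (hℓ : ℓ.Prime) (hℓN : ¬ ℓ ∣ N0) (hℓS : ℓ ∉ S'),
      χ₀ (CuspForm.heckeAlgebra.T hℓ hℓN hℓS) = ψ ℓ) :
    ∃ x₀ : s59asmL 𝒪 N0, s59asmGood p ψ ϖ ⟨N0, NeZero.ne N0, x₀⟩ ∧
      ∀ (r : ℕ) [Fact r.Prime] (hr : ¬ r ∣ N0), s59asmT 𝒪 N0 r hr x₀ = ψ r • x₀ := by
  obtain ⟨x₀, hprim, hx⟩ := s59base_exists hS' χ₀ hϖ
  have hall : ∀ (r : ℕ) [Fact r.Prime] (hr : ¬ r ∣ N0), s59asmT 𝒪 N0 r hr x₀ = ψ r • x₀ := by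
    intro r hrP hr
    have hrS : r ∉ S' := fun h => hr (hS'sub r hrP.out h)
    have h1 := hx r hr hrS
    rw [hχ r hrP.out hr hrS] at h1
    exact h1
  exact ⟨x₀, ⟨fun ℓ hℓ hℓN _ => hall ℓ hℓN, hprim⟩, hall⟩

end Base

section StepP

variable {𝒪 : Type} [CommRing 𝒪]

/-- the state after the `p`-step: level `M p`, vector `(p + 1) ξ₀ x − a ξ₁ x` -/
def s59asmNextP (a : 𝒪) (p : ℕ) (s : S59asmSt 𝒪) : S59asmSt 𝒪 :=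
  if hp : p = 0 then s else
    { M := s.M * p
      hM := Nat.mul_ne_zero s.hM hp
      x := @s59asmpDep 𝒪 _ s.M p ⟨s.hM⟩ ⟨hp⟩ a s.x }

theorem s59asmNextP_eq (a : 𝒪) (p : ℕ) (hp : p ≠ 0) (s : S59asmSt 𝒪) :
    s59asmNextP a p s =
      { M := s.M * p
        hM := Nat.mul_ne_zero s.hM hp
        x := @s59asmpDep 𝒪 _ s.M p ⟨s.hM⟩ ⟨hp⟩ a s.x } := by
  unfold s59asmNextP
  rw [dif_neg hp]

theorem s59asmNextP_M (a : 𝒪) (p : ℕ) (hp : p ≠ 0) (s : S59asmSt 𝒪) :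
    (s59asmNextP a p s).M = s.M * p := by
  rw [s59asmNextP_eq a p hp s]

/-- **open input (1a-P)**: E-MULT1a at the step `(N, p)` for an eigensystem occurring at level
`N` (`p` the residue characteristic) -/
def s59asmr_H1aP (p : ℕ) [NeZero p] [Fact p.Prime] (ψ : ℕ → 𝒪) : Prop :=
  ∀ (N : ℕ) [NeZero N], ¬ p ∣ N →
    ∀ x : s59asmL 𝒪 N, x ≠ 0 → x ∈ s59asmE 𝒪 N p ψ → s59asmp_M1a 𝒪 N p p ψ

variable [IsDomain 𝒪] [IsDiscreteValuationRing 𝒪] [IsAdicComplete (maximalIdeal 𝒪) 𝒪]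
  [CharZero 𝒪] (p : ℕ) [NeZero p] [Fact p.Prime]

/-- **(ETA-P) the `p`-step in the shape of the interface**: for a good state `s` of level `M`,
`p ∤ M`, with `T_p x = a • x`, the next state is good and `J' ≤ ((p + 1)² − a²) · J`. -/
theorem s59asmr_stepP (hp2 : p ≠ 2) (hp𝒪 : (p : 𝒪) ∈ maximalIdeal 𝒪) (ψ : ℕ → 𝒪) {ϖ : 𝒪}
    (hϖ : Irreducible ϖ)
    (W : WeierstrassCurve ℤ) (hΔ : W.Δ ≠ 0) (hirr : W.ModRepIsIrreducible p) (S₀ : Finset ℕ)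
    (hψW : s59asmr_CongW p ψ W S₀)
    (h1a : s59asmr_H1aP p ψ)
    (s : S59asmSt 𝒪) (hpM : ¬ p ∣ s.M) (a : 𝒪) (hs : s59asmGood p ψ ϖ s)
    (hxa : @s59asmT 𝒪 _ s.M ⟨s.hM⟩ p _ hpM s.x = a • s.x) :
    s59asmGood p ψ ϖ (s59asmNextP a p s) ∧
      s59asmEta p ψ (s59asmNextP a p s) ≤
        Ideal.span {((p : 𝒪) + 1) ^ 2 - a ^ 2} * s59asmEta p ψ s := by
  haveI : NeZero s.M := ⟨s.hM⟩
  have hp0 : p ≠ 0 := NeZero.ne p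
  obtain ⟨ℓ₁, -, h₁, -, h₁M, -, h₁p, -, hu₁, -⟩ :=
    s59asmr_ne p hp2 hp𝒪 ψ W hΔ hirr S₀ hψW (s.M * p) (Nat.mul_ne_zero s.hM hp0)
  haveI : Fact ℓ₁.Prime := ⟨h₁⟩
  have hm1a : s59asmp_M1a 𝒪 s.M p p ψ := h1a s.M hpM s.x hs.ne_zero hs.1
  rw [s59asmNextP_eq a p hp0 s]
  refine ⟨⟨s59asmp_dep_mem 𝒪 s.M p ψ a s.x hs.1, ?_⟩, ?_⟩
  · exact s59asmp_dep_prim' 𝒪 s.M p hpM ψ a hϖ hp𝒪 ℓ₁ h₁M h₁p hu₁ s.x hs.1 hs.2
  · exact s59asmp_step' 𝒪 s.M p hpM hp𝒪 ψ a ℓ₁ h₁M h₁p hu₁ hm1a s.x hxa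

end StepP

end Fermat.Agent.S59

end
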