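import Fermat.Agent.S59.Eta.MuDegBetaW

/-!
# S59 / R2 / μDEG, piece P9 (helper32): the `β`-half from the `α`-half (`q ∤ N` prime)

`β = w_q ∘ α`, so `β_* x = α_* (w_q x)`; the multiplier of `w_q x` is `χ ∘ c`
(`c(γ) = W γ W⁻¹`, `MuDegBetaW.lean`), and `cores (χ ∘ c) = coresD χ` because the transfer is
invariant under conjugation (`incl ∘ c = Inn(γ₁) ∘ conjD`) and `χ ∘ c ∘ c = χ` (`MuUnique`,
`w_q² = 1`).

* `s59mudb_transfer_conj` : the transfer is invariant under conjugation (any group);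
* `s59mudb_cores_eq_coresD` : `ψ' ∘ c = ψ` ⇒ `cores ψ' = coresD ψ`;
* `s59mudb_muRel_swap` : `MuRel x χ` ⇒ `MuRel (w_q x) χ'` with `χ' = χ ∘ c`;
* `s59mudb_push_swap` : `α_* (w_q x) = β_* x` on torsion points;
* **`s59mudb_relBetaAt_of_relAlphaAt`** : `s59mud_RelAlphaAt N q → s59mud_RelBetaAt N q`;
* **`s59mudb_stmtRelBeta`** : `s59mud_StmtRelAlpha → s59mud_StmtRelBeta`.
-/

set_option autoImplicit false
set_option linter.style.haveILetI false
set_option linter.unusedSectionVars false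

noncomputable section

namespace Fermat.Agent.S59

open ModularCurve AlgebraicCurve UpperHalfPlane CongruenceSubgroup Matrix
  Matrix.SpecialLinearGroup ModularCurve.Period
open Fermat.Agent.S23 Fermat.Agent.S24 Fermat.Agent.S28 Fermat.Agent.ES Fermat.Agent.ES.G2
  Fermat.Agent.AL Fermat.Agent.S41 Fermat.Agent.STB Fermat.Agent.UNIP
open scoped MatrixGroups Manifold

attribute [local instance] Subgroup.fintypeQuotientOfFiniteIndex

/-! ## The transfer is invariant under conjugation -/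

section Conj

variable {G : Type*} [Group G] (H₁ H₂ : Subgroup G) (g : G)

/-- the bijection `G ⧸ H₂ ≃ G ⧸ H₁`, `x H₂ ↦ x g⁻¹ H₁`, for `H₁ = g H₂ g⁻¹`. -/
def s59mudbQuotConj (hH : ∀ h, h ∈ H₂ ↔ g * h * g⁻¹ ∈ H₁) : G ⧸ H₂ ≃ G ⧸ H₁ where
  toFun := Quotient.map' (fun x => x * g⁻¹) (by
    intro x y hxy
    rw [QuotientGroup.leftRel_apply] at hxy ⊢
    have h := (hH _).1 hxy
    have e : (x * g⁻¹)⁻¹ * (y * g⁻¹) = g * (x⁻¹ * y) * g⁻¹ := by group
    rw [e]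
    exact h)
  invFun := Quotient.map' (fun x => x * g) (by
    intro x y hxy
    rw [QuotientGroup.leftRel_apply] at hxy ⊢
    rw [hH]
    have e : g * ((x * g)⁻¹ * (y * g)) * g⁻¹ = x⁻¹ * y := by group
    rw [e]
    exact hxy)
  left_inv := by
    intro c
    induction c using Quotient.inductionOn' with
    | h x =>
      rw [Quotient.map'_mk'', Quotient.map'_mk'']
      congr 1
      group
  right_inv := by
    intro c
    induction c using Quotient.inductionOn' with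
    | h x =>
      rw [Quotient.map'_mk'', Quotient.map'_mk'']
      congr 1
      group

theorem s59mudbQuotConj_symm_mk (hH : ∀ h, h ∈ H₂ ↔ g * h * g⁻¹ ∈ H₁) (x : G) :
    (s59mudbQuotConj H₁ H₂ g hH).symm (x : G ⧸ H₁) = ((x * g : G) : G ⧸ H₂) := rfl

theorem s59mudbQuotConj_symm_smul (hH : ∀ h, h ∈ H₂ ↔ g * h * g⁻¹ ∈ H₁) (γ : G) (c : G ⧸ H₁) :
    (s59mudbQuotConj H₁ H₂ g hH).symm (γ • c) = γ • (s59mudbQuotConj H₁ H₂ g hH).symm c := by
  induction c using Quotient.inductionOn' with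
  | h x =>
    show (s59mudbQuotConj H₁ H₂ g hH).symm (((γ * x : G)) : G ⧸ H₁) =
      γ • (s59mudbQuotConj H₁ H₂ g hH).symm ((x : G) : G ⧸ H₁)
    rw [s59mudbQuotConj_symm_mk, s59mudbQuotConj_symm_mk]
    show _ = (((γ * (x * g) : G)) : G ⧸ H₂)
    rw [mul_assoc]

/-- **the transfer is invariant under conjugation**: if `H₁ = g H₂ g⁻¹` and
`φ₂ h = φ₁ (g h g⁻¹)`, then `transfer φ₁ = transfer φ₂`. -/
theorem s59mudb_transfer_conj [H₁.FiniteIndex] [H₂.FiniteIndex] {A : Type*} [CommGroup A]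
    (φ₁ : H₁ →* A) (φ₂ : H₂ →* A) (hH : ∀ h, h ∈ H₂ ↔ g * h * g⁻¹ ∈ H₁)
    (hφ : ∀ (h : G) (hh : h ∈ H₂), φ₂ ⟨h, hh⟩ = φ₁ ⟨g * h * g⁻¹, (hH h).1 hh⟩) :
    MonoidHom.transfer φ₁ = MonoidHom.transfer φ₂ := by
  ext γ
  obtain ⟨rep₂, hrep₂⟩ : ∃ rep : G ⧸ H₂ → G, ∀ c, ((rep c : G) : G ⧸ H₂) = c :=
    ⟨fun c => Quotient.out c, fun c => Quotient.out_eq' c⟩
  set e := s59mudbQuotConj H₁ H₂ g hH with he
  set rep₁ : G ⧸ H₁ → G := fun c => rep₂ (e.symm c) * g⁻¹ with hrep₁def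
  have hrep₁ : ∀ c, ((rep₁ c : G) : G ⧸ H₁) = c := by
    intro c
    have h1 : ((rep₂ (e.symm c) * g⁻¹ : G) : G ⧸ H₁) = e ((rep₂ (e.symm c) : G) : G ⧸ H₂) := rfl
    show ((rep₂ (e.symm c) * g⁻¹ : G) : G ⧸ H₁) = c
    rw [h1, hrep₂, Equiv.apply_symm_apply]
  rw [s59mud_transfer_eq H₁ φ₁ rep₁ hrep₁ γ, s59mud_transfer_eq H₂ φ₂ rep₂ hrep₂ γ]
  refine Fintype.prod_equiv e.symm _ _ (fun c => ?_)
  rw [hφ _ (s59mudKapG H₂ rep₂ hrep₂ γ (e.symm c)).2]
  congr 1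
  apply Subtype.ext
  show (rep₁ c)⁻¹ * (γ * rep₁ (γ⁻¹ • c)) =
    g * ((rep₂ (e.symm c))⁻¹ * (γ * rep₂ (γ⁻¹ • e.symm c))) * g⁻¹
  rw [hrep₁def]
  simp only
  rw [he, s59mudbQuotConj_symm_smul]
  group

end Conj

/-! ## `cores (χ ∘ c⁻¹) = coresD χ` -/

section Cores

variable {q N : ℕ} [NeZero q] [NeZero N] (a₀ b₀ : ℤ) (h : (q : ℤ) * a₀ - (N : ℤ) * b₀ = 1)
  (hq : q.Prime) (hqN : ¬ q ∣ N)

theorem s59mudb_rangeHom_apply {G H : Type*} [Group G] [Group H] {A : Type*} [AddCommGroup A]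
    (f : H →* G) (hf : Function.Injective f) (ψ : Additive H →+ A) (k : H) (hk : f k ∈ f.range) :
    rangeHom A f hf ψ ⟨f k, hk⟩ = Multiplicative.ofAdd (ψ (Additive.ofMul k)) := by
  have e : (MonoidHom.ofInjective hf).symm ⟨f k, hk⟩ = k := by
    rw [MulEquiv.symm_apply_eq]
    exact Subtype.ext (MonoidHom.ofInjective_apply hf (x := k)).symm
  show Multiplicative.ofAdd (ψ (Additive.ofMul ((MonoidHom.ofInjective hf).symm ⟨f k, hk⟩))) = _
  rw [e]

/-- if `ψ' (c γ) = ψ γ` for all `γ ∈ Γ₀(N q)` then `cores ψ' = coresD ψ`. -/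
theorem s59mudb_cores_eq_coresD {A : Type*} [AddCommGroup A] (ψ ψ' : HomG (N * q) A)
    (hψ : ∀ γ : Gamma0 (N * q),
      ψ' (Additive.ofMul (s59mudbC a₀ b₀ h hq hqN γ)) = ψ (Additive.ofMul γ)) :
    cores N q A ψ' = coresD N q A ψ := by
  have key : MonoidHom.transfer (rangeHom A (incl N q) (incl_injective N q) ψ')
      = MonoidHom.transfer (rangeHom A (conjD N q) (conjD_injective N q) ψ) := by
    refine s59mudb_transfer_conj (incl N q).range (conjD N q).range (s59mudbG1 a₀ b₀ h) _ _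
      (s59mudb_conj_mem_iff a₀ b₀ h hq hqN) ?_
    rintro _ ⟨γ, rfl⟩
    rw [s59mudb_rangeHom_apply]
    have e : (⟨s59mudbG1 a₀ b₀ h * conjD N q γ * (s59mudbG1 a₀ b₀ h)⁻¹,
        (s59mudb_conj_mem_iff a₀ b₀ h hq hqN (conjD N q γ)).1 ⟨γ, rfl⟩⟩ : (incl N q).range)
        = ⟨incl N q (s59mudbC a₀ b₀ h hq hqN γ), ⟨_, rfl⟩⟩ :=
      Subtype.ext (s59mudbC_spec a₀ b₀ h hq hqN γ).symm
    rw [e, s59mudb_rangeHom_apply, hψ]
  show transferAlong A (incl N q) (incl_injective N q) ψ'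
    = transferAlong A (conjD N q) (conjD_injective N q) ψ
  unfold transferAlong
  exact congrArg MonoidHom.toAdditiveLeft key

end Cores

/-! ## The multiplier of `w_q x` -/

section Swap

variable {q N : ℕ} [NeZero q] [NeZero N] (a₀ b₀ : ℤ) (h : (q : ℤ) * a₀ - (N : ℤ) * b₀ = 1)
  (hq : q.Prime) (hqN : ¬ q ∣ N)

/-- `w_q` as a semilinear automorphism of `F_{N q}`. -/
def s59mudbW : SemilinearAut Kb (modularFunctionFieldBar (N * q)) :=
  SemilinearAut.ofAlgAut (atkinLehnerBar hq hqN)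

theorem s59mudbW_smul (u : modularFunctionFieldBar (N * q)) :
    s59mudbW hq hqN • u = atkinLehnerBar hq hqN u := rfl

theorem s59mudbW_mul_self : s59mudbW hq hqN * s59mudbW hq hqN = 1 := by
  unfold s59mudbW
  rw [← map_mul, ← map_one (SemilinearAut.ofAlgAut (K := Kb)
    (F := modularFunctionFieldBar (N * q)))]
  congr 1
  exact AlgEquiv.ext fun y => atkinLehnerBar_invol hq hqN y

theorem s59mudbW_smul_smul (x : JZero (N * q)) :
    s59mudbW hq hqN • s59mudbW hq hqN • x = x := by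
  rw [smul_smul, s59mudbW_mul_self, one_smul]

/-- **transport of the multiplier under `w_q`**: the multiplier of `w_q x` is `χ ∘ c`. -/
theorem s59mudb_muRel_swap {n : ℕ} {x : JZero (N * q)} {χ : CharGrp (N * q)}
    (hrel : MuRel (N * q) n x χ) :
    ∃ χ' : CharGrp (N * q), MuRel (N * q) n (s59mudbW hq hqN • x) χ' ∧
      ∀ γ : Gamma0 (N * q),
        χ' (Additive.ofMul γ) = χ (Additive.ofMul (s59mudbC a₀ b₀ h hq hqN γ)) := by
  obtain ⟨u, a, g, R, hK, ⟨ha, hg, hg0, hfr⟩, hroot, hχ⟩ := hrel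
  haveI : NeZero (N * q) := inferInstance
  obtain ⟨a₁, g₁, ⟨ha₁, hg₁, hg₁0, hfr₁⟩, hsw⟩ := s59mud_exists_swapFrac hq hqN a₀ b₀ h u
  have hcr : a * g₁ = a₁ * g := by
    apply laurentOf_injective (ha.isMerInf.mul hg₁.isMerInf) (ha₁.isMerInf.mul hg.isMerInf)
    rw [laurentOf_mul ha.isMerInf hg₁.isMerInf, laurentOf_mul ha₁.isMerInf hg.isMerInf,
      ← hfr, ← hfr₁]
    ring
  have hmda₁ : MDiff a₁ := RC.rc_mdiff_of_isModFun ha₁
  have hmdg₁ : MDiff g₁ := RC.rc_mdiff_of_isModFun hg₁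
  have hmdg : MDiff g := RC.rc_mdiff_of_isModFun hg
  have hroot₁ : (fun τ : ℍ => R.a τ ^ n * g₁ τ) = fun τ : ℍ => a₁ τ * R.g τ ^ n := by
    refine mdiff_eq_of_mul_eq ((R.mdiff_a.pow n).mul hmdg₁) (hmda₁.mul (R.mdiff_g.pow n)) hmdg hg0
      fun τ => ?_
    have h1 := hroot τ
    have h2 : a τ * g₁ τ = a₁ τ * g τ := congrFun hcr τ
    linear_combination g₁ τ * h1 + R.g τ ^ n * h2
  refine ⟨(s59mudbRootW a₀ b₀ h hq hqN R).multAdd,
    ⟨atkinLehnerBar hq hqN u, _, _, s59mudbRootW a₀ b₀ h hq hqN R,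
      KummerRel.smul (s59mudbW hq hqN) hK, hsw,
      fun τ => congrFun hroot₁ (alW q N a₀ b₀ h τ), rfl⟩, fun γ => ?_⟩
  rw [s59mudbRootW_multAdd, hχ]

/-- `χ ∘ c ∘ c = χ` for the multiplier `χ` of a torsion point (`w_q² = 1` and `MuUnique`). -/
theorem s59mudb_mult_C_C {n : ℕ} (hn : 0 < n) {x : JZero (N * q)} {χ : CharGrp (N * q)}
    (hrel : MuRel (N * q) n x χ) (γ : Gamma0 (N * q)) :
    χ (Additive.ofMul (s59mudbC a₀ b₀ h hq hqN (s59mudbC a₀ b₀ h hq hqN γ)))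
      = χ (Additive.ofMul γ) := by
  haveI : NeZero (N * q) := inferInstance
  obtain ⟨χ', hrel', hχ'⟩ := s59mudb_muRel_swap a₀ b₀ h hq hqN hrel
  obtain ⟨χ'', hrel'', hχ''⟩ := s59mudb_muRel_swap a₀ b₀ h hq hqN hrel'
  rw [s59mudbW_smul_smul] at hrel''
  have e : χ'' = χ := (muUnique : MuUnique (N * q)) n n hn hn x _ _ hrel'' hrel
  rw [← hχ', ← hχ'', e]

end Swap

/-! ## `α_* (w_q x) = β_* x` -/

section Push

variable {q N : ℕ} [NeZero q] [NeZero N] (hq : q.Prime) (hqN : ¬ q ∣ N)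

theorem s59mudb_norm_swap (u : modularFunctionFieldBar (N * q)) :
    stbNorm (heckeBetaBar Qb N q).toRingHom u
      = stbNorm (heckeAlphaBar Qb N q).toRingHom (atkinLehnerBar hq hqN u) := by
  have hcomp : ((stbW N q hq hqN : modularFunctionFieldBar (N * q) →+*
      modularFunctionFieldBar (N * q))).comp (heckeAlphaBar Qb N q).toRingHom
        = (heckeBetaBar Qb N q).toRingHom :=
    RingHom.ext fun x => stb_w_alpha N q hq hqN x
  have h1 := stbNorm_equiv_comp (heckeAlphaBar Qb N q).toRingHom (stbW N q hq hqN)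
    (atkinLehnerBar hq hqN u)
  rw [stbNorm_congr hcomp, stbW_apply, atkinLehnerBar_invol] at h1
  exact h1

/-- `α_* (w_q x) = β_* x` for torsion points. -/
theorem s59mudb_push_swap {n : ℕ} (hn : n ≠ 0) {x : JZero (N * q)}
    {u : modularFunctionFieldBar (N * q)} (hK : KummerRel n x u) :
    stbPushAlpha N q (s59mudbW hq hqN • x) = stbPushBeta N q x := by
  have h1 : KummerRel n (stbPushAlpha N q (s59mudbW hq hqN • x))
      (stbNorm (heckeAlphaBar Qb N q).toRingHom (atkinLehnerBar hq hqN u)) :=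
    stb_kummerRel_pushAlpha N q (KummerRel.smul (s59mudbW hq hqN) hK)
  have h2 : KummerRel n (stbPushBeta N q x) (stbNorm (heckeBetaBar Qb N q).toRingHom u) :=
    stb_kummerRel_pushBeta N q hK
  rw [s59mudb_norm_swap hq hqN u] at h2
  exact KummerRel.unique hn h1 h2

end Push

/-! ## The `β`-half -/

section Main

variable (N q : ℕ) [NeZero N] [NeZero q]

/-- **μDEG-`β` from μDEG-`α`** at `(N, q)`, `q ∤ N` prime. -/
theorem s59mudb_relBetaAt_of_relAlphaAt (hq : q.Prime) (hqN : ¬ q ∣ N)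
    (hα : s59mud_RelAlphaAt N q) : s59mud_RelBetaAt N q := by
  intro n hn x χ hrel
  -- Bézout
  obtain ⟨a₀, b₀, h⟩ : ∃ a₀ b₀ : ℤ, (q : ℤ) * a₀ - (N : ℤ) * b₀ = 1 := by
    have hcop : IsCoprime (q : ℤ) (N : ℤ) := by
      rw [Int.isCoprime_iff_gcd_eq_one]
      have : Nat.Coprime q N := (Nat.Prime.coprime_iff_not_dvd hq).mpr hqN
      simpa [Int.gcd] using this
    obtain ⟨a, b, hab⟩ := hcop
    exact ⟨a, -b, by linear_combination hab⟩
  obtain ⟨χ', hrel', hχ'⟩ := s59mudb_muRel_swap a₀ b₀ h hq hqN hrel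
  have h1 := hα n hn _ χ' hrel'
  have hrel0 := hrel
  obtain ⟨u, -, -, -, hK, -⟩ := hrel
  rw [s59mudb_push_swap hq hqN hn.ne' hK] at h1
  have h2 : cores N q (Additive ℂˣ) χ' = coresD N q (Additive ℂˣ) χ := by
    refine s59mudb_cores_eq_coresD a₀ b₀ h hq hqN χ χ' (fun γ => ?_)
    rw [hχ']
    exact s59mudb_mult_C_C a₀ b₀ h hq hqN hn hrel0 γ
  rw [h2] at h1
  exact h1

/-- **μDEG-`β` from the analytic norm (BRIDGE-`α`)** at `(N, q)`, `q ∤ N` prime. -/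
theorem s59mudb_relBetaAt_of_bridge (hq : q.Prime) (hqN : ¬ q ∣ N)
    (hB : s59mud_BridgeAlphaAt N q) : s59mud_RelBetaAt N q :=
  s59mudb_relBetaAt_of_relAlphaAt N q hq hqN (s59mud_relAlphaAt_of_bridge hB)

end Main

/-- **μDEG-`β` from μDEG-`α`** (relational form, all `q ∤ N` prime). -/
theorem s59mudb_stmtRelBeta (hα : s59mud_StmtRelAlpha) : s59mud_StmtRelBeta :=
  fun N q _ _ hq hqN => s59mudb_relBetaAt_of_relAlphaAt N q hq hqN (hα N q hq hqN)

/-- **μDEG-`β` for `muMap`** from μDEG-`α` (relational form). -/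
theorem s59mudb_stmtMuBeta (hα : s59mud_StmtRelAlpha) : s59mud_StmtMuBeta :=
  s59mud_muBeta_of_rel (s59mudb_stmtRelBeta hα)

end Fermat.Agent.S59
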