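import Fermat.Agent.ES.G2.HeckeDegStmt
import Fermat.Agent.STB.PushHecke

/-!
# S59 / R2 / μDEG, piece P1 — the norm `N_α : F_{Nq} → F_N` of a general element (helper84)

`q ∤ N` a prime, `w = w_q` the Atkin–Lehner involution of `F_{Nq}` (`UNIP.atkinLehnerBar`),
`ζ` a primitive `q`-th root of unity.  For every `y ∈ F_{Nq}`

  `N_α y = y · kronNorm q ζ (w y)`,   i.e.  `(N_α y)(t^q) = y(t^q) · ∏_{b<q} (w y)(ζ^b t)`

as `q`-expansions (`s59mud_norm_coe`).  Proof: the `q + 1` embeddings `ES.G2.hnFam` of `F_{Nq}`
over `F_N` are all of them (`ES.G2.hn_norm_eq_prod_of_injective`, degree `ES.G2.stmtHNDeg`);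
this is the proof of `ES.G2.heckeNorm_of_swap_of_finrank` for a general element.
-/

set_option autoImplicit false
set_option linter.style.haveILetI false
set_option linter.unusedSectionVars false

noncomputable section

namespace Fermat.Agent.S59

open ModularCurve AlgebraicCurve Fermat.Agent.ES Fermat.Agent.ES.G2 Fermat.Agent.STB
  Fermat.Agent.UNIP

section Core

variable (N ℓ : ℕ) [NeZero N] [NeZero ℓ]

/-- **the norm of a general element, from the swap and the degree** -/
theorem s59mud_norm_of_swap_of_finrank (hℓ : ℓ.Prime)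
    (w : modularFunctionFieldBar (N * ℓ) →+* modularFunctionFieldBar (N * ℓ))
    (hwα : ∀ x, w (heckeAlphaBar Qb N ℓ x) = heckeBetaBar Qb N ℓ x)
    (hwβ : ∀ x, w (heckeBetaBar Qb N ℓ x) = heckeAlphaBar Qb N ℓ x)
    (hdeg : letI := (heckeAlphaBar Qb N ℓ).toRingHom.toAlgebra
      Module.finrank (modularFunctionFieldBar N) (modularFunctionFieldBar (N * ℓ)) = ℓ + 1)
    (ζ : Qbˣ) (hζ : IsPrimitiveRoot ζ ℓ) (y : modularFunctionFieldBar (N * ℓ)) :
    letI := (heckeAlphaBar Qb N ℓ).toRingHom.toAlgebra
    ((Algebra.norm (modularFunctionFieldBar N) y : modularFunctionFieldBar N) :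
        LaurentSeries Qb) =
      (y : LaurentSeries Qb)
        * kronNorm ℓ ζ ((w y : modularFunctionFieldBar (N * ℓ)) : LaurentSeries Qb) := by
  let algF' : Algebra (modularFunctionFieldBar N) (modularFunctionFieldBar (N * ℓ)) :=
    (heckeAlphaBar Qb N ℓ).toRingHom.toAlgebra
  let algE : Algebra (modularFunctionFieldBar N) HnOmegaBar := (hnBase N ℓ).toAlgebra
  have hfin : FiniteDimensional (modularFunctionFieldBar N) (modularFunctionFieldBar (N * ℓ)) :=
    Module.finite_of_finrank_pos (by rw [hdeg]; omega)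
  have : CharZero (modularFunctionFieldBar N) :=
    charZero_of_injective_algebraMap (algebraMap Qb (modularFunctionFieldBar N)).injective
  have hsep : Algebra.IsSeparable (modularFunctionFieldBar N)
      (modularFunctionFieldBar (N * ℓ)) := inferInstance
  let e : Option (Fin ℓ) → (modularFunctionFieldBar (N * ℓ) →ₐ[modularFunctionFieldBar N]
      HnOmegaBar) := fun i =>
    { hnFam N ℓ w ζ i with
      commutes' := fun x => hnFam_alpha N ℓ w hwα ζ hζ.pow_eq_one i x }
  have he : Function.Injective e := by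
    intro i i' h
    apply hnFam_injective N ℓ hℓ w hwβ ζ hζ
    have := congrArg (fun g : modularFunctionFieldBar (N * ℓ) →ₐ[modularFunctionFieldBar N]
      HnOmegaBar => (g : modularFunctionFieldBar (N * ℓ) →+* HnOmegaBar)) h
    exact this
  have hcard : Fintype.card (Option (Fin ℓ))
      = Module.finrank (modularFunctionFieldBar N) (modularFunctionFieldBar (N * ℓ)) := by
    rw [hdeg, Fintype.card_option, Fintype.card_fin]
  have key := hn_norm_eq_prod_of_injective e he hcard y
  rw [Fintype.prod_option] at key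
  have h1 : e none y = algebraMap HnOmega HnOmegaBar (qExpand Qb ℓ (y : LaurentSeries Qb)) :=
    hnInf_apply N ℓ y
  have h2 : ∀ b : Fin ℓ, e (some b) y
      = algebraMap HnOmega HnOmegaBar
          (kronRot (ζ ^ (b : ℕ)) ((w y : modularFunctionFieldBar (N * ℓ)) : LaurentSeries Qb)) :=
    fun b => hnRot_apply N ℓ w _ y
  have h3 : algebraMap (modularFunctionFieldBar N) HnOmegaBar
      (Algebra.norm (modularFunctionFieldBar N) y)
      = algebraMap HnOmega HnOmegaBar (qExpand Qb ℓ
          ((Algebra.norm (modularFunctionFieldBar N) y : modularFunctionFieldBar N) :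
            LaurentSeries Qb)) := rfl
  rw [h3, h1] at key
  simp only [h2] at key
  rw [← map_prod, ← map_mul,
    Fin.prod_univ_eq_prod_range
      (fun b => kronRot (ζ ^ b) ((w y : modularFunctionFieldBar (N * ℓ)) : LaurentSeries Qb)) ℓ,
    ← qExpand_kronNorm_field ζ hζ, ← map_mul] at key
  exact qExpand_injective ℓ (hn_algebraMap_injective key)

end Core

section Main

variable (N q : ℕ) [NeZero N] [NeZero q]

/-- **P1: the `q`-expansion of the norm along `α`**: `N_α y = y · kronNorm q ζ (w_q y)`. -/
theorem s59mud_norm_coe (hq : q.Prime) (hqN : ¬ q ∣ N) (ζ : Qbˣ) (hζ : IsPrimitiveRoot ζ q)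
    (y : modularFunctionFieldBar (N * q)) :
    ((stbNorm (heckeAlphaBar Qb N q).toRingHom y : modularFunctionFieldBar N) : LaurentSeries Qb)
      = (y : LaurentSeries Qb)
        * kronNorm q ζ
            ((atkinLehnerBar hq hqN y : modularFunctionFieldBar (N * q)) : LaurentSeries Qb) :=
  s59mud_norm_of_swap_of_finrank N q hq
    ((stbW N q hq hqN : modularFunctionFieldBar (N * q) →+* modularFunctionFieldBar (N * q)))
    (fun x => stb_w_alpha N q hq hqN x) (fun x => stb_w_beta N q hq hqN x)
    (stmtHNDeg N q hq hqN) ζ hζ y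

end Main

end Fermat.Agent.S59
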