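import Fermat.Agent.S34.ALMain
import Fermat.Agent.UNIP.Cheap
import Fermat.Agent.ES.RC.FracField
import Fermat.Agent.ES.Mu
import Fermat.Agent.ES.IotaC

/-!
# S59 / R2 / μDEG, piece P2′ — analytic fractions compatible with the Atkin–Lehner swap (helper84)

`q ∤ N` a prime, `w = w_q` the Atkin–Lehner involution of `F_{Nq}` (`AL.atkinLehner`,
`UNIP.atkinLehnerBar`), `W τ = γ₁ • (q τ)` the analytic substitution (`AL.alW q N a₀ b₀ h`,
`q a₀ - N b₀ = 1`).

* `s59mudGood y` : `y ∈ F_{Nq}` has an analytic fraction `y = a / g` (modular functions of level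
  `N q`) such that `a ∘ W`, `g ∘ W` are again modular functions of level `N q` and
  `w y = (a ∘ W) / (g ∘ W)`;
* `s59mud_good_all` : every `y` is good (induction on the generators `j(Q^e)`, `e ∣ N q`);
* **`s59mud_exists_swapFrac`** : for every `u : modularFunctionFieldBar (N * q)` there are `a`, `g`
  with `IsAnFrac (N q) u a g` and `IsAnFrac (N q) (w_q u) (a ∘ W) (g ∘ W)`.
-/

set_option autoImplicit false
set_option linter.style.haveILetI false
set_option linter.unusedSectionVars false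

noncomputable section

namespace Fermat.Agent.S59

open ModularCurve UpperHalfPlane
open Fermat.Agent.S23 Fermat.Agent.S24 Fermat.Agent.S28 Fermat.Agent.ES Fermat.Agent.ES.G2
  Fermat.Agent.ES.RC Fermat.Agent.AL Fermat.Agent.UNIP
open scoped MatrixGroups Manifold

section Swap

variable {q N : ℕ} [NeZero q] [NeZero N] (hq : q.Prime) (hqN : ¬ q ∣ N)
  (a₀ b₀ : ℤ) (h : (q : ℤ) * a₀ - (N : ℤ) * b₀ = 1)

omit [NeZero q] in
theorem s59mud_isModFun_alFun (e : ℕ) : IsModFun (N * q) (alFun (N * q) e) := by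
  by_cases h0 : e = 0
  · subst h0; rw [alFun_zero]; exact rc_isModFun_zero _
  · haveI : NeZero e := ⟨h0⟩
    by_cases he : e ∣ N * q
    · rw [alFun_of_dvd he]; exact rc_isModFun_Jfun_scaleN he
    · rw [alFun_of_not_dvd he]; exact rc_isModFun_zero _

theorem s59mud_laurentOf_alFun (e : ℕ) : laurentOf (alFun (N * q) e) = alGen ℂ (N * q) e := by
  have := laurentExp_alFunM (N * q) e
  rw [laurentExp_apply] at this
  exact this

/-- `y = a / g` and `w y = (a ∘ W) / (g ∘ W)` with modular functions of level `N q` -/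
def s59mudGood (y : modularFunctionFieldFullC Qb (N * q)) : Prop :=
  ∃ a g : ℍ → ℂ, IsModFun (N * q) a ∧ IsModFun (N * q) g ∧ laurentOf g ≠ 0 ∧
    coeffMap embC (y : LaurentSeries Qb) * laurentOf g = laurentOf a ∧
    IsModFun (N * q) (fun τ => a (alW q N a₀ b₀ h τ)) ∧
    IsModFun (N * q) (fun τ => g (alW q N a₀ b₀ h τ)) ∧
    laurentOf (fun τ => g (alW q N a₀ b₀ h τ)) ≠ 0 ∧
    coeffMap embC ((atkinLehner Qb cheapIota hq hqN y : modularFunctionFieldFullC Qb (N * q)) :
        LaurentSeries Qb) * laurentOf (fun τ => g (alW q N a₀ b₀ h τ))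
      = laurentOf (fun τ => a (alW q N a₀ b₀ h τ))

theorem s59mudGood_gen (e : ℕ) :
    s59mudGood hq hqN a₀ b₀ h ⟨alGen Qb (N * q) e, alGen_mem Qb e⟩ := by
  have hW : (fun τ => alFun (N * q) e (alW q N a₀ b₀ h τ))
      = alFun (N * q) (alSwap q (N * q) e) := by
    funext τ
    exact alFun_alW hq hqN a₀ b₀ h e τ
  refine ⟨alFun (N * q) e, 1, s59mud_isModFun_alFun e, rc_isModFun_one _, ?_, ?_, ?_,
    rc_isModFun_one _, ?_, ?_⟩
  · rw [laurentOf_one]; exact one_ne_zero
  · rw [laurentOf_one, mul_one, s59mud_laurentOf_alFun]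
    exact coeffMap_alGen embC (N * q) e
  · rw [hW]; exact s59mud_isModFun_alFun _
  · show laurentOf (1 : ℍ → ℂ) ≠ 0
    rw [laurentOf_one]; exact one_ne_zero
  · show _ * laurentOf (1 : ℍ → ℂ) = _
    rw [laurentOf_one, mul_one, hW, s59mud_laurentOf_alFun, atkinLehner_gen]
    exact coeffMap_alGen embC (N * q) _

theorem s59mudGood_const (c : Qb) :
    s59mudGood hq hqN a₀ b₀ h (algebraMap Qb (modularFunctionFieldFullC Qb (N * q)) c) := by
  refine ⟨fun _ => embC c, 1, isModFun_const _ _, rc_isModFun_one _, ?_, ?_,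
    isModFun_const _ _, rc_isModFun_one _, ?_, ?_⟩
  · rw [laurentOf_one]; exact one_ne_zero
  · rw [laurentOf_one, mul_one, laurentOf_const]
    show coeffMap embC (algebraMap Qb (LaurentSeries Qb) c) = _
    rw [iotaC_coeffMap_algebraMap, Deriv.algebraMap_eq_C]
  · show laurentOf (1 : ℍ → ℂ) ≠ 0
    rw [laurentOf_one]; exact one_ne_zero
  · show _ * laurentOf (1 : ℍ → ℂ) = laurentOf (fun _ => embC c)
    rw [laurentOf_one, mul_one, laurentOf_const, AlgEquiv.commutes]
    show coeffMap embC (algebraMap Qb (LaurentSeries Qb) c) = _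
    rw [iotaC_coeffMap_algebraMap, Deriv.algebraMap_eq_C]

theorem s59mudGood_add {x y : modularFunctionFieldFullC Qb (N * q)}
    (hx : s59mudGood hq hqN a₀ b₀ h x) (hy : s59mudGood hq hqN a₀ b₀ h y) :
    s59mudGood hq hqN a₀ b₀ h (x + y) := by
  obtain ⟨a1, b1, ha1, hb1, hb1', h1, ha1W, hb1W, hb1W', h1W⟩ := hx
  obtain ⟨a2, b2, ha2, hb2, hb2', h2, ha2W, hb2W, hb2W', h2W⟩ := hy
  refine ⟨a1 * b2 + a2 * b1, b1 * b2, (ha1.mul hb2).add (ha2.mul hb1), hb1.mul hb2, ?_, ?_,
    (ha1W.mul hb2W).add (ha2W.mul hb1W), hb1W.mul hb2W, ?_, ?_⟩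
  · rw [laurentOf_mul hb1.isMerInf hb2.isMerInf]; exact mul_ne_zero hb1' hb2'
  · rw [laurentOf_mul hb1.isMerInf hb2.isMerInf,
      laurentOf_add (ha1.mul hb2).isMerInf (ha2.mul hb1).isMerInf,
      laurentOf_mul ha1.isMerInf hb2.isMerInf, laurentOf_mul ha2.isMerInf hb1.isMerInf,
      ← h1, ← h2]
    show coeffMap embC ((x : LaurentSeries Qb) + (y : LaurentSeries Qb)) * _ = _
    rw [map_add]
    ring
  · show laurentOf ((fun τ => b1 (alW q N a₀ b₀ h τ)) * (fun τ => b2 (alW q N a₀ b₀ h τ))) ≠ 0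
    rw [laurentOf_mul hb1W.isMerInf hb2W.isMerInf]; exact mul_ne_zero hb1W' hb2W'
  · show _ * laurentOf ((fun τ => b1 (alW q N a₀ b₀ h τ)) * (fun τ => b2 (alW q N a₀ b₀ h τ)))
      = laurentOf ((fun τ => a1 (alW q N a₀ b₀ h τ)) * (fun τ => b2 (alW q N a₀ b₀ h τ))
        + (fun τ => a2 (alW q N a₀ b₀ h τ)) * (fun τ => b1 (alW q N a₀ b₀ h τ)))
    rw [laurentOf_mul hb1W.isMerInf hb2W.isMerInf,
      laurentOf_add (ha1W.mul hb2W).isMerInf (ha2W.mul hb1W).isMerInf,
      laurentOf_mul ha1W.isMerInf hb2W.isMerInf, laurentOf_mul ha2W.isMerInf hb1W.isMerInf,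
      ← h1W, ← h2W, map_add]
    show coeffMap embC
        (((atkinLehner Qb cheapIota hq hqN x : modularFunctionFieldFullC Qb (N * q)) :
            LaurentSeries Qb)
          + ((atkinLehner Qb cheapIota hq hqN y : modularFunctionFieldFullC Qb (N * q)) :
            LaurentSeries Qb)) * _ = _
    rw [map_add]
    ring

theorem s59mudGood_mul {x y : modularFunctionFieldFullC Qb (N * q)}
    (hx : s59mudGood hq hqN a₀ b₀ h x) (hy : s59mudGood hq hqN a₀ b₀ h y) :
    s59mudGood hq hqN a₀ b₀ h (x * y) := by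
  obtain ⟨a1, b1, ha1, hb1, hb1', h1, ha1W, hb1W, hb1W', h1W⟩ := hx
  obtain ⟨a2, b2, ha2, hb2, hb2', h2, ha2W, hb2W, hb2W', h2W⟩ := hy
  refine ⟨a1 * a2, b1 * b2, ha1.mul ha2, hb1.mul hb2, ?_, ?_,
    ha1W.mul ha2W, hb1W.mul hb2W, ?_, ?_⟩
  · rw [laurentOf_mul hb1.isMerInf hb2.isMerInf]; exact mul_ne_zero hb1' hb2'
  · rw [laurentOf_mul hb1.isMerInf hb2.isMerInf, laurentOf_mul ha1.isMerInf ha2.isMerInf,
      ← h1, ← h2]
    show coeffMap embC ((x : LaurentSeries Qb) * (y : LaurentSeries Qb)) * _ = _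
    rw [map_mul]
    ring
  · show laurentOf ((fun τ => b1 (alW q N a₀ b₀ h τ)) * (fun τ => b2 (alW q N a₀ b₀ h τ))) ≠ 0
    rw [laurentOf_mul hb1W.isMerInf hb2W.isMerInf]; exact mul_ne_zero hb1W' hb2W'
  · show _ * laurentOf ((fun τ => b1 (alW q N a₀ b₀ h τ)) * (fun τ => b2 (alW q N a₀ b₀ h τ)))
      = laurentOf ((fun τ => a1 (alW q N a₀ b₀ h τ)) * (fun τ => a2 (alW q N a₀ b₀ h τ)))
    rw [laurentOf_mul hb1W.isMerInf hb2W.isMerInf, laurentOf_mul ha1W.isMerInf ha2W.isMerInf,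
      ← h1W, ← h2W, map_mul]
    show coeffMap embC
        (((atkinLehner Qb cheapIota hq hqN x : modularFunctionFieldFullC Qb (N * q)) :
            LaurentSeries Qb)
          * ((atkinLehner Qb cheapIota hq hqN y : modularFunctionFieldFullC Qb (N * q)) :
            LaurentSeries Qb)) * _ = _
    rw [map_mul]
    ring

theorem s59mudGood_zero : s59mudGood hq hqN a₀ b₀ h 0 := by
  have := s59mudGood_const hq hqN a₀ b₀ h 0
  rwa [map_zero] at this

theorem s59mudGood_inv {x : modularFunctionFieldFullC Qb (N * q)}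
    (hx : s59mudGood hq hqN a₀ b₀ h x) : s59mudGood hq hqN a₀ b₀ h x⁻¹ := by
  by_cases hx0 : x = 0
  · subst hx0
    rw [inv_zero]
    exact s59mudGood_zero hq hqN a₀ b₀ h
  obtain ⟨a, g, ha, hg, hg', h1, haW, hgW, hgW', h1W⟩ := hx
  have hinj : Function.Injective (coeffMap (embC : Qb →+* ℂ)) :=
    (coeffMap (embC : Qb →+* ℂ)).injective
  have hxc : coeffMap embC (x : LaurentSeries Qb) ≠ 0 := by
    intro h0
    apply hx0
    apply Subtype.ext
    exact hinj (h0.trans (map_zero (coeffMap (embC : Qb →+* ℂ))).symm)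
  have hwx0 : atkinLehner Qb cheapIota hq hqN x ≠ 0 := by
    intro h0
    exact hx0 ((atkinLehner Qb cheapIota hq hqN).injective (by rw [h0, map_zero]))
  have hwxc : coeffMap embC
      ((atkinLehner Qb cheapIota hq hqN x : modularFunctionFieldFullC Qb (N * q)) :
        LaurentSeries Qb) ≠ 0 := by
    intro h0
    apply hwx0
    apply Subtype.ext
    exact hinj (h0.trans (map_zero (coeffMap (embC : Qb →+* ℂ))).symm)
  have ha' : laurentOf a ≠ 0 := by
    rw [← h1]; exact mul_ne_zero hxc hg'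
  have haW' : laurentOf (fun τ => a (alW q N a₀ b₀ h τ)) ≠ 0 := by
    rw [← h1W]; exact mul_ne_zero hwxc hgW'
  refine ⟨g, a, hg, ha, ha', ?_, hgW, haW, haW', ?_⟩
  · show coeffMap embC ((x : LaurentSeries Qb)⁻¹) * _ = _
    rw [map_inv₀, ← h1]
    field_simp
  · rw [map_inv₀]
    show coeffMap embC
        (((atkinLehner Qb cheapIota hq hqN x : modularFunctionFieldFullC Qb (N * q)) :
          LaurentSeries Qb)⁻¹) * _ = _
    rw [map_inv₀, ← h1W]
    field_simp

/-- **every element of `F_{Nq}` is good** -/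
theorem s59mud_good_all (y : modularFunctionFieldFullC Qb (N * q)) :
    s59mudGood hq hqN a₀ b₀ h y := by
  have hmem : ∀ z, z ∈ IntermediateField.adjoin Qb (Set.range (alGen Qb (N * q))) →
      z ∈ modularFunctionFieldFullC Qb (N * q) := by
    intro z hz
    rw [← adjoin_range_alGen]
    exact hz
  have key : ∀ z (hz : z ∈ IntermediateField.adjoin Qb (Set.range (alGen Qb (N * q)))),
      s59mudGood hq hqN a₀ b₀ h ⟨z, hmem z hz⟩ := by
    intro z hz
    induction hz using IntermediateField.adjoin_induction with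
    | mem z hz =>
      obtain ⟨e, rfl⟩ := hz
      exact s59mudGood_gen hq hqN a₀ b₀ h e
    | algebraMap c =>
      have e : (⟨algebraMap Qb (LaurentSeries Qb) c, hmem _ (IntermediateField.algebraMap_mem _ c)⟩ :
          modularFunctionFieldFullC Qb (N * q))
          = algebraMap Qb (modularFunctionFieldFullC Qb (N * q)) c := Subtype.ext rfl
      rw [e]
      exact s59mudGood_const hq hqN a₀ b₀ h c
    | add x y hx hy ihx ihy =>
      have e : (⟨x + y, hmem _ (add_mem hx hy)⟩ : modularFunctionFieldFullC Qb (N * q))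
          = (⟨x, hmem x hx⟩ : modularFunctionFieldFullC Qb (N * q)) + ⟨y, hmem y hy⟩ :=
        Subtype.ext rfl
      rw [e]
      exact s59mudGood_add hq hqN a₀ b₀ h ihx ihy
    | inv x hx ih =>
      have e : (⟨x⁻¹, hmem _ (inv_mem hx)⟩ : modularFunctionFieldFullC Qb (N * q))
          = (⟨x, hmem x hx⟩ : modularFunctionFieldFullC Qb (N * q))⁻¹ :=
        Subtype.ext rfl
      rw [e]
      exact s59mudGood_inv hq hqN a₀ b₀ h ih
    | mul x y hx hy ihx ihy =>
      have e : (⟨x * y, hmem _ (mul_mem hx hy)⟩ : modularFunctionFieldFullC Qb (N * q))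
          = (⟨x, hmem x hx⟩ : modularFunctionFieldFullC Qb (N * q)) * ⟨y, hmem y hy⟩ :=
        Subtype.ext rfl
      rw [e]
      exact s59mudGood_mul hq hqN a₀ b₀ h ihx ihy
  obtain ⟨y, hy⟩ := y
  have hy' : y ∈ IntermediateField.adjoin Qb (Set.range (alGen Qb (N * q))) := by
    rw [adjoin_range_alGen]
    exact hy
  exact key y hy'

/-- **P2′: analytic fractions compatible with the swap.** -/
theorem s59mud_exists_swapFrac (u : modularFunctionFieldBar (N * q)) :
    ∃ a g : ℍ → ℂ, IsAnFrac (N * q) u a g ∧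
      IsAnFrac (N * q) (atkinLehnerBar hq hqN u) (fun τ => a (alW q N a₀ b₀ h τ))
        (fun τ => g (alW q N a₀ b₀ h τ)) := by
  obtain ⟨a, g, ha, hg, hg', h1, haW, hgW, hgW', h1W⟩ :=
    s59mud_good_all hq hqN a₀ b₀ h ⟨(u : LaurentSeries Qb), cheap_mem_fullC u.2⟩
  refine ⟨a, g, ⟨ha, hg, ?_, h1⟩, ⟨haW, hgW, ?_, ?_⟩⟩
  · rintro rfl
    exact hg' laurentOf_zero
  · intro h0
    apply hgW'
    rw [h0]
    exact laurentOf_zero
  · rw [atkinLehnerBar_coe]
    exact h1W

end Swap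

end Fermat.Agent.S59
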