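import Fermat.Agent.S59.Eta.MuDegAt
import Fermat.Agent.S59.Eta.MuDegNorm
import Fermat.Agent.S59.Eta.MuDegSwap
import Fermat.Agent.S59.Eta.MuDegCoset
import Fermat.Agent.ES.RootModFun
import Fermat.Agent.ES.G2.Frob

/-!
# S59 / R2 / μDEG — the analytic norm (BRIDGE) and μDEG-`α` for a prime `q ∤ N` (helper84)

* **`s59mud_bridgeAlphaAt`** : `s59mud_BridgeAlphaAt N q` for a prime `q ∤ N`: every
  `u ∈ F_{Nq}` has an analytic fraction `u = a / g` with
  `N_α u = (∏_c a ∘ (rep c)⁻¹) / (∏_c g ∘ (rep c)⁻¹)` as `q`-expansions.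
  Proof: `N_α u = u · kronNorm q ζ (w_q u)` (P1, `s59mud_norm_coe`), `w_q u = (a ∘ W) / (g ∘ W)`
  (P2′, `s59mud_exists_swapFrac`), `∏_c f ∘ (rep c)⁻¹ = f · ∏_{b<q} (f ∘ W)((τ + b)/q)`
  (P4, `s59mudProd_eq`) and `RC.rc_laurentOf_normFun`.
* **`s59mud_stmtRelAlpha : s59mud_StmtRelAlpha`**, **`s59mud_stmtMuAlpha : s59mud_StmtMuAlpha`** :
  μDEG-`α`, UNCONDITIONAL: for a prime `q ∤ N` and every torsion point `x` of `J₀(N q)`
  `μ_N (α_* x) = cores (μ_{Nq} x)`.
-/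

set_option autoImplicit false
set_option linter.style.haveILetI false
set_option linter.unusedSectionVars false

noncomputable section

namespace Fermat.Agent.S59

open ModularCurve AlgebraicCurve CongruenceSubgroup ModularCurve.Period UpperHalfPlane
open Fermat.Agent.S24 Fermat.Agent.S28 Fermat.Agent.ES Fermat.Agent.ES.G2 Fermat.Agent.ES.RC
  Fermat.Agent.S41 Fermat.Agent.STB Fermat.Agent.AL Fermat.Agent.UNIP
open scoped MatrixGroups Manifold

/-- Bézout: `q a₀ - N b₀ = 1` for coprime `q`, `N` -/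
theorem s59mud_exists_bezout {q N : ℕ} (hq : q.Prime) (hqN : ¬ q ∣ N) :
    ∃ a₀ b₀ : ℤ, (q : ℤ) * a₀ - (N : ℤ) * b₀ = 1 := by
  have hcop : Nat.Coprime q N := (Nat.Prime.coprime_iff_not_dvd hq).mpr hqN
  have h1 : IsCoprime (q : ℤ) (N : ℤ) := Nat.isCoprime_iff_coprime.mpr hcop
  obtain ⟨u, v, huv⟩ := h1
  exact ⟨u, -v, by linear_combination huv⟩

section Bridge

variable {N q : ℕ} [NeZero N] [NeZero q]

/-- **BRIDGE-`α` for a prime `q ∤ N`.** -/
theorem s59mud_bridgeAlphaAt (hq : q.Prime) (hqN : ¬ q ∣ N) : s59mud_BridgeAlphaAt N q := by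
  intro rep hrep u
  haveI : NeZero (N * q) := inferInstance
  obtain ⟨a₀, b₀, h⟩ := s59mud_exists_bezout hq hqN
  obtain ⟨a, g, hfr, hfrW⟩ := s59mud_exists_swapFrac hq hqN a₀ b₀ h u
  obtain ⟨ha, hg, hg0, hq1⟩ := hfr
  obtain ⟨haW, hgW, hgW0, hq1W⟩ := hfrW
  refine ⟨a, g, ⟨ha, hg, hg0, hq1⟩, ?_⟩
  -- the coset products
  have hPa : s59mudProd N q rep a = a * rcNormFun q (fun z => a (alW q N a₀ b₀ h z)) := by
    funext τ
    exact s59mudProd_eq a₀ b₀ h hq hqN rep hrep (fun γ hγ z => isModFun_comp_smul ha hγ z) τ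
  have hPg : s59mudProd N q rep g = g * rcNormFun q (fun z => g (alW q N a₀ b₀ h z)) := by
    funext τ
    exact s59mudProd_eq a₀ b₀ h hq hqN rep hrep (fun γ hγ z => isModFun_comp_smul hg hγ z) τ
  have hMaW := rc_isMerInf_normFun q haW.isMerInf
  have hMgW := rc_isMerInf_normFun q hgW.isMerInf
  have hMa : IsMerInf (s59mudProd N q rep a) := by rw [hPa]; exact ha.isMerInf.mul hMaW
  have hMg : IsMerInf (s59mudProd N q rep g) := by rw [hPg]; exact hg.isMerInf.mul hMgW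
  refine ⟨hMa, hMg, ?_⟩
  -- the roots of unity
  obtain ⟨ζ, hζ⟩ := frob_exists_primitiveRoot q hq.ne_zero
  obtain ⟨ζC, hζCdef⟩ : ∃ ζC : ℂˣ, ζC = Units.map ((embC : Qb →+* ℂ) : Qb →* ℂ) ζ := ⟨_, rfl⟩
  have hζC : IsPrimitiveRoot ζC q := by
    rw [hζCdef]
    exact hζ.map_of_injective (Units.map_injective (f := ((embC : Qb →+* ℂ) : Qb →* ℂ))
      embC.injective)
  -- the formal norm
  have hN : coeffMap embC
      ((stbNorm (heckeAlphaBar Qb N q).toRingHom u : modularFunctionFieldBar N) : LaurentSeries Qb)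
      = coeffMap embC (u : LaurentSeries Qb)
        * kronNorm q ζC (coeffMap embC
            ((atkinLehnerBar hq hqN u : modularFunctionFieldBar (N * q)) : LaurentSeries Qb)) := by
    rw [s59mud_norm_coe N q hq hqN ζ hζ u, map_mul, coeffMap_kronNorm, hζCdef]
  -- the analytic norms
  have hLa : laurentOf (s59mudProd N q rep a)
      = laurentOf a * kronNorm q ζC (laurentOf (fun z => a (alW q N a₀ b₀ h z))) := by
    rw [hPa, laurentOf_mul ha.isMerInf hMaW, rc_laurentOf_normFun q haW.isMerInf,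
      kronNorm_eq_of_isPrimitiveRoot q ζC (rcRoot 1 (q : ℤ)) hζC (rc_isPrimitiveRoot_root q)]
  have hLg : laurentOf (s59mudProd N q rep g)
      = laurentOf g * kronNorm q ζC (laurentOf (fun z => g (alW q N a₀ b₀ h z))) := by
    rw [hPg, laurentOf_mul hg.isMerInf hMgW, rc_laurentOf_normFun q hgW.isMerInf,
      kronNorm_eq_of_isPrimitiveRoot q ζC (rcRoot 1 (q : ℤ)) hζC (rc_isPrimitiveRoot_root q)]
  rw [hN, hLa, hLg, ← hq1, ← hq1W, kronNorm_mul q ζC hζC]
  ring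

end Bridge

/-- **BRIDGE-`α`**, the statement of `MuDegAlpha.lean`. -/
theorem s59mud_stmtBridgeAlpha : s59mud_StmtBridgeAlpha :=
  fun _ _ _ _ hq hqN => s59mud_bridgeAlphaAt hq hqN

/-- **μDEG-`α`, relational form, unconditional.** -/
theorem s59mud_stmtRelAlpha : s59mud_StmtRelAlpha :=
  s59mud_relAlpha_of_bridge s59mud_stmtBridgeAlpha

/-- **μDEG-`α` for `ES.muMap`, unconditional**: for a prime `q ∤ N` and every torsion point `x`
of `J₀(N q)`, `μ_N (α_* x) = cores (μ_{Nq} x)`. -/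
theorem s59mud_stmtMuAlpha : s59mud_StmtMuAlpha :=
  s59mud_muAlpha_of_rel s59mud_stmtRelAlpha

/-- μDEG-`α` at `(N, q)`, `q ∤ N` prime, per level -/
theorem s59mud_relAlphaAt {N q : ℕ} [NeZero N] [NeZero q] (hq : q.Prime) (hqN : ¬ q ∣ N) :
    s59mud_RelAlphaAt N q :=
  s59mud_relAlphaAt_of_bridge (s59mud_bridgeAlphaAt hq hqN)

end Fermat.Agent.S59
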