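import Fermat.Agent.S59.Eta.Mult1aConc
import Fermat.Agent.S59.Eta.MuDegBridge
import Fermat.Agent.S59.Eta.MuDegBeta
import Fermat.Agent.S59.Eta.AsmRat
import Fermat.Agent.STB.KillsJ
import Fermat.Agent.STB.MGInputsFinal
import Fermat.Agent.S35.FinalInputs
import Fermat.Agent.INJ.InjAll
import Fermat.Agent.Cheb.Final

/-!
# S59, R2 (ETA′), piece E-MULT1a — UNCONDITIONAL (helper71)

All the inputs of `s59m1a_lat` are discharged:
* Chebotarev (`Cheb.weakChebotarev_holds`), the Eichler–Shimura package on `PDiv` at the levels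
  `N` and `N q` (`MultData.esDataInf`, INJ), `STB.StmtNewFrobJ` (STB-J, Kummer form);
* the multiplier contracts for the explicit multiplier `ES.muMap` (`STB.stb_p2_unifData`);
* **μDEG** (`s59mud_stmtMuAlpha`, helper84; `s59mudb_stmtMuBeta`, helper32).

RESULTS
* `s59m1a_hdeg`        : the hypothesis `hdeg` of `s59m1a_lat` for `μ' = muMap (N q)`;
* `s59m1a_stmtLat`     : the lattice statement `s59m1a_StmtLat N q p hq hqN hqp S`;
* `s59m1a_stmtMult1a`  : helper8's Prop `s59m1r_StmtMult1a` for every family of good primes which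
  contains the primes outside a finite set, for an eigensystem occurring at level `N`;
* **`s59m1a_asm`**     : `s59asm_M1a 𝒪 N q p ψ` (input `h1a` of `s59asm_hrat` / `s59asm_step'`,
  `S59/Eta/AsmRat.lean`) from ONE nonzero `x ∈ s59asmE 𝒪 N p ψ`;
* `s59m1a_asm1a`       : the same in helper8's shape `s59m1r_asm1a` (`Mult1bAsm.lean`) is
  definitionally the same Prop (not restated here).
-/

set_option autoImplicit false
set_option linter.style.haveILetI false
set_option linter.unusedSectionVars false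
set_option linter.unusedVariables false

noncomputable section

namespace Fermat.Agent.S59

open ModularCurve CongruenceSubgroup ModularCurve.Period Fermat.Agent.ES Fermat.Agent.S31
  Fermat.Agent.S30 Fermat.Agent.STB Fermat.Agent.S35 Fermat.Agent.S41 Polynomial IsLocalRing
  TensorProduct
open scoped MatrixGroups

attribute [local instance] pDivModule pDivGalois

section Lat

variable (N q p : ℕ) [NeZero N] [NeZero q] [Fact p.Prime]

/-- **(μDEG ⇒ `hdeg`)** a `p`-power torsion point of `J₀(N q)` whose multiplier is killed by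
`cores` and `coresD` is `q`-new. -/
theorem s59m1a_hdeg (hq : q.Prime) (hqN : ¬ q ∣ N) :
    ∀ x : JZero (N * q), IsPPowerTorsion p x →
      cores N q (Additive ℂˣ) (muMap (N * q) x) = 0 →
      coresD N q (Additive ℂˣ) (muMap (N * q) x) = 0 → x ∈ stbNew N q := by
  have hp : p.Prime := Fact.out
  have hμ : MultData N p (fun n => expHom (p ^ n)) (muMap N) :=
    multData_of_torsionUnifData hp.ne_zero (stb_p2_unifData N p hp.pos)
  refine s59m1a_hdeg_of_intertwine (μ' := muMap (N * q)) hμ ?_ ?_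
  · rintro x ⟨a, ha⟩
    exact s59mud_stmtMuAlpha N q hq hqN (p ^ a) (pow_pos hp.pos a) x ha
  · rintro x ⟨a, ha⟩
    exact s59mudb_stmtMuBeta s59mud_stmtRelAlpha N q hq hqN (p ^ a) (pow_pos hp.pos a) x ha

/-- **the lattice form of E-MULT1a**, unconditional. -/
theorem s59m1a_stmtLat (hq : q.Prime) (hqN : ¬ q ∣ N) (hqp : q ≠ p) (S : Finset ℕ)
    (hgood : ∀ r : ℕ, r.Prime → r ∉ S → ¬ r ∣ N * q * p) :
    s59m1a_StmtLat N q p hq hqN hqp S := by
  have hp : p.Prime := Fact.out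
  have hp0 : p ≠ 0 := hp.ne_zero
  haveI : NeZero (N * q) := ⟨Nat.mul_ne_zero (NeZero.ne N) (NeZero.ne q)⟩
  have hμ : MultData N p (fun n => expHom (p ^ n)) (muMap N) :=
    multData_of_torsionUnifData hp0 (stb_p2_unifData N p hp.pos)
  have hμ' : MultData (N * q) p (fun n => expHom (p ^ n)) (muMap (N * q)) :=
    multData_of_torsionUnifData hp0 (stb_p2_unifData (N * q) p hp.pos)
  have hINJ := Fermat.Agent.INJ.injAll_stmtINJAll
  have hJ : ESDataInf N p (PDiv N p) :=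
    hμ.esDataInf (stmtFiniteLevel N p hp0) (G2.stmtFrob_of_stmtINJAll hINJ N p)
      (G2.stmtUnram_of_stmtINJAll hINJ N p)
  have hJ' : ESDataInf (N * q) p (PDiv (N * q) p) :=
    hμ'.esDataInf (stmtFiniteLevel (N * q) p hp0) (G2.stmtFrob_of_stmtINJAll hINJ (N * q) p)
      (G2.stmtUnram_of_stmtINJAll hINJ (N * q) p)
  have hNF : StmtNewFrobJ N q p :=
    stmtNewFrobJ_all_of_kummer stbd_stmtNewFrobKummer N q p hq hqN hp (Ne.symm hqp)
  intro n
  exact s59m1a_lat Fermat.Agent.Cheb.weakChebotarev_holds hμ hμ' hJ hJ' hNF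
    (s59m1a_hdeg N q p hq hqN) hq hqN hqp S hgood n

end Lat

section Conc

/-- **E-MULT1a in helper8's shape, unconditional**: for a family `ℓ i` of primes `∤ N q` which
contains every prime outside a finite set `S` (`S ⊇` the primes dividing `N q p`), an eigensystem
`ψ` which occurs at level `N` has no `q`-new eigenvector at level `N q`. -/
theorem s59m1a_stmtMult1a {p : ℕ} [Fact p.Prime]
    (𝒪 : Type) [CommRing 𝒪] [IsDomain 𝒪] [IsDiscreteValuationRing 𝒪] [CharZero 𝒪]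
    (hp𝒪 : (p : 𝒪) ∈ maximalIdeal 𝒪)
    (N q : ℕ) [NeZero N] [NeZero q] [hq : Fact q.Prime]
    {ι : Type} (ℓ : ι → ℕ) [hℓ : ∀ i, Fact (ℓ i).Prime]
    (hqN : ¬ q ∣ N) (hqp : q ≠ p) (hN : ∀ i, ¬ ℓ i ∣ N) (hNq : ∀ i, ¬ ℓ i ∣ N * q)
    (ψ : ι → 𝒪) (S : Finset ℕ)
    (hgood : ∀ r : ℕ, r.Prime → r ∉ S → ¬ r ∣ N * q * p)
    (hall : ∀ r : ℕ, r.Prime → r ∉ S → ∃ i, ℓ i = r)
    (x : s59bccL 𝒪 (Lpar N)) (hx0 : x ≠ 0)
    (hx : ∀ i, s59bccMap 𝒪 (s59bcTcZ N (ℓ i) (hN i)) x = ψ i • x) :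
    s59m1r_StmtMult1a 𝒪 N q ℓ hNq ψ :=
  s59m1a_conc 𝒪 hp𝒪 N q ℓ hqN hqp hN hNq ψ S hall
    (s59m1a_stmtLat N q p hq.out hqN hqp S hgood) x hx0 hx

variable (𝒪 : Type) [CommRing 𝒪] [IsDomain 𝒪] [IsDiscreteValuationRing 𝒪] [CharZero 𝒪]
  (N q p : ℕ) [NeZero N] [NeZero q] [hq : Fact q.Prime] [Fact p.Prime]

/-- **E-MULT1a at the step `(N, q)`** (input `h1a` of `s59asm_hrat`, `s59asm_step'`),
unconditional: from ONE nonzero `ψ`-eigenvector of level `N`. -/
theorem s59m1a_asm (hp𝒪 : (p : 𝒪) ∈ maximalIdeal 𝒪) (hqN : ¬ q ∣ N) (hqp : q ≠ p)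
    (ψ : ℕ → 𝒪) (x : s59asmL 𝒪 N) (hx : x ∈ s59asmE 𝒪 N p ψ) (hx0 : x ≠ 0) :
    s59asm_M1a 𝒪 N q p ψ := by
  classical
  have hp : p.Prime := Fact.out
  have hNqp0 : N * q * p ≠ 0 :=
    Nat.mul_ne_zero (Nat.mul_ne_zero (NeZero.ne N) (NeZero.ne q)) hp.ne_zero
  have hgood : ∀ r : ℕ, r.Prime → r ∉ (N * q * p).primeFactors → ¬ r ∣ N * q * p :=
    fun r hr hrS hd => hrS (Nat.mem_primeFactors.mpr ⟨hr, hd, hNqp0⟩)
  refine s59m1a_stmtMult1a (p := p) 𝒪 hp𝒪 N q (hℓ := fun i => S59asmI.fact i)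
    (fun i : S59asmI N q p => i.1) hqN hqp (fun i => i.not_dvd) (fun i => i.not_dvd_mid)
    (fun i => ψ i.1) (N * q * p).primeFactors hgood ?_ x hx0 ?_
  · intro r hr hrS
    have hd := hgood r hr hrS
    have hrN : ¬ r ∣ N := fun h => hd (dvd_mul_of_dvd_left (dvd_mul_of_dvd_left h q) p)
    have hrq : ¬ r ∣ q := fun h => hd (dvd_mul_of_dvd_left (dvd_mul_of_dvd_right h N) p)
    have hrp : r ≠ p := fun h => hd (h ▸ dvd_mul_left r (N * q))
    have hrNqq : ¬ r ∣ N * q * q := by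
      intro h
      rcases (Nat.Prime.dvd_mul hr).1 h with h1 | h1
      · rcases (Nat.Prime.dvd_mul hr).1 h1 with h2 | h2
        · exact hrN h2
        · exact hrq h2
      · exact hrq h1
    exact ⟨⟨r, hr, hrNqq, hrp⟩, rfl⟩
  · intro i
    haveI := S59asmI.fact i
    exact (s59asm_mem_E 𝒪 N).mp hx i.1 i.not_dvd i.2.2.2

end Conc

end Fermat.Agent.S59
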