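/-
S59 Route A, ETA′ (R2), leaf **E-BIG** (helper56), part 1: finite extensions of a complete DVR.

`𝒪₀` a complete discrete valuation ring of characteristic `0`, `L` a finite extension of
`Frac 𝒪₀`, `C = integralClosure 𝒪₀ L`.  Then `C` is a complete discrete valuation ring, finite
and free over `𝒪₀`, `𝒪₀ → C` is local and injective, the residue field of `C` is finite if that
of `𝒪₀` is.

* `s59big_isLocalRing`            : a DOMAIN which is finite free over a complete local ring is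
                                    local (helper33's idempotent `s59loc_exists_idem`);
* `s59big_isAdicComplete_of_pow_le` : `J ^ n ≤ I ≤ J`, `I`-adically complete ⇒ `J`-adically
                                    complete;
* `s59bigcl_*`                    : the statements on `integralClosure 𝒪₀ L`.
Mathlib + `S59/Eta/LocIdem.lean` (Mathlib only).
-/
import Mathlib
import Fermat.Agent.S59.Eta.LocIdem

set_option autoImplicit false
set_option linter.unusedVariables false
set_option linter.unusedSectionVars false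
set_option linter.style.haveILetI false

noncomputable section

namespace Fermat.Agent.S59

open IsLocalRing Polynomial

/-! ### (A) a finite free domain over a complete local ring is local -/

theorem s59big_isLocalRing (𝒪 C : Type*) [CommRing 𝒪] [IsLocalRing 𝒪]
    [IsAdicComplete (maximalIdeal 𝒪) 𝒪] [CommRing C] [IsDomain C] [Algebra 𝒪 C]
    [Module.Finite 𝒪 C] [Module.Free 𝒪 C] : IsLocalRing C := by
  obtain ⟨𝔪, h𝔪⟩ := Ideal.exists_maximal C
  refine IsLocalRing.of_unique_max_ideal ⟨𝔪, h𝔪, ?_⟩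
  intro 𝔫 h𝔫
  by_contra hne
  obtain ⟨e, he, h1, h2⟩ := s59loc_exists_idem 𝒪 𝔪
  rcases IsIdempotentElem.iff_eq_zero_or_one.mp he with rfl | rfl
  · apply h𝔪.ne_top
    rw [Ideal.eq_top_iff_one]
    simpa using h1
  · exact h𝔫.ne_top ((Ideal.eq_top_iff_one _).mpr (h2 𝔫 h𝔫 hne))

/-! ### (B) completeness for comparable ideals -/

theorem s59big_isAdicComplete_of_pow_le {R : Type*} [CommRing R] (I J : Ideal R) (n : ℕ)
    (hJI : J ^ n ≤ I) (hIJ : I ≤ J) [hI : IsAdicComplete I R] : IsAdicComplete J R := by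
  have hpow : ∀ k : ℕ, J ^ (n * k) ≤ I ^ k := fun k => by
    rw [pow_mul]
    exact Ideal.pow_right_mono hJI k
  have hpow' : ∀ k : ℕ, I ^ k ≤ J ^ k := fun k => Ideal.pow_right_mono hIJ k
  have hmem : ∀ (K : Ideal R) (k : ℕ) (x y : R),
      x ≡ y [SMOD (K ^ k • ⊤ : Submodule R R)] ↔ x - y ∈ K ^ k := by
    intro K k x y
    rw [SModEq.sub_mem]
    simp only [smul_eq_mul, Ideal.mul_top]
  refine { toIsHausdorff := ⟨?_⟩, toIsPrecomplete := ⟨?_⟩ }
  · intro x hx
    apply hI.toIsHausdorff.haus'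
    intro k
    rw [hmem, sub_zero]
    have := (hmem J (n * k) x 0).mp (hx (n * k))
    rw [sub_zero] at this
    exact hpow k this
  · intro f hf
    obtain ⟨L, hL⟩ := hI.toIsPrecomplete.prec' (fun k => f (n * k + k)) (by
      intro a b hab
      rw [hmem]
      have h1 : n * a + a ≤ n * b + b := by gcongr
      have h2 := (hmem J (n * a + a) _ _).mp (hf h1)
      apply hpow a
      exact Ideal.pow_le_pow_right (Nat.le_add_right _ _) h2)
    refine ⟨L, fun k => ?_⟩
    rw [hmem]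
    have h1 : f k - f (n * k + k) ∈ J ^ k := (hmem J k _ _).mp (hf (Nat.le_add_left _ _))
    have h2 : f (n * k + k) - L ∈ J ^ k := hpow' k ((hmem I k _ _).mp (hL k))
    have : f k - L = (f k - f (n * k + k)) + (f (n * k + k) - L) := by ring
    rw [this]
    exact (J ^ k).add_mem h1 h2

/-! ### (C) the integral closure of a complete DVR in a finite extension of its fraction field -/

section Closure

variable (𝒪₀ : Type*) [CommRing 𝒪₀] [IsDomain 𝒪₀] [IsDiscreteValuationRing 𝒪₀]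
  [IsAdicComplete (maximalIdeal 𝒪₀) 𝒪₀] [CharZero 𝒪₀]
  (L : Type*) [Field L] [Algebra 𝒪₀ L] [Algebra (FractionRing 𝒪₀) L]
  [IsScalarTower 𝒪₀ (FractionRing 𝒪₀) L] [FiniteDimensional (FractionRing 𝒪₀) L]

theorem s59bigcl_charZero_frac : CharZero (FractionRing 𝒪₀) :=
  charZero_of_injective_algebraMap (IsFractionRing.injective 𝒪₀ (FractionRing 𝒪₀))

theorem s59bigcl_injective_L : Function.Injective (algebraMap 𝒪₀ L) := by
  rw [IsScalarTower.algebraMap_eq 𝒪₀ (FractionRing 𝒪₀) L]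
  exact (algebraMap (FractionRing 𝒪₀) L).injective.comp
    (IsFractionRing.injective 𝒪₀ (FractionRing 𝒪₀))

theorem s59bigcl_injective : Function.Injective (algebraMap 𝒪₀ (integralClosure 𝒪₀ L)) := by
  intro a b hab
  apply s59bigcl_injective_L 𝒪₀ L
  have := congrArg (algebraMap (integralClosure 𝒪₀ L) L) hab
  rwa [← IsScalarTower.algebraMap_apply, ← IsScalarTower.algebraMap_apply] at this

theorem s59bigcl_charZero : CharZero (integralClosure 𝒪₀ L) :=
  charZero_of_injective_algebraMap (s59bigcl_injective 𝒪₀ L)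

theorem s59bigcl_isSeparable : Algebra.IsSeparable (FractionRing 𝒪₀) L :=
  haveI := s59bigcl_charZero_frac 𝒪₀
  inferInstance

theorem s59bigcl_finite : Module.Finite 𝒪₀ (integralClosure 𝒪₀ L) :=
  haveI := s59bigcl_isSeparable 𝒪₀ L
  IsIntegralClosure.finite 𝒪₀ (FractionRing 𝒪₀) L (integralClosure 𝒪₀ L)

theorem s59bigcl_free : Module.Free 𝒪₀ (integralClosure 𝒪₀ L) :=
  haveI := s59bigcl_isSeparable 𝒪₀ L
  haveI : Module.IsTorsionFree 𝒪₀ L :=
    Module.isTorsionFree_iff_algebraMap_injective.mpr (s59bigcl_injective_L 𝒪₀ L)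
  IsIntegralClosure.module_free 𝒪₀ (FractionRing 𝒪₀) L (integralClosure 𝒪₀ L)

theorem s59bigcl_isDedekindDomain : IsDedekindDomain (integralClosure 𝒪₀ L) :=
  haveI := s59bigcl_isSeparable 𝒪₀ L
  integralClosure.isDedekindDomain 𝒪₀ (FractionRing 𝒪₀) L

theorem s59bigcl_isLocalRing : IsLocalRing (integralClosure 𝒪₀ L) :=
  haveI := s59bigcl_finite 𝒪₀ L
  haveI := s59bigcl_free 𝒪₀ L
  s59big_isLocalRing 𝒪₀ (integralClosure 𝒪₀ L)

theorem s59bigcl_not_isField : ¬ IsField (integralClosure 𝒪₀ L) := by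
  intro h
  exact IsDiscreteValuationRing.not_isField 𝒪₀
    (isField_of_isIntegral_of_isField (s59bigcl_injective 𝒪₀ L) h)

theorem s59bigcl_isDVR : IsDiscreteValuationRing (integralClosure 𝒪₀ L) := by
  haveI := s59bigcl_isLocalRing 𝒪₀ L
  haveI := s59bigcl_isDedekindDomain 𝒪₀ L
  exact ((IsDiscreteValuationRing.TFAE (integralClosure 𝒪₀ L)
    (s59bigcl_not_isField 𝒪₀ L)).out 2 0).mp (s59bigcl_isDedekindDomain 𝒪₀ L)

theorem s59bigcl_isLocalHom [IsLocalRing (integralClosure 𝒪₀ L)] :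
    IsLocalHom (algebraMap 𝒪₀ (integralClosure 𝒪₀ L)) := by
  refine ⟨fun a ha => ?_⟩
  by_contra hna
  have h1 : a ∈ maximalIdeal 𝒪₀ := (IsLocalRing.mem_maximalIdeal a).mpr hna
  have h2 : algebraMap 𝒪₀ (integralClosure 𝒪₀ L) a ∈ maximalIdeal (integralClosure 𝒪₀ L) :=
    s59loc_le_of_isMaximal 𝒪₀ (maximalIdeal (integralClosure 𝒪₀ L)) (Ideal.mem_map_of_mem _ h1)
  exact (IsLocalRing.mem_maximalIdeal _).mp h2 ha

theorem s59bigcl_isAdicComplete [IsLocalRing (integralClosure 𝒪₀ L)] :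
    IsAdicComplete (maximalIdeal (integralClosure 𝒪₀ L)) (integralClosure 𝒪₀ L) := by
  haveI := s59bigcl_finite 𝒪₀ L
  haveI := s59bigcl_free 𝒪₀ L
  haveI := s59bigcl_isDedekindDomain 𝒪₀ L
  haveI := s59loc_isAdicComplete 𝒪₀ (integralClosure 𝒪₀ L)
  set I : Ideal (integralClosure 𝒪₀ L) :=
    (maximalIdeal 𝒪₀).map (algebraMap 𝒪₀ (integralClosure 𝒪₀ L)) with hI
  have hle : I ≤ maximalIdeal (integralClosure 𝒪₀ L) :=
    s59loc_le_of_isMaximal 𝒪₀ (maximalIdeal (integralClosure 𝒪₀ L))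
  have hne : I ≠ ⊥ := by
    intro h
    obtain ⟨ϖ, hϖ⟩ := IsDiscreteValuationRing.exists_irreducible 𝒪₀
    have h1 : algebraMap 𝒪₀ (integralClosure 𝒪₀ L) ϖ ∈ I :=
      Ideal.mem_map_of_mem _ ((IsLocalRing.mem_maximalIdeal ϖ).mpr hϖ.not_isUnit)
    rw [h, Ideal.mem_bot] at h1
    exact hϖ.ne_zero ((s59bigcl_injective 𝒪₀ L) (by rw [h1, map_zero]))
  have hpow : ∀ (I : Ideal (integralClosure 𝒪₀ L)), I ≠ ⊥ →
      ∃ n : ℕ, I = maximalIdeal (integralClosure 𝒪₀ L) ^ n :=
    ((IsDiscreteValuationRing.TFAE (integralClosure 𝒪₀ L)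
      (s59bigcl_not_isField 𝒪₀ L)).out 2 6).mp (s59bigcl_isDedekindDomain 𝒪₀ L)
  obtain ⟨n, hn⟩ := hpow I hne
  exact s59big_isAdicComplete_of_pow_le I _ n hn.ge hle

theorem s59bigcl_finite_residueField [Finite (ResidueField 𝒪₀)]
    [IsLocalRing (integralClosure 𝒪₀ L)] : Finite (ResidueField (integralClosure 𝒪₀ L)) := by
  haveI := s59bigcl_finite 𝒪₀ L
  haveI := s59bigcl_isLocalHom 𝒪₀ L
  exact IsLocalRing.ResidueField.finite_of_finite (R := 𝒪₀) inferInstance

end Closure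

/-! ### (D) roots of integer polynomials which split in `L` -/

section Roots

variable (𝒪₀ : Type*) [CommRing 𝒪₀] (L : Type*) [Field L] [Algebra 𝒪₀ L]

/-- A root, in a domain `B` over `C = integralClosure 𝒪₀ L`, of a monic integer polynomial which
splits in `L` comes from `C`. -/
theorem s59bigcl_mem_range {Q : ℤ[X]} (hQ : Q.Monic) (hsp : (Q.map (Int.castRingHom L)).Splits)
    {B : Type*} [CommRing B] [IsDomain B] [Algebra (integralClosure 𝒪₀ L) B] {x : B}
    (hx : Polynomial.eval₂ (Int.castRingHom B) x Q = 0) :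
    x ∈ Set.range (algebraMap (integralClosure 𝒪₀ L) B) := by
  have hinj : Function.Injective (algebraMap (integralClosure 𝒪₀ L) L) :=
    Subtype.val_injective
  have h1 : (algebraMap (integralClosure 𝒪₀ L) L).comp
      (Int.castRingHom (integralClosure 𝒪₀ L)) = Int.castRingHom L := RingHom.ext_int _ _
  have hmap : (Q.map (Int.castRingHom (integralClosure 𝒪₀ L))).map
      (algebraMap (integralClosure 𝒪₀ L) L) = Q.map (Int.castRingHom L) := by
    rw [Polynomial.map_map, h1]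
  have hsplitC : (Q.map (Int.castRingHom (integralClosure 𝒪₀ L))).Splits := by
    refine Splits.of_splits_map_of_injective hinj (by rw [hmap]; exact hsp) ?_
    intro a ha
    rw [hmap] at ha
    have ha0 : IsIntegral ℤ a := by
      refine ⟨Q, hQ, ?_⟩
      have := (mem_roots (hQ.map _).ne_zero).mp ha
      rw [IsRoot.def, eval_map] at this
      have h3 : algebraMap ℤ L = Int.castRingHom L := RingHom.ext_int _ _
      rw [h3]
      exact this
    have ha1 : IsIntegral 𝒪₀ a := ha0.tower_top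
    exact ⟨⟨a, ha1⟩, rfl⟩
  have hne : (Q.map (Int.castRingHom (integralClosure 𝒪₀ L))).map
      (algebraMap (integralClosure 𝒪₀ L) B) ≠ 0 := ((hQ.map _).map _).ne_zero
  have hroot : x ∈ ((Q.map (Int.castRingHom (integralClosure 𝒪₀ L))).map
      (algebraMap (integralClosure 𝒪₀ L) B)).roots := by
    rw [mem_roots hne, IsRoot.def, Polynomial.map_map, eval_map]
    have h2 : (algebraMap (integralClosure 𝒪₀ L) B).comp
        (Int.castRingHom (integralClosure 𝒪₀ L)) = Int.castRingHom B := RingHom.ext_int _ _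
    rw [h2]
    exact hx
  rw [hsplitC.roots_map_of_ne_zero hne] at hroot
  obtain ⟨b, -, rfl⟩ := Multiset.mem_map.mp hroot
  exact ⟨b, rfl⟩

end Roots

/-! ### (E) the big ring of a monic integer polynomial -/

section Big

universe u v

variable (𝒪₀ : Type u) [CommRing 𝒪₀] [IsDomain 𝒪₀] [IsDiscreteValuationRing 𝒪₀]
  [IsAdicComplete (maximalIdeal 𝒪₀) 𝒪₀] [CharZero 𝒪₀]

/-- the splitting field of `P` over `Frac 𝒪₀` -/
abbrev s59bigField (P : ℤ[X]) : Type u :=
  (P.map (Int.castRingHom (FractionRing 𝒪₀))).SplittingField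

/-- the big ring of `P`: the integral closure of `𝒪₀` in the splitting field of `P`. -/
abbrev s59bigRing (P : ℤ[X]) : Type u := integralClosure 𝒪₀ (s59bigField 𝒪₀ P)

theorem s59bigField_splits (P : ℤ[X]) : (P.map (Int.castRingHom (s59bigField 𝒪₀ P))).Splits := by
  have h := Polynomial.SplittingField.splits (P.map (Int.castRingHom (FractionRing 𝒪₀)))
  rw [Polynomial.map_map] at h
  have h2 : (algebraMap (FractionRing 𝒪₀) (s59bigField 𝒪₀ P)).comp
      (Int.castRingHom (FractionRing 𝒪₀)) = Int.castRingHom (s59bigField 𝒪₀ P) :=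
    RingHom.ext_int _ _
  rwa [h2] at h

/-- every root, in a domain over the big ring of `P`, of a monic divisor of `P` comes from the
big ring. -/
theorem s59bigRing_mem_range {P Q : ℤ[X]} (hP : P.Monic) (hQ : Q.Monic) (hQP : Q ∣ P)
    {B : Type v} [CommRing B] [IsDomain B] [Algebra (s59bigRing 𝒪₀ P) B] {x : B}
    (hx : Polynomial.eval₂ (Int.castRingHom B) x Q = 0) :
    x ∈ Set.range (algebraMap (s59bigRing 𝒪₀ P) B) := by
  refine s59bigcl_mem_range 𝒪₀ (s59bigField 𝒪₀ P) hQ ?_ hx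
  exact (s59bigField_splits 𝒪₀ P).of_dvd
    (hP.map (Int.castRingHom (s59bigField 𝒪₀ P))).ne_zero
    (Polynomial.map_dvd (Int.castRingHom (s59bigField 𝒪₀ P)) hQP)

/-- a monic integer polynomial `P` and a finite generating family of `T` whose members are killed
by monic divisors of `P` -/
theorem s59big_exists_poly (T : Type v) [CommRing T] [Module.Finite ℤ T] :
    ∃ P : ℤ[X], P.Monic ∧ ∃ s : Finset T, Submodule.span ℤ (s : Set T) = ⊤ ∧
      ∀ t ∈ s, ∃ Q : ℤ[X], Q.Monic ∧ Q ∣ P ∧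
        Polynomial.eval₂ (Int.castRingHom T) t Q = 0 := by
  classical
  obtain ⟨s, hs⟩ := (Module.Finite.fg_top : (⊤ : Submodule ℤ T).FG)
  have hint : ∀ t : T, ∃ Q : ℤ[X], Q.Monic ∧
      Polynomial.eval₂ (Int.castRingHom T) t Q = 0 := by
    intro t
    obtain ⟨Q, hQ, h⟩ := IsIntegral.of_finite ℤ t
    refine ⟨Q, hQ, ?_⟩
    have h3 : algebraMap ℤ T = Int.castRingHom T := RingHom.ext_int _ _
    rwa [h3] at h
  choose Q hQm hQ0 using hint
  refine ⟨∏ t ∈ s, Q t, Polynomial.monic_prod_of_monic _ _ (fun t _ => hQm t), s, hs, ?_⟩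
  intro t ht
  exact ⟨Q t, hQm t, Finset.dvd_prod_of_mem _ ht, hQ0 t⟩

/-- every point of `T` with values in a domain over the big ring has its values in the big
ring. -/
theorem s59bigRing_point_mem_range {P : ℤ[X]} (hP : P.Monic) {T : Type*} [CommRing T]
    {s : Finset T} (hs : Submodule.span ℤ (s : Set T) = ⊤)
    (hQ : ∀ t ∈ s, ∃ Q : ℤ[X], Q.Monic ∧ Q ∣ P ∧
      Polynomial.eval₂ (Int.castRingHom T) t Q = 0)
    {B : Type v} [CommRing B] [IsDomain B] [Algebra (s59bigRing 𝒪₀ P) B] (χ : T →+* B) (t : T) :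
    χ t ∈ Set.range (algebraMap (s59bigRing 𝒪₀ P) B) := by
  have hmem : t ∈ Submodule.span ℤ (s : Set T) := hs ▸ Submodule.mem_top
  rw [← RingHom.coe_range, SetLike.mem_coe]
  induction hmem using Submodule.span_induction with
  | mem x hx =>
    obtain ⟨Q, hQm, hQP, hQ0⟩ := hQ x hx
    apply s59bigRing_mem_range 𝒪₀ hP hQm hQP
    have h1 := congrArg χ hQ0
    rw [Polynomial.hom_eval₂, map_zero] at h1
    have h2 : χ.comp (Int.castRingHom T) = Int.castRingHom B := RingHom.ext_int _ _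
    rwa [h2] at h1
  | zero => rw [map_zero]; exact Subring.zero_mem _
  | add x y _ _ hx hy => rw [map_add]; exact Subring.add_mem _ hx hy
  | smul a x _ hx => rw [map_zsmul]; exact Subring.zsmul_mem _ hx a

/-- **E-BIG, general form**: for a complete DVR `𝒪₀` of characteristic `0` with finite residue
field and a commutative ring `T` which is finite over `ℤ`, there is a complete DVR `𝒪`, finite
free over `𝒪₀` (local, injective), of characteristic `0`, with finite residue field, such that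
every ring hom from `T` to a domain `B` over `𝒪` has its values in `𝒪`. -/
theorem s59big_exists [Finite (ResidueField 𝒪₀)] (T : Type*) [CommRing T] [Module.Finite ℤ T] :
    ∃ (𝒪 : Type u) (_ : CommRing 𝒪) (_ : IsDomain 𝒪) (_ : IsDiscreteValuationRing 𝒪)
      (_ : IsAdicComplete (maximalIdeal 𝒪) 𝒪) (_ : Finite (ResidueField 𝒪)) (_ : CharZero 𝒪)
      (_ : Algebra 𝒪₀ 𝒪) (_ : Module.Finite 𝒪₀ 𝒪) (_ : Module.Free 𝒪₀ 𝒪)
      (_ : IsLocalHom (algebraMap 𝒪₀ 𝒪)),
      Function.Injective (algebraMap 𝒪₀ 𝒪) ∧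
      ∀ (B : Type v) [CommRing B] [IsDomain B] [Algebra 𝒪 B] (χ : T →+* B) (t : T),
        χ t ∈ Set.range (algebraMap 𝒪 B) := by
  obtain ⟨P, hP, s, hs, hQ⟩ := s59big_exists_poly T
  haveI : CharZero (FractionRing 𝒪₀) := s59bigcl_charZero_frac 𝒪₀
  haveI hdvr := s59bigcl_isDVR 𝒪₀ (s59bigField 𝒪₀ P)
  exact ⟨s59bigRing 𝒪₀ P, inferInstance, inferInstance, hdvr,
    s59bigcl_isAdicComplete 𝒪₀ (s59bigField 𝒪₀ P),
    s59bigcl_finite_residueField 𝒪₀ (s59bigField 𝒪₀ P),
    s59bigcl_charZero 𝒪₀ (s59bigField 𝒪₀ P), inferInstance,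
    s59bigcl_finite 𝒪₀ (s59bigField 𝒪₀ P), s59bigcl_free 𝒪₀ (s59bigField 𝒪₀ P),
    s59bigcl_isLocalHom 𝒪₀ (s59bigField 𝒪₀ P), s59bigcl_injective 𝒪₀ (s59bigField 𝒪₀ P),
    fun B _ _ _ χ t => s59bigRing_point_mem_range 𝒪₀ hP hs hQ χ t⟩

end Big

/-! ### (G) over `ℤ_p` -/

/-- **E-BIG over `ℤ_p`**: a complete DVR `𝒪` of characteristic `0` with finite residue field, a
local injective `φ : ℤ_p → 𝒪` making `𝒪` finite free over `ℤ_p`, such that every ring hom from
`T` (finite over `ℤ`) to a domain over `𝒪` has its values in `𝒪`. -/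
theorem s59big_exists_padic (p : ℕ) [Fact p.Prime] (T : Type*) [CommRing T]
    [Module.Finite ℤ T] :
    ∃ (𝒪 : Type) (_ : CommRing 𝒪) (_ : IsDomain 𝒪) (_ : IsDiscreteValuationRing 𝒪)
      (_ : IsAdicComplete (maximalIdeal 𝒪) 𝒪) (_ : Finite (ResidueField 𝒪)) (_ : CharZero 𝒪)
      (φ : ℤ_[p] →+* 𝒪) (_ : IsLocalHom φ),
      Function.Injective φ ∧ (p : 𝒪) ∈ maximalIdeal 𝒪 ∧
      ∀ (B : Type) [CommRing B] [IsDomain B] [Algebra 𝒪 B] (χ : T →+* B) (t : T),
        χ t ∈ Set.range (algebraMap 𝒪 B) := by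
  obtain ⟨𝒪, i1, i2, i3, i4, i5, i6, i7, i8, i9, i10, hinj, hbig⟩ :=
    s59big_exists.{0, 0} ℤ_[p] T
  refine ⟨𝒪, i1, i2, i3, i4, i5, i6, algebraMap ℤ_[p] 𝒪, i10, hinj, ?_, hbig⟩
  have h1 : (p : ℤ_[p]) ∈ maximalIdeal ℤ_[p] := by
    rw [PadicInt.maximalIdeal_eq_span_p]
    exact Ideal.mem_span_singleton_self _
  have h2 : ¬ IsUnit (algebraMap ℤ_[p] 𝒪 (p : ℤ_[p])) := fun h =>
    (IsLocalRing.mem_maximalIdeal _).mp h1 (i10.map_nonunit _ h)
  rw [IsLocalRing.mem_maximalIdeal]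
  simpa using h2

end Fermat.Agent.S59
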