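/-
S59 Route A, ETA-P (wall M5, R2 side), leaf **P-XFER** (helper56), part 1: THE ALGEBRA.

Change of the coefficient ring for simultaneous eigenvectors of integer matrices.

* `s59etpx_lift_of_range` : a ring hom with values in the range of an injective ring hom lifts;
* `s59etpx_mulVec_zero`, `s59etpx_mulVec_eig` : transfer of `M v = 0`, `M v = a • v` (integer
  matrices) along an ADDITIVE map `lam : R → K₁` which is semilinear for the eigenvalue, to a
  vector `w` over `R₁ ⊆ K₁` with `g (w k) = lam (v k)`;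
* `s59etpx_exists_lam` : `𝕋` integral over `ℤ`, `χ : 𝕋 →+* 𝒪` (`𝒪` a domain of characteristic `0`),
  `𝒪₁` a domain of characteristic `0` which is BIG for `𝕋` (every ring hom from `𝕋` to a domain over
  `𝒪₁` has its values in `𝒪₁`).  Then there is `χ₁ : 𝕋 →+* 𝒪₁` such that for every finite nonzero
  family `v` in `𝒪` there are an additive `lam : 𝒪 → K₁`, semilinear (`lam (χ t * u) = χ₁ t * lam u`),
  and a nonzero family `w` in `𝒪₁` with `w k = lam (v k)`.
Mathlib only.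
-/
import Mathlib

set_option autoImplicit false
set_option linter.unusedVariables false
set_option linter.unusedSectionVars false
set_option linter.style.haveILetI false

noncomputable section

namespace Fermat.Agent.S59

open Polynomial

/-- a ring hom with values in the range of an injective ring hom lifts -/
theorem s59etpx_lift_of_range {𝕋 R₁ B : Type*} [CommRing 𝕋] [CommRing R₁] [CommRing B]
    (g : R₁ →+* B) (hg : Function.Injective g) (f : 𝕋 →+* B)
    (h : ∀ t, f t ∈ Set.range g) : ∃ f₁ : 𝕋 →+* R₁, ∀ t, g (f₁ t) = f t := by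
  choose c hc using h
  refine ⟨{ toFun := c
            map_one' := hg (by rw [hc, map_one, map_one])
            map_mul' := fun a b => hg (by rw [hc, map_mul, map_mul, hc, hc])
            map_zero' := hg (by rw [hc, map_zero, map_zero])
            map_add' := fun a b => hg (by rw [hc, map_add, map_add, hc, hc]) }, hc⟩

section Coord

variable {R R₁ K₁ : Type*} [CommRing R] [CommRing R₁] [CommRing K₁]
  {m n : Type*} [Fintype n]

/-- the coordinates of `M w` under `g`, for an integer matrix `M` -/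
theorem s59etpx_mulVec_map (g : R₁ →+* K₁) (lam : R →+ K₁) (M : Matrix m n ℤ) (v : n → R)
    (w : n → R₁) (hw : ∀ k, g (w k) = lam (v k)) (j : m) :
    g ((M.map (Int.castRingHom R₁)).mulVec w j) =
      lam ((M.map (Int.castRingHom R)).mulVec v j) := by
  simp only [Matrix.mulVec, dotProduct, Matrix.map_apply, map_sum, map_mul, eq_intCast,
    map_intCast]
  refine Finset.sum_congr rfl fun k _ => ?_
  rw [hw k, ← zsmul_eq_mul, ← zsmul_eq_mul, map_zsmul]

/-- transfer of `M v = 0` -/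
theorem s59etpx_mulVec_zero (g : R₁ →+* K₁) (hg : Function.Injective g) (lam : R →+ K₁)
    (M : Matrix m n ℤ) (v : n → R) (w : n → R₁) (hw : ∀ k, g (w k) = lam (v k))
    (hv : (M.map (Int.castRingHom R)).mulVec v = 0) :
    (M.map (Int.castRingHom R₁)).mulVec w = 0 := by
  funext j
  apply hg
  rw [s59etpx_mulVec_map g lam M v w hw j, hv]
  simp

/-- transfer of `M v = a • v` -/
theorem s59etpx_mulVec_eig (g : R₁ →+* K₁) (hg : Function.Injective g) (lam : R →+ K₁)
    (M : Matrix n n ℤ) (v : n → R) (w : n → R₁) (hw : ∀ k, g (w k) = lam (v k))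
    (a : R) (a₁ : R₁) (hlam : ∀ u, lam (a * u) = g a₁ * lam u)
    (hv : (M.map (Int.castRingHom R)).mulVec v = a • v) :
    (M.map (Int.castRingHom R₁)).mulVec w = a₁ • w := by
  funext j
  apply hg
  rw [s59etpx_mulVec_map g lam M v w hw j, hv]
  simp only [Pi.smul_apply, smul_eq_mul, map_mul]
  rw [hlam, hw]

end Coord

section Lam

variable {𝕋 : Type*} [CommRing 𝕋] [Algebra.IsIntegral ℤ 𝕋]
  {𝒪 : Type*} [CommRing 𝒪] [IsDomain 𝒪] [CharZero 𝒪]
  {𝒪₁ : Type*} [CommRing 𝒪₁] [IsDomain 𝒪₁] [CharZero 𝒪₁]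

theorem s59etpx_algebraMap_injective :
    Function.Injective (algebraMap 𝒪₁ (AlgebraicClosure (FractionRing 𝒪₁))) := by
  rw [IsScalarTower.algebraMap_eq 𝒪₁ (FractionRing 𝒪₁) (AlgebraicClosure (FractionRing 𝒪₁))]
  exact (algebraMap (FractionRing 𝒪₁) (AlgebraicClosure (FractionRing 𝒪₁))).injective.comp
    (IsFractionRing.injective 𝒪₁ (FractionRing 𝒪₁))

/-- **the semilinear transfer map** -/
theorem s59etpx_exists_lam (χ : 𝕋 →+* 𝒪)
    (hbig : ∀ (χ' : 𝕋 →+* AlgebraicClosure (FractionRing 𝒪₁)) (t : 𝕋),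
      χ' t ∈ Set.range (algebraMap 𝒪₁ (AlgebraicClosure (FractionRing 𝒪₁)))) :
    ∃ χ₁ : 𝕋 →+* 𝒪₁, ∀ (r : ℕ) (v : Fin r → 𝒪), v ≠ 0 →
      ∃ (lam : 𝒪 →+ AlgebraicClosure (FractionRing 𝒪₁)) (w : Fin r → 𝒪₁), w ≠ 0 ∧
        (∀ k, algebraMap 𝒪₁ (AlgebraicClosure (FractionRing 𝒪₁)) (w k) = lam (v k)) ∧
        ∀ (t : 𝕋) (u : 𝒪), lam (χ t * u) =
          algebraMap 𝒪₁ (AlgebraicClosure (FractionRing 𝒪₁)) (χ₁ t) * lam u := by
  classical
  have hg := s59etpx_algebraMap_injective (𝒪₁ := 𝒪₁)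
  haveI hprime : (RingHom.ker χ).IsPrime := RingHom.ker_isPrime χ
  have hιP : Function.Injective (RingHom.kerLift χ) := RingHom.kerLift_injective χ
  haveI : CharZero (𝕋 ⧸ RingHom.ker χ) :=
    ⟨fun a b h => Nat.cast_injective (R := 𝒪) (by
      have := congrArg (RingHom.kerLift χ) h
      simpa using this)⟩
  haveI : CharZero (FractionRing 𝒪₁) :=
    charZero_of_injective_algebraMap (IsFractionRing.injective 𝒪₁ (FractionRing 𝒪₁))
  haveI : CharZero (AlgebraicClosure (FractionRing 𝒪₁)) :=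
    charZero_of_injective_algebraMap
      (algebraMap (FractionRing 𝒪₁) (AlgebraicClosure (FractionRing 𝒪₁))).injective
  haveI : Algebra.IsIntegral ℤ (𝕋 ⧸ RingHom.ker χ) :=
    Algebra.IsIntegral.of_surjective (Ideal.Quotient.mkₐ ℤ (RingHom.ker χ))
      Ideal.Quotient.mk_surjective
  haveI : IsDomain (𝕋 ⧸ RingHom.ker χ) := Ideal.Quotient.isDomain _
  haveI : Module.IsTorsionFree ℤ (𝕋 ⧸ RingHom.ker χ) := inferInstance
  haveI : @Module.IsTorsionFree ℤ (AlgebraicClosure (FractionRing 𝒪₁)) _ _ Algebra.toModule := by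
    have h : Function.Injective (algebraMap ℤ (AlgebraicClosure (FractionRing 𝒪₁))) := by
      intro a b hab
      rw [eq_intCast, eq_intCast] at hab
      exact Int.cast_injective hab
    exact Module.isTorsionFree_iff_algebraMap_injective.mpr h
  haveI : Algebra.IsAlgebraic ℤ (𝕋 ⧸ RingHom.ker χ) := Algebra.IsIntegral.isAlgebraic
  let j₀ : (𝕋 ⧸ RingHom.ker χ) →ₐ[ℤ] AlgebraicClosure (FractionRing 𝒪₁) := IsAlgClosed.lift
  have hj₀ : Function.Injective (j₀ : (𝕋 ⧸ RingHom.ker χ) →+*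
      AlgebraicClosure (FractionRing 𝒪₁)) := by
    rw [RingHom.injective_iff_ker_eq_bot]
    apply Ideal.eq_bot_of_comap_eq_bot (R := ℤ)
    rw [eq_bot_iff]
    intro a ha
    rw [Ideal.mem_comap, RingHom.mem_ker] at ha
    have h1 : ((a : ℤ) : AlgebraicClosure (FractionRing 𝒪₁)) = 0 := by
      have h2 := j₀.commutes a
      rw [eq_intCast, eq_intCast] at h2
      rw [← h2]
      simpa using ha
    have h3 : a = 0 := by exact_mod_cast h1
    rw [h3]
    exact Ideal.zero_mem _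
  obtain ⟨χ₁, hχ₁⟩ := s59etpx_lift_of_range
    (algebraMap 𝒪₁ (AlgebraicClosure (FractionRing 𝒪₁))) hg
    ((j₀ : (𝕋 ⧸ RingHom.ker χ) →+* AlgebraicClosure (FractionRing 𝒪₁)).comp
      (Ideal.Quotient.mk (RingHom.ker χ))) (hbig _)
  refine ⟨χ₁, fun r v hv => ?_⟩
  -- the fraction fields
  have hφinj : Function.Injective ((algebraMap 𝒪 (FractionRing 𝒪)).comp (RingHom.kerLift χ)) :=
    (IsFractionRing.injective 𝒪 (FractionRing 𝒪)).comp hιP
  letI : Algebra (FractionRing (𝕋 ⧸ RingHom.ker χ)) (FractionRing 𝒪) :=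
    (IsFractionRing.lift hφinj).toAlgebra
  have halg : ∀ a : 𝕋 ⧸ RingHom.ker χ,
      algebraMap (FractionRing (𝕋 ⧸ RingHom.ker χ)) (FractionRing 𝒪)
        (algebraMap (𝕋 ⧸ RingHom.ker χ) (FractionRing (𝕋 ⧸ RingHom.ker χ)) a) =
      algebraMap 𝒪 (FractionRing 𝒪) (RingHom.kerLift χ a) := fun a =>
    IsFractionRing.lift_algebraMap hφinj a
  obtain ⟨k₀, hk₀⟩ : ∃ k₀, v k₀ ≠ 0 := by
    by_contra h
    push Not at h
    exact hv (funext h)
  have hu₀ : algebraMap 𝒪 (FractionRing 𝒪) (v k₀) ≠ 0 := fun h =>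
    hk₀ ((IsFractionRing.injective 𝒪 (FractionRing 𝒪)) (by rw [h, map_zero]))
  obtain ⟨f, hf⟩ : ∃ f : Module.Dual (FractionRing (𝕋 ⧸ RingHom.ker χ)) (FractionRing 𝒪),
      f (algebraMap 𝒪 (FractionRing 𝒪) (v k₀)) ≠ 0 := by
    by_contra h
    push Not at h
    exact hu₀ ((Module.forall_dual_apply_eq_zero_iff _ _).mp h)
  obtain ⟨b, hb⟩ := IsLocalization.exist_integer_multiples_of_finset
    (nonZeroDivisors (𝕋 ⧸ RingHom.ker χ))
    (Finset.univ.image fun k => f (algebraMap 𝒪 (FractionRing 𝒪) (v k)))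
  have hb0 : algebraMap (𝕋 ⧸ RingHom.ker χ) (FractionRing (𝕋 ⧸ RingHom.ker χ)) b ≠ 0 := by
    intro h
    have h' : algebraMap (𝕋 ⧸ RingHom.ker χ) (FractionRing (𝕋 ⧸ RingHom.ker χ)) b =
        algebraMap (𝕋 ⧸ RingHom.ker χ) (FractionRing (𝕋 ⧸ RingHom.ker χ)) 0 := by
      rw [h, map_zero]
    exact nonZeroDivisors.coe_ne_zero b ((IsFractionRing.injective (𝕋 ⧸ RingHom.ker χ)
      (FractionRing (𝕋 ⧸ RingHom.ker χ))) h')
  let jK : FractionRing (𝕋 ⧸ RingHom.ker χ) →+* AlgebraicClosure (FractionRing 𝒪₁) :=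
    IsFractionRing.lift hj₀
  have hjK : ∀ a : 𝕋 ⧸ RingHom.ker χ,
      jK (algebraMap (𝕋 ⧸ RingHom.ker χ) (FractionRing (𝕋 ⧸ RingHom.ker χ)) a) = j₀ a :=
    fun a => IsFractionRing.lift_algebraMap hj₀ a
  let lam : 𝒪 →+ AlgebraicClosure (FractionRing 𝒪₁) :=
    { toFun := fun u => jK (algebraMap (𝕋 ⧸ RingHom.ker χ)
        (FractionRing (𝕋 ⧸ RingHom.ker χ)) b * f (algebraMap 𝒪 (FractionRing 𝒪) u))
      map_zero' := by simp
      map_add' := fun u u' => by simp [mul_add] }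
  have hlam : ∀ u, lam u = jK (algebraMap (𝕋 ⧸ RingHom.ker χ)
      (FractionRing (𝕋 ⧸ RingHom.ker χ)) b * f (algebraMap 𝒪 (FractionRing 𝒪) u)) :=
    fun u => rfl
  -- the integers
  have hint : ∀ k, ∃ t : 𝕋, j₀ (Ideal.Quotient.mk (RingHom.ker χ) t) = lam (v k) := by
    intro k
    obtain ⟨a', ha'⟩ := hb (f (algebraMap 𝒪 (FractionRing 𝒪) (v k)))
      (Finset.mem_image.mpr ⟨k, Finset.mem_univ _, rfl⟩)
    obtain ⟨t, rfl⟩ := Ideal.Quotient.mk_surjective a'
    refine ⟨t, ?_⟩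
    rw [hlam, ← hjK, ha', Algebra.smul_def]
  choose tt htt using hint
  refine ⟨lam, fun k => χ₁ (tt k), ?_, ?_, ?_⟩
  · intro hw
    have h1 : χ₁ (tt k₀) = 0 := congrFun hw k₀
    have h2 : lam (v k₀) = 0 := by
      rw [← htt k₀]
      have := hχ₁ (tt k₀)
      rw [h1, map_zero] at this
      exact this.symm
    rw [hlam] at h2
    have h3 := (map_eq_zero jK).mp h2
    rcases mul_eq_zero.mp h3 with h | h
    · exact hb0 h
    · exact hf h
  · intro k
    rw [hχ₁ (tt k)]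
    exact htt k
  · intro t u
    rw [hχ₁ t, hlam, hlam, map_mul, map_mul (algebraMap 𝒪 (FractionRing 𝒪))]
    have h1 : algebraMap 𝒪 (FractionRing 𝒪) (χ t) =
        algebraMap (FractionRing (𝕋 ⧸ RingHom.ker χ)) (FractionRing 𝒪)
          (algebraMap (𝕋 ⧸ RingHom.ker χ) (FractionRing (𝕋 ⧸ RingHom.ker χ))
            (Ideal.Quotient.mk (RingHom.ker χ) t)) := by
      rw [halg]
      rfl
    rw [h1, ← Algebra.smul_def, map_smul, smul_eq_mul, map_mul, map_mul]
    simp only [hjK, RingHom.coe_comp, Function.comp_apply, RingHom.coe_coe]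
    ring

end Lam

end Fermat.Agent.S59
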