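/-
S59 Route A, ETA-P (wall M5, R2 side), leaf **P-XFER** (helper56), part 2: THE TENSOR FORM.

CHANGE OF THE COEFFICIENT RING for simultaneous eigenvectors in `𝒪 ⊗[ℤ] Λ`.

`Λ, Λ', Λ''` finite free `ℤ`-modules, `T i : Λ → Λ`, `T' i : Λ' → Λ'`, `c k : Λ' → Λ''`
(`ℤ`-linear).  `𝒪, 𝒪₁` domains of characteristic `0`.

* `s59etpx_coord` : the coordinates of `f.baseChange R v` are `M_f *ᵥ (coordinates of v)`;
* `s59etpx_transfer_chi` : `𝕋` integral over `ℤ`, `χ : 𝕋 →+* 𝒪`, `𝒪₁` BIG for `𝕋`; if `x ≠ 0`,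
  `y ≠ 0` over `𝒪` are eigenvectors for `χ ∘ τ` and the `c k` kill `y`, then there are
  `χ₁ : 𝕋 →+* 𝒪₁` and `x₁ ≠ 0`, `y₁ ≠ 0` over `𝒪₁` with the same properties for `χ₁ ∘ τ`;
* `s59etpx_eigenchar` : the eigencharacter `χ : adjoin ℤ (range T) →+* 𝒪` of a simultaneous
  eigenvector `x ≠ 0` (commuting `T i`);
* **`s59etpx_main`** : for commuting `T i` there is ONE `ℤ`-finite commutative ring `𝕋` such that
  for every `𝒪₁` big for `𝕋` and every `𝒪`: `(ψ, x ≠ 0, y ≠ 0)` over `𝒪` ⇒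
  `(ψ₁, x₁ ≠ 0, y₁ ≠ 0)` over `𝒪₁`;
* **`s59etpx_mult1`** : the contrapositive ("multiplicity one transfers from `𝒪₁` to `𝒪`").
Mathlib only.
-/
import Mathlib
import Fermat.Agent.S59.Eta.PStepXfer

set_option autoImplicit false
set_option linter.unusedVariables false
set_option linter.unusedSectionVars false
set_option linter.style.haveILetI false

noncomputable section

open TensorProduct

namespace Fermat.Agent.S59

universe u v w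

section Coord2

variable {Λ Λ'' : Type*} [AddCommGroup Λ] [AddCommGroup Λ'']
  (R : Type*) [CommRing R]
  {n m : Type*} [Fintype n] [Fintype m] [DecidableEq n]
  (b : Module.Basis n ℤ Λ) (b'' : Module.Basis m ℤ Λ'')

/-- the coordinates of `f.baseChange R v` -/
theorem s59etpx_coord (f : Λ →ₗ[ℤ] Λ'') (v : R ⊗[ℤ] Λ) :
    (Algebra.TensorProduct.basis R b'').equivFun (f.baseChange R v) =
      ((LinearMap.toMatrix b b'' f).map (Int.castRingHom R)).mulVec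
        ((Algebra.TensorProduct.basis R b).equivFun v) := by
  have h := LinearMap.toMatrix_mulVec_repr (Algebra.TensorProduct.basis R b)
    (Algebra.TensorProduct.basis R b'') (f.baseChange R) v
  rw [LinearMap.toMatrix_baseChange] at h
  rw [Module.Basis.equivFun_apply, Module.Basis.equivFun_apply, ← h]
  rfl

end Coord2

section Transfer

variable {Λ : Type*} [AddCommGroup Λ] [Module.Free ℤ Λ] [Module.Finite ℤ Λ]
  {Λ' : Type*} [AddCommGroup Λ'] [Module.Free ℤ Λ'] [Module.Finite ℤ Λ']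
  {Λ'' : Type*} [AddCommGroup Λ''] [Module.Free ℤ Λ''] [Module.Finite ℤ Λ'']
  {ι κ : Type*} (T : ι → Λ →ₗ[ℤ] Λ) (T' : ι → Λ' →ₗ[ℤ] Λ') (c : κ → Λ' →ₗ[ℤ] Λ'')

/-- uniqueness of the eigenvalue -/
theorem s59etpx_eig_unique {R : Type*} [CommRing R] [IsDomain R] (x : R ⊗[ℤ] Λ) (hx : x ≠ 0)
    (a a' : R) (h : a • x = a' • x) : a = a' := by
  have h1 : (a - a') • x = 0 := by rw [sub_smul, h, sub_self]
  rcases smul_eq_zero.mp h1 with h2 | h2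
  · exact sub_eq_zero.mp h2
  · exact absurd h2 hx

/-- **P-XFER, with the character given** -/
theorem s59etpx_transfer_chi
    {𝕋 : Type*} [CommRing 𝕋] [Algebra.IsIntegral ℤ 𝕋] (τ : ι → 𝕋)
    {𝒪 : Type*} [CommRing 𝒪] [IsDomain 𝒪] [CharZero 𝒪]
    {𝒪₁ : Type*} [CommRing 𝒪₁] [IsDomain 𝒪₁] [CharZero 𝒪₁]
    (χ : 𝕋 →+* 𝒪)
    (hbig : ∀ (χ' : 𝕋 →+* AlgebraicClosure (FractionRing 𝒪₁)) (t : 𝕋),
      χ' t ∈ Set.range (algebraMap 𝒪₁ (AlgebraicClosure (FractionRing 𝒪₁))))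
    (x : 𝒪 ⊗[ℤ] Λ) (hx : x ≠ 0) (hxe : ∀ i, (T i).baseChange 𝒪 x = χ (τ i) • x)
    (y : 𝒪 ⊗[ℤ] Λ') (hy : y ≠ 0) (hye : ∀ i, (T' i).baseChange 𝒪 y = χ (τ i) • y)
    (hc : ∀ k, (c k).baseChange 𝒪 y = 0) :
    ∃ (χ₁ : 𝕋 →+* 𝒪₁) (x₁ : 𝒪₁ ⊗[ℤ] Λ) (y₁ : 𝒪₁ ⊗[ℤ] Λ'), x₁ ≠ 0 ∧ y₁ ≠ 0 ∧
      (∀ i, (T i).baseChange 𝒪₁ x₁ = χ₁ (τ i) • x₁) ∧
      (∀ i, (T' i).baseChange 𝒪₁ y₁ = χ₁ (τ i) • y₁) ∧
      ∀ k, (c k).baseChange 𝒪₁ y₁ = 0 := by
  classical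
  have hg := s59etpx_algebraMap_injective (𝒪₁ := 𝒪₁)
  obtain ⟨χ₁, H⟩ := s59etpx_exists_lam χ hbig
  set b := Module.finBasis ℤ Λ with hb
  set b' := Module.finBasis ℤ Λ' with hb'
  set b'' := Module.finBasis ℤ Λ'' with hb''
  -- the vector `x`
  have hvx : (Algebra.TensorProduct.basis 𝒪 b).equivFun x ≠ 0 := fun h =>
    hx ((Algebra.TensorProduct.basis 𝒪 b).equivFun.injective (by rw [h, map_zero]))
  obtain ⟨lam, w, hw0, hw, hlam⟩ := H _ _ hvx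
  have hvy : (Algebra.TensorProduct.basis 𝒪 b').equivFun y ≠ 0 := fun h =>
    hy ((Algebra.TensorProduct.basis 𝒪 b').equivFun.injective (by rw [h, map_zero]))
  obtain ⟨lam', w', hw0', hw', hlam'⟩ := H _ _ hvy
  refine ⟨χ₁, (Algebra.TensorProduct.basis 𝒪₁ b).equivFun.symm w,
    (Algebra.TensorProduct.basis 𝒪₁ b').equivFun.symm w', ?_, ?_, ?_, ?_, ?_⟩
  · intro h
    apply hw0
    have := congrArg (Algebra.TensorProduct.basis 𝒪₁ b).equivFun h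
    rwa [LinearEquiv.apply_symm_apply, map_zero] at this
  · intro h
    apply hw0'
    have := congrArg (Algebra.TensorProduct.basis 𝒪₁ b').equivFun h
    rwa [LinearEquiv.apply_symm_apply, map_zero] at this
  · intro i
    apply (Algebra.TensorProduct.basis 𝒪₁ b).equivFun.injective
    rw [s59etpx_coord 𝒪₁ b b (T i), map_smul, LinearEquiv.apply_symm_apply]
    refine s59etpx_mulVec_eig _ hg lam _ _ w hw (χ (τ i)) (χ₁ (τ i)) (hlam (τ i)) ?_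
    rw [← s59etpx_coord 𝒪 b b (T i), hxe, map_smul]
  · intro i
    apply (Algebra.TensorProduct.basis 𝒪₁ b').equivFun.injective
    rw [s59etpx_coord 𝒪₁ b' b' (T' i), map_smul, LinearEquiv.apply_symm_apply]
    refine s59etpx_mulVec_eig _ hg lam' _ _ w' hw' (χ (τ i)) (χ₁ (τ i)) (hlam' (τ i)) ?_
    rw [← s59etpx_coord 𝒪 b' b' (T' i), hye, map_smul]
  · intro k
    apply (Algebra.TensorProduct.basis 𝒪₁ b'').equivFun.injective
    rw [s59etpx_coord 𝒪₁ b' b'' (c k), map_zero, LinearEquiv.apply_symm_apply]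
    refine s59etpx_mulVec_zero _ hg lam' _ _ w' hw' ?_
    rw [← s59etpx_coord 𝒪 b' b'' (c k), hc, map_zero]

end Transfer

section Eigenchar

variable {Λ : Type u} [AddCommGroup Λ] [Module.Free ℤ Λ] [Module.Finite ℤ Λ]
  {ι : Type*} (T : ι → Λ →ₗ[ℤ] Λ)
  {𝒪 : Type*} [CommRing 𝒪] [IsDomain 𝒪]

/-- a simultaneous eigenvector of the `T i` is an eigenvector of the ring they generate -/
theorem s59etpx_eigen_mem (x : 𝒪 ⊗[ℤ] Λ) (ψ : ι → 𝒪)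
    (hxe : ∀ i, (T i).baseChange 𝒪 x = ψ i • x) (t : Module.End ℤ Λ)
    (ht : t ∈ Algebra.adjoin ℤ (Set.range T)) :
    ∃ a : 𝒪, LinearMap.baseChange 𝒪 t x = a • x := by
  induction ht using Algebra.adjoin_induction with
  | mem t ht =>
    obtain ⟨i, rfl⟩ := ht
    exact ⟨ψ i, hxe i⟩
  | algebraMap r =>
    refine ⟨(r : 𝒪), ?_⟩
    rw [Algebra.algebraMap_eq_smul_one, LinearMap.baseChange_smul, LinearMap.baseChange_one,
      LinearMap.smul_apply, Module.End.one_apply, ← Int.cast_smul_eq_zsmul 𝒪]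
  | add s t _ _ hs ht =>
    obtain ⟨a, ha⟩ := hs
    obtain ⟨a', ha'⟩ := ht
    exact ⟨a + a', by rw [LinearMap.baseChange_add, LinearMap.add_apply, ha, ha', add_smul]⟩
  | mul s t _ _ hs ht =>
    obtain ⟨a, ha⟩ := hs
    obtain ⟨a', ha'⟩ := ht
    exact ⟨a * a', by
      rw [LinearMap.baseChange_mul, Module.End.mul_apply, ha', map_smul, ha, smul_smul,
        mul_comm]⟩

/-- **the eigencharacter** of a simultaneous eigenvector `x ≠ 0` -/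
theorem s59etpx_eigenchar (x : 𝒪 ⊗[ℤ] Λ) (hx : x ≠ 0) (ψ : ι → 𝒪)
    (hxe : ∀ i, (T i).baseChange 𝒪 x = ψ i • x) :
    ∃ χ : ↥(Algebra.adjoin ℤ (Set.range T)) →+* 𝒪,
      (∀ t : ↥(Algebra.adjoin ℤ (Set.range T)),
        LinearMap.baseChange 𝒪 (t : Module.End ℤ Λ) x = χ t • x) ∧
      ∀ i, χ ⟨T i, Algebra.subset_adjoin ⟨i, rfl⟩⟩ = ψ i := by
  classical
  have hex : ∀ t : ↥(Algebra.adjoin ℤ (Set.range T)),
      ∃ a : 𝒪, LinearMap.baseChange 𝒪 (t : Module.End ℤ Λ) x = a • x :=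
    fun t => s59etpx_eigen_mem T x ψ hxe t.1 t.2
  choose a ha using hex
  have huniq : ∀ (t : ↥(Algebra.adjoin ℤ (Set.range T))) (a' : 𝒪),
      LinearMap.baseChange 𝒪 (t : Module.End ℤ Λ) x = a' • x → a t = a' := fun t a' h =>
    s59etpx_eig_unique x hx _ _ (by rw [← ha t, h])
  refine ⟨{ toFun := a
            map_one' := huniq 1 1 (by
              rw [OneMemClass.coe_one, LinearMap.baseChange_one, Module.End.one_apply, one_smul])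
            map_mul' := fun s t => huniq (s * t) _ (by
              rw [MulMemClass.coe_mul, LinearMap.baseChange_mul, Module.End.mul_apply, ha t,
                map_smul, ha s, smul_smul, mul_comm])
            map_zero' := huniq 0 0 (by
              rw [ZeroMemClass.coe_zero, LinearMap.baseChange_zero, LinearMap.zero_apply,
                zero_smul])
            map_add' := fun s t => huniq (s + t) _ (by
              rw [AddMemClass.coe_add, LinearMap.baseChange_add, LinearMap.add_apply, ha s,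
                ha t, add_smul]) }, ha, fun i => huniq _ _ (hxe i)⟩

end Eigenchar

section Main

open scoped IsMulCommutative

variable {Λ : Type u} [AddCommGroup Λ] [Module.Free ℤ Λ] [Module.Finite ℤ Λ]
  {Λ' : Type*} [AddCommGroup Λ'] [Module.Free ℤ Λ'] [Module.Finite ℤ Λ']
  {Λ'' : Type*} [AddCommGroup Λ''] [Module.Free ℤ Λ''] [Module.Finite ℤ Λ'']
  {ι κ : Type*} (T : ι → Λ →ₗ[ℤ] Λ) (T' : ι → Λ' →ₗ[ℤ] Λ') (c : κ → Λ' →ₗ[ℤ] Λ'')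

/-- **P-XFER**: change of the coefficient ring.  For commuting `T i` there is ONE `ℤ`-finite
commutative ring `𝕋` (the ring generated by the `T i`) such that, for every domain `𝒪₁` of
characteristic `0` which is big for `𝕋` and every domain `𝒪` of characteristic `0`: an
eigensystem `ψ` over `𝒪` with eigenvectors `x ≠ 0` in `𝒪 ⊗ Λ`, `y ≠ 0` in `𝒪 ⊗ Λ'`, `c k y = 0`,
gives an eigensystem `ψ₁` over `𝒪₁` with eigenvectors `x₁ ≠ 0`, `y₁ ≠ 0`, `c k y₁ = 0`. -/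
theorem s59etpx_main (hcomm : ∀ i j, T i * T j = T j * T i) :
    ∃ (𝕋 : Type u) (_ : CommRing 𝕋) (_ : Module.Finite ℤ 𝕋),
      ∀ (𝒪₁ : Type v) [CommRing 𝒪₁] [IsDomain 𝒪₁] [CharZero 𝒪₁],
        (∀ (B : Type v) [CommRing B] [IsDomain B] [Algebra 𝒪₁ B] (χ : 𝕋 →+* B) (t : 𝕋),
          χ t ∈ Set.range (algebraMap 𝒪₁ B)) →
        ∀ (𝒪 : Type w) [CommRing 𝒪] [IsDomain 𝒪] [CharZero 𝒪] (ψ : ι → 𝒪)
          (x : 𝒪 ⊗[ℤ] Λ), x ≠ 0 → (∀ i, (T i).baseChange 𝒪 x = ψ i • x) →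
          ∀ y : 𝒪 ⊗[ℤ] Λ', y ≠ 0 → (∀ i, (T' i).baseChange 𝒪 y = ψ i • y) →
            (∀ k, (c k).baseChange 𝒪 y = 0) →
            ∃ (ψ₁ : ι → 𝒪₁) (x₁ : 𝒪₁ ⊗[ℤ] Λ) (y₁ : 𝒪₁ ⊗[ℤ] Λ'), x₁ ≠ 0 ∧ y₁ ≠ 0 ∧
              (∀ i, (T i).baseChange 𝒪₁ x₁ = ψ₁ i • x₁) ∧
              (∀ i, (T' i).baseChange 𝒪₁ y₁ = ψ₁ i • y₁) ∧
              ∀ k, (c k).baseChange 𝒪₁ y₁ = 0 := by
  classical
  have hcomm' : ∀ a ∈ Set.range T, ∀ b ∈ Set.range T, a * b = b * a := by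
    rintro _ ⟨i, rfl⟩ _ ⟨j, rfl⟩
    exact hcomm i j
  haveI := Algebra.isMulCommutative_adjoin ℤ hcomm'
  letI instC : CommRing ↥(Algebra.adjoin ℤ (Set.range T)) := inferInstance
  haveI hfin : Module.Finite ℤ ↥(Algebra.adjoin ℤ (Set.range T)) :=
    Module.Finite.of_injective (Algebra.adjoin ℤ (Set.range T)).val.toLinearMap
      Subtype.val_injective
  refine ⟨↥(Algebra.adjoin ℤ (Set.range T)), instC, hfin, ?_⟩
  intro 𝒪₁ _ _ _ hbig 𝒪 _ _ _ ψ x hx hxe y hy hye hc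
  haveI : Algebra.IsIntegral ℤ ↥(Algebra.adjoin ℤ (Set.range T)) :=
    Algebra.IsIntegral.of_finite ℤ _
  obtain ⟨χ, hχ, hχψ⟩ := s59etpx_eigenchar T x hx ψ hxe
  obtain ⟨χ₁, x₁, y₁, hx₁, hy₁, h1, h2, h3⟩ := s59etpx_transfer_chi T T' c
    (fun i => (⟨T i, Algebra.subset_adjoin ⟨i, rfl⟩⟩ : ↥(Algebra.adjoin ℤ (Set.range T))))
    (𝒪₁ := 𝒪₁) χ (fun χ' t => hbig _ χ' t) x hx (fun i => by rw [hχψ]; exact hxe i)
    y hy (fun i => by rw [hχψ]; exact hye i) hc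
  exact ⟨fun i => χ₁ ⟨T i, Algebra.subset_adjoin ⟨i, rfl⟩⟩, x₁, y₁, hx₁, hy₁, h1, h2, h3⟩

/-- **P-XFER, multiplicity-one form**: if over a big `𝒪₁` every eigensystem which occurs in
`𝒪₁ ⊗ Λ` has no nonzero eigenvector in `𝒪₁ ⊗ Λ'` killed by the `c k`, then the same holds over
every domain `𝒪` of characteristic `0`. -/
theorem s59etpx_mult1 (hcomm : ∀ i j, T i * T j = T j * T i) :
    ∃ (𝕋 : Type u) (_ : CommRing 𝕋) (_ : Module.Finite ℤ 𝕋),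
      ∀ (𝒪₁ : Type v) [CommRing 𝒪₁] [IsDomain 𝒪₁] [CharZero 𝒪₁],
        (∀ (B : Type v) [CommRing B] [IsDomain B] [Algebra 𝒪₁ B] (χ : 𝕋 →+* B) (t : 𝕋),
          χ t ∈ Set.range (algebraMap 𝒪₁ B)) →
        (∀ (ψ₁ : ι → 𝒪₁) (x₁ : 𝒪₁ ⊗[ℤ] Λ), x₁ ≠ 0 →
          (∀ i, (T i).baseChange 𝒪₁ x₁ = ψ₁ i • x₁) →
          ∀ y₁ : 𝒪₁ ⊗[ℤ] Λ', (∀ i, (T' i).baseChange 𝒪₁ y₁ = ψ₁ i • y₁) →
            (∀ k, (c k).baseChange 𝒪₁ y₁ = 0) → y₁ = 0) →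
        ∀ (𝒪 : Type w) [CommRing 𝒪] [IsDomain 𝒪] [CharZero 𝒪] (ψ : ι → 𝒪)
          (x : 𝒪 ⊗[ℤ] Λ), x ≠ 0 → (∀ i, (T i).baseChange 𝒪 x = ψ i • x) →
          ∀ y : 𝒪 ⊗[ℤ] Λ', (∀ i, (T' i).baseChange 𝒪 y = ψ i • y) →
            (∀ k, (c k).baseChange 𝒪 y = 0) → y = 0 := by
  obtain ⟨𝕋, i1, i2, H⟩ := s59etpx_main.{u, v, w} T T' c hcomm
  refine ⟨𝕋, i1, i2, ?_⟩
  intro 𝒪₁ _ _ _ hbig h₁ 𝒪 _ _ _ ψ x hx hxe y hye hc
  by_contra hy
  obtain ⟨ψ₁, x₁, y₁, hx₁, hy₁, h1, h2, h3⟩ := H 𝒪₁ hbig 𝒪 ψ x hx hxe y hy hye hc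
  exact hy₁ (h₁ ψ₁ x₁ hx₁ h1 y₁ h2 h3)

end Main

end Fermat.Agent.S59
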