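import Fermat.Agent.S59.Eta.Mult1aFinal
import Fermat.Agent.S59.Eta.PStepXferT
import Fermat.Agent.S59.Eta.Big

/-!
# S59, wall M5 (P-STEP, ETA-P), leaf (1a-P) — E-MULT1a over ANY domain of characteristic `0`
(helper71)

`s59etpm_mult1a` : helper8's Prop `s59m1r_StmtMult1a 𝒪 N q ℓ hNq ψ` for EVERY domain `𝒪` of
characteristic `0` and EVERY prime `q ∤ N` — nothing about `q` versus the residue characteristic
of `𝒪` (in the application to the step `N ↦ N p`: `q := p`, `𝒪` the `p`-adic ring) — for an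
eigensystem `ψ` which occurs at level `N` (one `x ≠ 0` in `𝒪 ⊗ Lpar N`), for a family `ℓ i` of
primes `∤ N q` which contains every prime outside a finite set `S`.

Proof: E-MULT1a over a big `ℓ₁`-adic discrete valuation ring `𝒪₁` (`ℓ₁ ≠ q` prime, `ℓ₁ = 2` or
`3`; `s59m1a_stmtMult1a`, unconditional, with torsion prime `ℓ₁`; the big ring is helper56's
`s59big_exists_padic`), transferred to `𝒪` by helper56's P-XFER (`s59etpx_mult1`).

* `s59etpm_asm` : the same at the family of the good primes of a step, `S59asmI N q p`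
  (`= s59asm_M1a 𝒪 N q p ψ`, `S59/Eta/AsmRat.lean`), WITHOUT `q ≠ p` and without any hypothesis
  on `𝒪` beyond "domain of characteristic `0`".
-/

set_option autoImplicit false
set_option linter.style.haveILetI false
set_option linter.unusedSectionVars false
set_option linter.unusedVariables false

noncomputable section

namespace Fermat.Agent.S59

open CongruenceSubgroup Fermat.Agent.S41 IsLocalRing TensorProduct
open scoped MatrixGroups

/-- a prime different from `q` -/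
theorem s59etpm_exists_prime_ne (q : ℕ) : ∃ ℓ₁ : ℕ, ℓ₁.Prime ∧ q ≠ ℓ₁ := by
  by_cases h : q = 2
  · exact ⟨3, Nat.prime_three, by omega⟩
  · exact ⟨2, Nat.prime_two, h⟩

/-- **(1a-P): E-MULT1a over any domain of characteristic `0`, any prime `q ∤ N`.** -/
theorem s59etpm_mult1a (𝒪 : Type) [CommRing 𝒪] [IsDomain 𝒪] [CharZero 𝒪]
    (N q : ℕ) [NeZero N] [NeZero q] [hq : Fact q.Prime]
    {ι : Type} (ℓ : ι → ℕ) [hℓ : ∀ i, Fact (ℓ i).Prime]
    (hqN : ¬ q ∣ N) (hN : ∀ i, ¬ ℓ i ∣ N) (hNq : ∀ i, ¬ ℓ i ∣ N * q)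
    (ψ : ι → 𝒪) (S : Finset ℕ)
    (hall : ∀ r : ℕ, r.Prime → r ∉ S → ∃ i, ℓ i = r)
    (x : s59bccL 𝒪 (Lpar N)) (hx0 : x ≠ 0)
    (hx : ∀ i, s59bccMap 𝒪 (s59bcTcZ N (ℓ i) (hN i)) x = ψ i • x) :
    s59m1r_StmtMult1a 𝒪 N q ℓ hNq ψ := by
  classical
  obtain ⟨ℓ₁, hℓ₁, hqℓ₁⟩ := s59etpm_exists_prime_ne q
  haveI : Fact ℓ₁.Prime := ⟨hℓ₁⟩
  obtain ⟨𝕋, i1, i2, H⟩ := s59etpx_mult1.{0, 0, 0}
    (fun i => s59bcTcZ N (ℓ i) (hN i)) (fun i => s59bcTcZ (N * q) (ℓ i) (hNq i))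
    (fun b : Bool => if b then s59bcCoresZ N q else s59bcCoresDZ N q)
    (fun i j => LinearMap.ext fun z => s59bcTcZ_comm N (ℓ i) (hN i) (ℓ j) (hN j) z)
  obtain ⟨𝒪₁, j1, j2, j3, j4, j5, j6, φ, j7, hinj, hℓ₁𝒪₁, hbig⟩ := s59big_exists_padic ℓ₁ 𝕋
  have hN0 : N * q * ℓ₁ ≠ 0 :=
    Nat.mul_ne_zero (Nat.mul_ne_zero (NeZero.ne N) (NeZero.ne q)) hℓ₁.ne_zero
  intro u hu hc hd
  refine H 𝒪₁ hbig ?_ 𝒪 ψ x hx0 hx u hu ?_
  · intro ψ₁ x₁ hx₁0 hx₁ y₁ hy₁ hcy₁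
    have h1a := s59m1a_stmtMult1a (p := ℓ₁) 𝒪₁ hℓ₁𝒪₁ N q ℓ hqN hqℓ₁ hN hNq ψ₁
      (S ∪ (N * q * ℓ₁).primeFactors)
      (fun r hr hrS hd => hrS (Finset.mem_union_right _
        (Nat.mem_primeFactors.mpr ⟨hr, hd, hN0⟩)))
      (fun r hr hrS => hall r hr (fun h => hrS (Finset.mem_union_left _ h)))
      x₁ hx₁0 hx₁
    exact h1a y₁ hy₁ (hcy₁ true) (hcy₁ false)
  · intro b
    cases b
    · exact hd
    · exact hc

variable (𝒪 : Type) [CommRing 𝒪] [IsDomain 𝒪] [CharZero 𝒪]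
  (N q p : ℕ) [NeZero N] [NeZero q] [hq : Fact q.Prime]

/-- **(1a-P) at the family of the good primes of a step** (`= s59asm_M1a 𝒪 N q p ψ`), for any
domain of characteristic `0` and any primes `q ∤ N`, `p` (no `q ≠ p`). -/
theorem s59etpm_asm (hp : p.Prime) (hqN : ¬ q ∣ N)
    (ψ : ℕ → 𝒪) (x : s59asmL 𝒪 N) (hx : x ∈ s59asmE 𝒪 N p ψ) (hx0 : x ≠ 0) :
    s59asm_M1a 𝒪 N q p ψ := by
  classical
  have hNqp0 : N * q * p ≠ 0 :=
    Nat.mul_ne_zero (Nat.mul_ne_zero (NeZero.ne N) (NeZero.ne q)) hp.ne_zero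
  refine s59etpm_mult1a 𝒪 N q (hℓ := fun i => S59asmI.fact i)
    (fun i : S59asmI N q p => i.1) hqN (fun i => i.not_dvd) (fun i => i.not_dvd_mid)
    (fun i => ψ i.1) (N * q * p).primeFactors ?_ x hx0 ?_
  · intro r hr hrS
    have hd : ¬ r ∣ N * q * p := fun hd => hrS (Nat.mem_primeFactors.mpr ⟨hr, hd, hNqp0⟩)
    have hrN : ¬ r ∣ N := fun h => hd (dvd_mul_of_dvd_left (dvd_mul_of_dvd_left h q) p)
    have hrq : ¬ r ∣ q := fun h => hd (dvd_mul_of_dvd_left (dvd_mul_of_dvd_right h N) p)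
    have hrp : r ≠ p := fun h => hd (h ▸ dvd_mul_left r (N * q))
    have hrNqq : ¬ r ∣ N * q * q := by
      intro h
      rcases (Nat.Prime.dvd_mul hr).1 h with h1 | h1
      · rcases (Nat.Prime.dvd_mul hr).1 h1 with h2 | h2
        · exact hrN h2
        · exact hrq h2
      · exact hrq h1
    exact ⟨⟨r, hr, hrNqq, hrp⟩, rfl⟩
  · intro i
    haveI := S59asmI.fact i
    exact (s59asm_mem_E 𝒪 N).mp hx i.1 i.not_dvd i.2.2.2

end Fermat.Agent.S59
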