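/-
S59, wall R2 (ETA′) + wall M5 (ETA-P), piece **E-ASM**, part 7 (helper72): R2 UNCONDITIONAL.

The open inputs of `S59/Eta/AsmR2.lean` and `S59/Eta/AsmR2P.lean` are discharged by helper71's
`s59m1a_asm` (E-MULT1a, S59/Eta/Mult1aFinal.lean) and `s59etpm_mult1a` ((1a-P),
S59/Eta/PStepMult.lean):

* `s59asmr_h1a`  : `s59asmr_H1a p ψ`;  `s59asmr_h1aP` : `s59asmr_H1aP p ψ`;
* **`s59asmr_step_final`**  : the `q`-step `J_{M q²}(x') ≤ c_q(ψ q) · J_M(x)` (field `step` of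
  `S59R2Data`), hypotheses: `p ≠ 2`, `p ∈ 𝔪`, `W[p]` irreducible, `ψ ≡ a(W)` mod `𝔪`;
* **`s59asmr_stepP_final`** : the `p`-step `J_{M p}(x') ≤ ((p + 1)² − a²) · J_M(x)`, `T_p x = a x`.
-/
import Fermat.Agent.S59.Eta.AsmR2P
import Fermat.Agent.S59.Eta.Mult1aFinal
import Fermat.Agent.S59.Eta.PStepMult

set_option autoImplicit false
set_option linter.unusedSectionVars false
set_option linter.unusedVariables false
set_option linter.style.haveILetI false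
set_option linter.style.longLine false

noncomputable section

namespace Fermat.Agent.S59

open TensorProduct CongruenceSubgroup Fermat.Agent.S41 Fermat.Agent.S41.PD IsLocalRing

section Final

variable {𝒪 : Type} [CommRing 𝒪] [IsDomain 𝒪] [IsDiscreteValuationRing 𝒪]
  [IsAdicComplete (maximalIdeal 𝒪) 𝒪] [CharZero 𝒪] (p : ℕ) [Fact p.Prime]

omit [IsAdicComplete (maximalIdeal 𝒪) 𝒪] in
/-- **E-MULT1a at every step**, helper71 -/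
theorem s59asmr_h1a (hp𝒪 : (p : 𝒪) ∈ maximalIdeal 𝒪) (ψ : ℕ → 𝒪) : s59asmr_H1a p ψ :=
  fun N q _ _ _ hqN hqp x hx0 hx =>
    s59m1a_asm (𝒪 := 𝒪) (N := N) (q := q) (p := p) hp𝒪 hqN hqp ψ x hx hx0

omit [IsDiscreteValuationRing 𝒪] [IsAdicComplete (maximalIdeal 𝒪) 𝒪] in
/-- **(1a-P) at every `p`-step**, helper71 + helper56 -/
theorem s59asmr_h1aP [NeZero p] (ψ : ℕ → 𝒪) : s59asmr_H1aP p ψ := by
  classical
  intro N _ hpN x hx0 hx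
  have hp : p.Prime := Fact.out
  have hNp0 : N * p ≠ 0 := Nat.mul_ne_zero (NeZero.ne N) hp.ne_zero
  refine s59etpm_mult1a 𝒪 N p (hℓ := fun i => S59asmpI.fact i)
    (fun i : S59asmpI N p p => i.1) hpN (fun i => i.not_dvd) (fun i => i.2.2.1)
    (fun i => ψ i.1) (N * p).primeFactors ?_ x hx0 ?_
  · intro r hr hrS
    have hd : ¬ r ∣ N * p := fun hd => hrS (Nat.mem_primeFactors.mpr ⟨hr, hd, hNp0⟩)
    exact ⟨⟨r, hr, hd, fun h => hd (by rw [h]; exact dvd_mul_left p N)⟩, rfl⟩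
  · intro i
    exact @hx i.1 i.fact i.not_dvd i.2.2.2

/-- **(R2) THE `q`-STEP, unconditional** (= the field `step` of `S59R2Data`) -/
theorem s59asmr_step_final (hp2 : p ≠ 2) (hp𝒪 : (p : 𝒪) ∈ maximalIdeal 𝒪) (ψ : ℕ → 𝒪) {ϖ : 𝒪}
    (hϖ : Irreducible ϖ)
    (W : WeierstrassCurve ℤ) (hΔ : W.Δ ≠ 0) (hirr : W.ModRepIsIrreducible p) (S₀ : Finset ℕ)
    (hψW : s59asmr_CongW p ψ W S₀)
    (s : S59asmSt 𝒪) (q : ℕ) (hq : q.Prime) (hqM : ¬ q ∣ s.M) (hqp : q ≠ p)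
    (hs : s59asmGood p ψ ϖ s) :
    s59asmGood p ψ ϖ (s59asmNext ψ q s) ∧
      s59asmEta p ψ (s59asmNext ψ q s) ≤
        Ideal.span {s59p_cq 𝒪 q (ψ q)} * s59asmEta p ψ s :=
  s59asmr_step p hp2 hp𝒪 ψ hϖ W hΔ hirr S₀ hψW (s59asmr_h1a p hp𝒪 ψ) s q hq hqM hqp hs

/-- **(ETA-P) THE `p`-STEP, unconditional** -/
theorem s59asmr_stepP_final [NeZero p] (hp2 : p ≠ 2) (hp𝒪 : (p : 𝒪) ∈ maximalIdeal 𝒪)
    (ψ : ℕ → 𝒪) {ϖ : 𝒪} (hϖ : Irreducible ϖ)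
    (W : WeierstrassCurve ℤ) (hΔ : W.Δ ≠ 0) (hirr : W.ModRepIsIrreducible p) (S₀ : Finset ℕ)
    (hψW : s59asmr_CongW p ψ W S₀)
    (s : S59asmSt 𝒪) (hpM : ¬ p ∣ s.M) (a : 𝒪) (hs : s59asmGood p ψ ϖ s)
    (hxa : @s59asmT 𝒪 _ s.M ⟨s.hM⟩ p _ hpM s.x = a • s.x) :
    s59asmGood p ψ ϖ (s59asmNextP a p s) ∧
      s59asmEta p ψ (s59asmNextP a p s) ≤
        Ideal.span {((p : 𝒪) + 1) ^ 2 - a ^ 2} * s59asmEta p ψ s :=
  s59asmr_stepP p hp2 hp𝒪 ψ hϖ W hΔ hirr S₀ hψW (s59asmr_h1aP p ψ) s hpM a hs hxa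

end Final

end Fermat.Agent.S59

end
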