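/-
S59, wall R2 (ETA′) + wall M5 (ETA-P), piece **E-ASM**, part 8 (helper72): the fields of
helper76's interface `S59R2DataP` (S59/PStep/StepP.lean) — the chain WITH a `p`-step, any order.

`s59asmGoodP p ψ ϖ s` : `s` is good (a primitive `ψ`-eigenvector) and, as long as `p ∤ s.M`, an
eigenvector of `T_p` with the eigenvalue `ψ p`.

* **`s59asmrP_step`**  : the `q`-step keeps `GoodP`, `J' ≤ c_q(ψ q) · J` (`s59asm_dep_Tp`);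
* **`s59asmrP_stepP`** : the `p`-step, `nextP = s59asmNextP (ψ p) p`, `J' ≤ ((p + 1)² − (ψ p)²) · J`;
* `s59asmrP_base`  : a `GoodP` state of level `N₀` from a character of the Hecke algebra of level
  `N₀` away from the primes of `N₀` (`T_p` included);
* `s59asmrP_J_ne`, `s59asmrP_char`, `s59asmrP_gen` : as for `Good`.
-/
import Fermat.Agent.S59.Eta.AsmFinal

set_option autoImplicit false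
set_option linter.unusedSectionVars false
set_option linter.unusedVariables false
set_option linter.style.haveILetI false
set_option linter.style.longLine false

noncomputable section

namespace Fermat.Agent.S59

open TensorProduct CongruenceSubgroup Fermat.Agent.S41 Fermat.Agent.S41.PD IsLocalRing

section GoodP

variable {𝒪 : Type} [CommRing 𝒪]

/-- a good state of the chain with a `p`-step -/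
def s59asmGoodP (p : ℕ) [Fact p.Prime] (ψ : ℕ → 𝒪) (ϖ : 𝒪) (s : S59asmSt 𝒪) : Prop :=
  s59asmGood p ψ ϖ s ∧
    ∀ hpM : ¬ p ∣ s.M, @s59asmT 𝒪 _ s.M ⟨s.hM⟩ p _ hpM s.x = ψ p • s.x

variable [IsDomain 𝒪] [IsDiscreteValuationRing 𝒪] [IsAdicComplete (maximalIdeal 𝒪) 𝒪]
  [CharZero 𝒪] (p : ℕ) [Fact p.Prime]

/-- the `q`-step keeps `T_p x = ψ p • x` -/
theorem s59asmrP_next_Tp (ψ : ℕ → 𝒪) (s : S59asmSt 𝒪) (q : ℕ) (hq : q.Prime)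
    (h : ∀ hpM : ¬ p ∣ s.M, @s59asmT 𝒪 _ s.M ⟨s.hM⟩ p _ hpM s.x = ψ p • s.x) :
    ∀ hpM : ¬ p ∣ (s59asmNext ψ q s).M,
      @s59asmT 𝒪 _ (s59asmNext ψ q s).M ⟨(s59asmNext ψ q s).hM⟩ p _ hpM (s59asmNext ψ q s).x =
        ψ p • (s59asmNext ψ q s).x := by
  haveI : NeZero s.M := ⟨s.hM⟩
  haveI : NeZero q := ⟨hq.ne_zero⟩
  rw [s59asmNext_eq ψ q hq.ne_zero s]
  intro hpM'
  have hpM : ¬ p ∣ s.M := fun h0 => hpM' (Dvd.dvd.mul_right (Dvd.dvd.mul_right h0 q) q)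
  exact s59asm_dep_Tp 𝒪 s.M q p hpM hpM' (ψ p) (ψ q) s.x (h hpM)

/-- **the `q`-step for `GoodP`** (field `step`) -/
theorem s59asmrP_step (hp2 : p ≠ 2) (hp𝒪 : (p : 𝒪) ∈ maximalIdeal 𝒪) (ψ : ℕ → 𝒪) {ϖ : 𝒪}
    (hϖ : Irreducible ϖ)
    (W : WeierstrassCurve ℤ) (hΔ : W.Δ ≠ 0) (hirr : W.ModRepIsIrreducible p) (S₀ : Finset ℕ)
    (hψW : s59asmr_CongW p ψ W S₀)
    (s : S59asmSt 𝒪) (q : ℕ) (hq : q.Prime) (hqM : ¬ q ∣ s.M) (hqp : q ≠ p)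
    (hs : s59asmGoodP p ψ ϖ s) :
    s59asmGoodP p ψ ϖ (s59asmNext ψ q s) ∧
      s59asmEta p ψ (s59asmNext ψ q s) ≤
        Ideal.span {s59p_cq 𝒪 q (ψ q)} * s59asmEta p ψ s := by
  obtain ⟨h1, h2⟩ := s59asmr_step_final p hp2 hp𝒪 ψ hϖ W hΔ hirr S₀ hψW s q hq hqM hqp hs.1
  exact ⟨⟨h1, s59asmrP_next_Tp p ψ s q hq hs.2⟩, h2⟩

/-- **the `p`-step for `GoodP`** (field `stepP`) -/
theorem s59asmrP_stepP (hp2 : p ≠ 2) (hp𝒪 : (p : 𝒪) ∈ maximalIdeal 𝒪) (ψ : ℕ → 𝒪) {ϖ : 𝒪}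
    (hϖ : Irreducible ϖ)
    (W : WeierstrassCurve ℤ) (hΔ : W.Δ ≠ 0) (hirr : W.ModRepIsIrreducible p) (S₀ : Finset ℕ)
    (hψW : s59asmr_CongW p ψ W S₀)
    (s : S59asmSt 𝒪) (hpM : ¬ p ∣ s.M) (hs : s59asmGoodP p ψ ϖ s) :
    s59asmGoodP p ψ ϖ (s59asmNextP (ψ p) p s) ∧
      s59asmEta p ψ (s59asmNextP (ψ p) p s) ≤
        Ideal.span {((p : 𝒪) + 1) ^ 2 - ψ p ^ 2} * s59asmEta p ψ s := by
  have hp0 : p ≠ 0 := (Fact.out : p.Prime).ne_zero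
  haveI : NeZero p := ⟨hp0⟩
  obtain ⟨h1, h2⟩ := s59asmr_stepP_final p hp2 hp𝒪 ψ hϖ W hΔ hirr S₀ hψW s hpM (ψ p) hs.1
    (hs.2 hpM)
  refine ⟨⟨h1, fun hpM' => absurd ?_ hpM'⟩, h2⟩
  rw [s59asmNextP_M (ψ p) p hp0 s]
  exact dvd_mul_left p s.M

omit [IsAdicComplete (maximalIdeal 𝒪) 𝒪] in
/-- **the base for `GoodP`**: `S'` = the primes of `N₀` (so that `T_p` is in the Hecke algebra) -/
theorem s59asmrP_base (ψ : ℕ → 𝒪) {ϖ : 𝒪} (hϖ : Irreducible ϖ) (N0 : ℕ) [NeZero N0]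
    (S' : Set ℕ) (hS' : ∀ q : ℕ, q.Prime → q ∣ N0 → q ∈ S')
    (hS'sub : ∀ ℓ : ℕ, ℓ.Prime → ℓ ∈ S' → ℓ ∣ N0)
    (χ₀ : CuspForm.heckeAlgebra N0 2 S' →+* 𝒪)
    (hχ : ∀ (ℓ : ℕ) (hℓ : ℓ.Prime) (hℓN : ¬ ℓ ∣ N0) (hℓS : ℓ ∉ S'),
      χ₀ (CuspForm.heckeAlgebra.T hℓ hℓN hℓS) = ψ ℓ) :
    ∃ s : S59asmSt 𝒪, s.M = N0 ∧ s59asmGoodP p ψ ϖ s := by
  obtain ⟨x₀, hg, hall⟩ := s59asmr_base_Tp p ψ hϖ N0 S' hS' hS'sub χ₀ hχ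
  exact ⟨⟨N0, NeZero.ne N0, x₀⟩, rfl, hg, fun hpM => hall p hpM⟩

omit [IsAdicComplete (maximalIdeal 𝒪) 𝒪] in
/-- field `J_ne` -/
theorem s59asmrP_J_ne (ψ : ℕ → 𝒪) (ϖ : 𝒪) (s : S59asmSt 𝒪) (hs : s59asmGoodP p ψ ϖ s) :
    s59asmEta p ψ s ≠ ⊥ :=
  s59asmr_J_ne p ψ ϖ s hs.1

omit [IsDiscreteValuationRing 𝒪] [IsAdicComplete (maximalIdeal 𝒪) 𝒪] [CharZero 𝒪] in
/-- field `char` -/
theorem s59asmrP_char (ψ : ℕ → 𝒪) (ϖ : 𝒪) (s : S59asmSt 𝒪) [NeZero s.M]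
    (hs : s59asmGoodP p ψ ϖ s) (S : Finset ℕ) (hpS : p ∈ S)
    (hNS : ∀ ℓ : ℕ, ℓ.Prime → ℓ ∣ s.M → ℓ ∈ S) :
    ∃ χ : CuspForm.heckeAlgebra s.M 2 (↑S : Set ℕ) →+* 𝒪,
      ∀ (ℓ : ℕ) (hℓ : ℓ.Prime) (hℓN : ¬ ℓ ∣ s.M) (hℓS : ℓ ∉ (↑S : Set ℕ)),
        χ (CuspForm.heckeAlgebra.T hℓ hℓN hℓS) = ψ ℓ :=
  s59asmr_char p ψ ϖ s hs.1 S hpS hNS

/-- field `gen` -/
theorem s59asmrP_gen (ψ : ℕ → 𝒪) {ϖ : 𝒪} (hϖ : Irreducible ϖ) (s : S59asmSt 𝒪) [NeZero s.M]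
    (hs : s59asmGoodP p ψ ϖ s) (S : Finset ℕ) (hpS : p ∈ S)
    (hNS : ∀ ℓ : ℕ, ℓ.Prime → ℓ ∣ s.M → ℓ ∈ S)
    (hSsub : ∀ ℓ : ℕ, ℓ.Prime → ℓ ∈ S → ℓ = p ∨ ℓ ∣ s.M)
    (θ : CuspForm.heckeAlgebra s.M 2 (↑S : Set ℕ) →+* ResidueField 𝒪)
    (hbig : s59p_IsBig 𝒪 s.M (↑S : Set ℕ) θ)
    (T : Type) [CommRing T] [IsLocalRing T] [IsNoetherianRing T]
    [IsAdicComplete (maximalIdeal T) T] [Algebra 𝒪 T] [IsLocalHom (algebraMap 𝒪 T)]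
    [Module.Finite 𝒪 T] [Module.Free 𝒪 T]
    (H : CuspForm.HeckeGaloisRepDatum s.M (↑S : Set ℕ) 𝒪 θ T) (πT : T →ₐ[𝒪] 𝒪)
    (hsep : ∀ y : T, (∀ ψ' : T →ₐ[𝒪] 𝒪, ψ' y = 0) → y = 0)
    (heig : ∀ (ℓ : ℕ) (hℓ : ℓ.Prime) (hℓN : ¬ ℓ ∣ s.M) (hℓS : ℓ ∉ (↑S : Set ℕ)),
      πT (H.π (CuspForm.heckeAlgebra.T hℓ hℓN hℓS)) = ψ ℓ) :
    s59p_eta 𝒪 πT ≠ ⊥ ∧ s59p_eta 𝒪 πT ≤ s59asmEta p ψ s :=
  s59asmr_gen p ψ hϖ s hs.1 S hpS hNS hSsub θ hbig T H πT hsep heig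

end GoodP

end Fermat.Agent.S59

end
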