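/-
S59 Route A, ETA′ (R2), leaf **E-BIG** (helper56), part 2: ONE big ring for a FINITE FAMILY of
rings (the Hecke algebras of all the levels of Wiles' induction) in which, moreover, a given monic
integer polynomial splits.

* `s59bigcl_splits`      : a monic integer polynomial which splits in `L` splits in
                           `integralClosure 𝒪₀ L`;
* `s59big_exists_fam`    : `𝒪₀` complete DVR (char 0, finite residue field), `T i` (`i` in a finite
                           type) commutative rings, finite over `ℤ`, `P₀` monic in `ℤ[X]` ⇒ a complete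
                           DVR `𝒪`, finite free over `𝒪₀`, in which `P₀` splits, such that every ring
                           hom from any `T i` to a domain over `𝒪` has its values in `𝒪`;
* `s59big_exists_fam_padic` : the same over `ℤ_p`.
Mathlib + `S59/Eta/Big.lean`.
-/
import Mathlib
import Fermat.Agent.S59.Eta.Big

set_option autoImplicit false
set_option linter.unusedVariables false
set_option linter.unusedSectionVars false
set_option linter.style.haveILetI false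

noncomputable section

namespace Fermat.Agent.S59

open IsLocalRing Polynomial

/-- a monic integer polynomial which splits in `L` splits in `integralClosure 𝒪₀ L` -/
theorem s59bigcl_splits (𝒪₀ : Type*) [CommRing 𝒪₀] (L : Type*) [Field L] [Algebra 𝒪₀ L]
    {Q : ℤ[X]} (hQ : Q.Monic) (hsp : (Q.map (Int.castRingHom L)).Splits) :
    (Q.map (Int.castRingHom (integralClosure 𝒪₀ L))).Splits := by
  have hinj : Function.Injective (algebraMap (integralClosure 𝒪₀ L) L) :=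
    Subtype.val_injective
  have h1 : (algebraMap (integralClosure 𝒪₀ L) L).comp
      (Int.castRingHom (integralClosure 𝒪₀ L)) = Int.castRingHom L := RingHom.ext_int _ _
  have hmap : (Q.map (Int.castRingHom (integralClosure 𝒪₀ L))).map
      (algebraMap (integralClosure 𝒪₀ L) L) = Q.map (Int.castRingHom L) := by
    rw [Polynomial.map_map, h1]
  refine Splits.of_splits_map_of_injective hinj (by rw [hmap]; exact hsp) ?_
  intro a ha
  rw [hmap] at ha
  have ha0 : IsIntegral ℤ a := by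
    refine ⟨Q, hQ, ?_⟩
    have := (mem_roots (hQ.map _).ne_zero).mp ha
    rw [IsRoot.def, eval_map] at this
    have h3 : algebraMap ℤ L = Int.castRingHom L := RingHom.ext_int _ _
    rw [h3]
    exact this
  have ha1 : IsIntegral 𝒪₀ a := ha0.tower_top
  exact ⟨⟨a, ha1⟩, rfl⟩

section Fam

universe u v w

variable (𝒪₀ : Type u) [CommRing 𝒪₀] [IsDomain 𝒪₀] [IsDiscreteValuationRing 𝒪₀]
  [IsAdicComplete (maximalIdeal 𝒪₀) 𝒪₀] [CharZero 𝒪₀]

/-- **E-BIG for a finite family, with a polynomial to split.** -/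
theorem s59big_exists_fam [Finite (ResidueField 𝒪₀)] {ι : Type*} [Finite ι] (T : ι → Type w)
    [∀ i, CommRing (T i)] [∀ i, Module.Finite ℤ (T i)] (P₀ : ℤ[X]) (hP₀ : P₀.Monic) :
    ∃ (𝒪 : Type u) (_ : CommRing 𝒪) (_ : IsDomain 𝒪) (_ : IsDiscreteValuationRing 𝒪)
      (_ : IsAdicComplete (maximalIdeal 𝒪) 𝒪) (_ : Finite (ResidueField 𝒪)) (_ : CharZero 𝒪)
      (_ : Algebra 𝒪₀ 𝒪) (_ : Module.Finite 𝒪₀ 𝒪) (_ : Module.Free 𝒪₀ 𝒪)
      (_ : IsLocalHom (algebraMap 𝒪₀ 𝒪)),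
      Function.Injective (algebraMap 𝒪₀ 𝒪) ∧
      (P₀.map (Int.castRingHom 𝒪)).Splits ∧
      ∀ (i : ι) (B : Type v) [CommRing B] [IsDomain B] [Algebra 𝒪 B] (χ : T i →+* B) (t : T i),
        χ t ∈ Set.range (algebraMap 𝒪 B) := by
  classical
  haveI : Fintype ι := Fintype.ofFinite ι
  obtain ⟨P₁, hP₁, s, hs, hQ⟩ := s59big_exists_poly (∀ i, T i)
  have hP : (P₀ * P₁).Monic := hP₀.mul hP₁
  have hQ' : ∀ t ∈ s, ∃ Q : ℤ[X], Q.Monic ∧ Q ∣ P₀ * P₁ ∧
      Polynomial.eval₂ (Int.castRingHom (∀ i, T i)) t Q = 0 := by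
    intro t ht
    obtain ⟨Q, h1, h2, h3⟩ := hQ t ht
    exact ⟨Q, h1, h2.mul_left _, h3⟩
  haveI : CharZero (FractionRing 𝒪₀) := s59bigcl_charZero_frac 𝒪₀
  haveI hdvr := s59bigcl_isDVR 𝒪₀ (s59bigField 𝒪₀ (P₀ * P₁))
  have hsp0 : (P₀.map (Int.castRingHom (s59bigRing 𝒪₀ (P₀ * P₁)))).Splits := by
    apply s59bigcl_splits 𝒪₀ (s59bigField 𝒪₀ (P₀ * P₁)) hP₀
    exact (s59bigField_splits 𝒪₀ (P₀ * P₁)).of_dvd
      (hP.map (Int.castRingHom (s59bigField 𝒪₀ (P₀ * P₁)))).ne_zero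
      (Polynomial.map_dvd (Int.castRingHom (s59bigField 𝒪₀ (P₀ * P₁))) (dvd_mul_right P₀ P₁))
  refine ⟨s59bigRing 𝒪₀ (P₀ * P₁), inferInstance, inferInstance, hdvr,
    s59bigcl_isAdicComplete 𝒪₀ (s59bigField 𝒪₀ (P₀ * P₁)),
    s59bigcl_finite_residueField 𝒪₀ (s59bigField 𝒪₀ (P₀ * P₁)),
    s59bigcl_charZero 𝒪₀ (s59bigField 𝒪₀ (P₀ * P₁)), inferInstance,
    s59bigcl_finite 𝒪₀ (s59bigField 𝒪₀ (P₀ * P₁)), s59bigcl_free 𝒪₀ (s59bigField 𝒪₀ (P₀ * P₁)),
    s59bigcl_isLocalHom 𝒪₀ (s59bigField 𝒪₀ (P₀ * P₁)),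
    s59bigcl_injective 𝒪₀ (s59bigField 𝒪₀ (P₀ * P₁)), hsp0, ?_⟩
  intro i B _ _ _ χ t
  have h := s59bigRing_point_mem_range 𝒪₀ hP hs hQ' (χ.comp (Pi.evalRingHom T i))
    (Pi.single i t)
  simpa using h

end Fam

/-- **E-BIG over `ℤ_p`, for a finite family, with a polynomial to split.** -/
theorem s59big_exists_fam_padic (p : ℕ) [Fact p.Prime] {ι : Type*} [Finite ι] (T : ι → Type)
    [∀ i, CommRing (T i)] [∀ i, Module.Finite ℤ (T i)] (P₀ : ℤ[X]) (hP₀ : P₀.Monic) :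
    ∃ (𝒪 : Type) (_ : CommRing 𝒪) (_ : IsDomain 𝒪) (_ : IsDiscreteValuationRing 𝒪)
      (_ : IsAdicComplete (maximalIdeal 𝒪) 𝒪) (_ : Finite (ResidueField 𝒪)) (_ : CharZero 𝒪)
      (φ : ℤ_[p] →+* 𝒪) (_ : IsLocalHom φ),
      Function.Injective φ ∧ (p : 𝒪) ∈ maximalIdeal 𝒪 ∧
      (P₀.map (Int.castRingHom 𝒪)).Splits ∧
      ∀ (i : ι) (B : Type) [CommRing B] [IsDomain B] [Algebra 𝒪 B] (χ : T i →+* B) (t : T i),
        χ t ∈ Set.range (algebraMap 𝒪 B) := by
  obtain ⟨𝒪, i1, i2, i3, i4, i5, i6, i7, i8, i9, i10, hinj, hsp, hbig⟩ :=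
    s59big_exists_fam.{0, 0, 0} ℤ_[p] T P₀ hP₀
  refine ⟨𝒪, i1, i2, i3, i4, i5, i6, algebraMap ℤ_[p] 𝒪, i10, hinj, ?_, hsp, hbig⟩
  have h1 : (p : ℤ_[p]) ∈ maximalIdeal ℤ_[p] := by
    rw [PadicInt.maximalIdeal_eq_span_p]
    exact Ideal.mem_span_singleton_self _
  have h2 : ¬ IsUnit (algebraMap ℤ_[p] 𝒪 (p : ℤ_[p])) := fun h =>
    (IsLocalRing.mem_maximalIdeal _).mp h1 (i10.map_nonunit _ h)
  rw [IsLocalRing.mem_maximalIdeal]
  simpa using h2

end Fermat.Agent.S59
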