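/-
S59 Route A, ETA′ (R2), leaf **E-BIG** (helper56), part 3: the coefficient ring `𝒪` is BIG, in the
LITERAL shape `s59p_IsBig` of `S59/PlanArith.lean`, for a FINITE FAMILY of Hecke algebras
`heckeAlgebra (N i) 2 (S i)` at once (all the levels of Wiles' induction), over `ℤ_p`; moreover a
given monic integer polynomial `P₀` splits in `𝒪` (use it to make the residue field large).

The finiteness `Module.Finite ℤ (heckeAlgebra N 2 S)` is S22 (on main: `Fermat.Agent.S22.result`);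
it is an explicit hypothesis here to keep the imports light.
-/
import Fermat.Agent.S59.Eta.BigFam
import Fermat.Agent.S59.PlanArith

set_option autoImplicit false
set_option linter.unusedVariables false
set_option linter.unusedSectionVars false
set_option linter.style.haveILetI false

noncomputable section

namespace Fermat.Agent.S59

open IsLocalRing Polynomial

/-- bigness in the shape `s59p_IsBig` from the values of points -/
theorem s59big_isBig_of_range (𝒪 : Type) [CommRing 𝒪] [IsDomain 𝒪] [IsDiscreteValuationRing 𝒪]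
    [IsAdicComplete (maximalIdeal 𝒪) 𝒪] [Finite (ResidueField 𝒪)]
    (N : ℕ) [NeZero N] (S : Set ℕ)
    (h : ∀ (B : Type) [CommRing B] [IsDomain B] [Algebra 𝒪 B]
      (χ : CuspForm.heckeAlgebra N 2 S →+* B) (t : CuspForm.heckeAlgebra N 2 S),
      χ t ∈ Set.range (algebraMap 𝒪 B))
    (θ : CuspForm.heckeAlgebra N 2 S →+* ResidueField 𝒪) : s59p_IsBig 𝒪 N S θ := by
  intro 𝒪₁ _ _ _ _ _ _ χ₁ _ t
  exact h 𝒪₁ χ₁ t

/-- **E-BIG**: for finitely many levels `(N i, S i)` there is ONE complete discrete valuation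
ring `𝒪` of characteristic `0` with finite residue field, with a local injective
`φ : ℤ_p → 𝒪`, in which `P₀` splits, and which is big (`s59p_IsBig`) for every level and every
residual system `θ`. -/
theorem s59big_isBig (p : ℕ) [Fact p.Prime] {ι : Type*} [Finite ι] (N : ι → ℕ)
    [∀ i, NeZero (N i)] (S : ι → Set ℕ)
    (hfin : ∀ i, Module.Finite ℤ (CuspForm.heckeAlgebra (N i) 2 (S i)))
    (P₀ : ℤ[X]) (hP₀ : P₀.Monic) :
    ∃ (𝒪 : Type) (_ : CommRing 𝒪) (_ : IsDomain 𝒪) (_ : IsDiscreteValuationRing 𝒪)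
      (_ : IsAdicComplete (maximalIdeal 𝒪) 𝒪) (_ : Finite (ResidueField 𝒪)) (_ : CharZero 𝒪)
      (φ : ℤ_[p] →+* 𝒪) (_ : IsLocalHom φ),
      Function.Injective φ ∧ (p : 𝒪) ∈ maximalIdeal 𝒪 ∧
      (P₀.map (Int.castRingHom 𝒪)).Splits ∧
      ∀ (i : ι) (θ : CuspForm.heckeAlgebra (N i) 2 (S i) →+* ResidueField 𝒪),
        s59p_IsBig 𝒪 (N i) (S i) θ := by
  haveI := hfin
  obtain ⟨𝒪, i1, i2, i3, i4, i5, i6, φ, i8, hinj, hp, hsp, hbig⟩ :=
    s59big_exists_fam_padic p (fun i => CuspForm.heckeAlgebra (N i) 2 (S i)) P₀ hP₀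
  exact ⟨𝒪, i1, i2, i3, i4, i5, i6, φ, i8, hinj, hp, hsp,
    fun i θ => s59big_isBig_of_range 𝒪 (N i) (S i) (fun B _ _ _ χ t => hbig i B χ t) θ⟩

/-- **E-BIG, one level** (`ι = Unit`, `P₀ = 1`). -/
theorem s59big_isBig_one (p : ℕ) [Fact p.Prime] (N : ℕ) [NeZero N] (S : Set ℕ)
    (hfin : Module.Finite ℤ (CuspForm.heckeAlgebra N 2 S)) :
    ∃ (𝒪 : Type) (_ : CommRing 𝒪) (_ : IsDomain 𝒪) (_ : IsDiscreteValuationRing 𝒪)
      (_ : IsAdicComplete (maximalIdeal 𝒪) 𝒪) (_ : Finite (ResidueField 𝒪)) (_ : CharZero 𝒪)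
      (φ : ℤ_[p] →+* 𝒪) (_ : IsLocalHom φ),
      Function.Injective φ ∧ (p : 𝒪) ∈ maximalIdeal 𝒪 ∧
      ∀ θ : CuspForm.heckeAlgebra N 2 S →+* ResidueField 𝒪, s59p_IsBig 𝒪 N S θ := by
  obtain ⟨𝒪, i1, i2, i3, i4, i5, i6, φ, i8, hinj, hp, -, hbig⟩ :=
    s59big_isBig p (ι := Unit) (fun _ => N) (fun _ => S) (fun _ => hfin) 1 monic_one
  exact ⟨𝒪, i1, i2, i3, i4, i5, i6, φ, i8, hinj, hp, fun θ => hbig () θ⟩

end Fermat.Agent.S59
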