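/-
S59, wall M5 (P-STEP), leaf **E-EIGP** (helper72, asked by helper76): every eigensystem of the
Hecke algebra of level `N` away from `S ∋ p` (`p ∤ N`) is realised by a PRIMITIVE vector of
`𝒪 ⊗ Hom_par(Γ₀(N), ℤ)` which is an eigenvector of `T_p` too.

* `s59eigp_field` : over an algebraically closed field `B` of characteristic `0`, every character
  `χ` of `𝕋_S = heckeAlgebra N 2 S` extends to a character `χ₁` of `𝕋_{S ∖ p} ∋ T_p`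
  (a `T_p`-eigenvector in the `χ`-eigenspace of `B ⊗ Lpar N`, then E-CHAR `s59nza_char`);
* **`s59eigp_exists`** : `𝒪` a discrete valuation ring of characteristic `0` which is big for
  `(N, S ∖ p)` (helper56's range form `hbigP`), `χ' : 𝕋_S →+* 𝒪`: there are a primitive
  `x ∈ 𝒪 ⊗ Lpar N` and `a ∈ 𝒪` with `T_ℓ x = χ'(T_ℓ) x` (`ℓ ∤ N`, `ℓ ∉ S`) and `T_p x = a x`;
  more precisely `χ₁ : 𝕋_{S ∖ p} →+* 𝒪` extending `χ'`, `a = χ₁(T_p)` (`s59eigp_exists_char`).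
-/
import Mathlib
import Fermat.Prelude.Def_CuspForm_HeckeGaloisRepDatum
import Fermat.Agent.S59.Eta.Base
import Fermat.Agent.S59.Eta.NonZeroChar

set_option autoImplicit false
set_option linter.unusedSectionVars false
set_option linter.unusedVariables false
set_option linter.style.haveILetI false
set_option linter.style.longLine false

noncomputable section

namespace Fermat.Agent.S59

open TensorProduct CongruenceSubgroup Fermat.Agent.S41 Fermat.Agent.S41.PD IsLocalRing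

section EigP

variable {N : ℕ} [NeZero N] {S : Set ℕ}

theorem s59eigp_hS₁ (hS : ∀ q : ℕ, q.Prime → q ∣ N → q ∈ S) {p : ℕ} (hpN : ¬ p ∣ N) :
    ∀ q : ℕ, q.Prime → q ∣ N → q ∈ S \ {p} := fun q hq h =>
  ⟨hS q hq h, fun hqp => hpN (by rw [← (Set.mem_singleton_iff.1 hqp)]; exact h)⟩

/-- the Hecke operators `T_p`, `T_ℓ` commute on `B ⊗ Lpar N` -/
theorem s59eigp_comm (B : Type) [CommRing B] (hS : ∀ q : ℕ, q.Prime → q ∣ N → q ∈ S)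
    (p : ℕ) [Fact p.Prime] (hpN : ¬ p ∣ N) (ℓ : ℕ) [Fact ℓ.Prime] (hℓN : ¬ ℓ ∣ N) (hℓS : ℓ ∉ S)
    (y : B ⊗[ℤ] ↥(Lpar N)) :
    (s59bcTcZ N p hpN).baseChange B ((s59bcTcZ N ℓ hℓN).baseChange B y) =
      (s59bcTcZ N ℓ hℓN).baseChange B ((s59bcTcZ N p hpN).baseChange B y) := by
  have hS₁ := s59eigp_hS₁ hS hpN
  have hℓS₁ : ℓ ∉ S \ {p} := fun h => hℓS h.1
  have hpS₁ : p ∉ S \ {p} := fun h => h.2 rfl
  have e1 := s59trbcTheta_T B hS₁ ℓ hℓN hℓS₁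
  have e2 := s59trbcTheta_T B hS₁ p hpN hpS₁
  rw [s59nz_trTc_eq] at e1 e2
  rw [← e1, ← e2, ← Module.End.mul_apply, ← Module.End.mul_apply, ← map_mul, ← map_mul, mul_comm]

/-- **extension of a character to `T_p`**, over an algebraically closed field -/
theorem s59eigp_field (B : Type) [Field B] [CharZero B] [IsAlgClosed B]
    (hS : ∀ q : ℕ, q.Prime → q ∣ N → q ∈ S) (p : ℕ) [Fact p.Prime] (hpN : ¬ p ∣ N)
    (χ : ↥(CuspForm.heckeAlgebra N 2 S) →+* B) :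
    ∃ χ₁ : ↥(CuspForm.heckeAlgebra N 2 (S \ {p})) →+* B,
      ∀ (ℓ : ℕ) (hℓ : ℓ.Prime) (hℓN : ¬ ℓ ∣ N) (hℓS : ℓ ∉ S) (hℓS₁ : ℓ ∉ S \ {p}),
        χ₁ (CuspForm.heckeAlgebra.T hℓ hℓN hℓS₁) = χ (CuspForm.heckeAlgebra.T hℓ hℓN hℓS) := by
  classical
  have hS₁ := s59eigp_hS₁ hS hpN
  haveI := s59tr_finite_Lpar N
  obtain ⟨v₀, hv₀, hv⟩ := s59treig_exists_T B hS χ
  simp only [s59nz_trTc_eq] at hv
  -- the eigenspace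
  let E : Submodule B (B ⊗[ℤ] ↥(Lpar N)) :=
    { carrier := {y | ∀ (ℓ : ℕ) [hℓ : Fact ℓ.Prime] (hℓN : ¬ ℓ ∣ N) (hℓS : ℓ ∉ S),
        (s59bcTcZ N ℓ hℓN).baseChange B y = χ (CuspForm.heckeAlgebra.T hℓ.out hℓN hℓS) • y}
      zero_mem' := fun ℓ _ hℓN hℓS => by rw [map_zero, smul_zero]
      add_mem' := fun {y z} hy hz ℓ _ hℓN hℓS => by
        rw [map_add, hy ℓ hℓN hℓS, hz ℓ hℓN hℓS, smul_add]
      smul_mem' := fun c y hy ℓ _ hℓN hℓS => by rw [map_smul, hy ℓ hℓN hℓS, smul_comm] }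
  have hE : ∀ y, y ∈ E ↔ ∀ (ℓ : ℕ) [hℓ : Fact ℓ.Prime] (hℓN : ¬ ℓ ∣ N) (hℓS : ℓ ∉ S),
      (s59bcTcZ N ℓ hℓN).baseChange B y = χ (CuspForm.heckeAlgebra.T hℓ.out hℓN hℓS) • y :=
    fun y => Iff.rfl
  have hv₀E : v₀ ∈ E := (hE v₀).2 (fun ℓ _ hℓN hℓS => hv ℓ hℓN hℓS)
  -- `T_p` preserves the eigenspace
  have hstab : ∀ y ∈ E, (s59bcTcZ N p hpN).baseChange B y ∈ E := by
    intro y hy
    rw [hE] at hy ⊢
    intro ℓ _ hℓN hℓS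
    rw [← s59eigp_comm B hS p hpN ℓ hℓN hℓS y, hy ℓ hℓN hℓS, map_smul]
  let g : Module.End B ↥E := ((s59bcTcZ N p hpN).baseChange B).restrict hstab
  haveI : Nontrivial ↥E := ⟨⟨⟨v₀, hv₀E⟩, 0, fun h => hv₀ (congrArg Subtype.val h)⟩⟩
  obtain ⟨c, hc⟩ := Module.End.exists_eigenvalue g
  obtain ⟨w, hw⟩ := hc.exists_hasEigenvector
  have hw0 : (w : B ⊗[ℤ] ↥(Lpar N)) ≠ 0 := fun h => hw.2 (Subtype.ext h)
  have hwp : (s59bcTcZ N p hpN).baseChange B (w : B ⊗[ℤ] ↥(Lpar N)) =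
      c • (w : B ⊗[ℤ] ↥(Lpar N)) := by
    have h1 := hw.apply_eq_smul
    have h2 := congrArg Subtype.val h1
    exact h2
  have hwE := (hE _).1 w.2
  -- the eigenvalues, as a function on `ℕ`
  have hex : ∀ (ℓ : ℕ) [Fact ℓ.Prime] (hℓN : ¬ ℓ ∣ N), ℓ ∉ S \ {p} →
      ∃ c' : B, (s59bcTcZ N ℓ hℓN).baseChange B (w : B ⊗[ℤ] ↥(Lpar N)) =
        c' • (w : B ⊗[ℤ] ↥(Lpar N)) := by
    intro ℓ hℓP hℓN hℓS₁
    by_cases hℓS : ℓ ∈ S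
    · have hℓp : ℓ = p := by
        by_contra h
        exact hℓS₁ ⟨hℓS, h⟩
      subst hℓp
      exact ⟨c, hwp⟩
    · exact ⟨_, hwE ℓ hℓN hℓS⟩
  let ψB : ℕ → B := fun ℓ =>
    if h : ∃ c' : B, ∃ (hℓ : ℓ.Prime) (hℓN : ¬ ℓ ∣ N),
        (@s59bcTcZ N _ ℓ ⟨hℓ⟩ hℓN).baseChange B (w : B ⊗[ℤ] ↥(Lpar N)) =
          c' • (w : B ⊗[ℤ] ↥(Lpar N)) then h.choose else 0
  have hψB : ∀ (ℓ : ℕ) [Fact ℓ.Prime] (hℓN : ¬ ℓ ∣ N), ℓ ∉ S \ {p} →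
      (s59bcTcZ N ℓ hℓN).baseChange B (w : B ⊗[ℤ] ↥(Lpar N)) =
        ψB ℓ • (w : B ⊗[ℤ] ↥(Lpar N)) := by
    intro ℓ hℓP hℓN hℓS₁
    obtain ⟨c', hc'⟩ := hex ℓ hℓN hℓS₁
    have h : ∃ c' : B, ∃ (hℓ : ℓ.Prime) (hℓN : ¬ ℓ ∣ N),
        (@s59bcTcZ N _ ℓ ⟨hℓ⟩ hℓN).baseChange B (w : B ⊗[ℤ] ↥(Lpar N)) =
          c' • (w : B ⊗[ℤ] ↥(Lpar N)) := ⟨c', hℓP.out, hℓN, hc'⟩
    have h2 : ψB ℓ = h.choose := dif_pos h
    obtain ⟨_, _, h3⟩ := h.choose_spec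
    rw [h2]
    exact h3
  obtain ⟨χ₁, hχ₁, -⟩ := s59nza_char hS₁ ψB (w : B ⊗[ℤ] ↥(Lpar N)) hw0 hψB
  refine ⟨χ₁, fun ℓ hℓ hℓN hℓS hℓS₁ => ?_⟩
  haveI : Fact ℓ.Prime := ⟨hℓ⟩
  rw [hχ₁ ℓ hℓ hℓN hℓS₁]
  apply s59nza_unique hw0
  rw [← hψB ℓ hℓN hℓS₁]
  exact hwE ℓ hℓN hℓS

variable {𝒪 : Type} [CommRing 𝒪] [IsDomain 𝒪] [IsDiscreteValuationRing 𝒪] [CharZero 𝒪]

/-- **E-EIGP, character form**: `χ'` extends to a character `χ₁ : 𝕋_{S ∖ p} →+* 𝒪` if `𝒪` is big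
for `(N, S ∖ p)`. -/
theorem s59eigp_exists_char (hS : ∀ q : ℕ, q.Prime → q ∣ N → q ∈ S) (p : ℕ) [Fact p.Prime]
    (hpN : ¬ p ∣ N)
    (hbigP : ∀ (B : Type) [CommRing B] [IsDomain B] [Algebra 𝒪 B]
      (χ : ↥(CuspForm.heckeAlgebra N 2 (S \ {p})) →+* B)
      (t : ↥(CuspForm.heckeAlgebra N 2 (S \ {p}))), χ t ∈ Set.range (algebraMap 𝒪 B))
    (χ' : ↥(CuspForm.heckeAlgebra N 2 S) →+* 𝒪) :
    ∃ χ₁ : ↥(CuspForm.heckeAlgebra N 2 (S \ {p})) →+* 𝒪,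
      ∀ (ℓ : ℕ) (hℓ : ℓ.Prime) (hℓN : ¬ ℓ ∣ N) (hℓS : ℓ ∉ S) (hℓS₁ : ℓ ∉ S \ {p}),
        χ₁ (CuspForm.heckeAlgebra.T hℓ hℓN hℓS₁) = χ' (CuspForm.heckeAlgebra.T hℓ hℓN hℓS) := by
  classical
  let K := FractionRing 𝒪
  let B := AlgebraicClosure K
  have hinjK : Function.Injective (algebraMap 𝒪 K) := IsFractionRing.injective 𝒪 K
  haveI : CharZero K := charZero_of_injective_algebraMap hinjK
  haveI : CharZero B := charZero_of_injective_algebraMap (algebraMap K B).injective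
  let f : 𝒪 →+* B := (algebraMap K B).comp (algebraMap 𝒪 K)
  have hf : Function.Injective f := (algebraMap K B).injective.comp hinjK
  letI : Algebra 𝒪 B := f.toAlgebra
  have hfa : algebraMap 𝒪 B = f := rfl
  obtain ⟨χB, hχB⟩ := s59eigp_field B hS p hpN (f.comp χ')
  have hr : ∀ t, χB t ∈ f.range := by
    intro t
    obtain ⟨a, ha⟩ := hbigP B χB t
    exact ⟨a, by rw [← ha, hfa]⟩
  let e : 𝒪 ≃+* ↥f.range := RingEquiv.ofBijective f.rangeRestrict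
    ⟨fun a b h => hf (congrArg Subtype.val h), f.rangeRestrict_surjective⟩
  have he : ∀ y : ↥f.range, f (e.symm y) = (y : B) := by
    intro y
    have h1 : e (e.symm y) = y := e.apply_symm_apply y
    exact congrArg Subtype.val h1
  refine ⟨e.symm.toRingHom.comp (χB.codRestrict f.range hr), fun ℓ hℓ hℓN hℓS hℓS₁ => ?_⟩
  apply hf
  have h2 : f ((e.symm.toRingHom.comp (χB.codRestrict f.range hr))
      (CuspForm.heckeAlgebra.T hℓ hℓN hℓS₁)) = χB (CuspForm.heckeAlgebra.T hℓ hℓN hℓS₁) :=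
    he _
  rw [h2, hχB ℓ hℓ hℓN hℓS hℓS₁]
  rfl

/-- **E-EIGP**: a primitive `χ'`-eigenvector which is an eigenvector of `T_p`. -/
theorem s59eigp_exists (hS : ∀ q : ℕ, q.Prime → q ∣ N → q ∈ S) (p : ℕ) [Fact p.Prime]
    (hpN : ¬ p ∣ N)
    (hbigP : ∀ (B : Type) [CommRing B] [IsDomain B] [Algebra 𝒪 B]
      (χ : ↥(CuspForm.heckeAlgebra N 2 (S \ {p})) →+* B)
      (t : ↥(CuspForm.heckeAlgebra N 2 (S \ {p}))), χ t ∈ Set.range (algebraMap 𝒪 B))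
    (χ' : ↥(CuspForm.heckeAlgebra N 2 S) →+* 𝒪) {ϖ : 𝒪} (hϖ : Irreducible ϖ) :
    ∃ (x : 𝒪 ⊗[ℤ] ↥(Lpar N)) (a : 𝒪), (∀ v : 𝒪 ⊗[ℤ] ↥(Lpar N), x ≠ ϖ • v) ∧
      (∀ (ℓ : ℕ) [hℓ : Fact ℓ.Prime] (hℓN : ¬ ℓ ∣ N) (hℓS : ℓ ∉ S),
        (s59bcTcZ N ℓ hℓN).baseChange 𝒪 x =
          χ' (CuspForm.heckeAlgebra.T hℓ.out hℓN hℓS) • x) ∧
      (s59bcTcZ N p hpN).baseChange 𝒪 x = a • x := by
  have hS₁ := s59eigp_hS₁ hS hpN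
  have hpS₁ : p ∉ S \ {p} := fun h => h.2 rfl
  obtain ⟨χ₁, hχ₁⟩ := s59eigp_exists_char hS p hpN hbigP χ'
  obtain ⟨x, hprim, hx⟩ := s59base_exists hS₁ χ₁ hϖ
  refine ⟨x, χ₁ (CuspForm.heckeAlgebra.T (Fact.out : p.Prime) hpN hpS₁), hprim, ?_, ?_⟩
  · intro ℓ hℓ hℓN hℓS
    have hℓS₁ : ℓ ∉ S \ {p} := fun h => hℓS h.1
    rw [hx ℓ hℓN hℓS₁, hχ₁ ℓ hℓ.out hℓN hℓS hℓS₁]
  · exact hx p hpN hpS₁

/-- **E-EIGP for a Hecke–Galois datum**: every `𝒪`-point `ψ'` of the ring `T` of a datum of level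
`N` away from `S ∋ p` (`p ∤ N`) is realised by a primitive vector of `𝒪 ⊗ Lpar N` which is an
eigenvector of `T_p`. -/
theorem s59eigp_exists_datum [IsAdicComplete (maximalIdeal 𝒪) 𝒪] (S' : Finset ℕ)
    (hS : ∀ q : ℕ, q.Prime → q ∣ N → q ∈ (↑S' : Set ℕ)) (p : ℕ) [Fact p.Prime]
    (hpN : ¬ p ∣ N)
    (hbigP : ∀ (B : Type) [CommRing B] [IsDomain B] [Algebra 𝒪 B]
      (χ : ↥(CuspForm.heckeAlgebra N 2 ((↑S' : Set ℕ) \ {p})) →+* B)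
      (t : ↥(CuspForm.heckeAlgebra N 2 ((↑S' : Set ℕ) \ {p}))),
        χ t ∈ Set.range (algebraMap 𝒪 B))
    {θ : ↥(CuspForm.heckeAlgebra N 2 (↑S' : Set ℕ)) →+* ResidueField 𝒪}
    {T : Type} [CommRing T] [IsLocalRing T] [IsNoetherianRing T]
    [IsAdicComplete (maximalIdeal T) T] [Algebra 𝒪 T] [IsLocalHom (algebraMap 𝒪 T)]
    [Module.Finite 𝒪 T] [Module.Free 𝒪 T]
    (H : CuspForm.HeckeGaloisRepDatum N (↑S' : Set ℕ) 𝒪 θ T) (ψ' : T →ₐ[𝒪] 𝒪)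
    {ϖ : 𝒪} (hϖ : Irreducible ϖ) :
    ∃ (x : 𝒪 ⊗[ℤ] ↥(Lpar N)) (a : 𝒪), (∀ v : 𝒪 ⊗[ℤ] ↥(Lpar N), x ≠ ϖ • v) ∧
      (∀ (ℓ : ℕ) [hℓ : Fact ℓ.Prime] (hℓN : ¬ ℓ ∣ N) (hℓS : ℓ ∉ (↑S' : Set ℕ)),
        (s59bcTcZ N ℓ hℓN).baseChange 𝒪 x =
          ψ' (H.π (CuspForm.heckeAlgebra.T hℓ.out hℓN hℓS)) • x) ∧
      (s59bcTcZ N p hpN).baseChange 𝒪 x = a • x :=
  s59eigp_exists hS p hpN hbigP ((ψ' : T →+* 𝒪).comp H.π) hϖ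

end EigP

end Fermat.Agent.S59

end
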