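import Mathlib
import Fermat.Agent.S59.Eta.GramInj

/-!
# S59 ETA′, piece **E-GRAM** (helper80): the Gram inputs of `s59m1r_hrat_of_pet` (helper8)

On the base-changed lattices of E-BC (`BCLin.lean` helper36, `BCBase.lean` helper9):
`L = s59bccL 𝒪 (Lpar N)`, `L₁ = s59bccL 𝒪 (Lpar (N q))`, `L' = s59bccL 𝒪 (Lpar (N q²))`,
`ξ_i = s59bccMap 𝒪 (s59bcXiZ_i N q)`, `tq = s59bccMap 𝒪 (s59bcTcZ N q hqN)`,
`c₁, e₁ = s59bccMap 𝒪 (s59bcCoresZ N q), (s59bcCoresDZ N q)`, `c₂, e₂` the same at `(N q, q)`,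
`η_i = s59bccMap 𝒪 (s59gramXi_iT N q)`.

* `s59gram_hG_bcc`  : **`hG`** of `s59m1r_hrat_abs` / `s59m1r_hrat_of_pet` / `s59m1r_hinj_abs`,
  literal 9-fold conjunction;
* `s59gram_hη0_bcc`, `s59gram_hη1_bcc`, `s59gram_hη1'_bcc`, `s59gram_hη2_bcc` : `hη₀ … hη₂`;
* `s59gram_hpet_bcc` : **`hpet`** (`𝒪` a domain of characteristic `0`);
* `s59gram_hq_bcc`, `s59gram_hq1_bcc` : `q ≠ 0`, `q ≠ 1` in `𝒪`.
-/

set_option autoImplicit false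
set_option linter.style.haveILetI false
set_option linter.unusedSectionVars false
set_option linter.unusedSimpArgs false
set_option linter.unusedVariables false

noncomputable section

namespace Fermat.Agent.S59

open CongruenceSubgroup Matrix Fermat.Agent.S41 Fermat.Agent.S41.PD TensorProduct
open scoped MatrixGroups

section hG

variable (𝒪 : Type) [CommRing 𝒪] (N q : ℕ) [NeZero N] [NeZero q] [hq : Fact q.Prime]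

/-- `η₀ = c₁ ∘ c₂` -/
theorem s59gram_hη0_bcc (Y : s59bccL 𝒪 (Lpar (N * q * q))) :
    s59bccMap 𝒪 (s59gramXi0T N q) Y =
      s59bccMap 𝒪 (s59bcCoresZ N q) (s59bccMap 𝒪 (s59bcCoresZ (N * q) q) Y) := by
  rw [← s59bcc_map_comp, ← s59bcg_Cores_eq, ← s59bcg_Cores_eq]
  rfl

/-- `η₁ = e₁ ∘ c₂` -/
theorem s59gram_hη1_bcc (Y : s59bccL 𝒪 (Lpar (N * q * q))) :
    s59bccMap 𝒪 (s59gramXi1T N q) Y =
      s59bccMap 𝒪 (s59bcCoresDZ N q) (s59bccMap 𝒪 (s59bcCoresZ (N * q) q) Y) := by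
  rw [← s59bcc_map_comp, ← s59bcg_CoresD_eq, ← s59bcg_Cores_eq]
  rfl

/-- `η₁ = c₁ ∘ e₂` -/
theorem s59gram_hη1'_bcc (Y : s59bccL 𝒪 (Lpar (N * q * q))) :
    s59bccMap 𝒪 (s59gramXi1T N q) Y =
      s59bccMap 𝒪 (s59bcCoresZ N q) (s59bccMap 𝒪 (s59bcCoresDZ (N * q) q) Y) := by
  rw [← s59bcc_map_comp, ← s59bcg_Cores_eq, ← s59bcg_CoresD_eq]
  congr 2
  exact LinearMap.ext fun y => (s59gram_xi1T_eq y).symm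

/-- `η₂ = e₁ ∘ e₂` -/
theorem s59gram_hη2_bcc (Y : s59bccL 𝒪 (Lpar (N * q * q))) :
    s59bccMap 𝒪 (s59gramXi2T N q) Y =
      s59bccMap 𝒪 (s59bcCoresDZ N q) (s59bccMap 𝒪 (s59bcCoresDZ (N * q) q) Y) := by
  rw [← s59bcc_map_comp, ← s59bcg_CoresD_eq, ← s59bcg_CoresD_eq]
  rfl

/-- **`hG`**: the operator Gram matrix over `𝒪`, in the literal shape of the hypothesis `hG` of
`s59m1r_hrat_abs`, `s59m1r_hrat_of_pet`, `s59m1r_hinj_abs` (`Mult1bRed.lean`). -/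
theorem s59gram_hG_bcc (hqN : ¬ q ∣ N) : ∀ x : s59bccL 𝒪 (Lpar N),
    (s59bccMap 𝒪 (s59gramXi0T N q) (s59bccMap 𝒪 (s59bcXiZ0 N q) x) =
        ((q : 𝒪) * ((q : 𝒪) + 1)) • x ∧
      s59bccMap 𝒪 (s59gramXi0T N q) (s59bccMap 𝒪 (s59bcXiZ1 N q) x) =
        (q : 𝒪) • s59bccMap 𝒪 (s59bcTcZ N q hqN) x ∧
      s59bccMap 𝒪 (s59gramXi0T N q) (s59bccMap 𝒪 (s59bcXiZ2 N q) x) =
        s59bccMap 𝒪 (s59bcTcZ N q hqN) (s59bccMap 𝒪 (s59bcTcZ N q hqN) x)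
          - ((q : 𝒪) + 1) • x) ∧
    (s59bccMap 𝒪 (s59gramXi1T N q) (s59bccMap 𝒪 (s59bcXiZ0 N q) x) =
        (q : 𝒪) • s59bccMap 𝒪 (s59bcTcZ N q hqN) x ∧
      s59bccMap 𝒪 (s59gramXi1T N q) (s59bccMap 𝒪 (s59bcXiZ1 N q) x) =
        ((q : 𝒪) * ((q : 𝒪) + 1)) • x ∧
      s59bccMap 𝒪 (s59gramXi1T N q) (s59bccMap 𝒪 (s59bcXiZ2 N q) x) =
        (q : 𝒪) • s59bccMap 𝒪 (s59bcTcZ N q hqN) x) ∧
    (s59bccMap 𝒪 (s59gramXi2T N q) (s59bccMap 𝒪 (s59bcXiZ0 N q) x) =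
        s59bccMap 𝒪 (s59bcTcZ N q hqN) (s59bccMap 𝒪 (s59bcTcZ N q hqN) x)
          - ((q : 𝒪) + 1) • x ∧
      s59bccMap 𝒪 (s59gramXi2T N q) (s59bccMap 𝒪 (s59bcXiZ1 N q) x) =
        (q : 𝒪) • s59bccMap 𝒪 (s59bcTcZ N q hqN) x ∧
      s59bccMap 𝒪 (s59gramXi2T N q) (s59bccMap 𝒪 (s59bcXiZ2 N q) x) =
        ((q : 𝒪) * ((q : 𝒪) + 1)) • x) := by
  intro x
  rw [← s59bcg_Xi0_eq, ← s59bcg_Xi1_eq, ← s59bcg_Xi2_eq, ← s59bcg_T_eq N q hqN]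
  exact ⟨⟨s59gram_op_bc_00 𝒪 N q hqN x, s59gram_op_bc_01 𝒪 N q hqN x,
      s59gram_op_bc_02 𝒪 N q hqN x⟩,
    ⟨s59gram_op_bc_10 𝒪 N q hqN x, s59gram_op_bc_11 𝒪 N q hqN x, s59gram_op_bc_12 𝒪 N q hqN x⟩,
    ⟨s59gram_op_bc_20 𝒪 N q hqN x, s59gram_op_bc_21 𝒪 N q hqN x, s59gram_op_bc_22 𝒪 N q hqN x⟩⟩

end hG

section hpet

variable (𝒪 : Type) [CommRing 𝒪] [IsDomain 𝒪] [CharZero 𝒪]
  (N q : ℕ) [NeZero N] [NeZero q] [hq : Fact q.Prime]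

/-- **`hpet`** of `s59m1r_hrat_of_pet` / `s59m1r_hinj_abs` over `𝒪`. -/
theorem s59gram_hpet_bcc (hqN : ¬ q ∣ N) : ∀ x : s59bccL 𝒪 (Lpar N),
    s59bccMap 𝒪 (s59bcTcZ N q hqN) (s59bccMap 𝒪 (s59bcTcZ N q hqN) x) = ((q : 𝒪) + 1) ^ 2 • x →
      x = 0 := by
  have h := s59gram_pet_bc 𝒪 N q hqN
  rw [s59bcg_T_eq N q hqN] at h
  exact h

theorem s59gram_hq_bcc : (q : 𝒪) ≠ 0 := s59gram_q_ne_zero' 𝒪 q

theorem s59gram_hq1_bcc : (q : 𝒪) ≠ 1 := fun h =>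
  s59gram_q_sub_one_ne_zero' 𝒪 q (sub_eq_zero.mpr h)

end hpet

end Fermat.Agent.S59
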