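import Mathlib
import Fermat.Agent.S59.Eta.GramHG
import Fermat.Agent.S59.Eta.Mult1bRed

/-!
# S59 ETA′ (helper80): FIT of the Gram inputs (`GramHG.lean`) with helper8's reduction
(`Mult1bRed.lean`) on the E-BC objects

* `s59gram_hinj_fit` : `hinj` of `s59r2f_step_DD` through `s59m1r_hinj_abs`;
* `s59gram_hrat_fit` : **`hrat`** of `s59r2f_step_DD` from E-TQ (`hTQ`), E-MULT1a (`h1a`),
  E-MULT1b (`h1b`) and the Hecke-equivariance of the degeneracy maps and transfers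
  (`hcomm`, `hcomm₁`, `hcomm₂`) — every Gram / adjoint / E-PET input is discharged.
-/

set_option autoImplicit false
set_option linter.style.haveILetI false
set_option linter.unusedSectionVars false
set_option linter.unusedVariables false

noncomputable section
namespace Fermat.Agent.S59
open Fermat.Agent.S41 TensorProduct

/-- FIT: helper8's `s59m1r_hinj_abs` with the Gram inputs of `GramHG.lean`. -/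
theorem s59gram_hinj_fit (𝒪 : Type) [CommRing 𝒪] [IsDomain 𝒪] [CharZero 𝒪]
    (N q : ℕ) [NeZero N] [NeZero q] [hq : Fact q.Prime] (hqN : ¬ q ∣ N) :
    ∀ W₀ W₁ W₂ : s59bccL 𝒪 (Lpar N),
      s59bccMap 𝒪 (s59bcXiZ0 N q) W₀ + s59bccMap 𝒪 (s59bcXiZ1 N q) W₁
        + s59bccMap 𝒪 (s59bcXiZ2 N q) W₂ = 0 → W₀ = 0 ∧ W₁ = 0 ∧ W₂ = 0 := by
  haveI : NoZeroSMulDivisors 𝒪 (s59bccL 𝒪 (Lpar N)) := s59bcc_noZeroSMulDivisors 𝒪 (Lpar N)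
  exact s59m1r_hinj_abs _ _ _ (s59bccMap 𝒪 (s59gramXi0T N q)) (s59bccMap 𝒪 (s59gramXi1T N q))
    (s59bccMap 𝒪 (s59gramXi2T N q)) (s59bccMap 𝒪 (s59bcTcZ N q hqN)) (q : 𝒪)
    (s59gram_hG_bcc 𝒪 N q hqN) (s59gram_hq_bcc 𝒪 q) (s59gram_hq1_bcc 𝒪 q)
    (s59gram_hpet_bcc 𝒪 N q hqN)

/-- FIT: helper8's `s59m1r_hrat_of_pet` with the Gram inputs of `GramHG.lean`: **`hrat`** from
E-TQ, E-MULT1a, E-MULT1b and Hecke-equivariance. -/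
theorem s59gram_hrat_fit (𝒪 : Type) [CommRing 𝒪] [IsDomain 𝒪] [CharZero 𝒪]
    (N q : ℕ) [NeZero N] [NeZero q] [hq : Fact q.Prime] (hqN : ¬ q ∣ N) {ι : Type}
    (t : ι → s59bccL 𝒪 (Lpar N) →ₗ[𝒪] s59bccL 𝒪 (Lpar N))
    (t₁ : ι → s59bccL 𝒪 (Lpar (N * q)) →ₗ[𝒪] s59bccL 𝒪 (Lpar (N * q)))
    (t' : ι → s59bccL 𝒪 (Lpar (N * q * q)) →ₗ[𝒪] s59bccL 𝒪 (Lpar (N * q * q)))
    (ψ : ι → 𝒪) (a : 𝒪)
    (hcomm : ∀ (i : ι) (w : s59bccL 𝒪 (Lpar N)),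
      s59bccMap 𝒪 (s59bcXiZ0 N q) (t i w) = t' i (s59bccMap 𝒪 (s59bcXiZ0 N q) w) ∧
      s59bccMap 𝒪 (s59bcXiZ1 N q) (t i w) = t' i (s59bccMap 𝒪 (s59bcXiZ1 N q) w) ∧
      s59bccMap 𝒪 (s59bcXiZ2 N q) (t i w) = t' i (s59bccMap 𝒪 (s59bcXiZ2 N q) w))
    (hcomm₂ : ∀ (i : ι) (y : s59bccL 𝒪 (Lpar (N * q * q))),
      s59bccMap 𝒪 (s59bcCoresZ (N * q) q) (t' i y) = t₁ i (s59bccMap 𝒪 (s59bcCoresZ (N * q) q) y) ∧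
      s59bccMap 𝒪 (s59bcCoresDZ (N * q) q) (t' i y) =
        t₁ i (s59bccMap 𝒪 (s59bcCoresDZ (N * q) q) y))
    (hcomm₁ : ∀ (i : ι) (u : s59bccL 𝒪 (Lpar (N * q))),
      s59bccMap 𝒪 (s59bcCoresZ N q) (t₁ i u) = t i (s59bccMap 𝒪 (s59bcCoresZ N q) u) ∧
      s59bccMap 𝒪 (s59bcCoresDZ N q) (t₁ i u) = t i (s59bccMap 𝒪 (s59bcCoresDZ N q) u))
    (hTQ : ∀ v : s59bccL 𝒪 (Lpar N), (∀ i, t i v = ψ i • v) →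
      s59bccMap 𝒪 (s59bcTcZ N q hqN) v = a • v)
    (h1a : ∀ u : s59bccL 𝒪 (Lpar (N * q)), (∀ i, t₁ i u = ψ i • u) →
      s59bccMap 𝒪 (s59bcCoresZ N q) u = 0 → s59bccMap 𝒪 (s59bcCoresDZ N q) u = 0 → u = 0)
    (h1b : ∀ y : s59bccL 𝒪 (Lpar (N * q * q)), (∀ i, t' i y = ψ i • y) →
      s59bccMap 𝒪 (s59bcCoresZ (N * q) q) y = 0 → s59bccMap 𝒪 (s59bcCoresDZ (N * q) q) y = 0 →
        y = 0) :
    ∀ y' ∈ s59r2E' t' ψ, ∃ c : 𝒪, c ≠ 0 ∧ ∃ w₀ w₁ w₂ : s59bccL 𝒪 (Lpar N),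
      c • y' = s59bccMap 𝒪 (s59bcXiZ0 N q) w₀ + s59bccMap 𝒪 (s59bcXiZ1 N q) w₁
        + s59bccMap 𝒪 (s59bcXiZ2 N q) w₂ :=
  s59m1r_hrat_of_pet _ _ _ (s59bccMap 𝒪 (s59gramXi0T N q)) (s59bccMap 𝒪 (s59gramXi1T N q))
    (s59bccMap 𝒪 (s59gramXi2T N q)) (s59bccMap 𝒪 (s59bcCoresZ (N * q) q))
    (s59bccMap 𝒪 (s59bcCoresDZ (N * q) q)) (s59bccMap 𝒪 (s59bcCoresZ N q))
    (s59bccMap 𝒪 (s59bcCoresDZ N q)) t t₁ t' ψ (s59bccMap 𝒪 (s59bcTcZ N q hqN)) (q : 𝒪) a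
    (s59gram_hη0_bcc 𝒪 N q) (s59gram_hη1_bcc 𝒪 N q) (s59gram_hη1'_bcc 𝒪 N q)
    (s59gram_hη2_bcc 𝒪 N q) hcomm hcomm₂ hcomm₁ (s59gram_hG_bcc 𝒪 N q hqN) hTQ
    (s59gram_hq_bcc 𝒪 q) (s59gram_hq1_bcc 𝒪 q) (s59gram_hpet_bcc 𝒪 N q hqN) h1a h1b

end Fermat.Agent.S59
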