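import Fermat.Agent.S59.Eta.MuDegRoot
import Fermat.Agent.ES.MuHecke
import Fermat.Agent.ES.MuCore
import Fermat.Agent.ES.MuUnique
import Fermat.Agent.STB.PushHecke

/-!
# S59 / R2 / μDEG — statements and the wiring of the `α`-half (helper84)

`μ_M : J₀(M)[n] → Hom(Γ₀(M), μ_n)` is the multiplier map of `ES/Mu.lean` (`ES.MuRel`, `ES.muMap`).
μDEG says that it intertwines the push-forwards `α_*`, `β_* : J₀(N q) → J₀(N)`
(`STB.stbPushAlpha`, `STB.stbPushBeta`) with the transfers `S41.cores`, `S41.coresD`.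

* `s59mud_StmtRelAlpha`, `s59mud_StmtRelBeta` : μDEG in relational form (`MuRel`);
* `s59mud_StmtMuAlpha`, `s59mud_StmtMuBeta` : μDEG for `muMap` on torsion points;
  `s59mud_muAlpha_of_rel`, `s59mud_muBeta_of_rel` : relational form ⇒ `muMap` form;
* `s59mud_StmtBridgeAlpha` : the analytic norm (BRIDGE): every `u ∈ F_{Nq}` has an analytic
  fraction `u = a / g` (level `N q`) such that `N_α u = (∏_c a ∘ (rep c)⁻¹) / (∏_c g ∘ (rep c)⁻¹)`
  as `q`-expansions;
* **`s59mud_relAlpha_of_bridge`** : BRIDGE ⇒ μDEG-`α` (with `s59mudRoot_multAdd`, piece P7).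
-/

set_option autoImplicit false
set_option linter.style.haveILetI false
set_option linter.unusedSectionVars false

noncomputable section

namespace Fermat.Agent.S59

open ModularCurve AlgebraicCurve CongruenceSubgroup ModularCurve.Period UpperHalfPlane
open Fermat.Agent.S24 Fermat.Agent.S28 Fermat.Agent.ES Fermat.Agent.ES.G2 Fermat.Agent.S41
  Fermat.Agent.STB
open scoped MatrixGroups Manifold

/-! ## The statements -/

/-- **μDEG-`α`, relational form.** -/
def s59mud_StmtRelAlpha : Prop :=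
  ∀ (N q : ℕ) [NeZero N] [NeZero q], q.Prime → ¬ q ∣ N → ∀ (n : ℕ), 0 < n →
    ∀ (x : JZero (N * q)) (χ : CharGrp (N * q)), MuRel (N * q) n x χ →
      MuRel N n (stbPushAlpha N q x) (cores N q (Additive ℂˣ) χ)

/-- **μDEG-`β`, relational form.** -/
def s59mud_StmtRelBeta : Prop :=
  ∀ (N q : ℕ) [NeZero N] [NeZero q], q.Prime → ¬ q ∣ N → ∀ (n : ℕ), 0 < n →
    ∀ (x : JZero (N * q)) (χ : CharGrp (N * q)), MuRel (N * q) n x χ →
      MuRel N n (stbPushBeta N q x) (coresD N q (Additive ℂˣ) χ)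

/-- **μDEG-`α`** for the multiplier map `ES.muMap` on torsion points. -/
def s59mud_StmtMuAlpha : Prop :=
  ∀ (N q : ℕ) [NeZero N] [NeZero q], q.Prime → ¬ q ∣ N → ∀ (n : ℕ), 0 < n →
    ∀ x : JZero (N * q), n • x = 0 →
      muMap N (stbPushAlpha N q x) = cores N q (Additive ℂˣ) (muMap (N * q) x)

/-- **μDEG-`β`** for the multiplier map `ES.muMap` on torsion points. -/
def s59mud_StmtMuBeta : Prop :=
  ∀ (N q : ℕ) [NeZero N] [NeZero q], q.Prime → ¬ q ∣ N → ∀ (n : ℕ), 0 < n →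
    ∀ x : JZero (N * q), n • x = 0 →
      muMap N (stbPushBeta N q x) = coresD N q (Additive ℂˣ) (muMap (N * q) x)

/-- **BRIDGE-`α`** (the analytic norm): every `u ∈ F_{Nq}` has an analytic fraction `a / g` of
level `N q` whose coset products give the `q`-expansion of `N_α u`. -/
def s59mud_StmtBridgeAlpha : Prop :=
  ∀ (N q : ℕ) [NeZero N] [NeZero q], q.Prime → ¬ q ∣ N →
    ∀ (rep : s59mudQuot N q → Gamma0 N), (∀ c, ((rep c : Gamma0 N) : s59mudQuot N q) = c) →
    ∀ u : modularFunctionFieldBar (N * q), ∃ a g : ℍ → ℂ, IsAnFrac (N * q) u a g ∧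
      IsMerInf (s59mudProd N q rep a) ∧ IsMerInf (s59mudProd N q rep g) ∧
      coeffMap embC ((stbNorm (heckeAlphaBar Qb N q).toRingHom u : modularFunctionFieldBar N) :
          LaurentSeries Qb) * laurentOf (s59mudProd N q rep g)
        = laurentOf (s59mudProd N q rep a)

/-! ## Relational form ⇒ `muMap` form -/

theorem s59mud_muAlpha_of_rel (h : s59mud_StmtRelAlpha) : s59mud_StmtMuAlpha := by
  intro N q _ _ hq hqN n hn x hx
  haveI : NeZero (N * q) := inferInstance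
  have h1 : MuRel (N * q) n x (muMap (N * q) x) :=
    muRel_muMap (muExists (N * q)) (muUnique : MuUnique (N * q)) hn hx
  exact muMap_eq (muUnique : MuUnique N) hn (h N q hq hqN n hn x _ h1)

theorem s59mud_muBeta_of_rel (h : s59mud_StmtRelBeta) : s59mud_StmtMuBeta := by
  intro N q _ _ hq hqN n hn x hx
  haveI : NeZero (N * q) := inferInstance
  have h1 : MuRel (N * q) n x (muMap (N * q) x) :=
    muRel_muMap (muExists (N * q)) (muUnique : MuUnique (N * q)) hn hx
  exact muMap_eq (muUnique : MuUnique N) hn (h N q hq hqN n hn x _ h1)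

/-! ## BRIDGE ⇒ μDEG-`α` -/

/-- **μDEG-`α` from the analytic norm.** -/
theorem s59mud_relAlpha_of_bridge (hB : s59mud_StmtBridgeAlpha) : s59mud_StmtRelAlpha := by
  intro N q _ _ hq hqN n hn x χ hrel
  obtain ⟨u, a, g, R, hK, ⟨ha, hg, hg0, hfr⟩, hroot, hχ⟩ := hrel
  haveI : NeZero (N * q) := inferInstance
  obtain ⟨rep, hrep⟩ := s59mud_exists_rep (N := N) (q := q)
  obtain ⟨a₀, g₀, ⟨ha₀, hg₀, hg₀0, hfr₀⟩, hMa, hMg, hq2⟩ := hB N q hq hqN rep hrep u
  -- the two fractions of `u` agree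
  have hcr : a * g₀ = a₀ * g := by
    apply laurentOf_injective (ha.isMerInf.mul hg₀.isMerInf) (ha₀.isMerInf.mul hg.isMerInf)
    rw [laurentOf_mul ha.isMerInf hg₀.isMerInf, laurentOf_mul ha₀.isMerInf hg.isMerInf,
      ← hfr, ← hfr₀]
    ring
  have hmda : MDiff a := RC.rc_mdiff_of_isModFun ha
  have hmdg : MDiff g := RC.rc_mdiff_of_isModFun hg
  have hmda₀ : MDiff a₀ := RC.rc_mdiff_of_isModFun ha₀
  have hmdg₀ : MDiff g₀ := RC.rc_mdiff_of_isModFun hg₀
  -- the root relation for the good fraction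
  have hroot₀ : (fun τ : ℍ => R.a τ ^ n * g₀ τ) = fun τ : ℍ => a₀ τ * R.g τ ^ n := by
    refine mdiff_eq_of_mul_eq ((R.mdiff_a.pow n).mul hmdg₀) (hmda₀.mul (R.mdiff_g.pow n)) hmdg hg0
      fun τ => ?_
    have h1 := hroot τ
    have h2 : a τ * g₀ τ = a₀ τ * g τ := congrFun hcr τ
    linear_combination g₀ τ * h1 + R.g τ ^ n * h2
  -- the Kummer function of `α_* x`
  obtain ⟨u', hu'def⟩ : ∃ u' : modularFunctionFieldBar N,
      u' = stbNorm (heckeAlphaBar Qb N q).toRingHom u := ⟨_, rfl⟩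
  have hK' : KummerRel n (stbPushAlpha N q x) u' := by
    rw [hu'def]
    exact stb_kummerRel_pushAlpha N q hK
  rw [← hu'def] at hq2
  -- a fraction for `u'`
  obtain ⟨a', g', ha', hg', hg'0, hq'⟩ := RC.rc_exists_frac N (coeffMap_embC_mem N u'.2)
  have hg'ne : g' ≠ 0 := by
    rintro rfl
    exact hg'0 laurentOf_zero
  have hcross : a' * s59mudProd N q rep g₀ = g' * s59mudProd N q rep a₀ := by
    apply laurentOf_injective (ha'.isMerInf.mul hMg) (hg'.isMerInf.mul hMa)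
    rw [laurentOf_mul ha'.isMerInf hMg, laurentOf_mul hg'.isMerInf hMa, ← hq', ← hq2]
    ring
  have hrootP : ∀ τ : ℍ, s59mudProd N q rep R.a τ ^ n * s59mudProd N q rep g₀ τ
      = s59mudProd N q rep a₀ τ * s59mudProd N q rep R.g τ ^ n :=
    s59mudProd_rel rep fun τ => congrFun hroot₀ τ
  have hmda' : MDiff a' := RC.rc_mdiff_of_isModFun ha'
  have hmdg' : MDiff g' := RC.rc_mdiff_of_isModFun hg'
  have hmdRa : MDiff (s59mudProd N q rep R.a) := s59mud_mdiff_prod rep R.mdiff_a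
  have hmdRg : MDiff (s59mudProd N q rep R.g) := s59mud_mdiff_prod rep R.mdiff_g
  have hmdPg : MDiff (s59mudProd N q rep g₀) := s59mud_mdiff_prod rep hmdg₀
  have hg₀ne : g₀ ≠ 0 := hg₀0
  have hPg0 : s59mudProd N q rep g₀ ≠ 0 := s59mud_prod_ne_zero rep hmdg₀ hg₀ne
  have hfin : (fun τ : ℍ => s59mudProd N q rep R.a τ ^ n * g' τ)
      = fun τ : ℍ => a' τ * s59mudProd N q rep R.g τ ^ n := by
    refine mdiff_eq_of_mul_eq ((hmdRa.pow n).mul hmdg') (hmda'.mul (hmdRg.pow n)) hmdPg hPg0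
      fun τ => ?_
    have h1 := hrootP τ
    have h2 : a' τ * s59mudProd N q rep g₀ τ = g' τ * s59mudProd N q rep a₀ τ :=
      congrFun hcross τ
    linear_combination g' τ * h1 - s59mudProd N q rep R.g τ ^ n * h2
  refine ⟨u', a', g', s59mudRoot rep hrep R, hK', ⟨ha', hg', hg'ne, hq'⟩,
    fun τ => congrFun hfin τ, ?_⟩
  rw [s59mudRoot_multAdd, hχ]

end Fermat.Agent.S59
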