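import Fermat.Agent.S59.Eta.MuDegAlpha

/-!
# S59 / R2 / μDEG — the statements level by level, and the consequence for `stbNew` (helper84)

The statements of `MuDegAlpha.lean` are for a prime `q ∤ N`.  E-MULT1b needs μDEG for the
degeneracy maps `J₀(M q) → J₀(M)` with `q ∣ M` (`M = N q`), so here are the same statements for a
FIXED pair `(M, q)`, without any hypothesis on it:

* `s59mud_RelAlphaAt M q`, `s59mud_RelBetaAt M q` : μDEG in relational form at `(M, q)`;
* `s59mud_MuAlphaAt M q`, `s59mud_MuBetaAt M q` : μDEG for `ES.muMap` on torsion points;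
  `s59mud_muAlphaAt_of_rel`, `s59mud_muBetaAt_of_rel`;
* `s59mud_BridgeAlphaAt M q` : the analytic norm at `(M, q)`;
  **`s59mud_relAlphaAt_of_bridge`** : BRIDGE ⇒ μDEG-`α` at `(M, q)` (no hypothesis on `(M, q)`);
* **`s59mud_mem_stbNew`** (the shape (R4) of E-MULT1b): a torsion point `x` of `J₀(M q)` with
  `cores (μ x) = 0` and `coresD (μ x) = 0` is `q`-new (`x ∈ STB.stbNew M q`);
* `s59mud_relAlphaAt_of_stmt`, … : the statements of `MuDegAlpha.lean` are the cases `q ∤ M` prime.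
-/

set_option autoImplicit false
set_option linter.style.haveILetI false
set_option linter.unusedSectionVars false

noncomputable section

namespace Fermat.Agent.S59

open ModularCurve AlgebraicCurve CongruenceSubgroup ModularCurve.Period UpperHalfPlane
open Fermat.Agent.S24 Fermat.Agent.S28 Fermat.Agent.ES Fermat.Agent.ES.G2 Fermat.Agent.S41
  Fermat.Agent.STB
open scoped MatrixGroups Manifold

section At

variable (M q : ℕ) [NeZero M] [NeZero q]

/-- μDEG-`α` at `(M, q)`, relational form -/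
def s59mud_RelAlphaAt : Prop :=
  ∀ (n : ℕ), 0 < n → ∀ (x : JZero (M * q)) (χ : CharGrp (M * q)), MuRel (M * q) n x χ →
    MuRel M n (stbPushAlpha M q x) (cores M q (Additive ℂˣ) χ)

/-- μDEG-`β` at `(M, q)`, relational form -/
def s59mud_RelBetaAt : Prop :=
  ∀ (n : ℕ), 0 < n → ∀ (x : JZero (M * q)) (χ : CharGrp (M * q)), MuRel (M * q) n x χ →
    MuRel M n (stbPushBeta M q x) (coresD M q (Additive ℂˣ) χ)

/-- μDEG-`α` at `(M, q)` for `ES.muMap` -/
def s59mud_MuAlphaAt : Prop :=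
  ∀ (n : ℕ), 0 < n → ∀ x : JZero (M * q), n • x = 0 →
    muMap M (stbPushAlpha M q x) = cores M q (Additive ℂˣ) (muMap (M * q) x)

/-- μDEG-`β` at `(M, q)` for `ES.muMap` -/
def s59mud_MuBetaAt : Prop :=
  ∀ (n : ℕ), 0 < n → ∀ x : JZero (M * q), n • x = 0 →
    muMap M (stbPushBeta M q x) = coresD M q (Additive ℂˣ) (muMap (M * q) x)

/-- BRIDGE-`α` at `(M, q)` (the analytic norm) -/
def s59mud_BridgeAlphaAt : Prop :=
  ∀ (rep : s59mudQuot M q → Gamma0 M), (∀ c, ((rep c : Gamma0 M) : s59mudQuot M q) = c) →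
    ∀ u : modularFunctionFieldBar (M * q), ∃ a g : ℍ → ℂ, IsAnFrac (M * q) u a g ∧
      IsMerInf (s59mudProd M q rep a) ∧ IsMerInf (s59mudProd M q rep g) ∧
      coeffMap embC ((stbNorm (heckeAlphaBar Qb M q).toRingHom u : modularFunctionFieldBar M) :
          LaurentSeries Qb) * laurentOf (s59mudProd M q rep g)
        = laurentOf (s59mudProd M q rep a)

variable {M q}

theorem s59mud_muAlphaAt_of_rel (h : s59mud_RelAlphaAt M q) : s59mud_MuAlphaAt M q := by
  intro n hn x hx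
  haveI : NeZero (M * q) := inferInstance
  have h1 : MuRel (M * q) n x (muMap (M * q) x) :=
    muRel_muMap (muExists (M * q)) (muUnique : MuUnique (M * q)) hn hx
  exact muMap_eq (muUnique : MuUnique M) hn (h n hn x _ h1)

theorem s59mud_muBetaAt_of_rel (h : s59mud_RelBetaAt M q) : s59mud_MuBetaAt M q := by
  intro n hn x hx
  haveI : NeZero (M * q) := inferInstance
  have h1 : MuRel (M * q) n x (muMap (M * q) x) :=
    muRel_muMap (muExists (M * q)) (muUnique : MuUnique (M * q)) hn hx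
  exact muMap_eq (muUnique : MuUnique M) hn (h n hn x _ h1)

/-- **μDEG-`α` at `(M, q)` from the analytic norm** (no hypothesis on `(M, q)`). -/
theorem s59mud_relAlphaAt_of_bridge (hB : s59mud_BridgeAlphaAt M q) : s59mud_RelAlphaAt M q := by
  intro n hn x χ hrel
  obtain ⟨u, a, g, R, hK, ⟨ha, hg, hg0, hfr⟩, hroot, hχ⟩ := hrel
  haveI : NeZero (M * q) := inferInstance
  obtain ⟨rep, hrep⟩ := s59mud_exists_rep (N := M) (q := q)
  obtain ⟨a₀, g₀, ⟨ha₀, hg₀, hg₀0, hfr₀⟩, hMa, hMg, hq2⟩ := hB rep hrep u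
  have hcr : a * g₀ = a₀ * g := by
    apply laurentOf_injective (ha.isMerInf.mul hg₀.isMerInf) (ha₀.isMerInf.mul hg.isMerInf)
    rw [laurentOf_mul ha.isMerInf hg₀.isMerInf, laurentOf_mul ha₀.isMerInf hg.isMerInf,
      ← hfr, ← hfr₀]
    ring
  have hmda : MDiff a := RC.rc_mdiff_of_isModFun ha
  have hmdg : MDiff g := RC.rc_mdiff_of_isModFun hg
  have hmda₀ : MDiff a₀ := RC.rc_mdiff_of_isModFun ha₀
  have hmdg₀ : MDiff g₀ := RC.rc_mdiff_of_isModFun hg₀
  have hroot₀ : (fun τ : ℍ => R.a τ ^ n * g₀ τ) = fun τ : ℍ => a₀ τ * R.g τ ^ n := by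
    refine mdiff_eq_of_mul_eq ((R.mdiff_a.pow n).mul hmdg₀) (hmda₀.mul (R.mdiff_g.pow n)) hmdg hg0
      fun τ => ?_
    have h1 := hroot τ
    have h2 : a τ * g₀ τ = a₀ τ * g τ := congrFun hcr τ
    linear_combination g₀ τ * h1 + R.g τ ^ n * h2
  obtain ⟨u', hu'def⟩ : ∃ u' : modularFunctionFieldBar M,
      u' = stbNorm (heckeAlphaBar Qb M q).toRingHom u := ⟨_, rfl⟩
  have hK' : KummerRel n (stbPushAlpha M q x) u' := by
    rw [hu'def]
    exact stb_kummerRel_pushAlpha M q hK
  rw [← hu'def] at hq2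
  obtain ⟨a', g', ha', hg', hg'0, hq'⟩ := RC.rc_exists_frac M (coeffMap_embC_mem M u'.2)
  have hg'ne : g' ≠ 0 := by
    rintro rfl
    exact hg'0 laurentOf_zero
  have hcross : a' * s59mudProd M q rep g₀ = g' * s59mudProd M q rep a₀ := by
    apply laurentOf_injective (ha'.isMerInf.mul hMg) (hg'.isMerInf.mul hMa)
    rw [laurentOf_mul ha'.isMerInf hMg, laurentOf_mul hg'.isMerInf hMa, ← hq', ← hq2]
    ring
  have hrootP : ∀ τ : ℍ, s59mudProd M q rep R.a τ ^ n * s59mudProd M q rep g₀ τ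
      = s59mudProd M q rep a₀ τ * s59mudProd M q rep R.g τ ^ n :=
    s59mudProd_rel rep fun τ => congrFun hroot₀ τ
  have hmda' : MDiff a' := RC.rc_mdiff_of_isModFun ha'
  have hmdg' : MDiff g' := RC.rc_mdiff_of_isModFun hg'
  have hmdRa : MDiff (s59mudProd M q rep R.a) := s59mud_mdiff_prod rep R.mdiff_a
  have hmdRg : MDiff (s59mudProd M q rep R.g) := s59mud_mdiff_prod rep R.mdiff_g
  have hmdPg : MDiff (s59mudProd M q rep g₀) := s59mud_mdiff_prod rep hmdg₀
  have hPg0 : s59mudProd M q rep g₀ ≠ 0 := s59mud_prod_ne_zero rep hmdg₀ hg₀0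
  have hfin : (fun τ : ℍ => s59mudProd M q rep R.a τ ^ n * g' τ)
      = fun τ : ℍ => a' τ * s59mudProd M q rep R.g τ ^ n := by
    refine mdiff_eq_of_mul_eq ((hmdRa.pow n).mul hmdg') (hmda'.mul (hmdRg.pow n)) hmdPg hPg0
      fun τ => ?_
    have h1 := hrootP τ
    have h2 : a' τ * s59mudProd M q rep g₀ τ = g' τ * s59mudProd M q rep a₀ τ :=
      congrFun hcross τ
    linear_combination g' τ * h1 - s59mudProd M q rep R.g τ ^ n * h2
  refine ⟨u', a', g', s59mudRoot rep hrep R, hK', ⟨ha', hg', hg'ne, hq'⟩,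
    fun τ => congrFun hfin τ, ?_⟩
  rw [s59mudRoot_multAdd, hχ]

/-- **(R4)**: a torsion point whose multiplier character is killed by `cores` and `coresD` is
`q`-new. -/
theorem s59mud_mem_stbNew (hα : s59mud_RelAlphaAt M q) (hβ : s59mud_RelBetaAt M q) {n : ℕ}
    (hn : 0 < n) {x : JZero (M * q)} (hx : n • x = 0)
    (h1 : cores M q (Additive ℂˣ) (muMap (M * q) x) = 0)
    (h2 : coresD M q (Additive ℂˣ) (muMap (M * q) x) = 0) : x ∈ stbNew M q := by
  haveI : NeZero (M * q) := inferInstance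
  have h0 : MuRel (M * q) n x (muMap (M * q) x) :=
    muRel_muMap (muExists (M * q)) (muUnique : MuUnique (M * q)) hn hx
  rw [mem_stbNew]
  constructor
  · have := hα n hn x _ h0
    rw [h1] at this
    exact muInj M n hn _ this
  · have := hβ n hn x _ h0
    rw [h2] at this
    exact muInj M n hn _ this

/-- converse of (R4): the multiplier character of a `q`-new torsion point is killed by `cores`
and `coresD`. -/
theorem s59mud_cores_of_mem_stbNew (hα : s59mud_RelAlphaAt M q) (hβ : s59mud_RelBetaAt M q)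
    {n : ℕ} (hn : 0 < n) {x : JZero (M * q)} (hx : n • x = 0) (hnew : x ∈ stbNew M q) :
    cores M q (Additive ℂˣ) (muMap (M * q) x) = 0 ∧
      coresD M q (Additive ℂˣ) (muMap (M * q) x) = 0 := by
  haveI : NeZero (M * q) := inferInstance
  rw [mem_stbNew] at hnew
  have hχ : MuRel M n (0 : JZero M) (muMap M 0) :=
    muRel_muMap (muExists M) (muUnique : MuUnique M) hn (smul_zero n)
  have h2 := (muAdd : MuAdd M) n hn 0 0 _ _ hχ hχ
  rw [add_zero] at h2
  have h3 : muMap M (0 : JZero M) + muMap M 0 = muMap M 0 :=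
    (muUnique : MuUnique M) n n hn hn 0 _ _ h2 hχ
  have hz : muMap M (0 : JZero M) = 0 := by
    refine DFunLike.ext _ _ fun γ => ?_
    have h4 := DFunLike.congr_fun h3 γ
    rw [AddMonoidHom.add_apply] at h4
    rw [AddMonoidHom.zero_apply]
    exact add_left_cancel (h4.trans (add_zero _).symm)
  exact ⟨by
      have := s59mud_muAlphaAt_of_rel hα n hn x hx
      rw [hnew.1] at this
      rw [← this]
      exact hz, by
      have := s59mud_muBetaAt_of_rel hβ n hn x hx
      rw [hnew.2] at this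
      rw [← this]
      exact hz⟩

end At

/-! ## The statements of `MuDegAlpha.lean` are the cases `q ∤ M` prime -/

theorem s59mud_stmtRelAlpha_iff :
    s59mud_StmtRelAlpha ↔
      ∀ (N q : ℕ) [NeZero N] [NeZero q], q.Prime → ¬ q ∣ N → s59mud_RelAlphaAt N q :=
  Iff.rfl

theorem s59mud_stmtRelBeta_iff :
    s59mud_StmtRelBeta ↔
      ∀ (N q : ℕ) [NeZero N] [NeZero q], q.Prime → ¬ q ∣ N → s59mud_RelBetaAt N q :=
  Iff.rfl

theorem s59mud_stmtBridgeAlpha_iff :
    s59mud_StmtBridgeAlpha ↔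
      ∀ (N q : ℕ) [NeZero N] [NeZero q], q.Prime → ¬ q ∣ N → s59mud_BridgeAlphaAt N q :=
  Iff.rfl

end Fermat.Agent.S59
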