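import Fermat.Agent.S59.Eta.MuDegBridge
import Fermat.Agent.S59.Eta.MuDegBeta

/-!
# S59 / R2 / μDEG — the `β`-half, UNCONDITIONAL (`q ∤ N` prime) (helper32)

From helper84's unconditional `α`-half (`MuDegBridge.lean`) and P9 (`MuDegBeta.lean`):

* `s59mudb_stmtRelBeta_proved : s59mud_StmtRelBeta`;
* `s59mudb_stmtMuBeta_proved : s59mud_StmtMuBeta` :
  `muMap N (stbPushBeta N q x) = coresD N q (Additive ℂˣ) (muMap (N * q) x)` for torsion `x`;
* `s59mudb_relBetaAt hq hqN : s59mud_RelBetaAt N q`, `s59mudb_muBetaAt hq hqN`;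
* `s59mudb_mem_stbNew` : a torsion point `x` of `J₀(N q)` with `cores (μ x) = 0 = coresD (μ x)` is
  `q`-new.
-/

set_option autoImplicit false

namespace Fermat.Agent.S59

open ModularCurve Fermat.Agent.ES Fermat.Agent.S41 Fermat.Agent.STB

/-- **μDEG-`β`, relational form** (all primes `q ∤ N`). -/
theorem s59mudb_stmtRelBeta_proved : s59mud_StmtRelBeta :=
  s59mudb_stmtRelBeta s59mud_stmtRelAlpha

/-- **μDEG-`β`** for `muMap` on torsion points (all primes `q ∤ N`). -/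
theorem s59mudb_stmtMuBeta_proved : s59mud_StmtMuBeta :=
  s59mudb_stmtMuBeta s59mud_stmtRelAlpha

/-- μDEG-`β` at `(N, q)`, relational form. -/
theorem s59mudb_relBetaAt {N q : ℕ} [NeZero N] [NeZero q] (hq : q.Prime) (hqN : ¬ q ∣ N) :
    s59mud_RelBetaAt N q :=
  s59mudb_relBetaAt_of_relAlphaAt N q hq hqN (s59mud_relAlphaAt hq hqN)

/-- μDEG-`β` at `(N, q)` for `muMap`. -/
theorem s59mudb_muBetaAt {N q : ℕ} [NeZero N] [NeZero q] (hq : q.Prime) (hqN : ¬ q ∣ N) :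
    s59mud_MuBetaAt N q :=
  s59mud_muBetaAt_of_rel (s59mudb_relBetaAt hq hqN)

/-- **(R4), unconditional** (`q ∤ N` prime): a torsion point of `J₀(N q)` whose multiplier
character is killed by `cores` and `coresD` is `q`-new. -/
theorem s59mudb_mem_stbNew {N q : ℕ} [NeZero N] [NeZero q] (hq : q.Prime) (hqN : ¬ q ∣ N)
    {n : ℕ} (hn : 0 < n) {x : JZero (N * q)} (hx : n • x = 0)
    (h1 : cores N q (Additive ℂˣ) (muMap (N * q) x) = 0)
    (h2 : coresD N q (Additive ℂˣ) (muMap (N * q) x) = 0) : x ∈ stbNew N q :=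
  s59mud_mem_stbNew (s59mud_relAlphaAt hq hqN) (s59mudb_relBetaAt hq hqN) hn hx h1 h2

/-- converse of (R4), unconditional (`q ∤ N` prime). -/
theorem s59mudb_cores_of_mem_stbNew {N q : ℕ} [NeZero N] [NeZero q] (hq : q.Prime)
    (hqN : ¬ q ∣ N) {n : ℕ} (hn : 0 < n) {x : JZero (N * q)} (hx : n • x = 0)
    (hnew : x ∈ stbNew N q) :
    cores N q (Additive ℂˣ) (muMap (N * q) x) = 0 ∧
      coresD N q (Additive ℂˣ) (muMap (N * q) x) = 0 :=
  s59mud_cores_of_mem_stbNew (s59mud_relAlphaAt hq hqN) (s59mudb_relBetaAt hq hqN) hn hx hnew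

end Fermat.Agent.S59
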