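import Fermat.Agent.S59.Eta.MuDegAt
import Fermat.Agent.S59.Eta.MuDegSwap
import Fermat.Agent.S59.Eta.SatConc

/-!
# S59 / R2 / μDEG, piece P9 (β-half), part 1 (helper32): the Atkin–Lehner substitution on
root data

`q ∤ N` prime, `q a₀ − N b₀ = 1`, `γ₁ = [[a₀, b₀], [N, q]] ∈ Γ₀(N)`, `W τ = γ₁ • (q τ)`
(`AL.alW q N a₀ b₀ h`).

* `s59mudbG1` : `γ₁` as an element of `Γ₀(N)`;
* `s59mudb_conj_mem_iff` : for `g ∈ Γ₀(N)`: `g ∈ range conjD ↔ γ₁ g γ₁⁻¹ ∈ range incl`;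
* `s59mudbC γ ∈ Γ₀(N q)` with `incl (c γ) = γ₁ · conjD γ · γ₁⁻¹` (`s59mudbC_spec`);
* `s59mudb_alW_smul` : `W (γ • τ) = c(γ) • W τ`;
* `s59mudbRootW R` : the root datum `R ∘ W`; `s59mudbRootW_mult` : its multiplier is
  `γ ↦ R.mult (c γ)`.
-/

set_option autoImplicit false
set_option linter.style.haveILetI false
set_option linter.unusedSectionVars false

noncomputable section

namespace Fermat.Agent.S59

open ModularCurve UpperHalfPlane CongruenceSubgroup Matrix Matrix.SpecialLinearGroup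
open Fermat.Agent.S23 Fermat.Agent.S24 Fermat.Agent.S28 Fermat.Agent.ES Fermat.Agent.AL
  Fermat.Agent.S41
open scoped MatrixGroups Manifold

section W

variable {q N : ℕ} [NeZero q] [NeZero N] (a₀ b₀ : ℤ) (h : (q : ℤ) * a₀ - (N : ℤ) * b₀ = 1)

theorem s59mudb_sl_mul_apply (u v : SL(2, ℤ)) (i j : Fin 2) :
    (u * v) i j = u i 0 * v 0 j + u i 1 * v 1 j := by
  show ((u : Matrix (Fin 2) (Fin 2) ℤ) * (v : Matrix (Fin 2) (Fin 2) ℤ)) i j = _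
  rw [Matrix.mul_apply, Fin.sum_univ_two]

theorem s59mudb_sl_inv_10 (u : SL(2, ℤ)) : (u⁻¹) 1 0 = - u 1 0 := by
  rw [Matrix.SpecialLinearGroup.coe_inv, Matrix.adjugate_fin_two]
  rfl

theorem s59mudb_sl_inv_00 (u : SL(2, ℤ)) : (u⁻¹) 0 0 = u 1 1 := by
  rw [Matrix.SpecialLinearGroup.coe_inv, Matrix.adjugate_fin_two]
  rfl

theorem s59mudb_sl_inv_01 (u : SL(2, ℤ)) : (u⁻¹) 0 1 = - u 0 1 := by
  rw [Matrix.SpecialLinearGroup.coe_inv, Matrix.adjugate_fin_two]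
  rfl

theorem s59mudb_sl_inv_11 (u : SL(2, ℤ)) : (u⁻¹) 1 1 = u 0 0 := by
  rw [Matrix.SpecialLinearGroup.coe_inv, Matrix.adjugate_fin_two]
  rfl

/-- `γ₁ = [[a₀, b₀], [N, q]]` as an element of `Γ₀(N)`. -/
def s59mudbG1 : Gamma0 N :=
  ⟨alGamma1 q N a₀ b₀ h, mem_Gamma0_of_dvd (by simp [alGamma1])⟩

theorem s59mudbG1_coe : ((s59mudbG1 a₀ b₀ h : Gamma0 N) : SL(2, ℤ)) = alGamma1 q N a₀ b₀ h := rfl

theorem s59mudb_g1_00 : (alGamma1 q N a₀ b₀ h) 0 0 = a₀ := by simp [alGamma1]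
theorem s59mudb_g1_01 : (alGamma1 q N a₀ b₀ h) 0 1 = b₀ := by simp [alGamma1]
theorem s59mudb_g1_10 : (alGamma1 q N a₀ b₀ h) 1 0 = (N : ℤ) := by simp [alGamma1]
theorem s59mudb_g1_11 : (alGamma1 q N a₀ b₀ h) 1 1 = (q : ℤ) := by simp [alGamma1]

/-- the lower left entry of `γ₁ g γ₁⁻¹`. -/
theorem s59mudb_conj_10 (g : SL(2, ℤ)) :
    (alGamma1 q N a₀ b₀ h * g * (alGamma1 q N a₀ b₀ h)⁻¹) 1 0
      = (q : ℤ) * ((N : ℤ) * g 0 0 + (q : ℤ) * g 1 0 - (N : ℤ) * g 1 1) - (N : ℤ) ^ 2 * g 0 1 := by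
  rw [s59mudb_sl_mul_apply, s59mudb_sl_mul_apply, s59mudb_sl_mul_apply, s59mudb_sl_inv_00,
    s59mudb_sl_inv_10, s59mudb_g1_10, s59mudb_g1_11]
  ring

/-- `H₂ = γ₁⁻¹ H₁ γ₁` for `H₁ = range incl`, `H₂ = range conjD`. -/
theorem s59mudb_conj_mem_iff (hq : q.Prime) (hqN : ¬ q ∣ N) (g : Gamma0 N) :
    g ∈ (conjD N q).range ↔
      s59mudbG1 a₀ b₀ h * g * (s59mudbG1 a₀ b₀ h)⁻¹ ∈ (incl N q).range := by
  haveI : Fact q.Prime := ⟨hq⟩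
  rw [s59sat_mem_conjD_range N q, s59sat_mem_incl_range N q (s59sat_coprime N q hqN)]
  have e : ((s59mudbG1 a₀ b₀ h * g * (s59mudbG1 a₀ b₀ h)⁻¹ : Gamma0 N) : SL(2, ℤ)) 1 0
      = (q : ℤ) * ((N : ℤ) * g.1 0 0 + (q : ℤ) * g.1 1 0 - (N : ℤ) * g.1 1 1)
        - (N : ℤ) ^ 2 * g.1 0 1 := s59mudb_conj_10 a₀ b₀ h g.1
  have hcop : IsCoprime (q : ℤ) ((N : ℤ) ^ 2) := by
    apply IsCoprime.pow_right
    rw [Int.isCoprime_iff_gcd_eq_one]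
    have : Nat.Coprime q N := s59sat_coprime N q hqN
    simpa [Int.gcd] using this
  constructor
  · intro hd
    show (q : ℤ) ∣ ((s59mudbG1 a₀ b₀ h * g * (s59mudbG1 a₀ b₀ h)⁻¹ : Gamma0 N) : SL(2, ℤ)) 1 0
    rw [e]
    exact dvd_sub (dvd_mul_right _ _) (dvd_mul_of_dvd_right hd _)
  · intro hd
    have hd' : (q : ℤ) ∣
        ((s59mudbG1 a₀ b₀ h * g * (s59mudbG1 a₀ b₀ h)⁻¹ : Gamma0 N) : SL(2, ℤ)) 1 0 := hd
    rw [e] at hd'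
    have h2 : (q : ℤ) ∣ (N : ℤ) ^ 2 * g.1 0 1 := by
      have := dvd_sub (dvd_mul_right (q : ℤ)
        ((N : ℤ) * g.1 0 0 + (q : ℤ) * g.1 1 0 - (N : ℤ) * g.1 1 1)) hd'
      simpa using this
    exact hcop.dvd_of_dvd_mul_left h2

/-- `c(γ) ∈ Γ₀(N q)` with `incl (c γ) = γ₁ · conjD γ · γ₁⁻¹`. -/
def s59mudbC (hq : q.Prime) (hqN : ¬ q ∣ N) (γ : Gamma0 (N * q)) : Gamma0 (N * q) :=
  ((s59mudb_conj_mem_iff a₀ b₀ h hq hqN (conjD N q γ)).1 ⟨γ, rfl⟩).choose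

theorem s59mudbC_spec (hq : q.Prime) (hqN : ¬ q ∣ N) (γ : Gamma0 (N * q)) :
    incl N q (s59mudbC a₀ b₀ h hq hqN γ)
      = s59mudbG1 a₀ b₀ h * conjD N q γ * (s59mudbG1 a₀ b₀ h)⁻¹ :=
  ((s59mudb_conj_mem_iff a₀ b₀ h hq hqN (conjD N q γ)).1 ⟨γ, rfl⟩).choose_spec

theorem s59mudbC_coe (hq : q.Prime) (hqN : ¬ q ∣ N) (γ : Gamma0 (N * q)) :
    ((s59mudbC a₀ b₀ h hq hqN γ : Gamma0 (N * q)) : SL(2, ℤ))
      = alGamma1 q N a₀ b₀ h * ((conjD N q γ : Gamma0 N) : SL(2, ℤ))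
        * (alGamma1 q N a₀ b₀ h)⁻¹ := by
  have := congrArg (fun x : Gamma0 N => (x : SL(2, ℤ))) (s59mudbC_spec a₀ b₀ h hq hqN γ)
  exact this

/-- `q · (γ τ) = conjD(γ) · (q τ)`. -/
theorem s59mudb_scaleN_smul (γ : Gamma0 (N * q)) (τ : ℍ) :
    scaleN q ((γ : SL(2, ℤ)) • τ) = ((conjD N q γ : Gamma0 N) : SL(2, ℤ)) • scaleN q τ :=
  P7_thetaCompanion_smul q (γ : SL(2, ℤ)) (dvd_q_of_mem N q γ.2) τ

/-- **`W (γ τ) = c(γ) W τ`**. -/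
theorem s59mudb_alW_smul (hq : q.Prime) (hqN : ¬ q ∣ N) (γ : Gamma0 (N * q)) (τ : ℍ) :
    alW q N a₀ b₀ h ((γ : SL(2, ℤ)) • τ)
      = ((s59mudbC a₀ b₀ h hq hqN γ : Gamma0 (N * q)) : SL(2, ℤ)) • alW q N a₀ b₀ h τ := by
  rw [s59mudbC_coe]
  unfold alW
  rw [s59mudb_scaleN_smul, mul_smul, mul_smul, inv_smul_smul]

end W

section Root

variable {q N : ℕ} [NeZero q] [NeZero N] (a₀ b₀ : ℤ) (h : (q : ℤ) * a₀ - (N : ℤ) * b₀ = 1)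
  (hq : q.Prime) (hqN : ¬ q ∣ N) {n : ℕ}

theorem s59mudb_mdiff_comp_alW {f : ℍ → ℂ} (hf : MDiff f) :
    MDiff (fun τ => f (alW q N a₀ b₀ h τ)) :=
  mdiff_comp_scaleN q (mdiff_comp_SL hf (alGamma1 q N a₀ b₀ h))

theorem s59mudb_scaleN_surjective (q : ℕ) [NeZero q] : Function.Surjective (scaleN q) := by
  intro τ
  have hq0 : (0 : ℝ) < (q : ℝ) := Nat.cast_pos.mpr (Nat.pos_of_ne_zero (NeZero.ne q))
  have hqc : (q : ℂ) ≠ 0 := by exact_mod_cast NeZero.ne q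
  have him : 0 < ((τ : ℂ) / (q : ℂ)).im := by
    have e : ((τ : ℂ) / (q : ℂ)).im = τ.im / (q : ℝ) := by
      rw [show ((q : ℂ)) = (((q : ℝ)) : ℂ) by push_cast; rfl, Complex.div_ofReal_im]
      rfl
    rw [e]
    exact div_pos τ.im_pos hq0
  refine ⟨⟨(τ : ℂ) / (q : ℂ), him⟩, ?_⟩
  apply UpperHalfPlane.ext
  rw [coe_scaleN]
  show (q : ℂ) * ((τ : ℂ) / (q : ℂ)) = (τ : ℂ)
  field_simp

theorem s59mudb_comp_alW_ne_zero {f : ℍ → ℂ} (hf : f ≠ 0) :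
    (fun τ => f (alW q N a₀ b₀ h τ)) ≠ 0 := by
  intro h0
  apply hf
  funext τ
  obtain ⟨τ', hτ'⟩ := s59mudb_scaleN_surjective q ((alGamma1 q N a₀ b₀ h)⁻¹ • τ)
  have h1 := congrFun h0 τ'
  have h2 : alW q N a₀ b₀ h τ' = τ := by
    unfold alW
    rw [hτ', smul_inv_smul]
  simp only [h2] at h1
  exact h1

/-- the root datum `R ∘ W`. -/
def s59mudbRootW (R : RootData (Gamma0 (N * q)) n) : RootData (Gamma0 (N * q)) n where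
  a := fun τ => R.a (alW q N a₀ b₀ h τ)
  g := fun τ => R.g (alW q N a₀ b₀ h τ)
  p_ne_zero := R.p_ne_zero
  mdiff_a := s59mudb_mdiff_comp_alW a₀ b₀ h R.mdiff_a
  mdiff_g := s59mudb_mdiff_comp_alW a₀ b₀ h R.mdiff_g
  a_ne_zero := s59mudb_comp_alW_ne_zero a₀ b₀ h R.a_ne_zero
  g_ne_zero := s59mudb_comp_alW_ne_zero a₀ b₀ h R.g_ne_zero
  pow_inv γ hγ τ := by
    have h1 := R.pow_inv _ (s59mudbC a₀ b₀ h hq hqN ⟨γ, hγ⟩).2 (alW q N a₀ b₀ h τ)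
    rw [← s59mudb_alW_smul a₀ b₀ h hq hqN ⟨γ, hγ⟩ τ] at h1
    exact h1

@[simp] theorem s59mudbRootW_a (R : RootData (Gamma0 (N * q)) n) :
    (s59mudbRootW a₀ b₀ h hq hqN R).a = fun τ => R.a (alW q N a₀ b₀ h τ) := rfl

@[simp] theorem s59mudbRootW_g (R : RootData (Gamma0 (N * q)) n) :
    (s59mudbRootW a₀ b₀ h hq hqN R).g = fun τ => R.g (alW q N a₀ b₀ h τ) := rfl

/-- the multiplier of `R ∘ W` is `γ ↦ χ_R (c γ)`. -/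
theorem s59mudbRootW_mult (R : RootData (Gamma0 (N * q)) n) (γ : Gamma0 (N * q)) :
    (s59mudbRootW a₀ b₀ h hq hqN R).mult γ = R.mult (s59mudbC a₀ b₀ h hq hqN γ) := by
  rw [RootData.mult_eq_iff]
  intro τ
  show R.a (alW q N a₀ b₀ h ((γ : SL(2, ℤ)) • τ)) * R.g (alW q N a₀ b₀ h τ)
    = (R.mult (s59mudbC a₀ b₀ h hq hqN γ) : ℂ)
      * (R.a (alW q N a₀ b₀ h τ) * R.g (alW q N a₀ b₀ h ((γ : SL(2, ℤ)) • τ)))
  rw [s59mudb_alW_smul a₀ b₀ h hq hqN γ τ]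
  exact R.mult_spec _ _

theorem s59mudbRootW_multAdd (R : RootData (Gamma0 (N * q)) n) (γ : Gamma0 (N * q)) :
    (s59mudbRootW a₀ b₀ h hq hqN R).multAdd (Additive.ofMul γ)
      = R.multAdd (Additive.ofMul (s59mudbC a₀ b₀ h hq hqN γ)) := by
  rw [RootData.multAdd_apply, RootData.multAdd_apply, s59mudbRootW_mult]

end Root

end Fermat.Agent.S59
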