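/-
S59 / R2 / μDEG, piece **P4** — explicit cosets of `Γ₀(N q)` in `Γ₀(N)` (helper75, for helper84).

`q` prime, `q ∤ N`, `q a₀ − N b₀ = 1`, `γ₁ = AL.alGamma1 q N a₀ b₀ h = [[a₀, b₀], [N, q]] ∈ Γ₀(N)`.
The `q + 1` elements `1`, `(γ₁ T^b)⁻¹` (`0 ≤ b < q`) are a system of representatives of
`Γ₀(N) ⧸ Γ₀(N q)`:

* `s59mudcMat b = γ₁ T^b`, `s59mudcRep : Option (Fin q) → Γ₀(N)` (`none ↦ 1`, `some b ↦ (γ₁ T^b)⁻¹`);
* `s59mudcEquiv : Option (Fin q) ≃ s59mudQuot N q`;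
* `s59mudcSec : s59mudQuot N q → Γ₀(N)`, a section (`s59mudcSec_spec`);
* **`s59mudc_prod`** : `s59mudProd N q s59mudcSec f τ = f τ * ∏_{b < q} f ((γ₁ T^b) • τ)`.
-/
import Fermat.Agent.S59.Eta.MuDegRoot
import Fermat.Agent.S34.ALAnalytic

set_option autoImplicit false
set_option linter.unusedSectionVars false
set_option linter.style.haveILetI false

noncomputable section

namespace Fermat.Agent.S59

open UpperHalfPlane CongruenceSubgroup Matrix Matrix.SpecialLinearGroup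
open Fermat.Agent.S41
open scoped MatrixGroups

section Cosets

variable (N q : ℕ) [NeZero N] [NeZero q] (a₀ b₀ : ℤ) (h : (q : ℤ) * a₀ - (N : ℤ) * b₀ = 1)

/-- the matrix `γ₁ T^b = [[a₀, a₀ b + b₀], [N, N b + q]]` -/
def s59mudcMat (b : ℤ) : SL(2, ℤ) :=
  ⟨!![a₀, a₀ * b + b₀; (N : ℤ), (N : ℤ) * b + (q : ℤ)], by
    rw [Matrix.det_fin_two_of]; linear_combination h⟩

theorem s59mudcMat_eq (b : ℤ) :
    s59mudcMat N q a₀ b₀ h b = Fermat.Agent.AL.alGamma1 q N a₀ b₀ h * ModularGroup.T ^ b := by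
  apply Subtype.ext
  rw [Matrix.SpecialLinearGroup.coe_mul, ModularGroup.coe_T_zpow]
  simp only [s59mudcMat, Fermat.Agent.AL.alGamma1]
  ext i j
  fin_cases i <;> fin_cases j <;> simp [Matrix.mul_apply, Fin.sum_univ_two]

theorem s59mudcMat_10 (b : ℤ) : (s59mudcMat N q a₀ b₀ h b) 1 0 = (N : ℤ) := rfl

theorem s59mudcMat_00 (b : ℤ) : (s59mudcMat N q a₀ b₀ h b) 0 0 = a₀ := rfl

theorem s59mudcMat_01 (b : ℤ) : (s59mudcMat N q a₀ b₀ h b) 0 1 = a₀ * b + b₀ := rfl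

theorem s59mudcMat_11 (b : ℤ) : (s59mudcMat N q a₀ b₀ h b) 1 1 = (N : ℤ) * b + (q : ℤ) := rfl

theorem s59mudc_mem_Gamma0_iff (M : ℕ) (A : SL(2, ℤ)) : A ∈ Gamma0 M ↔ (M : ℤ) ∣ A 1 0 := by
  rw [Gamma0_mem, ZMod.intCast_zmod_eq_zero_iff_dvd]

theorem s59mudcMat_mem (b : ℤ) : s59mudcMat N q a₀ b₀ h b ∈ Gamma0 N := by
  rw [s59mudc_mem_Gamma0_iff, s59mudcMat_10]

/-- the entries of the inverse -/
theorem s59mudc_inv_10 (A : SL(2, ℤ)) : (A⁻¹) 1 0 = - A 1 0 := by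
  rw [Matrix.SpecialLinearGroup.coe_inv, Matrix.adjugate_fin_two]
  simp

theorem s59mudc_inv_00 (A : SL(2, ℤ)) : (A⁻¹) 0 0 = A 1 1 := by
  rw [Matrix.SpecialLinearGroup.coe_inv, Matrix.adjugate_fin_two]
  simp

theorem s59mudc_inv_01 (A : SL(2, ℤ)) : (A⁻¹) 0 1 = - A 0 1 := by
  rw [Matrix.SpecialLinearGroup.coe_inv, Matrix.adjugate_fin_two]
  simp

theorem s59mudc_inv_11 (A : SL(2, ℤ)) : (A⁻¹) 1 1 = A 0 0 := by
  rw [Matrix.SpecialLinearGroup.coe_inv, Matrix.adjugate_fin_two]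
  simp

theorem s59mudc_mul_10 (A B : SL(2, ℤ)) : (A * B) 1 0 = A 1 0 * B 0 0 + A 1 1 * B 1 0 := by
  rw [Matrix.SpecialLinearGroup.coe_mul, Matrix.mul_apply, Fin.sum_univ_two]

/-- the representatives -/
def s59mudcRep : Option (Fin q) → Gamma0 N
  | none => 1
  | some b => ⟨(s59mudcMat N q a₀ b₀ h (b : ℕ))⁻¹,
      (Gamma0 N).inv_mem (s59mudcMat_mem N q a₀ b₀ h _)⟩

theorem s59mudcRep_none : s59mudcRep N q a₀ b₀ h none = 1 := rfl

theorem s59mudcRep_some_coe (b : Fin q) :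
    ((s59mudcRep N q a₀ b₀ h (some b) : Gamma0 N) : SL(2, ℤ)) =
      (s59mudcMat N q a₀ b₀ h (b : ℕ))⁻¹ := rfl

/-- membership in the image of `Γ₀(N q)` -/
theorem s59mudc_mem_range_iff (g : Gamma0 N) :
    g ∈ (incl N q).range ↔ ((N : ℤ) * (q : ℤ)) ∣ (g : SL(2, ℤ)) 1 0 := by
  constructor
  · rintro ⟨γ, rfl⟩
    have := (s59mudc_mem_Gamma0_iff (N * q) (γ : SL(2, ℤ))).mp γ.2
    rw [incl_coe]
    exact_mod_cast this
  · intro hg
    have hmem : (g : SL(2, ℤ)) ∈ Gamma0 (N * q) := by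
      rw [s59mudc_mem_Gamma0_iff]
      exact_mod_cast hg
    exact ⟨⟨(g : SL(2, ℤ)), hmem⟩, Subtype.ext rfl⟩

/-- two elements of `Γ₀(N)` are in the same coset iff `N q ∣ (g₁⁻¹ g₂)₁₀` -/
theorem s59mudc_coset_eq_iff (g₁ g₂ : Gamma0 N) :
    ((g₁ : Gamma0 N) : s59mudQuot N q) = g₂ ↔
      ((N : ℤ) * (q : ℤ)) ∣ (((g₁ : SL(2, ℤ)))⁻¹ * (g₂ : SL(2, ℤ))) 1 0 := by
  rw [QuotientGroup.eq, s59mudc_mem_range_iff]
  rfl

variable (hq : q.Prime) (hqN : ¬ q ∣ N)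

include hq hqN in
theorem s59mudc_dvd_of_dvd_mul {k : ℤ} (hk : ((N : ℤ) * (q : ℤ)) ∣ (N : ℤ) * ((N : ℤ) * k)) :
    (q : ℤ) ∣ k := by
  have hN0 : (N : ℤ) ≠ 0 := by exact_mod_cast NeZero.ne N
  have h1 : (q : ℤ) ∣ (N : ℤ) * k := (mul_dvd_mul_iff_left hN0).mp hk
  have hqp : Prime (q : ℤ) := Nat.prime_iff_prime_int.mp hq
  rcases hqp.dvd_or_dvd h1 with h2 | h2
  · exact absurd (Int.natCast_dvd_natCast.mp h2) hqN
  · exact h2

include hq in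
theorem s59mudc_not_dvd_N : ¬ ((N : ℤ) * (q : ℤ)) ∣ (N : ℤ) := by
  intro hd
  have hN0 : (N : ℤ) ≠ 0 := by exact_mod_cast NeZero.ne N
  have h1 : (N : ℤ) * (q : ℤ) ∣ (N : ℤ) * 1 := by rwa [mul_one]
  have h2 : (q : ℤ) ∣ 1 := (mul_dvd_mul_iff_left hN0).mp h1
  have h3 : q ∣ 1 := by exact_mod_cast h2
  exact hq.one_lt.ne' (Nat.dvd_one.mp h3)

include hq hqN in
/-- the representatives are pairwise inequivalent -/
theorem s59mudc_injective :
    Function.Injective fun x : Option (Fin q) =>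
      ((s59mudcRep N q a₀ b₀ h x : Gamma0 N) : s59mudQuot N q) := by
  intro x y hxy
  have hxy' := (s59mudc_coset_eq_iff N q _ _).mp hxy
  rcases x with _ | b <;> rcases y with _ | b'
  · rfl
  · exfalso
    rw [s59mudcRep_none, s59mudcRep_some_coe, s59mudc_mul_10, s59mudc_inv_10, s59mudc_inv_00,
      s59mudc_inv_10, s59mudc_inv_11] at hxy'
    simp only [OneMemClass.coe_one, Matrix.SpecialLinearGroup.coe_one, Matrix.one_apply_ne,
      Matrix.one_apply_eq, s59mudcMat_10, s59mudcMat_11, ne_eq, one_ne_zero, not_false_eq_true,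
      neg_zero, zero_mul, zero_add, one_mul] at hxy'
    have := (dvd_neg).mp hxy'
    exact s59mudc_not_dvd_N N q hq this
  · exfalso
    rw [s59mudcRep_none, s59mudcRep_some_coe, inv_inv, s59mudc_mul_10] at hxy'
    simp only [OneMemClass.coe_one, Matrix.SpecialLinearGroup.coe_one, Matrix.one_apply_ne,
      Matrix.one_apply_eq, s59mudcMat_10, s59mudcMat_11, ne_eq, one_ne_zero, not_false_eq_true,
      mul_one, mul_zero, add_zero] at hxy'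
    exact s59mudc_not_dvd_N N q hq hxy'
  · rw [s59mudcRep_some_coe, s59mudcRep_some_coe, inv_inv, s59mudc_mul_10, s59mudc_inv_10,
      s59mudc_inv_00, s59mudcMat_10, s59mudcMat_11, s59mudcMat_10, s59mudcMat_11] at hxy'
    have e : (N : ℤ) * ((N : ℤ) * ((b' : ℕ) : ℤ) + (q : ℤ)) +
        ((N : ℤ) * ((b : ℕ) : ℤ) + (q : ℤ)) * (-(N : ℤ)) =
        (N : ℤ) * ((N : ℤ) * (((b' : ℕ) : ℤ) - ((b : ℕ) : ℤ))) := by ring
    rw [e] at hxy'
    have h3 := s59mudc_dvd_of_dvd_mul N q hq hqN hxy'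
    have hb : ((b : ℕ) : ℤ) < q := by exact_mod_cast b.2
    have hb' : ((b' : ℕ) : ℤ) < q := by exact_mod_cast b'.2
    have hb0 : (0 : ℤ) ≤ ((b : ℕ) : ℤ) := Int.natCast_nonneg _
    have hb'0 : (0 : ℤ) ≤ ((b' : ℕ) : ℤ) := Int.natCast_nonneg _
    have h4 : ((b' : ℕ) : ℤ) - ((b : ℕ) : ℤ) = 0 := by
      apply Int.eq_zero_of_abs_lt_dvd h3
      rw [abs_lt]
      constructor <;> linarith
    have h5 : (b' : ℕ) = (b : ℕ) := by
      have : ((b' : ℕ) : ℤ) = ((b : ℕ) : ℤ) := by linarith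
      exact_mod_cast this
    congr 1
    exact (Fin.ext h5).symm

include hq hqN in
/-- every coset has a representative -/
theorem s59mudc_surjective :
    Function.Surjective fun x : Option (Fin q) =>
      ((s59mudcRep N q a₀ b₀ h x : Gamma0 N) : s59mudQuot N q) := by
  intro c
  obtain ⟨g, rfl⟩ := QuotientGroup.mk_surjective c
  have hg : (N : ℤ) ∣ (g : SL(2, ℤ)) 1 0 := (s59mudc_mem_Gamma0_iff N _).mp g.2
  obtain ⟨c', hc'⟩ := hg
  by_cases hqc : (q : ℤ) ∣ c'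
  · refine ⟨none, ?_⟩
    rw [s59mudc_coset_eq_iff, s59mudcRep_none]
    simp only [OneMemClass.coe_one, inv_one, one_mul]
    rw [hc']
    exact mul_dvd_mul_left _ hqc
  · -- solve `a + N t c' ≡ 0 mod q`
    haveI : Fact q.Prime := ⟨hq⟩
    have hNq : ((N : ℤ) : ZMod q) ≠ 0 := by
      rw [Ne, ZMod.intCast_zmod_eq_zero_iff_dvd]
      exact fun hd => hqN (Int.natCast_dvd_natCast.mp hd)
    have hcq : ((c' : ℤ) : ZMod q) ≠ 0 := by
      rw [Ne, ZMod.intCast_zmod_eq_zero_iff_dvd]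
      exact hqc
    obtain ⟨t, ht⟩ : ∃ t : ZMod q,
        (((g : SL(2, ℤ)) 0 0 : ℤ) : ZMod q) + ((N : ℤ) : ZMod q) * t * ((c' : ℤ) : ZMod q) = 0 :=
      ⟨-(((g : SL(2, ℤ)) 0 0 : ℤ) : ZMod q) * (((N : ℤ) : ZMod q))⁻¹ * (((c' : ℤ) : ZMod q))⁻¹, by
        field_simp
        ring⟩
    refine ⟨some ⟨t.val, ZMod.val_lt t⟩, ?_⟩
    rw [s59mudc_coset_eq_iff, s59mudcRep_some_coe, inv_inv, s59mudc_mul_10, s59mudcMat_10,
      s59mudcMat_11, hc']
    have e : (N : ℤ) * (g : SL(2, ℤ)) 0 0 +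
        ((N : ℤ) * (((⟨t.val, ZMod.val_lt t⟩ : Fin q) : ℕ) : ℤ) + (q : ℤ)) * ((N : ℤ) * c') =
        (N : ℤ) * ((g : SL(2, ℤ)) 0 0 + (N : ℤ) * ((t.val : ℕ) : ℤ) * c' + (q : ℤ) * c') := by
      ring
    rw [e]
    refine mul_dvd_mul_left _ ?_
    rw [← ZMod.intCast_zmod_eq_zero_iff_dvd]
    push_cast
    rw [ZMod.natCast_val, ZMod.cast_id', id, ZMod.natCast_self, zero_mul, add_zero]
    rw [Int.cast_natCast] at ht
    exact ht

/-- **the bijection** `Option (Fin q) ≃ Γ₀(N) ⧸ Γ₀(N q)` -/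
def s59mudcEquiv : Option (Fin q) ≃ s59mudQuot N q :=
  Equiv.ofBijective _ ⟨s59mudc_injective N q a₀ b₀ h hq hqN, s59mudc_surjective N q a₀ b₀ h hq hqN⟩

theorem s59mudcEquiv_apply (x : Option (Fin q)) :
    s59mudcEquiv N q a₀ b₀ h hq hqN x =
      ((s59mudcRep N q a₀ b₀ h x : Gamma0 N) : s59mudQuot N q) := rfl

/-- **the explicit section** of `Γ₀(N) → Γ₀(N) ⧸ Γ₀(N q)` -/
def s59mudcSec : s59mudQuot N q → Gamma0 N :=
  fun c => s59mudcRep N q a₀ b₀ h ((s59mudcEquiv N q a₀ b₀ h hq hqN).symm c)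

theorem s59mudcSec_spec (c : s59mudQuot N q) :
    ((s59mudcSec N q a₀ b₀ h hq hqN c : Gamma0 N) : s59mudQuot N q) = c := by
  unfold s59mudcSec
  rw [← s59mudcEquiv_apply N q a₀ b₀ h hq hqN, Equiv.apply_symm_apply]

theorem s59mudcSec_equiv (x : Option (Fin q)) :
    s59mudcSec N q a₀ b₀ h hq hqN (s59mudcEquiv N q a₀ b₀ h hq hqN x) =
      s59mudcRep N q a₀ b₀ h x := by
  unfold s59mudcSec
  rw [Equiv.symm_apply_apply]

attribute [local instance] Subgroup.fintypeQuotientOfFiniteIndex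

/-- **the coset product for the explicit section**:
`∏_c f ((rep c)⁻¹ τ) = f τ * ∏_{b < q} f ((γ₁ T^b) τ)`. -/
theorem s59mudc_prod (f : ℍ → ℂ) (τ : ℍ) :
    s59mudProd N q (s59mudcSec N q a₀ b₀ h hq hqN) f τ =
      f τ * ∏ b : Fin q, f (s59mudcMat N q a₀ b₀ h (b : ℕ) • τ) := by
  rw [s59mudProd_apply]
  rw [← Fintype.prod_equiv (s59mudcEquiv N q a₀ b₀ h hq hqN)
    (fun x : Option (Fin q) =>
      f ((((s59mudcRep N q a₀ b₀ h x : Gamma0 N) : SL(2, ℤ)))⁻¹ • τ))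
    (fun c => f (s59mudPt N q (s59mudcSec N q a₀ b₀ h hq hqN) c τ))
    (fun x => by
      unfold s59mudPt
      rw [s59mudcSec_equiv])]
  rw [Fintype.prod_option]
  congr 1
  · rw [s59mudcRep_none]
    simp
  · refine Finset.prod_congr rfl fun b _ => ?_
    rw [s59mudcRep_some_coe, inv_inv]

end Cosets

end Fermat.Agent.S59
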