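import Fermat.Agent.S59.Eta.MuDegRoot
import Fermat.Agent.S59.Eta.MuDegBetaW
import Fermat.Agent.ES.RC.HeckeProdLaurent

/-!
# S59 / R2 / μDEG at `q ∣ M`, piece P7-`β` — the `δ`-twisted coset product has multiplier
`coresD χ` (helper31)

`Γ = Γ₀(M)`, `H = (conjD M q).range ≤ Γ` (`conjD γ = δ γ δ⁻¹`, `δ = diag(q, 1)`),
`rep : Γ ⧸ H → Γ` ANY section of the quotient map.  No hypothesis on `(M, q)`.

* `s59muddT q τ = τ / q`, `s59muddT_smul : (conjD γ • τ) / q = γ • (τ / q)`;
* `s59muddPt rep c τ = ((rep c)⁻¹ τ) / q`;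
* `s59muddProd rep f τ = ∏_{c : Γ ⧸ H} f (((rep c)⁻¹ τ) / q)`;
* `s59mudd_isMultiplier` : if `a / g` has multiplier `χ` on `Γ₀(M q)` then `Prod a / Prod g` has
  multiplier `γ ↦ ∏_c χ (κ(γ, c))` on `Γ`;
* `s59muddRoot` : the root datum `(Prod a) / (Prod g)` on `Γ₀(M)`; **`s59muddRoot_multAdd`** : its
  multiplier character is `S41.coresD M q (Additive ℂˣ) R.multAdd`;
* `s59muddProd_rel` : a relation `A ^ n · g = a · G ^ n` is preserved by `Prod`.
-/

set_option autoImplicit false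
set_option linter.unusedSectionVars false
set_option linter.style.haveILetI false

noncomputable section

namespace Fermat.Agent.S59

open UpperHalfPlane CongruenceSubgroup Matrix Matrix.SpecialLinearGroup
open Fermat.Agent.ES Fermat.Agent.ES.RC Fermat.Agent.S41 Fermat.Agent.S23 Fermat.Agent.S28
open scoped MatrixGroups Manifold

attribute [local instance] Subgroup.fintypeQuotientOfFiniteIndex

/-! ## The twist `τ ↦ τ / q` -/

section Twist

variable (q : ℕ) [NeZero q]

/-- the point `τ / q` -/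
def s59muddT (τ : ℍ) : ℍ := rcBeta q 0 τ

theorem s59muddT_coe (τ : ℍ) : ((s59muddT q τ : ℍ) : ℂ) = (τ : ℂ) / (q : ℂ) := by
  rw [s59muddT, rc_coe_beta]
  simp

theorem s59muddT_scaleN (τ : ℍ) : s59muddT q (scaleN q τ) = τ := by
  have hq : (q : ℂ) ≠ 0 := Nat.cast_ne_zero.mpr (NeZero.ne q)
  apply UpperHalfPlane.ext
  rw [s59muddT_coe, coe_scaleN]
  field_simp

theorem s59mudd_scaleN_T (τ : ℍ) : scaleN q (s59muddT q τ) = τ := by
  have hq : (q : ℂ) ≠ 0 := Nat.cast_ne_zero.mpr (NeZero.ne q)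
  apply UpperHalfPlane.ext
  rw [coe_scaleN, s59muddT_coe]
  field_simp

theorem s59muddT_surjective : Function.Surjective (s59muddT q) := fun τ =>
  ⟨scaleN q τ, s59muddT_scaleN q τ⟩

/-- `(conjD γ • τ) / q = γ • (τ / q)` -/
theorem s59muddT_smul (M : ℕ) [NeZero M] (γ : Gamma0 (M * q)) (τ : ℍ) :
    s59muddT q (((conjD M q γ : Gamma0 M) : SL(2, ℤ)) • τ)
      = (γ : SL(2, ℤ)) • s59muddT q τ := by
  have h := s59mudb_scaleN_smul (N := M) (q := q) γ (s59muddT q τ)
  rw [s59mudd_scaleN_T] at h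
  rw [← h, s59muddT_scaleN]

theorem s59mudd_mdiff_T {f : ℍ → ℂ} (hf : MDiff f) : MDiff (fun τ => f (s59muddT q τ)) :=
  rc_mdiff_comp_beta 1 0 (q : ℤ) one_pos (rc_natCast_pos q) hf

theorem s59mudd_T_ne_zero {f : ℍ → ℂ} (hf : f ≠ 0) : (fun τ => f (s59muddT q τ)) ≠ 0 := by
  intro h0
  apply hf
  funext τ
  have h1 := congrFun h0 (scaleN q τ)
  simp only [s59muddT_scaleN] at h1
  exact h1

end Twist

section Main

variable (M q : ℕ) [NeZero M] [NeZero q]

/-- the quotient `Γ₀(M) ⧸ δ Γ₀(M q) δ⁻¹` -/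
abbrev s59muddQuot : Type := Gamma0 M ⧸ (conjD M q).range

/-- the point `((rep c)⁻¹ τ) / q` -/
def s59muddPt (rep : s59muddQuot M q → Gamma0 M) (c : s59muddQuot M q) (τ : ℍ) : ℍ :=
  s59muddT q ((((rep c : Gamma0 M) : SL(2, ℤ)))⁻¹ • τ)

/-- **the twisted coset product** `∏_{c : Γ₀(M) ⧸ δ Γ₀(M q) δ⁻¹} f (((rep c)⁻¹ τ) / q)` -/
def s59muddProd (rep : s59muddQuot M q → Gamma0 M) (f : ℍ → ℂ) : ℍ → ℂ :=
  fun τ => ∏ c : s59muddQuot M q, f (s59muddPt M q rep c τ)

variable {M q}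

theorem s59muddProd_apply (rep : s59muddQuot M q → Gamma0 M) (f : ℍ → ℂ) (τ : ℍ) :
    s59muddProd M q rep f τ = ∏ c : s59muddQuot M q, f (s59muddPt M q rep c τ) := rfl

/-- a relation `A ^ n · g = a · G ^ n` is preserved by the coset product -/
theorem s59muddProd_rel (rep : s59muddQuot M q → Gamma0 M) {n : ℕ}
    {A G a g : ℍ → ℂ} (h : ∀ τ, A τ ^ n * g τ = a τ * G τ ^ n) (τ : ℍ) :
    s59muddProd M q rep A τ ^ n * s59muddProd M q rep g τ
      = s59muddProd M q rep a τ * s59muddProd M q rep G τ ^ n := by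
  simp only [s59muddProd_apply, ← Finset.prod_pow, ← Finset.prod_mul_distrib]
  exact Finset.prod_congr rfl fun c _ => h _

theorem s59mudd_mdiff_pt (rep : s59muddQuot M q → Gamma0 M) (c : s59muddQuot M q) {f : ℍ → ℂ}
    (hf : MDiff f) : MDiff (fun τ => f (s59muddPt M q rep c τ)) :=
  mdiff_comp_SL (s59mudd_mdiff_T q hf) _

theorem s59mudd_pt_ne_zero (rep : s59muddQuot M q → Gamma0 M) (c : s59muddQuot M q) {f : ℍ → ℂ}
    (hf0 : f ≠ 0) : (fun τ => f (s59muddPt M q rep c τ)) ≠ 0 := fun h =>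
  s59mudd_T_ne_zero q hf0
    ((comp_SL_eq_zero_iff (w := fun τ => f (s59muddT q τ))
      (((rep c : Gamma0 M) : SL(2, ℤ)))⁻¹).mp h)

theorem s59mudd_mdiff_prod (rep : s59muddQuot M q → Gamma0 M) {f : ℍ → ℂ}
    (hf : MDiff f) : MDiff (s59muddProd M q rep f) := by
  have h : ∀ s : Finset (s59muddQuot M q),
      MDiff (fun τ : ℍ => ∏ c ∈ s, f (s59muddPt M q rep c τ)) := by
    intro s
    classical
    induction s using Finset.induction_on with
    | empty => simpa using (mdifferentiable_const : MDiff (fun _ : ℍ => (1 : ℂ)))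
    | insert c s hc ih =>
      simp only [Finset.prod_insert hc]
      exact (s59mudd_mdiff_pt rep c hf).mul ih
  exact h Finset.univ

theorem s59mudd_prod_ne_zero (rep : s59muddQuot M q → Gamma0 M) {f : ℍ → ℂ}
    (hf : MDiff f) (hf0 : f ≠ 0) : s59muddProd M q rep f ≠ 0 := by
  have h : ∀ s : Finset (s59muddQuot M q),
      (fun τ : ℍ => ∏ c ∈ s, f (s59muddPt M q rep c τ)) ≠ 0 ∧
        MDiff (fun τ : ℍ => ∏ c ∈ s, f (s59muddPt M q rep c τ)) := by
    intro s
    classical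
    induction s using Finset.induction_on with
    | empty =>
      refine ⟨?_, by simpa using (mdifferentiable_const : MDiff (fun _ : ℍ => (1 : ℂ)))⟩
      intro h
      have := congrFun h UpperHalfPlane.I
      simp at this
    | insert c s hc ih =>
      simp only [Finset.prod_insert hc]
      exact ⟨mdiff_mul_ne_zero (s59mudd_mdiff_pt rep c hf) ih.2 (s59mudd_pt_ne_zero rep c hf0)
        ih.1, (s59mudd_mdiff_pt rep c hf).mul ih.2⟩
  exact (h Finset.univ).1

/-! ## The cocycle `κ(γ, c) = (rep c)⁻¹ γ rep (γ⁻¹ c)` and its preimage in `Γ₀(M q)` -/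

/-- `κ(γ, c) ∈ (conjD M q).range` -/
abbrev s59muddKap (rep : s59muddQuot M q → Gamma0 M)
    (hrep : ∀ c, ((rep c : Gamma0 M) : s59muddQuot M q) = c)
    (γ : Gamma0 M) (c : s59muddQuot M q) : (conjD M q).range :=
  s59mudKapG (conjD M q).range rep hrep γ c

/-- the preimage of `κ(γ, c)` in `Γ₀(M q)` -/
def s59muddKapLow (rep : s59muddQuot M q → Gamma0 M)
    (hrep : ∀ c, ((rep c : Gamma0 M) : s59muddQuot M q) = c)
    (γ : Gamma0 M) (c : s59muddQuot M q) : Gamma0 (M * q) :=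
  (MonoidHom.ofInjective (conjD_injective M q)).symm (s59muddKap rep hrep γ c)

theorem s59mudd_conjD_kapLow (rep : s59muddQuot M q → Gamma0 M)
    (hrep : ∀ c, ((rep c : Gamma0 M) : s59muddQuot M q) = c)
    (γ : Gamma0 M) (c : s59muddQuot M q) :
    conjD M q (s59muddKapLow rep hrep γ c) = (rep c)⁻¹ * (γ * rep (γ⁻¹ • c)) := by
  have h := (MonoidHom.ofInjective (conjD_injective M q)).apply_symm_apply
    (s59muddKap rep hrep γ c)
  have h' : (((MonoidHom.ofInjective (conjD_injective M q))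
      ((MonoidHom.ofInjective (conjD_injective M q)).symm (s59muddKap rep hrep γ c))
        : (conjD M q).range) : Gamma0 M)
      = ((s59muddKap rep hrep γ c : (conjD M q).range) : Gamma0 M) :=
    congrArg Subtype.val h
  rw [MonoidHom.ofInjective_apply] at h'
  exact h'

theorem s59mudd_conjD_kapLow_coe (rep : s59muddQuot M q → Gamma0 M)
    (hrep : ∀ c, ((rep c : Gamma0 M) : s59muddQuot M q) = c)
    (γ : Gamma0 M) (c : s59muddQuot M q) :
    ((conjD M q (s59muddKapLow rep hrep γ c) : Gamma0 M) : SL(2, ℤ))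
      = (((rep c : Gamma0 M) : SL(2, ℤ)))⁻¹
          * ((γ : SL(2, ℤ)) * ((rep (γ⁻¹ • c) : Gamma0 M) : SL(2, ℤ))) := by
  have h := congrArg (fun x : Gamma0 M => (x : SL(2, ℤ))) (s59mudd_conjD_kapLow rep hrep γ c)
  simpa using h

/-- `((rep c)⁻¹ (γ τ)) / q = κ(γ, c) · (((rep (γ⁻¹ c))⁻¹ τ) / q)` -/
theorem s59muddPt_smul (rep : s59muddQuot M q → Gamma0 M)
    (hrep : ∀ c, ((rep c : Gamma0 M) : s59muddQuot M q) = c)
    (γ : Gamma0 M) (c : s59muddQuot M q) (τ : ℍ) :
    s59muddPt M q rep c ((γ : SL(2, ℤ)) • τ)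
      = ((s59muddKapLow rep hrep γ c : Gamma0 (M * q)) : SL(2, ℤ))
          • s59muddPt M q rep (γ⁻¹ • c) τ := by
  unfold s59muddPt
  rw [← s59muddT_smul q M, s59mudd_conjD_kapLow_coe]
  rw [← mul_smul, ← mul_smul, mul_assoc, mul_assoc, mul_inv_cancel, mul_one]

/-! ## The multiplier of the coset product -/

/-- **Multiplier of the twisted coset product.** -/
theorem s59mudd_isMultiplier (rep : s59muddQuot M q → Gamma0 M)
    (hrep : ∀ c, ((rep c : Gamma0 M) : s59muddQuot M q) = c)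
    {a g : ℍ → ℂ} (χ : Gamma0 (M * q) → ℂ)
    (hχ : ∀ γ : Gamma0 (M * q), IsMultiplier (γ : SL(2, ℤ)) a g (χ γ)) (γ : Gamma0 M) :
    IsMultiplier (γ : SL(2, ℤ)) (s59muddProd M q rep a) (s59muddProd M q rep g)
      (∏ c : s59muddQuot M q, χ (s59muddKapLow rep hrep γ c)) := by
  intro τ
  simp only [s59muddProd_apply]
  have e1 : ∀ f : ℍ → ℂ, ∏ c : s59muddQuot M q, f (s59muddPt M q rep c τ)
      = ∏ c : s59muddQuot M q, f (s59muddPt M q rep (γ⁻¹ • c) τ) := by
    intro f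
    exact (Equiv.prod_comp (MulAction.toPerm γ⁻¹) (fun c => f (s59muddPt M q rep c τ))).symm
  have e2 : ∀ f : ℍ → ℂ,
      ∏ c : s59muddQuot M q, f (s59muddPt M q rep c ((γ : SL(2, ℤ)) • τ))
      = ∏ c : s59muddQuot M q,
          f (((s59muddKapLow rep hrep γ c : Gamma0 (M * q)) : SL(2, ℤ))
            • s59muddPt M q rep (γ⁻¹ • c) τ) := by
    intro f
    refine Finset.prod_congr rfl fun c _ => ?_
    rw [s59muddPt_smul rep hrep γ c τ]
  rw [e2 a, e2 g, e1 g, e1 a, ← Finset.prod_mul_distrib, ← Finset.prod_mul_distrib,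
    ← Finset.prod_mul_distrib]
  refine Finset.prod_congr rfl fun c _ => ?_
  exact hχ _ (s59muddPt M q rep (γ⁻¹ • c) τ)

/-! ## The twisted coset transform of a root datum -/

variable {n : ℕ}

theorem s59mudd_prod_multVal_pow (rep : s59muddQuot M q → Gamma0 M)
    (hrep : ∀ c, ((rep c : Gamma0 M) : s59muddQuot M q) = c)
    (R : RootData (Gamma0 (M * q)) n) (γ : Gamma0 M) :
    (∏ c : s59muddQuot M q, R.multVal (s59muddKapLow rep hrep γ c)) ^ n = 1 := by
  rw [← Finset.prod_pow]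
  exact Finset.prod_eq_one fun c _ => R.multVal_pow _

/-- **The twisted coset transform** `(Prod a) / (Prod g)` of a root datum on `Γ₀(M q)`: a root
datum on `Γ₀(M)`. -/
def s59muddRoot (rep : s59muddQuot M q → Gamma0 M)
    (hrep : ∀ c, ((rep c : Gamma0 M) : s59muddQuot M q) = c)
    (R : RootData (Gamma0 (M * q)) n) : RootData (Gamma0 M) n where
  a := s59muddProd M q rep R.a
  g := s59muddProd M q rep R.g
  p_ne_zero := R.p_ne_zero
  mdiff_a := s59mudd_mdiff_prod rep R.mdiff_a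
  mdiff_g := s59mudd_mdiff_prod rep R.mdiff_g
  a_ne_zero := s59mudd_prod_ne_zero rep R.mdiff_a R.a_ne_zero
  g_ne_zero := s59mudd_prod_ne_zero rep R.mdiff_g R.g_ne_zero
  pow_inv γ hγ τ := by
    have h := s59mudd_isMultiplier rep hrep (fun δ : Gamma0 (M * q) => R.multVal δ)
      (fun δ => R.multVal_spec δ) ⟨γ, hγ⟩ τ
    have h1 := s59mudd_prod_multVal_pow rep hrep R ⟨γ, hγ⟩
    have h2 : s59muddProd M q rep R.a (γ • τ) * s59muddProd M q rep R.g τ
        = (∏ c : s59muddQuot M q, R.multVal (s59muddKapLow rep hrep ⟨γ, hγ⟩ c))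
          * (s59muddProd M q rep R.a τ * s59muddProd M q rep R.g (γ • τ)) := h
    rw [h2, mul_pow, h1, one_mul]

@[simp] theorem s59muddRoot_a (rep : s59muddQuot M q → Gamma0 M)
    (hrep : ∀ c, ((rep c : Gamma0 M) : s59muddQuot M q) = c)
    (R : RootData (Gamma0 (M * q)) n) :
    (s59muddRoot rep hrep R).a = s59muddProd M q rep R.a := rfl

@[simp] theorem s59muddRoot_g (rep : s59muddQuot M q → Gamma0 M)
    (hrep : ∀ c, ((rep c : Gamma0 M) : s59muddQuot M q) = c)
    (R : RootData (Gamma0 (M * q)) n) :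
    (s59muddRoot rep hrep R).g = s59muddProd M q rep R.g := rfl

/-- the multiplier of the twisted coset transform -/
theorem s59muddRoot_mult (rep : s59muddQuot M q → Gamma0 M)
    (hrep : ∀ c, ((rep c : Gamma0 M) : s59muddQuot M q) = c)
    (R : RootData (Gamma0 (M * q)) n) (γ : Gamma0 M) :
    (s59muddRoot rep hrep R).mult γ
      = ∏ c : s59muddQuot M q, R.mult (s59muddKapLow rep hrep γ c) := by
  rw [RootData.mult_eq_iff]
  have h := s59mudd_isMultiplier rep hrep (fun δ : Gamma0 (M * q) => R.multVal δ)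
    (fun δ => R.multVal_spec δ) γ
  have e : ((∏ c : s59muddQuot M q, R.mult (s59muddKapLow rep hrep γ c) : ℂˣ) : ℂ)
      = ∏ c : s59muddQuot M q, R.multVal (s59muddKapLow rep hrep γ c) := by
    rw [Units.coe_prod]
    rfl
  rw [e]
  exact h

/-- **Equivariance of the multiplier map for the degeneracy map `β`**: the multiplier character
of the twisted coset transform is `coresD` (Mathlib's transfer along `δ Γ₀(M q) δ⁻¹ ≤ Γ₀(M)`) of
the multiplier character. -/
theorem s59muddRoot_multAdd (rep : s59muddQuot M q → Gamma0 M)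
    (hrep : ∀ c, ((rep c : Gamma0 M) : s59muddQuot M q) = c)
    (R : RootData (Gamma0 (M * q)) n) :
    (s59muddRoot rep hrep R).multAdd = coresD M q (Additive ℂˣ) R.multAdd := by
  refine DFunLike.ext _ _ fun γ => ?_
  obtain ⟨γ, rfl⟩ := Additive.ofMul.surjective γ
  rw [RootData.multAdd_apply, s59muddRoot_mult]
  show _ = Multiplicative.toAdd (MonoidHom.transfer
    (rangeHom (Additive ℂˣ) (conjD M q) (conjD_injective M q) R.multAdd) γ)
  rw [s59mud_transfer_eq (conjD M q).range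
    (rangeHom (Additive ℂˣ) (conjD M q) (conjD_injective M q) R.multAdd) rep hrep γ]
  rw [ofMul_prod, toAdd_prod]
  refine Finset.sum_congr rfl fun c _ => ?_
  rfl

end Main

end Fermat.Agent.S59
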