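import Fermat.Agent.S59.Eta.MuDegFrickeW
import Fermat.Agent.S59.Eta.MuDegBeta
import Fermat.Agent.S15.ModFrWN
import Fermat.Agent.STB.PushHeckeDiv

/-!
# S59 / R2 / μDEG, Fricke swap (helper32): `α`-half ⇔ `β`-half at ANY `(M, q)`

`w_{Mq} ∘ α = β ∘ w_M` (`STB.stbd_fricke_alpha`), so `α_* x = w_M (β_* (w_{Mq} x))`; the multiplier
of `w_N x` is `χ ∘ c_N` (`c_N(γ) = W_N γ W_N⁻¹`, `MuDegFrickeW.lean`, with helper8's
`S15.stmtFrWN`), and `(coresD (χ ∘ c_{Mq})) ∘ c_M = cores χ` because the transfer is natural under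
automorphisms (`c_M ∘ incl = conjD ∘ c_{Mq}`).  No hypothesis on `(M, q)` (so also `q ∣ M`, the
case needed by E-MULT1b).

* `s59mudf_transfer_equiv` : the transfer is natural under automorphisms (any group);
* `s59mudf_coresD_C` : `ψ₁ = ψ ∘ c_{Mq}` ⇒ `(coresD ψ₁) ∘ c_M = cores ψ`;
  `s59mudf_cores_C` : `ψ₁ = ψ ∘ c_{Mq}` ⇒ `(cores ψ₁) ∘ c_M = coresD ψ`;
* `s59mudf_muRel_swap` : `MuRel x χ` ⇒ `MuRel (w_N x) (χ ∘ c_N)`;
* `s59mudf_push_alpha` : `w_M (β_* (w_{Mq} x)) = α_* x`; `s59mudf_push_beta`;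
* **`s59mudf_relAlphaAt_of_relBetaAt`** : `s59mud_RelBetaAt M q → s59mud_RelAlphaAt M q`;
* **`s59mudf_relBetaAt_of_relAlphaAt`** : `s59mud_RelAlphaAt M q → s59mud_RelBetaAt M q`.
-/

set_option autoImplicit false
set_option linter.style.haveILetI false
set_option linter.unusedSectionVars false

noncomputable section

namespace Fermat.Agent.S59

open ModularCurve AlgebraicCurve UpperHalfPlane CongruenceSubgroup Matrix
  Matrix.SpecialLinearGroup ModularCurve.Period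
open Fermat.Agent.S23 Fermat.Agent.S24 Fermat.Agent.S28 Fermat.Agent.ES Fermat.Agent.ES.G2
  Fermat.Agent.ES.M Fermat.Agent.AL Fermat.Agent.S41 Fermat.Agent.STB Fermat.Agent.UNIP
open scoped MatrixGroups Manifold

attribute [local instance] Subgroup.fintypeQuotientOfFiniteIndex

/-! ## The transfer is natural under automorphisms -/

section Equiv

variable {G : Type*} [Group G] (θ : G ≃* G) (H₁ H₂ : Subgroup G)

/-- the bijection `G ⧸ H₁ ≃ G ⧸ H₂`, `x H₁ ↦ θ x H₂`, for `H₂ = θ H₁`. -/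
def s59mudfQuot (hH : ∀ h, h ∈ H₁ ↔ θ h ∈ H₂) : G ⧸ H₁ ≃ G ⧸ H₂ where
  toFun := Quotient.map' (fun x => θ x) (by
    intro x y hxy
    rw [QuotientGroup.leftRel_apply] at hxy ⊢
    have h := (hH _).1 hxy
    rw [map_mul, map_inv] at h
    exact h)
  invFun := Quotient.map' (fun x => θ.symm x) (by
    intro x y hxy
    rw [QuotientGroup.leftRel_apply] at hxy ⊢
    rw [hH, map_mul, map_inv, MulEquiv.apply_symm_apply, MulEquiv.apply_symm_apply]
    exact hxy)
  left_inv := by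
    intro c
    induction c using Quotient.inductionOn' with
    | h x =>
      rw [Quotient.map'_mk'', Quotient.map'_mk'']
      congr 1
      exact θ.symm_apply_apply x
  right_inv := by
    intro c
    induction c using Quotient.inductionOn' with
    | h x =>
      rw [Quotient.map'_mk'', Quotient.map'_mk'']
      congr 1
      exact θ.apply_symm_apply x

theorem s59mudfQuot_mk (hH : ∀ h, h ∈ H₁ ↔ θ h ∈ H₂) (x : G) :
    s59mudfQuot θ H₁ H₂ hH (x : G ⧸ H₁) = ((θ x : G) : G ⧸ H₂) := rfl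

theorem s59mudfQuot_symm_mk (hH : ∀ h, h ∈ H₁ ↔ θ h ∈ H₂) (x : G) :
    (s59mudfQuot θ H₁ H₂ hH).symm (x : G ⧸ H₂) = ((θ.symm x : G) : G ⧸ H₁) := rfl

theorem s59mudfQuot_symm_smul (hH : ∀ h, h ∈ H₁ ↔ θ h ∈ H₂) (γ : G) (c : G ⧸ H₂) :
    (s59mudfQuot θ H₁ H₂ hH).symm (θ γ • c) = γ • (s59mudfQuot θ H₁ H₂ hH).symm c := by
  induction c using Quotient.inductionOn' with
  | h x =>
    show (s59mudfQuot θ H₁ H₂ hH).symm (((θ γ * x : G)) : G ⧸ H₂) =
      γ • (s59mudfQuot θ H₁ H₂ hH).symm ((x : G) : G ⧸ H₂)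
    rw [s59mudfQuot_symm_mk, s59mudfQuot_symm_mk]
    show _ = (((γ * θ.symm x : G)) : G ⧸ H₁)
    rw [map_mul, MulEquiv.symm_apply_apply]

/-- **the transfer is natural under automorphisms**: if `H₂ = θ H₁` and `φ₁ h = φ₂ (θ h)`, then
`transfer φ₁ γ = transfer φ₂ (θ γ)`. -/
theorem s59mudf_transfer_equiv [H₁.FiniteIndex] [H₂.FiniteIndex] {A : Type*} [CommGroup A]
    (φ₁ : H₁ →* A) (φ₂ : H₂ →* A) (hH : ∀ h, h ∈ H₁ ↔ θ h ∈ H₂)
    (hφ : ∀ (h : G) (hh : h ∈ H₁), φ₁ ⟨h, hh⟩ = φ₂ ⟨θ h, (hH h).1 hh⟩) (γ : G) :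
    MonoidHom.transfer φ₁ γ = MonoidHom.transfer φ₂ (θ γ) := by
  obtain ⟨rep₁, hrep₁⟩ : ∃ rep : G ⧸ H₁ → G, ∀ c, ((rep c : G) : G ⧸ H₁) = c :=
    ⟨fun c => Quotient.out c, fun c => Quotient.out_eq' c⟩
  set e := s59mudfQuot θ H₁ H₂ hH with he
  set rep₂ : G ⧸ H₂ → G := fun c => θ (rep₁ (e.symm c)) with hrep₂def
  have hrep₂ : ∀ c, ((rep₂ c : G) : G ⧸ H₂) = c := by
    intro c
    have h1 : ((θ (rep₁ (e.symm c)) : G) : G ⧸ H₂) = e ((rep₁ (e.symm c) : G) : G ⧸ H₁) := rfl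
    show ((θ (rep₁ (e.symm c)) : G) : G ⧸ H₂) = c
    rw [h1, hrep₁, Equiv.apply_symm_apply]
  rw [s59mud_transfer_eq H₁ φ₁ rep₁ hrep₁ γ, s59mud_transfer_eq H₂ φ₂ rep₂ hrep₂ (θ γ)]
  refine Fintype.prod_equiv e _ _ (fun c => ?_)
  rw [hφ _ (s59mudKapG H₁ rep₁ hrep₁ γ c).2]
  congr 1
  apply Subtype.ext
  show θ ((rep₁ c)⁻¹ * (γ * rep₁ (γ⁻¹ • c))) =
    (rep₂ (e c))⁻¹ * (θ γ * rep₂ ((θ γ)⁻¹ • e c))
  rw [hrep₂def]
  simp only
  rw [← map_inv θ γ, he, s59mudfQuot_symm_smul, Equiv.symm_apply_apply, map_mul, map_mul,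
    map_inv]

end Equiv

/-! ## `(coresD (ψ ∘ c)) ∘ c = cores ψ` -/

section Cores

variable (M q : ℕ) [NeZero M] [NeZero q]

/-- `c_M` as a multiplicative equivalence. -/
def s59mudfCE (N : ℕ) [NeZero N] : Gamma0 N ≃* Gamma0 N :=
  MulEquiv.ofBijective (s59mudfC N) (s59mudfC_bijective N)

theorem s59mudfCE_apply (N : ℕ) [NeZero N] (γ : Gamma0 N) : s59mudfCE N γ = s59mudfC N γ := rfl

theorem s59mudf_mem_range_iff (g : Gamma0 M) :
    g ∈ (incl M q).range ↔ s59mudfCE M g ∈ (conjD M q).range := by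
  haveI : NeZero (M * q) := inferInstance
  constructor
  · rintro ⟨γ, rfl⟩
    exact ⟨s59mudfC (M * q) γ, (s59mudf_C_incl M q γ).symm⟩
  · rintro ⟨γ, hγ⟩
    refine ⟨s59mudfC (M * q) γ, ?_⟩
    have h1 := s59mudf_C_incl M q (s59mudfC (M * q) γ)
    rw [s59mudfC_C, hγ, s59mudfCE_apply] at h1
    have h2 := congrArg (s59mudfC M) h1
    rw [s59mudfC_C, s59mudfC_C] at h2
    exact h2

theorem s59mudf_mem_range_iff' (g : Gamma0 M) :
    g ∈ (conjD M q).range ↔ s59mudfCE M g ∈ (incl M q).range := by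
  rw [s59mudf_mem_range_iff M q (s59mudfCE M g), s59mudfCE_apply, s59mudfCE_apply, s59mudfC_C]

/-- if `ψ₁ γ = ψ (c γ)` for all `γ ∈ Γ₀(M q)` then `(coresD ψ₁) (c g) = (cores ψ) g`. -/
theorem s59mudf_coresD_C {A : Type*} [AddCommGroup A] (ψ ψ₁ : HomG (M * q) A)
    (hψ : ∀ γ : Gamma0 (M * q),
      ψ₁ (Additive.ofMul γ) = ψ (Additive.ofMul (s59mudfC (M * q) γ))) (g : Gamma0 M) :
    coresD M q A ψ₁ (Additive.ofMul (s59mudfC M g)) = cores M q A ψ (Additive.ofMul g) := by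
  haveI : NeZero (M * q) := inferInstance
  have key : MonoidHom.transfer (rangeHom A (incl M q) (incl_injective M q) ψ) g
      = MonoidHom.transfer (rangeHom A (conjD M q) (conjD_injective M q) ψ₁) (s59mudfCE M g) := by
    refine s59mudf_transfer_equiv (s59mudfCE M) (incl M q).range (conjD M q).range _ _
      (s59mudf_mem_range_iff M q) ?_ g
    rintro _ ⟨γ, rfl⟩
    rw [s59mudb_rangeHom_apply]
    have e : (⟨s59mudfCE M (incl M q γ),
        (s59mudf_mem_range_iff M q (incl M q γ)).1 ⟨γ, rfl⟩⟩ : (conjD M q).range)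
        = ⟨conjD M q (s59mudfC (M * q) γ), ⟨_, rfl⟩⟩ :=
      Subtype.ext (s59mudf_C_incl M q γ)
    rw [e, s59mudb_rangeHom_apply, hψ, s59mudfC_C]
  show Multiplicative.toAdd (MonoidHom.transfer
      (rangeHom A (conjD M q) (conjD_injective M q) ψ₁) (s59mudfC M g))
    = Multiplicative.toAdd (MonoidHom.transfer
      (rangeHom A (incl M q) (incl_injective M q) ψ) g)
  rw [key]
  rfl

/-- if `ψ₁ γ = ψ (c γ)` for all `γ ∈ Γ₀(M q)` then `(cores ψ₁) (c g) = (coresD ψ) g`. -/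
theorem s59mudf_cores_C {A : Type*} [AddCommGroup A] (ψ ψ₁ : HomG (M * q) A)
    (hψ : ∀ γ : Gamma0 (M * q),
      ψ₁ (Additive.ofMul γ) = ψ (Additive.ofMul (s59mudfC (M * q) γ))) (g : Gamma0 M) :
    cores M q A ψ₁ (Additive.ofMul (s59mudfC M g)) = coresD M q A ψ (Additive.ofMul g) := by
  haveI : NeZero (M * q) := inferInstance
  have hψ' : ∀ γ : Gamma0 (M * q),
      ψ (Additive.ofMul γ) = ψ₁ (Additive.ofMul (s59mudfC (M * q) γ)) := by
    intro γ
    rw [hψ, s59mudfC_C]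
  have h := s59mudf_coresD_C M q ψ₁ ψ hψ' (s59mudfC M g)
  rw [s59mudfC_C] at h
  exact h.symm

end Cores

/-! ## The multiplier of `w_N x` -/

section Swap

variable (N : ℕ) [NeZero N]

/-- the Fricke involution `w_N` as a semilinear automorphism of `F_N`. -/
def s59mudfW : SemilinearAut Kb (modularFunctionFieldBar N) :=
  SemilinearAut.ofAlgAut (frickeAut N)

theorem s59mudfW_smul (u : modularFunctionFieldBar N) :
    s59mudfW N • u = frickeAut N u := rfl

theorem s59mudfW_mul_self : s59mudfW N * s59mudfW N = 1 := by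
  unfold s59mudfW
  rw [← map_mul, ← map_one (SemilinearAut.ofAlgAut (K := Kb)
    (F := modularFunctionFieldBar N))]
  congr 1
  exact AlgEquiv.ext fun y => frickeAut_frickeAut N y

theorem s59mudfW_smul_smul (x : JZero N) : s59mudfW N • s59mudfW N • x = x := by
  rw [smul_smul, s59mudfW_mul_self, one_smul]

/-- analytic fractions are compatible with the Fricke involution (helper8's `S15.stmtFrWN`). -/
theorem s59mudf_isAnFrac_fricke {u : modularFunctionFieldBar N} {a g : ℍ → ℂ}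
    (h : IsAnFrac N u a g) :
    IsAnFrac N (frickeAut N u) (fun τ => a (fricke N τ)) (fun τ => g (fricke N τ)) := by
  obtain ⟨ha, hg, hg0, hfr⟩ := h
  obtain ⟨h1, h2, h3⟩ := Fermat.Agent.S15.stmtFrWN N u a g ha hg hfr
  exact ⟨h1, h2, s59mudf_comp_fricke_ne_zero N hg0, h3⟩

/-- **transport of the multiplier under `w_N`**: the multiplier of `w_N x` is `χ ∘ c`. -/
theorem s59mudf_muRel_swap {n : ℕ} {x : JZero N} {χ : CharGrp N} (hrel : MuRel N n x χ) :
    ∃ χ' : CharGrp N, MuRel N n (s59mudfW N • x) χ' ∧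
      ∀ γ : Gamma0 N, χ' (Additive.ofMul γ) = χ (Additive.ofMul (s59mudfC N γ)) := by
  obtain ⟨u, a, g, R, hK, hfr, hroot, hχ⟩ := hrel
  refine ⟨(s59mudfRoot N R).multAdd,
    ⟨frickeAut N u, _, _, s59mudfRoot N R, KummerRel.smul (s59mudfW N) hK,
      s59mudf_isAnFrac_fricke N hfr, fun τ => hroot (fricke N τ), rfl⟩, fun γ => ?_⟩
  rw [s59mudfRoot_multAdd, hχ]

end Swap

/-! ## `w_M (β_* (w_{Mq} x)) = α_* x` -/

section Push

variable (M q : ℕ) [NeZero M] [NeZero q]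

/-- `N_α u = w_M (N_β (w_{Mq} u))`. -/
theorem s59mudf_norm_alpha (u : modularFunctionFieldBar (M * q)) :
    stbNorm (heckeAlphaBar Qb M q).toRingHom u
      = frickeAut M (stbNorm (heckeBetaBar Qb M q).toRingHom (frickeAut (M * q) u)) := by
  haveI : NeZero (M * q) := inferInstance
  letI a1 : Algebra (modularFunctionFieldBar M) (modularFunctionFieldBar (M * q)) :=
    (heckeAlphaBar Qb M q).toRingHom.toAlgebra
  have h := @Algebra.norm_eq_of_equiv_equiv (modularFunctionFieldBar M)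
    (modularFunctionFieldBar (M * q)) (modularFunctionFieldBar M)
    (modularFunctionFieldBar (M * q)) _ _ _ _ a1 (heckeBetaBar Qb M q).toRingHom.toAlgebra
    (stbdW M) (stbdW (M * q)) (by
      apply RingHom.ext
      intro x
      exact (stbd_fricke_alpha M q x).symm) u
  exact h

/-- `N_β u = w_M (N_α (w_{Mq} u))`. -/
theorem s59mudf_norm_beta (u : modularFunctionFieldBar (M * q)) :
    stbNorm (heckeBetaBar Qb M q).toRingHom u
      = frickeAut M (stbNorm (heckeAlphaBar Qb M q).toRingHom (frickeAut (M * q) u)) := by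
  haveI : NeZero (M * q) := inferInstance
  rw [s59mudf_norm_alpha, frickeAut_frickeAut, frickeAut_frickeAut]

/-- `w_M (β_* (w_{Mq} x)) = α_* x` for torsion points. -/
theorem s59mudf_push_alpha {n : ℕ} (hn : n ≠ 0) {x : JZero (M * q)}
    {u : modularFunctionFieldBar (M * q)} (hK : KummerRel n x u) :
    haveI : NeZero (M * q) := inferInstance
    s59mudfW M • stbPushBeta M q (s59mudfW (M * q) • x) = stbPushAlpha M q x := by
  haveI : NeZero (M * q) := inferInstance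
  have h1 : KummerRel n (s59mudfW M • stbPushBeta M q (s59mudfW (M * q) • x))
      (frickeAut M (stbNorm (heckeBetaBar Qb M q).toRingHom (frickeAut (M * q) u))) :=
    KummerRel.smul (s59mudfW M)
      (stb_kummerRel_pushBeta M q (KummerRel.smul (s59mudfW (M * q)) hK))
  have h2 : KummerRel n (stbPushAlpha M q x) (stbNorm (heckeAlphaBar Qb M q).toRingHom u) :=
    stb_kummerRel_pushAlpha M q hK
  rw [s59mudf_norm_alpha M q u] at h2
  exact KummerRel.unique hn h1 h2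

/-- `w_M (α_* (w_{Mq} x)) = β_* x` for torsion points. -/
theorem s59mudf_push_beta {n : ℕ} (hn : n ≠ 0) {x : JZero (M * q)}
    {u : modularFunctionFieldBar (M * q)} (hK : KummerRel n x u) :
    haveI : NeZero (M * q) := inferInstance
    s59mudfW M • stbPushAlpha M q (s59mudfW (M * q) • x) = stbPushBeta M q x := by
  haveI : NeZero (M * q) := inferInstance
  have h1 : KummerRel n (s59mudfW M • stbPushAlpha M q (s59mudfW (M * q) • x))
      (frickeAut M (stbNorm (heckeAlphaBar Qb M q).toRingHom (frickeAut (M * q) u))) :=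
    KummerRel.smul (s59mudfW M)
      (stb_kummerRel_pushAlpha M q (KummerRel.smul (s59mudfW (M * q)) hK))
  have h2 : KummerRel n (stbPushBeta M q x) (stbNorm (heckeBetaBar Qb M q).toRingHom u) :=
    stb_kummerRel_pushBeta M q hK
  rw [s59mudf_norm_beta M q u] at h2
  exact KummerRel.unique hn h1 h2

end Push

/-! ## The two halves -/

section Main

variable (M q : ℕ) [NeZero M] [NeZero q]

/-- **μDEG-`α` from μDEG-`β`** at ANY `(M, q)` (Fricke swap). -/
theorem s59mudf_relAlphaAt_of_relBetaAt (hβ : s59mud_RelBetaAt M q) : s59mud_RelAlphaAt M q := by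
  intro n hn x χ hrel
  haveI : NeZero (M * q) := inferInstance
  obtain ⟨χ₁, hrel₁, hχ₁⟩ := s59mudf_muRel_swap (M * q) hrel
  have h1 := hβ n hn _ χ₁ hrel₁
  obtain ⟨χ₂, hrel₂, hχ₂⟩ := s59mudf_muRel_swap M h1
  obtain ⟨u, -, -, -, hK, -⟩ := hrel
  rw [s59mudf_push_alpha M q hn.ne' hK] at hrel₂
  have e : χ₂ = cores M q (Additive ℂˣ) χ := by
    refine DFunLike.ext _ _ fun γ => ?_
    obtain ⟨γ, rfl⟩ : ∃ γ' : Gamma0 M, Additive.ofMul γ' = γ := ⟨Additive.toMul γ, rfl⟩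
    rw [hχ₂]
    exact s59mudf_coresD_C M q χ χ₁ hχ₁ γ
  rw [e] at hrel₂
  exact hrel₂

/-- **μDEG-`β` from μDEG-`α`** at ANY `(M, q)` (Fricke swap). -/
theorem s59mudf_relBetaAt_of_relAlphaAt (hα : s59mud_RelAlphaAt M q) : s59mud_RelBetaAt M q := by
  intro n hn x χ hrel
  haveI : NeZero (M * q) := inferInstance
  obtain ⟨χ₁, hrel₁, hχ₁⟩ := s59mudf_muRel_swap (M * q) hrel
  have h1 := hα n hn _ χ₁ hrel₁
  obtain ⟨χ₂, hrel₂, hχ₂⟩ := s59mudf_muRel_swap M h1
  obtain ⟨u, -, -, -, hK, -⟩ := hrel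
  rw [s59mudf_push_beta M q hn.ne' hK] at hrel₂
  have e : χ₂ = coresD M q (Additive ℂˣ) χ := by
    refine DFunLike.ext _ _ fun γ => ?_
    obtain ⟨γ, rfl⟩ : ∃ γ' : Gamma0 M, Additive.ofMul γ' = γ := ⟨Additive.toMul γ, rfl⟩
    rw [hχ₂]
    exact s59mudf_cores_C M q χ χ₁ hχ₁ γ
  rw [e] at hrel₂
  exact hrel₂

theorem s59mudf_relAlphaAt_iff_relBetaAt : s59mud_RelAlphaAt M q ↔ s59mud_RelBetaAt M q :=
  ⟨s59mudf_relBetaAt_of_relAlphaAt M q, s59mudf_relAlphaAt_of_relBetaAt M q⟩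

/-- μDEG for `muMap`, `α` from `β` -/
theorem s59mudf_muAlphaAt_of_relBetaAt (hβ : s59mud_RelBetaAt M q) : s59mud_MuAlphaAt M q :=
  s59mud_muAlphaAt_of_rel (s59mudf_relAlphaAt_of_relBetaAt M q hβ)

/-- μDEG for `muMap`, `β` from `α` -/
theorem s59mudf_muBetaAt_of_relAlphaAt (hα : s59mud_RelAlphaAt M q) : s59mud_MuBetaAt M q :=
  s59mud_muBetaAt_of_rel (s59mudf_relBetaAt_of_relAlphaAt M q hα)

end Main

end Fermat.Agent.S59
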