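import Fermat.Agent.S59.Eta.MuDegBetaW
import Fermat.Agent.S28.Fricke

/-!
# S59 / R2 / μDEG, Fricke swap (helper32), part 1: the Fricke substitution on root data

`W_N = [[0, -1], [N, 0]]`, `fricke N τ = -1/(Nτ) = S • (N τ)`.

* `s59mudfC N : Γ₀(N) →* Γ₀(N)`, `c(γ) = W γ W⁻¹ = [[d, -c/N], [-N b, a]]`, an involution
  (`s59mudfC_C`);
* `s59mudf_fricke_smul` : `fricke N (γ • τ) = c(γ) • fricke N τ`;
* `s59mudf_C_incl` : `c_M ∘ incl = conjD ∘ c_{Mq}` on `Γ₀(M q)`;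
* `s59mudfRoot R` : the root datum `R ∘ fricke`; `s59mudfRoot_mult` : its multiplier is
  `γ ↦ R.mult (c γ)`.
-/

set_option autoImplicit false
set_option linter.style.haveILetI false
set_option linter.unusedSectionVars false
set_option linter.unusedSimpArgs false

noncomputable section

namespace Fermat.Agent.S59

open ModularCurve UpperHalfPlane CongruenceSubgroup Matrix Matrix.SpecialLinearGroup
open Fermat.Agent.S23 Fermat.Agent.S24 Fermat.Agent.S28 Fermat.Agent.ES Fermat.Agent.AL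
  Fermat.Agent.S41
open scoped MatrixGroups Manifold

section C

variable (N : ℕ) [NeZero N]

/-- the companion `δ γ δ⁻¹ = [[a, N b], [c / N, d]]` of `γ ∈ Γ₀(N)`, `δ = diag(N, 1)`. -/
def s59mudfComp (γ : Gamma0 N) : SL(2, ℤ) :=
  P7_thetaCompanion N (γ : SL(2, ℤ)) (dvd_of_mem_Gamma0 γ.2)

theorem s59mudfComp_coe (γ : Gamma0 N) :
    ((s59mudfComp N γ : SL(2, ℤ)) : Matrix (Fin 2) (Fin 2) ℤ)
      = conjDMat N ((γ : SL(2, ℤ)) : Matrix (Fin 2) (Fin 2) ℤ) := rfl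

theorem s59mudfComp_one : s59mudfComp N 1 = 1 := by
  apply Subtype.ext
  rw [s59mudfComp_coe]
  show conjDMat N ((1 : SL(2, ℤ)) : Matrix (Fin 2) (Fin 2) ℤ) = 1
  ext i j
  fin_cases i <;> fin_cases j <;> simp [conjDMat]

theorem s59mudfComp_mul (γ γ' : Gamma0 N) :
    s59mudfComp N (γ * γ') = s59mudfComp N γ * s59mudfComp N γ' := by
  apply Subtype.ext
  rw [s59mudfComp_coe]
  show conjDMat N (((γ * γ' : Gamma0 N) : SL(2, ℤ)) : Matrix (Fin 2) (Fin 2) ℤ) = _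
  rw [Subgroup.coe_mul, Matrix.SpecialLinearGroup.coe_mul,
    conjDMat_mul N (dvd_of_mem_Gamma0 γ.2) (dvd_of_mem_Gamma0 γ'.2)]
  rfl

theorem s59mudfComp_00 (γ : Gamma0 N) : (s59mudfComp N γ) 0 0 = γ.1 0 0 := rfl
theorem s59mudfComp_01 (γ : Gamma0 N) : (s59mudfComp N γ) 0 1 = (N : ℤ) * γ.1 0 1 := rfl
theorem s59mudfComp_10 (γ : Gamma0 N) : (s59mudfComp N γ) 1 0 = γ.1 1 0 / (N : ℤ) := rfl
theorem s59mudfComp_11 (γ : Gamma0 N) : (s59mudfComp N γ) 1 1 = γ.1 1 1 := rfl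

theorem s59mudf_S_00 : (ModularGroup.S : SL(2, ℤ)) 0 0 = 0 := rfl
theorem s59mudf_S_01 : (ModularGroup.S : SL(2, ℤ)) 0 1 = -1 := rfl
theorem s59mudf_S_10 : (ModularGroup.S : SL(2, ℤ)) 1 0 = 1 := rfl
theorem s59mudf_S_11 : (ModularGroup.S : SL(2, ℤ)) 1 1 = 0 := rfl

/-- `c(γ) = S (δ γ δ⁻¹) S⁻¹` as an element of `SL(2, ℤ)`. -/
def s59mudfCSL (γ : Gamma0 N) : SL(2, ℤ) :=
  ModularGroup.S * s59mudfComp N γ * (ModularGroup.S)⁻¹

theorem s59mudfCSL_00 (γ : Gamma0 N) : (s59mudfCSL N γ) 0 0 = γ.1 1 1 := by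
  unfold s59mudfCSL
  simp only [s59mudb_sl_mul_apply, s59mudb_sl_inv_00, s59mudb_sl_inv_01, s59mudb_sl_inv_10,
    s59mudb_sl_inv_11, s59mudf_S_00, s59mudf_S_01, s59mudf_S_10, s59mudf_S_11, s59mudfComp_00,
    s59mudfComp_01, s59mudfComp_10, s59mudfComp_11]
  ring

theorem s59mudfCSL_01 (γ : Gamma0 N) : (s59mudfCSL N γ) 0 1 = -(γ.1 1 0 / (N : ℤ)) := by
  unfold s59mudfCSL
  simp only [s59mudb_sl_mul_apply, s59mudb_sl_inv_00, s59mudb_sl_inv_01, s59mudb_sl_inv_10,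
    s59mudb_sl_inv_11, s59mudf_S_00, s59mudf_S_01, s59mudf_S_10, s59mudf_S_11, s59mudfComp_00,
    s59mudfComp_01, s59mudfComp_10, s59mudfComp_11]
  ring

theorem s59mudfCSL_10 (γ : Gamma0 N) : (s59mudfCSL N γ) 1 0 = -((N : ℤ) * γ.1 0 1) := by
  unfold s59mudfCSL
  simp only [s59mudb_sl_mul_apply, s59mudb_sl_inv_00, s59mudb_sl_inv_01, s59mudb_sl_inv_10,
    s59mudb_sl_inv_11, s59mudf_S_00, s59mudf_S_01, s59mudf_S_10, s59mudf_S_11, s59mudfComp_00,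
    s59mudfComp_01, s59mudfComp_10, s59mudfComp_11]
  ring

theorem s59mudfCSL_11 (γ : Gamma0 N) : (s59mudfCSL N γ) 1 1 = γ.1 0 0 := by
  unfold s59mudfCSL
  simp only [s59mudb_sl_mul_apply, s59mudb_sl_inv_00, s59mudb_sl_inv_01, s59mudb_sl_inv_10,
    s59mudb_sl_inv_11, s59mudf_S_00, s59mudf_S_01, s59mudf_S_10, s59mudf_S_11, s59mudfComp_00,
    s59mudfComp_01, s59mudfComp_10, s59mudfComp_11]
  ring

theorem s59mudfCSL_mem (γ : Gamma0 N) : s59mudfCSL N γ ∈ Gamma0 N := by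
  apply mem_Gamma0_of_dvd
  rw [s59mudfCSL_10]
  exact (dvd_mul_right _ _).neg_right

/-- **the Fricke conjugation** `c(γ) = W γ W⁻¹` on `Γ₀(N)`. -/
def s59mudfC : Gamma0 N →* Gamma0 N where
  toFun γ := ⟨s59mudfCSL N γ, s59mudfCSL_mem N γ⟩
  map_one' := by
    apply Subtype.ext
    show ModularGroup.S * s59mudfComp N 1 * (ModularGroup.S)⁻¹ = 1
    rw [s59mudfComp_one, mul_one, mul_inv_cancel]
  map_mul' γ γ' := by
    apply Subtype.ext
    show ModularGroup.S * s59mudfComp N (γ * γ') * (ModularGroup.S)⁻¹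
      = (ModularGroup.S * s59mudfComp N γ * (ModularGroup.S)⁻¹)
        * (ModularGroup.S * s59mudfComp N γ' * (ModularGroup.S)⁻¹)
    rw [s59mudfComp_mul]
    group

theorem s59mudfC_coe (γ : Gamma0 N) :
    ((s59mudfC N γ : Gamma0 N) : SL(2, ℤ)) = s59mudfCSL N γ := rfl

theorem s59mudfC_00 (γ : Gamma0 N) : (s59mudfC N γ).1 0 0 = γ.1 1 1 := s59mudfCSL_00 N γ
theorem s59mudfC_01 (γ : Gamma0 N) : (s59mudfC N γ).1 0 1 = -(γ.1 1 0 / (N : ℤ)) :=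
  s59mudfCSL_01 N γ
theorem s59mudfC_10 (γ : Gamma0 N) : (s59mudfC N γ).1 1 0 = -((N : ℤ) * γ.1 0 1) :=
  s59mudfCSL_10 N γ
theorem s59mudfC_11 (γ : Gamma0 N) : (s59mudfC N γ).1 1 1 = γ.1 0 0 := s59mudfCSL_11 N γ

theorem s59mudf_gamma0_ext {M : ℕ} {γ γ' : Gamma0 M} (h00 : γ.1 0 0 = γ'.1 0 0)
    (h01 : γ.1 0 1 = γ'.1 0 1) (h10 : γ.1 1 0 = γ'.1 1 0) (h11 : γ.1 1 1 = γ'.1 1 1) :
    γ = γ' := by
  apply Subtype.ext
  apply Subtype.ext
  ext i j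
  fin_cases i <;> fin_cases j
  · exact h00
  · exact h01
  · exact h10
  · exact h11

/-- **`c` is an involution.** -/
theorem s59mudfC_C (γ : Gamma0 N) : s59mudfC N (s59mudfC N γ) = γ := by
  have hN : (N : ℤ) ≠ 0 := by exact_mod_cast NeZero.ne N
  obtain ⟨c, hc⟩ := dvd_of_mem_Gamma0 γ.2
  refine s59mudf_gamma0_ext ?_ ?_ ?_ ?_
  · rw [s59mudfC_00, s59mudfC_11]
  · rw [s59mudfC_01, s59mudfC_10]
    have : -((N : ℤ) * γ.1 0 1) = (N : ℤ) * (-γ.1 0 1) := by ring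
    rw [this, Int.mul_ediv_cancel_left _ hN, neg_neg]
  · rw [s59mudfC_10, s59mudfC_01, hc, Int.mul_ediv_cancel_left _ hN]
    ring
  · rw [s59mudfC_11, s59mudfC_00]

/-- `c` as a bijection. -/
theorem s59mudfC_bijective : Function.Bijective (s59mudfC N) :=
  Function.Involutive.bijective (s59mudfC_C N)

/-- **`fricke (γ τ) = c(γ) fricke τ`**. -/
theorem s59mudf_fricke_smul (γ : Gamma0 N) (τ : ℍ) :
    fricke N ((γ : SL(2, ℤ)) • τ)
      = ((s59mudfC N γ : Gamma0 N) : SL(2, ℤ)) • fricke N τ := by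
  rw [s59mudfC_coe]
  unfold s59mudfCSL fricke
  rw [P7_thetaCompanion_smul N (γ : SL(2, ℤ)) (dvd_of_mem_Gamma0 γ.2) τ, mul_smul, mul_smul,
    inv_smul_smul]
  rfl

end C

section Compat

variable (M q : ℕ) [NeZero M] [NeZero q]

/-- **`c_M ∘ incl = conjD ∘ c_{M q}`** on `Γ₀(M q)`. -/
theorem s59mudf_C_incl (γ : Gamma0 (M * q)) :
    s59mudfC M (incl M q γ) = conjD M q (s59mudfC (M * q) γ) := by
  haveI : NeZero (M * q) := inferInstance
  have hM : (M : ℤ) ≠ 0 := by exact_mod_cast NeZero.ne M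
  have hq : (q : ℤ) ≠ 0 := by exact_mod_cast NeZero.ne q
  have hMq : ((M * q : ℕ) : ℤ) ≠ 0 := by exact_mod_cast NeZero.ne (M * q)
  obtain ⟨c, hc⟩ := dvd_of_mem_Gamma0 γ.2
  have e00 : (conjD M q (s59mudfC (M * q) γ)).1 0 0 = (s59mudfC (M * q) γ).1 0 0 := rfl
  have e01 : (conjD M q (s59mudfC (M * q) γ)).1 0 1 = (q : ℤ) * (s59mudfC (M * q) γ).1 0 1 := rfl
  have e10 : (conjD M q (s59mudfC (M * q) γ)).1 1 0 = (s59mudfC (M * q) γ).1 1 0 / (q : ℤ) := rfl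
  have e11 : (conjD M q (s59mudfC (M * q) γ)).1 1 1 = (s59mudfC (M * q) γ).1 1 1 := rfl
  have i00 : (incl M q γ).1 0 0 = γ.1 0 0 := rfl
  have i01 : (incl M q γ).1 0 1 = γ.1 0 1 := rfl
  have i10 : (incl M q γ).1 1 0 = γ.1 1 0 := rfl
  have i11 : (incl M q γ).1 1 1 = γ.1 1 1 := rfl
  refine s59mudf_gamma0_ext ?_ ?_ ?_ ?_
  · rw [s59mudfC_00, e00, s59mudfC_00, i11]
  · rw [s59mudfC_01, e01, s59mudfC_01, i10, hc, Int.mul_ediv_cancel_left _ hMq]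
    have : ((M * q : ℕ) : ℤ) * c = (M : ℤ) * ((q : ℤ) * c) := by push_cast; ring
    rw [this, Int.mul_ediv_cancel_left _ hM]
    ring
  · rw [s59mudfC_10, e10, s59mudfC_10, i01]
    have : -(((M * q : ℕ) : ℤ) * γ.1 0 1) = (q : ℤ) * (-((M : ℤ) * γ.1 0 1)) := by
      push_cast; ring
    rw [this, Int.mul_ediv_cancel_left _ hq]
  · rw [s59mudfC_11, e11, s59mudfC_11, i00]

end Compat

section Root

variable (N : ℕ) [NeZero N] {n : ℕ}

theorem s59mudf_mdiff_comp_fricke {f : ℍ → ℂ} (hf : MDiff f) :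
    MDiff (fun τ => f (fricke N τ)) :=
  mdiff_comp_scaleN N (mdiff_comp_SL hf ModularGroup.S)

theorem s59mudf_comp_fricke_ne_zero {f : ℍ → ℂ} (hf : f ≠ 0) :
    (fun τ => f (fricke N τ)) ≠ 0 := by
  intro h0
  apply hf
  funext τ
  have h1 := congrFun h0 (fricke N τ)
  simp only [fricke_fricke] at h1
  exact h1

/-- the root datum `R ∘ fricke`. -/
def s59mudfRoot (R : RootData (Gamma0 N) n) : RootData (Gamma0 N) n where
  a := fun τ => R.a (fricke N τ)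
  g := fun τ => R.g (fricke N τ)
  p_ne_zero := R.p_ne_zero
  mdiff_a := s59mudf_mdiff_comp_fricke N R.mdiff_a
  mdiff_g := s59mudf_mdiff_comp_fricke N R.mdiff_g
  a_ne_zero := s59mudf_comp_fricke_ne_zero N R.a_ne_zero
  g_ne_zero := s59mudf_comp_fricke_ne_zero N R.g_ne_zero
  pow_inv γ hγ τ := by
    have h1 := R.pow_inv _ (s59mudfC N ⟨γ, hγ⟩).2 (fricke N τ)
    rw [← s59mudf_fricke_smul N ⟨γ, hγ⟩ τ] at h1
    exact h1

@[simp] theorem s59mudfRoot_a (R : RootData (Gamma0 N) n) :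
    (s59mudfRoot N R).a = fun τ => R.a (fricke N τ) := rfl

@[simp] theorem s59mudfRoot_g (R : RootData (Gamma0 N) n) :
    (s59mudfRoot N R).g = fun τ => R.g (fricke N τ) := rfl

/-- the multiplier of `R ∘ fricke` is `γ ↦ χ_R (c γ)`. -/
theorem s59mudfRoot_mult (R : RootData (Gamma0 N) n) (γ : Gamma0 N) :
    (s59mudfRoot N R).mult γ = R.mult (s59mudfC N γ) := by
  rw [RootData.mult_eq_iff]
  intro τ
  show R.a (fricke N ((γ : SL(2, ℤ)) • τ)) * R.g (fricke N τ)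
    = (R.mult (s59mudfC N γ) : ℂ)
      * (R.a (fricke N τ) * R.g (fricke N ((γ : SL(2, ℤ)) • τ)))
  rw [s59mudf_fricke_smul N γ τ]
  exact R.mult_spec _ _

theorem s59mudfRoot_multAdd (R : RootData (Gamma0 N) n) (γ : Gamma0 N) :
    (s59mudfRoot N R).multAdd (Additive.ofMul γ)
      = R.multAdd (Additive.ofMul (s59mudfC N γ)) := by
  rw [RootData.multAdd_apply, RootData.multAdd_apply, s59mudfRoot_mult]

end Root

end Fermat.Agent.S59
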