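import Mathlib

/-!
# S59, R2 (ETA′), piece E-MULT1a — the abstract core (helper71)

FRAME (as in `S59/Eta/PlanR2.lean`): `𝒪` a discrete valuation ring, `π ∈ 𝔪_𝒪` (`π = p`),
`L`, `L'` finite torsion-free `𝒪`-modules (`L` = lattice of level `N`, `L'` = lattice of level
`N q`), `tq = T_q` on `L`.

`x ∈ L`, `x ≠ 0`, with `T_q x = a x`; `u ∈ L'` (the `q`-new eigenvector).  The arithmetic input
(`happ`; Chebotarev + Eichler–Shimura at level `N` + (P7-a) on the `q`-new part of level `N q`):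
for every `n` there is a Hecke operator `h` (given by operators `t₀`, `t₀'` on `L`, `L'` and a
polynomial `P ∈ ℤ[X]`, `h = P(t₀)` resp. `P(t₀')`) with eigenvalue `b` of `t₀`, `t₀'` on `x`, `u`,
such that

* `h x − T_q x ∈ πⁿ L`,
* `h² u − (q + 1)² u ∈ πⁿ L'`.

Then `a² ≠ (q + 1)²` (E-PET) forces `u = 0`.

* `s59m1a_exists_functional` : a nonzero vector of a finite torsion-free module over a DVR has a
  linear functional not vanishing on it;
* `s59m1a_eq_zero_of_forall_pow_dvd` : `∀ n, πⁿ ∣ r` ⇒ `r = 0`;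
* `s59m1a_abs_scalar` : the scalar form (`c` the common eigenvalue of `h`);
* `s59m1a_aeval_eigen` : `P(t) x = P(b) x` if `t x = b x`;
* **`s59m1a_abs`** : the operator form.
-/

set_option autoImplicit false

namespace Fermat.Agent.S59

open IsLocalRing Polynomial

section Abs

variable {𝒪 : Type} [CommRing 𝒪] [IsDomain 𝒪] [IsDiscreteValuationRing 𝒪]

/-- a nonzero vector of a finite torsion-free module over a DVR is detected by a functional -/
theorem s59m1a_exists_functional {L : Type} [AddCommGroup L] [Module 𝒪 L]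
    [NoZeroSMulDivisors 𝒪 L] [Module.Finite 𝒪 L] {x : L} (hx : x ≠ 0) :
    ∃ φ : L →ₗ[𝒪] 𝒪, φ x ≠ 0 := by
  have : Module.Free 𝒪 L := Module.free_of_finite_type_torsion_free'
  let b := Module.Free.chooseBasis 𝒪 L
  by_contra hcon
  push Not at hcon
  apply hx
  apply b.repr.injective
  rw [map_zero]
  ext i
  have := hcon (b.coord i)
  simpa using this

/-- `∀ n, πⁿ ∣ r` with `π` in the maximal ideal forces `r = 0` -/
theorem s59m1a_eq_zero_of_forall_pow_dvd {π : 𝒪} (hπ : π ∈ maximalIdeal 𝒪) {r : 𝒪}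
    (h : ∀ n : ℕ, π ^ n ∣ r) : r = 0 := by
  have hbot := Ideal.iInf_pow_eq_bot_of_isLocalRing (maximalIdeal 𝒪)
    (Ideal.IsMaximal.ne_top inferInstance)
  have hmem : r ∈ ⨅ i : ℕ, maximalIdeal 𝒪 ^ i := by
    rw [Ideal.mem_iInf]
    intro n
    obtain ⟨s, rfl⟩ := h n
    exact Ideal.mul_mem_right _ _ (Ideal.pow_mem_pow hπ n)
  rw [hbot] at hmem
  exact hmem

variable {L L' : Type} [AddCommGroup L] [Module 𝒪 L] [AddCommGroup L'] [Module 𝒪 L']
  [NoZeroSMulDivisors 𝒪 L] [NoZeroSMulDivisors 𝒪 L'] [Module.Finite 𝒪 L] [Module.Finite 𝒪 L']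

/-- **E-MULT1a, abstract scalar form.** -/
theorem s59m1a_abs_scalar {π : 𝒪} (hπ : π ∈ maximalIdeal 𝒪) (tq : L →ₗ[𝒪] L) (a qq : 𝒪)
    {x : L} (hx0 : x ≠ 0) (hxq : tq x = a • x) (u : L')
    (happ : ∀ n : ℕ, ∃ c : 𝒪, (∃ x' : L, c • x - tq x = π ^ n • x') ∧
      ∃ u' : L', (c * c) • u - (qq + 1) ^ 2 • u = π ^ n • u')
    (hPET : a ^ 2 ≠ (qq + 1) ^ 2) : u = 0 := by
  by_contra hu0
  obtain ⟨φ, hφ⟩ := s59m1a_exists_functional (𝒪 := 𝒪) hx0
  obtain ⟨φ', hφ'⟩ := s59m1a_exists_functional (𝒪 := 𝒪) hu0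
  have key : ∀ n : ℕ, π ^ n ∣ (a ^ 2 - (qq + 1) ^ 2) * (φ x * φ' u) := by
    intro n
    obtain ⟨c, ⟨x', hx'⟩, u', hu'⟩ := happ n
    have h1 : (c - a) * φ x = π ^ n * φ x' := by
      have := congrArg φ hx'
      rw [hxq, map_sub, map_smul, map_smul, map_smul, smul_eq_mul, smul_eq_mul, smul_eq_mul]
        at this
      rw [sub_mul]
      exact this
    have h2 : (c * c - (qq + 1) ^ 2) * φ' u = π ^ n * φ' u' := by
      have := congrArg φ' hu'
      rw [map_sub, map_smul, map_smul, map_smul, smul_eq_mul, smul_eq_mul, smul_eq_mul] at this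
      rw [sub_mul]
      exact this
    refine ⟨φ' u' * φ x - (c + a) * φ x' * φ' u, ?_⟩
    have e : (a ^ 2 - (qq + 1) ^ 2) * (φ x * φ' u) =
        ((c * c - (qq + 1) ^ 2) * φ' u) * φ x - (c + a) * ((c - a) * φ x) * φ' u := by ring
    rw [e, h1, h2]
    ring
  have h0 := s59m1a_eq_zero_of_forall_pow_dvd hπ key
  rcases mul_eq_zero.1 h0 with h | h
  · exact hPET (sub_eq_zero.1 h)
  · rcases mul_eq_zero.1 h with h | h
    · exact hφ h
    · exact hφ' h

omit [IsDomain 𝒪] [IsDiscreteValuationRing 𝒪] [NoZeroSMulDivisors 𝒪 L] [Module.Finite 𝒪 L] in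
/-- `P(t) x = P(b) x` for an eigenvector `x` of `t` with eigenvalue `b` (`P ∈ ℤ[X]`) -/
theorem s59m1a_aeval_eigen (t : L →ₗ[𝒪] L) (b : 𝒪) {x : L} (hx : t x = b • x)
    (P : Polynomial ℤ) : (aeval t P) x = (aeval b P) • x := by
  induction P using Polynomial.induction_on' with
  | add f g hf hg => rw [map_add, map_add, LinearMap.add_apply, hf, hg, add_smul]
  | monomial n r =>
    rw [aeval_monomial, aeval_monomial]
    have hpow : ∀ k : ℕ, (t ^ k) x = b ^ k • x := by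
      intro k
      induction k with
      | zero => simp
      | succ k ih =>
        rw [pow_succ, Module.End.mul_apply, hx, map_smul, ih, smul_smul, pow_succ, mul_comm]
    rw [Module.End.mul_apply, hpow, Module.algebraMap_end_apply, ← Int.cast_smul_eq_zsmul 𝒪 r,
      smul_smul]
    congr 1

/-- **E-MULT1a, abstract operator form.**  `x ∈ L`, `x ≠ 0`, `T_q x = a x`; `u ∈ L'`; for every
`n` a Hecke operator `h = P(t₀)`, `P(t₀')` with the same eigenvalue `b` of `t₀` on `x` and of `t₀'`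
on `u`, such that `h x ≡ T_q x` and `h² u ≡ (q + 1)² u` modulo `πⁿ`.  If `a² ≠ (q + 1)²` then
`u = 0`. -/
theorem s59m1a_abs {π : 𝒪} (hπ : π ∈ maximalIdeal 𝒪) (tq : L →ₗ[𝒪] L) (a qq : 𝒪)
    {x : L} (hx0 : x ≠ 0) (hxq : tq x = a • x) (u : L')
    (happ : ∀ n : ℕ, ∃ (t₀ : L →ₗ[𝒪] L) (t₀' : L' →ₗ[𝒪] L') (b : 𝒪) (P : Polynomial ℤ),
      t₀ x = b • x ∧ t₀' u = b • u ∧
      (∃ x' : L, (aeval t₀ P) x - tq x = π ^ n • x') ∧
      ∃ u' : L', (aeval t₀' P) ((aeval t₀' P) u) - (qq + 1) ^ 2 • u = π ^ n • u')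
    (hPET : a ^ 2 ≠ (qq + 1) ^ 2) : u = 0 := by
  refine s59m1a_abs_scalar hπ tq a qq hx0 hxq u (fun n => ?_) hPET
  obtain ⟨t₀, t₀', b, P, hb, hb', ⟨x', hx'⟩, u', hu'⟩ := happ n
  refine ⟨aeval b P, ⟨x', ?_⟩, u', ?_⟩
  · rw [← s59m1a_aeval_eigen t₀ b hb P]
    exact hx'
  · rw [← hu', s59m1a_aeval_eigen t₀' b hb' P, map_smul, s59m1a_aeval_eigen t₀' b hb' P,
      smul_smul]

end Abs

end Fermat.Agent.S59
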