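import Fermat.Agent.S59.Eta.Mult1aAbs

/-!
# S59, R2 (ETA′), piece E-MULT1a — the abstract core, E-PET in operator form (helper71)

Same frame as `S59/Eta/Mult1aAbs.lean`, but `x ≠ 0` is NOT assumed to be an eigenvector of `T_q`,
and E-PET enters in its operator form `hpet : T_q² z = (q + 1)² z → z = 0` (the landed shape of
helper6's `s59pet_Lpar_sq_eq_zero`, as in helper8's `s59m1r_hrat_of_pet`).

* `s59m1a_eq_zero_of_forall_functional` : a vector killed by all functionals is `0`;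
* **`s59m1a_abs_pet_scalar`**, **`s59m1a_abs_pet`** : scalar and operator form.
-/

set_option autoImplicit false

namespace Fermat.Agent.S59

open IsLocalRing Polynomial

section AbsPet

variable {𝒪 : Type} [CommRing 𝒪] [IsDomain 𝒪] [IsDiscreteValuationRing 𝒪]
  {L L' : Type} [AddCommGroup L] [Module 𝒪 L] [AddCommGroup L'] [Module 𝒪 L']
  [NoZeroSMulDivisors 𝒪 L] [NoZeroSMulDivisors 𝒪 L'] [Module.Finite 𝒪 L] [Module.Finite 𝒪 L']

omit [NoZeroSMulDivisors 𝒪 L'] [Module.Finite 𝒪 L'] in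
/-- a vector killed by all functionals vanishes -/
theorem s59m1a_eq_zero_of_forall_functional {z : L} (h : ∀ φ : L →ₗ[𝒪] 𝒪, φ z = 0) : z = 0 := by
  by_contra hz
  obtain ⟨φ, hφ⟩ := s59m1a_exists_functional (𝒪 := 𝒪) hz
  exact hφ (h φ)

/-- **E-MULT1a, abstract scalar form with E-PET as an operator statement.** -/
theorem s59m1a_abs_pet_scalar {π : 𝒪} (hπ : π ∈ maximalIdeal 𝒪) (tq : L →ₗ[𝒪] L) (qq : 𝒪)
    {x : L} (hx0 : x ≠ 0) (u : L')
    (happ : ∀ n : ℕ, ∃ c : 𝒪, (∃ x' : L, c • x - tq x = π ^ n • x') ∧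
      ∃ u' : L', (c * c) • u - (qq + 1) ^ 2 • u = π ^ n • u')
    (hpet : ∀ z : L, tq (tq z) = (qq + 1) ^ 2 • z → z = 0) : u = 0 := by
  by_contra hu0
  obtain ⟨φ', hφ'⟩ := s59m1a_exists_functional (𝒪 := 𝒪) hu0
  apply hx0
  apply hpet
  rw [← sub_eq_zero]
  apply s59m1a_eq_zero_of_forall_functional (𝒪 := 𝒪)
  intro φ
  have key : ∀ n : ℕ, π ^ n ∣ φ (tq (tq x) - (qq + 1) ^ 2 • x) * φ' u := by
    intro n
    obtain ⟨c, ⟨x', hx'⟩, u', hu'⟩ := happ n
    have h1 : c * φ x - φ (tq x) = π ^ n * φ x' := by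
      have := congrArg φ hx'
      rwa [map_sub, map_smul, map_smul, smul_eq_mul, smul_eq_mul] at this
    have h1' : c * φ (tq x) - φ (tq (tq x)) = π ^ n * φ (tq x') := by
      have := congrArg (fun z => φ (tq z)) hx'
      simp only [map_sub, map_smul, smul_eq_mul] at this
      exact this
    have h2 : (c * c - (qq + 1) ^ 2) * φ' u = π ^ n * φ' u' := by
      have := congrArg φ' hu'
      rw [map_sub, map_smul, map_smul, map_smul, smul_eq_mul, smul_eq_mul, smul_eq_mul] at this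
      rw [sub_mul]
      exact this
    refine ⟨φ x * φ' u' - (φ (tq x') + c * φ x') * φ' u, ?_⟩
    have e : φ (tq (tq x) - (qq + 1) ^ 2 • x) * φ' u =
        φ x * ((c * c - (qq + 1) ^ 2) * φ' u)
          - ((c * φ (tq x) - φ (tq (tq x))) + c * (c * φ x - φ (tq x))) * φ' u := by
      rw [map_sub, map_smul, smul_eq_mul]
      ring
    rw [e, h1, h1', h2]
    ring
  have h0 := s59m1a_eq_zero_of_forall_pow_dvd hπ key
  rcases mul_eq_zero.1 h0 with h | h
  · exact h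
  · exact absurd h hφ'

/-- **E-MULT1a, abstract operator form with E-PET as an operator statement.**  `x ∈ L`, `x ≠ 0`;
`u ∈ L'`; for every `n` a Hecke operator `h = P(t₀)`, `P(t₀')` with the same eigenvalue `b` of
`t₀` on `x` and of `t₀'` on `u`, such that `h x ≡ T_q x` and `h² u ≡ (q + 1)² u` modulo `πⁿ`.
If `T_q² − (q + 1)²` is injective on `L` then `u = 0`. -/
theorem s59m1a_abs_pet {π : 𝒪} (hπ : π ∈ maximalIdeal 𝒪) (tq : L →ₗ[𝒪] L) (qq : 𝒪)
    {x : L} (hx0 : x ≠ 0) (u : L')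
    (happ : ∀ n : ℕ, ∃ (t₀ : L →ₗ[𝒪] L) (t₀' : L' →ₗ[𝒪] L') (b : 𝒪) (P : Polynomial ℤ),
      t₀ x = b • x ∧ t₀' u = b • u ∧
      (∃ x' : L, (aeval t₀ P) x - tq x = π ^ n • x') ∧
      ∃ u' : L', (aeval t₀' P) ((aeval t₀' P) u) - (qq + 1) ^ 2 • u = π ^ n • u')
    (hpet : ∀ z : L, tq (tq z) = (qq + 1) ^ 2 • z → z = 0) : u = 0 := by
  refine s59m1a_abs_pet_scalar hπ tq qq hx0 u (fun n => ?_) hpet
  obtain ⟨t₀, t₀', b, P, hb, hb', ⟨x', hx'⟩, u', hu'⟩ := happ n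
  refine ⟨aeval b P, ⟨x', ?_⟩, u', ?_⟩
  · rw [← s59m1a_aeval_eigen t₀ b hb P]
    exact hx'
  · rw [← hu', s59m1a_aeval_eigen t₀' b hb' P, map_smul, s59m1a_aeval_eigen t₀' b hb' P,
      smul_smul]

end AbsPet

end Fermat.Agent.S59
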