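import Fermat.Agent.S59.Eta.Mult1aMain
import Fermat.Agent.S59.Eta.Mult1bConc
import Fermat.Agent.S59.Eta.TqBC

/-!
# S59, R2 (ETA′), piece E-MULT1a — the concrete instance (helper71)

`s59m1a_conc` : helper8's Prop `s59m1r_StmtMult1a 𝒪 N q ℓ hNq ψ` (`S59/Eta/Mult1bConc.lean`, input
`h1a` of `s59m1r_hrat_conc`) on the concrete lattices `𝒪 ⊗ Lpar (N q)`, for an eigensystem `ψ`
which OCCURS at level `N` (one `x ≠ 0` in `𝒪 ⊗ Lpar N` with `T_{ℓ i} x = ψ i • x`), from the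
lattice statement `s59m1a_StmtLat` (= the conclusion of `s59m1a_lat`, for all `n`).

Ingredients: `s59m1a_main` (shape-agnostic form), E-PET over `𝒪` (`s59gram_pet_bc`, helper6 +
helper80), and the flatness of `𝒪` over `ℤ` (`s59m1a_ker_pair_span`: the common kernel of the base
changes of `cores`, `cores^δ` is spanned by the integral `q`-new classes).
-/

set_option autoImplicit false
set_option linter.style.haveILetI false
set_option linter.unusedSectionVars false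
set_option linter.unusedVariables false

noncomputable section

namespace Fermat.Agent.S59

open ModularCurve CongruenceSubgroup ModularCurve.Period Fermat.Agent.ES Fermat.Agent.S31
  Fermat.Agent.S30 Fermat.Agent.S41 Polynomial IsLocalRing TensorProduct
open scoped MatrixGroups

/-! ## Flat base change of a common kernel -/

/-- flat base change of the common kernel of two maps: an element of `𝒪 ⊗ A` killed by the base
changes of `f` and `g` lies in the `𝒪`-span of the `1 ⊗ a`, `f a = 0 = g a` -/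
theorem s59m1a_ker_pair_span (𝒪 : Type) [CommRing 𝒪] [Module.Flat ℤ 𝒪]
    {A B C : Type} [AddCommGroup A] [AddCommGroup B] [AddCommGroup C]
    (f : A →ₗ[ℤ] B) (g : A →ₗ[ℤ] C) (u : 𝒪 ⊗[ℤ] A)
    (hf : f.baseChange 𝒪 u = 0) (hg : g.baseChange 𝒪 u = 0) :
    u ∈ Submodule.span 𝒪 ((fun a : A => (1 : 𝒪) ⊗ₜ[ℤ] a) '' {a | f a = 0 ∧ g a = 0}) := by
  have hprod : ∀ v : 𝒪 ⊗[ℤ] A, TensorProduct.prodRight ℤ 𝒪 𝒪 B C ((f.prod g).baseChange 𝒪 v) =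
      (f.baseChange 𝒪 v, g.baseChange 𝒪 v) := by
    intro v
    induction v using TensorProduct.induction_on with
    | zero => simp only [map_zero]; rfl
    | tmul c a =>
      rw [LinearMap.baseChange_tmul, LinearMap.baseChange_tmul, LinearMap.baseChange_tmul,
        LinearMap.prod_apply, TensorProduct.prodRight_tmul]
      rfl
    | add v w hv hw =>
      rw [map_add, map_add, hv, hw, map_add, map_add, Prod.mk_add_mk]
  have hker : (f.prod g).baseChange 𝒪 u = 0 := by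
    apply (TensorProduct.prodRight ℤ 𝒪 𝒪 B C).injective
    rw [hprod, hf, hg, map_zero]
    rfl
  have hmem : u ∈ LinearMap.ker (TensorProduct.AlgebraTensorModule.lTensor 𝒪 𝒪 (f.prod g)) :=
    hker
  rw [Module.Flat.ker_lTensor_eq] at hmem
  obtain ⟨w, hw⟩ := hmem
  have hall : ∀ w : 𝒪 ⊗[ℤ] ↥(LinearMap.ker (f.prod g)),
      (TensorProduct.AlgebraTensorModule.lTensor 𝒪 𝒪 (LinearMap.ker (f.prod g)).subtype) w ∈
        Submodule.span 𝒪 ((fun a : A => (1 : 𝒪) ⊗ₜ[ℤ] a) '' {a | f a = 0 ∧ g a = 0}) := by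
    intro w
    induction w using TensorProduct.induction_on with
    | zero => rw [map_zero]; exact Submodule.zero_mem _
    | tmul c k =>
      have hk : f k.1 = 0 ∧ g k.1 = 0 := by
        have h := k.2
        rw [LinearMap.mem_ker, LinearMap.prod_apply] at h
        exact Prod.mk_eq_zero.mp h
      have e : (TensorProduct.AlgebraTensorModule.lTensor 𝒪 𝒪 (LinearMap.ker (f.prod g)).subtype)
          (c ⊗ₜ[ℤ] k) = c • ((1 : 𝒪) ⊗ₜ[ℤ] (k.1 : A)) := by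
        rw [TensorProduct.smul_tmul', smul_eq_mul, mul_one]
        rfl
      rw [e]
      exact Submodule.smul_mem _ c (Submodule.subset_span ⟨k.1, hk, rfl⟩)
    | add v w hv hw =>
      rw [map_add]
      exact Submodule.add_mem _ hv hw
  rw [← hw]
  exact hall w

/-! ## The lattice statement, as a Prop -/

/-- **the lattice form of E-MULT1a** (= the conclusion of `s59m1a_lat`, for all `n`): for every
`n` there are a prime `ℓ₀ ∉ S`, `ℓ₀ ∤ N q p`, and `P ∈ ℤ[X]` with `P(T_ℓ₀) ≡ T_q` on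
`Hom_par(Γ₀(N), ℤ)` and `P(T_ℓ₀)² ≡ (q + 1)²` on the `q`-new part of `Hom_par(Γ₀(N q), ℤ)`,
modulo `pⁿ`. -/
def s59m1a_StmtLat (N q p : ℕ) [NeZero N] [NeZero q] [Fact p.Prime]
    (hq : q.Prime) (hqN : ¬ q ∣ N) (hqp : q ≠ p) (S : Finset ℕ) : Prop :=
  ∀ n : ℕ,
    ∃ (ℓ₀ : ℕ) (hℓ₀ : ℓ₀.Prime) (h₂ : ¬ ℓ₀ ∣ N * q * p) (_ : ℓ₀ ∉ S) (P : Polynomial ℤ),
    (∀ φ : Additive (Gamma0 N) →+ ℤ, IsParabolicHom (Gamma0 N) φ →
      ∃ φ' : Additive (Gamma0 N) →+ ℤ, IsParabolicHom (Gamma0 N) φ' ∧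
        aeval (s59m1aTc (⟨⟨ℓ₀, hℓ₀⟩, s59m1a_not_dvd_low h₂⟩ : GoodPrime N p) ℤ) P φ
          - heckeOp N p (⟨⟨q, hq⟩, s59m1a_not_dvd_q hq hqN hqp⟩ : GoodPrime N p) ℤ φ
            = p ^ n • φ') ∧
    (∀ ψ : Additive (Gamma0 (N * q)) →+ ℤ, IsParabolicHom (Gamma0 (N * q)) ψ →
      cores N q ℤ ψ = 0 → coresD N q ℤ ψ = 0 →
      ∃ ψ' : Additive (Gamma0 (N * q)) →+ ℤ, IsParabolicHom (Gamma0 (N * q)) ψ' ∧
        aeval (s59m1aTc (⟨⟨ℓ₀, hℓ₀⟩, h₂⟩ : GoodPrime (N * q) p) ℤ) P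
            (aeval (s59m1aTc (⟨⟨ℓ₀, hℓ₀⟩, h₂⟩ : GoodPrime (N * q) p) ℤ) P ψ)
          - ((q + 1) ^ 2 : ℕ) • ψ = p ^ n • ψ')

/-! ## E-MULT1a on the concrete lattices -/

/-- **E-MULT1a in helper8's shape**, from the lattice statement: an eigensystem `ψ` which occurs
at level `N` has no `q`-new eigenvector at level `N q`. -/
theorem s59m1a_conc {p : ℕ} [Fact p.Prime]
    (𝒪 : Type) [CommRing 𝒪] [IsDomain 𝒪] [IsDiscreteValuationRing 𝒪] [CharZero 𝒪]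
    (hp𝒪 : (p : 𝒪) ∈ maximalIdeal 𝒪)
    (N q : ℕ) [NeZero N] [NeZero q] [hq : Fact q.Prime]
    {ι : Type} (ℓ : ι → ℕ) [hℓ : ∀ i, Fact (ℓ i).Prime]
    (hqN : ¬ q ∣ N) (hqp : q ≠ p) (hN : ∀ i, ¬ ℓ i ∣ N) (hNq : ∀ i, ¬ ℓ i ∣ N * q)
    (ψ : ι → 𝒪) (S : Finset ℕ)
    (hall : ∀ r : ℕ, r.Prime → r ∉ S → ∃ i, ℓ i = r)
    (hlat : s59m1a_StmtLat N q p hq.out hqN hqp S)
    (x : s59bccL 𝒪 (Lpar N)) (hx0 : x ≠ 0)
    (hx : ∀ i, s59bccMap 𝒪 (s59bcTcZ N (ℓ i) (hN i)) x = ψ i • x) :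
    s59m1r_StmtMult1a 𝒪 N q ℓ hNq ψ := by
  classical
  intro u hu hc hd
  haveI : NoZeroSMulDivisors 𝒪 (𝒪 ⊗[ℤ] ↥(Lpar N)) := s59bcc_noZeroSMulDivisors 𝒪 ↥(Lpar N)
  haveI : NoZeroSMulDivisors 𝒪 (𝒪 ⊗[ℤ] ↥(Lpar (N * q))) :=
    s59bcc_noZeroSMulDivisors 𝒪 ↥(Lpar (N * q))
  -- the families indexed by `ℕ`
  obtain ⟨T, hTdef⟩ : ∃ T : ℕ → Module.End 𝒪 (𝒪 ⊗[ℤ] ↥(Lpar N)),
      ∀ (r : ℕ) [Fact r.Prime] (hr : ¬ r ∣ N), T r = (s59bcTcZ N r hr).baseChange 𝒪 := by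
    refine ⟨fun r => if h : r.Prime ∧ ¬ r ∣ N then
      (@s59bcTcZ N _ r ⟨h.1⟩ h.2).baseChange 𝒪 else 0, ?_⟩
    intro r hrP hr
    have h : r.Prime ∧ ¬ r ∣ N := ⟨hrP.out, hr⟩
    simp only [dif_pos h]
  obtain ⟨T₁, hT₁def⟩ : ∃ T₁ : ℕ → Module.End 𝒪 (𝒪 ⊗[ℤ] ↥(Lpar (N * q))),
      ∀ (r : ℕ) [Fact r.Prime] (hr : ¬ r ∣ N * q),
        T₁ r = (s59bcTcZ (N * q) r hr).baseChange 𝒪 := by
    refine ⟨fun r => if h : r.Prime ∧ ¬ r ∣ N * q then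
      (@s59bcTcZ (N * q) _ r ⟨h.1⟩ h.2).baseChange 𝒪 else 0, ?_⟩
    intro r hrP hr
    have h : r.Prime ∧ ¬ r ∣ N * q := ⟨hrP.out, hr⟩
    simp only [dif_pos h]
  -- the index of every prime outside `S`
  have hex : ∀ r : ℕ, ∃ i : Option ι, r.Prime → r ∉ S → ∃ i₀ : ι, i = some i₀ ∧ ℓ i₀ = r := by
    intro r
    by_cases h : r.Prime ∧ r ∉ S
    · obtain ⟨i₀, hi₀⟩ := hall r h.1 h.2
      exact ⟨some i₀, fun _ _ => ⟨i₀, rfl, hi₀⟩⟩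
    · exact ⟨none, fun hrP hrS => absurd ⟨hrP, hrS⟩ h⟩
  choose idx hidx using hex
  obtain ⟨a', ha'⟩ : ∃ a' : ℕ → 𝒪, ∀ (r : ℕ) (i₀ : ι), idx r = some i₀ → a' r = ψ i₀ :=
    ⟨fun r => (idx r).elim 0 ψ, fun r i₀ h => by simp only [h, Option.elim]⟩
  refine s59m1a_main (N := N) (q := q) (p := p) (𝒪 := 𝒪) (L := 𝒪 ⊗[ℤ] ↥(Lpar N))
    (L₁ := 𝒪 ⊗[ℤ] ↥(Lpar (N * q))) hp𝒪 hq.out hqN hqp S hlat T T₁
    ((TensorProduct.mk ℤ 𝒪 ↥(Lpar N) 1).toAddMonoidHom)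
    ((TensorProduct.mk ℤ 𝒪 ↥(Lpar (N * q)) 1).toAddMonoidHom)
    (s59tq_span_one_tmul 𝒪 ↥(Lpar N)) ?_ ?_ a' x hx0 ?_ ?_ u ?_ ?_
  · -- `hT`
    intro r hrP hr _ φ φ' h
    rw [hTdef r hr]
    show (s59bcTcZ N r hr).baseChange 𝒪 ((1 : 𝒪) ⊗ₜ[ℤ] φ) = (1 : 𝒪) ⊗ₜ[ℤ] φ'
    rw [LinearMap.baseChange_tmul]
    congr 1
    exact Subtype.ext h.symm
  · -- `hT₁`
    intro r hrP hr _ φ φ' h
    rw [hT₁def r hr]
    show (s59bcTcZ (N * q) r hr).baseChange 𝒪 ((1 : 𝒪) ⊗ₜ[ℤ] φ) = (1 : 𝒪) ⊗ₜ[ℤ] φ'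
    rw [LinearMap.baseChange_tmul]
    congr 1
    exact Subtype.ext h.symm
  · -- `hx`
    intro r hrP hrS
    obtain ⟨i₀, hi₀, hri₀⟩ := hidx r hrP hrS
    rw [ha' r i₀ hi₀]
    subst hri₀
    rw [hTdef (ℓ i₀) (hN i₀)]
    exact hx i₀
  · -- E-PET
    intro z hz
    rw [hTdef q hqN, ← s59bcg_T_eq N q hqN] at hz
    exact s59gram_pet_bc 𝒪 N q hqN z hz
  · -- `hunew`
    have h := s59m1a_ker_pair_span 𝒪 (s59bcCoresZ N q) (s59bcCoresDZ N q) u hc hd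
    refine Submodule.span_mono ?_ h
    rintro _ ⟨a, ⟨h1, h2⟩, rfl⟩
    refine ⟨a, ⟨?_, ?_⟩, rfl⟩
    · have := congrArg Subtype.val h1
      exact this
    · have := congrArg Subtype.val h2
      exact this
  · -- `hu`
    intro r hrP hrS
    obtain ⟨i₀, hi₀, hri₀⟩ := hidx r hrP hrS
    rw [ha' r i₀ hi₀]
    subst hri₀
    rw [hT₁def (ℓ i₀) (hNq i₀)]
    exact hu i₀

end Fermat.Agent.S59
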