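import Fermat.Agent.S36.T.H8

/-!
# S59, R2, piece E-MULT1b (helper31): the abstract engine **(h8′)**

Fork of S36's route T (`Fermat.Agent.S36.stmtH8`, helper99) in which the Hecke polynomial `Θ`
(`Θ · J[p^∞] ⊆ New`, `χ(Θ) ≠ 0`) is replaced by the FAITHFULNESS of `χ` on the torsion of `New`
itself:

* `s59m1bGood p New S χ k n` : a Hecke polynomial (variables outside `S`) which kills `New[pⁿ]` has
  `χ`-value divisible by `pᵏ`;
* `s59m1b_trace_kernel` : (TK′) `c ∈ ℤ[G_ℚ]` kills `New[pⁿ]`, level `n` good for `k ≥ 1` on `New`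
  ⇒ `Σ c_g t(g) ∈ 𝔪ᵏ`;
* `s59m1b_h8` : **(h8′)** `New ≤ J` a `G_ℚ × Hecke`-submodule whose `p`-power torsion inertia
  invariants at `A ∣ q` are killed by a constant, `χ` faithful on `New` (`∀ k, ∃ n, Good`)
  ⇒ `∃ σ ∈ I_A, t σ ≠ 2`.
-/

set_option autoImplicit false
set_option linter.unusedSectionVars false
set_option linter.unusedVariables false
set_option linter.style.haveILetI false

noncomputable section

namespace Fermat.Agent.S59

open ModularCurve Fermat.Agent.ES Fermat.Agent.S31 Fermat.Agent.S32 Fermat.Agent.S30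
open Fermat.Agent.S36

section Setup

variable {J : Type} [AddCommGroup J] [Module HeckeAlg J] [DistribMulAction GQ J]

/-- the `pⁿ`-torsion of a Hecke submodule `New` -/
def s59m1bY (New : Submodule HeckeAlg J) (p n : ℕ) : Submodule HeckeAlg J := New ⊓ tors J p n

theorem s59m1b_mem_Y {New : Submodule HeckeAlg J} {p n : ℕ} {x : J} :
    x ∈ s59m1bY New p n ↔ x ∈ New ∧ p ^ n • x = 0 := Iff.rfl

/-- the Galois action on `New[pⁿ]` (`New` Galois-stable) -/
@[reducible] def s59m1bGal (New : Submodule HeckeAlg J)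
    (hNewG : ∀ (σ : GQ) (x : J), x ∈ New → σ • x ∈ New) (p n : ℕ) :
    DistribMulAction GQ ↥(s59m1bY New p n) where
  smul σ x := ⟨σ • (x : J), ⟨hNewG σ _ x.2.1, torsion_smul n σ x.2.2⟩⟩
  one_smul x := Subtype.ext (one_smul _ _)
  mul_smul σ τ x := Subtype.ext (mul_smul _ _ _)
  smul_zero σ := Subtype.ext (smul_zero _)
  smul_add σ x y := Subtype.ext (smul_add _ _ _)

/-- the Galois action on `New[pⁿ]` as a homomorphism to the endomorphism ring -/
def s59m1bGalEnd (New : Submodule HeckeAlg J)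
    (hNewG : ∀ (σ : GQ) (x : J), x ∈ New → σ • x ∈ New) (p n : ℕ) :
    GQ →* Module.End ℤ ↥(s59m1bY New p n) :=
  letI := s59m1bGal New hNewG p n
  DistribMulAction.toModuleEnd ℤ ↥(s59m1bY New p n)

/-- the Hecke action on `New[pⁿ]` as a homomorphism to the endomorphism ring -/
def s59m1bHeckeEnd (New : Submodule HeckeAlg J) (p n : ℕ) :
    HeckeAlg →+* Module.End ℤ ↥(s59m1bY New p n) :=
  Module.toModuleEnd ℤ ↥(s59m1bY New p n)

theorem s59m1bGalEnd_apply (New : Submodule HeckeAlg J)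
    (hNewG : ∀ (σ : GQ) (x : J), x ∈ New → σ • x ∈ New) (p n : ℕ) (σ : GQ)
    (x : ↥(s59m1bY New p n)) :
    ((s59m1bGalEnd New hNewG p n σ x : ↥(s59m1bY New p n)) : J) = σ • (x : J) := rfl

theorem s59m1bHeckeEnd_apply (New : Submodule HeckeAlg J) (p n : ℕ) (h : HeckeAlg)
    (x : ↥(s59m1bY New p n)) :
    ((s59m1bHeckeEnd New p n h x : ↥(s59m1bY New p n)) : J) = h • (x : J) := rfl

theorem s59m1b_natCast_apply (New : Submodule HeckeAlg J) (p n : ℕ) (a : ℕ)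
    (x : ↥(s59m1bY New p n)) :
    ((((a : Module.End ℤ ↥(s59m1bY New p n)) x) : ↥(s59m1bY New p n)) : J) = a • (x : J) := by
  rw [Module.End.natCast_apply]
  rfl

theorem s59m1b_natCast_eq_of_modEq (New : Submodule HeckeAlg J) (p n : ℕ) {a b : ℕ}
    (h : a ≡ b [MOD p ^ n]) :
    (a : Module.End ℤ ↥(s59m1bY New p n)) = (b : Module.End ℤ ↥(s59m1bY New p n)) := by
  ext x
  rw [s59m1b_natCast_apply, s59m1b_natCast_apply]
  exact nsmul_eq_of_modEq h x.2.2

end Setup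

section Quad

variable {p : ℕ} {N : ℕ} {J : Type} [AddCommGroup J] [Module HeckeAlg J] [DistribMulAction GQ J]
  {n : ℕ}

/-- **the quadratic relation on `New[pⁿ]`** (restriction of `S32.quadRel`). -/
theorem s59m1b_quadRel (hJ : ESDataInf N p J) (hp : p.Prime) {ζ : AlgebraicClosure ℚ}
    (hζ : IsPrimitiveRoot ζ (p ^ n))
    (F : IntermediateField ℚ (AlgebraicClosure ℚ)) (hζF : ζ ∈ F)
    (hF : ∀ σ : GQ, (∀ a ∈ F, σ a = a) → ∀ x : J, p ^ n • x = 0 → σ • x = x)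
    (ℓ : GQ → ℕ) (A : GQ → ValuationSubring (AlgebraicClosure ℚ)) (τ : GQ → GQ) (m : GQ → ℕ)
    (hℓ : ∀ g, (ℓ g).Prime) (hℓNp : ∀ g, ¬ ℓ g ∣ N * p) (hA : ∀ g, (A g).LiesOverPrime (ℓ g))
    (hτ : ∀ g, (A g).IsFrobeniusAt (τ g) (ℓ g))
    (hg : ∀ g, ∀ a ∈ F, ((τ g) ^ (m g)) a = g a)
    (New : Submodule HeckeAlg J) (hNewG : ∀ (σ : GQ) (x : J), x ∈ New → σ • x ∈ New) :
    QuadRel (s59m1bGalEnd New hNewG p n)
      (fun g => ((ℓ g ^ m g : ℕ) : Module.End ℤ ↥(s59m1bY New p n)))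
      (fun g => s59m1bHeckeEnd New p n
        (lucasS (heckeGen ⟨ℓ g, hℓ g⟩) (ℓ g : HeckeAlg) (m g))) := by
  have hℓp : ∀ g, ℓ g ≠ p := by
    intro g h
    exact hℓNp g (h ▸ dvd_mul_left _ _)
  obtain ⟨-, h1, hmul⟩ := cyclo_mul hp hζ F hζF ℓ A τ m hℓ hℓp hA hτ hg
  refine ⟨?_, ?_, ?_, ?_, ?_⟩
  · show ((ℓ 1 ^ m 1 : ℕ) : Module.End ℤ ↥(s59m1bY New p n)) = 1
    rw [s59m1b_natCast_eq_of_modEq New p n h1, Nat.cast_one]
  · intro g h
    show ((ℓ (g * h) ^ m (g * h) : ℕ) : Module.End ℤ ↥(s59m1bY New p n)) = _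
    rw [s59m1b_natCast_eq_of_modEq New p n (hmul g h), Nat.cast_mul]
  · intro g e
    exact Nat.cast_comm _ _
  · intro g
    ext x
    have := lucas_galois hJ n F hF (hℓ g) (hℓNp g) (hA g) (hτ g) (m g) g (hg g) x.2.2
    rw [s59m1bHeckeEnd_apply, LinearMap.add_apply, Submodule.coe_add, s59m1bGalEnd_apply,
      Module.End.mul_apply, s59m1b_natCast_apply, s59m1bGalEnd_apply]
    exact this.symm
  · intro g h
    ext x
    rw [Module.End.mul_apply, Module.End.mul_apply, s59m1bHeckeEnd_apply, s59m1bGalEnd_apply,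
      s59m1bGalEnd_apply, s59m1bHeckeEnd_apply]
    exact (hJ.smul_comm h _ _).symm

end Quad

section TK

variable {p : ℕ} [Fact p.Prime] {N : ℕ} [NeZero N] {J : Type} [AddCommGroup J]
  [Module HeckeAlg J] [DistribMulAction GQ J] {S : Finset ℕ} {𝒪' : Type*} [CommRing 𝒪']

/-- level `n` is good for the precision `k` ON `New`: a Hecke polynomial (in the variables outside
`S`) killing `New[pⁿ]` has `χ`-value divisible by `pᵏ`. -/
def s59m1bGood (p : ℕ) (New : Submodule HeckeAlg J) (S : Finset ℕ)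
    (χ : CuspForm.heckeAlgebra N 2 (↑S : Set ℕ) →+* 𝒪') (k n : ℕ) : Prop :=
  ∀ h ∈ MvPolynomial.supported ℤ (outsideVars (↑S : Set ℕ)),
    (∀ x ∈ New, p ^ n • x = 0 → h • x = 0) → chiHom S χ h ∈ Ideal.span {(p : 𝒪') ^ k}

omit [Fact p.Prime] [DistribMulAction GQ J] in
/-- goodness on `New` implies goodness on `J`. -/
theorem s59m1bGood.good {New : Submodule HeckeAlg J}
    {χ : CuspForm.heckeAlgebra N 2 (↑S : Set ℕ) →+* 𝒪'} {k n : ℕ}
    (h : s59m1bGood p New S χ k n) : Good p J S χ k n :=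
  fun t ht hkill => h t ht (fun x _ hx => hkill x hx)

omit [Fact p.Prime] [DistribMulAction GQ J] in
theorem s59m1bGood.mono_level {New : Submodule HeckeAlg J}
    {χ : CuspForm.heckeAlgebra N 2 (↑S : Set ℕ) →+* 𝒪'} {k n n' : ℕ}
    (h : s59m1bGood p New S χ k n) (hn : n ≤ n') : s59m1bGood p New S χ k n' :=
  fun t ht hkill => h t ht (fun x hxN hx => hkill x hxN (torsion_le hn hx))

variable [IsLocalRing 𝒪'] {χ : CuspForm.heckeAlgebra N 2 (↑S : Set ℕ) →+* 𝒪'}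

/-- **(TK′)** the trace kernel on `New`: if `c ∈ ℤ[G_ℚ]` kills `New[pⁿ]` and the level `n` is good
for the precision `k ≥ 1` on `New`, then `Σ c_g t(g) ∈ 𝔪ᵏ`. -/
theorem s59m1b_trace_kernel
    (hpI : (p : 𝒪') ∈ IsLocalRing.maximalIdeal 𝒪')
    (hcheb : Cheb.WeakChebotarev) (hJ : ESDataInf N p J)
    (hgood : ∀ r : ℕ, r.Prime → r ∉ S → ¬ r ∣ N * p)
    (t : GQ → 𝒪')
    (ht : ∀ (g : GQ) (k n : ℕ) (h : HeckeAlg), Good p J S χ k n →
      h ∈ MvPolynomial.supported ℤ (outsideVars (↑S : Set ℕ)) → Approx p J n g h →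
        t g - chiHom S χ h ∈ IsLocalRing.maximalIdeal 𝒪' ^ k)
    (g₁ g₂ g₃ : GQ)
    (hunit : t (g₁ * g₂ * g₃) - t (g₂ * g₁ * g₃) ∉ IsLocalRing.maximalIdeal 𝒪')
    {k n : ℕ} (hk : k ≠ 0)
    (New : Submodule HeckeAlg J) (hNewG : ∀ (σ : GQ) (x : J), x ∈ New → σ • x ∈ New)
    (hG : s59m1bGood p New S χ k n)
    (c : GQ →₀ ℤ)
    (hc : ∀ x ∈ New, p ^ n • x = 0 → (c.sum fun g z => z • g • x) = 0) :
    (c.sum fun g z => z • t g) ∈ IsLocalRing.maximalIdeal 𝒪' ^ k := by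
  classical
  have hp : p.Prime := Fact.out
  set Sg : Set Nat.Primes := outsideVars (↑S : Set ℕ) with hSgdef
  -- the fields
  obtain ⟨E, hEfin, hE⟩ := exists_common_field hJ n
  have hM0 : p ^ n ≠ 0 := pow_ne_zero n hp.ne_zero
  have : NeZero ((p ^ n : ℕ) : AlgebraicClosure ℚ) := ⟨Nat.cast_ne_zero.mpr hM0⟩
  obtain ⟨ζ, hζ⟩ := HasEnoughRootsOfUnity.exists_primitiveRoot (AlgebraicClosure ℚ) (p ^ n)
  have hζfin : FiniteDimensional ℚ (IntermediateField.adjoin ℚ {ζ}) :=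
    IntermediateField.adjoin.finiteDimensional ((hζ.isIntegral (Nat.pos_of_ne_zero hM0)).tower_top)
  obtain ⟨F, hFfin, hFgal, hEF, -, hζF⟩ :=
    exists_galois_hull E E (IntermediateField.adjoin ℚ {ζ})
  have hζF' : ζ ∈ F := hζF (IntermediateField.mem_adjoin_simple_self ℚ ζ)
  have hF : ∀ σ : GQ, (∀ a ∈ F, σ a = a) → ∀ x : J, p ^ n • x = 0 → σ • x = x :=
    fun σ h => hE σ fun a ha => h a (hEF ha)
  -- Frobenius data for every `g`
  choose ℓ A τ m hℓ hℓS hA hτ hg using fun g : GQ => hcheb F S g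
  have hℓS' : ∀ g, ℓ g ∉ (↑S : Set ℕ) := fun g => hℓS g
  have hℓNp : ∀ g, ¬ ℓ g ∣ N * p := fun g => hgood (ℓ g) (hℓ g) (hℓS g)
  have hQ := s59m1b_quadRel hJ hp hζ F hζF' hF ℓ A τ m hℓ hℓNp hA hτ hg New hNewG
  -- the Hecke polynomials `P g`
  set P : GQ → HeckeAlg := fun g => lucasS (heckeGen ⟨ℓ g, hℓ g⟩) (ℓ g : HeckeAlg) (m g) with hP
  have hPsupp : ∀ g, P g ∈ MvPolynomial.supported ℤ Sg := by
    intro g
    refine lucasS_mem_subalgebra _ ?_ (natCast_mem _ (ℓ g)) (m g)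
    exact (MvPolynomial.X_mem_supported (R := ℤ)).mpr (hℓS' g)
  -- `P g` represents `g`
  have hApprox : ∀ g, Approx p J n g (P g) := by
    intro g x hx
    have h1 := lucas_galois hJ n F hF (hℓ g) (hℓNp g) (hA g) (hτ g) (m g) g (hg g) hx
    have hζ1 : ζ ^ (p ^ n) = 1 := hζ.pow_eq_one
    have h2 : (τ g ^ m g) ζ = ζ ^ (ℓ g ^ m g) :=
      frob_pow_rootOfUnity (A g)
        (natCast_pow_not_mem_nonunits (A g) hp (hℓ g) (ne_of_not_dvd_mul (hℓNp g)) (hA g) n)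
        hM0 (hτ g) hζ1 (m g)
    have h3 : g ζ = ζ ^ (ℓ g ^ m g) := by rw [← hg g ζ hζF', h2]
    have he : cycE p n g ≡ ℓ g ^ m g [MOD p ^ n] := cycE_of_apply p n g _ hζ h3
    rw [nsmul_eq_of_modEq he (torsion_smul n g⁻¹ hx)]
    exact h1
  -- the trace congruences
  have htr : ∀ g, t g - chiHom S χ (P g) ∈ IsLocalRing.maximalIdeal 𝒪' ^ k :=
    fun g => ht g k n (P g) hG.good (hPsupp g) (hApprox g)
  -- a unit
  set u : HeckeAlg := P (g₁ * g₂ * g₃) - P (g₂ * g₁ * g₃) with hu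
  have hle : IsLocalRing.maximalIdeal 𝒪' ^ k ≤ IsLocalRing.maximalIdeal 𝒪' :=
    Ideal.pow_le_self hk
  have huunit : IsUnit (chiHom S χ u) := by
    rw [← IsLocalRing.notMem_maximalIdeal]
    intro hmem
    apply hunit
    have e : t (g₁ * g₂ * g₃) - t (g₂ * g₁ * g₃) =
        (t (g₁ * g₂ * g₃) - chiHom S χ (P (g₁ * g₂ * g₃))) -
          (t (g₂ * g₁ * g₃) - chiHom S χ (P (g₂ * g₁ * g₃))) + chiHom S χ u := by
      rw [hu, map_sub]; ring
    rw [e]
    exact add_mem (sub_mem (hle (htr _)) (hle (htr _))) hmem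
  -- the main argument
  set D : HeckeAlg := c.sum fun g z => z • P g with hD
  have hDsupp : D ∈ MvPolynomial.supported ℤ Sg := by
    rw [hD]
    exact Subalgebra.sum_mem _ fun g _ => Subalgebra.zsmul_mem _ (hPsupp g) _
  have husupp : u ∈ MvPolynomial.supported ℤ Sg := sub_mem (hPsupp _) (hPsupp _)
  -- `c` kills `New[pⁿ]`, in the endomorphism ring
  have hb : (c.sum fun g z => z • s59m1bGalEnd New hNewG p n g) *
      (1 : Module.End ℤ ↥(s59m1bY New p n)) = 0 := by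
    rw [mul_one]
    ext x
    rw [Finsupp.sum, LinearMap.sum_apply]
    have := hc x.1 x.2.1 x.2.2
    rw [Finsupp.sum] at this
    rw [LinearMap.zero_apply, ZeroMemClass.coe_zero, AddSubmonoidClass.coe_finsetSum, ← this]
    refine Finset.sum_congr rfl fun g _ => ?_
    rw [LinearMap.smul_apply, Submodule.coe_smul_of_tower, s59m1bGalEnd_apply]
  have hθ : ∀ g, (1 : Module.End ℤ ↥(s59m1bY New p n)) * s59m1bGalEnd New hNewG p n g =
      s59m1bGalEnd New hNewG p n g * 1 := fun g => by rw [one_mul, mul_one]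
  have hkill0 := s36t_D_mul_t_sub hQ 1 hθ c hb g₁ g₂ g₃
  -- translate: `heckeEnd (D * u) = 0`
  have hdsum : dSum (fun g => s59m1bHeckeEnd New p n (P g)) c = s59m1bHeckeEnd New p n D := by
    unfold dSum
    rw [hD, Finsupp.sum, Finsupp.sum, map_sum]
    refine Finset.sum_congr rfl fun g _ => ?_
    rw [map_zsmul]
  have hkill1 : s59m1bHeckeEnd New p n (D * u) = 0 := by
    rw [map_mul, hu, map_sub, ← hdsum]
    rw [mul_one] at hkill0
    exact hkill0
  have hDkill : ∀ x ∈ New, p ^ n • x = 0 → (D * u) • x = 0 := by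
    intro x hxN hx
    have := congrArg (fun f : Module.End ℤ ↥(s59m1bY New p n) =>
      ((f ⟨x, ⟨hxN, hx⟩⟩ : ↥(s59m1bY New p n)) : J)) hkill1
    rw [mul_smul]
    simpa [s59m1bHeckeEnd_apply] using this
  have hmem := span_pow_le (IsLocalRing.maximalIdeal 𝒪') hpI k
    (hG (D * u) (mul_mem hDsupp husupp) hDkill)
  have hπD : chiHom S χ D ∈ IsLocalRing.maximalIdeal 𝒪' ^ k := by
    rw [map_mul] at hmem
    exact (Ideal.unit_mul_mem_iff_mem _ huunit).mp (by rwa [mul_comm] at hmem)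
  -- conclusion
  have hsum : (c.sum fun g z => z • t g) =
      (c.sum fun g z => z • (t g - chiHom S χ (P g))) + chiHom S χ D := by
    rw [hD, Finsupp.sum, Finsupp.sum, Finsupp.sum, map_sum, ← Finset.sum_add_distrib]
    refine Finset.sum_congr rfl fun g _ => ?_
    rw [map_zsmul, smul_sub, sub_add_cancel]
  rw [hsum]
  refine add_mem ?_ hπD
  rw [Finsupp.sum]
  exact Ideal.sum_mem _ fun g _ => by
    rw [zsmul_eq_mul]
    exact Ideal.mul_mem_left _ _ (htr g)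

end TK

section H8

/-- **(h8′)**: `New ≤ J` a `G_ℚ × Hecke`-submodule whose `p`-power torsion inertia invariants at a
place `A ∣ q` (`q ≠ p`) are killed by a constant, `χ` FAITHFUL on the torsion of `New`
(`∀ k, ∃ n, s59m1bGood p New S χ k n`), a unit commutator trace: then some `σ` in the inertia group
of `A` has `t σ ≠ 2`. -/
theorem s59m1b_h8 (p N : ℕ) [Fact p.Prime] [NeZero N]
    (J : Type) [AddCommGroup J] [Module HeckeAlg J] [DistribMulAction GQ J]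
    (S : Finset ℕ)
    (𝒪' : Type) [CommRing 𝒪'] [IsDomain 𝒪'] [IsDiscreteValuationRing 𝒪'] [CharZero 𝒪']
    (χ : CuspForm.heckeAlgebra N 2 (↑S : Set ℕ) →+* 𝒪')
    (hpI : (p : 𝒪') ∈ IsLocalRing.maximalIdeal 𝒪')
    (hcheb : Cheb.WeakChebotarev) (hJ : ESDataInf N p J)
    (hgood : ∀ r : ℕ, r.Prime → r ∉ S → ¬ r ∣ N * p)
    (t : GQ → 𝒪')
    (ht : ∀ (g : GQ) (k n : ℕ) (h : HeckeAlg), Good p J S χ k n →
      h ∈ MvPolynomial.supported ℤ (outsideVars (↑S : Set ℕ)) → Approx p J n g h →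
        t g - chiHom S χ h ∈ IsLocalRing.maximalIdeal 𝒪' ^ k)
    (hU : ∃ g₁ g₂ g₃ : GQ, t (g₁ * g₂ * g₃) - t (g₂ * g₁ * g₃) ∉ IsLocalRing.maximalIdeal 𝒪')
    (q : ℕ) (hq : q.Prime) (hqp : q ≠ p)
    (A : ValuationSubring (AlgebraicClosure ℚ)) (hA : A.LiesOverPrime q)
    (New : Submodule HeckeAlg J) (hNewG : ∀ (σ : GQ) (x : J), x ∈ New → σ • x ∈ New)
    (hQ : ∃ c : ℕ, c ≠ 0 ∧ ∀ x : J, IsPPowerTorsion p x → x ∈ New →
      (∀ σ ∈ A.inertiaSubgroupIn ℚ, σ • x = x) → c • x = 0)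
    (hfaith : ∀ k : ℕ, ∃ n : ℕ, s59m1bGood p New S χ k n) :
    ∃ σ ∈ A.inertiaSubgroupIn ℚ, t σ ≠ 2 := by
  obtain ⟨g₁, g₂, g₃, hunit⟩ := hU
  obtain ⟨c₀, hc₀, hQ⟩ := hQ
  classical
  by_contra hcon
  have hcon : ∀ σ ∈ A.inertiaSubgroupIn ℚ, t σ = 2 := by
    intro σ hσ
    by_contra h
    exact hcon ⟨σ, hσ, h⟩
  have hp : p.Prime := Fact.out
  haveI : Fact q.Prime := ⟨hq⟩
  -- finiteness
  have hfin : ∀ n : ℕ, Finite ↥(tors J p n) := fun n => (hJ.finite n).to_subtype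
  -- constants
  set B : ℕ := Nat.card ↥(tors J p c₀) with hBdef
  set s₁ : ℕ := Nat.card ↥(tors J p 1) with hs₁def
  have hB0 : B ≠ 0 := by
    haveI := hfin c₀
    exact Nat.card_pos.ne'
  -- the element `z`
  set z : 𝒪' := 2 * (B : 𝒪') ^ s₁ with hz
  have hz0 : z ≠ 0 := by
    rw [hz]
    exact mul_ne_zero two_ne_zero (pow_ne_zero _ (Nat.cast_ne_zero.mpr hB0))
  obtain ⟨k, hzk⟩ : ∃ k : ℕ, z ∉ IsLocalRing.maximalIdeal 𝒪' ^ k := by
    by_contra h
    have h : ∀ k : ℕ, z ∈ IsLocalRing.maximalIdeal 𝒪' ^ k := by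
      intro k
      by_contra hk
      exact h ⟨k, hk⟩
    apply hz0
    have h1 : z ∈ ⨅ i : ℕ, IsLocalRing.maximalIdeal 𝒪' ^ i := by
      rw [Ideal.mem_iInf]; exact h
    rw [Ideal.iInf_pow_eq_bot_of_isLocalRing _ (Ideal.IsMaximal.ne_top inferInstance)] at h1
    exact h1
  have hk0 : k ≠ 0 := by
    rintro rfl
    apply hzk
    rw [pow_zero, Ideal.one_eq_top]
    exact Submodule.mem_top
  obtain ⟨n, hG⟩ := hfaith k
  haveI := hfin n
  haveI hfinY : Finite ↥(s59m1bY New p n) :=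
    Finite.of_injective (fun x : ↥(s59m1bY New p n) => (⟨(x : J), x.2.2⟩ : ↥(tors J p n)))
      (fun x y hxy => Subtype.ext (congrArg (fun w : ↥(tors J p n) => (w : J)) hxy))
  -- the tame character
  obtain ⟨E, hEfin, hE⟩ := exists_common_field hJ n
  obtain ⟨C, _, ψ, t₀, hgen, hker⟩ := s36t_tame_global hq A hA E
  have hker' : ∀ y : ↥(A.inertiaSubgroupIn ℚ), ψ y = 1 →
      ∃ m : ℕ, s59m1bGalEnd New hNewG p n ((y : GQ) ^ (q ^ m)) = 1 := by
    intro y hy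
    obtain ⟨m, hm⟩ := hker y hy
    refine ⟨m, ?_⟩
    ext x
    rw [s59m1bGalEnd_apply, Module.End.one_apply]
    exact hE _ hm x x.2.2
  have hθ : ∀ g, (1 : Module.End ℤ ↥(s59m1bY New p n)) * s59m1bGalEnd New hNewG p n g =
      s59m1bGalEnd New hNewG p n g * 1 := fun g => by rw [one_mul, mul_one]
  have hB' : ∀ H : AddSubgroup ↥(s59m1bY New p n),
      (∀ x ∈ H, x ∈ LinearMap.range (1 : Module.End ℤ ↥(s59m1bY New p n)) ∧
        ∀ g : ↥(A.inertiaSubgroupIn ℚ), s59m1bGalEnd New hNewG p n (g : GQ) x = x) →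
        Nat.card H ∣ B := by
    intro H hH
    have hmem : ∀ x : H, ((x : ↥(s59m1bY New p n)) : J) ∈ tors J p c₀ := by
      intro x
      obtain ⟨-, hinv⟩ := hH x x.2
      have h1 : ((x : ↥(s59m1bY New p n)) : J) ∈ New := (x : ↥(s59m1bY New p n)).2.1
      have h2 : ∀ σ ∈ A.inertiaSubgroupIn ℚ, σ • ((x : ↥(s59m1bY New p n)) : J) =
          ((x : ↥(s59m1bY New p n)) : J) := by
        intro σ hσ
        have := congrArg (fun w : ↥(s59m1bY New p n) => (w : J)) (hinv ⟨σ, hσ⟩)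
        rw [s59m1bGalEnd_apply] at this
        exact this
      have h3 := hQ _ ⟨n, (x : ↥(s59m1bY New p n)).2.2⟩ h1 h2
      exact s36t_pow_smul_of_smul hp hc₀ (x : ↥(s59m1bY New p n)).2.2 h3
    let φ : ↥H →+ ↥(tors J p c₀) :=
      { toFun := fun x => ⟨((x : ↥(s59m1bY New p n)) : J), hmem x⟩
        map_zero' := rfl
        map_add' := fun _ _ => rfl }
    have hφ : Function.Injective φ := by
      intro x y hxy
      have := congrArg (fun w : ↥(tors J p c₀) => (w : J)) hxy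
      exact Subtype.ext (Subtype.ext this)
    exact AddSubgroup.card_dvd_of_injective φ hφ
  have hs' : ∀ H : AddSubgroup ↥(s59m1bY New p n), (∀ x ∈ H, p • x = 0) →
      Nat.card H ≤ s₁ := by
    intro H hH
    haveI := hfin 1
    have hmem : ∀ x : H, ((x : ↥(s59m1bY New p n)) : J) ∈ tors J p 1 := by
      intro x
      have := congrArg (fun w : ↥(s59m1bY New p n) => (w : J)) (hH x x.2)
      rw [mem_tors, pow_one]
      simpa using this
    exact Nat.card_le_card_of_injective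
      (fun x : H => (⟨((x : ↥(s59m1bY New p n)) : J), hmem x⟩ : ↥(tors J p 1)))
      (fun x y hxy => Subtype.ext (Subtype.ext
        (congrArg (fun w : ↥(tors J p 1) => (w : J)) hxy)))
  obtain ⟨c, a, s, hs, hkill, haug⟩ := s36t_exists_killer (s59m1bGalEnd New hNewG p n)
    (A.inertiaSubgroupIn ℚ) ψ t₀ hgen q hker' (1 : Module.End ℤ ↥(s59m1bY New p n)) hθ p n
    (fun x => Subtype.ext x.2.2) B s₁ hB' hs'
  -- the trace kernel
  have hc : ∀ x ∈ New, p ^ n • x = 0 → (c.sum fun g z => z • g • x) = 0 := by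
    intro x hxN hx
    rw [mul_one] at hkill
    have h1 := congrArg (fun f : Module.End ℤ ↥(s59m1bY New p n) =>
      ((f ⟨x, ⟨hxN, hx⟩⟩ : ↥(s59m1bY New p n)) : J)) hkill
    simp only [LinearMap.zero_apply, ZeroMemClass.coe_zero] at h1
    rw [Finsupp.sum, LinearMap.sum_apply, AddSubmonoidClass.coe_finsetSum] at h1
    rw [Finsupp.sum, ← h1]
    refine Finset.sum_congr rfl fun g _ => ?_
    rw [LinearMap.smul_apply, Submodule.coe_smul_of_tower, s59m1bGalEnd_apply]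
  have hTK := s59m1b_trace_kernel hpI hcheb hJ hgood t ht g₁ g₂ g₃ hunit hk0 New hNewG hG c hc
  rw [haug 𝒪' t 2 (fun g hg => hcon g hg)] at hTK
  -- `q` is a unit
  have hqunit : IsUnit ((q : 𝒪') ^ a) := by
    apply IsUnit.pow
    rw [← IsLocalRing.notMem_maximalIdeal]
    intro hqm
    have hcop : IsCoprime (p : ℤ) (q : ℤ) :=
      Nat.isCoprime_iff_coprime.mpr ((Nat.coprime_primes hp hq).mpr (Ne.symm hqp))
    obtain ⟨u, w, huw⟩ := hcop
    have h1 : ((u * p + w * q : ℤ) : 𝒪') = 1 := by rw [huw]; simp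
    push_cast at h1
    have h2 : (1 : 𝒪') ∈ IsLocalRing.maximalIdeal 𝒪' := by
      rw [← h1]
      exact add_mem (Ideal.mul_mem_left _ _ hpI) (Ideal.mul_mem_left _ _ hqm)
    exact (Ideal.ne_top_iff_one _).mp (Ideal.IsMaximal.ne_top inferInstance) h2
  apply hzk
  have e1 : (((q ^ a * B ^ s : ℕ) : ℤ) • (2 : 𝒪')) =
      (q : 𝒪') ^ a * (2 * (B : 𝒪') ^ s) := by
    rw [zsmul_eq_mul]
    push_cast
    ring
  rw [e1] at hTK
  have h5 : 2 * (B : 𝒪') ^ s ∈ IsLocalRing.maximalIdeal 𝒪' ^ k :=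
    (Ideal.unit_mul_mem_iff_mem _ hqunit).mp hTK
  obtain ⟨d, hd⟩ := Nat.exists_eq_add_of_le hs
  have e2 : z = (B : 𝒪') ^ d * (2 * (B : 𝒪') ^ s) := by
    rw [hz, hd, pow_add]; ring
  rw [e2]
  exact Ideal.mul_mem_left _ _ h5

end H8

end Fermat.Agent.S59

end
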