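import Fermat.Agent.S35.FinalAbs
import Fermat.Agent.S59.Eta.Mult1bAbs

/-!
# S59, R2, piece E-MULT1a (double, helper32): the abstract engine

Twin of S35's `s35f_trace_sq` (helper76) in which the Hecke polynomial `P` (`P · J[p^∞] ⊆ New`,
`χ(P) ≠ 0`) and `ESFaith` are replaced by the FAITHFULNESS of `χ` on the torsion of `New` itself
(`∀ k, ∃ n, s59m1bGood p New S χ k n`, as in helper31's (h8′)):

* `s59m1ae_trace_sq` : `New ≤ J` a Hecke submodule on which a Frobenius element `σ` at `q ≠ p`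
  satisfies `σ⁴ + q² = (q² + 1) σ²` (STB-J on the `q`-new part), `χ` faithful on `New`
  ⇒ `t(σ)² = (q + 1)²`;
* `s59m1ae_old_sq` : if moreover `t σ = a` (e.g. `t` is the trace function of a system of level
  `N`, unramified at `q`, and `a = χ₀(T_q)`), then `a² = (q + 1)²`;
* `s59m1ae_not_faithful` : hence, if `a² ≠ (q + 1)²` (E-PET), `χ` is NOT faithful on `New`.
-/

set_option autoImplicit false

noncomputable section

namespace Fermat.Agent.S59

open ModularCurve Fermat.Agent.ES Fermat.Agent.S31 Fermat.Agent.S30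

section Eng

variable {p : ℕ} [Fact p.Prime] {N : ℕ} [NeZero N] {J : Type} [AddCommGroup J]
  [Module HeckeAlg J] [DistribMulAction GQ J] {S : Finset ℕ} {𝒪' : Type*} [CommRing 𝒪']
  {χ : CuspForm.heckeAlgebra N 2 (↑S : Set ℕ) →+* 𝒪'}

/-- **engine of (1a)**: `t(σ)² = (q + 1)²` from STB-J on `New` and the faithfulness of `χ` on the
torsion of `New`. -/
theorem s59m1ae_trace_sq (I : Ideal 𝒪') [IsAdicComplete I 𝒪'] (hpI : (p : 𝒪') ∈ I)
    (hcheb : Cheb.WeakChebotarev) (hJ : ESDataInf N p J)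
    (hgood : ∀ r : ℕ, r.Prime → r ∉ S → ¬ r ∣ N * p)
    (t : GQ → 𝒪')
    (ht : ∀ (g : GQ) (k n : ℕ) (h : HeckeAlg), Good p J S χ k n →
      h ∈ MvPolynomial.supported ℤ (outsideVars (↑S : Set ℕ)) → Approx p J n g h →
        t g - chiHom S χ h ∈ I ^ k)
    {q : ℕ} (hq : q.Prime) (hqp : q ≠ p)
    (A : ValuationSubring (AlgebraicClosure ℚ)) (hA : A.LiesOverPrime q)
    (σ : GQ) (hσ : A.IsFrobeniusAt σ q)
    (New : Submodule HeckeAlg J)
    (hfaith : ∀ k : ℕ, ∃ n : ℕ, s59m1bGood p New S χ k n)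
    (hnew : ∀ x ∈ New, IsPPowerTorsion p x →
      σ • σ • σ • σ • x + q ^ 2 • x = (q ^ 2 + 1) • (σ • σ • x)) :
    t σ * t σ = ((q : 𝒪') + 1) ^ 2 := by
  have key : ∀ k : ℕ, t σ * t σ - ((q : 𝒪') + 1) ^ 2 ∈ I ^ k := by
    intro k
    obtain ⟨n, hG⟩ := hfaith k
    obtain ⟨h, hh, H⟩ := exists_approx hcheb hJ S hgood n σ
    have he : cycE p n σ ≡ q [MOD p ^ n] := by
      rw [cycE_modEq_iff, padicCyclo_frob p q hq hqp A hA σ hσ, map_natCast]
    have hsupp : (h * h - (((q + 1) ^ 2 : ℕ) : HeckeAlg))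
        ∈ MvPolynomial.supported ℤ (outsideVars (↑S : Set ℕ)) :=
      sub_mem (mul_mem hh hh) (natCast_mem _ _)
    have hkill : ∀ x ∈ New, p ^ n • x = 0 →
        (h * h - (((q + 1) ^ 2 : ℕ) : HeckeAlg)) • x = 0 := by
      intro x hxN hx
      exact Fermat.Agent.S35.s35f_kills H he hx (hnew x hxN ⟨n, hx⟩)
    have h1 := span_pow_le I hpI k (hG _ hsupp hkill)
    rw [map_sub, map_mul, map_natCast] at h1
    have h2 := ht σ k n h hG.good hh H
    have e : t σ * t σ - ((q : 𝒪') + 1) ^ 2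
        = (t σ - chiHom S χ h) * (t σ + chiHom S χ h)
          + (chiHom S χ h * chiHom S χ h - (((q + 1) ^ 2 : ℕ) : 𝒪')) := by
      push_cast
      ring
    rw [e]
    exact add_mem (Ideal.mul_mem_right _ _ h2) h1
  exact eq_of_forall_sub_mem I key

/-- the same with the value `a = t σ` of an old system. -/
theorem s59m1ae_old_sq (I : Ideal 𝒪') [IsAdicComplete I 𝒪'] (hpI : (p : 𝒪') ∈ I)
    (hcheb : Cheb.WeakChebotarev) (hJ : ESDataInf N p J)
    (hgood : ∀ r : ℕ, r.Prime → r ∉ S → ¬ r ∣ N * p)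
    (t : GQ → 𝒪')
    (ht : ∀ (g : GQ) (k n : ℕ) (h : HeckeAlg), Good p J S χ k n →
      h ∈ MvPolynomial.supported ℤ (outsideVars (↑S : Set ℕ)) → Approx p J n g h →
        t g - chiHom S χ h ∈ I ^ k)
    {q : ℕ} (hq : q.Prime) (hqp : q ≠ p)
    (A : ValuationSubring (AlgebraicClosure ℚ)) (hA : A.LiesOverPrime q)
    (σ : GQ) (hσ : A.IsFrobeniusAt σ q)
    (New : Submodule HeckeAlg J)
    (hfaith : ∀ k : ℕ, ∃ n : ℕ, s59m1bGood p New S χ k n)
    (hnew : ∀ x ∈ New, IsPPowerTorsion p x →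
      σ • σ • σ • σ • x + q ^ 2 • x = (q ^ 2 + 1) • (σ • σ • x))
    (a : 𝒪') (hta : t σ = a) : a ^ 2 = ((q : 𝒪') + 1) ^ 2 := by
  rw [← hta, pow_two]
  exact s59m1ae_trace_sq I hpI hcheb hJ hgood t ht hq hqp A hA σ hσ New hfaith hnew

/-- **(1a), abstract form**: if `a² ≠ (q + 1)²` (E-PET) for the value `a = t σ` of the trace
function at a Frobenius element at `q`, then `χ` is not faithful on the torsion of `New`. -/
theorem s59m1ae_not_faithful (I : Ideal 𝒪') [IsAdicComplete I 𝒪'] (hpI : (p : 𝒪') ∈ I)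
    (hcheb : Cheb.WeakChebotarev) (hJ : ESDataInf N p J)
    (hgood : ∀ r : ℕ, r.Prime → r ∉ S → ¬ r ∣ N * p)
    (t : GQ → 𝒪')
    (ht : ∀ (g : GQ) (k n : ℕ) (h : HeckeAlg), Good p J S χ k n →
      h ∈ MvPolynomial.supported ℤ (outsideVars (↑S : Set ℕ)) → Approx p J n g h →
        t g - chiHom S χ h ∈ I ^ k)
    {q : ℕ} (hq : q.Prime) (hqp : q ≠ p)
    (A : ValuationSubring (AlgebraicClosure ℚ)) (hA : A.LiesOverPrime q)
    (σ : GQ) (hσ : A.IsFrobeniusAt σ q)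
    (New : Submodule HeckeAlg J)
    (hnew : ∀ x ∈ New, IsPPowerTorsion p x →
      σ • σ • σ • σ • x + q ^ 2 • x = (q ^ 2 + 1) • (σ • σ • x))
    (a : 𝒪') (hta : t σ = a) (ha : a ^ 2 ≠ ((q : 𝒪') + 1) ^ 2) :
    ¬ ∀ k : ℕ, ∃ n : ℕ, s59m1bGood p New S χ k n :=
  fun hfaith =>
    ha (s59m1ae_old_sq I hpI hcheb hJ hgood t ht hq hqp A hA σ hσ New hfaith hnew a hta)

end Eng

end Fermat.Agent.S59
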