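import Fermat.Agent.S35.FinalPDiv
import Fermat.Agent.STB.P1Smo

/-!
# S59, R2 (ETA′), piece E-MULT1a — the torsion points (helper71)

Levels `N` and `N q` (`q ∤ N` prime), `p ≠ q` prime, `σ` a Frobenius element at `q`,
`J = PDiv N p`, `J' = PDiv (N q) p` (the `p`-divisible torsion of `J₀(N)(ℚ̄)`, `J₀(N q)(ℚ̄)` with
the Hecke module structure `pDivModule` and the Galois action `pDivGalois`).

INPUTS, in their landed shapes (all are theorems on main; they are hypotheses here to keep the
import closure small):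
* `hcheb : Cheb.WeakChebotarev`                       (`Cheb.weakChebotarev_holds`);
* `hJ : ESDataInf N p J`, `hJ' : ESDataInf (N q) p J'` (`ES.MultData.esDataInf`);
* `hNF : STB.StmtNewFrobJ N q p`                      (STB-J: `S35.stmtNewFrobJ_all_of_kummer`).

RESULT `s59m1a_pair`: for every `n` there is a Hecke polynomial `h` in the variables outside `S`
(a Lucas polynomial in ONE `T_ℓ₀`) such that
* `h = T_q` on `J[pⁿ]`                     (Chebotarev + Eichler–Shimura at `q`, level `N`),
* `h² = (q + 1)²` on `J'[pⁿ] ∩ stbNew N q`  (Chebotarev + (P7-a) on the `q`-new part).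
-/

set_option autoImplicit false

noncomputable section

namespace Fermat.Agent.S59

open ModularCurve Fermat.Agent.ES Fermat.Agent.S31 Fermat.Agent.S30 Fermat.Agent.STB
  Fermat.Agent.S35

section Pair

variable {N q : ℕ} [NeZero N] [NeZero q] {p : ℕ} [Fact p.Prime]

attribute [local instance] pDivModule pDivGalois

/-- restriction of a representative from a product to the first factor -/
theorem s59m1a_approx_fst {J J' : Type} [AddCommGroup J] [Module HeckeAlg J]
    [DistribMulAction GQ J] [AddCommGroup J'] [Module HeckeAlg J'] [DistribMulAction GQ J']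
    {n : ℕ} {g : GQ} {h : HeckeAlg} (H : Approx p (J × J') n g h) : Approx p J n g h := by
  intro x hx
  have hz : p ^ n • ((x, 0) : J × J') = 0 := by
    rw [Prod.smul_mk, hx, smul_zero]
    rfl
  exact congrArg Prod.fst (H (x, 0) hz)

/-- restriction of a representative from a product to the second factor -/
theorem s59m1a_approx_snd {J J' : Type} [AddCommGroup J] [Module HeckeAlg J]
    [DistribMulAction GQ J] [AddCommGroup J'] [Module HeckeAlg J'] [DistribMulAction GQ J']
    {n : ℕ} {g : GQ} {h : HeckeAlg} (H : Approx p (J × J') n g h) : Approx p J' n g h := by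
  intro x hx
  have hz : p ^ n • ((0, x) : J × J') = 0 := by
    rw [Prod.smul_mk, hx, smul_zero]
    rfl
  exact congrArg Prod.snd (H (0, x) hz)

/-- **E-MULT1a, the torsion points.** -/
theorem s59m1a_pair (hcheb : Cheb.WeakChebotarev)
    (hJ : ESDataInf N p (PDiv N p)) (hJ' : ESDataInf (N * q) p (PDiv (N * q) p))
    (hNF : StmtNewFrobJ N q p) (hq : q.Prime) (hqN : ¬ q ∣ N) (hqp : q ≠ p)
    (S : Finset ℕ) (hgood : ∀ r : ℕ, r.Prime → r ∉ S → ¬ r ∣ N * q * p)
    (A : ValuationSubring (AlgebraicClosure ℚ)) (hA : A.LiesOverPrime q)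
    (σ : GQ) (hσ : A.IsFrobeniusAt σ q) (n : ℕ) :
    ∃ h ∈ MvPolynomial.supported ℤ (outsideVars (↑S : Set ℕ)),
      (∀ x : PDiv N p, p ^ n • x = 0 → h • x = heckeGen ⟨q, hq⟩ • x) ∧
      (∀ y : PDiv (N * q) p, p ^ n • y = 0 → (y : JZero (N * q)) ∈ stbNew N q →
        (h * h - (((q + 1) ^ 2 : ℕ) : HeckeAlg)) • y = 0) := by
  have hp : p.Prime := Fact.out
  have hprod : ESDataInf (N * q) p (PDiv (N * q) p × PDiv N p) :=
    stb_p1_esDataInf_prod (dvd_mul_right N q) hJ' hJ
  obtain ⟨h, hh, H⟩ := exists_approx hcheb hprod S hgood n σ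
  have H' : Approx p (PDiv (N * q) p) n σ h := s59m1a_approx_fst H
  have H0 : Approx p (PDiv N p) n σ h := s59m1a_approx_snd H
  have hqNp : ¬ q ∣ N * p := by
    intro hd
    rcases (Nat.Prime.dvd_mul hq).1 hd with h1 | h1
    · exact hqN h1
    · exact hqp ((Nat.prime_dvd_prime_iff_eq hq hp).1 h1)
  have Hq : Approx p (PDiv N p) n σ (heckeGen ⟨q, hq⟩) := approx_frob hJ n hq hqNp hA hσ
  have he : cycE p n σ ≡ q [MOD p ^ n] := by
    rw [cycE_modEq_iff, padicCyclo_frob p q hq hqp A hA σ hσ, map_natCast]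
  refine ⟨h, hh, fun x hx => ?_, fun y hy hnew => ?_⟩
  · rw [← H0 x hx, ← Hq x hx]
  · refine s35f_kills H' he hy ?_
    have h1 := hNF A hA σ hσ (y : JZero (N * q)) (isPPowerTorsion_coe y) hnew
    apply Subtype.ext
    rw [AddSubgroup.coe_add, coe_nsmul_pDiv, coe_nsmul_pDiv]
    exact h1

end Pair

end Fermat.Agent.S59
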