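import Fermat.Agent.S59.Eta.Mult1aJ
import Fermat.Agent.ES.Faith
import Fermat.Agent.S41.TransferFormula

/-!
# S59, R2 (ETA′), piece E-MULT1a — the lattices (helper71)

Levels `N` and `N q` (`q ∤ N` prime), `p ≠ q` prime.  From the torsion points
(`S59/Eta/Mult1aJ.lean`) to the parabolic lattices, through the multiplier contracts
`ES.MultData` of levels `N` and `N q`.

INPUTS (hypotheses, in their landed shapes):
* `hcheb : Cheb.WeakChebotarev`, `hJ : ESDataInf N p (PDiv N p)`,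
  `hJ' : ESDataInf (N q) p (PDiv (N q) p)`, `hNF : STB.StmtNewFrobJ N q p` — all on main;
* `hμ : MultData N p e μ`, `hμ' : MultData (N q) p e' μ'` — on main (`ES.torsionUnif_proved`,
  `ES.multData_of_torsionUnifData`);
* **(μDEG)** `hdeg` : a `p`-power torsion point `x` of `J₀(N q)` whose multiplier `μ' x` is killed
  by `cores` and `coresD` lies in `STB.stbNew N q` (the kernel of `α_*` and `β_*`).
  (Follows from `μ (α_* x) = cores (μ' x)`, `μ (β_* x) = coresD (μ' x)` — in either order — and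
  the injectivity of `μ`: `s59m1a_hdeg_of_intertwine`.)

RESULT **`s59m1a_lat`**: for every `n` there are a prime `ℓ₀ ∉ S` and `P ∈ ℤ[X]` such that, with
`h = P(T_ℓ₀)`:
* `h φ − T_q φ ∈ pⁿ · Hom_par(Γ₀(N), ℤ)` for every `φ ∈ Hom_par(Γ₀(N), ℤ)`;
* `h (h ψ) − (q + 1)² ψ ∈ pⁿ · Hom_par(Γ₀(N q), ℤ)` for every `q`-new
  `ψ ∈ Hom_par(Γ₀(N q), ℤ)` (`cores ψ = 0 = coresD ψ`).
-/

set_option autoImplicit false
set_option linter.unusedSectionVars false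
set_option linter.unusedVariables false

noncomputable section

namespace Fermat.Agent.S59

open ModularCurve CongruenceSubgroup ModularCurve.Period Fermat.Agent.ES Fermat.Agent.S31
  Fermat.Agent.S30 Fermat.Agent.STB Fermat.Agent.S35 Fermat.Agent.S41 Polynomial
open scoped MatrixGroups

/-! ## Chebotarev, Lucas form -/

section Lucas

variable {p : ℕ} [Fact p.Prime] {N : ℕ} {J : Type} [AddCommGroup J] [Module HeckeAlg J]
  [DistribMulAction GQ J]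

/-- `S30.exists_approx`, with the shape of the representative: a Lucas polynomial in ONE
`T_ℓ`. -/
theorem s59m1a_exists_approx_lucas (hcheb : Cheb.WeakChebotarev) (hJ : ESDataInf N p J)
    (S : Finset ℕ) (hgood : ∀ r : ℕ, r.Prime → r ∉ S → ¬ r ∣ N * p) (n : ℕ) (g : GQ) :
    ∃ (ℓ : ℕ) (hℓ : ℓ.Prime) (m : ℕ), ℓ ∉ S ∧
      Approx p J n g (lucasS (heckeGen ⟨ℓ, hℓ⟩) (ℓ : HeckeAlg) m) := by
  have hp : p.Prime := Fact.out
  obtain ⟨E, hEfin, hE⟩ := exists_common_field hJ n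
  have hM0 : p ^ n ≠ 0 := pow_ne_zero n hp.ne_zero
  have : NeZero ((p ^ n : ℕ) : AlgebraicClosure ℚ) := ⟨Nat.cast_ne_zero.mpr hM0⟩
  obtain ⟨ζ, hζ⟩ := HasEnoughRootsOfUnity.exists_primitiveRoot (AlgebraicClosure ℚ) (p ^ n)
  have hζfin : FiniteDimensional ℚ (IntermediateField.adjoin ℚ {ζ}) :=
    IntermediateField.adjoin.finiteDimensional ((hζ.isIntegral (Nat.pos_of_ne_zero hM0)).tower_top)
  obtain ⟨F, hFfin, hFgal, hEF, -, hζF⟩ :=
    exists_galois_hull E E (IntermediateField.adjoin ℚ {ζ})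
  have hζF' : ζ ∈ F := hζF (IntermediateField.mem_adjoin_simple_self ℚ ζ)
  have hF : ∀ σ : GQ, (∀ a ∈ F, σ a = a) → ∀ x : J, p ^ n • x = 0 → σ • x = x :=
    fun σ h => hE σ fun a ha => h a (hEF ha)
  obtain ⟨ℓ, A, τ, m, hℓ, hℓS, hA, hτ, hg⟩ := hcheb F S g
  have hℓNp := hgood ℓ hℓ hℓS
  refine ⟨ℓ, hℓ, m, hℓS, ?_⟩
  intro x hx
  have h1 := lucas_galois hJ n F hF hℓ hℓNp hA hτ m g hg hx
  have hζ1 : ζ ^ (p ^ n) = 1 := hζ.pow_eq_one
  have h2 : (τ ^ m) ζ = ζ ^ (ℓ ^ m) :=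
    frob_pow_rootOfUnity A (natCast_pow_not_mem_nonunits A hp hℓ (ne_of_not_dvd_mul hℓNp) hA n)
      hM0 hτ hζ1 m
  have h3 : g ζ = ζ ^ (ℓ ^ m) := by rw [← hg ζ hζF', h2]
  have he : cycE p n g ≡ ℓ ^ m [MOD p ^ n] := cycE_of_apply p n g _ hζ h3
  rw [nsmul_eq_of_modEq he (torsion_smul n g⁻¹ hx)]
  exact h1

end Lucas

/-! ## The torsion points, for a given representative -/

section PairOf

variable {N q : ℕ} [NeZero N] [NeZero q] {p : ℕ} [Fact p.Prime]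

attribute [local instance] pDivModule pDivGalois

/-- `s59m1a_pair` for a given representative `h` of `σ` on `J'[pⁿ] × J[pⁿ]`. -/
theorem s59m1a_pair_of_approx (hJ : ESDataInf N p (PDiv N p)) (hNF : StmtNewFrobJ N q p)
    (hq : q.Prime) (hqN : ¬ q ∣ N) (hqp : q ≠ p)
    (A : ValuationSubring (AlgebraicClosure ℚ)) (hA : A.LiesOverPrime q)
    (σ : GQ) (hσ : A.IsFrobeniusAt σ q) (n : ℕ) (h : HeckeAlg)
    (H : Approx p (PDiv (N * q) p × PDiv N p) n σ h) :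
    (∀ x : PDiv N p, p ^ n • x = 0 → h • x = heckeGen ⟨q, hq⟩ • x) ∧
      (∀ y : PDiv (N * q) p, p ^ n • y = 0 → (y : JZero (N * q)) ∈ stbNew N q →
        (h * h - (((q + 1) ^ 2 : ℕ) : HeckeAlg)) • y = 0) := by
  have hp : p.Prime := Fact.out
  have H' : Approx p (PDiv (N * q) p) n σ h := s59m1a_approx_fst H
  have H0 : Approx p (PDiv N p) n σ h := s59m1a_approx_snd H
  have hqNp : ¬ q ∣ N * p := by
    intro hd
    rcases (Nat.Prime.dvd_mul hq).1 hd with h1 | h1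
    · exact hqN h1
    · exact hqp ((Nat.prime_dvd_prime_iff_eq hq hp).1 h1)
  have Hq : Approx p (PDiv N p) n σ (heckeGen ⟨q, hq⟩) := approx_frob hJ n hq hqNp hA hσ
  have he : cycE p n σ ≡ q [MOD p ^ n] := by
    rw [cycE_modEq_iff, padicCyclo_frob p q hq hqp A hA σ hσ, map_natCast]
  refine ⟨fun x hx => ?_, fun y hy hnew => ?_⟩
  · rw [← H0 x hx, ← Hq x hx]
  · refine s35f_kills H' he hy ?_
    have h1 := hNF A hA σ hσ (y : JZero (N * q)) (isPPowerTorsion_coe y) hnew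
    apply Subtype.ext
    rw [AddSubgroup.coe_add, coe_nsmul_pDiv, coe_nsmul_pDiv]
    exact h1

end PairOf

/-! ## Polynomials in one Hecke operator -/

section OneOp

variable {M p : ℕ}

/-- `T_ℓ` on `Hom(Γ₀(M), A)` as a `ℤ`-linear endomorphism -/
def s59m1aTc (ℓ : GoodPrime M p) (A : Type) [AddCommGroup A] :
    Module.End ℤ (Additive (Gamma0 M) →+ A) :=
  (heckeOp M p ℓ A).toIntLinearMap

theorem s59m1aTc_apply (ℓ : GoodPrime M p) (A : Type) [AddCommGroup A]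
    (φ : Additive (Gamma0 M) →+ A) : s59m1aTc ℓ A φ = heckeOp M p ℓ A φ := rfl

/-- the word `P(ℓ)` -/
def s59m1aWord (ℓ : GoodPrime M p) (P : Polynomial ℤ) : FreeAlgebra ℤ (GoodPrime M p) :=
  aeval (FreeAlgebra.ι ℤ ℓ) P

theorem s59m1a_wordOp (ℓ : GoodPrime M p) (P : Polynomial ℤ) (A : Type) [AddCommGroup A] :
    wordOp (heckeOp M p) A (s59m1aWord ℓ P) = aeval (s59m1aTc ℓ A) P := by
  have h1 : wordOp (heckeOp M p) A (FreeAlgebra.ι ℤ ℓ) = s59m1aTc ℓ A :=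
    FreeAlgebra.lift_ι_apply _ _
  rw [s59m1aWord, ← h1]
  exact (Polynomial.aeval_algHom_apply (wordOp (heckeOp M p) A) (FreeAlgebra.ι ℤ ℓ) P).symm

theorem s59m1a_wordPoly (ℓ : GoodPrime M p) (P : Polynomial ℤ) :
    wordPoly M p (s59m1aWord ℓ P) = aeval (heckeGen (ℓ : Nat.Primes)) P := by
  rw [s59m1aWord, ← wordPoly_ι ℓ]
  exact (Polynomial.aeval_algHom_apply (wordPoly M p) (FreeAlgebra.ι ℤ ℓ) P).symm

/-- `P(T_ℓ)` is natural in the coefficient group -/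
theorem s59m1a_aeval_natural (ℓ : GoodPrime M p) (P : Polynomial ℤ) (A A' : Type)
    [AddCommGroup A] [AddCommGroup A'] (f : A →+ A') (φ : Additive (Gamma0 M) →+ A) :
    aeval (s59m1aTc ℓ A') P (f.comp φ) = f.comp (aeval (s59m1aTc ℓ A) P φ) := by
  rw [← s59m1a_wordOp, ← s59m1a_wordOp]
  exact wordOp_natural (fun ℓ A A' _ _ f ψ => heckeOp_natural ℓ A A' f ψ) _ A A' f φ

/-- `P(T_ℓ)` preserves the parabolic lattice -/
theorem s59m1a_aeval_mem (ℓ : GoodPrime M p) (P : Polynomial ℤ)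
    (φ : Additive (Gamma0 M) →+ ℤ) (hφ : IsParabolicHom (Gamma0 M) φ) :
    IsParabolicHom (Gamma0 M) (aeval (s59m1aTc ℓ ℤ) P φ) := by
  rw [← s59m1a_wordOp]
  exact wordOp_mem_intHoms _ φ hφ

/-- the Lucas polynomial `s_m(X, ℓ) ∈ ℤ[X]` -/
def s59m1aLucas (ℓ m : ℕ) : Polynomial ℤ := lucasS (X : Polynomial ℤ) ((ℓ : ℕ) : Polynomial ℤ) m

theorem s59m1a_aeval_lucas {R : Type*} [CommRing R] (a : R) (ℓ m : ℕ) :
    aeval a (s59m1aLucas ℓ m) = lucasS a (ℓ : R) m := by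
  have h := lucasS_map ((aeval a : Polynomial ℤ →ₐ[ℤ] R) : Polynomial ℤ →+* R)
    (X : Polynomial ℤ) ((ℓ : ℕ) : Polynomial ℤ) m
  simp only [RingHom.coe_coe, aeval_X, map_natCast] at h
  rw [s59m1aLucas]
  exact h

end OneOp

/-! ## The multiplier map and polynomials in one Hecke operator -/

section Mult

variable {M p : ℕ} [NeZero M] {A : Type} [AddCommGroup A] {e : ℕ → ℤ →+ A}
  {μ : JZero M → (Additive (Gamma0 M) →+ A)}

attribute [local instance] pDivModule pDivGalois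

/-- the multiplier map intertwines `P(T_ℓ)` on `PDiv M p` and on `Hom(Γ₀(M), A)` -/
theorem s59m1a_toHom_aeval (hμ : MultData M p e μ) (ℓ : GoodPrime M p) (P : Polynomial ℤ)
    (n : ℕ) (x : PDiv M p) (hx : p ^ n • x = 0) :
    hμ.toHom ((aeval (heckeGen (ℓ : Nat.Primes)) P : HeckeAlg) • x) =
      aeval (s59m1aTc ℓ A) P (hμ.toHom x) := by
  rw [← s59m1a_wordPoly, ← s59m1a_wordOp]
  refine multiplier_wordPoly_torsion hμ.toHom n ?_ _ x hx
  intro ℓ' y _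
  rw [hμ.heckeGen_smul]
  exact hμ.toHom_pDivOp ℓ' y

/-- an integral parabolic homomorphism `D` with `e n ∘ D = 0` is `pⁿ` times one -/
theorem s59m1a_divisible (hμ : MultData M p e μ) (hp0 : p ≠ 0) (n : ℕ)
    (D : Additive (Gamma0 M) →+ ℤ) (hD : IsParabolicHom (Gamma0 M) D)
    (h : (e n).comp D = 0) :
    ∃ D' : Additive (Gamma0 M) →+ ℤ, IsParabolicHom (Gamma0 M) D' ∧ D = p ^ n • D' := by
  have hred : (Int.castAddHom (ZMod (p ^ n))).comp D = 0 := by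
    refine DFunLike.ext _ _ (fun g => ?_)
    have h2 : e n (D g) = 0 := DFunLike.congr_fun h g
    have h3 := hμ.ker n _ h2
    show ((D g : ℤ) : ZMod (p ^ n)) = 0
    exact (ZMod.intCast_zmod_eq_zero_iff_dvd _ _).mpr h3
  obtain ⟨y, hy, hψy⟩ := exists_eq_nsmul_of_castHom_eq_zero (p ^ n) (pow_ne_zero n hp0) D
    (mem_intHoms_parabolicSet.2 hD) hred
  exact ⟨y, mem_intHoms_parabolicSet.1 hy, hψy⟩

end Mult

/-! ## (μDEG) in consumer shape -/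

section Deg

variable {N q : ℕ} [NeZero N] [NeZero q] {p : ℕ}
  {A : Type} [AddCommGroup A] {e : ℕ → ℤ →+ A}
  {μ : JZero N → (Additive (Gamma0 N) →+ A)}
  {μ' : JZero (N * q) → (Additive (Gamma0 (N * q)) →+ A)}

omit [NeZero N] [NeZero q] in
theorem s59m1a_isPPowerTorsion_map {J J' : Type*} [AddCommGroup J] [AddCommGroup J']
    (f : J →+ J') {x : J} (hx : IsPPowerTorsion p x) : IsPPowerTorsion p (f x) := by
  obtain ⟨n, hn⟩ := hx
  exact ⟨n, by rw [← map_nsmul, hn, map_zero]⟩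

/-- **(μDEG) ⇒ `hdeg`**: if the multiplier maps intertwine `α_*`, `β_*` with `cores`, `coresD`
on the `p`-power torsion, then a point whose multiplier is killed by `cores` and `coresD` is
`q`-new. -/
theorem s59m1a_hdeg_of_intertwine (hμ : MultData N p e μ)
    (hα : ∀ x : JZero (N * q), IsPPowerTorsion p x →
      μ (stbPushAlpha N q x) = cores N q A (μ' x))
    (hβ : ∀ x : JZero (N * q), IsPPowerTorsion p x →
      μ (stbPushBeta N q x) = coresD N q A (μ' x))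
    (x : JZero (N * q)) (hx : IsPPowerTorsion p x) (hc : cores N q A (μ' x) = 0)
    (hd : coresD N q A (μ' x) = 0) : x ∈ stbNew N q := by
  rw [mem_stbNew]
  refine ⟨hμ.inj _ (s59m1a_isPPowerTorsion_map _ hx) ?_,
    hμ.inj _ (s59m1a_isPPowerTorsion_map _ hx) ?_⟩
  · rw [hα x hx, hc]
  · rw [hβ x hx, hd]

/-- the same with the roles of `α` and `β` exchanged -/
theorem s59m1a_hdeg_of_intertwine' (hμ : MultData N p e μ)
    (hα : ∀ x : JZero (N * q), IsPPowerTorsion p x →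
      μ (stbPushAlpha N q x) = coresD N q A (μ' x))
    (hβ : ∀ x : JZero (N * q), IsPPowerTorsion p x →
      μ (stbPushBeta N q x) = cores N q A (μ' x))
    (x : JZero (N * q)) (hx : IsPPowerTorsion p x) (hc : cores N q A (μ' x) = 0)
    (hd : coresD N q A (μ' x) = 0) : x ∈ stbNew N q := by
  rw [mem_stbNew]
  refine ⟨hμ.inj _ (s59m1a_isPPowerTorsion_map _ hx) ?_,
    hμ.inj _ (s59m1a_isPPowerTorsion_map _ hx) ?_⟩
  · rw [hα x hx, hd]
  · rw [hβ x hx, hc]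

end Deg

/-! ## The lattices -/

section Lat

variable {N q : ℕ} [NeZero N] [NeZero q] {p : ℕ} [Fact p.Prime]
  {A A' : Type} [AddCommGroup A] [AddCommGroup A'] {e : ℕ → ℤ →+ A} {e' : ℕ → ℤ →+ A'}
  {μ : JZero N → (Additive (Gamma0 N) →+ A)}
  {μ' : JZero (N * q) → (Additive (Gamma0 (N * q)) →+ A')}

attribute [local instance] pDivModule pDivGalois

omit [NeZero N] [NeZero q] [Fact p.Prime] in
theorem s59m1a_not_dvd_low {ℓ : ℕ} (h : ¬ ℓ ∣ N * q * p) : ¬ ℓ ∣ N * p :=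
  fun hd => h (hd.trans (Nat.mul_dvd_mul_right (dvd_mul_right N q) p))

omit [NeZero N] [NeZero q] in
theorem s59m1a_not_dvd_q (hq : q.Prime) (hqN : ¬ q ∣ N) (hqp : q ≠ p) : ¬ q ∣ N * p := by
  have hp : p.Prime := Fact.out
  intro hd
  rcases (Nat.Prime.dvd_mul hq).1 hd with h1 | h1
  · exact hqN h1
  · exact hqp ((Nat.prime_dvd_prime_iff_eq hq hp).1 h1)

/-- **E-MULT1a on the lattices.**  For every `n` there are a prime `ℓ₀ ∉ S` and `P ∈ ℤ[X]` with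
`P(T_ℓ₀) ≡ T_q` on `Hom_par(Γ₀(N), ℤ)` and `P(T_ℓ₀)² ≡ (q + 1)²` on the `q`-new part of
`Hom_par(Γ₀(N q), ℤ)`, modulo `pⁿ`. -/
theorem s59m1a_lat (hcheb : Cheb.WeakChebotarev)
    (hμ : MultData N p e μ) (hμ' : MultData (N * q) p e' μ')
    (hJ : ESDataInf N p (PDiv N p)) (hJ' : ESDataInf (N * q) p (PDiv (N * q) p))
    (hNF : StmtNewFrobJ N q p)
    (hdeg : ∀ x : JZero (N * q), IsPPowerTorsion p x → cores N q A' (μ' x) = 0 →
      coresD N q A' (μ' x) = 0 → x ∈ stbNew N q)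
    (hq : q.Prime) (hqN : ¬ q ∣ N) (hqp : q ≠ p)
    (S : Finset ℕ) (hgood : ∀ r : ℕ, r.Prime → r ∉ S → ¬ r ∣ N * q * p) (n : ℕ) :
    ∃ (ℓ₀ : ℕ) (hℓ₀ : ℓ₀.Prime) (h₂ : ¬ ℓ₀ ∣ N * q * p) (_ : ℓ₀ ∉ S) (P : Polynomial ℤ),
      (∀ φ : Additive (Gamma0 N) →+ ℤ, IsParabolicHom (Gamma0 N) φ →
        ∃ φ' : Additive (Gamma0 N) →+ ℤ, IsParabolicHom (Gamma0 N) φ' ∧
          aeval (s59m1aTc (⟨⟨ℓ₀, hℓ₀⟩, s59m1a_not_dvd_low h₂⟩ : GoodPrime N p) ℤ) P φ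
            - heckeOp N p (⟨⟨q, hq⟩, s59m1a_not_dvd_q hq hqN hqp⟩ : GoodPrime N p) ℤ φ
              = p ^ n • φ') ∧
      (∀ ψ : Additive (Gamma0 (N * q)) →+ ℤ, IsParabolicHom (Gamma0 (N * q)) ψ →
        cores N q ℤ ψ = 0 → coresD N q ℤ ψ = 0 →
        ∃ ψ' : Additive (Gamma0 (N * q)) →+ ℤ, IsParabolicHom (Gamma0 (N * q)) ψ' ∧
          aeval (s59m1aTc (⟨⟨ℓ₀, hℓ₀⟩, h₂⟩ : GoodPrime (N * q) p) ℤ) P
              (aeval (s59m1aTc (⟨⟨ℓ₀, hℓ₀⟩, h₂⟩ : GoodPrime (N * q) p) ℤ) P ψ)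
            - ((q + 1) ^ 2 : ℕ) • ψ = p ^ n • ψ') := by
  have hp : p.Prime := Fact.out
  have hp0 : p ≠ 0 := hp.ne_zero
  have hprod : ESDataInf (N * q) p (PDiv (N * q) p × PDiv N p) :=
    stb_p1_esDataInf_prod (dvd_mul_right N q) hJ' hJ
  obtain ⟨A₀, σ, hA₀, hσ⟩ := Fermat.Agent.Common.exists_isFrobeniusAt q hq
  obtain ⟨ℓ, hℓ, m, hℓS, H⟩ := s59m1a_exists_approx_lucas hcheb hprod S hgood n σ
  have hℓ2 : ¬ ℓ ∣ N * q * p := hgood ℓ hℓ hℓS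
  obtain ⟨hlow, hnew⟩ := s59m1a_pair_of_approx hJ hNF hq hqN hqp A₀ hA₀ σ hσ n _ H
  have hP : (aeval (heckeGen ⟨ℓ, hℓ⟩) (s59m1aLucas ℓ m) : HeckeAlg) =
      lucasS (heckeGen ⟨ℓ, hℓ⟩) (ℓ : HeckeAlg) m := s59m1a_aeval_lucas _ ℓ m
  refine ⟨ℓ, hℓ, hℓ2, hℓS, s59m1aLucas ℓ m, ?_, ?_⟩
  · intro φ hφ
    obtain ⟨x, hx, hpx, hμx⟩ := hμ.surj_pDiv φ hφ n
    have hxx : p ^ n • (⟨x, hx⟩ : PDiv N p) = 0 := (pDiv_smul_eq_zero_iff _ _).mpr hpx
    have h1 := hlow ⟨x, hx⟩ hxx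
    rw [← hP] at h1
    have h2 := congrArg hμ.toHom h1
    rw [s59m1a_toHom_aeval hμ (⟨⟨ℓ, hℓ⟩, s59m1a_not_dvd_low hℓ2⟩ : GoodPrime N p) _ n _ hxx]
      at h2
    have e1 : hμ.toHom (heckeGen ⟨q, hq⟩ • (⟨x, hx⟩ : PDiv N p)) =
        heckeOp N p (⟨⟨q, hq⟩, s59m1a_not_dvd_q hq hqN hqp⟩ : GoodPrime N p) A
          (hμ.toHom ⟨x, hx⟩) :=
      (congrArg hμ.toHom (hμ.heckeGen_smul ⟨q, hq⟩ ⟨x, hx⟩)).trans
        (hμ.toHom_pDivOp (⟨⟨q, hq⟩, s59m1a_not_dvd_q hq hqN hqp⟩ : GoodPrime N p) ⟨x, hx⟩)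
    have h2' := h2.trans e1
    have h3 : hμ.toHom (⟨x, hx⟩ : PDiv N p) = (e n).comp φ := hμx
    rw [h3, s59m1a_aeval_natural, heckeOp_natural] at h2'
    have hmem : IsParabolicHom (Gamma0 N)
        (aeval (s59m1aTc (⟨⟨ℓ, hℓ⟩, s59m1a_not_dvd_low hℓ2⟩ : GoodPrime N p) ℤ)
            (s59m1aLucas ℓ m) φ
          - heckeOp N p (⟨⟨q, hq⟩, s59m1a_not_dvd_q hq hqN hqp⟩ : GoodPrime N p) ℤ φ) :=
      mem_intHoms_parabolicSet.1 ((intHoms (Gamma0 N) (parabolicSet N)).sub_mem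
        (mem_intHoms_parabolicSet.2 (s59m1a_aeval_mem _ _ φ hφ))
        (heckeOp_mem_intHoms _ φ (mem_intHoms_parabolicSet.2 hφ)))
    have h4 : (e n).comp
        (aeval (s59m1aTc (⟨⟨ℓ, hℓ⟩, s59m1a_not_dvd_low hℓ2⟩ : GoodPrime N p) ℤ)
            (s59m1aLucas ℓ m) φ
          - heckeOp N p (⟨⟨q, hq⟩, s59m1a_not_dvd_q hq hqN hqp⟩ : GoodPrime N p) ℤ φ) = 0 := by
      refine DFunLike.ext _ _ fun g => ?_
      have := DFunLike.congr_fun h2' g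
      simp only [AddMonoidHom.comp_apply] at this
      simp only [AddMonoidHom.comp_apply, AddMonoidHom.sub_apply, map_sub, this, sub_self,
        AddMonoidHom.zero_apply]
    exact s59m1a_divisible hμ hp0 n _ hmem h4
  · intro ψ hψ hc hd
    obtain ⟨y, hy, hpy, hμy⟩ := hμ'.surj_pDiv ψ hψ n
    have hyy : p ^ n • (⟨y, hy⟩ : PDiv (N * q) p) = 0 := (pDiv_smul_eq_zero_iff _ _).mpr hpy
    have hC0 := stmtC0 N q
    have hnewy : y ∈ stbNew N q := by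
      refine hdeg y hy.1 ?_ ?_
      · rw [hμy, (hC0 ℤ A' (e' n) ψ).1, hc, AddMonoidHom.comp_zero]
      · rw [hμy, (hC0 ℤ A' (e' n) ψ).2, hd, AddMonoidHom.comp_zero]
    have h1 := hnew ⟨y, hy⟩ hyy hnewy
    rw [← hP] at h1
    have hQ : (aeval (heckeGen ⟨ℓ, hℓ⟩) (s59m1aLucas ℓ m) *
          aeval (heckeGen ⟨ℓ, hℓ⟩) (s59m1aLucas ℓ m) - (((q + 1) ^ 2 : ℕ) : HeckeAlg)) =
        aeval (heckeGen ⟨ℓ, hℓ⟩)
          (s59m1aLucas ℓ m * s59m1aLucas ℓ m - (((q + 1) ^ 2 : ℕ) : Polynomial ℤ)) := by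
      rw [map_sub, map_mul, map_natCast]
    rw [hQ] at h1
    have h2 := congrArg hμ'.toHom h1
    rw [s59m1a_toHom_aeval hμ' (⟨⟨ℓ, hℓ⟩, hℓ2⟩ : GoodPrime (N * q) p) _ n _ hyy, map_zero] at h2
    have h3 : hμ'.toHom (⟨y, hy⟩ : PDiv (N * q) p) = (e' n).comp ψ := hμy
    rw [h3, s59m1a_aeval_natural] at h2
    obtain ⟨D', hD', hDeq⟩ := s59m1a_divisible hμ' hp0 n _ (s59m1a_aeval_mem _ _ ψ hψ) h2
    refine ⟨D', hD', ?_⟩
    rw [← hDeq, map_sub, map_mul, map_natCast, LinearMap.sub_apply, Module.End.mul_apply,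
      Module.End.natCast_apply]

end Lat

end Fermat.Agent.S59
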