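import Fermat.Agent.S59.Eta.Mult1aAbs2
import Fermat.Agent.S59.Eta.Mult1aLat

/-!
# S59, R2 (ETA′), piece E-MULT1a — the main statement (helper71)

"No `q`-new eigenvector at level `N q` with an eigensystem of level `N`", in the shape-agnostic
form of helper75's `s59tq_main` (`S59/Eta/TqMain.lean`):

`𝒪` a discrete valuation ring with `p ∈ 𝔪_𝒪`; `L`, `L₁` finite torsion-free `𝒪`-modules with
endomorphisms `T ℓ`, `T₁ ℓ` and additive maps `j : Hom_par(Γ₀(N), ℤ) → L`,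
`j₁ : Hom_par(Γ₀(N q), ℤ) → L₁` intertwining `Tc ℓ` with `T ℓ`, `T₁ ℓ`; the image of `j` spans `L`.
(Example: `L = 𝒪 ⊗ Lpar N`, `L₁ = 𝒪 ⊗ Lpar (N q)`, `j = 1 ⊗ ·`.)

`s59m1a_main` : let `x ∈ L`, `x ≠ 0`, with `T ℓ x = a ℓ • x` for the primes `ℓ ∉ S`, and assume
E-PET on `L` (`T_q² z = (q + 1)² z → z = 0`).  If `u` lies in the `𝒪`-span of the images of the
`q`-new integral classes (`cores ψ = 0 = coresD ψ`) and `T₁ ℓ u = a ℓ • u` for the primes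
`ℓ ∉ S`, then `u = 0`.

The arithmetic input is `hlat` = the conclusion of `s59m1a_lat` (`S59/Eta/Mult1aLat.lean`).
-/

set_option autoImplicit false
set_option linter.unusedSectionVars false
set_option linter.unusedVariables false

noncomputable section

namespace Fermat.Agent.S59

open ModularCurve CongruenceSubgroup ModularCurve.Period Fermat.Agent.ES Fermat.Agent.S31
  Fermat.Agent.S30 Fermat.Agent.S41 Polynomial IsLocalRing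
open scoped MatrixGroups

/-! ## Intertwining polynomials in one Hecke operator -/

section Intertwine

variable {M p : ℕ} {𝒪 L : Type} [CommRing 𝒪] [AddCommGroup L] [Module 𝒪 L]

/-- `j` intertwines `P(T_ℓ)` on the lattice with `P(T)` on `L` -/
theorem s59m1a_aeval_intertwine (ℓ : GoodPrime M p) (T : Module.End 𝒪 L) (j : ↥(Lpar M) →+ L)
    (hT : ∀ φ ψ : ↥(Lpar M), (ψ : HomG M ℤ) = heckeOp M p ℓ ℤ (φ : HomG M ℤ) → T (j φ) = j ψ)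
    (P : Polynomial ℤ) (φ ψ : ↥(Lpar M))
    (h : (ψ : HomG M ℤ) = aeval (s59m1aTc ℓ ℤ) P (φ : HomG M ℤ)) :
    aeval T P (j φ) = j ψ := by
  induction P using Polynomial.induction_on generalizing φ ψ with
  | C r =>
    rw [aeval_C, Module.algebraMap_end_apply] at h
    rw [aeval_C, Module.algebraMap_end_apply]
    have h1 : ψ = r • φ := Subtype.ext h
    rw [h1, map_zsmul]
  | add f g hf hg =>
    rw [map_add, LinearMap.add_apply] at h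
    rw [map_add, LinearMap.add_apply,
      hf φ ⟨aeval (s59m1aTc ℓ ℤ) f (φ : HomG M ℤ), s59m1a_aeval_mem ℓ f _ φ.2⟩ rfl,
      hg φ ⟨aeval (s59m1aTc ℓ ℤ) g (φ : HomG M ℤ), s59m1a_aeval_mem ℓ g _ φ.2⟩ rfl,
      ← map_add]
    congr 1
    exact Subtype.ext h.symm
  | monomial n r ih =>
    have e1 : (C r * X ^ (n + 1) : Polynomial ℤ) = (C r * X ^ n) * X := by
      rw [pow_succ, mul_assoc]
    rw [e1, map_mul, aeval_X, Module.End.mul_apply] at h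
    rw [e1, map_mul, aeval_X, Module.End.mul_apply]
    have hmem : IsParabolicHom (Gamma0 M) (heckeOp M p ℓ ℤ (φ : HomG M ℤ)) :=
      mem_intHoms_parabolicSet.1 (heckeOp_mem_intHoms ℓ _ (mem_intHoms_parabolicSet.2 φ.2))
    rw [hT φ ⟨heckeOp M p ℓ ℤ (φ : HomG M ℤ), hmem⟩ rfl]
    exact ih _ ψ h

end Intertwine

/-! ## The main statement -/

section Main

variable {N q p : ℕ} [NeZero N] [NeZero q] [Fact p.Prime]
  {𝒪 L L₁ : Type} [CommRing 𝒪] [IsDomain 𝒪] [IsDiscreteValuationRing 𝒪]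
  [AddCommGroup L] [Module 𝒪 L] [Module.Finite 𝒪 L] [NoZeroSMulDivisors 𝒪 L]
  [AddCommGroup L₁] [Module 𝒪 L₁] [Module.Finite 𝒪 L₁] [NoZeroSMulDivisors 𝒪 L₁]

/-- **E-MULT1a** (from the lattice statement `hlat` = conclusion of `s59m1a_lat`). -/
theorem s59m1a_main (hp𝒪 : (p : 𝒪) ∈ maximalIdeal 𝒪)
    (hq : q.Prime) (hqN : ¬ q ∣ N) (hqp : q ≠ p) (S : Finset ℕ)
    (hlat : ∀ n : ℕ,
      ∃ (ℓ₀ : ℕ) (hℓ₀ : ℓ₀.Prime) (h₂ : ¬ ℓ₀ ∣ N * q * p) (_ : ℓ₀ ∉ S) (P : Polynomial ℤ),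
      (∀ φ : Additive (Gamma0 N) →+ ℤ, IsParabolicHom (Gamma0 N) φ →
        ∃ φ' : Additive (Gamma0 N) →+ ℤ, IsParabolicHom (Gamma0 N) φ' ∧
          aeval (s59m1aTc (⟨⟨ℓ₀, hℓ₀⟩, s59m1a_not_dvd_low h₂⟩ : GoodPrime N p) ℤ) P φ
            - heckeOp N p (⟨⟨q, hq⟩, s59m1a_not_dvd_q hq hqN hqp⟩ : GoodPrime N p) ℤ φ
              = p ^ n • φ') ∧
      (∀ ψ : Additive (Gamma0 (N * q)) →+ ℤ, IsParabolicHom (Gamma0 (N * q)) ψ →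
        cores N q ℤ ψ = 0 → coresD N q ℤ ψ = 0 →
        ∃ ψ' : Additive (Gamma0 (N * q)) →+ ℤ, IsParabolicHom (Gamma0 (N * q)) ψ' ∧
          aeval (s59m1aTc (⟨⟨ℓ₀, hℓ₀⟩, h₂⟩ : GoodPrime (N * q) p) ℤ) P
              (aeval (s59m1aTc (⟨⟨ℓ₀, hℓ₀⟩, h₂⟩ : GoodPrime (N * q) p) ℤ) P ψ)
            - ((q + 1) ^ 2 : ℕ) • ψ = p ^ n • ψ'))
    (T : ℕ → Module.End 𝒪 L) (T₁ : ℕ → Module.End 𝒪 L₁)
    (j : ↥(Lpar N) →+ L) (j₁ : ↥(Lpar (N * q)) →+ L₁)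
    (hj : Submodule.span 𝒪 (Set.range j) = ⊤)
    (hT : ∀ (ℓ : ℕ) [Fact ℓ.Prime] (hℓ : ¬ ℓ ∣ N), ℓ ≠ p → ∀ φ ψ : ↥(Lpar N),
      (ψ : HomG N ℤ) = Tc ℓ hℓ (φ : HomG N ℤ) → T ℓ (j φ) = j ψ)
    (hT₁ : ∀ (ℓ : ℕ) [Fact ℓ.Prime] (hℓ : ¬ ℓ ∣ N * q), ℓ ≠ p → ∀ φ ψ : ↥(Lpar (N * q)),
      (ψ : HomG (N * q) ℤ) = Tc ℓ hℓ (φ : HomG (N * q) ℤ) → T₁ ℓ (j₁ φ) = j₁ ψ)
    (a : ℕ → 𝒪)
    (x : L) (hx0 : x ≠ 0) (hx : ∀ ℓ : ℕ, ℓ.Prime → ℓ ∉ S → T ℓ x = a ℓ • x)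
    (hpet : ∀ z : L, T q (T q z) = ((q : 𝒪) + 1) ^ 2 • z → z = 0)
    (u : L₁)
    (hunew : u ∈ Submodule.span 𝒪 (j₁ '' {ψ : ↥(Lpar (N * q)) |
      cores N q ℤ (ψ : HomG (N * q) ℤ) = 0 ∧ coresD N q ℤ (ψ : HomG (N * q) ℤ) = 0}))
    (hu : ∀ ℓ : ℕ, ℓ.Prime → ℓ ∉ S → T₁ ℓ u = a ℓ • u) : u = 0 := by
  refine s59m1a_abs_pet hp𝒪 (T q) (q : 𝒪) hx0 u (fun n => ?_) hpet
  obtain ⟨ℓ₀, hℓ₀, h₂, hℓ₀S, P, hlow, hnew⟩ := hlat n
  have : Fact ℓ₀.Prime := ⟨hℓ₀⟩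
  have : Fact q.Prime := ⟨hq⟩
  have hℓ₀p : ℓ₀ ≠ p := ne_of_not_dvd_mul h₂
  have hℓ₀N : ¬ ℓ₀ ∣ N := fun h => s59m1a_not_dvd_low h₂ (dvd_mul_of_dvd_left h p)
  have hℓ₀Nq : ¬ ℓ₀ ∣ N * q := fun h => h₂ (dvd_mul_of_dvd_left h p)
  refine ⟨T ℓ₀, T₁ ℓ₀, a ℓ₀, P, hx ℓ₀ hℓ₀ hℓ₀S, hu ℓ₀ hℓ₀ hℓ₀S, ?_, ?_⟩
  · -- level `N`
    have hall : ∀ z ∈ Submodule.span 𝒪 (Set.range j),
        ∃ z' : L, (aeval (T ℓ₀) P) z - T q z = (p : 𝒪) ^ n • z' := by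
      intro z hz
      induction hz using Submodule.span_induction with
      | mem v hv =>
        obtain ⟨φ, rfl⟩ := hv
        obtain ⟨φ', hφ', hφeq⟩ := hlow (φ : HomG N ℤ) φ.2
        refine ⟨j ⟨φ', hφ'⟩, ?_⟩
        have h1 := s59m1a_aeval_intertwine
          (⟨⟨ℓ₀, hℓ₀⟩, s59m1a_not_dvd_low h₂⟩ : GoodPrime N p) (T ℓ₀) j
          (fun φ ψ h => hT ℓ₀ hℓ₀N hℓ₀p φ ψ h) P φ
          ⟨_, s59m1a_aeval_mem (⟨⟨ℓ₀, hℓ₀⟩, s59m1a_not_dvd_low h₂⟩ : GoodPrime N p) P _ φ.2⟩ rfl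
        have hqmem : IsParabolicHom (Gamma0 N)
            (heckeOp N p (⟨⟨q, hq⟩, s59m1a_not_dvd_q hq hqN hqp⟩ : GoodPrime N p) ℤ
              (φ : HomG N ℤ)) :=
          mem_intHoms_parabolicSet.1 (heckeOp_mem_intHoms _ _ (mem_intHoms_parabolicSet.2 φ.2))
        have h2 : T q (j φ) = j ⟨_, hqmem⟩ := hT q hqN hqp φ ⟨_, hqmem⟩ rfl
        rw [h1, h2, ← map_sub, ← Nat.cast_pow, Nat.cast_smul_eq_nsmul, ← map_nsmul]
        congr 1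
        exact Subtype.ext hφeq
      | zero => exact ⟨0, by simp⟩
      | add v w _ _ hv hw =>
        obtain ⟨v', hv'⟩ := hv
        obtain ⟨w', hw'⟩ := hw
        refine ⟨v' + w', ?_⟩
        rw [map_add, map_add, smul_add, ← hv', ← hw']
        abel
      | smul c v _ hv =>
        obtain ⟨v', hv'⟩ := hv
        refine ⟨c • v', ?_⟩
        rw [map_smul, map_smul, ← smul_sub, hv', smul_comm]
    exact hall x (by rw [hj]; exact Submodule.mem_top)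
  · -- level `N q`, the `q`-new part
    have hall : ∀ v ∈ Submodule.span 𝒪 (j₁ '' {ψ : ↥(Lpar (N * q)) |
        cores N q ℤ (ψ : HomG (N * q) ℤ) = 0 ∧ coresD N q ℤ (ψ : HomG (N * q) ℤ) = 0}),
        ∃ u' : L₁, (aeval (T₁ ℓ₀) P) ((aeval (T₁ ℓ₀) P) v) - ((q : 𝒪) + 1) ^ 2 • v =
          (p : 𝒪) ^ n • u' := by
      intro v hv
      induction hv using Submodule.span_induction with
      | mem v hv =>
        obtain ⟨ψ, ⟨hc, hd⟩, rfl⟩ := hv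
        obtain ⟨ψ', hψ', hψeq⟩ := hnew (ψ : HomG (N * q) ℤ) ψ.2 hc hd
        refine ⟨j₁ ⟨ψ', hψ'⟩, ?_⟩
        have hI := s59m1a_aeval_intertwine
          (⟨⟨ℓ₀, hℓ₀⟩, h₂⟩ : GoodPrime (N * q) p) (T₁ ℓ₀) j₁
          (fun φ ψ h => hT₁ ℓ₀ hℓ₀Nq hℓ₀p φ ψ h) P
        have m1 := s59m1a_aeval_mem (⟨⟨ℓ₀, hℓ₀⟩, h₂⟩ : GoodPrime (N * q) p) P _ ψ.2
        have m2 := s59m1a_aeval_mem (⟨⟨ℓ₀, hℓ₀⟩, h₂⟩ : GoodPrime (N * q) p) P _ m1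
        rw [hI ψ ⟨_, m1⟩ rfl, hI ⟨_, m1⟩ ⟨_, m2⟩ rfl]
        have e2 : ((q : 𝒪) + 1) ^ 2 • j₁ ψ = j₁ (((q + 1) ^ 2 : ℕ) • ψ) := by
          rw [map_nsmul, ← Nat.cast_smul_eq_nsmul 𝒪]
          push_cast
          rfl
        rw [e2, ← map_sub, ← Nat.cast_pow, Nat.cast_smul_eq_nsmul, ← map_nsmul]
        congr 1
        exact Subtype.ext hψeq
      | zero => exact ⟨0, by simp⟩
      | add v w _ _ hv hw =>
        obtain ⟨v', hv'⟩ := hv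
        obtain ⟨w', hw'⟩ := hw
        refine ⟨v' + w', ?_⟩
        rw [smul_add ((p : 𝒪) ^ n), ← hv', ← hw']
        simp only [map_add, smul_add]
        abel
      | smul c v _ hv =>
        obtain ⟨v', hv'⟩ := hv
        refine ⟨c • v', ?_⟩
        rw [smul_comm ((p : 𝒪) ^ n) c v', ← hv']
        simp only [map_smul, smul_sub]
        rw [smul_comm c (((q : 𝒪) + 1) ^ 2) v]
    exact hall u hunew

end Main

end Fermat.Agent.S59
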