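import Mathlib
import Fermat.Agent.S59.Eta.Mult1bConc
import Fermat.Agent.S59.Eta.Asm

/-!
# S59, wall R2 (ETA′), piece E-MULT1b — `hrat` of E-ASM (helper8)

The hypothesis `s59asm_HRat 𝒪 N q p ψ` of the step `s59asm_step` (helper72, `S59/Eta/Asm.lean`)
from the two multiplicity-one statements in the shapes of `S59/Eta/Mult1bConc.lean`, for the
family of the good primes `S59asmI N q p` (`ℓ ∤ N q q`, `ℓ ≠ p`):

* `s59m1r_asm1a 𝒪 N q p ψ` = `s59m1r_StmtMult1a` for that family (E-MULT1a, helper71);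
* `s59m1r_asm1b 𝒪 N q p ψ` = `s59m1r_StmtMult1b` for that family (E-MULT1b, helper31);
* `s59m1r_HRat_asm` : one nonzero `ψ`-eigenvector of level `N` + (1a) + (1b) ⇒ `s59asm_HRat`;
* `s59m1r_step_asm` : the step `s59asm_step` with `hrat` replaced by (1a) + (1b).
-/

set_option autoImplicit false
set_option linter.unusedSectionVars false
set_option linter.unusedVariables false
set_option linter.style.haveILetI false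

noncomputable section

open TensorProduct

namespace Fermat.Agent.S59

open CongruenceSubgroup Fermat.Agent.S41 IsLocalRing

section asm

variable (𝒪 : Type) [CommRing 𝒪] (N q p : ℕ) [NeZero N] [NeZero q]

/-- **E-MULT1a** for the good primes of the step: a `ψ`-eigenvector of `𝒪 ⊗ Lpar (N q)` killed
by `cores` and `cores^δ` vanishes. -/
def s59m1r_asm1a (ψ : ℕ → 𝒪) : Prop :=
  s59m1r_StmtMult1a 𝒪 N q (fun i : S59asmI N q p => i.1) (hℓ := fun i => i.fact)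
    (fun i => s59bc_not_dvd_mid N q i.1 i.2.2.1) (fun i => ψ i.1)

/-- **E-MULT1b** for the good primes of the step: a `ψ`-eigenvector of `𝒪 ⊗ Lpar (N q q)` killed
by `cores` and `cores^δ` to the level `N q` vanishes. -/
def s59m1r_asm1b (ψ : ℕ → 𝒪) : Prop :=
  s59m1r_StmtMult1b 𝒪 N q (fun i : S59asmI N q p => i.1) (hℓ := fun i => i.fact)
    (fun i => i.2.2.1) (fun i => ψ i.1)

variable [IsDomain 𝒪] [IsDiscreteValuationRing 𝒪] [CharZero 𝒪] [Fact p.Prime]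
  [hq : Fact q.Prime]

/-- **`hrat` of E-ASM** from (1a) + (1b) and one nonzero `ψ`-eigenvector of level `N`. -/
theorem s59m1r_HRat_asm (hp𝒪 : (p : 𝒪) ∈ maximalIdeal 𝒪) (hqN : ¬ q ∣ N) (hqp : q ≠ p)
    (ψ : ℕ → 𝒪) (x : s59asmL 𝒪 N) (hx : x ∈ s59asmE 𝒪 N p ψ) (hx0 : x ≠ 0)
    (h1a : s59m1r_asm1a 𝒪 N q p ψ) (h1b : s59m1r_asm1b 𝒪 N q p ψ) :
    s59asm_HRat 𝒪 N q p ψ := by
  intro y' hy'
  rw [← s59asm_E'_eq 𝒪 N q p ψ] at hy'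
  exact s59m1r_hrat_conc 𝒪 N q (fun i : S59asmI N q p => i.1) (hℓ := fun i => i.fact) hqN
    (fun i => i.not_dvd) (fun i => s59bc_not_dvd_mid N q i.1 i.2.2.1) (fun i => i.2.2.1)
    (fun i => ψ i.1) (ψ q)
    (s59asm_hTQ 𝒪 p N q hp𝒪 hqN hqp ψ x hx hx0) h1a h1b y' hy'

/-- **the step of R2 with `hrat` discharged**: only (1a), (1b) and the two non-Eisenstein units
are left. -/
theorem s59m1r_step_asm [IsAdicComplete (maximalIdeal 𝒪) 𝒪] (hp2 : p ≠ 2)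
    (hp𝒪 : (p : 𝒪) ∈ maximalIdeal 𝒪)
    (hqN : ¬ q ∣ N) (hqp : q ≠ p) (ψ : ℕ → 𝒪)
    (ℓ₁ ℓ₂ : ℕ) (h₁ : ℓ₁.Prime) (h₂ : ℓ₂.Prime) (h₁N : ¬ ℓ₁ ∣ N * q * q)
    (h₂N : ¬ ℓ₂ ∣ N * q * q) (h₁p : ℓ₁ ≠ p) (h₂p : ℓ₂ ≠ p)
    (hu₁ : IsUnit (ψ ℓ₁ - ((ℓ₁ : 𝒪) + 1))) (hu₂ : IsUnit (ψ ℓ₂ - ((ℓ₂ : 𝒪) + 1)))
    (h1a : s59m1r_asm1a 𝒪 N q p ψ) (h1b : s59m1r_asm1b 𝒪 N q p ψ)
    (x : s59asmL 𝒪 N) (hx : x ∈ s59asmE 𝒪 N p ψ) (hx0 : x ≠ 0) :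
    s59asmJ 𝒪 (N * q * q) p ψ (s59asmDep 𝒪 N q (ψ q) x) ≤
      Ideal.span {((q : 𝒪) - 1) * (ψ q ^ 2 - ((q : 𝒪) + 1) ^ 2)} * s59asmJ 𝒪 N p ψ x :=
  s59asm_step 𝒪 p N q hp2 hp𝒪 hqN hqp ψ ℓ₁ ℓ₂ h₁ h₂ h₁N h₂N h₁p h₂p hu₁ hu₂
    (s59m1r_HRat_asm 𝒪 N q p hp𝒪 hqN hqp ψ x hx hx0 h1a h1b) x hx hx0

end asm

end Fermat.Agent.S59
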