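import Fermat.Agent.S59.Eta.Mult1bMain
import Fermat.Agent.S59.Eta.Mult1bAsm

/-!
# S59, R2, piece E-MULT1b (helper31): the adapter to the assembled step (helper8's `s59m1r_asm1b`)

`s59m1b_asm1b` : `s59m1r_asm1b 𝒪 N q p ψ` (E-MULT1b for the family `S59asmI N q p` of the good
primes of the step, `ψ : ℕ → 𝒪`) from

* one nonzero `ψ`-eigenvector `x₀ ∈ s59asmE 𝒪 N p ψ` of level `N`,
* `hU` : `ψ` is residually absolutely irreducible (pseudo-character form; helper8's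
  `s59m1u_hU`, helper58's `s59m1bu_hU`),
* μDEG at `(N q, q)` (helper84's Props).
-/

set_option autoImplicit false
set_option linter.unusedSectionVars false
set_option linter.unusedVariables false
set_option linter.style.haveILetI false

noncomputable section

namespace Fermat.Agent.S59

open ModularCurve Fermat.Agent.ES Fermat.Agent.S31 Fermat.Agent.S32 Fermat.Agent.S30
open Fermat.Agent.S36 Fermat.Agent.STB Fermat.Agent.S41 CongruenceSubgroup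
open scoped MatrixGroups

/-- **E-MULT1b for the assembled step.** -/
theorem s59m1b_asm1b {N q p : ℕ} [NeZero N] [NeZero q] [hqF : Fact q.Prime]
    [Fact p.Prime] (hqN : ¬ q ∣ N) (hqp : q ≠ p) (hp2 : p ≠ 2)
    (𝒪 : Type) [CommRing 𝒪] [IsDomain 𝒪] [IsDiscreteValuationRing 𝒪]
    [IsAdicComplete (IsLocalRing.maximalIdeal 𝒪) 𝒪] [CharZero 𝒪]
    (hp𝒪 : (p : 𝒪) ∈ IsLocalRing.maximalIdeal 𝒪)
    (ψ : ℕ → 𝒪)
    (x₀ : s59asmL 𝒪 N) (hx₀ : x₀ ≠ 0) (hx₀E : x₀ ∈ s59asmE 𝒪 N p ψ)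
    (hU : ∀ t₀ : GQ → 𝒪,
      IsPseudoChar2 (cycloCharO p (IsLocalRing.maximalIdeal 𝒪) hp𝒪) t₀ →
      (∀ ℓ : ℕ, ℓ.Prime → ¬ ℓ ∣ N * q * q → ℓ ≠ p →
        ∀ A : ValuationSubring (AlgebraicClosure ℚ), A.LiesOverPrime ℓ →
          ∀ τ : GQ, A.IsFrobeniusAt τ ℓ → t₀ τ = ψ ℓ) →
      (∀ k : ℕ, ∃ E : IntermediateField ℚ (AlgebraicClosure ℚ), FiniteDimensional ℚ E ∧
        ∀ σ : GQ, (∀ a ∈ E, σ a = a) → ∀ g : GQ,
          t₀ (σ * g) - t₀ g ∈ IsLocalRing.maximalIdeal 𝒪 ^ k) →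
      ∃ g₁ g₂ g₃ : GQ, t₀ (g₁ * g₂ * g₃) - t₀ (g₂ * g₁ * g₃) ∉ IsLocalRing.maximalIdeal 𝒪)
    (hα : s59mud_RelAlphaAt (N * q) q) (hβ : s59mud_RelBetaAt (N * q) q) :
    s59m1r_asm1b 𝒪 N q p ψ := by
  have hq : q.Prime := hqF.out
  have hp : p.Prime := Fact.out
  have hM0 : N * q * q * p ≠ 0 :=
    Nat.mul_ne_zero (Nat.mul_ne_zero (Nat.mul_ne_zero (NeZero.ne N) hq.ne_zero) hq.ne_zero)
      hp.ne_zero
  set S : Finset ℕ := (N * q * q * p).primeFactors with hS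
  have hpS : p ∈ S := Nat.mem_primeFactors.mpr ⟨hp, dvd_mul_left p _, hM0⟩
  have hMS : ∀ r : ℕ, r.Prime → r ∣ N * q * q → r ∈ S := fun r hr h =>
    Nat.mem_primeFactors.mpr ⟨hr, dvd_mul_of_dvd_left h p, hM0⟩
  have hnotS : ∀ r : ℕ, r.Prime → r ∉ S → ¬ r ∣ N * q * q ∧ r ≠ p := by
    intro r hr hrS
    refine ⟨fun h => hrS (hMS r hr h), ?_⟩
    rintro rfl
    exact hrS hpS
  haveI : ∀ i : S59asmI N q p, Fact i.1.Prime := fun i => i.fact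
  unfold s59m1r_asm1b
  refine s59m1b_mult1b hqN hqp hp2 S hpS hMS 𝒪 hp𝒪 (fun i : S59asmI N q p => i.1)
    (hℓ := fun i => i.fact) (fun i => i.not_dvd) (fun i => i.2.2.1) ?_ (fun i => ψ i.1) x₀ hx₀
    ?_ ?_ hα hβ
  · intro r hr hrS
    obtain ⟨h1, h2⟩ := hnotS r hr hrS
    exact ⟨⟨r, hr, h1, h2⟩, rfl⟩
  · intro i
    haveI := i.fact
    exact hx₀E i.1 i.not_dvd i.2.2.2
  · intro t₀ hps h4 h6
    refine hU t₀ hps (fun ℓ hℓ hℓM hℓp A hA τ hτ => ?_) h6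
    have hℓS : ℓ ∉ S := by
      intro h
      obtain ⟨-, hd, -⟩ := Nat.mem_primeFactors.mp h
      rcases (Nat.Prime.dvd_mul hℓ).mp hd with h1 | h1
      · exact hℓM h1
      · exact hℓp ((Nat.prime_dvd_prime_iff_eq hℓ hp).mp h1)
    exact h4 (⟨ℓ, hℓ, hℓM, hℓp⟩ : S59asmI N q p) hℓS A hA τ hτ

end Fermat.Agent.S59
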