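/-
S59 Route A, ETA′, E-MULT1b, leaf (B-abs) (helper32; shape of helper31): a nonzero eigenvector in
`𝒪 ⊗ Λ` makes the eigen-character faithful on the torsion module `X`, as soon as there are
Hecke-equivariant maps `r_n : Λ → X[pⁿ]` with kernel `pⁿ Λ`.  Mathlib only.

Proof: `𝒪 ⊗ Λ` is a finite `𝒪`-module, so (Krull) there is `c` with `y ∉ p^c (𝒪 ⊗ Λ)`; take
`n = k + c`.  If `h` kills `X[pⁿ]` then `T h v ∈ pⁿ Λ` for all `v`, so `χ(h) y = (1 ⊗ T h) y ∈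
pⁿ (𝒪 ⊗ Λ)`.  In the valuation ring `𝒪` either `pᵏ ∣ χ(h)` or `pᵏ = χ(h) b`; in the second case
`pᵏ y = pᵏ p^c (b z)`, so `y ∈ p^c (𝒪 ⊗ Λ)`: contradiction.
-/
import Mathlib

set_option autoImplicit false

namespace Fermat.Agent.S59

open TensorProduct

/-- if `f v ∈ m Λ` for all `v` then `(1 ⊗ f) y ∈ m (𝒪 ⊗ Λ)` for all `y`. -/
theorem s59m1bb_lTensor_div {𝒪 : Type} [CommRing 𝒪] {Λ : Type} [AddCommGroup Λ]
    (f : Λ →ₗ[ℤ] Λ) (m : ℕ) (hf : ∀ v, ∃ w : Λ, f v = m • w) (y : 𝒪 ⊗[ℤ] Λ) :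
    ∃ z : 𝒪 ⊗[ℤ] Λ, LinearMap.lTensor 𝒪 f y = (m : 𝒪) • z := by
  induction y using TensorProduct.induction_on with
  | zero => exact ⟨0, by simp⟩
  | tmul a v =>
    obtain ⟨w, hw⟩ := hf v
    refine ⟨a ⊗ₜ[ℤ] w, ?_⟩
    rw [LinearMap.lTensor_tmul, hw, ← natCast_zsmul, TensorProduct.tmul_smul,
      ← Int.cast_smul_eq_zsmul 𝒪, Int.cast_natCast]
  | add x y hx hy =>
    obtain ⟨zx, hzx⟩ := hx
    obtain ⟨zy, hzy⟩ := hy
    exact ⟨zx + zy, by rw [map_add, hzx, hzy, smul_add]⟩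

/-- Krull: a nonzero element of a finite module over a DVR is not divisible by all powers of a
non-unit. -/
theorem s59m1bb_exists_not_div {𝒪 : Type} [CommRing 𝒪] [IsDomain 𝒪] [IsDiscreteValuationRing 𝒪]
    (ϖ : 𝒪) (hϖ : ϖ ∈ IsLocalRing.maximalIdeal 𝒪)
    {M : Type} [AddCommGroup M] [Module 𝒪 M] [Module.Finite 𝒪 M] (y : M) (hy : y ≠ 0) :
    ∃ c : ℕ, ∀ z : M, y ≠ ϖ ^ c • z := by
  by_contra hcon
  push Not at hcon
  apply hy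
  have hI : Ideal.span {ϖ} ≠ ⊤ := by
    intro h
    rw [Ideal.span_singleton_eq_top] at h
    exact (IsLocalRing.mem_maximalIdeal _).1 hϖ h
  have hkr := Ideal.iInf_pow_smul_eq_bot_of_isLocalRing (Ideal.span {ϖ}) (M := M) hI
  have hmem : y ∈ (⨅ i : ℕ, (Ideal.span {ϖ}) ^ i • ⊤ : Submodule 𝒪 M) := by
    rw [Submodule.mem_iInf]
    intro i
    obtain ⟨z, hz⟩ := hcon i
    rw [hz, Ideal.span_singleton_pow]
    exact Submodule.smul_mem_smul (Ideal.mem_span_singleton_self _) Submodule.mem_top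
  rw [hkr] at hmem
  exact (Submodule.mem_bot _).1 hmem

/-- **(B-abs)** of E-MULT1b: a nonzero `χ`-eigenvector `y ∈ 𝒪 ⊗ Λ` and Hecke-equivariant maps
`r_n : Λ → X[pⁿ]` with kernel `pⁿ Λ` make `χ` faithful on `X`: if `h` kills `X[pⁿ]`, `n ≫ k`, then
`χ h ∈ (pᵏ)`. -/
theorem s59m1bb_good_abs {𝒪 : Type} [CommRing 𝒪] [IsDomain 𝒪] [IsDiscreteValuationRing 𝒪]
    (p : ℕ) (hp : (p : 𝒪) ∈ IsLocalRing.maximalIdeal 𝒪) (hp0 : (p : 𝒪) ≠ 0)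
    {H : Type} (Hs : Set H)
    {Λ : Type} [AddCommGroup Λ] [Module.Free ℤ Λ] [Module.Finite ℤ Λ] (T : H → Λ →ₗ[ℤ] Λ)
    {X : Type} [AddCommGroup X] (TX : H → X →+ X)
    (r : ℕ → Λ →+ X)
    (hr_ker : ∀ n (v : Λ), r n v = 0 → ∃ w : Λ, v = (p ^ n : ℕ) • w)
    (hr_tors : ∀ n (v : Λ), (p ^ n : ℕ) • r n v = 0)
    (hr_eq : ∀ n, ∀ h ∈ Hs, ∀ v : Λ, r n (T h v) = TX h (r n v))
    (χ : H → 𝒪) (y : TensorProduct ℤ 𝒪 Λ) (hy : y ≠ 0)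
    (hyeig : ∀ h ∈ Hs, LinearMap.lTensor 𝒪 (T h) y = χ h • y) :
    ∀ k : ℕ, ∃ n : ℕ, ∀ h ∈ Hs, (∀ x : X, (p ^ n : ℕ) • x = 0 → TX h x = 0) →
      χ h ∈ Ideal.span {(p : 𝒪) ^ k} := by
  obtain ⟨c, hc⟩ := s59m1bb_exists_not_div (p : 𝒪) hp y hy
  intro k
  refine ⟨k + c, fun h hh hkill => ?_⟩
  have hdiv : ∀ v, ∃ w : Λ, T h v = (p ^ (k + c) : ℕ) • w := fun v =>
    hr_ker (k + c) (T h v) (by rw [hr_eq _ h hh, hkill _ (hr_tors _ v)])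
  obtain ⟨z, hz⟩ := s59m1bb_lTensor_div (𝒪 := 𝒪) (T h) (p ^ (k + c)) hdiv y
  rw [hyeig h hh] at hz
  rcases ValuationRing.dvd_total ((p : 𝒪) ^ k) (χ h) with hd | hd
  · exact Ideal.mem_span_singleton.2 hd
  · exfalso
    obtain ⟨b, hb⟩ := hd
    apply hc (b • z)
    have hpk : (p : 𝒪) ^ k ≠ 0 := pow_ne_zero _ hp0
    have hkey : (p : 𝒪) ^ k • y = (p : 𝒪) ^ k • ((p : 𝒪) ^ c • b • z) := by
      calc (p : 𝒪) ^ k • y = (b * χ h) • y := by rw [hb, mul_comm]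
        _ = b • (((p ^ (k + c) : ℕ) : 𝒪) • z) := by rw [mul_smul, hz]
        _ = (p : 𝒪) ^ k • ((p : 𝒪) ^ c • b • z) := by
          push_cast
          rw [smul_smul, smul_smul, smul_smul]
          congr 1
          ring
    exact smul_right_injective _ hpk hkey

end Fermat.Agent.S59
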