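import Fermat.Agent.S59.Eta.AsmM1b
import Fermat.Agent.S59.Eta.Mult1bAsmB
import Fermat.Agent.S59.Eta.MuDegDivA
import Fermat.Agent.S59.Eta.MuDegDivB

/-!
# S59, R2, piece E-MULT1b — FINAL, unconditional in μDEG (helper31)

μDEG at `(N q, q)` is proved: `α`-half `s59muda_relAlphaAt_mul` (helper75, MuDegDivA.lean),
`β`-half `s59mudd_relBetaAt_mul` (helper31, MuDegDivB.lean).  So E-MULT1b has NO open input left:

* **`s59m1b_M1b_W`** : `s59asm_M1b 𝒪 N q p ψ` (helper72's shape, AsmRat.lean) for an eigensystem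
  `ψ` which occurs at level `N` and is congruent to `W` outside a finite set (`W[p]` irreducible);
* **`s59m1b_asm1b_done`** : `s59m1r_asm1b 𝒪 N q p ψ` (helper8's shape) from `x₀` and `hU`;
* `s59m1b_new_done` : (R4) at `(N q, q)`: a torsion point of `J₀(N q²)` whose multiplier
  character is killed by `cores` and `coresD` is `q`-new.
-/

set_option autoImplicit false
set_option linter.unusedSectionVars false
set_option linter.unusedVariables false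
set_option linter.style.haveILetI false
set_option linter.style.longLine false

noncomputable section

namespace Fermat.Agent.S59

open TensorProduct CongruenceSubgroup Fermat.Agent.S41 IsLocalRing
open Fermat.Agent.ES Fermat.Agent.S30 Fermat.Agent.S31 Fermat.Agent.STB

section Done

variable {N q p : ℕ} [NeZero N] [NeZero q] [hq : Fact q.Prime] [Fact p.Prime]

/-- **E-MULT1b at the step `(N, q)`, no open input** (helper72's shape `s59asm_M1b`). -/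
theorem s59m1b_M1b_W (hqN : ¬ q ∣ N) (hqp : q ≠ p) (hp2 : p ≠ 2)
    (𝒪 : Type) [CommRing 𝒪] [IsDomain 𝒪] [IsDiscreteValuationRing 𝒪]
    [IsAdicComplete (maximalIdeal 𝒪) 𝒪] [CharZero 𝒪] (hp𝒪 : (p : 𝒪) ∈ maximalIdeal 𝒪)
    (ψ : ℕ → 𝒪) (x₀ : s59asmL 𝒪 N) (hx₀ : x₀ ≠ 0) (hx₀E : x₀ ∈ s59asmE 𝒪 N p ψ)
    (W : WeierstrassCurve ℤ) (hΔ : W.Δ ≠ 0) (hirr : W.ModRepIsIrreducible p)
    (S₀ : Finset ℕ)
    (hψW : ∀ r : ℕ, r.Prime → r ∉ S₀ → r ≠ p → ¬ (r : ℤ) ∣ W.Δ →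
      ψ r - ((W.apOfModel r : ℤ) : 𝒪) ∈ maximalIdeal 𝒪) :
    s59asm_M1b 𝒪 N q p ψ :=
  s59asm_M1b_of_W hqN hqp hp2 𝒪 hp𝒪 ψ x₀ hx₀ hx₀E W hΔ hirr S₀ hψW
    (s59muda_relAlphaAt_mul N q hq.out) (s59mudd_relBetaAt_mul N q hq.out)

/-- **E-MULT1b for the assembled step, no open input** (helper8's shape `s59m1r_asm1b`), from one
eigenvector of level `N` and `hU`. -/
theorem s59m1b_asm1b_done (hqN : ¬ q ∣ N) (hqp : q ≠ p) (hp2 : p ≠ 2)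
    (𝒪 : Type) [CommRing 𝒪] [IsDomain 𝒪] [IsDiscreteValuationRing 𝒪]
    [IsAdicComplete (maximalIdeal 𝒪) 𝒪] [CharZero 𝒪]
    (hp𝒪 : (p : 𝒪) ∈ maximalIdeal 𝒪)
    (ψ : ℕ → 𝒪)
    (x₀ : s59asmL 𝒪 N) (hx₀ : x₀ ≠ 0) (hx₀E : x₀ ∈ s59asmE 𝒪 N p ψ)
    (hU : ∀ t₀ : GQ → 𝒪,
      IsPseudoChar2 (cycloCharO p (maximalIdeal 𝒪) hp𝒪) t₀ →
      (∀ ℓ : ℕ, ℓ.Prime → ¬ ℓ ∣ N * q * q → ℓ ≠ p →
        ∀ A : ValuationSubring (AlgebraicClosure ℚ), A.LiesOverPrime ℓ →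
          ∀ τ : GQ, A.IsFrobeniusAt τ ℓ → t₀ τ = ψ ℓ) →
      (∀ k : ℕ, ∃ E : IntermediateField ℚ (AlgebraicClosure ℚ), FiniteDimensional ℚ E ∧
        ∀ σ : GQ, (∀ a ∈ E, σ a = a) → ∀ g : GQ,
          t₀ (σ * g) - t₀ g ∈ maximalIdeal 𝒪 ^ k) →
      ∃ g₁ g₂ g₃ : GQ, t₀ (g₁ * g₂ * g₃) - t₀ (g₂ * g₁ * g₃) ∉ maximalIdeal 𝒪) :
    s59m1r_asm1b 𝒪 N q p ψ :=
  s59m1b_asm1b hqN hqp hp2 𝒪 hp𝒪 ψ x₀ hx₀ hx₀E hU
    (s59muda_relAlphaAt_mul N q hq.out) (s59mudd_relBetaAt_mul N q hq.out)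

end Done

/-- **(R4) at `(M, q)`, `q ∣ M` prime, unconditional**: a torsion point of `J₀(M q)` whose
multiplier character is killed by `cores` and `coresD` is `q`-new. -/
theorem s59m1b_new_done {M q : ℕ} [NeZero M] [NeZero q] (hq : q.Prime) (hqM : q ∣ M) {n : ℕ}
    (hn : 0 < n) {x : ModularCurve.JZero (M * q)} (hx : n • x = 0)
    (h1 : cores M q (Additive ℂˣ) (muMap (M * q) x) = 0)
    (h2 : coresD M q (Additive ℂˣ) (muMap (M * q) x) = 0) : x ∈ stbNew M q :=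
  s59mud_mem_stbNew (s59muda_relAlphaAt hq hqM) (s59mudd_relBetaAt hq hqM) hn hx h1 h2

end Fermat.Agent.S59
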