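import Fermat.Agent.S59.Eta.TransBC
import Fermat.Agent.S59.Eta.BCLin
import Fermat.Agent.S59.Eta.BCBase

/-!
# S59, R2, piece E-MULT1b (helper31): **(P1)** the eigen-character of an eigenvector, and the flat
base change of the `q²`-new sublattice

* `s59m1bx_char_of_eigen` : (abstract) a nonzero common eigenvector of a commutative family of
  endomorphisms of a torsion-free module defines a ring homomorphism (its eigen-character);
* `s59m1bx_exists_lift`, `s59m1bx_subtype_injective` : (abstract) flat base change of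
  `ker c₂ ⊓ ker e₂`;
* `s59m1bx_exists_char` : a nonzero `y ∈ 𝒪 ⊗ Lpar M` with `(T_ℓ ⊗ 1) y = ψ(ℓ) y` for the good
  primes has an eigen-character `χ : heckeAlgebra M 2 S →+* 𝒪`, `χ (T_ℓ) = ψ(ℓ)`,
  `(Θ t ⊗ 1) y = χ(t) y` (`Θ` = E-TRANS, helper70).
-/

set_option autoImplicit false
set_option linter.unusedSectionVars false
set_option linter.unusedVariables false
set_option linter.style.haveILetI false

noncomputable section

open TensorProduct

namespace Fermat.Agent.S59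

open CongruenceSubgroup Matrix ModularCurve Fermat.Agent.S41
open scoped MatrixGroups

/-- eigen-character of a common eigenvector: a nonzero vector `y` of a torsion-free module which
is an eigenvector of every `Φ t` defines a ring homomorphism `χ` with `Φ t y = χ t • y`. -/
theorem s59m1bx_char_of_eigen {𝒪 T V : Type} [CommRing 𝒪] [IsDomain 𝒪] [CommRing T]
    [AddCommGroup V] [Module 𝒪 V] [NoZeroSMulDivisors 𝒪 V]
    (Φ : T →+* Module.End 𝒪 V) (y : V) (hy : y ≠ 0) (h : ∀ t : T, ∃ a : 𝒪, Φ t y = a • y) :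
    ∃ χ : T →+* 𝒪, ∀ t : T, Φ t y = χ t • y := by
  classical
  choose c hc using h
  have huniq : ∀ a b : 𝒪, a • y = b • y → a = b := by
    intro a b hab
    have h0 : (a - b) • y = 0 := by rw [sub_smul, hab, sub_self]
    rcases smul_eq_zero.mp h0 with h1 | h1
    · exact sub_eq_zero.mp h1
    · exact absurd h1 hy
  refine ⟨{ toFun := c
            map_one' := ?_
            map_mul' := ?_
            map_zero' := ?_
            map_add' := ?_ }, hc⟩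
  · apply huniq
    rw [← hc, map_one, one_smul, Module.End.one_apply]
  · intro a b
    apply huniq
    rw [← hc, map_mul, Module.End.mul_apply, hc b, map_smul, hc a, smul_smul, mul_comm]
  · apply huniq
    rw [← hc, map_zero, zero_smul, LinearMap.zero_apply]
  · intro a b
    apply huniq
    rw [← hc, map_add, LinearMap.add_apply, hc a, hc b, add_smul]

/-- a vector of `𝒪 ⊗ (A × B)` whose two components vanish is zero -/
theorem s59m1bx_prod_eq_zero {𝒪 A B : Type} [CommRing 𝒪] [AddCommGroup A] [AddCommGroup B]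
    (z : 𝒪 ⊗[ℤ] (A × B))
    (h1 : (LinearMap.fst ℤ A B).baseChange 𝒪 z = 0)
    (h2 : (LinearMap.snd ℤ A B).baseChange 𝒪 z = 0) : z = 0 := by
  have hid : (LinearMap.inl ℤ A B).comp (LinearMap.fst ℤ A B) +
      (LinearMap.inr ℤ A B).comp (LinearMap.snd ℤ A B) = LinearMap.id := by
    ext x <;> simp
  have e : z = (LinearMap.id : A × B →ₗ[ℤ] A × B).baseChange 𝒪 z := by
    rw [LinearMap.baseChange_id]; rfl
  rw [e, ← hid, LinearMap.baseChange_add, LinearMap.baseChange_comp, LinearMap.baseChange_comp,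
    LinearMap.add_apply, LinearMap.comp_apply, LinearMap.comp_apply, h1, h2, map_zero, map_zero,
    add_zero]

/-- **flat base change of a kernel**: a vector of `𝒪 ⊗ Λ'` killed by `c₂ ⊗ 1` and `e₂ ⊗ 1` comes
from `𝒪 ⊗ (ker c₂ ⊓ ker e₂)`. -/
theorem s59m1bx_exists_lift {𝒪 Λ' Λ₁ : Type} [CommRing 𝒪] [Module.Flat ℤ 𝒪] [AddCommGroup Λ']
    [AddCommGroup Λ₁] (c₂ e₂ : Λ' →ₗ[ℤ] Λ₁) (y' : 𝒪 ⊗[ℤ] Λ')
    (h1 : c₂.baseChange 𝒪 y' = 0) (h2 : e₂.baseChange 𝒪 y' = 0) :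
    ∃ y : 𝒪 ⊗[ℤ] ↥(LinearMap.ker c₂ ⊓ LinearMap.ker e₂),
      (LinearMap.ker c₂ ⊓ LinearMap.ker e₂).subtype.baseChange 𝒪 y = y' := by
  set f : Λ' →ₗ[ℤ] Λ₁ × Λ₁ := c₂.prod e₂ with hf
  have hker : LinearMap.ker f = LinearMap.ker c₂ ⊓ LinearMap.ker e₂ := LinearMap.ker_prod c₂ e₂
  have hex : Function.Exact (LinearMap.ker c₂ ⊓ LinearMap.ker e₂).subtype f := by
    rw [← hker]
    exact LinearMap.exact_subtype_ker_map f
  have hex' := Module.Flat.lTensor_exact 𝒪 hex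
  have hz : f.lTensor 𝒪 y' = 0 := by
    have e0 : f.lTensor 𝒪 y' = f.baseChange 𝒪 y' := by
      rw [LinearMap.baseChange_eq_ltensor]
    rw [e0]
    apply s59m1bx_prod_eq_zero
    · rw [← LinearMap.comp_apply, ← LinearMap.baseChange_comp]
      have : (LinearMap.fst ℤ Λ₁ Λ₁).comp f = c₂ := LinearMap.fst_prod c₂ e₂
      rw [this, h1]
    · rw [← LinearMap.comp_apply, ← LinearMap.baseChange_comp]
      have : (LinearMap.snd ℤ Λ₁ Λ₁).comp f = e₂ := LinearMap.snd_prod c₂ e₂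
      rw [this, h2]
  obtain ⟨y, hy⟩ := (hex' y').mp hz
  refine ⟨y, ?_⟩
  rw [← hy]
  have := LinearMap.baseChange_eq_ltensor (R := ℤ) (A := 𝒪)
    (LinearMap.ker c₂ ⊓ LinearMap.ker e₂).subtype
  exact congrFun this y

/-- injectivity of `incl ⊗ 1` for a flat algebra -/
theorem s59m1bx_subtype_injective {𝒪 Λ' : Type} [CommRing 𝒪] [Module.Flat ℤ 𝒪] [AddCommGroup Λ']
    (K : Submodule ℤ Λ') : Function.Injective (K.subtype.baseChange 𝒪) := by
  have h := Module.Flat.lTensor_preserves_injective_linearMap (M := 𝒪) K.subtype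
    K.injective_subtype
  have e := LinearMap.baseChange_eq_ltensor (R := ℤ) (A := 𝒪) K.subtype
  intro a b hab
  apply h
  have ha := congrFun e a
  have hb := congrFun e b
  rw [← ha, ← hb]
  exact hab

section conc

variable {M : ℕ} [NeZero M]

/-- the two restrictions of `Tc ℓ` to `Lpar M` (helper70's and helper36's) agree -/
theorem s59m1bx_trTc_eq (ℓ : ℕ) [Fact ℓ.Prime] (hℓM : ¬ ℓ ∣ M) :
    s59trTc M ℓ hℓM = s59bcTcZ M ℓ hℓM :=
  LinearMap.ext fun y => Subtype.ext rfl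

/-- **(P1)** the eigen-character of a nonzero eigenvector of `𝒪 ⊗ Lpar M`. -/
theorem s59m1bx_exists_char (S : Finset ℕ)
    (hS : ∀ r : ℕ, r.Prime → r ∣ M → r ∈ (↑S : Set ℕ))
    (𝒪 : Type) [CommRing 𝒪] [IsDomain 𝒪] [CharZero 𝒪]
    {ι : Type} (ℓ : ι → ℕ) [hℓ : ∀ i, Fact (ℓ i).Prime] (hℓM : ∀ i, ¬ ℓ i ∣ M)
    (hcov : ∀ r : ℕ, r.Prime → r ∉ S → ∃ i, ℓ i = r)
    (ψ : ι → 𝒪) (y : s59bccL 𝒪 (Lpar M)) (hy : y ≠ 0)
    (hyeig : ∀ i, s59bccMap 𝒪 (s59bcTcZ M (ℓ i) (hℓM i)) y = ψ i • y) :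
    ∃ χ : CuspForm.heckeAlgebra M 2 (↑S : Set ℕ) →+* 𝒪,
      (∀ t, (s59trTheta hS t).baseChange 𝒪 y = χ t • y) ∧
      ∀ (i : ι) (hiS : ℓ i ∉ (↑S : Set ℕ)),
        χ (CuspForm.heckeAlgebra.T (hℓ i).out (hℓM i) hiS) = ψ i := by
  haveI : NoZeroSMulDivisors 𝒪 (s59bccL 𝒪 (Lpar M)) := s59bcc_noZeroSMulDivisors 𝒪 (Lpar M)
  set Φ : CuspForm.heckeAlgebra M 2 (↑S : Set ℕ) →+* Module.End 𝒪 (𝒪 ⊗[ℤ] ↥(Lpar M)) :=
    (Module.End.baseChangeHom ℤ 𝒪 ↥(Lpar M)).toRingHom.comp (s59trTheta hS) with hΦ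
  have hΦapp : ∀ t, Φ t = (s59trTheta hS t).baseChange 𝒪 := fun t => rfl
  have hgen : ∀ i (hiS : ℓ i ∉ (↑S : Set ℕ)),
      Φ (CuspForm.heckeAlgebra.T (hℓ i).out (hℓM i) hiS) y = ψ i • y := by
    intro i hiS
    rw [hΦapp, s59trTheta_T hS (ℓ i) (hℓM i) hiS, s59m1bx_trTc_eq]
    exact hyeig i
  have hall : ∀ (x : Module.End ℂ (CuspForm (Gamma0 M) 2))
      (hx : x ∈ CuspForm.heckeAlgebra M 2 (↑S : Set ℕ)), ∃ a : 𝒪, Φ ⟨x, hx⟩ y = a • y := by
    intro x hx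
    induction hx using Algebra.adjoin_induction with
    | mem x hx =>
      rcases hx with ⟨r, hr, hrN, hrS, rfl⟩ | ⟨q', hq'N, hq', hq'S, rfl⟩
      · obtain ⟨i, hi⟩ := hcov r hr hrS
        subst hi
        exact ⟨ψ i, hgen i hrS⟩
      · exact (hq'S (hS q' hq' hq'N)).elim
    | algebraMap r =>
      refine ⟨(r : 𝒪), ?_⟩
      have e : (⟨algebraMap ℤ (Module.End ℂ (CuspForm (Gamma0 M) 2)) r,
          Subalgebra.algebraMap_mem _ r⟩ : CuspForm.heckeAlgebra M 2 (↑S : Set ℕ)) =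
          ((r : ℤ) : CuspForm.heckeAlgebra M 2 (↑S : Set ℕ)) := by
        apply Subtype.ext
        simp
      rw [e, map_intCast, Module.End.intCast_apply, Int.cast_smul_eq_zsmul]
    | add x₁ x₂ h₁ h₂ ih₁ ih₂ =>
      obtain ⟨a₁, e₁⟩ := ih₁
      obtain ⟨a₂, e₂⟩ := ih₂
      refine ⟨a₁ + a₂, ?_⟩
      have e : (⟨x₁ + x₂, Subalgebra.add_mem _ h₁ h₂⟩ : CuspForm.heckeAlgebra M 2 (↑S : Set ℕ))
          = ⟨x₁, h₁⟩ + ⟨x₂, h₂⟩ := rfl
      rw [e, map_add, LinearMap.add_apply, e₁, e₂, add_smul]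
    | mul x₁ x₂ h₁ h₂ ih₁ ih₂ =>
      obtain ⟨a₁, e₁⟩ := ih₁
      obtain ⟨a₂, e₂⟩ := ih₂
      refine ⟨a₂ * a₁, ?_⟩
      have e : (⟨x₁ * x₂, Subalgebra.mul_mem _ h₁ h₂⟩ : CuspForm.heckeAlgebra M 2 (↑S : Set ℕ))
          = ⟨x₁, h₁⟩ * ⟨x₂, h₂⟩ := rfl
      rw [e, map_mul, Module.End.mul_apply, e₂, map_smul, e₁, smul_smul]
  obtain ⟨χ, hχ⟩ := s59m1bx_char_of_eigen Φ y hy (fun t => hall t.1 t.2)
  refine ⟨χ, fun t => (hΦapp t) ▸ hχ t, fun i hiS => ?_⟩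
  have h1 := hχ (CuspForm.heckeAlgebra.T (hℓ i).out (hℓM i) hiS)
  rw [hgen i hiS] at h1
  have h0 : (ψ i - χ (CuspForm.heckeAlgebra.T (hℓ i).out (hℓM i) hiS)) • y = 0 := by
    rw [sub_smul, h1, sub_self]
  rcases smul_eq_zero.mp h0 with h2 | h2
  · exact (sub_eq_zero.mp h2).symm
  · exact absurd h2 hy

end conc

end Fermat.Agent.S59
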