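import Fermat.Agent.S59.Eta.Mult1bJ
import Fermat.Agent.S59.Eta.Mult1bX
import Fermat.Agent.S59.Eta.Mult1bB
import Fermat.Agent.S59.Eta.Mult1bConc
import Fermat.Agent.S59.Eta.MuDegAt
import Fermat.Agent.S41.TransferFormula

/-!
# S59, R2, piece E-MULT1b (helper31): **(1b)** in the literal shape `s59m1r_StmtMult1b`

`M = N q q`, `q ∤ N` prime, `p ≠ q` an odd prime, `𝒪` a complete discrete valuation ring of
characteristic `0` with `p ∈ 𝔪`, `ℓ i` the family of good primes (covering all primes outside the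
finite set `S ∋ p`, `S ⊇ {r ∣ N q q}`), `ψ : ι → 𝒪` an eigensystem which OCCURS at level `N`
(`x₀ ≠ 0` in `𝒪 ⊗ Lpar N`) and is residually absolutely irreducible (`hU`).

`s59m1b_mult1b_of_R` : **E-MULT1b** (`s59m1r_StmtMult1b 𝒪 N q ℓ hNqq ψ`, helper8's Prop) from

* `hα`, `hβ` : μDEG at `(N q, q)` (helper84's Props `s59mud_RelAlphaAt/BetaAt (N * q) q`);
* `hR` : the maps `r_n : Lpar M → PDiv M p`, `μ (r_n v) = e(v / pⁿ)` (piece (P2), helper58).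

Everything else is discharged: (G36-J) (S36), the engine (h8′), the rigidity of pseudo-characters
(C2a, helper58), the eigen-characters (P1), the flat base change of the `q²`-new sublattice,
(B-abs) (helper32).
-/

set_option autoImplicit false
set_option linter.unusedSectionVars false
set_option linter.unusedVariables false
set_option linter.style.haveILetI false

noncomputable section

open TensorProduct

namespace Fermat.Agent.S59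

open ModularCurve Fermat.Agent.ES Fermat.Agent.S31 Fermat.Agent.S32 Fermat.Agent.S30
open Fermat.Agent.S36 Fermat.Agent.STB Fermat.Agent.S41 CongruenceSubgroup
open scoped MatrixGroups

/-- the shape of piece (P2): the maps `r_n : Lpar M → PDiv M p` with `μ (r_n v) = e(v / pⁿ)`. -/
def s59m1b_StmtR (M p : ℕ) [NeZero M] : Prop :=
  ∃ r : ℕ → ↥(Lpar M) →+ PDiv M p,
    (∀ (n : ℕ) (v : ↥(Lpar M)),
      muMap M ((r n v : PDiv M p) : JZero M) = (expHom (p ^ n)).comp (v : HomG M ℤ)) ∧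
    (∀ (n : ℕ) (v : ↥(Lpar M)), p ^ n • r n v = 0) ∧
    (∀ (n : ℕ) (v : ↥(Lpar M)), r n v = 0 → ∃ w : ↥(Lpar M), v = (p ^ n : ℕ) • w) ∧
    (∀ (n : ℕ) (ℓ' : ℕ) [hℓ' : Fact ℓ'.Prime] (hℓM : ¬ ℓ' ∣ M) (hℓMp : ¬ ℓ' ∣ M * p)
      (v : ↥(Lpar M)), r n (s59bcTcZ M ℓ' hℓM v) =
        (letI := pDivModule M p; heckeGen ⟨ℓ', hℓ'.out⟩ • r n v))

/-- transfer of an eigen-equation along `incl ⊗ 1` (generic) -/
theorem s59m1b_eig_transfer {𝒪 Λ' : Type} [CommRing 𝒪] [Module.Flat ℤ 𝒪] [AddCommGroup Λ']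
    (K : Submodule ℤ Λ') (T : ↥K →ₗ[ℤ] ↥K) (Θ : Λ' →ₗ[ℤ] Λ')
    (hT : ∀ v : ↥K, ((T v : ↥K) : Λ') = Θ (v : Λ')) (y : 𝒪 ⊗[ℤ] ↥K) (a : 𝒪)
    (h : Θ.baseChange 𝒪 (K.subtype.baseChange 𝒪 y) = a • K.subtype.baseChange 𝒪 y) :
    LinearMap.lTensor 𝒪 T y = a • y := by
  apply s59m1bx_subtype_injective (𝒪 := 𝒪) K
  have e2 : LinearMap.lTensor 𝒪 T y = T.baseChange 𝒪 y := by
    rw [LinearMap.baseChange_eq_ltensor]
  have e3 : K.subtype.comp T = Θ.comp K.subtype := LinearMap.ext fun v => hT v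
  have e4 : K.subtype.baseChange 𝒪 (T.baseChange 𝒪 y) =
      (K.subtype.comp T).baseChange 𝒪 y := by
    rw [LinearMap.baseChange_comp]
    rfl
  have e5 : (Θ.comp K.subtype).baseChange 𝒪 y = Θ.baseChange 𝒪 (K.subtype.baseChange 𝒪 y) := by
    rw [LinearMap.baseChange_comp]
    rfl
  rw [e2, e4, e3, e5, h, map_smul]

section Theta

variable {M : ℕ} [NeZero M] (S : Finset ℕ)
  (hMS' : ∀ r : ℕ, r.Prime → r ∣ M → r ∈ (↑S : Set ℕ))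

/-- the action of the Hecke polynomials on `Lpar M` (through E-TRANS) -/
def s59m1bTheta : HeckeAlg →+* Module.End ℤ ↥(Lpar M) :=
  (s59trTheta hMS').comp (evalS M (↑S : Set ℕ)).toRingHom

theorem s59m1bTheta_apply (h : HeckeAlg) :
    s59m1bTheta S hMS' h = s59trTheta hMS' (evalS M (↑S : Set ℕ) h) := rfl

theorem s59m1bTheta_X (ℓ' : Nat.Primes) (hℓS : (ℓ' : ℕ) ∉ (↑S : Set ℕ))
    (hℓM : ¬ (ℓ' : ℕ) ∣ M) :
    s59m1bTheta S hMS' (MvPolynomial.X ℓ') =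
      (haveI : Fact (ℓ' : ℕ).Prime := ⟨ℓ'.2⟩; s59bcTcZ M (ℓ' : ℕ) hℓM) := by
  haveI : Fact (ℓ' : ℕ).Prime := ⟨ℓ'.2⟩
  have e1 : evalS M (↑S : Set ℕ) (MvPolynomial.X ℓ') =
      CuspForm.heckeAlgebra.T ℓ'.2 hℓM hℓS := evalS_heckeGen ℓ'.2 hℓM hℓS
  rw [s59m1bTheta_apply, e1, s59trTheta_T hMS' (ℓ' : ℕ) hℓM hℓS, s59m1bx_trTc_eq]

/-- induction principle for the Hecke polynomials outside `S` acting on `Lpar M` -/
theorem s59m1bTheta_induction (P : HeckeAlg → Module.End ℤ ↥(Lpar M) → Prop)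
    (hX : ∀ (ℓ' : ℕ) [Fact ℓ'.Prime] (hℓS : ℓ' ∉ S) (hℓM : ¬ ℓ' ∣ M),
      P (MvPolynomial.X ⟨ℓ', Fact.out⟩) (s59bcTcZ M ℓ' hℓM))
    (hC : ∀ a : ℤ, P (algebraMap ℤ HeckeAlg a) (a : Module.End ℤ ↥(Lpar M)))
    (hadd : ∀ h₁ h₂ f₁ f₂, P h₁ f₁ → P h₂ f₂ → P (h₁ + h₂) (f₁ + f₂))
    (hmul : ∀ h₁ h₂ f₁ f₂, P h₁ f₁ → P h₂ f₂ → P (h₁ * h₂) (f₁ * f₂))
    (h : HeckeAlg) (hh : h ∈ MvPolynomial.supported ℤ (outsideVars (↑S : Set ℕ))) :
    P h (s59m1bTheta S hMS' h) := by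
  rw [MvPolynomial.supported_eq_adjoin_X] at hh
  induction hh using Algebra.adjoin_induction with
  | mem x hx =>
    obtain ⟨ℓ', hℓ', rfl⟩ := hx
    have hℓS : (ℓ' : ℕ) ∉ (↑S : Set ℕ) := hℓ'
    have hℓM : ¬ (ℓ' : ℕ) ∣ M := fun h => hℓS (hMS' _ ℓ'.2 h)
    haveI : Fact (ℓ' : ℕ).Prime := ⟨ℓ'.2⟩
    rw [s59m1bTheta_X S hMS' ℓ' hℓS hℓM]
    exact hX (ℓ' : ℕ) (fun h => hℓS (Finset.mem_coe.mpr h)) hℓM
  | algebraMap a =>
    have e1 : s59m1bTheta S hMS' (algebraMap ℤ HeckeAlg a) =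
        (a : Module.End ℤ ↥(Lpar M)) := by
      rw [eq_intCast, map_intCast]
    rw [e1]
    exact hC a
  | add x₁ x₂ _ _ ih₁ ih₂ =>
    rw [map_add]
    exact hadd _ _ _ _ ih₁ ih₂
  | mul x₁ x₂ _ _ ih₁ ih₂ =>
    rw [map_mul]
    exact hmul _ _ _ _ ih₁ ih₂

end Theta

section New

variable (N q : ℕ) [NeZero N] [NeZero q]

/-- the `q²`-new sublattice of `Lpar (N q q)` -/
def s59m1bK : Submodule ℤ ↥(Lpar (N * q * q)) :=
  LinearMap.ker (s59bcCoresZ (N * q) q) ⊓ LinearMap.ker (s59bcCoresDZ (N * q) q)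

variable {N q}

theorem s59m1b_mem_K {v : ↥(Lpar (N * q * q))} :
    v ∈ s59m1bK N q ↔ s59bcCoresZ (N * q) q v = 0 ∧ s59bcCoresDZ (N * q) q v = 0 := Iff.rfl

/-- the Hecke polynomials outside `S` preserve the `q²`-new sublattice -/
theorem s59m1bTheta_mem_K (S : Finset ℕ)
    (hMS' : ∀ r : ℕ, r.Prime → r ∣ N * q * q → r ∈ (↑S : Set ℕ))
    (h : HeckeAlg) (hh : h ∈ MvPolynomial.supported ℤ (outsideVars (↑S : Set ℕ)))
    (v : ↥(Lpar (N * q * q))) (hv : v ∈ s59m1bK N q) :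
    s59m1bTheta S hMS' h v ∈ s59m1bK N q := by
  revert v
  refine s59m1bTheta_induction S hMS' (fun _ f => ∀ v ∈ s59m1bK N q, f v ∈ s59m1bK N q)
    ?_ ?_ ?_ ?_ h hh
  · intro ℓ' _ hℓS hℓM v hv
    have hℓNq : ¬ ℓ' ∣ N * q := fun h => hℓM (dvd_mul_of_dvd_left h q)
    rw [s59m1b_mem_K] at hv ⊢
    rw [s59bcCoresZ_Tc (N * q) q ℓ' hℓNq hℓM v, s59bcCoresDZ_Tc (N * q) q ℓ' hℓNq hℓM v,
      hv.1, hv.2, map_zero]
    exact ⟨rfl, rfl⟩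
  · intro a v hv
    rw [Module.End.intCast_apply]
    exact (s59m1bK N q).smul_mem a hv
  · intro h₁ h₂ f₁ f₂ ih₁ ih₂ v hv
    rw [LinearMap.add_apply]
    exact (s59m1bK N q).add_mem (ih₁ v hv) (ih₂ v hv)
  · intro h₁ h₂ f₁ f₂ ih₁ ih₂ v hv
    rw [Module.End.mul_apply]
    exact ih₁ _ (ih₂ v hv)

/-- flat base change: a `q²`-new vector of `𝒪 ⊗ Lpar (N q q)` comes from `𝒪 ⊗ K`. -/
theorem s59m1b_exists_lift_K (𝒪 : Type) [CommRing 𝒪] [Module.Flat ℤ 𝒪]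
    (y' : s59bccL 𝒪 (Lpar (N * q * q)))
    (hc : s59bccMap 𝒪 (s59bcCoresZ (N * q) q) y' = 0)
    (he : s59bccMap 𝒪 (s59bcCoresDZ (N * q) q) y' = 0) :
    ∃ y : 𝒪 ⊗[ℤ] ↥(s59m1bK N q), (s59m1bK N q).subtype.baseChange 𝒪 y = y' :=
  s59m1bx_exists_lift (𝒪 := 𝒪) (s59bcCoresZ (N * q) q) (s59bcCoresDZ (N * q) q) y' hc he

end New

section R

variable {M p : ℕ} [NeZero M] [Fact p.Prime] (S : Finset ℕ)
  (hMS' : ∀ r : ℕ, r.Prime → r ∣ M → r ∈ (↑S : Set ℕ))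

/-- the maps `r_n` are equivariant for the Hecke polynomials outside `S` -/
theorem s59m1b_r_equivariant (hpS : p ∈ S) (r' : ℕ → ↥(Lpar M) →+ PDiv M p)
    (hR3 : ∀ (n : ℕ) (ℓ' : ℕ) [hℓ' : Fact ℓ'.Prime] (hℓM : ¬ ℓ' ∣ M) (hℓMp : ¬ ℓ' ∣ M * p)
      (v : ↥(Lpar M)), r' n (s59bcTcZ M ℓ' hℓM v) =
        (letI := pDivModule M p; heckeGen ⟨ℓ', hℓ'.out⟩ • r' n v))
    (h : HeckeAlg) (hh : h ∈ MvPolynomial.supported ℤ (outsideVars (↑S : Set ℕ)))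
    (n : ℕ) (v : ↥(Lpar M)) :
    r' n (s59m1bTheta S hMS' h v) = (letI := pDivModule M p; h • r' n v) := by
  letI := pDivModule M p
  have hp : p.Prime := Fact.out
  revert v
  refine s59m1bTheta_induction S hMS'
    (fun h f => ∀ v : ↥(Lpar M), r' n (f v) = h • r' n v) ?_ ?_ ?_ ?_ h hh
  · intro ℓ' hF hℓS hℓM v
    have hℓMp : ¬ ℓ' ∣ M * p := by
      intro h
      rcases (Nat.Prime.dvd_mul hF.out).mp h with h | h
      · exact hℓM h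
      · have : ℓ' = p := (Nat.prime_dvd_prime_iff_eq hF.out hp).mp h
        exact hℓS (this ▸ hpS)
    exact hR3 n ℓ' hℓM hℓMp v
  · intro a v
    rw [Module.End.intCast_apply, map_zsmul, eq_intCast, Int.cast_smul_eq_zsmul]
  · intro h₁ h₂ f₁ f₂ ih₁ ih₂ v
    rw [LinearMap.add_apply, map_add, ih₁, ih₂, add_smul]
  · intro h₁ h₂ f₁ f₂ ih₁ ih₂ v
    rw [Module.End.mul_apply, ih₁, ih₂, mul_smul]

end R

section Main

variable {N q p : ℕ} [NeZero N] [NeZero q] [Fact p.Prime]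

/-- **(R4)**: `r_n` maps the `q²`-new sublattice into the `q²`-new part of `J₀(N q q)`. -/
theorem s59m1b_r_mem_new (hα : s59mud_RelAlphaAt (N * q) q) (hβ : s59mud_RelBetaAt (N * q) q)
    (r' : ℕ → ↥(Lpar (N * q * q)) →+ PDiv (N * q * q) p)
    (hR0 : ∀ (n : ℕ) (v : ↥(Lpar (N * q * q))),
      muMap (N * q * q) ((r' n v : PDiv (N * q * q) p) : JZero (N * q * q)) =
        (expHom (p ^ n)).comp (v : HomG (N * q * q) ℤ))
    (hR1 : ∀ (n : ℕ) (v : ↥(Lpar (N * q * q))), p ^ n • r' n v = 0)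
    (n : ℕ) (v : ↥(Lpar (N * q * q))) (hv : v ∈ s59m1bK N q) :
    ((r' n v : PDiv (N * q * q) p) : JZero (N * q * q)) ∈ stbNew (N * q) q := by
  have hp : p.Prime := Fact.out
  rw [s59m1b_mem_K] at hv
  have hn : 0 < p ^ n := pow_pos hp.pos n
  have hx : p ^ n • ((r' n v : PDiv (N * q * q) p) : JZero (N * q * q)) = 0 := by
    rw [← coe_nsmul_pDiv, hR1 n v]
    rfl
  have hC0 := stmtC0 (N * q) q ℤ (Additive ℂˣ) (expHom (p ^ n)) (v : HomG (N * q * q) ℤ)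
  have h1 : cores (N * q) q ℤ (v : HomG (N * q * q) ℤ) = 0 :=
    congrArg (fun w : ↥(Lpar (N * q)) => (w : HomG (N * q) ℤ)) hv.1
  have h2 : coresD (N * q) q ℤ (v : HomG (N * q * q) ℤ) = 0 :=
    congrArg (fun w : ↥(Lpar (N * q)) => (w : HomG (N * q) ℤ)) hv.2
  refine s59mud_mem_stbNew hα hβ hn hx ?_ ?_
  · rw [hR0 n v, hC0.1, h1, AddMonoidHom.comp_zero]
  · rw [hR0 n v, hC0.2, h2, AddMonoidHom.comp_zero]

/-- **faithfulness from a `q²`-new eigenvector**: the hypothesis refuted by (1b-J). -/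
theorem s59m1b_faithful_of_eigen [hqF : Fact q.Prime]
    (S : Finset ℕ) (hpS : p ∈ S) (hMS' : ∀ r : ℕ, r.Prime → r ∣ N * q * q → r ∈ (↑S : Set ℕ))
    (𝒪 : Type) [CommRing 𝒪] [IsDomain 𝒪] [IsDiscreteValuationRing 𝒪] [CharZero 𝒪]
    (hp𝒪 : (p : 𝒪) ∈ IsLocalRing.maximalIdeal 𝒪)
    (χ : CuspForm.heckeAlgebra (N * q * q) 2 (↑S : Set ℕ) →+* 𝒪)
    (y' : s59bccL 𝒪 (Lpar (N * q * q))) (hy' : y' ≠ 0)
    (hχΘ : ∀ t, (s59trTheta hMS' t).baseChange 𝒪 y' = χ t • y')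
    (hc : s59bccMap 𝒪 (s59bcCoresZ (N * q) q) y' = 0)
    (he : s59bccMap 𝒪 (s59bcCoresDZ (N * q) q) y' = 0)
    (hα : s59mud_RelAlphaAt (N * q) q) (hβ : s59mud_RelBetaAt (N * q) q)
    (hR : s59m1b_StmtR (N * q * q) p) :
    ∀ k : ℕ, ∃ n : ℕ, ∀ h ∈ MvPolynomial.supported ℤ (outsideVars (↑S : Set ℕ)),
      (∀ x : PDiv (N * q * q) p, (x : JZero (N * q * q)) ∈ stbNew (N * q) q → p ^ n • x = 0 →
        (letI := pDivModule (N * q * q) p; h • x) = 0) →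
      chiHom S χ h ∈ Ideal.span {(p : 𝒪) ^ k} := by
  classical
  have hq : q.Prime := hqF.out
  have hp : p.Prime := Fact.out
  have hp0 : (p : 𝒪) ≠ 0 := Nat.cast_ne_zero.mpr hp.ne_zero
  letI := pDivModule (N * q * q) p
  obtain ⟨y, hyy'⟩ := s59m1b_exists_lift_K 𝒪 y' hc he
  have hy : y ≠ 0 := by
    rintro rfl
    rw [map_zero] at hyy'
    exact hy' hyy'.symm
  obtain ⟨New, hNew⟩ := s59m1b_exists_New (N * q) q p hq (dvd_mul_left q N)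
  obtain ⟨r', hR0, hR1, hR2, hR3⟩ := hR
  have hPK := s59m1bTheta_mem_K (N := N) (q := q) S hMS'
  have hPr := s59m1b_r_equivariant S hMS' hpS r' hR3
  -- the data of (B-abs)
  let T : HeckeAlg → ↥(s59m1bK N q) →ₗ[ℤ] ↥(s59m1bK N q) := fun h =>
    if hh : h ∈ MvPolynomial.supported ℤ (outsideVars (↑S : Set ℕ)) then
      (s59m1bTheta S hMS' h).restrict (fun v hv => hPK h hh v hv)
    else 0
  have hTapp : ∀ h (hh : h ∈ MvPolynomial.supported ℤ (outsideVars (↑S : Set ℕ)))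
      (v : ↥(s59m1bK N q)),
      ((T h v : ↥(s59m1bK N q)) : ↥(Lpar (N * q * q))) =
        s59m1bTheta S hMS' h (v : ↥(Lpar (N * q * q))) := by
    intro h hh v
    simp only [T, dif_pos hh]
    rfl
  let TX : HeckeAlg → ↥New →+ ↥New := fun h => DistribSMul.toAddMonoidHom ↥New h
  have hnewmem : ∀ (n : ℕ) (v : ↥(s59m1bK N q)), r' n (v : ↥(Lpar (N * q * q))) ∈ New :=
    fun n v => (hNew _).mpr (s59m1b_r_mem_new hα hβ r' hR0 hR1 n v.1 v.2)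
  let r : ℕ → ↥(s59m1bK N q) →+ ↥New := fun n =>
    AddMonoidHom.mk'
      (fun v : ↥(s59m1bK N q) => (⟨r' n (v : ↥(Lpar (N * q * q))), hnewmem n v⟩ : ↥New))
      (fun a b => Subtype.ext (by
        show r' n ((a + b : ↥(s59m1bK N q)) : ↥(Lpar (N * q * q))) = _
        rw [Submodule.coe_add, map_add]
        rfl))
  have hrapp : ∀ n (v : ↥(s59m1bK N q)), ((r n v : ↥New) : PDiv (N * q * q) p) =
      r' n (v : ↥(Lpar (N * q * q))) := fun n v => rfl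
  have hgood := s59m1bb_good_abs (𝒪 := 𝒪) p hp𝒪 hp0
    (Hs := (MvPolynomial.supported ℤ (outsideVars (↑S : Set ℕ)) : Set HeckeAlg)) T TX r ?_ ?_ ?_
    (fun h => chiHom S χ h) y hy ?_
  · -- conversion to the statement of (1b-J)
    intro k
    obtain ⟨n, hn⟩ := hgood k
    refine ⟨n, fun h hh hkill => hn h hh (fun x hx => ?_)⟩
    apply Subtype.ext
    have hx' : p ^ n • (x : PDiv (N * q * q) p) = 0 :=
      congrArg (fun z : ↥New => (z : PDiv (N * q * q) p)) hx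
    exact hkill (x : PDiv (N * q * q) p) ((hNew _).mp x.2) hx'
  · -- kernel
    intro n v hv
    have hv' : r' n (v : ↥(Lpar (N * q * q))) = 0 :=
      congrArg (fun z : ↥New => (z : PDiv (N * q * q) p)) hv
    obtain ⟨w, hw⟩ := hR2 n v.1 hv'
    have hpn : ((p ^ n : ℕ) : ℤ) ≠ 0 := by exact_mod_cast pow_ne_zero n hp.ne_zero
    have hvK := s59m1b_mem_K.mp v.2
    have hwK : w ∈ s59m1bK N q := by
      rw [s59m1b_mem_K]
      rw [hw] at hvK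
      constructor
      · have h1 := hvK.1
        rw [← Nat.cast_smul_eq_nsmul ℤ, map_smul] at h1
        exact (smul_eq_zero.mp h1).resolve_left hpn
      · have h1 := hvK.2
        rw [← Nat.cast_smul_eq_nsmul ℤ, map_smul] at h1
        exact (smul_eq_zero.mp h1).resolve_left hpn
    refine ⟨⟨w, hwK⟩, Subtype.ext ?_⟩
    rw [hw]
    rfl
  · -- torsion
    intro n v
    apply Subtype.ext
    show (((p ^ n : ℕ) • (r n v : ↥New) : ↥New) : PDiv (N * q * q) p) = _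
    rw [Submodule.coe_smul_of_tower, hrapp]
    exact hR1 n v.1
  · -- equivariance
    intro n h hh v
    apply Subtype.ext
    show r' n ((T h v : ↥(s59m1bK N q)) : ↥(Lpar (N * q * q))) =
      h • r' n (v : ↥(Lpar (N * q * q)))
    rw [hTapp h hh v]
    exact hPr h hh n v.1
  · -- the eigenvector
    intro h hh
    refine s59m1b_eig_transfer (𝒪 := 𝒪) (s59m1bK N q) (T h) (s59m1bTheta S hMS' h)
      (fun v => hTapp h hh v) y (chiHom S χ h) ?_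
    rw [hyy']
    exact hχΘ (evalS (N * q * q) (↑S : Set ℕ) h)

end Main

section Final

/-- **E-MULT1b** (helper8's Prop `s59m1r_StmtMult1b`) from μDEG at `(N q, q)` and (P2):
no `q²`-new eigenvector at level `N q q` for an eigensystem `ψ` which occurs at level `N` and is
residually absolutely irreducible. -/
theorem s59m1b_mult1b_of_R {N q p : ℕ} [NeZero N] [NeZero q] [hqF : Fact q.Prime]
    [Fact p.Prime] (hqN : ¬ q ∣ N) (hqp : q ≠ p) (hp2 : p ≠ 2)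
    (S : Finset ℕ) (hpS : p ∈ S) (hMS : ∀ r : ℕ, r.Prime → r ∣ N * q * q → r ∈ S)
    (𝒪 : Type) [CommRing 𝒪] [IsDomain 𝒪] [IsDiscreteValuationRing 𝒪]
    [IsAdicComplete (IsLocalRing.maximalIdeal 𝒪) 𝒪] [CharZero 𝒪]
    (hp𝒪 : (p : 𝒪) ∈ IsLocalRing.maximalIdeal 𝒪)
    {ι : Type} (ℓ : ι → ℕ) [hℓ : ∀ i, Fact (ℓ i).Prime]
    (hN : ∀ i, ¬ ℓ i ∣ N) (hNqq : ∀ i, ¬ ℓ i ∣ N * q * q)
    (hcov : ∀ r : ℕ, r.Prime → r ∉ S → ∃ i, ℓ i = r)
    (ψ : ι → 𝒪)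
    (x₀ : s59bccL 𝒪 (Lpar N)) (hx₀ : x₀ ≠ 0)
    (hx₀eig : ∀ i, s59bccMap 𝒪 (s59bcTcZ N (ℓ i) (hN i)) x₀ = ψ i • x₀)
    (hU : ∀ t₀ : GQ → 𝒪,
      IsPseudoChar2 (cycloCharO p (IsLocalRing.maximalIdeal 𝒪) hp𝒪) t₀ →
      (∀ i, ℓ i ∉ S → ∀ A : ValuationSubring (AlgebraicClosure ℚ), A.LiesOverPrime (ℓ i) →
        ∀ τ : GQ, A.IsFrobeniusAt τ (ℓ i) → t₀ τ = ψ i) →
      (∀ k : ℕ, ∃ E : IntermediateField ℚ (AlgebraicClosure ℚ), FiniteDimensional ℚ E ∧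
        ∀ σ : GQ, (∀ a ∈ E, σ a = a) → ∀ g : GQ,
          t₀ (σ * g) - t₀ g ∈ IsLocalRing.maximalIdeal 𝒪 ^ k) →
      ∃ g₁ g₂ g₃ : GQ, t₀ (g₁ * g₂ * g₃) - t₀ (g₂ * g₁ * g₃) ∉ IsLocalRing.maximalIdeal 𝒪)
    (hα : s59mud_RelAlphaAt (N * q) q) (hβ : s59mud_RelBetaAt (N * q) q)
    (hR : s59m1b_StmtR (N * q * q) p) :
    s59m1r_StmtMult1b 𝒪 N q ℓ hNqq ψ := by
  intro y' hy'eig hc he
  by_contra hy'
  have hq : q.Prime := hqF.out
  have hMS' : ∀ r : ℕ, r.Prime → r ∣ N * q * q → r ∈ (↑S : Set ℕ) := fun r hr h =>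
    Finset.mem_coe.mpr (hMS r hr h)
  have hNS' : ∀ r : ℕ, r.Prime → r ∣ N → r ∈ (↑S : Set ℕ) := fun r hr h =>
    hMS' r hr (dvd_mul_of_dvd_left (dvd_mul_of_dvd_left h q) q)
  have hcov' : ∀ r : ℕ, r.Prime → r ∉ (↑S : Set ℕ) → ∃ i, ℓ i = r := fun r hr h =>
    hcov r hr (fun h' => h (Finset.mem_coe.mpr h'))
  -- the eigen-characters
  obtain ⟨χ, hχΘ, hχT⟩ := s59m1bx_exists_char S hMS' 𝒪 ℓ hNqq hcov ψ y' hy' hy'eig
  obtain ⟨ψ₀, -, hψ₀T⟩ := s59m1bx_exists_char S hNS' 𝒪 ℓ hN hcov ψ x₀ hx₀ hx₀eig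
  have hχψ : ∀ (r : ℕ) (hr : r.Prime) (hrM : ¬ r ∣ N * q * q) (hrN : ¬ r ∣ N)
      (hrS : r ∉ (↑S : Set ℕ)),
      χ (CuspForm.heckeAlgebra.T hr hrM hrS) = ψ₀ (CuspForm.heckeAlgebra.T hr hrN hrS) := by
    intro r hr hrM hrN hrS
    obtain ⟨i, rfl⟩ := hcov' r hr hrS
    exact (hχT i hrS).trans (hψ₀T i hrS).symm
  have hU' : ∀ t₀ : GQ → 𝒪,
      IsPseudoChar2 (cycloCharO p (IsLocalRing.maximalIdeal 𝒪) hp𝒪) t₀ →
      (∀ (r : ℕ) (hr : r.Prime) (hrN : ¬ r ∣ N) (hrS : r ∉ (↑S : Set ℕ)),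
        ∀ A : ValuationSubring (AlgebraicClosure ℚ), A.LiesOverPrime r →
          ∀ τ : GQ, A.IsFrobeniusAt τ r → t₀ τ = ψ₀ (CuspForm.heckeAlgebra.T hr hrN hrS)) →
      (∀ k : ℕ, ∃ E : IntermediateField ℚ (AlgebraicClosure ℚ), FiniteDimensional ℚ E ∧
        ∀ σ : GQ, (∀ a ∈ E, σ a = a) → ∀ g : GQ,
          t₀ (σ * g) - t₀ g ∈ IsLocalRing.maximalIdeal 𝒪 ^ k) →
      ∃ g₁ g₂ g₃ : GQ, t₀ (g₁ * g₂ * g₃) - t₀ (g₂ * g₁ * g₃) ∉ IsLocalRing.maximalIdeal 𝒪 := by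
    intro t₀ hps h4 h6
    refine hU t₀ hps (fun i hiS A hA τ hτ => ?_) h6
    have hiS' : ℓ i ∉ (↑S : Set ℕ) := fun h => hiS (Finset.mem_coe.mp h)
    exact (h4 (ℓ i) (hℓ i).out (hN i) hiS' A hA τ hτ).trans (hψ₀T i hiS')
  exact s59m1b_notFaithful hq hqN hqp hp2 S hpS hMS 𝒪 hp𝒪 χ ψ₀ hχψ hU'
    (s59m1b_faithful_of_eigen S hpS hMS' 𝒪 hp𝒪 χ y' hy' hχΘ hc he hα hβ hR)

end Final

end Fermat.Agent.S59
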