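import Fermat.Agent.S30.PseudoChar
import Fermat.Agent.Cheb.Plan

/-!
# S59, R2, piece E-MULT1b, step (C2a) (helper58, for helper31's assembly)

Two continuous 2-dimensional pseudo-characters of `G_ℚ` with the same determinant `ε` which agree on
the Frobenius elements at the primes outside a finite set `S` are EQUAL.

* `s59m1bc_pow_eq` : a pseudo-character with determinant `ε` is determined on the powers `τ ^ j`
  of one element by its value at `τ` (recursion `t(τ^{j+1}) = t(τ^j) t(τ) − ε(τ) t(τ^{j−1})`);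
* `s59m1bc_congr_of_fix` : `t γ ≡ t (τ ^ m)` modulo `I ^ k` when `γ` and `τ ^ m` agree on a field
  modulo which `t` is constant up to `I ^ k`;
* `s59m1bc_pseudo_eq` : the statement (weak Chebotarev + the recursion + separatedness).
-/

set_option autoImplicit false

namespace Fermat.Agent.S59

open Fermat.Agent.ES Fermat.Agent.S30 Fermat.Agent.S31

/-- a pseudo-character with determinant `ε` is determined on the powers of `τ` by its value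
at `τ` -/
theorem s59m1bc_pow_eq {G R : Type*} [Group G] [CommRing R] {ε : G →* Rˣ} {t t₀ : G → R}
    (ht : IsPseudoChar2 ε t) (ht₀ : IsPseudoChar2 ε t₀) (τ : G) (h : t τ = t₀ τ) :
    ∀ j : ℕ, t (τ ^ j) = t₀ (τ ^ j) := by
  have key : ∀ j : ℕ, t (τ ^ j) = t₀ (τ ^ j) ∧ t (τ ^ (j + 1)) = t₀ (τ ^ (j + 1)) := by
    intro j
    induction j with
    | zero =>
      refine ⟨?_, ?_⟩
      · rw [pow_zero, ht.map_one, ht₀.map_one]
      · rw [zero_add, pow_one]; exact h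
    | succ j ih =>
      refine ⟨ih.2, ?_⟩
      have h1 := ht.mul (τ ^ (j + 1)) τ
      have h2 := ht₀.mul (τ ^ (j + 1)) τ
      have e1 : τ ^ (j + 1) * τ = τ ^ (j + 1 + 1) := (pow_succ τ (j + 1)).symm
      have e2 : τ ^ (j + 1) * τ⁻¹ = τ ^ j := by
        rw [pow_succ, mul_assoc, mul_inv_cancel, mul_one]
      rw [e1, e2] at h1 h2
      have h3 : t (τ ^ (j + 1 + 1)) = t (τ ^ (j + 1)) * t τ - (ε τ : R) * t (τ ^ j) := by
        rw [← h1]; ring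
      have h4 : t₀ (τ ^ (j + 1 + 1)) = t₀ (τ ^ (j + 1)) * t₀ τ - (ε τ : R) * t₀ (τ ^ j) := by
        rw [← h2]; ring
      rw [h3, h4, ih.1, ih.2, h]
  exact fun j => (key j).1

/-- if `γ` and `δ` agree on a field `E` such that `t` is constant modulo `I ^ k` on the cosets of
the subgroup fixing `E`, then `t γ ≡ t δ` modulo `I ^ k` -/
theorem s59m1bc_congr_of_fix {𝒪' : Type} [CommRing 𝒪'] (I : Ideal 𝒪') (ε : GQ →* 𝒪'ˣ)
    (t : GQ → 𝒪') (ht : IsPseudoChar2 ε t) (k : ℕ)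
    (E : IntermediateField ℚ (AlgebraicClosure ℚ))
    (hE : ∀ σ : GQ, (∀ a ∈ E, σ a = a) → ∀ g : GQ, t (σ * g) - t g ∈ I ^ k)
    (γ δ : GQ) (hγδ : ∀ a ∈ E, δ a = γ a) :
    t γ - t δ ∈ I ^ k := by
  obtain ⟨σ, hσ⟩ : ∃ σ : GQ, σ = δ⁻¹ * γ := ⟨_, rfl⟩
  have hσE : ∀ a ∈ E, σ a = a := by
    intro a ha
    have e : (δ⁻¹ * δ) a = a := by rw [inv_mul_cancel]; rfl
    rw [AlgEquiv.mul_apply] at e
    rw [hσ, AlgEquiv.mul_apply, ← hγδ a ha]
    exact e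
  have hγ : γ = δ * σ := by rw [hσ, mul_inv_cancel_left]
  have h1 := hE σ hσE δ
  rw [hγ, ht.comm]
  exact h1

/-- **(C2a)** two continuous pseudo-characters with the same determinant which agree on the
Frobenius elements outside `S` are equal. -/
theorem s59m1bc_pseudo_eq {𝒪' : Type} [CommRing 𝒪'] (I : Ideal 𝒪') [IsAdicComplete I 𝒪']
    (hcheb : Cheb.WeakChebotarev)
    (ε : GQ →* 𝒪'ˣ) (S : Finset ℕ) (t t₀ : GQ → 𝒪')
    (ht : S30.IsPseudoChar2 ε t) (ht₀ : S30.IsPseudoChar2 ε t₀)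
    (hfrob : ∀ ℓ : ℕ, ℓ.Prime → ℓ ∉ S →
      ∀ A : ValuationSubring (AlgebraicClosure ℚ), A.LiesOverPrime ℓ →
        ∀ τ : GQ, A.IsFrobeniusAt τ ℓ → t τ = t₀ τ)
    (hc : ∀ k : ℕ, ∃ E : IntermediateField ℚ (AlgebraicClosure ℚ), FiniteDimensional ℚ E ∧
      ∀ σ : GQ, (∀ a ∈ E, σ a = a) → ∀ g : GQ, t (σ * g) - t g ∈ I ^ k)
    (hc₀ : ∀ k : ℕ, ∃ E : IntermediateField ℚ (AlgebraicClosure ℚ), FiniteDimensional ℚ E ∧
      ∀ σ : GQ, (∀ a ∈ E, σ a = a) → ∀ g : GQ, t₀ (σ * g) - t₀ g ∈ I ^ k) :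
    t = t₀ := by
  funext γ
  apply S30.eq_of_forall_sub_mem I
  intro k
  obtain ⟨E, hEfin, hE⟩ := hc k
  obtain ⟨E₀, hE₀fin, hE₀⟩ := hc₀ k
  obtain ⟨F, hFfin, hFgal, hEF, hE₀F, -⟩ := exists_galois_hull E E₀ E₀
  obtain ⟨ℓ, A, τ, m, hℓ, hℓS, hA, hτ, hτm⟩ := hcheb F S γ
  have h1 : t γ - t (τ ^ m) ∈ I ^ k :=
    s59m1bc_congr_of_fix I ε t ht k E hE γ (τ ^ m) (fun a ha => hτm a (hEF ha))
  have h2 : t₀ γ - t₀ (τ ^ m) ∈ I ^ k :=
    s59m1bc_congr_of_fix I ε t₀ ht₀ k E₀ hE₀ γ (τ ^ m) (fun a ha => hτm a (hE₀F ha))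
  have h3 : t (τ ^ m) = t₀ (τ ^ m) :=
    s59m1bc_pow_eq ht ht₀ τ (hfrob ℓ hℓ hℓS A hA τ hτ) m
  have h4 : t γ - t₀ γ = (t γ - t (τ ^ m)) - (t₀ γ - t₀ (τ ^ m)) := by rw [h3]; ring
  rw [h4]
  exact sub_mem h1 h2

end Fermat.Agent.S59
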