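import Fermat.Agent.S59.Eta.Mult1bAbs
import Fermat.Agent.S59.Eta.Mult1bPs
import Fermat.Agent.S36.Glue
import Fermat.Agent.S36.SmallOf
import Fermat.Agent.S36.PtsDone
import Fermat.Agent.STB.PushHeckeDiv

/-!
# S59, R2, piece E-MULT1b (helper31): the Jacobian form **(1b-J)**

`M = N q q`, `q ∤ N` a prime, `p ≠ q` an odd prime.  `New = stbNew (N q) q ∩ J₀(M)[p^∞]_div` is the
`q²`-new part of the `p`-divisible torsion `PDiv M p` of `J₀(M)` (the kernel of the two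
push-forwards to level `N q`).

* `s59m1b_carayol` : the geometric clause (G36-J) of S36, proved;
* `s59m1b_exists_New` : the `q`-new part of `PDiv (M₁ q) p` (`q ∣ M₁`) is a Hecke submodule;
* `s59m1b_notFaithful` : **(1b-J)** an eigen-character `χ` of level `N q q` which is OLD from level
  `N` (`χ (T_ℓ) = ψ₀ (T_ℓ)` outside `S`, `ψ₀` of level `N`) and residually absolutely irreducible
  (`hU`) is NOT faithful on the `q²`-new part: it is not true that for every `k` there is `n` such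
  that every Hecke polynomial (variables outside `S`) killing `New[pⁿ]` has `χ`-value in `pᵏ 𝒪'`.

Proof: the trace function `t` of `χ` (S30) equals the trace function `t₀` of `ψ₀`
(`s59m1bc_pseudo_eq`, helper58, Chebotarev), which is unramified at `q ∤ N p` (`S30.pseudoChar_of_spec`), so
`t σ = 2` on the inertia group at `q`; if `χ` were faithful on `New`, the engine `s59m1b_h8`
(with `hQ :=` (G36-J)) would give `σ` in the inertia group with `t σ ≠ 2`.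
-/

set_option autoImplicit false
set_option linter.unusedSectionVars false
set_option linter.unusedVariables false
set_option linter.style.haveILetI false

noncomputable section

namespace Fermat.Agent.S59

open ModularCurve Fermat.Agent.ES Fermat.Agent.S31 Fermat.Agent.S32 Fermat.Agent.S30
open Fermat.Agent.S36 Fermat.Agent.STB

/-- the geometric clause (G36-J) of S36, proved -/
theorem s59m1b_carayol : Fermat.Agent.S36.StmtCarayol :=
  Fermat.Agent.S36.stmtCarayol_of_kummer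
    (Fermat.Agent.S36.stmtCarayolKummer_of_pts Fermat.Agent.S36.stmtS36Pts)

/-- the `q`-new part of `PDiv (M₁ q) p`, `q ∣ M₁`, is a Hecke submodule -/
theorem s59m1b_exists_New (M₁ q p : ℕ) [NeZero M₁] [NeZero q] [Fact p.Prime] (hq : q.Prime)
    (hqM₁ : q ∣ M₁) :
    letI := pDivModule (M₁ * q) p
    ∃ New : Submodule HeckeAlg (PDiv (M₁ * q) p),
      ∀ x : PDiv (M₁ * q) p, x ∈ New ↔ (x : JZero (M₁ * q)) ∈ stbNew M₁ q := by
  letI := pDivModule (M₁ * q) p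
  have hp : p.Prime := Fact.out
  obtain ⟨⟨μ, hμd⟩, hlev, hfrob, hunr⟩ := s36in_esIn (M₁ * q) p hp
  have hm := multData_of_torsionUnifData hp.ne_zero hμd
  have hT : ∀ (ℓ : Nat.Primes) (x : PDiv (M₁ * q) p), x ∈ s36New M₁ q p →
      pDivOp (M₁ * q) p ℓ x ∈ s36New M₁ q p := by
    intro ℓ x hx
    by_cases h : (ℓ : ℕ) ∣ M₁ * q * p
    · rw [pDivOp_of_bad h]
      exact zero_mem _
    · obtain ⟨a, ha⟩ := isPPowerTorsion_coe x
      have hn : p ^ a ≠ 0 := pow_ne_zero _ hp.ne_zero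
      have hℓ : ¬ (ℓ : ℕ) ∣ M₁ * q := fun h' => h (dvd_mul_of_dvd_left h' p)
      rw [mem_s36New, mem_stbNew] at hx
      rw [mem_s36New, pDivOp_of_good h, mem_stbNew,
        stbd_p3_alpha M₁ q hq hqM₁ ℓ hn (x : JZero (M₁ * q)) ha,
        stbd_p3_beta M₁ q hq hqM₁ ℓ hℓ hn (x : JZero (M₁ * q)) ha, hx.1, hx.2, map_zero]
      exact ⟨rfl, rfl⟩
  have hEval : ∀ (t : HeckeAlg) (x : PDiv (M₁ * q) p), x ∈ s36New M₁ q p →
      tfEval hm.tfComm t x ∈ s36New M₁ q p := by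
    intro t
    induction t using MvPolynomial.induction_on with
    | C a =>
        intro x hx
        rw [tfEval_C, Module.End.intCast_apply]
        exact zsmul_mem hx a
    | add s t hs ht =>
        intro x hx
        rw [map_add, LinearMap.add_apply]
        exact add_mem (hs x hx) (ht x hx)
    | mul_X s ℓ hs =>
        intro x hx
        rw [map_mul, Module.End.mul_apply, tfEval_X]
        exact hs _ (hT ℓ x hx)
  refine ⟨{ carrier := s36New M₁ q p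
            add_mem' := fun ha hb => add_mem ha hb
            zero_mem' := zero_mem _
            smul_mem' := fun t x hx => ?_ }, fun x => Iff.rfl⟩
  show (t • x) ∈ s36New M₁ q p
  rw [hm.pDiv_smul_def]
  exact hEval t x hx

/-- **(1b-J)**: an eigen-character of level `N q q` which is old from level `N` and residually
absolutely irreducible is not faithful on the `q²`-new part of `J₀(N q q)[p^∞]`. -/
theorem s59m1b_notFaithful {N q p : ℕ} [NeZero N] [NeZero q] [Fact p.Prime]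
    (hq : q.Prime) (hqN : ¬ q ∣ N) (hqp : q ≠ p) (hp2 : p ≠ 2)
    (S : Finset ℕ) (hpS : p ∈ S) (hMS : ∀ r : ℕ, r.Prime → r ∣ N * q * q → r ∈ S)
    (𝒪' : Type) [CommRing 𝒪'] [IsDomain 𝒪'] [IsDiscreteValuationRing 𝒪']
    [IsAdicComplete (IsLocalRing.maximalIdeal 𝒪') 𝒪'] [CharZero 𝒪']
    (hp𝒪 : (p : 𝒪') ∈ IsLocalRing.maximalIdeal 𝒪')
    (χ : CuspForm.heckeAlgebra (N * q * q) 2 (↑S : Set ℕ) →+* 𝒪')
    (ψ₀ : CuspForm.heckeAlgebra N 2 (↑S : Set ℕ) →+* 𝒪')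
    (hχψ : ∀ (ℓ : ℕ) (hℓ : ℓ.Prime) (hℓM : ¬ ℓ ∣ N * q * q) (hℓN : ¬ ℓ ∣ N)
      (hℓS : ℓ ∉ (↑S : Set ℕ)),
      χ (CuspForm.heckeAlgebra.T hℓ hℓM hℓS) = ψ₀ (CuspForm.heckeAlgebra.T hℓ hℓN hℓS))
    (hU : ∀ t₀ : GQ → 𝒪',
      IsPseudoChar2 (cycloCharO p (IsLocalRing.maximalIdeal 𝒪') hp𝒪) t₀ →
      (∀ (ℓ : ℕ) (hℓ : ℓ.Prime) (hℓN : ¬ ℓ ∣ N) (hℓS : ℓ ∉ (↑S : Set ℕ)),
        ∀ A : ValuationSubring (AlgebraicClosure ℚ), A.LiesOverPrime ℓ →
          ∀ τ : GQ, A.IsFrobeniusAt τ ℓ → t₀ τ = ψ₀ (CuspForm.heckeAlgebra.T hℓ hℓN hℓS)) →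
      (∀ k : ℕ, ∃ E : IntermediateField ℚ (AlgebraicClosure ℚ), FiniteDimensional ℚ E ∧
        ∀ σ : GQ, (∀ a ∈ E, σ a = a) → ∀ g : GQ,
          t₀ (σ * g) - t₀ g ∈ IsLocalRing.maximalIdeal 𝒪' ^ k) →
      ∃ g₁ g₂ g₃ : GQ, t₀ (g₁ * g₂ * g₃) - t₀ (g₂ * g₁ * g₃) ∉ IsLocalRing.maximalIdeal 𝒪') :
    ¬ ∀ k : ℕ, ∃ n : ℕ, ∀ h ∈ MvPolynomial.supported ℤ (outsideVars (↑S : Set ℕ)),
      (∀ x : PDiv (N * q * q) p, (x : JZero (N * q * q)) ∈ stbNew (N * q) q → p ^ n • x = 0 →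
        (letI := pDivModule (N * q * q) p; h • x) = 0) →
      chiHom S χ h ∈ Ideal.span {(p : 𝒪') ^ k} := by
  intro hfaithE
  have hp : p.Prime := Fact.out
  have hp0 : p ≠ 0 := hp.ne_zero
  have hcheb := Cheb.weakChebotarev_holds
  have hNM : ∀ r : ℕ, r ∣ N → r ∣ N * q * q := fun r h =>
    dvd_mul_of_dvd_left (dvd_mul_of_dvd_left h q) q
  -- the bookkeeping of good primes
  have hgoodM : ∀ r : ℕ, r.Prime → r ∉ S → ¬ r ∣ N * q * q := fun r hr hrS h => hrS (hMS r hr h)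
  have hgoodMp : ∀ r : ℕ, r.Prime → r ∉ S → ¬ r ∣ N * q * q * p := by
    intro r hr hrS h
    rcases (Nat.Prime.dvd_mul hr).mp h with h | h
    · exact hrS (hMS r hr h)
    · have : r = p := (Nat.prime_dvd_prime_iff_eq hr hp).mp h
      exact hrS (this ▸ hpS)
  have hgoodN : ∀ r : ℕ, r.Prime → r ∉ S → ¬ r ∣ N := fun r hr hrS h =>
    hgoodM r hr hrS (hNM r h)
  have hgoodNp : ∀ r : ℕ, r.Prime → r ∉ S → ¬ r ∣ N * p := by
    intro r hr hrS h
    rcases (Nat.Prime.dvd_mul hr).mp h with h | h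
    · exact hgoodN r hr hrS h
    · have : r = p := (Nat.prime_dvd_prime_iff_eq hr hp).mp h
      exact hrS (this ▸ hpS)
  -- level `N`: the trace function `t₀`
  obtain ⟨t₀, hps₀, h4₀, hunr₀, h6₀⟩ : ∃ t₀ : GQ → 𝒪',
      IsPseudoChar2 (cycloCharO p (IsLocalRing.maximalIdeal 𝒪') hp𝒪) t₀ ∧
      (∀ (ℓ : ℕ) (hℓ : ℓ.Prime) (hℓN : ¬ ℓ ∣ N) (hℓS : ℓ ∉ (↑S : Set ℕ)),
        ∀ A : ValuationSubring (AlgebraicClosure ℚ), A.LiesOverPrime ℓ →
          ∀ τ : GQ, A.IsFrobeniusAt τ ℓ → t₀ τ = ψ₀ (CuspForm.heckeAlgebra.T hℓ hℓN hℓS)) ∧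
      (∀ r : ℕ, r.Prime → ¬ r ∣ N * p → ∀ P : ValuationSubring (AlgebraicClosure ℚ),
        P.LiesOverPrime r → ∀ σ ∈ P.inertiaSubgroupIn ℚ, ∀ g : GQ, t₀ (σ * g) = t₀ g) ∧
      (∀ k : ℕ, ∃ E : IntermediateField ℚ (AlgebraicClosure ℚ), FiniteDimensional ℚ E ∧
        ∀ σ : GQ, (∀ a ∈ E, σ a = a) → ∀ g : GQ,
          t₀ (σ * g) - t₀ g ∈ IsLocalRing.maximalIdeal 𝒪' ^ k) := by
    letI := pDivModule N p
    letI := pDivGalois N p
    obtain ⟨⟨μ, hμd⟩, hlev, hfrob, hunr⟩ := s36in_esIn N p hp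
    have hm := multData_of_torsionUnifData hp0 hμd
    have hJ : ESDataInf N p (PDiv N p) := hm.esDataInf hlev hfrob hunr
    have hfaith : ESFaith N p (PDiv N p) := hm.esFaith hp0
    obtain ⟨t₀, ht₀⟩ := exists_traceFun (J := PDiv N p) (χ := ψ₀)
      (IsLocalRing.maximalIdeal 𝒪') hp𝒪 hcheb hJ hfaith hgoodN hgoodNp
    exact ⟨t₀, pseudoChar_of_spec (IsLocalRing.maximalIdeal 𝒪') hp𝒪 hcheb hJ hfaith hgoodN
      hgoodNp t₀ ht₀⟩
  -- level `N q q`
  letI := pDivModule (N * q * q) p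
  letI := pDivGalois (N * q * q) p
  obtain ⟨⟨μ, hμd⟩, hlev, hfrob, hunr⟩ := s36in_esIn (N * q * q) p hp
  have hm := multData_of_torsionUnifData hp0 hμd
  have hJ : ESDataInf (N * q * q) p (PDiv (N * q * q) p) := hm.esDataInf hlev hfrob hunr
  have hfaith : ESFaith (N * q * q) p (PDiv (N * q * q) p) := hm.esFaith hp0
  obtain ⟨t, ht⟩ := exists_traceFun (J := PDiv (N * q * q) p) (χ := χ)
    (IsLocalRing.maximalIdeal 𝒪') hp𝒪 hcheb hJ hfaith hgoodM hgoodMp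
  obtain ⟨hps, h4, -, h6⟩ := pseudoChar_of_spec (IsLocalRing.maximalIdeal 𝒪') hp𝒪 hcheb hJ
    hfaith hgoodM hgoodMp t ht
  -- `t = t₀`
  have htt : t = t₀ := by
    refine s59m1bc_pseudo_eq (IsLocalRing.maximalIdeal 𝒪') hcheb _ S t t₀ hps hps₀ ?_ h6 h6₀
    intro ℓ hℓ hℓS A hA τ hτ
    rw [h4 ℓ hℓ (hgoodM ℓ hℓ hℓS) hℓS A hA τ hτ, h4₀ ℓ hℓ (hgoodN ℓ hℓ hℓS) hℓS A hA τ hτ]
    exact hχψ ℓ hℓ _ _ hℓS
  have hUt : ∃ g₁ g₂ g₃ : GQ,
      t (g₁ * g₂ * g₃) - t (g₂ * g₁ * g₃) ∉ IsLocalRing.maximalIdeal 𝒪' := by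
    rw [htt]
    exact hU t₀ hps₀ h4₀ h6₀
  -- the `q²`-new part
  have hqNq : q ∣ N * q := dvd_mul_left q N
  have hq2 : ¬ q ^ 2 ∣ N * q := by
    rintro ⟨c, hc⟩
    apply hqN
    refine ⟨c, ?_⟩
    have h1 : N * q = q * c * q := by rw [hc]; ring
    exact Nat.eq_of_mul_eq_mul_right hq.pos h1
  obtain ⟨New, hNew⟩ := s59m1b_exists_New (N * q) q p hq hqNq
  obtain ⟨A, hA⟩ := Fermat.Agent.Common.exists_liesOverPrime q hq
  obtain ⟨c, hc0, hc⟩ := s59m1b_carayol (N * q) q p hq hp hqp.symm hp2 hqNq hq2 A hA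
  have hNewG : ∀ (σ : GQ) (x : PDiv (N * q * q) p), x ∈ New → σ • x ∈ New := by
    intro σ x hx
    rw [hNew] at hx ⊢
    exact mem_s36New.mp (s36New_galois σ (mem_s36New.mpr hx))
  obtain ⟨σ, hσ, hne⟩ := s59m1b_h8 p (N * q * q) (PDiv (N * q * q) p) S 𝒪' χ hp𝒪 hcheb hJ
    hgoodMp t ht hUt q hq hqp A hA New hNewG
    ⟨c, hc0, fun x _ hx hinv => by
      apply Subtype.ext
      rw [coe_nsmul_pDiv]
      refine hc (x : JZero (N * q * q)) (isPPowerTorsion_coe x) ((hNew x).mp hx) ?_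
      intro τ hτ
      have := congrArg (fun y : PDiv (N * q * q) p => (y : JZero (N * q * q))) (hinv τ hτ)
      exact this⟩
    (fun k => by
      obtain ⟨n, hn⟩ := hfaithE k
      exact ⟨n, fun h hh hkill => hn h hh (fun x hx hxn => hkill x ((hNew x).mpr hx) hxn)⟩)
  apply hne
  have hqNp : ¬ q ∣ N * p := by
    intro h
    rcases (Nat.Prime.dvd_mul hq).mp h with h | h
    · exact hqN h
    · exact hqp ((Nat.prime_dvd_prime_iff_eq hq hp).mp h)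
  have h1 := hunr₀ q hq hqNp A hA σ hσ 1
  rw [mul_one] at h1
  rw [htt, h1, hps₀.map_one]

end Fermat.Agent.S59
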