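import Mathlib
import Fermat.Agent.S59.Eta.Mult1bPs
import Fermat.Agent.S33.DetCyclo
import Fermat.Agent.S32.KeyAlg
import Fermat.Agent.S31.Reduction
import Fermat.Agent.S31.Lucas
import Fermat.Agent.Cheb.Final

/-!
# S59, wall R2 (ETA′), piece E-MULT1b, step **(U)** (helper8)

The hypothesis `hU` of `s59m1b_notFaithful` (helper31, `S59/Eta/Mult1bJ.lean`):
"the eigensystem `ψ₀` is residually absolutely irreducible", in pseudo-character form: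

  every continuous pseudo-character `t₀ : G_ℚ → 𝒪` with determinant the cyclotomic character
  and `t₀ (Frob_ℓ) = ψ₀ (T_ℓ)` (`ℓ ∉ S`) has a commutator trace which is a UNIT:
  `∃ g₁ g₂ g₃, t₀ (g₁ g₂ g₃) − t₀ (g₂ g₁ g₃) ∉ 𝔪`.

It is proved for `ψ₀ = ψ ∘ H.π`, `H` a Hecke–Galois datum of level `N` (prelude's
`CuspForm.HeckeGaloisRepDatum N S 𝒪 θ T`) and `ψ : T →ₐ[𝒪] 𝒪` a point of its ring:

* `s59m1u_trace_pseudo` : `t = ψ ∘ tr ∘ H.ρ` is a pseudo-character with determinant `cycloCharO`;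
* `s59m1u_trace_frob`, `s59m1u_trace_cont` : its Frobenius values and its continuity;
* `s59m1u_trace_unit`  : its unit commutator trace (`S32.exists_unit_trace`);
* **`s59m1u_hU`** : `hU`, LITERAL shape (by uniqueness `s59m1bc_pseudo_eq`, helper58).
-/

set_option autoImplicit false
set_option linter.unusedSectionVars false
set_option linter.unusedVariables false
set_option linter.style.haveILetI false

noncomputable section

namespace Fermat.Agent.S59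

open IsLocalRing Polynomial Fermat.Agent.ES Fermat.Agent.S30 Fermat.Agent.S31

section U

variable {N p : ℕ} [NeZero N] [Fact p.Prime] {S : Finset ℕ}
  {𝒪 : Type} [CommRing 𝒪] [IsDomain 𝒪] [IsDiscreteValuationRing 𝒪]
  [IsAdicComplete (IsLocalRing.maximalIdeal 𝒪) 𝒪]
  {θ : CuspForm.heckeAlgebra N 2 (↑S : Set ℕ) →+* IsLocalRing.ResidueField 𝒪}
  {T : Type} [CommRing T] [IsLocalRing T] [IsNoetherianRing T]
  [IsAdicComplete (IsLocalRing.maximalIdeal T) T] [Algebra 𝒪 T] [IsLocalHom (algebraMap 𝒪 T)]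
  [Module.Finite 𝒪 T] [Module.Free 𝒪 T]

/-- the trace function of the datum at the point `ψ` -/
def s59m1uT (H : CuspForm.HeckeGaloisRepDatum N (↑S : Set ℕ) 𝒪 θ T) (ψ : T →ₐ[𝒪] 𝒪)
    (g : GQ) : 𝒪 :=
  ψ (LinearMap.trace T H.ρ.V (H.ρ.ρ g))

/-- a point `ψ : T →ₐ[𝒪] 𝒪` maps units to units, hence `𝔪_T` into `𝔪_𝒪` -/
theorem s59m1u_psi_mem (ψ : T →ₐ[𝒪] 𝒪) {x : T} (hx : x ∈ maximalIdeal T) :
    ψ x ∈ maximalIdeal 𝒪 := by
  by_contra h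
  have hu : IsUnit (ψ x) := IsLocalRing.notMem_maximalIdeal.mp h
  obtain ⟨u, hu⟩ := hu
  -- `x - algebraMap (ψ x)` is in the kernel of `ψ`; `algebraMap (ψ x)` is a unit of `T`
  have h1 : IsUnit (algebraMap 𝒪 T (ψ x)) := by
    rw [← hu]
    exact (u.isUnit).map (algebraMap 𝒪 T)
  have h2 : x - algebraMap 𝒪 T (ψ x) ∈ maximalIdeal T := by
    by_contra h3
    have hu3 : IsUnit (x - algebraMap 𝒪 T (ψ x)) := IsLocalRing.notMem_maximalIdeal.mp h3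
    have h4 := hu3.map ψ
    rw [map_sub, AlgHom.commutes, Algebra.algebraMap_self_apply, sub_self] at h4
    exact not_isUnit_zero h4
  have h5 : algebraMap 𝒪 T (ψ x) ∈ maximalIdeal T := by
    have := sub_mem hx h2
    rwa [sub_sub_cancel] at this
  exact (IsLocalRing.mem_maximalIdeal _).mp h5 h1

theorem s59m1u_psi_mem_pow (ψ : T →ₐ[𝒪] 𝒪) (k : ℕ) {x : T} (hx : x ∈ maximalIdeal T ^ k) :
    ψ x ∈ maximalIdeal 𝒪 ^ k := by
  have h1 : (maximalIdeal T).map (ψ : T →+* 𝒪) ≤ maximalIdeal 𝒪 := by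
    rw [Ideal.map_le_iff_le_comap]
    intro y hy
    exact s59m1u_psi_mem ψ hy
  have h2 : (maximalIdeal T ^ k).map (ψ : T →+* 𝒪) ≤ maximalIdeal 𝒪 ^ k := by
    rw [Ideal.map_pow]
    exact Ideal.pow_right_mono h1 k
  exact h2 (Ideal.mem_map_of_mem _ hx)

theorem s59m1u_psi_unit (ψ : T →ₐ[𝒪] 𝒪) {x : T} (hx : x ∉ maximalIdeal T) :
    ψ x ∉ maximalIdeal 𝒪 := by
  have hu : IsUnit x := IsLocalRing.notMem_maximalIdeal.mp hx
  exact fun h => (IsLocalRing.mem_maximalIdeal _).mp h (hu.map ψ)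

/-- the pseudo-character identity for `2 × 2` matrices -/
theorem s59m1u_mat_pseudo {k : Type*} [CommRing k] (X Y Y' : Matrix (Fin 2) (Fin 2) k)
    (h : Y * Y' = 1) :
    (X * Y).trace + Y.det * (X * Y').trace = X.trace * Y.trace := by
  have h1 : Y.adjugate = Y.det • Y' := by
    calc Y.adjugate = Y.adjugate * (Y * Y') := by rw [h, mul_one]
      _ = (Y.adjugate * Y) * Y' := by rw [mul_assoc]
      _ = Y.det • Y' := by rw [Matrix.adjugate_mul, Matrix.smul_mul, one_mul]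
  have h2 : Y.det * (X * Y').trace = (X * Y.adjugate).trace := by
    rw [h1, Matrix.mul_smul, Matrix.trace_smul, smul_eq_mul]
  rw [h2, Matrix.adjugate_fin_two]
  simp only [Matrix.trace_fin_two, Matrix.mul_apply, Fin.sum_univ_two, Matrix.of_apply,
    Matrix.cons_val', Matrix.cons_val_zero, Matrix.cons_val_one, Matrix.cons_val_fin_one]
  ring

/-- the trace of a `GaloisRepAdic` satisfies the pseudo-character identity with `det` -/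
theorem s59m1u_rep_pseudo {A : Type} [CommRing A] [IsLocalRing A] (ρ : GaloisRepAdic A)
    (x y : GQ) :
    LinearMap.trace A ρ.V (ρ.ρ (x * y))
      + LinearMap.det (ρ.ρ y) * LinearMap.trace A ρ.V (ρ.ρ (x * y⁻¹))
      = LinearMap.trace A ρ.V (ρ.ρ x) * LinearMap.trace A ρ.V (ρ.ρ y) := by
  classical
  let b : Module.Basis (Fin 2) A ρ.V := Module.finBasisOfFinrankEq A ρ.V ρ.finrank_eq
  have hyy : LinearMap.toMatrix b b (ρ.ρ y) * LinearMap.toMatrix b b (ρ.ρ y⁻¹) = 1 := by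
    rw [← LinearMap.toMatrix_mul, ← map_mul, mul_inv_cancel, map_one]
    exact LinearMap.toMatrix_one b
  have key := s59m1u_mat_pseudo (LinearMap.toMatrix b b (ρ.ρ x)) _ _ hyy
  rw [LinearMap.trace_eq_matrix_trace A b, LinearMap.trace_eq_matrix_trace A b,
    LinearMap.trace_eq_matrix_trace A b, LinearMap.trace_eq_matrix_trace A b,
    ← LinearMap.det_toMatrix b, map_mul ρ.ρ x y, map_mul ρ.ρ x y⁻¹,
    LinearMap.toMatrix_mul, LinearMap.toMatrix_mul]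
  exact key

variable (H : CuspForm.HeckeGaloisRepDatum N (↑S : Set ℕ) 𝒪 θ T) (ψ : T →ₐ[𝒪] 𝒪)
  (hp𝒪 : (p : 𝒪) ∈ maximalIdeal 𝒪)

/-- `ψ (det ρ(σ)) = ε(σ)`: the determinant of the datum at the point `ψ` is cyclotomic -/
theorem s59m1u_det (σ : GQ) :
    ψ (LinearMap.det (H.ρ.ρ σ)) = ((cycloCharO p (maximalIdeal 𝒪) hp𝒪 σ : 𝒪ˣ) : 𝒪) := by
  have hp : p.Prime := Fact.out
  obtain ⟨-, hdet⟩ := Fermat.Agent.S33.detIsCyclotomic_of_datum hp hp𝒪 H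
  apply S30.eq_of_forall_sub_mem (maximalIdeal 𝒪)
  intro n
  obtain ⟨k, hk, hεk⟩ := cycloCharO_spec p (maximalIdeal 𝒪) hp𝒪 σ n
  have h1 := hdet n σ k hk
  have hle : Ideal.span {(p : 𝒪) ^ n} ≤ maximalIdeal 𝒪 ^ n := by
    rw [Ideal.span_singleton_le_iff_mem]
    exact Ideal.pow_mem_pow hp𝒪 n
  have h2 : ψ (LinearMap.det (H.ρ.ρ σ)) - (k : 𝒪) ∈ Ideal.span {(p : 𝒪) ^ n} := by
    obtain ⟨c, hc⟩ := Ideal.mem_span_singleton'.mp h1
    rw [Ideal.mem_span_singleton']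
    refine ⟨ψ c, ?_⟩
    have := congrArg ψ hc
    rw [map_mul, map_sub, map_natCast, map_natCast] at this
    rw [← this]
    push_cast
    rfl
  have e : ψ (LinearMap.det (H.ρ.ρ σ)) - ((cycloCharO p (maximalIdeal 𝒪) hp𝒪 σ : 𝒪ˣ) : 𝒪)
      = (ψ (LinearMap.det (H.ρ.ρ σ)) - (k : 𝒪))
        - (((cycloCharO p (maximalIdeal 𝒪) hp𝒪 σ : 𝒪ˣ) : 𝒪) - (k : 𝒪)) := by ring
  rw [e]
  exact sub_mem (hle h2) (hle hεk)

/-- `t = ψ ∘ tr ∘ ρ` is a pseudo-character with determinant the cyclotomic character -/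
theorem s59m1u_trace_pseudo :
    IsPseudoChar2 (cycloCharO p (maximalIdeal 𝒪) hp𝒪) (s59m1uT H ψ) := by
  refine ⟨?_, ?_, ?_⟩
  · show ψ (LinearMap.trace T H.ρ.V (H.ρ.ρ 1)) = 2
    rw [map_one, LinearMap.trace_one, H.ρ.finrank_eq]
    have : ((2 : ℕ) : T) = 2 := by norm_num
    rw [this, map_ofNat]
  · intro x y
    show ψ (LinearMap.trace T H.ρ.V (H.ρ.ρ (x * y))) = ψ (LinearMap.trace T H.ρ.V (H.ρ.ρ (y * x)))
    rw [map_mul H.ρ.ρ x y, map_mul H.ρ.ρ y x, LinearMap.trace_mul_comm]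
  · intro x y
    show ψ (LinearMap.trace T H.ρ.V (H.ρ.ρ (x * y)))
        + ((cycloCharO p (maximalIdeal 𝒪) hp𝒪 y : 𝒪ˣ) : 𝒪)
          * ψ (LinearMap.trace T H.ρ.V (H.ρ.ρ (x * y⁻¹)))
      = ψ (LinearMap.trace T H.ρ.V (H.ρ.ρ x)) * ψ (LinearMap.trace T H.ρ.V (H.ρ.ρ y))
    rw [← s59m1u_det H ψ hp𝒪 y, ← map_mul, ← map_add, ← map_mul, s59m1u_rep_pseudo H.ρ x y]

/-- the Frobenius values of `t` -/
theorem s59m1u_trace_frob (ℓ : ℕ) (hℓ : ℓ.Prime) (hℓN : ¬ ℓ ∣ N) (hℓS : ℓ ∉ (↑S : Set ℕ))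
    (A : ValuationSubring (AlgebraicClosure ℚ)) (hA : A.LiesOverPrime ℓ) (τ : GQ)
    (hτ : A.IsFrobeniusAt τ ℓ) :
    s59m1uT H ψ τ = ψ (H.π (CuspForm.heckeAlgebra.T hℓ hℓN hℓS)) := by
  show ψ (LinearMap.trace T H.ρ.V (H.ρ.ρ τ)) = _
  rw [trace_of_charpoly H.ρ.finrank_eq (H.ρ.ρ τ) _ _ (H.charpoly_frob ℓ hℓ hℓN hℓS A hA τ hτ)]

/-- the continuity of `t` -/
theorem s59m1u_trace_cont (k : ℕ) :
    ∃ E : IntermediateField ℚ (AlgebraicClosure ℚ), FiniteDimensional ℚ E ∧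
      ∀ σ : GQ, (∀ a ∈ E, σ a = a) → ∀ g : GQ,
        s59m1uT H ψ (σ * g) - s59m1uT H ψ g ∈ maximalIdeal 𝒪 ^ k := by
  obtain ⟨L, hLfin, hL⟩ := H.ρ.isAdicContinuous k
  refine ⟨L, hLfin, fun σ hσ g => ?_⟩
  have h := trace_congr_of_agree H.ρ k L hL g (g * σ) (fun a ha => by
    rw [AlgEquiv.mul_apply, hσ a ha])
  have hcomm : LinearMap.trace T H.ρ.V (H.ρ.ρ (σ * g))
      = LinearMap.trace T H.ρ.V (H.ρ.ρ (g * σ)) := by
    rw [map_mul H.ρ.ρ σ g, map_mul H.ρ.ρ g σ, LinearMap.trace_mul_comm]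
  show ψ (LinearMap.trace T H.ρ.V (H.ρ.ρ (σ * g))) - ψ (LinearMap.trace T H.ρ.V (H.ρ.ρ g)) ∈ _
  rw [hcomm, ← map_sub]
  exact s59m1u_psi_mem_pow ψ k h

/-- the unit commutator trace of `t` -/
theorem s59m1u_trace_unit :
    ∃ g₁ g₂ g₃ : GQ,
      s59m1uT H ψ (g₁ * g₂ * g₃) - s59m1uT H ψ (g₂ * g₁ * g₃) ∉ maximalIdeal 𝒪 := by
  obtain ⟨g₁, g₂, g₃, h⟩ := Fermat.Agent.S32.exists_unit_trace H.ρ H.residual_absIrr
  refine ⟨g₁, g₂, g₃, ?_⟩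
  show ψ _ - ψ _ ∉ _
  rw [← map_sub]
  exact s59m1u_psi_unit ψ h

/-- **(U)** the hypothesis `hU` of `s59m1b_notFaithful`, LITERAL shape, for `ψ₀ = ψ ∘ H.π`. -/
theorem s59m1u_hU (hNS : ∀ r : ℕ, r.Prime → r ∣ N → r ∈ S) :
    ∀ t₀ : GQ → 𝒪,
      IsPseudoChar2 (cycloCharO p (IsLocalRing.maximalIdeal 𝒪) hp𝒪) t₀ →
      (∀ (ℓ : ℕ) (hℓ : ℓ.Prime) (hℓN : ¬ ℓ ∣ N) (hℓS : ℓ ∉ (↑S : Set ℕ)),
        ∀ A : ValuationSubring (AlgebraicClosure ℚ), A.LiesOverPrime ℓ →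
          ∀ τ : GQ, A.IsFrobeniusAt τ ℓ →
            t₀ τ = ((ψ : T →+* 𝒪).comp H.π) (CuspForm.heckeAlgebra.T hℓ hℓN hℓS)) →
      (∀ k : ℕ, ∃ E : IntermediateField ℚ (AlgebraicClosure ℚ), FiniteDimensional ℚ E ∧
        ∀ σ : GQ, (∀ a ∈ E, σ a = a) → ∀ g : GQ,
          t₀ (σ * g) - t₀ g ∈ IsLocalRing.maximalIdeal 𝒪 ^ k) →
      ∃ g₁ g₂ g₃ : GQ, t₀ (g₁ * g₂ * g₃) - t₀ (g₂ * g₁ * g₃) ∉ IsLocalRing.maximalIdeal 𝒪 := by
  intro t₀ ht₀ hfrob₀ hc₀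
  have heq : s59m1uT H ψ = t₀ :=
    s59m1bc_pseudo_eq (maximalIdeal 𝒪) Cheb.weakChebotarev_holds
      (cycloCharO p (maximalIdeal 𝒪) hp𝒪) S (s59m1uT H ψ) t₀
      (s59m1u_trace_pseudo H ψ hp𝒪) ht₀
      (fun ℓ hℓ hℓS A hA τ hτ => by
        have hℓN : ¬ ℓ ∣ N := fun h => hℓS (hNS ℓ hℓ h)
        have hℓS' : ℓ ∉ (↑S : Set ℕ) := hℓS
        rw [s59m1u_trace_frob H ψ ℓ hℓ hℓN hℓS' A hA τ hτ, hfrob₀ ℓ hℓ hℓN hℓS' A hA τ hτ]
        rfl)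
      (s59m1u_trace_cont H ψ) hc₀
  rw [← heq]
  exact s59m1u_trace_unit H ψ

end U

end Fermat.Agent.S59
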