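import Fermat.Agent.S59.Eta.Mult1bUW

/-!
# S59, R2, piece E-MULT1b, step (U), family form (helper58)

The hypothesis `hU` of `s59m1b_mult1b` (helper31, `S59/Eta/Mult1bMain.lean`) in its LITERAL shape
(eigenvalues `ψ i` at a family of primes `ℓ i` covering the primes outside `S`), from the curve:
`W[p]` irreducible, `p` odd, `ψ i ≡ a_{ℓ i}(W)` modulo `𝔪` at the good primes.
-/

set_option autoImplicit false
set_option linter.unusedSectionVars false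
set_option linter.unusedVariables false

noncomputable section

namespace Fermat.Agent.S59

open Fermat.Agent.ES Fermat.Agent.S30 Fermat.Agent.S31 IsLocalRing

/-- **(U), family form**: `hU` of `s59m1b_mult1b` for eigenvalues congruent to `W`. -/
theorem s59m1bu_hU_family (W : WeierstrassCurve ℤ) (p : ℕ) [Fact p.Prime] (hΔ : W.Δ ≠ 0)
    (hp2 : p ≠ 2) (hirr : W.ModRepIsIrreducible p) (S : Finset ℕ)
    (𝒪 : Type) [CommRing 𝒪] [IsLocalRing 𝒪] [IsAdicComplete (maximalIdeal 𝒪) 𝒪]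
    (hp𝒪 : (p : 𝒪) ∈ maximalIdeal 𝒪)
    {ι : Type} (ℓ : ι → ℕ)
    (hcov : ∀ r : ℕ, r.Prime → r ∉ S → ∃ i, ℓ i = r)
    (ψ : ι → 𝒪)
    (hψ : ∀ i, (ℓ i).Prime → ℓ i ∉ S → ℓ i ≠ p → ¬ ((ℓ i : ℕ) : ℤ) ∣ W.Δ →
      ψ i - ((W.apOfModel (ℓ i) : ℤ) : 𝒪) ∈ maximalIdeal 𝒪) :
    ∀ t₀ : GQ → 𝒪,
      IsPseudoChar2 (cycloCharO p (maximalIdeal 𝒪) hp𝒪) t₀ →
      (∀ i, ℓ i ∉ S → ∀ A : ValuationSubring (AlgebraicClosure ℚ), A.LiesOverPrime (ℓ i) →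
        ∀ τ : GQ, A.IsFrobeniusAt τ (ℓ i) → t₀ τ = ψ i) →
      (∀ k : ℕ, ∃ E : IntermediateField ℚ (AlgebraicClosure ℚ), FiniteDimensional ℚ E ∧
        ∀ σ : GQ, (∀ a ∈ E, σ a = a) → ∀ g : GQ,
          t₀ (σ * g) - t₀ g ∈ maximalIdeal 𝒪 ^ k) →
      ∃ g₁ g₂ g₃ : GQ, t₀ (g₁ * g₂ * g₃) - t₀ (g₂ * g₁ * g₃) ∉ maximalIdeal 𝒪 := by
  intro t₀ ht₀ hfr hcont
  refine s59m1bu_unit W p hΔ hp2 hirr hp𝒪 S _ t₀ ht₀ ?_ ?_
  · intro r hr hrS hrp hrΔ A hA τ hτ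
    obtain ⟨i, rfl⟩ := hcov r hr hrS
    refine ⟨?_, ?_⟩
    · rw [hfr i hrS A hA τ hτ]
      exact hψ i hr hrS hrp hrΔ
    · rw [cycloCharO_frob p (maximalIdeal 𝒪) hp𝒪 (ℓ i) hr hrp A hA τ hτ, sub_self]
      exact Ideal.zero_mem _
  · obtain ⟨E, hE, h⟩ := hcont 1
    refine ⟨E, hE, fun σ hσ g => ?_⟩
    have := h σ hσ g
    rwa [pow_one] at this

end Fermat.Agent.S59
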