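import Mathlib
import Fermat.Agent.S59.Eta.GramInj
import Fermat.Agent.S59.Eta.GramBridge

/-!
# S59 ETA-P, piece **P-INJ** (helper80): `(ξ₀, ξ₁) = (res, res^δ)` is injective

`q` prime, `q ∤ N` (NOTHING about `q` versus the residue characteristic), `𝒪` a domain of
characteristic `0`.  `ξ†ξ = [[q + 1, T_q], [T_q, q + 1]]` and `(q + 1)² − T_q²` is injective
(E-PET), so `ξ₀ W₀ + ξ₁ W₁ = 0 ⇒ W₀ = 0 ∧ W₁ = 0`.

* `s59etpi_abs_elim`     : the abstract elimination;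
* `s59etpi_inj_gram`     : over `ℤ` (names of `Gram.lean`), `s59etpi_injZ` (names of E-BC);
* `s59etpi_inj_bc_gram`  : over `𝒪` (names of `Gram.lean`);
* **`s59etpi_hinj`**     : the literal `hinj` of `s59etp_hmult` / `s59etp_step` / `s59etp_step_D`
  (`PStepAbs.lean`) for `ξ₀ = (s59bcResZ N q).baseChange 𝒪`, `ξ₁ = (s59bcResDZ N q).baseChange 𝒪`.
-/

set_option autoImplicit false
set_option linter.style.haveILetI false
set_option linter.unusedSectionVars false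
set_option linter.unusedSimpArgs false
set_option linter.unusedVariables false

noncomputable section

namespace Fermat.Agent.S59

open CongruenceSubgroup Matrix Fermat.Agent.S41 Fermat.Agent.S41.PD TensorProduct
open scoped MatrixGroups

section abs

variable {R : Type*} [CommRing R] {L : Type*} [AddCommGroup L] [Module R L]

/-- the abstract elimination for the Gram matrix `[[c, T], [T, c]]` -/
theorem s59etpi_abs_elim (T : L →ₗ[R] L) (c : R)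
    (hc : ∀ y : L, c • y = 0 → y = 0)
    (hpet : ∀ y : L, T (T y) = c ^ 2 • y → y = 0)
    (w₀ w₁ : L) (h0 : c • w₀ + T w₁ = 0) (h1 : T w₀ + c • w₁ = 0) :
    w₀ = 0 ∧ w₁ = 0 := by
  have e0 : T w₁ = -(c • w₀) := by
    rw [eq_neg_iff_add_eq_zero, add_comm]
    exact h0
  have e1 : T w₀ = -(c • w₁) := by
    rw [eq_neg_iff_add_eq_zero]
    exact h1
  have hw₀ : w₀ = 0 := by
    apply hpet
    rw [e1, map_neg, map_smul, e0, smul_neg, neg_neg, smul_smul, ← pow_two]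
  refine ⟨hw₀, hc w₁ ?_⟩
  rw [hw₀, map_zero] at e1
  have := neg_eq_zero.mp e1.symm
  exact this

end abs

/-! ## Over `ℤ` -/

section overZ

variable (N q : ℕ) [NeZero N] [NeZero q] [hq : Fact q.Prime]

/-- **(P-INJ over `ℤ`)**, names of `Gram.lean`. -/
theorem s59etpi_inj_gram (hqN : ¬ q ∣ N) : ∀ w₀ w₁ : Lpar N,
    s59gramRes N q w₀ + s59gramResD N q w₁ = 0 → w₀ = 0 ∧ w₁ = 0 := by
  intro w₀ w₁ h
  refine s59etpi_abs_elim (s59gramT N q) ((q : ℤ) + 1)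
    (fun y hy => (smul_eq_zero.mp hy).resolve_left s59gram_q_add_one_ne_zero)
    (s59gram_pet hqN) w₀ w₁ ?_ ?_
  · have h' := congrArg (s59gramCores N q) h
    rw [map_add, map_zero, s59gram_cores_res hqN, s59gram_cores_resD hqN] at h'
    exact h'
  · have h' := congrArg (s59gramCoresD N q) h
    rw [map_add, map_zero, s59gram_coresD_res, s59gram_coresD_resD hqN] at h'
    exact h'

/-- **(P-INJ over `ℤ`)**, names of E-BC. -/
theorem s59etpi_injZ (hqN : ¬ q ∣ N) : ∀ w₀ w₁ : Lpar N,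
    s59bcResZ N q w₀ + s59bcResDZ N q w₁ = 0 → w₀ = 0 ∧ w₁ = 0 := by
  have h := s59etpi_inj_gram N q hqN
  rw [s59gramRes_eq_bc, s59gramResD_eq_bc] at h
  exact h

end overZ

/-! ## The operator Gram matrix over `𝒪` -/

section opbc

variable (𝒪 : Type*) [CommRing 𝒪] (N q : ℕ) [NeZero N] [NeZero q] [hq : Fact q.Prime]

theorem s59etpi_op_bc_00 (hqN : ¬ q ∣ N) (X : 𝒪 ⊗[ℤ] Lpar N) :
    (s59gramCores N q).baseChange 𝒪 ((s59gramRes N q).baseChange 𝒪 X) = ((q : 𝒪) + 1) • X := by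
  rw [s59gram_bc_op 𝒪 (s59gramRes N q) (s59gramCores N q)
    (((q : ℤ) + 1) • LinearMap.id) (s59gram_cores_res hqN), s59gram_bc_smul_id]
  push_cast
  rfl

theorem s59etpi_op_bc_01 (hqN : ¬ q ∣ N) (X : 𝒪 ⊗[ℤ] Lpar N) :
    (s59gramCores N q).baseChange 𝒪 ((s59gramResD N q).baseChange 𝒪 X) =
      (s59gramT N q).baseChange 𝒪 X :=
  s59gram_bc_op 𝒪 (s59gramResD N q) (s59gramCores N q) (s59gramT N q)
    (s59gram_cores_resD hqN) X

theorem s59etpi_op_bc_10 (X : 𝒪 ⊗[ℤ] Lpar N) :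
    (s59gramCoresD N q).baseChange 𝒪 ((s59gramRes N q).baseChange 𝒪 X) =
      (s59gramT N q).baseChange 𝒪 X :=
  s59gram_bc_op 𝒪 (s59gramRes N q) (s59gramCoresD N q) (s59gramT N q)
    s59gram_coresD_res X

theorem s59etpi_op_bc_11 (hqN : ¬ q ∣ N) (X : 𝒪 ⊗[ℤ] Lpar N) :
    (s59gramCoresD N q).baseChange 𝒪 ((s59gramResD N q).baseChange 𝒪 X) =
      ((q : 𝒪) + 1) • X := by
  rw [s59gram_bc_op 𝒪 (s59gramResD N q) (s59gramCoresD N q)
    (((q : ℤ) + 1) • LinearMap.id) (s59gram_coresD_resD hqN), s59gram_bc_smul_id]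
  push_cast
  rfl

end opbc

/-! ## The operator Gram matrix over `𝒪`, names of E-BC -/

section opbcZ

variable (𝒪 : Type*) [CommRing 𝒪] (N q : ℕ) [NeZero N] [NeZero q] [hq : Fact q.Prime]

/-- `cores ∘ res = q + 1` over `𝒪` -/
theorem s59etpi_op_00 (hqN : ¬ q ∣ N) (X : 𝒪 ⊗[ℤ] Lpar N) :
    (s59bcCoresZ N q).baseChange 𝒪 ((s59bcResZ N q).baseChange 𝒪 X) = ((q : 𝒪) + 1) • X := by
  have h := s59etpi_op_bc_00 𝒪 N q hqN X
  rw [s59gramRes_eq_bc, s59gramCores_eq_bc] at h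
  exact h

/-- `cores ∘ res^δ = T_q` over `𝒪` -/
theorem s59etpi_op_01 (hqN : ¬ q ∣ N) (X : 𝒪 ⊗[ℤ] Lpar N) :
    (s59bcCoresZ N q).baseChange 𝒪 ((s59bcResDZ N q).baseChange 𝒪 X) =
      (s59bcTcZ N q hqN).baseChange 𝒪 X := by
  have h := s59etpi_op_bc_01 𝒪 N q hqN X
  rw [s59gramResD_eq_bc, s59gramCores_eq_bc, s59gramT_eq_bc N q hqN] at h
  exact h

/-- `cores^δ ∘ res = T_q` over `𝒪` -/
theorem s59etpi_op_10 (hqN : ¬ q ∣ N) (X : 𝒪 ⊗[ℤ] Lpar N) :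
    (s59bcCoresDZ N q).baseChange 𝒪 ((s59bcResZ N q).baseChange 𝒪 X) =
      (s59bcTcZ N q hqN).baseChange 𝒪 X := by
  have h := s59etpi_op_bc_10 𝒪 N q X
  rw [s59gramRes_eq_bc, s59gramCoresD_eq_bc, s59gramT_eq_bc N q hqN] at h
  exact h

/-- `cores^δ ∘ res^δ = q + 1` over `𝒪` -/
theorem s59etpi_op_11 (hqN : ¬ q ∣ N) (X : 𝒪 ⊗[ℤ] Lpar N) :
    (s59bcCoresDZ N q).baseChange 𝒪 ((s59bcResDZ N q).baseChange 𝒪 X) = ((q : 𝒪) + 1) • X := by
  have h := s59etpi_op_bc_11 𝒪 N q hqN X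
  rw [s59gramResD_eq_bc, s59gramCoresD_eq_bc] at h
  exact h

end opbcZ

/-! ## Injectivity over a domain of characteristic `0` -/

section injbc

variable (𝒪 : Type) [CommRing 𝒪] [IsDomain 𝒪] [CharZero 𝒪]
  (N q : ℕ) [NeZero N] [NeZero q] [hq : Fact q.Prime]

/-- **(P-INJ over `𝒪`)**, names of `Gram.lean`. -/
theorem s59etpi_inj_bc_gram (hqN : ¬ q ∣ N) : ∀ W₀ W₁ : 𝒪 ⊗[ℤ] Lpar N,
    (s59gramRes N q).baseChange 𝒪 W₀ + (s59gramResD N q).baseChange 𝒪 W₁ = 0 →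
      W₀ = 0 ∧ W₁ = 0 := by
  intro W₀ W₁ h
  haveI : NoZeroSMulDivisors 𝒪 (𝒪 ⊗[ℤ] Lpar N) := s59bcc_noZeroSMulDivisors 𝒪 (Lpar N)
  refine s59etpi_abs_elim ((s59gramT N q).baseChange 𝒪) ((q : 𝒪) + 1)
    (fun y hy => (smul_eq_zero.mp hy).resolve_left (s59gram_q_add_one_ne_zero' 𝒪 q))
    (s59gram_pet_bc 𝒪 N q hqN) W₀ W₁ ?_ ?_
  · have h' := congrArg ((s59gramCores N q).baseChange 𝒪) h
    rw [map_add, map_zero, s59etpi_op_bc_00 𝒪 N q hqN, s59etpi_op_bc_01 𝒪 N q hqN] at h'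
    exact h'
  · have h' := congrArg ((s59gramCoresD N q).baseChange 𝒪) h
    rw [map_add, map_zero, s59etpi_op_bc_10 𝒪 N q, s59etpi_op_bc_11 𝒪 N q hqN] at h'
    exact h'

/-- **(P-INJ)** the literal `hinj` of `s59etp_hmult` / `s59etp_step` / `s59etp_step_D`,
names of E-BC. -/
theorem s59etpi_hinj (hqN : ¬ q ∣ N) : ∀ W₀ W₁ : 𝒪 ⊗[ℤ] Lpar N,
    (s59bcResZ N q).baseChange 𝒪 W₀ + (s59bcResDZ N q).baseChange 𝒪 W₁ = 0 →
      W₀ = 0 ∧ W₁ = 0 := by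
  have h := s59etpi_inj_bc_gram 𝒪 N q hqN
  rw [s59gramRes_eq_bc, s59gramResD_eq_bc] at h
  exact h

/-- **E-PET over `𝒪`** in the names of E-BC: `T_q² − (q + 1)²` is injective on `𝒪 ⊗ Lpar N`. -/
theorem s59etpi_pet (hqN : ¬ q ∣ N) (Y : 𝒪 ⊗[ℤ] Lpar N)
    (h : (s59bcTcZ N q hqN).baseChange 𝒪 ((s59bcTcZ N q hqN).baseChange 𝒪 Y) =
      ((q : 𝒪) + 1) ^ 2 • Y) : Y = 0 := by
  have h' := s59gram_pet_bc 𝒪 N q hqN Y
  rw [s59gramT_eq_bc N q hqN] at h'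
  exact h' h

end injbc

end Fermat.Agent.S59
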