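/-
S59 Route A, ETA-P (wall M5, R2 side), leaf **P-XFER** (helper56), part 3: THE DVR FORM.

`s59etpx_main_dvr` : `Λ, Λ', Λ''` finite free `ℤ`-modules, commuting `T i` on `Λ`, `T' i` on `Λ'`,
`c k : Λ' → Λ''`; `ℓ₁` a prime.  There is ONE complete discrete valuation ring `𝒪₁` of
characteristic `0` with finite residue field and `(ℓ₁ : 𝒪₁) ∈ 𝔪` such that for EVERY domain `𝒪`
of characteristic `0`: an eigensystem `ψ` over `𝒪` with eigenvectors `x ≠ 0` in `𝒪 ⊗ Λ`, `y ≠ 0`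
in `𝒪 ⊗ Λ'`, `c k y = 0`, gives an eigensystem `ψ₁` over `𝒪₁` with eigenvectors `x₁ ≠ 0`,
`y₁ ≠ 0`, `c k y₁ = 0`.

`s59etpx_mult1_dvr` : the contrapositive (multiplicity one over `𝒪₁` ⇒ over every `𝒪`).
-/
import Fermat.Agent.S59.Eta.Big
import Fermat.Agent.S59.Eta.PStepXferT

set_option autoImplicit false
set_option linter.unusedVariables false
set_option linter.unusedSectionVars false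
set_option linter.style.haveILetI false

noncomputable section

open TensorProduct IsLocalRing

namespace Fermat.Agent.S59

section XferDVR

variable {Λ : Type} [AddCommGroup Λ] [Module.Free ℤ Λ] [Module.Finite ℤ Λ]
  {Λ' : Type} [AddCommGroup Λ'] [Module.Free ℤ Λ'] [Module.Finite ℤ Λ']
  {Λ'' : Type} [AddCommGroup Λ''] [Module.Free ℤ Λ''] [Module.Finite ℤ Λ'']
  {ι κ : Type} (T : ι → Λ →ₗ[ℤ] Λ) (T' : ι → Λ' →ₗ[ℤ] Λ') (c : κ → Λ' →ₗ[ℤ] Λ'')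

/-- **P-XFER, DVR form** -/
theorem s59etpx_main_dvr (ℓ₁ : ℕ) [Fact ℓ₁.Prime] (hcomm : ∀ i j, T i * T j = T j * T i) :
    ∃ (𝒪₁ : Type) (_ : CommRing 𝒪₁) (_ : IsDomain 𝒪₁) (_ : IsDiscreteValuationRing 𝒪₁)
      (_ : IsAdicComplete (maximalIdeal 𝒪₁) 𝒪₁) (_ : Finite (ResidueField 𝒪₁))
      (_ : CharZero 𝒪₁),
      (ℓ₁ : 𝒪₁) ∈ maximalIdeal 𝒪₁ ∧
      ∀ (𝒪 : Type) [CommRing 𝒪] [IsDomain 𝒪] [CharZero 𝒪] (ψ : ι → 𝒪)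
        (x : 𝒪 ⊗[ℤ] Λ), x ≠ 0 → (∀ i, (T i).baseChange 𝒪 x = ψ i • x) →
        ∀ y : 𝒪 ⊗[ℤ] Λ', y ≠ 0 → (∀ i, (T' i).baseChange 𝒪 y = ψ i • y) →
          (∀ k, (c k).baseChange 𝒪 y = 0) →
          ∃ (ψ₁ : ι → 𝒪₁) (x₁ : 𝒪₁ ⊗[ℤ] Λ) (y₁ : 𝒪₁ ⊗[ℤ] Λ'), x₁ ≠ 0 ∧ y₁ ≠ 0 ∧
            (∀ i, (T i).baseChange 𝒪₁ x₁ = ψ₁ i • x₁) ∧
            (∀ i, (T' i).baseChange 𝒪₁ y₁ = ψ₁ i • y₁) ∧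
            ∀ k, (c k).baseChange 𝒪₁ y₁ = 0 := by
  obtain ⟨𝕋, i1, i2, H⟩ := s59etpx_main.{0, 0, 0} T T' c hcomm
  obtain ⟨𝒪₁, j1, j2, j3, j4, j5, j6, φ, j8, hinj, hℓ, hbig⟩ := s59big_exists_padic ℓ₁ 𝕋
  exact ⟨𝒪₁, j1, j2, j3, j4, j5, j6, hℓ, fun 𝒪 _ _ _ => H 𝒪₁ hbig 𝒪⟩

/-- **P-XFER, DVR form, multiplicity one** -/
theorem s59etpx_mult1_dvr (ℓ₁ : ℕ) [Fact ℓ₁.Prime] (hcomm : ∀ i j, T i * T j = T j * T i) :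
    ∃ (𝒪₁ : Type) (_ : CommRing 𝒪₁) (_ : IsDomain 𝒪₁) (_ : IsDiscreteValuationRing 𝒪₁)
      (_ : IsAdicComplete (maximalIdeal 𝒪₁) 𝒪₁) (_ : Finite (ResidueField 𝒪₁))
      (_ : CharZero 𝒪₁),
      (ℓ₁ : 𝒪₁) ∈ maximalIdeal 𝒪₁ ∧
      ((∀ (ψ₁ : ι → 𝒪₁) (x₁ : 𝒪₁ ⊗[ℤ] Λ), x₁ ≠ 0 →
          (∀ i, (T i).baseChange 𝒪₁ x₁ = ψ₁ i • x₁) →
          ∀ y₁ : 𝒪₁ ⊗[ℤ] Λ', (∀ i, (T' i).baseChange 𝒪₁ y₁ = ψ₁ i • y₁) →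
            (∀ k, (c k).baseChange 𝒪₁ y₁ = 0) → y₁ = 0) →
        ∀ (𝒪 : Type) [CommRing 𝒪] [IsDomain 𝒪] [CharZero 𝒪] (ψ : ι → 𝒪)
          (x : 𝒪 ⊗[ℤ] Λ), x ≠ 0 → (∀ i, (T i).baseChange 𝒪 x = ψ i • x) →
          ∀ y : 𝒪 ⊗[ℤ] Λ', (∀ i, (T' i).baseChange 𝒪 y = ψ i • y) →
            (∀ k, (c k).baseChange 𝒪 y = 0) → y = 0) := by
  obtain ⟨𝒪₁, j1, j2, j3, j4, j5, j6, hℓ, H⟩ := s59etpx_main_dvr T T' c ℓ₁ hcomm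
  refine ⟨𝒪₁, j1, j2, j3, j4, j5, j6, hℓ, ?_⟩
  intro h₁ 𝒪 _ _ _ ψ x hx hxe y hye hc
  by_contra hy
  obtain ⟨ψ₁, x₁, y₁, hx₁, hy₁, h1, h2, h3⟩ := H 𝒪 ψ x hx hxe y hy hye hc
  exact hy₁ (h₁ ψ₁ x₁ hx₁ h1 y₁ h2 h3)

end XferDVR

end Fermat.Agent.S59
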