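/-
S59 Route A, ETA-P (wall M5, R2 side), leaf **P-XFER** (helper56), part 3: THE CONCRETE LATTICES.

`s59etpx_mult1a_conc` : **E-MULT1a transfers between coefficient rings.**  For `N`, a prime `q`
and a family of primes `ℓ i ∤ N q` there is ONE `ℤ`-finite commutative ring `𝕋` (the ring
generated by the `T_{ℓ i}` on `Lpar N`) such that: if `𝒪₁` (a domain of characteristic `0`) is
big for `𝕋` and `s59m1r_StmtMult1a 𝒪₁ N q ℓ hNq ψ₁` holds for every eigensystem `ψ₁` which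
occurs in `𝒪₁ ⊗ Lpar N`, then `s59m1r_StmtMult1a 𝒪 N q ℓ hNq ψ` holds for every domain `𝒪` of
characteristic `0` and every eigensystem `ψ` which occurs in `𝒪 ⊗ Lpar N`.
NOTHING is assumed about `q` versus the residue characteristics of `𝒪`, `𝒪₁`.

`s59etpx_xfer_conc` : the same in the form `(ψ, x ≠ 0, u ≠ 0) over 𝒪 ⇒ (ψ₁, x₁ ≠ 0, u₁ ≠ 0)
over 𝒪₁`.
`s59etpx_xfer_conc_dvr`, `s59etpx_mult1a_conc_dvr` : with ONE complete discrete valuation ring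
`𝒪₁` of characteristic `0`, `(ℓ₁ : 𝒪₁) ∈ 𝔪` (from E-BIG, `s59big_exists_padic`).
-/
import Fermat.Agent.S59.Eta.Mult1bConc
import Fermat.Agent.S59.Eta.PStepXferT
import Fermat.Agent.S59.Eta.PStepXferD

set_option autoImplicit false
set_option linter.unusedVariables false
set_option linter.unusedSectionVars false
set_option linter.style.haveILetI false

noncomputable section

open TensorProduct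

namespace Fermat.Agent.S59

open CongruenceSubgroup Matrix Fermat.Agent.S41
open scoped MatrixGroups

section XferConc

variable (N q : ℕ) [NeZero N] [NeZero q] [hq : Fact q.Prime]
  {ι : Type} (ℓ : ι → ℕ) [hℓ : ∀ i, Fact (ℓ i).Prime]

/-- the two transfers `cores`, `cores^δ` as a family -/
def s59etpxCores : Bool → ↥(Lpar (N * q)) →ₗ[ℤ] ↥(Lpar N)
  | true => s59bcCoresZ N q
  | false => s59bcCoresDZ N q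

theorem s59etpx_Tc_comm (hN : ∀ i, ¬ ℓ i ∣ N) (i j : ι) :
    s59bcTcZ N (ℓ i) (hN i) * s59bcTcZ N (ℓ j) (hN j) =
      s59bcTcZ N (ℓ j) (hN j) * s59bcTcZ N (ℓ i) (hN i) :=
  LinearMap.ext fun x => s59bcTcZ_comm N (ℓ i) (hN i) (ℓ j) (hN j) x

/-- **P-XFER on the concrete lattices** -/
theorem s59etpx_xfer_conc (hN : ∀ i, ¬ ℓ i ∣ N) (hNq : ∀ i, ¬ ℓ i ∣ N * q) :
    ∃ (𝕋 : Type) (_ : CommRing 𝕋) (_ : Module.Finite ℤ 𝕋),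
      ∀ (𝒪₁ : Type) [CommRing 𝒪₁] [IsDomain 𝒪₁] [CharZero 𝒪₁],
        (∀ (B : Type) [CommRing B] [IsDomain B] [Algebra 𝒪₁ B] (χ : 𝕋 →+* B) (t : 𝕋),
          χ t ∈ Set.range (algebraMap 𝒪₁ B)) →
        ∀ (𝒪 : Type) [CommRing 𝒪] [IsDomain 𝒪] [CharZero 𝒪] (ψ : ι → 𝒪)
          (x : s59bccL 𝒪 (Lpar N)), x ≠ 0 →
          (∀ i, s59bccMap 𝒪 (s59bcTcZ N (ℓ i) (hN i)) x = ψ i • x) →
          ∀ u : s59bccL 𝒪 (Lpar (N * q)), u ≠ 0 →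
            (∀ i, s59bccMap 𝒪 (s59bcTcZ (N * q) (ℓ i) (hNq i)) u = ψ i • u) →
            s59bccMap 𝒪 (s59bcCoresZ N q) u = 0 → s59bccMap 𝒪 (s59bcCoresDZ N q) u = 0 →
            ∃ (ψ₁ : ι → 𝒪₁) (x₁ : s59bccL 𝒪₁ (Lpar N)) (u₁ : s59bccL 𝒪₁ (Lpar (N * q))),
              x₁ ≠ 0 ∧ u₁ ≠ 0 ∧
              (∀ i, s59bccMap 𝒪₁ (s59bcTcZ N (ℓ i) (hN i)) x₁ = ψ₁ i • x₁) ∧
              (∀ i, s59bccMap 𝒪₁ (s59bcTcZ (N * q) (ℓ i) (hNq i)) u₁ = ψ₁ i • u₁) ∧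
              s59bccMap 𝒪₁ (s59bcCoresZ N q) u₁ = 0 ∧
              s59bccMap 𝒪₁ (s59bcCoresDZ N q) u₁ = 0 := by
  obtain ⟨𝕋, i1, i2, H⟩ := s59etpx_main.{0, 0, 0}
    (fun i => s59bcTcZ N (ℓ i) (hN i)) (fun i => s59bcTcZ (N * q) (ℓ i) (hNq i))
    (s59etpxCores N q) (s59etpx_Tc_comm N ℓ hN)
  refine ⟨𝕋, i1, i2, ?_⟩
  intro 𝒪₁ _ _ _ hbig 𝒪 _ _ _ ψ x hx hxe u hu hue hc hd
  obtain ⟨ψ₁, x₁, u₁, hx₁, hu₁, h1, h2, h3⟩ := H 𝒪₁ hbig 𝒪 ψ x hx hxe u hu hue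
    (fun b => by
      cases b
      · exact hd
      · exact hc)
  exact ⟨ψ₁, x₁, u₁, hx₁, hu₁, h1, h2, h3 true, h3 false⟩

/-- **E-MULT1a transfers** from a big `𝒪₁` to every `𝒪` -/
theorem s59etpx_mult1a_conc (hN : ∀ i, ¬ ℓ i ∣ N) (hNq : ∀ i, ¬ ℓ i ∣ N * q) :
    ∃ (𝕋 : Type) (_ : CommRing 𝕋) (_ : Module.Finite ℤ 𝕋),
      ∀ (𝒪₁ : Type) [CommRing 𝒪₁] [IsDomain 𝒪₁] [CharZero 𝒪₁],
        (∀ (B : Type) [CommRing B] [IsDomain B] [Algebra 𝒪₁ B] (χ : 𝕋 →+* B) (t : 𝕋),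
          χ t ∈ Set.range (algebraMap 𝒪₁ B)) →
        (∀ (ψ₁ : ι → 𝒪₁) (x₁ : s59bccL 𝒪₁ (Lpar N)), x₁ ≠ 0 →
          (∀ i, s59bccMap 𝒪₁ (s59bcTcZ N (ℓ i) (hN i)) x₁ = ψ₁ i • x₁) →
          s59m1r_StmtMult1a 𝒪₁ N q ℓ hNq ψ₁) →
        ∀ (𝒪 : Type) [CommRing 𝒪] [IsDomain 𝒪] [CharZero 𝒪] (ψ : ι → 𝒪)
          (x : s59bccL 𝒪 (Lpar N)), x ≠ 0 →
          (∀ i, s59bccMap 𝒪 (s59bcTcZ N (ℓ i) (hN i)) x = ψ i • x) →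
          s59m1r_StmtMult1a 𝒪 N q ℓ hNq ψ := by
  obtain ⟨𝕋, i1, i2, H⟩ := s59etpx_xfer_conc N q ℓ hN hNq
  refine ⟨𝕋, i1, i2, ?_⟩
  intro 𝒪₁ _ _ _ hbig h₁ 𝒪 _ _ _ ψ x hx hxe u hue hc hd
  by_contra hu
  obtain ⟨ψ₁, x₁, u₁, hx₁, hu₁, h1, h2, h3, h4⟩ := H 𝒪₁ hbig 𝒪 ψ x hx hxe u hu hue hc hd
  exact hu₁ (h₁ ψ₁ x₁ hx₁ h1 u₁ h2 h3 h4)

/-- **P-XFER on the concrete lattices, DVR form** (the shape asked by helper71): ONE complete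
discrete valuation ring `𝒪₁` of characteristic `0`, finite residue field, `(ℓ₁ : 𝒪₁) ∈ 𝔪`,
receiving every eigensystem. -/
theorem s59etpx_xfer_conc_dvr (ℓ₁ : ℕ) [Fact ℓ₁.Prime] (hN : ∀ i, ¬ ℓ i ∣ N)
    (hNq : ∀ i, ¬ ℓ i ∣ N * q) :
    ∃ (𝒪₁ : Type) (_ : CommRing 𝒪₁) (_ : IsDomain 𝒪₁) (_ : IsDiscreteValuationRing 𝒪₁)
      (_ : IsAdicComplete (IsLocalRing.maximalIdeal 𝒪₁) 𝒪₁)
      (_ : Finite (IsLocalRing.ResidueField 𝒪₁)) (_ : CharZero 𝒪₁),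
      (ℓ₁ : 𝒪₁) ∈ IsLocalRing.maximalIdeal 𝒪₁ ∧
      ∀ (𝒪 : Type) [CommRing 𝒪] [IsDomain 𝒪] [CharZero 𝒪] (ψ : ι → 𝒪)
        (x : s59bccL 𝒪 (Lpar N)), x ≠ 0 →
        (∀ i, s59bccMap 𝒪 (s59bcTcZ N (ℓ i) (hN i)) x = ψ i • x) →
        ∀ u : s59bccL 𝒪 (Lpar (N * q)), u ≠ 0 →
          (∀ i, s59bccMap 𝒪 (s59bcTcZ (N * q) (ℓ i) (hNq i)) u = ψ i • u) →
          s59bccMap 𝒪 (s59bcCoresZ N q) u = 0 → s59bccMap 𝒪 (s59bcCoresDZ N q) u = 0 →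
          ∃ (ψ₁ : ι → 𝒪₁) (x₁ : s59bccL 𝒪₁ (Lpar N)) (u₁ : s59bccL 𝒪₁ (Lpar (N * q))),
            x₁ ≠ 0 ∧ u₁ ≠ 0 ∧
            (∀ i, s59bccMap 𝒪₁ (s59bcTcZ N (ℓ i) (hN i)) x₁ = ψ₁ i • x₁) ∧
            (∀ i, s59bccMap 𝒪₁ (s59bcTcZ (N * q) (ℓ i) (hNq i)) u₁ = ψ₁ i • u₁) ∧
            s59bccMap 𝒪₁ (s59bcCoresZ N q) u₁ = 0 ∧
            s59bccMap 𝒪₁ (s59bcCoresDZ N q) u₁ = 0 := by
  obtain ⟨𝕋, i1, i2, H⟩ := s59etpx_xfer_conc N q ℓ hN hNq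
  obtain ⟨𝒪₁, j1, j2, j3, j4, j5, j6, φ, j8, hinj, hℓ₁, hbig⟩ := s59big_exists_padic ℓ₁ 𝕋
  exact ⟨𝒪₁, j1, j2, j3, j4, j5, j6, hℓ₁, fun 𝒪 _ _ _ => H 𝒪₁ hbig 𝒪⟩

/-- **E-MULT1a transfers, DVR form**: there is ONE complete discrete valuation ring `𝒪₁` of
characteristic `0` with `(ℓ₁ : 𝒪₁) ∈ 𝔪` such that E-MULT1a over `𝒪₁` (for the eigensystems
occurring at level `N`) implies E-MULT1a over every domain `𝒪` of characteristic `0`. -/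
theorem s59etpx_mult1a_conc_dvr (ℓ₁ : ℕ) [Fact ℓ₁.Prime] (hN : ∀ i, ¬ ℓ i ∣ N)
    (hNq : ∀ i, ¬ ℓ i ∣ N * q) :
    ∃ (𝒪₁ : Type) (_ : CommRing 𝒪₁) (_ : IsDomain 𝒪₁) (_ : IsDiscreteValuationRing 𝒪₁)
      (_ : IsAdicComplete (IsLocalRing.maximalIdeal 𝒪₁) 𝒪₁)
      (_ : Finite (IsLocalRing.ResidueField 𝒪₁)) (_ : CharZero 𝒪₁),
      (ℓ₁ : 𝒪₁) ∈ IsLocalRing.maximalIdeal 𝒪₁ ∧
      ((∀ (ψ₁ : ι → 𝒪₁) (x₁ : s59bccL 𝒪₁ (Lpar N)), x₁ ≠ 0 →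
          (∀ i, s59bccMap 𝒪₁ (s59bcTcZ N (ℓ i) (hN i)) x₁ = ψ₁ i • x₁) →
          s59m1r_StmtMult1a 𝒪₁ N q ℓ hNq ψ₁) →
        ∀ (𝒪 : Type) [CommRing 𝒪] [IsDomain 𝒪] [CharZero 𝒪] (ψ : ι → 𝒪)
          (x : s59bccL 𝒪 (Lpar N)), x ≠ 0 →
          (∀ i, s59bccMap 𝒪 (s59bcTcZ N (ℓ i) (hN i)) x = ψ i • x) →
          s59m1r_StmtMult1a 𝒪 N q ℓ hNq ψ) := by
  obtain ⟨𝕋, i1, i2, H⟩ := s59etpx_mult1a_conc N q ℓ hN hNq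
  obtain ⟨𝒪₁, j1, j2, j3, j4, j5, j6, φ, j8, hinj, hℓ₁, hbig⟩ := s59big_exists_padic ℓ₁ 𝕋
  exact ⟨𝒪₁, j1, j2, j3, j4, j5, j6, hℓ₁, fun h₁ 𝒪 _ _ _ => H 𝒪₁ hbig h₁ 𝒪⟩

end XferConc

end Fermat.Agent.S59
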