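/-
S59 Route A, ETA′ (wall R2), piece E-SAT → `hsat` (helper68): the ABSTRACT derivation of the
hypothesis `hsat` of `s59r2_step_abs` / `s59r2_hmult_abs` (`S59/Eta/PlanR2.lean`) from

* (E-SAT)  `s59sat_StmtSat` in its abstract shape `hker`: modulo `ϖ`, the kernel of
           `ξ̄ = ξ̄₀ + ξ̄₁ + ξ̄₂` is killed by `D̄ D̄'` (`D = T_ℓ − (ℓ + 1)`);
* (E-BC)   the reduction maps `r : L → H`, `r' : L' → H'` (`H = Hom_par(Γ₀(N), 𝒪/ϖ)`), with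
           `ker r ⊆ ϖ L`, `r' (ϖ y') = 0`, compatible with `ξ_i` and with `D`, `D'`;
* (E-LOC + E-NE) `D`, `D'` are injective modulo `ϖ` on `L` (non-Eisenstein localisation).
-/
import Mathlib
import Fermat.Agent.S59.Eta.PlanR2

set_option autoImplicit false
set_option linter.unusedSectionVars false
set_option linter.unusedVariables false

namespace Fermat.Agent.S59

section hsat

variable {𝒪 : Type*} [CommRing 𝒪] {L L' : Type*} [AddCommGroup L] [Module 𝒪 L]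
  [AddCommGroup L'] [Module 𝒪 L'] {H H' : Type*} [AddCommGroup H] [AddCommGroup H']

/-- **(hsat), abstract.**  `ξ₀ w₀ + ξ₁ w₁ + ξ₂ w₂ ∈ ϖ L'` forces `w₀, w₁, w₂ ∈ ϖ L`. -/
theorem s59sat_hsat_abs (ϖ : 𝒪) (ξ₀ ξ₁ ξ₂ : L →ₗ[𝒪] L') (D D' : L → L)
    (r : L →+ H) (r' : L' →+ H') (P : AddSubgroup H)
    (ξb₀ ξb₁ ξb₂ : H →+ H') (Db Db' : H → H)
    (hrP : ∀ w : L, r w ∈ P)
    (hrker : ∀ w : L, r w = 0 → ∃ v : L, w = ϖ • v)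
    (hr' : ∀ y' : L', r' (ϖ • y') = 0)
    (hξ : ∀ w : L, r' (ξ₀ w) = ξb₀ (r w) ∧ r' (ξ₁ w) = ξb₁ (r w) ∧ r' (ξ₂ w) = ξb₂ (r w))
    (hD : ∀ w : L, r (D w) = Db (r w)) (hD' : ∀ w : L, r (D' w) = Db' (r w))
    (hker : ∀ x ∈ P, ∀ y ∈ P, ∀ z ∈ P, ξb₀ x + ξb₁ y + ξb₂ z = 0 →
      Db (Db' x) = 0 ∧ Db (Db' y) = 0 ∧ Db (Db' z) = 0)
    (hDinj : ∀ w : L, (∃ v : L, D w = ϖ • v) → ∃ v : L, w = ϖ • v)
    (hD'inj : ∀ w : L, (∃ v : L, D' w = ϖ • v) → ∃ v : L, w = ϖ • v) :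
    ∀ (w₀ w₁ w₂ : L) (y' : L'), ξ₀ w₀ + ξ₁ w₁ + ξ₂ w₂ = ϖ • y' →
      ∃ v₀ v₁ v₂ : L, w₀ = ϖ • v₀ ∧ w₁ = ϖ • v₁ ∧ w₂ = ϖ • v₂ := by
  intro w₀ w₁ w₂ y' h
  have h1 : ξb₀ (r w₀) + ξb₁ (r w₁) + ξb₂ (r w₂) = 0 := by
    rw [← (hξ w₀).1, ← (hξ w₁).2.1, ← (hξ w₂).2.2, ← map_add, ← map_add, h, hr']
  obtain ⟨k₀, k₁, k₂⟩ := hker _ (hrP w₀) _ (hrP w₁) _ (hrP w₂) h1
  have key : ∀ w : L, Db (Db' (r w)) = 0 → ∃ v : L, w = ϖ • v := by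
    intro w hw
    rw [← hD', ← hD] at hw
    exact hD'inj w (hDinj _ (hrker _ hw))
  obtain ⟨v₀, hv₀⟩ := key w₀ k₀
  obtain ⟨v₁, hv₁⟩ := key w₁ k₁
  obtain ⟨v₂, hv₂⟩ := key w₂ k₂
  exact ⟨v₀, v₁, v₂, hv₀, hv₁, hv₂⟩

/-- An operator which is bijective on `L` is injective modulo `ϖ` (the shape `hDinj` above):
if `D` is `𝒪`-linear with a left inverse `E` (`E (D w) = w`), then `D w ∈ ϖ L ⇒ w ∈ ϖ L`. -/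
theorem s59sat_hDinj_of_leftInv (ϖ : 𝒪) (D E : L →ₗ[𝒪] L) (hED : ∀ w : L, E (D w) = w) :
    ∀ w : L, (∃ v : L, D w = ϖ • v) → ∃ v : L, w = ϖ • v := by
  rintro w ⟨v, hv⟩
  refine ⟨E v, ?_⟩
  rw [← map_smul, ← hv, hED]

end hsat

end Fermat.Agent.S59
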