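/-
S59 Route A, ETA′ (wall R2), piece E-SAT → `hsat` (helper68): the CONCRETE form of
`s59sat_hsat_abs`: `H = Hom(Γ₀(N), A)`, `H' = Hom(Γ₀(N q²), A)` (`A` killed by the odd prime
`p ≠ q`, e.g. `A = 𝒪/ϖ`), `P = Hom_par`, `ξ̄₀ = res res`, `ξ̄₁ = res res^δ`, `ξ̄₂ = res^δ res^δ`,
`D̄ = T_ℓ − (ℓ + 1)`; the kernel hypothesis is discharged by (E-SAT) `s59sat_stmtSat`.
-/
import Mathlib
import Fermat.Agent.S59.Eta.SatMain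
import Fermat.Agent.S59.Eta.SatHsat

set_option autoImplicit false
set_option linter.unusedSectionVars false
set_option linter.unusedVariables false

namespace Fermat.Agent.S59

open CongruenceSubgroup Matrix Fermat.Agent.S41
open scoped MatrixGroups

/-- **(hsat), concrete.**  Inputs left: the reduction maps `r`, `r'` (E-BC) and the
injectivity of `D_ℓ`, `D_ℓ'` modulo `ϖ` on `L` (E-LOC + E-NE). -/
theorem s59sat_hsat_conc (N q p : ℕ) [NeZero N] [NeZero q] [Fact q.Prime] [Fact p.Prime]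
    (hqN : ¬ q ∣ N) (hp2 : p ≠ 2) (hpq : p ≠ q)
    (A : Type) [AddCommGroup A] (hA : ∀ a : A, p • a = 0)
    (ℓ ℓ' : ℕ) [Fact ℓ.Prime] [Fact ℓ'.Prime] (hℓ : ¬ ℓ ∣ N) (hℓ' : ¬ ℓ' ∣ N)
    (hℓq : ¬ ℓ ∣ q) (hℓ'q : ¬ ℓ' ∣ q)
    {𝒪 : Type*} [CommRing 𝒪] {L L' : Type*} [AddCommGroup L] [Module 𝒪 L]
    [AddCommGroup L'] [Module 𝒪 L']
    (ϖ : 𝒪) (ξ₀ ξ₁ ξ₂ : L →ₗ[𝒪] L') (D D' : L → L)
    (r : L →+ HomG N A) (r' : L' →+ HomG (N * q * q) A)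
    (hrP : ∀ w : L, r w ∈ Hpar N A)
    (hrker : ∀ w : L, r w = 0 → ∃ v : L, w = ϖ • v)
    (hr' : ∀ y' : L', r' (ϖ • y') = 0)
    (hξ : ∀ w : L, r' (ξ₀ w) = res (N * q) q A (res N q A (r w)) ∧
      r' (ξ₁ w) = res (N * q) q A (resD N q A (r w)) ∧
      r' (ξ₂ w) = resD (N * q) q A (resD N q A (r w)))
    (hD : ∀ w : L, r (D w) = s59satD ℓ hℓ (r w))
    (hD' : ∀ w : L, r (D' w) = s59satD ℓ' hℓ' (r w))
    (hDinj : ∀ w : L, (∃ v : L, D w = ϖ • v) → ∃ v : L, w = ϖ • v)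
    (hD'inj : ∀ w : L, (∃ v : L, D' w = ϖ • v) → ∃ v : L, w = ϖ • v) :
    ∀ (w₀ w₁ w₂ : L) (y' : L'), ξ₀ w₀ + ξ₁ w₁ + ξ₂ w₂ = ϖ • y' →
      ∃ v₀ v₁ v₂ : L, w₀ = ϖ • v₀ ∧ w₁ = ϖ • v₁ ∧ w₂ = ϖ • v₂ :=
  s59sat_hsat_abs ϖ ξ₀ ξ₁ ξ₂ D D' r r' (Hpar N A)
    ((res (N * q) q A).comp (res N q A)) ((res (N * q) q A).comp (resD N q A))
    ((resD (N * q) q A).comp (resD N q A)) (s59satD ℓ hℓ) (s59satD ℓ' hℓ')
    hrP hrker hr' hξ hD hD'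
    (fun x hx y hy z hz h =>
      s59sat_stmtSat N q p hqN hp2 hpq A hA x y z hx hy hz h ℓ ℓ' hℓ hℓ' hℓq hℓ'q)
    hDinj hD'inj

end Fermat.Agent.S59
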