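/-
S59, Route A, ETA′ (deputy helper72), piece **E-TQ** (helper75), abstract part (Mathlib only).

"`T_q` is determined by the `T_ℓ`, `ℓ ≠ q`":

* `s59tq_abs` : `L` a torsion-free `𝒪`-module, separated for the `ϖ`-adic topology; `Tq` an
  endomorphism which for every `n` is congruent modulo `ϖⁿ` to an endomorphism `W` acting on `x`
  and on `y` by the same scalar.  If `Tq x = aq • x` and `x` is detected by a linear form,
  then `Tq y = aq • y`.
* `s59tq_sep` : a finite module over a Noetherian local ring is `ϖ`-adically separated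
  (`ϖ` in the maximal ideal) — Krull's intersection theorem.
* `s59tq_exists_form` : in a free module, every `x ≠ 0` is detected by a linear form.
* `s59tq_abs_free` : the combination, for `L` finite free over a Noetherian local domain.
-/
import Mathlib

set_option autoImplicit false

namespace Fermat.Agent.S59

open IsLocalRing

section Abs

variable {𝒪 L : Type*} [CommRing 𝒪] [AddCommGroup L] [Module 𝒪 L]

/-- **E-TQ, abstract core.** -/
theorem s59tq_abs (htf : ∀ (c : 𝒪) (z : L), c • z = 0 → c = 0 ∨ z = 0) (ϖ : 𝒪)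
    (hsep : ∀ z : L, (∀ n : ℕ, ∃ z' : L, z = ϖ ^ n • z') → z = 0)
    (Tq : Module.End 𝒪 L) (aq : 𝒪) (x : L) (f : L →ₗ[𝒪] 𝒪) (hfx : f x ≠ 0)
    (hx : Tq x = aq • x) (y : L)
    (happ : ∀ n : ℕ, ∃ (W : Module.End 𝒪 L) (c : 𝒪), W x = c • x ∧ W y = c • y ∧
      ∀ z : L, ∃ z' : L, Tq z - W z = ϖ ^ n • z') :
    Tq y = aq • y := by
  have key : f x • (Tq y - aq • y) = 0 := by
    apply hsep
    intro n
    obtain ⟨W, c, hWx, hWy, hW⟩ := happ n
    obtain ⟨z₁, hz₁⟩ := hW x
    obtain ⟨z₂, hz₂⟩ := hW y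
    rw [hx, hWx] at hz₁
    rw [hWy] at hz₂
    have h1 : (aq - c) * f x = ϖ ^ n * f z₁ := by
      have := congrArg f hz₁
      rw [map_sub, map_smul, map_smul, map_smul, smul_eq_mul, smul_eq_mul, smul_eq_mul] at this
      rw [sub_mul]
      exact this
    refine ⟨f x • z₂ - f z₁ • y, ?_⟩
    have h2 : Tq y - aq • y = (Tq y - c • y) - (aq - c) • y := by
      rw [sub_smul]; abel
    rw [h2, hz₂, smul_sub, smul_sub, smul_smul, smul_smul, smul_smul, smul_smul,
      mul_comm (f x) (aq - c), h1, mul_comm (f x) (ϖ ^ n)]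
  rcases htf _ _ key with h | h
  · exact absurd h hfx
  · exact sub_eq_zero.mp h

end Abs

section Sep

variable {𝒪 L : Type*} [CommRing 𝒪] [IsLocalRing 𝒪] [IsNoetherianRing 𝒪]
  [AddCommGroup L] [Module 𝒪 L] [Module.Finite 𝒪 L]

/-- Krull: a finite module over a Noetherian local ring is `ϖ`-adically separated. -/
theorem s59tq_sep (ϖ : 𝒪) (hϖ : ϖ ∈ maximalIdeal 𝒪) (z : L)
    (hz : ∀ n : ℕ, ∃ z' : L, z = ϖ ^ n • z') : z = 0 := by
  have hI : Ideal.span {ϖ} ≠ ⊤ := by
    intro h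
    have h1 : Ideal.span {ϖ} ≤ maximalIdeal 𝒪 :=
      (Ideal.span_singleton_le_iff_mem _).mpr hϖ
    rw [h] at h1
    exact (maximalIdeal.isMaximal 𝒪).ne_top (top_le_iff.mp h1)
  have hK := Ideal.iInf_pow_smul_eq_bot_of_isLocalRing (R := 𝒪) (M := L) (Ideal.span {ϖ}) hI
  have hmem : z ∈ (⨅ i : ℕ, (Ideal.span {ϖ}) ^ i • (⊤ : Submodule 𝒪 L)) := by
    rw [Submodule.mem_iInf]
    intro n
    obtain ⟨z', rfl⟩ := hz n
    refine Submodule.smul_mem_smul ?_ Submodule.mem_top
    exact Ideal.pow_mem_pow (Ideal.mem_span_singleton_self ϖ) n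
  rw [hK] at hmem
  exact (Submodule.mem_bot 𝒪).mp hmem

end Sep

section Free

variable {𝒪 L : Type*} [CommRing 𝒪] [AddCommGroup L] [Module 𝒪 L] [Module.Free 𝒪 L]

/-- in a free module every nonzero element is detected by a linear form -/
theorem s59tq_exists_form (x : L) (hx : x ≠ 0) : ∃ f : L →ₗ[𝒪] 𝒪, f x ≠ 0 := by
  classical
  let b := Module.Free.chooseBasis 𝒪 L
  by_contra hcon
  have hcon : ∀ f : L →ₗ[𝒪] 𝒪, f x = 0 := fun f => by
    by_contra h
    exact hcon ⟨f, h⟩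
  apply hx
  apply b.repr.injective
  ext i
  have := hcon (b.coord i)
  rw [Module.Basis.coord_apply] at this
  rw [this]
  simp

/-- a free module over a domain is torsion-free -/
theorem s59tq_torsionFree [IsDomain 𝒪] (c : 𝒪) (z : L) (h : c • z = 0) : c = 0 ∨ z = 0 := by
  classical
  let b := Module.Free.chooseBasis 𝒪 L
  by_cases hc : c = 0
  · exact Or.inl hc
  · right
    apply b.repr.injective
    ext i
    have h1 := congrArg (fun v => b.repr v i) h
    simp only [map_smul, Finsupp.smul_apply, smul_eq_mul, map_zero, Finsupp.zero_apply] at h1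
    rcases mul_eq_zero.mp h1 with h2 | h2
    · exact absurd h2 hc
    · rw [h2]; simp

end Free

section AbsFree

variable {𝒪 L : Type*} [CommRing 𝒪] [IsDomain 𝒪] [IsLocalRing 𝒪] [IsNoetherianRing 𝒪]
  [AddCommGroup L] [Module 𝒪 L] [Module.Finite 𝒪 L] [Module.Free 𝒪 L]

/-- **E-TQ, abstract form for a finite free module over a Noetherian local domain.** -/
theorem s59tq_abs_free (ϖ : 𝒪) (hϖ : ϖ ∈ maximalIdeal 𝒪)
    (Tq : Module.End 𝒪 L) (aq : 𝒪) (x : L) (hx0 : x ≠ 0) (hx : Tq x = aq • x) (y : L)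
    (happ : ∀ n : ℕ, ∃ (W : Module.End 𝒪 L) (c : 𝒪), W x = c • x ∧ W y = c • y ∧
      ∀ z : L, ∃ z' : L, Tq z - W z = ϖ ^ n • z') :
    Tq y = aq • y := by
  obtain ⟨f, hf⟩ := s59tq_exists_form (𝒪 := 𝒪) x hx0
  exact s59tq_abs s59tq_torsionFree ϖ (s59tq_sep ϖ hϖ) Tq aq x f hf hx y happ

end AbsFree

end Fermat.Agent.S59
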