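/-
S59, Route A, ETA′ (deputy helper72), piece **E-TQ** (helper75): the Prop `s59m1r_StmtTQ` of
helper8's `S59/Eta/Mult1bConc.lean` (input `hTQ` of `s59m1r_hrat_conc`), PROVED.

`s59tq_stmtTQ` : `ℓ i` a family of primes `∤ N` containing every prime outside a finite set `S`
(`S ⊇` the primes dividing `N p`), `q ∤ N p`.  If ONE `x ≠ 0` of `𝒪 ⊗ Lpar N` is a `ψ`-eigenvector
of the `T_{ℓ i}` with `T_q x = a • x`, then `s59m1r_StmtTQ 𝒪 N q ℓ hqN hN ψ a`.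
-/
import Fermat.Agent.S59.Eta.TqBC
import Fermat.Agent.S59.Eta.Mult1bConc

set_option autoImplicit false
set_option linter.style.haveILetI false
set_option linter.unusedSectionVars false

noncomputable section

namespace Fermat.Agent.S59

open CongruenceSubgroup Fermat.Agent.S41 IsLocalRing TensorProduct
open scoped MatrixGroups

/-- **E-TQ in helper8's shape** (unconditional). -/
theorem s59tq_stmtTQ {p : ℕ} [Fact p.Prime]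
    (𝒪 : Type) [CommRing 𝒪] [IsDomain 𝒪] [IsLocalRing 𝒪] [IsNoetherianRing 𝒪]
    (hp𝒪 : (p : 𝒪) ∈ maximalIdeal 𝒪)
    (N q : ℕ) [NeZero N] [NeZero q] [hq : Fact q.Prime]
    {ι : Type} (ℓ : ι → ℕ) [hℓ : ∀ i, Fact (ℓ i).Prime]
    (hqN : ¬ q ∣ N) (hqp : q ≠ p) (hN : ∀ i, ¬ ℓ i ∣ N) (ψ : ι → 𝒪) (a : 𝒪)
    (S : Finset ℕ) (hS : ∀ r : ℕ, r.Prime → r ∣ N * p → r ∈ S)
    (hall : ∀ r : ℕ, r.Prime → r ∉ S → ∃ i, ℓ i = r)
    (x : s59bccL 𝒪 (Lpar N)) (hx0 : x ≠ 0)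
    (hx : ∀ i, s59bccMap 𝒪 (s59bcTcZ N (ℓ i) (hN i)) x = ψ i • x)
    (hxq : s59bccMap 𝒪 (s59bcTcZ N q hqN) x = a • x) :
    s59m1r_StmtTQ 𝒪 N q ℓ hqN hN ψ a := by
  intro v hv
  refine s59tq_hTQ (N := N) (p := p) hp𝒪 S hS (fun i => s59bcTcZ N (ℓ i) (hN i)) ψ ?_
    q hqN hqp (s59bcTcZ N q hqN) (fun φ => rfl) a x hx0 ⟨hx, hxq⟩ v hv
  intro r hrP hr hrS
  obtain ⟨i, hi⟩ := hall r hrP.out hrS
  subst hi
  exact ⟨i, fun φ => rfl⟩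

end Fermat.Agent.S59
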